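/-
PROJECT AV (S26) — AV0 (helper4): the dictionary between the frozen `RelativeGroupLaw`
(a functorial group structure on `T`-points) and Mathlib's group objects `GrpObj (Over.mk f)`
in `Over (Spec K)`.

Main results:
* `grpObjOfLaw L : GrpObj (Over.mk f)`, `isCommMonObj_of_law`;
* `overHom_mul`, `overHom_one`, `overHom_inv`, `overHom_pow`: the group structure on
  `T ⟶ Over.mk f` is the one of `L`;
* `torsionPointsEquiv`: the `n`-torsion `K`-points of `L` are the `x : 𝟙_ ⟶ Over.mk f` with `x ^ n = 1`;
* `AbelianVarietyTorsionCount`: the Mathlib-style statement of S26, and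
  `s26_of_torsionCount`: the frozen S26 follows from it.
-/
import Mathlib
import Fermat.Prelude.Def_JacJ1Iface
import Fermat.Prelude.Def_GoodReductionJacobian_RelativeGroupLawKernel

set_option autoImplicit false
set_option linter.style.haveILetI false
universe u
open CategoryTheory CategoryTheory.Limits AlgebraicGeometry NeronModelInfra GoodReductionJacobian
open MonoidalCategory CartesianMonoidalCategory MonObj Opposite

noncomputable section

namespace Fermat.Agent.AV

variable {K : Type u} [Field K] {A : Scheme.{u}} {f : A ⟶ Spec (CommRingCat.of K)}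

/-- The base scheme `Spec K`. -/
abbrev baseS (K : Type u) [Field K] : Scheme.{u} := Spec (CommRingCat.of K)

/-- The presheaf of groups on `Over (Spec K)` given by a relative group law. -/
def lawPresheaf (L : RelativeGroupLaw K f) : (Over (baseS K))ᵒᵖ ⥤ GrpCat.{u} where
  obj T := @GrpCat.of (SchemeHomOver T.unop.hom f) (L.pointGroup T.unop.hom)
  map {T T'} φ :=
    letI := L.pointGroup T.unop.hom
    letI := L.pointGroup T'.unop.hom
    GrpCat.ofHom
      { toFun := schemeHomOverComp φ.unop.left (Over.w φ.unop)
        map_one' := L.one_natural T.unop.hom T'.unop.hom φ.unop.left (Over.w φ.unop)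
        map_mul' := fun x y =>
          L.mul_natural T.unop.hom T'.unop.hom φ.unop.left (Over.w φ.unop) x y }
  map_id T := by
    letI := L.pointGroup T.unop.hom
    ext x
    simp [schemeHomOverComp]
  map_comp {T T' T''} φ ψ := by
    letI := L.pointGroup T.unop.hom
    letI := L.pointGroup T'.unop.hom
    letI := L.pointGroup T''.unop.hom
    ext x
    simp [schemeHomOverComp]

/-- `Over.mk f` represents the presheaf of groups of a relative group law. -/
def lawRepresentableBy (L : RelativeGroupLaw K f) :
    (lawPresheaf L ⋙ forget GrpCat).RepresentableBy (Over.mk f) where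
  homEquiv {T} := (schemeHomOverEquivOverHom T.hom f).symm
  homEquiv_comp {T T'} φ x := by
    apply Subtype.ext
    rfl

/-- The group object structure on `Over.mk f` given by a relative group law. -/
@[reducible]
def grpObjOfLaw (L : RelativeGroupLaw K f) : GrpObj (Over.mk f) :=
  GrpObj.ofRepresentableBy (Over.mk f) (lawPresheaf L) (lawRepresentableBy L)

/-- The `T`-points of `Over.mk f` with the group structure of the group object are
multiplicatively equivalent to the `T`-points of the law. -/
def pointsMulEquiv (L : RelativeGroupLaw K f) (T : Over (baseS K)) :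
    letI := grpObjOfLaw L
    letI := L.pointGroup T.hom
    (T ⟶ Over.mk f) ≃* SchemeHomOver T.hom f :=
  letI := grpObjOfLaw L
  letI := L.pointGroup T.hom
  { toEquiv := (schemeHomOverEquivOverHom T.hom f).symm
    map_mul' := fun x y =>
      ((yonedaGrpObjIsoOfRepresentableBy (Over.mk f) (lawPresheaf L)
        (lawRepresentableBy L)).hom.app (op T)).hom.map_mul x y }

theorem pointsMulEquiv_apply (L : RelativeGroupLaw K f) (T : Over (baseS K))
    (x : T ⟶ Over.mk f) :
    letI := grpObjOfLaw L
    letI := L.pointGroup T.hom
    pointsMulEquiv L T x = overHomToSchemeHomOver x := rfl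

theorem pointsMulEquiv_symm_apply (L : RelativeGroupLaw K f) (T : Over (baseS K))
    (x : SchemeHomOver T.hom f) :
    letI := grpObjOfLaw L
    letI := L.pointGroup T.hom
    (pointsMulEquiv L T).symm x = schemeHomOverToOverHom x := rfl

/-- Dictionary: multiplication. -/
theorem overHom_mul (L : RelativeGroupLaw K f) (T : Over (baseS K)) (x y : T ⟶ Over.mk f) :
    letI := grpObjOfLaw L
    x * y = schemeHomOverToOverHom
      (L.mul T.hom (overHomToSchemeHomOver x) (overHomToSchemeHomOver y)) := by
  letI := grpObjOfLaw L
  letI := L.pointGroup T.hom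
  apply (pointsMulEquiv L T).injective
  rw [map_mul]
  rfl

/-- Dictionary: unit. -/
theorem overHom_one (L : RelativeGroupLaw K f) (T : Over (baseS K)) :
    letI := grpObjOfLaw L
    (1 : T ⟶ Over.mk f) = schemeHomOverToOverHom (L.one T.hom) := by
  letI := grpObjOfLaw L
  letI := L.pointGroup T.hom
  apply (pointsMulEquiv L T).injective
  rw [map_one]
  rfl

/-- Dictionary: inverse. -/
theorem overHom_inv (L : RelativeGroupLaw K f) (T : Over (baseS K)) (x : T ⟶ Over.mk f) :
    letI := grpObjOfLaw L
    x⁻¹ = schemeHomOverToOverHom (L.inv T.hom (overHomToSchemeHomOver x)) := by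
  letI := grpObjOfLaw L
  letI := L.pointGroup T.hom
  apply (pointsMulEquiv L T).injective
  rw [map_inv]
  rfl

/-- Dictionary: powers. -/
theorem overHom_pow (L : RelativeGroupLaw K f) (T : Over (baseS K)) (x : T ⟶ Over.mk f)
    (n : ℕ) :
    letI := grpObjOfLaw L
    x ^ n = schemeHomOverToOverHom (L.nsmul T.hom n (overHomToSchemeHomOver x)) := by
  letI := grpObjOfLaw L
  letI := L.pointGroup T.hom
  apply (pointsMulEquiv L T).injective
  rw [map_pow]
  induction n with
  | zero => rfl
  | succ n ih =>
    rw [pow_succ, ih]
    rfl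

/-- A commutative law gives a commutative group object. -/
theorem isCommMonObj_of_law (L : RelativeGroupLaw K f) (hc : L.IsCommutative) :
    letI := grpObjOfLaw L
    IsCommMonObj (Over.mk f) := by
  letI := grpObjOfLaw L
  rw [isCommMonObj_iff_isMulCommutative]
  intro T
  refine ⟨⟨fun x y => ?_⟩⟩
  rw [overHom_mul, overHom_mul, hc T.hom]

/-- The `n`-torsion `K`-points of the law are the `K`-points `x` of the group object
with `x ^ n = 1`. -/
def torsionPointsEquiv (L : RelativeGroupLaw K f) (n : ℕ) :
    letI := grpObjOfLaw L
    {x : SchemeHomOver (𝟙 (Spec (CommRingCat.of K))) f //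
        L.IsTorsionPoint (𝟙 (Spec (CommRingCat.of K))) n x} ≃
      {x : 𝟙_ (Over (Spec (CommRingCat.of K))) ⟶ Over.mk f // x ^ n = 1} :=
  letI := grpObjOfLaw L
  { toFun := fun x => ⟨schemeHomOverToOverHom x.1, by
      rw [overHom_pow, overHom_one]
      exact congrArg schemeHomOverToOverHom x.2⟩
    invFun := fun x => ⟨overHomToSchemeHomOver x.1, by
      have h : x.1 ^ n = 1 := x.2
      have h1 := overHom_pow L _ x.1 n
      have h2 := overHom_one L (𝟙_ (Over (Spec (CommRingCat.of K))))
      exact (schemeHomOverEquivOverHom _ f).injective (h1.symm.trans (h.trans h2))⟩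
    left_inv := fun x => Subtype.ext (overHomToSchemeHomOver_schemeHomOverToOverHom x.1)
    right_inv := fun x => Subtype.ext (schemeHomOverToOverHom_overHomToSchemeHomOver x.1) }

/-- **Mathlib-style form of S26**: for a commutative group object `G` of `Over (Spec K)`,
`K` algebraically closed, with `G → Spec K` proper and smooth of relative dimension `g` and
`G` connected, the number of `K`-points killed by `n` (invertible in `K`) is `n ^ (2 g)`. -/
def AbelianVarietyTorsionCount : Prop :=
  ∀ (K : Type u) [Field K] [IsAlgClosed K] (G : Over (Spec (CommRingCat.of K)))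
    [GrpObj G] [IsCommMonObj G] [IsProper G.hom] [Smooth G.hom] [ConnectedSpace G.left]
    (g : ℕ) [SmoothOfRelativeDimension g G.hom] (n : ℕ), (n : K) ≠ 0 →
    Nat.card {x : 𝟙_ (Over (Spec (CommRingCat.of K))) ⟶ G // x ^ n = 1} = n ^ (2 * g)

/-- The frozen statement S26, as a `Prop`. -/
def S26Statement : Prop :=
  ∀ (K : Type u) [Field K] [IsAlgClosed K] {A : Scheme.{u}} (f : A ⟶ Spec (CommRingCat.of K))
    (L : RelativeGroupLaw K f) (_ : L.IsCommutative) (_ : AbelianSchemePropertyBundle K f)
    (g : ℕ) [SmoothOfRelativeDimension g f] (n : ℕ) (_ : (n : K) ≠ 0),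
    Nat.card {x : SchemeHomOver (𝟙 (Spec (CommRingCat.of K))) f //
        L.IsTorsionPoint (𝟙 (Spec (CommRingCat.of K))) n x} = n ^ (2 * g)

/-- The total space of an abelian scheme bundle over a field is connected. -/
theorem connectedSpace_of_bundle (hA : AbelianSchemePropertyBundle K f) : ConnectedSpace A := by
  have h := hA.connectedFibres default
  have huniv : (f.base ⁻¹' {default}) = Set.univ := by
    ext x
    simp only [Set.mem_preimage, Set.mem_singleton_iff, Set.mem_univ, iff_true]
    exact Subsingleton.elim _ _
  rw [huniv] at h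
  exact connectedSpace_iff_univ.mpr h

/-- **AV0 reduction**: the frozen S26 follows from its Mathlib-style form. -/
theorem s26_of_torsionCount (H : AbelianVarietyTorsionCount.{u}) : S26Statement.{u} := by
  intro K _ _ A f L hc hA g _ n hn
  letI : GrpObj (Over.mk f) := grpObjOfLaw L
  haveI : IsCommMonObj (Over.mk f) := isCommMonObj_of_law L hc
  haveI : IsProper (Over.mk f).hom := hA.proper
  haveI : Smooth (Over.mk f).hom := hA.smooth
  haveI : ConnectedSpace (Over.mk f).left := connectedSpace_of_bundle hA
  haveI : SmoothOfRelativeDimension g (Over.mk f).hom := ‹SmoothOfRelativeDimension g f›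
  rw [Nat.card_congr (torsionPointsEquiv L n)]
  exact H K (Over.mk f) g n hn

end Fermat.Agent.AV
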