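/-
Project AV (S26), helper4: dimension link, scheme level.
For `X` integral and smooth of relative dimension `g` over a field `K`, the transcendence degree
of the function field of `X` over `K` is `g`: there is a transcendence basis with `g` elements,
and every finite transcendence basis / every Noether normalisation has exactly `g` elements.
The `K`-algebra structure on `X.functionField` is a parameter, required to be the natural one
(hypothesis `halg`; for helper6's `functionFieldAlgebra f` it holds by `fun _ _ => rfl`).
-/
import Fermat.Agent.AV.AV0_helper4_DimRing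

set_option autoImplicit false
universe u

namespace Fermat.Agent.AV

open CategoryTheory AlgebraicGeometry Cardinal

variable {K : Type u} [Field K] {X : Scheme.{u}}

/-- **Dimension link.** For `X` integral and smooth of relative dimension `g` over a field `K`,
the function field of `X` has a transcendence basis over `K` with exactly `g` elements. -/
theorem exists_isTranscendenceBasis_functionField (f : X ⟶ Spec (CommRingCat.of K)) {g : ℕ}
    [SmoothOfRelativeDimension g f] [IsIntegral X] [Algebra K X.functionField]
    (halg : ∀ (_ : Nonempty (⊤ : X.Opens)) (c : K), algebraMap K X.functionField c =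
      X.germToFunctionField ⊤ (f.appTop ((Scheme.ΓSpecIso (CommRingCat.of K)).inv c))) :
    ∃ x : Fin g → X.functionField, IsTranscendenceBasis K x := by
  obtain ⟨U, hU, V, hV, hxV, e, hstd⟩ :=
    SmoothOfRelativeDimension.exists_isStandardSmoothOfRelativeDimension (n := g) (f := f)
      (genericPoint X)
  have hneV : Nonempty V := ⟨⟨genericPoint X, hxV⟩⟩
  have hneT : Nonempty (⊤ : X.Opens) := ⟨⟨genericPoint X, trivial⟩⟩
  have hUtop : U = ⊤ := by
    ext y
    simp only [TopologicalSpace.Opens.coe_top, Set.mem_univ, iff_true]
    have : y = f (genericPoint X) := Subsingleton.elim _ _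
    rw [this]
    exact e hxV
  subst hUtop
  obtain ⟨φ, hφC, hφ⟩ := hstd.exists_etale_mvPolynomial
  let ψ : K ≃+* Γ(Spec (CommRingCat.of K), ⊤) :=
    (Scheme.ΓSpecIso (CommRingCat.of K)).symm.commRingCatIsoToRingEquiv
  have := functionField_isFractionRing_of_isAffineOpen X V hV
  refine exists_isTranscendenceBasis_of_etale_mvPolynomial (F := X.functionField) ψ
    (f.appLE ⊤ V e).hom φ hφC hφ ?_
  intro c
  rw [halg hneT c]
  show _ = X.germToFunctionField V ((f.appLE ⊤ V e).hom (ψ c))
  have h1 : (f.appLE ⊤ V e).hom (ψ c) =
      X.presheaf.map (homOfLE (le_top : V ≤ ⊤)).op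
        (f.appTop ((Scheme.ΓSpecIso (CommRingCat.of K)).inv c)) := by
    rfl
  rw [h1]
  exact (X.presheaf.germ_res_apply (homOfLE (le_top : V ≤ ⊤)) (genericPoint X) hxV _).symm

/-- every finite transcendence basis of the function field has exactly `g` elements. -/
theorem eq_of_isTranscendenceBasis_functionField (f : X ⟶ Spec (CommRingCat.of K)) {g : ℕ}
    [SmoothOfRelativeDimension g f] [IsIntegral X] [Algebra K X.functionField]
    (halg : ∀ (_ : Nonempty (⊤ : X.Opens)) (c : K), algebraMap K X.functionField c =
      X.germToFunctionField ⊤ (f.appTop ((Scheme.ΓSpecIso (CommRingCat.of K)).inv c)))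
    {d : ℕ} (x : Fin d → X.functionField) (hx : IsTranscendenceBasis K x) : d = g := by
  obtain ⟨y, hy⟩ := exists_isTranscendenceBasis_functionField (g := g) f halg
  exact eq_of_isTranscendenceBasis_fin x hx y hy

/-- the transcendence degree of the function field is `g`. -/
theorem trdeg_functionField (f : X ⟶ Spec (CommRingCat.of K)) {g : ℕ}
    [SmoothOfRelativeDimension g f] [IsIntegral X] [Algebra K X.functionField]
    (halg : ∀ (_ : Nonempty (⊤ : X.Opens)) (c : K), algebraMap K X.functionField c =
      X.germToFunctionField ⊤ (f.appTop ((Scheme.ΓSpecIso (CommRingCat.of K)).inv c))) :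
    Algebra.trdeg K X.functionField = g := by
  obtain ⟨y, hy⟩ := exists_isTranscendenceBasis_functionField (g := g) f halg
  have h := hy.lift_cardinalMk_eq_trdeg
  simpa using h.symm

/-- **the form consumed by AV4/AV5**: `d` algebraically independent rational functions over
which the function field is finite (e.g. a Noether normalisation of an affine open) ⇒ `d = g`. -/
theorem eq_of_algebraicIndependent_functionField (f : X ⟶ Spec (CommRingCat.of K)) {g : ℕ}
    [SmoothOfRelativeDimension g f] [IsIntegral X] [Algebra K X.functionField]
    (halg : ∀ (_ : Nonempty (⊤ : X.Opens)) (c : K), algebraMap K X.functionField c =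
      X.germToFunctionField ⊤ (f.appTop ((Scheme.ΓSpecIso (CommRingCat.of K)).inv c)))
    {d : ℕ} (x : Fin d → X.functionField) (hx : AlgebraicIndependent K x)
    [FiniteDimensional (IntermediateField.adjoin K (Set.range x)) X.functionField] : d = g :=
  eq_of_isTranscendenceBasis_functionField f halg x
    (isTranscendenceBasis_of_finiteDimensional_adjoin x hx)

end Fermat.Agent.AV
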