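/-
Project AV (S26), helper4: dimension link, ring level.
If a domain `B` is étale over `k[X₁,…,Xₙ]`, then `X₁,…,Xₙ` is a transcendence basis of `Frac B`
over `k`.  Mathlib only.
-/
import Mathlib

set_option autoImplicit false
universe u

namespace Fermat.Agent.AV

open TensorProduct Cardinal

/-- a flat algebra `B ≠ 0` over a domain `P` has injective structure map. -/
theorem algebraMap_injective_of_flat_of_nontrivial (P B : Type*) [CommRing P] [IsDomain P]
    [CommRing B] [Nontrivial B] [Algebra P B] [Module.Flat P B] :
    Function.Injective (algebraMap P B) := by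
  rw [injective_iff_map_eq_zero]
  intro a ha
  by_contra ha0
  have hreg : IsSMulRegular B a :=
    Module.Flat.isSMulRegular_of_nonZeroDivisors (mem_nonZeroDivisors_of_ne_zero ha0)
  have h1 : a • (1 : B) = a • (0 : B) := by
    rw [Algebra.smul_def, mul_one, ha, smul_zero]
  exact one_ne_zero (hreg h1)

/-- a quasi-finite flat algebra over a domain is algebraic. -/
theorem isAlgebraic_of_quasiFinite_of_flat (P B : Type*) [CommRing P] [IsDomain P]
    [CommRing B] [Algebra P B] [Module.Flat P B] [Algebra.QuasiFinite P B] :
    Algebra.IsAlgebraic P B := by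
  let L := FractionRing P
  let T := L ⊗[P] B
  have hfin : Module.Finite L T := Module.Finite.of_quasiFinite
  have hinj : Function.Injective (Algebra.TensorProduct.includeRight : B →ₐ[P] T) :=
    Algebra.TensorProduct.includeRight_injective (IsFractionRing.injective P L)
  constructor
  intro b
  have h1 : IsAlgebraic L ((Algebra.TensorProduct.includeRight : B →ₐ[P] T) b) :=
    (Algebra.IsIntegral.isIntegral (R := L) _).isAlgebraic
  have h2 : IsAlgebraic P ((Algebra.TensorProduct.includeRight : B →ₐ[P] T) b) :=
    (IsFractionRing.isAlgebraic_iff P L T).mpr h1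
  exact (isAlgebraic_algHom_iff _ hinj).mp h2

/-- If a domain `B` is étale over `k[X₁,…,Xₙ]`, then the images of the variables form a
transcendence basis of `Frac B` over `k`. -/
theorem isTranscendenceBasis_of_etale_mvPolynomial {k B F : Type*} [Field k] [CommRing B]
    [IsDomain B] [Algebra k B] {n : ℕ} [Algebra (MvPolynomial (Fin n) k) B]
    [IsScalarTower k (MvPolynomial (Fin n) k) B] [Algebra.Etale (MvPolynomial (Fin n) k) B]
    [Field F] [Algebra B F] [IsFractionRing B F] [Algebra k F] [IsScalarTower k B F] :
    IsTranscendenceBasis k (fun i : Fin n =>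
      algebraMap B F (algebraMap (MvPolynomial (Fin n) k) B (MvPolynomial.X i))) := by
  set P := MvPolynomial (Fin n) k with hP
  have hinjPB : Function.Injective (algebraMap P B) :=
    algebraMap_injective_of_flat_of_nontrivial P B
  have halgPB : Algebra.IsAlgebraic P B := isAlgebraic_of_quasiFinite_of_flat P B
  let _ : Algebra P F := ((algebraMap B F).comp (algebraMap P B)).toAlgebra
  have tPBF : IsScalarTower P B F := IsScalarTower.of_algebraMap_eq fun _ => rfl
  have tkPF : IsScalarTower k P F := IsScalarTower.of_algebraMap_eq fun c => by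
    rw [IsScalarTower.algebraMap_apply P B F, ← IsScalarTower.algebraMap_apply k P B,
      ← IsScalarTower.algebraMap_apply k B F]
  have hinjBF : Function.Injective (algebraMap B F) := IsFractionRing.injective B F
  have hinjPF : Function.Injective (algebraMap P F) := by
    rw [IsScalarTower.algebraMap_eq P B F]
    exact hinjBF.comp hinjPB
  have : FaithfulSMul P F := (faithfulSMul_iff_algebraMap_injective P F).mpr hinjPF
  have halgPF : Algebra.IsAlgebraic P F := (IsFractionRing.isAlgebraic_iff' P B F).mp halgPB
  set x : Fin n → F := fun i => algebraMap B F (algebraMap P B (MvPolynomial.X i)) with hx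
  have haeval : (MvPolynomial.aeval x : P →ₐ[k] F) = IsScalarTower.toAlgHom k P F := by
    apply MvPolynomial.algHom_ext
    intro i
    simp only [MvPolynomial.aeval_X, hx]
    rfl
  have hind : AlgebraicIndependent k x := by
    rw [algebraicIndependent_iff_injective_aeval, haeval]
    exact hinjPF
  rw [hind.isTranscendenceBasis_iff_isAlgebraic]
  refine Algebra.IsAlgebraic.ringHom_of_comp_eq (R := P) (A := F)
    (hind.aevalEquiv : P →+* Algebra.adjoin k (Set.range x)) (RingHom.id F)
    hind.aevalEquiv.injective Function.surjective_id ?_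
  refine RingHom.ext fun p => ?_
  show ((hind.aevalEquiv p : Algebra.adjoin k (Set.range x)) : F) = algebraMap P F p
  have h1 := hind.algebraMap_aevalEquiv p
  rw [haeval] at h1
  exact h1

/-- ring-hom form, with a change of coefficient field along an isomorphism `ψ : k ≃+* R₀`. -/
theorem exists_isTranscendenceBasis_of_etale_mvPolynomial {k R₀ B : Type u} {F : Type*} [Field k]
    [CommRing R₀] [CommRing B] [IsDomain B] {n : ℕ} (ψ : k ≃+* R₀) (a : R₀ →+* B)
    (φ : MvPolynomial (Fin n) R₀ →+* B) (hφC : φ.comp MvPolynomial.C = a) (hφ : φ.Etale)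
    [Field F] [Algebra B F] [IsFractionRing B F] [Algebra k F]
    (hkF : ∀ c : k, algebraMap k F c = algebraMap B F (a (ψ c))) :
    ∃ x : Fin n → F, IsTranscendenceBasis k x := by
  let P := MvPolynomial (Fin n) k
  let me : P ≃+* MvPolynomial (Fin n) R₀ := MvPolynomial.mapEquiv (Fin n) ψ
  let φ' : P →+* B := φ.comp me.toRingHom
  have hφ' : φ'.Etale := RingHom.Etale.respectsIso.right φ me hφ
  let _ : Algebra k B := (a.comp ψ.toRingHom).toAlgebra
  let _ : Algebra P B := φ'.toAlgebra
  have t1 : IsScalarTower k P B := IsScalarTower.of_algebraMap_eq fun c => by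
    show a (ψ c) = φ (me (MvPolynomial.C c))
    have : me (MvPolynomial.C c) = MvPolynomial.C (ψ c) := by
      show MvPolynomial.map (ψ : k →+* R₀) (MvPolynomial.C c) = MvPolynomial.C (ψ c)
      rw [MvPolynomial.map_C]
      rfl
    rw [this, ← hφC]
    rfl
  have t2 : IsScalarTower k B F := IsScalarTower.of_algebraMap_eq fun c => hkF c
  have : Algebra.Etale P B := RingHom.etale_algebraMap.mp hφ'
  exact ⟨_, isTranscendenceBasis_of_etale_mvPolynomial (k := k) (B := B) (F := F) (n := n)⟩

/-- an algebraically independent family over which the field is finite is a transcendence basis. -/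
theorem isTranscendenceBasis_of_finiteDimensional_adjoin {K F : Type*} [Field K] [Field F]
    [Algebra K F] {ι : Type*} (x : ι → F) (hx : AlgebraicIndependent K x)
    [FiniteDimensional (IntermediateField.adjoin K (Set.range x)) F] :
    IsTranscendenceBasis K x := by
  rw [hx.isTranscendenceBasis_iff_isAlgebraic]
  open IntermediateField.algebraAdjoinAdjoin in
  have h1 : Algebra.IsAlgebraic (IntermediateField.adjoin K (Set.range x)) F :=
    Algebra.IsAlgebraic.of_finite _ _
  open IntermediateField.algebraAdjoinAdjoin in
  exact (IsFractionRing.comap_isAlgebraic_iff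
    (A := Algebra.adjoin K (Set.range x)) (K := IntermediateField.adjoin K (Set.range x))
    (C := F)).mpr h1

/-- two finite transcendence bases have the same number of elements. -/
theorem eq_of_isTranscendenceBasis_fin {K F : Type*} [Field K] [Field F] [Algebra K F]
    {d g : ℕ} (x : Fin d → F) (hx : IsTranscendenceBasis K x) (y : Fin g → F)
    (hy : IsTranscendenceBasis K y) : d = g := by
  have h := hx.cardinalMk_eq hy
  simpa using h

end Fermat.Agent.AV
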