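/-
Project AV (S26), helper4: ring-level Hartogs package.
* a noetherian local integrally closed domain of Krull dimension one is a DVR;
* in a noetherian integrally closed domain, primes of the form `(a : d)` have height one;
* algebraic Hartogs: an element of the fraction field lying in `R_P` for all height-one primes
  `P` lies in `R`.
Mathlib only.
-/
import Mathlib

set_option autoImplicit false

namespace Fermat.Agent.AV

open IsLocalRing nonZeroDivisors

/-- Ring-level: a noetherian local integrally closed domain of Krull dimension exactly one is a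
discrete valuation ring. -/
theorem isDiscreteValuationRing_of_ringKrullDim_eq_one (R : Type*) [CommRing R] [IsDomain R]
    [IsNoetherianRing R] [IsLocalRing R] [IsIntegrallyClosed R] (h : ringKrullDim R = 1) :
    IsDiscreteValuationRing R := by
  have hnf : ¬ IsField R := by
    intro hf
    have := ringKrullDim_eq_zero_of_isField hf
    rw [this] at h
    exact zero_ne_one h
  have hle : Ring.KrullDimLE 1 R := by
    rw [Ring.krullDimLE_iff, h]
    rfl
  have hpid : IsPrincipalIdealRing R := by
    have h4 : IsIntegrallyClosed R ∧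
        ∀ P : Ideal R, P ≠ ⊥ → P.IsPrime → P = IsLocalRing.maximalIdeal R := by
      refine ⟨inferInstance, ?_⟩
      intro P hP hPp
      have : P.IsMaximal := hPp.isMaximal_of_ne_bot hP
      exact IsLocalRing.eq_maximalIdeal this
    exact ((tfae_of_isNoetherianRing_of_isLocalRing_of_isDomain R).out 3 0).mp h4
  exact { not_a_field' := (IsLocalRing.isField_iff_maximalIdeal_eq.not.mp hnf) }

/-- Local core of Hartogs: if `y ∈ Frac S` is not in `S` but multiplies the maximal ideal of the
noetherian integrally closed local domain `S` into `S`, then the maximal ideal is principal. -/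
theorem maximalIdeal_isPrincipal_of_mul_mem {S K : Type*} [CommRing S] [IsDomain S]
    [IsNoetherianRing S] [IsLocalRing S] [IsIntegrallyClosed S] [Field K] [Algebra S K]
    [IsFractionRing S K] (y : K) (hy : y ∉ Set.range (algebraMap S K))
    (hmul : ∀ z ∈ maximalIdeal S, y * algebraMap S K z ∈ Set.range (algebraMap S K)) :
    (maximalIdeal S).IsPrincipal := by
  by_cases hbot : maximalIdeal S = ⊥
  · rw [hbot]; exact bot_isPrincipal
  have hinj : Function.Injective (algebraMap S K) := IsFractionRing.injective S K
  -- the image of the maximal ideal in `K`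
  let N : Submodule S K := Submodule.map (Algebra.linearMap S K) (maximalIdeal S)
  have hNfg : N.FG := (IsNoetherian.noetherian (maximalIdeal S)).map _
  have hNbot : N ≠ ⊥ := by
    intro h
    apply hbot
    rw [eq_bot_iff]
    intro z hz
    have : algebraMap S K z ∈ N := Submodule.mem_map_of_mem hz
    rw [h, Submodule.mem_bot] at this
    exact (Submodule.mem_bot S).mpr (hinj (by rw [this, map_zero]))
  -- some `y z` is not in `N`
  have hex : ∃ z ∈ maximalIdeal S, y * algebraMap S K z ∉ N := by
    by_contra hcon
    push Not at hcon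
    have hint : IsIntegral S y := by
      refine isIntegral_of_smul_mem_submodule N hNbot hNfg y ?_
      rintro _ ⟨z, hz, rfl⟩
      exact hcon z hz
    exact hy (IsIntegrallyClosed.isIntegral_iff.mp hint)
  obtain ⟨z, hz, hzN⟩ := hex
  obtain ⟨w, hw⟩ := hmul z hz
  have hwu : IsUnit w := by
    by_contra hnu
    have : w ∈ maximalIdeal S := (mem_maximalIdeal w).mpr hnu
    exact hzN (hw ▸ Submodule.mem_map_of_mem this)
  obtain ⟨u, rfl⟩ := hwu
  let π : S := z * ↑u⁻¹
  have hπm : π ∈ maximalIdeal S := Ideal.mul_mem_right _ _ hz
  have hyπ : y * algebraMap S K π = 1 := by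
    show y * algebraMap S K (z * ↑u⁻¹) = 1
    rw [map_mul, ← mul_assoc, ← hw, ← map_mul, Units.mul_inv, map_one]
  refine ⟨⟨π, ?_⟩⟩
  apply le_antisymm
  · intro v hv
    obtain ⟨v', hv'⟩ := hmul v hv
    have : v = v' * π := by
      apply hinj
      rw [map_mul, hv']
      calc algebraMap S K v = (y * algebraMap S K π) * algebraMap S K v := by rw [hyπ, one_mul]
        _ = y * algebraMap S K v * algebraMap S K π := by ring
    rw [this]
    exact Ideal.mem_span_singleton'.mpr ⟨v', rfl⟩
  · rw [Ideal.submodule_span_eq, Ideal.span_singleton_le_iff_mem]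
    exact hπm

/-- In a noetherian integrally closed domain, a prime of the form `(a : d)` has height one. -/
theorem height_eq_one_of_colon {R : Type*} [CommRing R] [IsDomain R] [IsNoetherianRing R]
    [IsIntegrallyClosed R] (P : Ideal R) [hP : P.IsPrime] (a d : R) (ha : a ≠ 0)
    (hPd : ∀ r : R, r ∈ P ↔ a ∣ r * d) : P.height = 1 := by
  have haP : a ∈ P := (hPd a).mpr (Dvd.intro d rfl)
  have hPbot : P ≠ ⊥ := fun h => ha ((Submodule.mem_bot R).mp (h ▸ haP))
  apply le_antisymm
  · -- localise at `P`
    let S := Localization.AtPrime P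
    let K := FractionRing R
    have hM : P.primeCompl ≤ R⁰ := Ideal.primeCompl_le_nonZeroDivisors P
    have hunit : ∀ y : P.primeCompl, IsUnit (algebraMap R K y) := fun y =>
      IsLocalization.map_units K (⟨y.1, hM y.2⟩ : R⁰)
    let _ : Algebra S K := (IsLocalization.lift (M := P.primeCompl) (S := S) hunit).toAlgebra
    have : IsScalarTower R S K := IsScalarTower.of_algebraMap_eq fun x => by
      show algebraMap R K x = (IsLocalization.lift (M := P.primeCompl) (S := S) hunit)
        (algebraMap R S x)
      rw [IsLocalization.lift_eq]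
    have := IsFractionRing.isFractionRing_of_isDomain_of_isLocalization P.primeCompl S K
    have : IsIntegrallyClosed S := isIntegrallyClosed_of_isLocalization S P.primeCompl hM
    have hinjR : Function.Injective (algebraMap R K) := IsFractionRing.injective R K
    have haK : algebraMap R K a ≠ 0 := fun h => ha (hinjR (by rw [h, map_zero]))
    have hSK : ∀ (e : R) (s : P.primeCompl),
        algebraMap S K (IsLocalization.mk' S e s) = algebraMap R K e / algebraMap R K s := by
      intro e s
      have hs : algebraMap R K s ≠ 0 := fun h =>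
        (nonZeroDivisors.ne_zero (hM s.2)) (hinjR (by rw [h, map_zero]))
      rw [eq_div_iff hs, IsScalarTower.algebraMap_apply R S K (s : R), ← map_mul,
        IsLocalization.mk'_spec, ← IsScalarTower.algebraMap_apply]
    have hy : algebraMap R K d / algebraMap R K a ∉ Set.range (algebraMap S K) := by
      rintro ⟨t, ht⟩
      obtain ⟨e, s, rfl⟩ := IsLocalization.exists_mk'_eq P.primeCompl t
      rw [hSK] at ht
      have hs : algebraMap R K s ≠ 0 := fun h =>
        (nonZeroDivisors.ne_zero (hM s.2)) (hinjR (by rw [h, map_zero]))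
      have h1 : algebraMap R K (e * a) = algebraMap R K (s * d) := by
        rw [map_mul, map_mul]
        have := (div_eq_div_iff hs haK).mp ht
        linear_combination this
      have h2 : (s : R) * d = e * a := (hinjR h1).symm
      exact s.2 ((hPd s).mpr ⟨e, by rw [h2, mul_comm]⟩)
    have hmul : ∀ z ∈ maximalIdeal S, algebraMap R K d / algebraMap R K a * algebraMap S K z ∈
        Set.range (algebraMap S K) := by
      intro z hz
      obtain ⟨p, s, rfl⟩ := IsLocalization.exists_mk'_eq P.primeCompl z
      have hp : p ∈ P := (IsLocalization.AtPrime.mk'_mem_maximal_iff S P p s).mp hz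
      obtain ⟨e, he⟩ := (hPd p).mp hp
      refine ⟨IsLocalization.mk' S e s, ?_⟩
      rw [hSK, hSK]
      have hs : algebraMap R K s ≠ 0 := fun h =>
        (nonZeroDivisors.ne_zero (hM s.2)) (hinjR (by rw [h, map_zero]))
      have h1 : algebraMap R K p * algebraMap R K d = algebraMap R K a * algebraMap R K e := by
        rw [← map_mul, ← map_mul, he]
      rw [div_mul_div_comm, div_eq_div_iff hs (mul_ne_zero haK hs)]
      linear_combination (-(algebraMap R K s)) * h1
    have hprin := maximalIdeal_isPrincipal_of_mul_mem _ hy hmul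
    have hpid : IsPrincipalIdealRing S :=
      ((tfae_of_isNoetherianRing_of_isLocalRing_of_isDomain S).out 4 0).mp hprin
    have hdim : ringKrullDim S ≤ 1 := by
      have : Ring.KrullDimLE 1 S := inferInstance
      exact Ring.krullDimLE_iff.mp this
    rw [IsLocalization.AtPrime.ringKrullDim_eq_height P S] at hdim
    exact_mod_cast hdim
  · rw [Order.one_le_iff_pos, pos_iff_ne_zero, Ne, Ideal.height_eq_zero_iff_eq_bot]
    exact hPbot

/-- **Algebraic Hartogs.** In a noetherian integrally closed domain `R`, an element of the fraction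
field which lies in `R_P` for every height-one prime `P` lies in `R`. -/
theorem mem_range_of_forall_height_one {R K : Type*} [CommRing R] [IsDomain R] [IsNoetherianRing R]
    [IsIntegrallyClosed R] [Field K] [Algebra R K] [IsFractionRing R K] (x : K)
    (h : ∀ P : Ideal R, P.IsPrime → P.height = 1 →
      ∃ c s : R, s ∉ P ∧ x * algebraMap R K s = algebraMap R K c) :
    x ∈ Set.range (algebraMap R K) := by
  obtain ⟨b, a, ha, rfl⟩ := IsFractionRing.div_surjective R x
  have hinj : Function.Injective (algebraMap R K) := IsFractionRing.injective R K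
  have ha0 : a ≠ 0 := nonZeroDivisors.ne_zero ha
  have haK : algebraMap R K a ≠ 0 := fun h => ha0 (hinj (by rw [h, map_zero]))
  by_contra hx
  have hab : ¬ a ∣ b := by
    rintro ⟨c, rfl⟩
    exact hx ⟨c, by rw [map_mul, mul_div_cancel_left₀ _ haK]⟩
  -- the module `R ⧸ aR` and the class of `b`
  have hb : (Ideal.Quotient.mk (Ideal.span {a}) b) ≠ 0 := by
    rw [Ne, Ideal.Quotient.eq_zero_iff_mem, Ideal.mem_span_singleton]
    exact hab
  obtain ⟨P, hPass, hle⟩ := exists_le_isAssociatedPrime_of_isNoetherianRing R
    (M := R ⧸ Ideal.span {a}) _ hb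
  obtain ⟨hPprime, m, hPm⟩ := isAssociatedPrime_iff.mp hPass
  obtain ⟨d, rfl⟩ := Ideal.Quotient.mk_surjective m
  have hcolon : ∀ (e r : R), r ∈ (⊥ : Submodule R (R ⧸ Ideal.span {a})).colon
      {Ideal.Quotient.mk (Ideal.span {a}) e} ↔ a ∣ r * e := by
    intro e r
    rw [Submodule.mem_colon_singleton, Submodule.mem_bot, Algebra.smul_def,
      Ideal.Quotient.algebraMap_eq, ← map_mul, Ideal.Quotient.eq_zero_iff_mem,
      Ideal.mem_span_singleton]
  have hPd : ∀ r : R, r ∈ P ↔ a ∣ r * d := fun r => by rw [hPm, hcolon]
  have hht : P.height = 1 := height_eq_one_of_colon P a d ha0 hPd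
  obtain ⟨c, s, hsP, hcs⟩ := h P hPprime hht
  apply hsP
  apply hle
  rw [hcolon]
  refine ⟨c, hinj ?_⟩
  rw [map_mul, map_mul, ← hcs]
  field_simp

end Fermat.Agent.AV
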