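/-
PROJECT AV (S26) — AV0 (helper4): a smooth algebra over a field is locally a normal domain.

Main result: `exists_normalDomain_away_of_isSmoothAt`: if `B` is a finitely presented `K`-algebra
(`K` a field) smooth at a prime `p`, there is `h ∉ p` with `B[1/h]` an integrally closed domain.

Proof: `B[1/f]` is standard etale over `P = K[x_1..x_n]` (Mathlib's local structure theorem);
`S ⊗[P] Frac P` is a finite product of fields (etale over a field) in which `S` is integrally
closed (`TensorProduct.toIntegralClosure_bijective_of_smooth`), so the idempotents descend to `S`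
and each factor of `S` is an integrally closed domain.
-/
import Mathlib

set_option autoImplicit false
open Polynomial TensorProduct

namespace Fermat.Agent.AV
universe u


/-- An idempotent is integral. -/
theorem isIntegral_of_isIdempotentElem {S T : Type*} [CommRing S] [CommRing T] [Algebra S T]
    {x : T} (hx : IsIdempotentElem x) : IsIntegral S x := by
  refine ⟨X ^ 2 - X, ?_, ?_⟩
  · exact monic_X_pow_sub (degree_X_le.trans_lt (by norm_num))
  · simp [pow_two, hx.eq]

theorem exists_idempotent_normalDomain_away
    {S T : Type*} [CommRing S] [CommRing T] [Algebra S T] [IsIntegrallyClosedIn S T]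
    {I : Type*} [Finite I] {L : I → Type*} [∀ i, Field (L i)] (ψ : T ≃+* Π i, L i)
    (q : Ideal S) [q.IsPrime] :
    ∃ e : S, e ∉ q ∧ IsIdempotentElem e ∧ IsDomain (Localization.Away e) ∧
      IsIntegrallyClosed (Localization.Away e) := by
  classical
  have := Fintype.ofFinite I
  have inj : Function.Injective (algebraMap S T) := IsIntegralClosure.algebraMap_injective S S T
  -- the idempotents of `T`
  let ε : I → T := fun i => ψ.symm (Pi.single i 1)
  have hε_idem : ∀ i, IsIdempotentElem (ε i) := by
    intro i
    show ψ.symm _ * ψ.symm _ = ψ.symm _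
    rw [← map_mul, ← Pi.single_mul, mul_one]
  have hε_sum : ∑ i, ε i = 1 := by
    show ∑ i, ψ.symm (Pi.single i 1) = 1
    have h1 : (∑ i, Pi.single i (1 : L i)) = (1 : Π i, L i) := by
      ext j
      simp
    rw [← map_sum, h1, map_one]
  have hε : ∀ i, ∃ e : S, algebraMap S T e = ε i := fun i =>
    (IsIntegralClosure.isIntegral_iff (R := S) (A := S) (B := T)).mp (isIntegral_of_isIdempotentElem (hε_idem i))
  choose e he using hε
  have he_sum : ∑ i, e i = 1 := by
    apply inj
    rw [map_sum, map_one]
    simp only [he, hε_sum]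
  obtain ⟨i, hi⟩ : ∃ i, e i ∉ q := by
    by_contra h
    push Not at h
    have : (1 : S) ∈ q := he_sum ▸ Ideal.sum_mem _ (fun i _ => h i)
    exact (Ideal.IsPrime.ne_top ‹_›) ((Ideal.eq_top_iff_one _).mpr this)
  have he_idem : IsIdempotentElem (e i) := by
    apply inj
    rw [map_mul, he, (hε_idem i).eq]
  refine ⟨e i, hi, he_idem, ?_⟩
  -- the projection to the `i`-th factor
  let π : T →+* L i := (Pi.evalRingHom L i).comp ψ.toRingHom
  let φ : S →+* L i := π.comp (algebraMap S T)
  have hπε : π (ε i) = 1 := by
    show (ψ (ψ.symm (Pi.single i 1))) i = 1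
    rw [RingEquiv.apply_symm_apply, Pi.single_eq_same]
  have hφe : φ (e i) = 1 := by
    show π (algebraMap S T (e i)) = 1
    rw [he, hπε]
  have hker : ∀ t : T, π t = 0 → t * ε i = 0 := by
    intro t ht
    apply ψ.injective
    rw [map_mul, map_zero]
    ext j
    show ψ t j * (ψ (ψ.symm (Pi.single i 1))) j = 0
    rw [RingEquiv.apply_symm_apply]
    by_cases hj : j = i
    · subst hj
      have : ψ t j = 0 := ht
      rw [this, zero_mul]
    · rw [Pi.single_eq_of_ne hj, mul_zero]
  let φ' : Localization.Away (e i) →+* L i :=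
    IsLocalization.Away.lift (e i) (g := φ) (by rw [hφe]; exact isUnit_one)
  have hφ' : ∀ s : S, φ' (algebraMap S _ s) = φ s := fun s => IsLocalization.Away.lift_eq _ _ s
  have hsurj : Function.Surjective (algebraMap S (Localization.Away (e i))) :=
    IsLocalization.Away.algebraMap_surjective_of_isIdempotentElem (e i) he_idem
  have hinj' : Function.Injective φ' := by
    rw [injective_iff_map_eq_zero]
    intro x hx
    obtain ⟨s, rfl⟩ := hsurj x
    rw [hφ'] at hx
    have h1 : algebraMap S T s * ε i = 0 := hker _ hx
    rw [← he, ← map_mul] at h1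
    have h2 : s * e i = 0 := inj (by rw [h1, map_zero])
    have hu : IsUnit (algebraMap S (Localization.Away (e i)) (e i)) :=
      IsLocalization.Away.algebraMap_isUnit (e i)
    have h3 : algebraMap S (Localization.Away (e i)) s *
        algebraMap S (Localization.Away (e i)) (e i) = 0 := by
      rw [← map_mul, h2, map_zero]
    exact (hu.mul_left_eq_zero).mp h3
  have hdom : IsDomain (Localization.Away (e i)) := hinj'.isDomain φ'
  refine ⟨hdom, ?_⟩
  let _ : Algebra (Localization.Away (e i)) (L i) := φ'.toAlgebra
  have : FaithfulSMul (Localization.Away (e i)) (L i) :=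
    (faithfulSMul_iff_algebraMap_injective _ _).mpr hinj'
  have : IsIntegrallyClosedIn (Localization.Away (e i)) (L i) := by
    rw [isIntegrallyClosedIn_iff]
    refine ⟨hinj', ?_⟩
    intro y hy
    -- `y` is integral over `S` through `φ`
    obtain ⟨p', hp'm, hp'⟩ := hy
    obtain ⟨p, hp, -, hpm⟩ := Polynomial.lifts_and_degree_eq_and_monic
      ((Polynomial.mem_lifts _).mpr
        (Polynomial.map_surjective (algebraMap S (Localization.Away (e i))) hsurj p')) hp'm
    have hpy : eval₂ φ y p = 0 := by
      have : φ = φ'.comp (algebraMap S (Localization.Away (e i))) := by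
        ext s; exact (hφ' s).symm
      rw [this, ← Polynomial.eval₂_map, hp]
      exact hp'
    let y' : T := ψ.symm (Pi.single i y)
    have hπy' : π y' = y := by
      show (ψ (ψ.symm (Pi.single i y))) i = y
      rw [RingEquiv.apply_symm_apply, Pi.single_eq_same]
    have hy'ε : y' * ε i = y' := by
      show ψ.symm _ * ψ.symm _ = ψ.symm _
      rw [← map_mul, ← Pi.single_mul, mul_one]
    have hy'int : IsIntegral S y' := by
      refine ⟨X * p, monic_X.mul hpm, ?_⟩
      rw [eval₂_mul, eval₂_X]
      have h1 : π (eval₂ (algebraMap S T) y' p) = 0 := by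
        rw [Polynomial.hom_eval₂, hπy']
        exact hpy
      have h2 := hker _ h1
      calc y' * eval₂ (algebraMap S T) y' p
          = y' * (eval₂ (algebraMap S T) y' p * ε i) := by
            rw [mul_comm _ (ε i), ← mul_assoc, hy'ε]
        _ = 0 := by rw [h2, mul_zero]
    obtain ⟨s, hs⟩ := (IsIntegralClosure.isIntegral_iff (R := S) (A := S) (B := T)).mp hy'int
    refine ⟨algebraMap S _ s, ?_⟩
    show φ' (algebraMap S _ s) = y
    rw [hφ']
    show π (algebraMap S T s) = y
    rw [hs, hπy']
  exact IsIntegrallyClosed.of_isIntegrallyClosedIn (Localization.Away (e i)) (L i)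



theorem isIntegrallyClosedIn_tensor_fractionRing_of_smooth
    {P S : Type u} [CommRing P] [IsDomain P] [IsIntegrallyClosed P] [CommRing S] [Algebra P S]
    [Algebra.Smooth P S] : IsIntegrallyClosedIn S (S ⊗[P] FractionRing P) := by
  rw [isIntegrallyClosedIn_iff]
  constructor
  · have h : Function.Injective (algebraMap P (FractionRing P)) := IsFractionRing.injective _ _
    exact Algebra.TensorProduct.includeLeft_injective (S := S) h
  · intro x hx
    obtain ⟨y, hy⟩ := (TensorProduct.toIntegralClosure_bijective_of_smooth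
      (R := P) (S := S) (B := FractionRing P)).2 ⟨x, hx⟩
    have hbot : integralClosure P (FractionRing P) = ⊥ := IsIntegrallyClosed.integralClosure_eq_bot P _
    have key : ∀ y : S ⊗[P] integralClosure P (FractionRing P),
        ∃ s : S, ((TensorProduct.toIntegralClosure P S (FractionRing P) y : integralClosure S _) :
          S ⊗[P] FractionRing P) = s ⊗ₜ 1 := by
      intro y
      induction y with
      | zero => exact ⟨0, by simp⟩
      | tmul s b =>
        obtain ⟨b, hb⟩ := b
        have hb' : b ∈ (⊥ : Subalgebra P (FractionRing P)) := hbot ▸ hb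
        obtain ⟨p, rfl⟩ := Algebra.mem_bot.mp hb'
        refine ⟨p • s, ?_⟩
        simp only [TensorProduct.toIntegralClosure, AlgHom.coe_codRestrict,
          Algebra.TensorProduct.map_tmul, AlgHom.coe_id, id_eq, Subalgebra.coe_val]
        rw [Algebra.algebraMap_eq_smul_one, TensorProduct.smul_tmul]
      | add a b ha hb =>
        obtain ⟨s, hs⟩ := ha
        obtain ⟨t, ht⟩ := hb
        refine ⟨s + t, ?_⟩
        rw [map_add, Subalgebra.coe_add, hs, ht, TensorProduct.add_tmul]
    obtain ⟨s, hs⟩ := key y
    refine ⟨s, ?_⟩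
    rw [hy] at hs
    rw [Algebra.TensorProduct.algebraMap_apply]
    exact hs.symm



theorem exists_ringEquiv_pi_fields_of_etale
    {P S : Type u} [CommRing P] [IsDomain P] [CommRing S] [Algebra P S] [Algebra.Etale P S] :
    ∃ (I : Type u) (_ : Finite I) (L : I → Type u) (_ : ∀ i, Field (L i)),
      Nonempty ((S ⊗[P] FractionRing P) ≃+* Π i, L i) := by
  have h : Algebra.Etale (FractionRing P) (FractionRing P ⊗[P] S) := inferInstance
  obtain ⟨I, hI, Ai, hF, hA, e, -⟩ :=
    (Algebra.Etale.iff_exists_algEquiv_prod (FractionRing P) (FractionRing P ⊗[P] S)).mp h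
  exact ⟨I, hI, Ai, hF,
    ⟨(Algebra.TensorProduct.comm P S (FractionRing P)).toRingEquiv.trans e.toRingEquiv⟩⟩



theorem exists_idempotent_normalDomain_away_of_etale
    {P S : Type u} [CommRing P] [IsDomain P] [IsIntegrallyClosed P] [CommRing S] [Algebra P S]
    [Algebra.Etale P S] (q : Ideal S) [q.IsPrime] :
    ∃ e : S, e ∉ q ∧ IsIdempotentElem e ∧ IsDomain (Localization.Away e) ∧
      IsIntegrallyClosed (Localization.Away e) := by
  obtain ⟨I, hI, L, hL, ⟨ψ⟩⟩ := exists_ringEquiv_pi_fields_of_etale (P := P) (S := S)
  have := isIntegrallyClosedIn_tensor_fractionRing_of_smooth (P := P) (S := S)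
  exact exists_idempotent_normalDomain_away ψ q

variable {K B : Type u} [Field K] [CommRing B] [Algebra K B]


theorem exists_normalDomain_away_of_isSmoothAt [Algebra.FinitePresentation K B]
    (p : Ideal B) [p.IsPrime] [Algebra.IsSmoothAt K p] :
    ∃ h : B, h ∉ p ∧ IsDomain (Localization.Away h) ∧ IsIntegrallyClosed (Localization.Away h) := by
  obtain ⟨f, hfp, n, _, _, _⟩ :=
    Algebra.IsSmoothAt.exists_isStandardEtale_mvPolynomial (R := K) (p := p)
  have hq : (Ideal.map (algebraMap B (Localization.Away f)) p).IsPrime :=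
    IsLocalization.isPrime_of_isPrime_disjoint (.powers f) _ _ ‹_›
      ((Ideal.disjoint_powers_iff_notMem_of_isPrime _).mpr hfp)
  obtain ⟨e, heq, -, hdom, hic⟩ := exists_idempotent_normalDomain_away_of_etale
    (P := MvPolynomial (Fin n) K) (Ideal.map (algebraMap B (Localization.Away f)) p)
  obtain ⟨g, ⟨_, m, rfl⟩, hg₀⟩ := IsLocalization.exists_mk'_eq (.powers f) e
  have hg : g ∉ p := by
    intro hgp
    apply heq
    rw [← hg₀, IsLocalization.mk'_mem_map_algebraMap_iff]
    exact ⟨1, Submonoid.one_mem _, by simpa using hgp⟩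
  have : IsLocalization.Away (f * g) (Localization.Away e) := by
    suffices IsLocalization.Away (algebraMap _ (Localization.Away f) g) (Localization.Away e) from
      .mul' (Localization.Away f) _ _ _
    refine IsLocalization.Away.of_associated (r := e)
      ⟨(IsLocalization.Away.algebraMap_pow_isUnit f m).unit, ?_⟩
    simp only [← hg₀, IsUnit.unit_spec, ← map_pow]
    exact IsLocalization.mk'_spec (M := Submonoid.powers f) (Localization.Away f) g ⟨f ^ m, ⟨m, rfl⟩⟩
  let ee : Localization.Away e ≃ₐ[B] Localization.Away (f * g) :=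
    IsLocalization.algEquiv (.powers (f * g)) _ _
  refine ⟨f * g, ‹p.IsPrime›.mul_notMem hfp hg, ?_, ?_⟩
  · exact ee.symm.toMulEquiv.isDomain _
  · exact IsIntegrallyClosed.of_equiv ee.toRingEquiv

end Fermat.Agent.AV
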