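/-
PROJECT AV (S26) — AV0 (helper4): a smooth scheme over a field is normal; if connected, integral.

Main results, for `f : X ⟶ Spec K` smooth (`K` a field):
* `exists_affineOpen_normalDomain`: every point has an affine open neighbourhood `V` with
  `Γ(X, V)` an integrally closed domain;
* `isDomain_stalk_of_smooth`, `isIntegrallyClosed_stalk_of_smooth`: the stalks are normal domains;
* `isReduced_of_smooth`, `isLocallyNoetherian_of_smooth`;
* `isIntegral_of_smooth_of_connected`: `X` connected ⇒ `IsIntegral X`.
-/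
import Fermat.Agent.AV.AV0_helper4_NormalRing

set_option autoImplicit false
universe u
open CategoryTheory AlgebraicGeometry

namespace Fermat.Agent.AV


/-- A nonempty connected space in which every point has an irreducible open neighbourhood is
irreducible. -/
theorem irreducibleSpace_of_connected_of_locally_irreducible {X : Type*} [TopologicalSpace X]
    [ConnectedSpace X]
    (h : ∀ x : X, ∃ U : Set X, IsOpen U ∧ x ∈ U ∧ IsIrreducible U) : IrreducibleSpace X := by
  obtain ⟨x₀⟩ := (inferInstance : Nonempty X)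
  -- the irreducible component of `x₀` is open
  have hopen : ∀ x : X, IsOpen (irreducibleComponent x) := by
    intro x
    rw [isOpen_iff_forall_mem_open]
    intro y hy
    obtain ⟨U, hUo, hyU, hUirr⟩ := h y
    refine ⟨U, ?_, hUo, hyU⟩
    have hZ := (isIrreducible_irreducibleComponent (x := x)).isPreirreducible
    have h1 : irreducibleComponent x ⊆ closure (irreducibleComponent x ∩ U) :=
      subset_closure_inter_of_isPreirreducible_of_isOpen hZ hUo ⟨y, hy, hyU⟩
    have h2 : irreducibleComponent x ⊆ closure U :=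
      h1.trans (closure_mono Set.inter_subset_right)
    have h3 : closure U = irreducibleComponent x :=
      eq_irreducibleComponent (isPreirreducible_iff_closure.mpr hUirr.isPreirreducible) h2
    exact h3 ▸ subset_closure
  have huniv : irreducibleComponent x₀ = Set.univ :=
    IsClopen.eq_univ ⟨isClosed_irreducibleComponent, hopen x₀⟩ ⟨x₀, mem_irreducibleComponent⟩
  have : IsIrreducible (Set.univ : Set X) := huniv ▸ isIrreducible_irreducibleComponent
  exact (irreducibleSpace_def X).mpr this



variable {K : Type u} [Field K] {X : Scheme.{u}}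

theorem exists_affineOpen_normalDomain (f : X ⟶ Spec (CommRingCat.of K)) [Smooth f] (x : X) :
    ∃ V : X.Opens, IsAffineOpen V ∧ x ∈ V ∧ IsDomain Γ(X, V) ∧ IsIntegrallyClosed Γ(X, V) := by
  obtain ⟨_, ⟨U, hU0, rfl⟩, hxU, -⟩ :=
    X.isBasis_affineOpens.exists_subset_of_mem_open (Set.mem_univ x) isOpen_univ
  have hU : IsAffineOpen U := hU0
  have hle : U ≤ f ⁻¹ᵁ ⊤ := by simp
  let φ : K →+* Γ(X, U) :=
    (f.appLE ⊤ U hle).hom.comp (Scheme.ΓSpecIso (CommRingCat.of K)).inv.hom
  have hφ : φ.Smooth := by
    have h1 : (f.appLE ⊤ U hle).hom.Smooth := f.smooth_appLE (isAffineOpen_top _) hU hle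
    have h2 : ((Scheme.ΓSpecIso (CommRingCat.of K)).inv.hom).Smooth :=
      RingHom.Smooth.of_bijective
        (ConcreteCategory.bijective_of_isIso (Scheme.ΓSpecIso (CommRingCat.of K)).inv)
    exact h2.comp h1
  algebraize [φ]
  have : Algebra.FinitePresentation K Γ(X, U) := inferInstance
  let p := (hU.primeIdealOf ⟨x, hxU⟩).asIdeal
  have : Algebra.IsSmoothAt K p := inferInstance
  obtain ⟨h, hhp, hdom, hic⟩ := exists_normalDomain_away_of_isSmoothAt (K := K) p
  refine ⟨X.basicOpen h, hU.basicOpen h, ?_, ?_, ?_⟩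
  · have hx' : hU.fromSpec (hU.primeIdealOf ⟨x, hxU⟩) = x := hU.fromSpec_primeIdealOf ⟨x, hxU⟩
    have h1 : hU.primeIdealOf ⟨x, hxU⟩ ∈ hU.fromSpec ⁻¹ᵁ X.basicOpen h := by
      rw [hU.fromSpec_preimage_basicOpen]
      exact hhp
    have h2 := (Scheme.Hom.mem_preimage _).mp h1
    rwa [hx'] at h2
  · have := hU.isLocalization_basicOpen h
    let e : Localization.Away h ≃ₐ[Γ(X, U)] Γ(X, X.basicOpen h) :=
      IsLocalization.algEquiv (.powers h) _ _
    exact e.symm.toMulEquiv.isDomain _
  · have := hU.isLocalization_basicOpen h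
    let e : Localization.Away h ≃ₐ[Γ(X, U)] Γ(X, X.basicOpen h) :=
      IsLocalization.algEquiv (.powers h) _ _
    exact IsIntegrallyClosed.of_equiv e.toRingEquiv




theorem isDomain_stalk_of_smooth (f : X ⟶ Spec (CommRingCat.of K)) [Smooth f] (x : X) :
    IsDomain (X.presheaf.stalk x) := by
  obtain ⟨V, hV, hxV, hdom, -⟩ := exists_affineOpen_normalDomain f x
  let _ := X.presheaf.algebra_section_stalk ⟨x, hxV⟩
  have := hV.isLocalization_stalk ⟨x, hxV⟩
  exact IsLocalization.isDomain_of_le_nonZeroDivisors (R := Γ(X, V)) (X.presheaf.stalk x)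
    (Ideal.primeCompl_le_nonZeroDivisors (hV.primeIdealOf ⟨x, hxV⟩).asIdeal)

theorem isIntegrallyClosed_stalk_of_smooth (f : X ⟶ Spec (CommRingCat.of K)) [Smooth f] (x : X) :
    IsIntegrallyClosed (X.presheaf.stalk x) := by
  obtain ⟨V, hV, hxV, hdom, hic⟩ := exists_affineOpen_normalDomain f x
  let _ := X.presheaf.algebra_section_stalk ⟨x, hxV⟩
  have := hV.isLocalization_stalk ⟨x, hxV⟩
  exact isIntegrallyClosed_of_isLocalization (R := Γ(X, V)) (X.presheaf.stalk x)
    (hV.primeIdealOf ⟨x, hxV⟩).asIdeal.primeCompl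
    (Ideal.primeCompl_le_nonZeroDivisors (hV.primeIdealOf ⟨x, hxV⟩).asIdeal)

theorem isReduced_of_smooth (f : X ⟶ Spec (CommRingCat.of K)) [Smooth f] : IsReduced X := by
  have : ∀ x : X, _root_.IsReduced (X.presheaf.stalk x) := fun x => by
    have := isDomain_stalk_of_smooth f x
    infer_instance
  exact isReduced_of_isReduced_stalk X

theorem isIrreducible_of_isAffineOpen_of_isDomain {V : X.Opens} (hV : IsAffineOpen V)
    (hne : (V : Set X).Nonempty) [IsDomain Γ(X, V)] : IsIrreducible (V : Set X) := by
  have : IsAffine V.toScheme := hV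
  have : Nonempty V.toScheme := hne.to_subtype
  have : IsDomain Γ(V.toScheme, ⊤) :=
    (V.topIso.commRingCatIsoToRingEquiv.toMulEquiv).isDomain _
  have : IsIntegral V.toScheme := isIntegral_of_isAffine_of_isDomain _
  have : IrreducibleSpace V.toScheme := inferInstance
  exact isIrreducible_iff_irreducibleSpace.mpr this


/-- A smooth scheme over a field is locally Noetherian. -/
theorem isLocallyNoetherian_of_smooth (f : X ⟶ Spec (CommRingCat.of K)) [Smooth f] :
    IsLocallyNoetherian X :=
  LocallyOfFiniteType.isLocallyNoetherian f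

/-- **A connected smooth scheme over a field is integral.** -/
theorem isIntegral_of_smooth_of_connected (f : X ⟶ Spec (CommRingCat.of K)) [Smooth f]
    [ConnectedSpace X] : IsIntegral X := by
  have : IsReduced X := isReduced_of_smooth f
  have : IrreducibleSpace X := by
    apply irreducibleSpace_of_connected_of_locally_irreducible
    intro x
    obtain ⟨V, hV, hxV, hdom, -⟩ := exists_affineOpen_normalDomain f x
    exact ⟨V, V.2, hxV, isIrreducible_of_isAffineOpen_of_isDomain hV ⟨x, hxV⟩⟩
  exact isIntegral_of_irreducibleSpace_of_isReduced X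

end Fermat.Agent.AV
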