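/-
Project AV (S26), helper4: Hartogs / DVR package at scheme level (N2a, N2c).
For a normal locally noetherian integral scheme `X` (e.g. smooth connected over a field):
* stalks at codimension-one points are DVRs (smooth case);
* sections over affine opens are integrally closed;
* Hartogs: a rational function regular at all codimension-one points of an open `V` is a section
  over `V`; the same in terms of Mathlib's `Scheme.ord`.
-/
import Fermat.Agent.AV.AV0_helper4_NormalScheme
import Fermat.Agent.AV.AV0_helper4_HartogsRing

set_option autoImplicit false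
set_option linter.style.haveILetI false
universe u
open CategoryTheory AlgebraicGeometry Order TopologicalSpace Opposite

namespace Fermat.Agent.AV

section Ring

/-- ring level: for a DVR `R` with fraction field `K`, `x ∈ K` lies in `R` iff
`1 ≤ ordFrac R x` or `x = 0`. -/
theorem mem_range_iff_one_le_ordFrac {R K : Type*} [CommRing R] [IsDomain R]
    [IsDiscreteValuationRing R] [Field K] [Algebra R K] [IsFractionRing R K] (x : K) :
    x ∈ Set.range (algebraMap R K) ↔ x = 0 ∨ 1 ≤ Ring.ordFrac R x := by
  rw [Ring.ordFrac_eq_valuation_inv]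
  constructor
  · rintro ⟨r, rfl⟩
    by_cases hr : r = 0
    · left; rw [hr, map_zero]
    · right
      have h0 : (IsDiscreteValuationRing.maximalIdeal R).valuation K (algebraMap R K r) ≠ 0 := by
        rw [Valuation.ne_zero_iff]
        exact fun h => hr (IsFractionRing.injective R K (by rw [h, map_zero]))
      rw [one_le_inv₀ (zero_lt_iff.mpr h0)]
      exact IsDedekindDomain.HeightOneSpectrum.valuation_le_one _ r
  · rintro (rfl | h)
    · exact ⟨0, map_zero _⟩
    · by_cases hx : x = 0
      · exact ⟨0, by rw [hx, map_zero]⟩
      have h0 : (IsDiscreteValuationRing.maximalIdeal R).valuation K x ≠ 0 := by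
        rw [Valuation.ne_zero_iff]; exact hx
      rw [one_le_inv₀ (zero_lt_iff.mpr h0)] at h
      exact IsDiscreteValuationRing.exists_lift_of_le_one h

end Ring

section General

variable {X : Scheme.{u}}

/-- the prime of `Γ(X, U)` corresponding to a point of the affine open `U` has height the
codimension of the point. -/
theorem height_primeIdealOf_eq_coheight {U : X.Opens} (hU : IsAffineOpen U) (z : U) :
    ((hU.primeIdealOf z).asIdeal.height : WithBot ℕ∞) = coheight (z : X) := by
  letI := X.presheaf.algebra_section_stalk z
  have := hU.isLocalization_stalk z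
  rw [← ringKrullDim_stalk_eq_coheight (z : X),
    IsLocalization.AtPrime.ringKrullDim_eq_height (hU.primeIdealOf z).asIdeal
      (X.presheaf.stalk (z : X))]

/-- every prime of `Γ(X, U)` comes from a point of the affine open `U`. -/
theorem exists_primeIdealOf_eq {U : X.Opens} (hU : IsAffineOpen U) (P : PrimeSpectrum Γ(X, U)) :
    ∃ z : U, hU.primeIdealOf z = P := by
  let P' : ↥(Spec Γ(X, U)) := P
  refine ⟨hU.isoSpec.inv P', ?_⟩
  have : hU.isoSpec.hom (hU.isoSpec.inv P') = P' := by
    rw [← Scheme.Hom.comp_apply, Iso.inv_hom_id]
    rfl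
  exact this

variable [IsIntegral X]

/-- membership in the local ring at a point of an affine open, in terms of fractions. -/
theorem mem_range_stalk_iff_of_isAffineOpen {U : X.Opens} (hU : IsAffineOpen U) [Nonempty U]
    (z : U) (f : X.functionField) :
    f ∈ Set.range (algebraMap (X.presheaf.stalk (z : X)) X.functionField) ↔
      ∃ c s : Γ(X, U), s ∉ (hU.primeIdealOf z).asIdeal ∧
        f * algebraMap Γ(X, U) X.functionField s = algebraMap Γ(X, U) X.functionField c := by
  letI := X.presheaf.algebra_section_stalk z
  have hloc := hU.isLocalization_stalk z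
  have htower := functionField_isScalarTower X U z
  constructor
  · rintro ⟨t, rfl⟩
    obtain ⟨c, s, rfl⟩ := IsLocalization.exists_mk'_eq (hU.primeIdealOf z).asIdeal.primeCompl t
    refine ⟨c, s.1, s.2, ?_⟩
    rw [IsScalarTower.algebraMap_apply Γ(X, U) (X.presheaf.stalk (z : X)) X.functionField,
      IsScalarTower.algebraMap_apply Γ(X, U) (X.presheaf.stalk (z : X)) X.functionField,
      ← map_mul, IsLocalization.mk'_spec]
  · rintro ⟨c, s, hs, hfs⟩
    let s' : (hU.primeIdealOf z).asIdeal.primeCompl := ⟨s, hs⟩
    refine ⟨IsLocalization.mk' (X.presheaf.stalk (z : X)) c s', ?_⟩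
    have hs0 : algebraMap Γ(X, U) X.functionField s ≠ 0 := by
      intro h0
      have : s = 0 := by
        apply X.germToFunctionField_injective U
        rw [map_zero]
        exact h0
      exact hs (this ▸ Ideal.zero_mem _)
    apply mul_right_cancel₀ hs0
    rw [hfs, IsScalarTower.algebraMap_apply Γ(X, U) (X.presheaf.stalk (z : X)) X.functionField,
      IsScalarTower.algebraMap_apply Γ(X, U) (X.presheaf.stalk (z : X)) X.functionField c,
      ← map_mul]
    congr 1
    exact IsLocalization.mk'_spec (X.presheaf.stalk (z : X)) c s'

/-- sections of a normal integral scheme over an affine open form an integrally closed domain. -/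
theorem isIntegrallyClosed_of_isAffineOpen
    (hn : ∀ x : X, IsIntegrallyClosed (X.presheaf.stalk x)) {U : X.Opens} (hU : IsAffineOpen U)
    [Nonempty U] : IsIntegrallyClosed Γ(X, U) := by
  apply IsIntegrallyClosed.of_localization_maximal
  intro p _ hp
  obtain ⟨z, hz⟩ := exists_primeIdealOf_eq hU ⟨p, inferInstance⟩
  let _ := X.presheaf.algebra_section_stalk z
  have hloc := hU.isLocalization_stalk z
  rw [hz] at hloc
  have := hn z
  exact IsIntegrallyClosed.of_equiv
    (IsLocalization.algEquiv p.primeCompl (X.presheaf.stalk (z : X))
      (Localization.AtPrime p)).toRingEquiv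

/-- **Hartogs on an affine open**: on a normal locally noetherian integral scheme, a rational
function which is regular at all codimension-one points of an affine open `U` is regular on `U`. -/
theorem mem_range_germToFunctionField_of_isAffineOpen [IsLocallyNoetherian X]
    (hn : ∀ x : X, IsIntegrallyClosed (X.presheaf.stalk x)) {U : X.Opens} (hU : IsAffineOpen U)
    [Nonempty U] (f : X.functionField)
    (h : ∀ z ∈ U, coheight z = 1 →
      f ∈ Set.range (algebraMap (X.presheaf.stalk z) X.functionField)) :
    f ∈ Set.range (X.germToFunctionField U) := by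
  have := isIntegrallyClosed_of_isAffineOpen hn hU
  have : IsNoetherianRing Γ(X, U) := IsLocallyNoetherian.component_noetherian ⟨U, hU⟩
  have := functionField_isFractionRing_of_isAffineOpen X U hU
  refine mem_range_of_forall_height_one (R := Γ(X, U)) f ?_
  intro P hP hht
  obtain ⟨z, hz⟩ := exists_primeIdealOf_eq hU ⟨P, hP⟩
  have hco : coheight (z : X) = 1 := by
    have h1 := height_primeIdealOf_eq_coheight hU z
    rw [hz] at h1
    simp only at h1
    rw [hht] at h1
    exact_mod_cast h1.symm
  obtain ⟨c, s, hs, hcs⟩ := (mem_range_stalk_iff_of_isAffineOpen hU z f).mp (h z z.2 hco)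
  rw [hz] at hs
  exact ⟨c, s, hs, hcs⟩

/-- restriction is compatible with the maps to the function field. -/
theorem germToFunctionField_resLE {U V : X.Opens} [Nonempty U] [Nonempty V] (h : U ≤ V)
    (s : Γ(X, V)) :
    X.germToFunctionField U (X.presheaf.map (homOfLE h).op s) = X.germToFunctionField V s := by
  exact X.presheaf.germ_res_apply (homOfLE h) (genericPoint X) _ s

/-- a rational function which is locally on `V` the image of a section is the image of a section
over `V`. -/
theorem mem_range_germToFunctionField_of_locally (V : X.Opens) [Nonempty V] (f : X.functionField)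
    (h : ∀ x ∈ V, ∃ (W : X.Opens) (_ : Nonempty W), x ∈ W ∧ W ≤ V ∧
      f ∈ Set.range (X.germToFunctionField W)) :
    f ∈ Set.range (X.germToFunctionField V) := by
  choose W hWne hxW hWV hfW using h
  choose s hs using hfW
  let U : V → X.Opens := fun x => W x.1 x.2
  have hUne : ∀ x : V, Nonempty (U x) := fun x => hWne x.1 x.2
  let sf : ∀ x : V, Γ(X, U x) := fun x => s x.1 x.2
  have hsf : ∀ x : V, X.germToFunctionField (U x) (sf x) = f := fun x => hs x.1 x.2
  have hcompat : TopCat.Presheaf.IsCompatible X.presheaf U sf := by
    intro x y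
    have hne : Nonempty (U x ⊓ U y : X.Opens) := by
      obtain ⟨a, ha⟩ := hUne x
      obtain ⟨b, hb⟩ := hUne y
      obtain ⟨c, hc⟩ := nonempty_preirreducible_inter (U x).isOpen (U y).isOpen ⟨a, ha⟩ ⟨b, hb⟩
      exact ⟨⟨c, hc⟩⟩
    apply X.germToFunctionField_injective (U x ⊓ U y)
    have h1 := germToFunctionField_resLE (inf_le_left : U x ⊓ U y ≤ U x) (sf x)
    have h2 := germToFunctionField_resLE (inf_le_right : U x ⊓ U y ≤ U y) (sf y)
    exact h1.trans ((hsf x).trans ((hsf y).symm.trans h2.symm))
  obtain ⟨t, ht, -⟩ := X.sheaf.existsUnique_gluing' U V (fun x => homOfLE (hWV x.1 x.2))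
    (fun x hx => Opens.mem_iSup.mpr ⟨⟨x, hx⟩, hxW x hx⟩) sf hcompat
  refine ⟨t, ?_⟩
  obtain ⟨x⟩ := ‹Nonempty V›
  have := hUne x
  rw [← hsf x, ← ht x]
  exact (germToFunctionField_resLE (hWV x.1 x.2) t).symm

/-- **Hartogs**: on a normal locally noetherian integral scheme, a rational function which is
regular at all codimension-one points of a nonempty open `V` is (the image of) a section over
`V`. -/
theorem mem_range_germToFunctionField_of_forall_coheight_one [IsLocallyNoetherian X]
    (hn : ∀ x : X, IsIntegrallyClosed (X.presheaf.stalk x)) (V : X.Opens) [Nonempty V]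
    (f : X.functionField)
    (h : ∀ z ∈ V, coheight z = 1 →
      f ∈ Set.range (algebraMap (X.presheaf.stalk z) X.functionField)) :
    f ∈ Set.range (X.germToFunctionField V) := by
  apply mem_range_germToFunctionField_of_locally
  intro x hx
  obtain ⟨_, ⟨W, hW, rfl⟩, hxW, hWV⟩ :=
    X.isBasis_affineOpens.exists_subset_of_mem_open hx V.isOpen
  have hne : Nonempty W := ⟨⟨x, hxW⟩⟩
  exact ⟨W, hne, hxW, hWV, mem_range_germToFunctionField_of_isAffineOpen hn hW f
    (fun z hz => h z (hWV hz))⟩

variable [IsLocallyNoetherian X]

/-- a rational function is regular at a codimension-one point with DVR local ring iff its order of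
vanishing there is non-negative. -/
theorem mem_range_stalk_iff_ord (z : X) (hz : coheight z = 1)
    [IsDiscreteValuationRing (X.presheaf.stalk z)] (f : X.functionField) :
    f ∈ Set.range (algebraMap (X.presheaf.stalk z) X.functionField) ↔
      f = 0 ∨ 0 ≤ Scheme.ord f z := by
  rw [mem_range_iff_one_le_ordFrac]
  by_cases hf : f = 0
  · simp [hf]
  · rw [Scheme.le_ord_iff hz hf]
    simp only [hf, false_or, ofAdd_zero, WithZero.coe_one]
    rfl

/-- a nonzero section over `V` has non-negative order at every codimension-one point of `V`. -/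
theorem ord_germToFunctionField_nonneg {V : X.Opens} [Nonempty V] (z : X) (hzV : z ∈ V)
    (hz : coheight z = 1) (s : Γ(X, V)) (hs : s ≠ 0) :
    0 ≤ Scheme.ord (X.germToFunctionField V s) z := by
  have hf : X.germToFunctionField V s ≠ 0 := fun h =>
    hs (X.germToFunctionField_injective V (by rw [h, map_zero]))
  rw [Scheme.le_ord_iff hz hf, ofAdd_zero, WithZero.coe_one,
    ← Scheme.algebraMap_germ_eq_germToFunctionField X hzV]
  have : Ring.KrullDimLE 1 (X.presheaf.stalk z) := krullDimLE_of_coheight_le hz.le
  refine Ring.ordFrac_ge_one_of_ne_zero (R := X.presheaf.stalk z) ?_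
  intro h0
  exact hs (germ_injective_of_isIntegral X z hzV (by rw [h0, map_zero]))

/-- **Hartogs in terms of orders of vanishing**: if all codimension-one points of `V` have DVR
local rings and `ord f z ≥ 0` at each of them, then `f` is a section over `V`. -/
theorem mem_range_germToFunctionField_of_ord_nonneg
    (hn : ∀ x : X, IsIntegrallyClosed (X.presheaf.stalk x))
    (hdvr : ∀ z : X, coheight z = 1 → IsDiscreteValuationRing (X.presheaf.stalk z))
    (V : X.Opens) [Nonempty V] (f : X.functionField)
    (h : ∀ z ∈ V, coheight z = 1 → 0 ≤ Scheme.ord f z) :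
    f ∈ Set.range (X.germToFunctionField V) := by
  apply mem_range_germToFunctionField_of_forall_coheight_one hn
  intro z hzV hz
  have := hdvr z hz
  exact (mem_range_stalk_iff_ord z hz f).mpr (Or.inr (h z hzV hz))

end General

section Smooth

variable {K : Type u} [Field K] {X : Scheme.{u}}

/-- (N2a) On a smooth scheme over a field, the stalks at points of codimension one are discrete
valuation rings. -/
theorem isDiscreteValuationRing_stalk_of_coheight_eq_one (f : X ⟶ Spec (CommRingCat.of K))
    [Smooth f] [IsIntegral X] (z : X) (hz : coheight z = 1) :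
    IsDiscreteValuationRing (X.presheaf.stalk z) := by
  have := isIntegrallyClosed_stalk_of_smooth f z
  have := isLocallyNoetherian_of_smooth f
  have : IsNoetherianRing (X.presheaf.stalk z) := inferInstance
  apply isDiscreteValuationRing_of_ringKrullDim_eq_one
  rw [ringKrullDim_stalk_eq_coheight z, hz]
  rfl

/-- **Hartogs for smooth varieties** (stalk form). -/
theorem mem_range_germToFunctionField_of_smooth (f₀ : X ⟶ Spec (CommRingCat.of K)) [Smooth f₀]
    [IsIntegral X] (V : X.Opens) [Nonempty V] (f : X.functionField)
    (h : ∀ z ∈ V, coheight z = 1 →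
      f ∈ Set.range (algebraMap (X.presheaf.stalk z) X.functionField)) :
    f ∈ Set.range (X.germToFunctionField V) := by
  have := isLocallyNoetherian_of_smooth f₀
  exact mem_range_germToFunctionField_of_forall_coheight_one
    (fun x => isIntegrallyClosed_stalk_of_smooth f₀ x) V f h

/-- **Hartogs for smooth varieties** (order-of-vanishing form). -/
theorem mem_range_germToFunctionField_of_smooth_of_ord_nonneg (f₀ : X ⟶ Spec (CommRingCat.of K))
    [Smooth f₀] [IsIntegral X] [IsLocallyNoetherian X] (V : X.Opens) [Nonempty V]
    (f : X.functionField) (h : ∀ z ∈ V, coheight z = 1 → 0 ≤ Scheme.ord f z) :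
    f ∈ Set.range (X.germToFunctionField V) :=
  mem_range_germToFunctionField_of_ord_nonneg
    (fun x => isIntegrallyClosed_stalk_of_smooth f₀ x)
    (fun z hz => isDiscreteValuationRing_stalk_of_coheight_eq_one f₀ z hz) V f h

end Smooth

end Fermat.Agent.AV
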