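/-
PROJECT AV (S26) — AV0 (helper4): multiplication by `n` on a group object, Mathlib style.

For a group object `G` of a cartesian monoidal category, `nMap G n : G ⟶ G` is `(𝟙 G) ^ n` in the
group `Hom(G, G)`; `x ≫ nMap G n = x ^ n` for every `T`-point `x`.  For commutative `G` it is a
homomorphism.  For group schemes over an algebraically closed field the `n`-torsion `K`-points are
the closed points of the fibre of `nMap G n` over the unit.
-/
import Mathlib

set_option autoImplicit false
universe v u
open CategoryTheory CategoryTheory.Limits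
open MonoidalCategory CartesianMonoidalCategory MonObj Opposite AlgebraicGeometry

noncomputable section

namespace Fermat.Agent.AV

section General

variable {C : Type u} [Category.{v} C] [CartesianMonoidalCategory C]
variable (G : C) [GrpObj G]

/-- Multiplication by `n` (written multiplicatively: the `n`-th power map) on a group object. -/
def nMap (n : ℕ) : G ⟶ G := (𝟙 G) ^ n

variable {G}

theorem comp_nMap {T : C} (x : T ⟶ G) (n : ℕ) : x ≫ nMap G n = x ^ n := by
  rw [nMap, MonObj.comp_pow, Category.comp_id]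

theorem nMap_zero : nMap G 0 = toUnit G ≫ η[G] := by
  rw [nMap, pow_zero, Hom.one_def]

theorem nMap_one : nMap G 1 = 𝟙 G := by
  rw [nMap, pow_one]

theorem nMap_succ (n : ℕ) : nMap G (n + 1) = lift (nMap G n) (𝟙 G) ≫ μ[G] := by
  rw [nMap, pow_succ, Hom.mul_def]
  rfl

theorem nMap_comp_nMap (m n : ℕ) : nMap G m ≫ nMap G n = nMap G (m * n) := by
  rw [comp_nMap, nMap, ← pow_mul]
  rfl

theorem hom_mul_isMonHom [BraidedCategory C] [IsCommMonObj G] {M : C} [MonObj M] (a b : M ⟶ G)
    [IsMonHom a] [IsMonHom b] : IsMonHom (a * b) := by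
  rw [Hom.mul_def]
  infer_instance

theorem hom_one_isMonHom {M : C} [MonObj M] : IsMonHom (1 : M ⟶ G) := by
  rw [Hom.one_def]
  infer_instance

theorem hom_pow_isMonHom [BraidedCategory C] [IsCommMonObj G] {M : C} [MonObj M] (a : M ⟶ G)
    [IsMonHom a] (n : ℕ) : IsMonHom (a ^ n) := by
  induction n with
  | zero => rw [pow_zero]; exact hom_one_isMonHom
  | succ n ih =>
    rw [pow_succ]
    have := ih
    exact hom_mul_isMonHom _ _

instance nMap_isMonHom [BraidedCategory C] [IsCommMonObj G] (n : ℕ) : IsMonHom (nMap G n) :=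
  hom_pow_isMonHom (𝟙 G) n

/-- On `𝟙_`-points: `x ^ n = 1` iff `x ≫ nMap G n = η`. -/
theorem pow_eq_one_iff_comp_nMap (x : 𝟙_ C ⟶ G) (n : ℕ) :
    x ^ n = 1 ↔ x ≫ nMap G n = η[G] := by
  rw [comp_nMap, Hom.one_def]
  have : toUnit (𝟙_ C) = 𝟙 (𝟙_ C) := Subsingleton.elim _ _
  rw [this, Category.id_comp]

end General

section Schemes

variable {K : Type u} [Field K] [IsAlgClosed K]
variable (G : Over (Spec (CommRingCat.of K))) [LocallyOfFiniteType G.hom]

/-- `K`-points of `G` (as morphisms of `Over (Spec K)`) are the closed points of `G`. -/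
def kPointEquivClosedPoint :
    (𝟙_ (Over (Spec (CommRingCat.of K))) ⟶ G) ≃ closedPoints G.left :=
  (Equiv.mk (fun x => (⟨x.left, Over.w x⟩ : {p : Spec (CommRingCat.of K) ⟶ G.left // p ≫ G.hom = 𝟙 _}))
    (fun p => Over.homMk p.1 p.2) (fun _ => rfl) (fun _ => rfl)).trans
    (pointEquivClosedPoint G.hom)

theorem kPointEquivClosedPoint_apply (x : 𝟙_ (Over (Spec (CommRingCat.of K))) ⟶ G) :
    (kPointEquivClosedPoint G x : G.left) = x.left (IsLocalRing.closedPoint K) := rfl

theorem kPoint_ext {x y : 𝟙_ (Over (Spec (CommRingCat.of K))) ⟶ G}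
    (h : x.left (IsLocalRing.closedPoint K) = y.left (IsLocalRing.closedPoint K)) : x = y :=
  (kPointEquivClosedPoint G).injective (Subtype.ext h)

variable [GrpObj G]

/-- The closed point of `G` underlying the unit section. -/
def unitPt : G.left := η[G].left (IsLocalRing.closedPoint K)

/-- The `n`-torsion `K`-points are the closed points in the fibre of `nMap G n` over the unit. -/
def torsionEquivFibre (n : ℕ) :
    {x : 𝟙_ (Over (Spec (CommRingCat.of K))) ⟶ G // x ^ n = 1} ≃
      {a : G.left // IsClosed {a} ∧ (nMap G n).left a = unitPt G} where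
  toFun x := ⟨x.1.left (IsLocalRing.closedPoint K), (kPointEquivClosedPoint G x.1).2, by
    have h := (pow_eq_one_iff_comp_nMap x.1 n).mp x.2
    have h2 : (x.1 ≫ nMap G n).left (IsLocalRing.closedPoint K) = unitPt G :=
      congrArg (fun y => y.left (IsLocalRing.closedPoint K)) h
    exact (Scheme.Hom.comp_apply x.1.left (nMap G n).left _).symm.trans h2⟩
  invFun a := ⟨(kPointEquivClosedPoint G).symm ⟨a.1, a.2.1⟩, by
    rw [pow_eq_one_iff_comp_nMap]
    apply kPoint_ext
    have h1 : ((kPointEquivClosedPoint G).symm ⟨a.1, a.2.1⟩).left (IsLocalRing.closedPoint K) = a.1 :=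
      congrArg Subtype.val ((kPointEquivClosedPoint G).apply_symm_apply ⟨a.1, a.2.1⟩)
    refine (Scheme.Hom.comp_apply _ (nMap G n).left _).trans ?_
    rw [h1, a.2.2]
    rfl⟩
  left_inv x := Subtype.ext ((kPointEquivClosedPoint G).symm_apply_apply x.1)
  right_inv a := Subtype.ext
    (congrArg Subtype.val ((kPointEquivClosedPoint G).apply_symm_apply ⟨a.1, a.2.1⟩) :)

end Schemes

end Fermat.Agent.AV
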