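/-
PROJECT AV (S26) -- helper6 -- AV1, ring level.

* `formallyEtale_of_bijective_mapBaseChange`: for `R → S → T` with `T/R` formally smooth, if
  `T ⊗[S] Ω[S⁄R] → Ω[T⁄R]` is bijective then `T/S` is formally etale (Jacobi–Zariski).
* `formallyEtale_of_forall_derivation_eq_zero`: the pointwise (tangent vector) criterion.
-/
import Mathlib

set_option autoImplicit false

open TensorProduct

namespace Fermat.Agent.AV

section JacobiZariski

variable (R S T : Type*) [CommRing R] [CommRing S] [CommRing T]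
  [Algebra R S] [Algebra R T] [Algebra S T] [IsScalarTower R S T]

/-- Jacobi–Zariski: if `T/R` is formally smooth and the cotangent map
`T ⊗[S] Ω[S⁄R] → Ω[T⁄R]` is bijective, then `T/S` is formally etale. -/
theorem formallyEtale_of_bijective_mapBaseChange [Algebra.FormallySmooth R T]
    (h : Function.Bijective (KaehlerDifferential.mapBaseChange R S T)) :
    Algebra.FormallyEtale S T := by
  refine ⟨?_, ?_⟩
  · -- `Ω[T⁄S]` is the cokernel of the cotangent map
    have hex := KaehlerDifferential.exact_mapBaseChange_map R S T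
    have hsurj := KaehlerDifferential.map_surjective R S T
    refine ⟨fun a b => ?_⟩
    obtain ⟨a', rfl⟩ := hsurj a
    obtain ⟨b', rfl⟩ := hsurj b
    have ha : KaehlerDifferential.map R S T T a' = 0 :=
      (hex a').mpr (h.2 a')
    have hb : KaehlerDifferential.map R S T T b' = 0 :=
      (hex b').mpr (h.2 b')
    rw [ha, hb]
  · -- `H¹(L_{T/S})` injects into the kernel of the cotangent map
    have h1 : Subsingleton (Algebra.H1Cotangent R T) :=
      ((Algebra.formallySmooth_iff R T).mp inferInstance).2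
    have e1 := Algebra.H1Cotangent.exact_map_δ R S T
    have e2 := Algebra.H1Cotangent.exact_δ_mapBaseChange R S T
    have hzero : ∀ x : Algebra.H1Cotangent S T, x = 0 := by
      intro x
      have hδ : Algebra.H1Cotangent.δ R S T x = 0 := by
        apply h.1
        rw [map_zero]
        exact (e2 _).mpr ⟨x, rfl⟩
      obtain ⟨y, rfl⟩ := (e1 x).mp hδ
      rw [Subsingleton.elim y 0, map_zero]
    exact ⟨fun a b => by rw [hzero a, hzero b]⟩

end JacobiZariski

/-- a finite module all of whose linear maps to residue fields at maximal ideals vanish is zero. -/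
theorem subsingleton_of_forall_maximal_linearMap_eq_zero {T M : Type*} [CommRing T]
    [AddCommGroup M] [Module T M] [Module.Finite T M]
    (h : ∀ (𝔪 : Ideal T) [𝔪.IsMaximal] (ℓ : M →ₗ[T] T ⧸ 𝔪), ℓ = 0) : Subsingleton M := by
  by_contra hne
  rw [not_subsingleton_iff_nontrivial] at hne
  have hex : ∃ 𝔪 : Ideal T, 𝔪.IsMaximal ∧ 𝔪 • (⊤ : Submodule T M) ≠ ⊤ := by
    by_contra hall
    push Not at hall
    have hann : Module.annihilator T M ≠ ⊤ := by
      rw [Ne, Module.annihilator_eq_top_iff]
      exact not_subsingleton M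
    obtain ⟨𝔪, hmax, hle⟩ := Ideal.exists_le_maximal _ hann
    obtain ⟨r, hr1, hr0⟩ := Submodule.exists_sub_one_mem_and_smul_eq_zero_of_fg_of_le_smul 𝔪
      (⊤ : Submodule T M) Module.Finite.fg_top (by rw [hall 𝔪 hmax])
    have hr : r ∈ Module.annihilator T M :=
      Module.mem_annihilator.mpr fun m => hr0 m Submodule.mem_top
    have hr𝔪 : r ∈ 𝔪 := hle hr
    have h1 : (1 : T) ∈ 𝔪 := by
      have := 𝔪.sub_mem hr𝔪 hr1
      simpa using this
    exact hmax.ne_top ((Ideal.eq_top_iff_one _).mpr h1)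
  obtain ⟨𝔪, hmax, hne𝔪⟩ := hex
  have := hmax
  let : Field (T ⧸ 𝔪) := Ideal.Quotient.field 𝔪
  -- the quotient `Q = M ⧸ 𝔪 M` is a nonzero vector space over `T ⧸ 𝔪`
  let Q := M ⧸ 𝔪 • (⊤ : Submodule T M)
  have hQ : ∃ q : Q, q ≠ 0 := by
    by_contra hq
    push Not at hq
    apply hne𝔪
    rw [eq_top_iff]
    intro m _
    have := hq (Submodule.Quotient.mk m)
    rwa [Submodule.Quotient.mk_eq_zero] at this
  obtain ⟨q, hq⟩ := hQ
  have hφ : ∃ φ : Module.Dual (T ⧸ 𝔪) Q, φ q ≠ 0 := by
    by_contra hcon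
    push Not at hcon
    exact hq ((Module.forall_dual_apply_eq_zero_iff (T ⧸ 𝔪) q).mp hcon)
  obtain ⟨φ, hφq⟩ := hφ
  obtain ⟨m, rfl⟩ := Submodule.Quotient.mk_surjective _ q
  have h0 := h 𝔪 ((φ.restrictScalars T).comp (Submodule.mkQ (𝔪 • (⊤ : Submodule T M))))
  apply hφq
  exact LinearMap.congr_fun h0 m


section Criterion

variable (R S T : Type*) [CommRing R] [CommRing S] [CommRing T]
  [Algebra R S] [Algebra R T] [Algebra S T] [IsScalarTower R S T]

/-- **ring-level etale criterion**: `R → S → T` with `T/R` formally smooth, `Ω[S⁄R]`, `Ω[T⁄R]` free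
of the same finite rank, `Ω[T⁄S]` finite; if no maximal ideal of `T` carries a nonzero
`S`-derivation `T → T ⧸ 𝔪` (injective tangent maps at closed points) then `T/S` is formally
etale. -/
theorem formallyEtale_of_forall_derivation_eq_zero
    [Algebra.FormallySmooth R T]
    [Module.Free S Ω[S⁄R]] [Module.Finite S Ω[S⁄R]]
    [Module.Free T Ω[T⁄R]] [Module.Finite T Ω[T⁄R]]
    (hrank : Module.finrank S Ω[S⁄R] = Module.finrank T Ω[T⁄R])
    [Module.Finite T Ω[T⁄S]]
    (hD : ∀ (𝔪 : Ideal T) [𝔪.IsMaximal] (D : Derivation S T (T ⧸ 𝔪)), D = 0) :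
    Algebra.FormallyEtale S T := by
  rcases subsingleton_or_nontrivial T with hT | hT
  · exact ⟨⟨fun a b => Module.subsingleton T _ |>.elim a b⟩,
      ⟨fun a b => (Module.subsingleton T _).elim a b⟩⟩
  have hS : Nontrivial S := (algebraMap S T).domain_nontrivial
  have hΩ : Subsingleton Ω[T⁄S] :=
    subsingleton_of_forall_maximal_linearMap_eq_zero (fun 𝔪 _ ℓ => by
      have h0 := hD 𝔪 (KaehlerDifferential.linearMapEquivDerivation S T ℓ)
      exact (LinearEquiv.map_eq_zero_iff _).mp h0)
  have hsurj : Function.Surjective (KaehlerDifferential.mapBaseChange R S T) := by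
    intro y
    exact (KaehlerDifferential.exact_mapBaseChange_map R S T y).mp (Subsingleton.elim _ _)
  refine formallyEtale_of_bijective_mapBaseChange R S T ⟨?_, hsurj⟩
  -- both sides are free of the same finite rank
  have hr1 : Module.finrank T (T ⊗[S] Ω[S⁄R]) = Module.finrank T Ω[T⁄R] := by
    rw [Module.finrank_baseChange, hrank]
  let b1 := Module.finBasis T (T ⊗[S] Ω[S⁄R])
  let b2 := Module.finBasis T Ω[T⁄R]
  let e : Ω[T⁄R] ≃ₗ[T] T ⊗[S] Ω[S⁄R] := b2.equiv b1 (finCongr hr1.symm)
  have hinj : Function.Injective ((KaehlerDifferential.mapBaseChange R S T).comp e.toLinearMap) :=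
    OrzechProperty.injective_of_surjective_endomorphism _
      (hsurj.comp e.surjective)
  intro x y hxy
  have := hinj (a₁ := e.symm x) (a₂ := e.symm y) (by simpa using hxy)
  exact e.symm.injective this

end Criterion


section DualHom

variable {S T : Type*} [CommRing S] [CommRing T] [Algebra S T] (𝔪 : Ideal T)

/-- the ring hom `T → (T ⧸ 𝔪)[ε]`, `b ↦ b̄ + D b • ε`, attached to a derivation `D : T → T ⧸ 𝔪`. -/
def derivationDualHom (D : Derivation S T (T ⧸ 𝔪)) : T →+* DualNumber (T ⧸ 𝔪) where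
  toFun b := TrivSqZeroExt.inl (Ideal.Quotient.mk 𝔪 b) + TrivSqZeroExt.inr (D b)
  map_one' := by
    apply TrivSqZeroExt.ext <;> simp
  map_mul' a b := by
    apply TrivSqZeroExt.ext
    · simp
    · simp only [TrivSqZeroExt.snd_add, TrivSqZeroExt.snd_inl, TrivSqZeroExt.snd_inr, zero_add,
        TrivSqZeroExt.snd_mul, TrivSqZeroExt.fst_add, TrivSqZeroExt.fst_inl, TrivSqZeroExt.fst_inr,
        add_zero, D.leibniz, MulOpposite.smul_eq_mul_unop, MulOpposite.unop_op, smul_eq_mul]
      rw [Algebra.smul_def, Algebra.smul_def, Ideal.Quotient.algebraMap_eq]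
      ring
  map_zero' := by
    apply TrivSqZeroExt.ext <;> simp
  map_add' a b := by
    apply TrivSqZeroExt.ext
    · simp
    · simp only [TrivSqZeroExt.snd_add, TrivSqZeroExt.snd_inl, TrivSqZeroExt.snd_inr, zero_add,
        map_add]

@[simp]
theorem derivationDualHom_apply (D : Derivation S T (T ⧸ 𝔪)) (b : T) :
    derivationDualHom 𝔪 D b =
      TrivSqZeroExt.inl (Ideal.Quotient.mk 𝔪 b) + TrivSqZeroExt.inr (D b) := rfl

theorem fst_derivationDualHom (D : Derivation S T (T ⧸ 𝔪)) (b : T) :
    (derivationDualHom 𝔪 D b).fst = Ideal.Quotient.mk 𝔪 b := by simp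

theorem snd_derivationDualHom (D : Derivation S T (T ⧸ 𝔪)) (b : T) :
    (derivationDualHom 𝔪 D b).snd = D b := by simp

theorem derivationDualHom_algebraMap (D : Derivation S T (T ⧸ 𝔪)) (s : S) :
    derivationDualHom 𝔪 D (algebraMap S T s) =
      TrivSqZeroExt.inl (Ideal.Quotient.mk 𝔪 (algebraMap S T s)) := by
  simp

end DualHom


end Fermat.Agent.AV
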