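/-
PROJECT AV (S26) -- helper6 -- AV1, Part I (geometric etale criterion).

`etale_of_tangentInjective`: a morphism `φ : X ⟶ Y` of schemes smooth of the same relative
dimension `g` over a field `K` is etale as soon as its relative tangent maps are injective at all
field-valued points, phrased with `κ[ε]`-points (`TangentInjective`).
-/
import Mathlib
import Fermat.Agent.AV.AV1_helper6_RingEtale

set_option autoImplicit false

open CategoryTheory CategoryTheory.Limits AlgebraicGeometry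

universe u

namespace Fermat.Agent.AV

/-- `Spec κ[ε]`. -/
noncomputable abbrev specDual (κ : Type u) [Field κ] : Scheme.{u} := Spec (CommRingCat.of (DualNumber κ))

/-- the closed point `Spec κ ⟶ Spec κ[ε]`. -/
noncomputable def dualPt (κ : Type u) [Field κ] : Spec (CommRingCat.of κ) ⟶ specDual κ :=
  Spec.map (CommRingCat.ofHom (TrivSqZeroExt.fstHom κ κ κ).toRingHom)

/-- the structure map `Spec κ[ε] ⟶ Spec κ`. -/
noncomputable def dualStr (κ : Type u) [Field κ] : specDual κ ⟶ Spec (CommRingCat.of κ) :=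
  Spec.map (CommRingCat.ofHom (algebraMap κ (DualNumber κ)))

/-- injectivity of the relative tangent maps of `φ : X ⟶ Y` at all field-valued points: two
`κ[ε]`-points of `X` (constant structure map) with the same closed point and the same image
in `Y` are equal. -/
def TangentInjective {K : Type u} [Field K] {X Y : Scheme.{u}}
    (sX : X ⟶ Spec (CommRingCat.of K)) (φ : X ⟶ Y) : Prop :=
  ∀ (κ : Type u) [Field κ] (t₀ : Spec (CommRingCat.of κ) ⟶ Spec (CommRingCat.of K))
    (g₁ g₂ : specDual κ ⟶ X),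
    g₁ ≫ sX = dualStr κ ≫ t₀ → g₂ ≫ sX = dualStr κ ≫ t₀ →
    dualPt κ ≫ g₁ = dualPt κ ≫ g₂ → g₁ ≫ φ = g₂ ≫ φ → g₁ = g₂

theorem opens_specField_eq_top {K : Type u} [Field K] (W : (Spec (CommRingCat.of K)).Opens)
    (z : Spec (CommRingCat.of K)) (hz : z ∈ W) : W = ⊤ := by
  ext w
  simp only [TopologicalSpace.Opens.coe_top, Set.mem_univ, iff_true]
  have : w = z := Subsingleton.elim _ _
  rw [this]; exact hz

theorem etale_stableUnderCompositionWithLocalizationAwaySource :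
    RingHom.StableUnderCompositionWithLocalizationAwaySource
      (fun {R S : Type u} [CommRing R] [CommRing S] => @RingHom.Etale R S _ _) :=
  (RingHom.Etale.stableUnderComposition.stableUnderCompositionWithLocalizationAway
    (fun _ _ _ _ _ r _ => RingHom.etale_algebraMap.mpr (Algebra.Etale.of_isLocalizationAway r))).1


section Main

variable {K : Type u} [Field K] {X Y : Scheme.{u}}
  (sX : X ⟶ Spec (CommRingCat.of K)) (sY : Y ⟶ Spec (CommRingCat.of K)) (φ : X ⟶ Y)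

theorem derivationDualHom_zero_eq {S T : Type*} [CommRing S] [CommRing T] [Algebra S T]
    (𝔪 : Ideal T) :
    derivationDualHom 𝔪 (0 : Derivation S T (T ⧸ 𝔪)) =
      (algebraMap (T ⧸ 𝔪) (DualNumber (T ⧸ 𝔪))).comp (Ideal.Quotient.mk 𝔪) := by
  ext b
  · simp [TrivSqZeroExt.algebraMap_eq_inl]
  · simp [TrivSqZeroExt.algebraMap_eq_inl]

theorem etale_of_tangentInjective (hφ : φ ≫ sY = sX) (g : ℕ)
    [SmoothOfRelativeDimension g sX] [SmoothOfRelativeDimension g sY]
    (h : TangentInjective sX φ) : Etale φ := by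
  subst hφ
  rw [HasRingHomProperty.iff_exists_appLE (P := @Etale)
    etale_stableUnderCompositionWithLocalizationAwaySource]
  intro x
  -- charts
  obtain ⟨W₁, hW₁, U, hU, hyU, e₁, hstd₁⟩ :=
    SmoothOfRelativeDimension.exists_isStandardSmoothOfRelativeDimension (n := g) (f := sY) (φ x)
  obtain rfl : W₁ = ⊤ := opens_specField_eq_top W₁ (sY (φ x)) (e₁ hyU)
  obtain ⟨W₂, hW₂, V₀, hV₀, hxV₀, e₂, hstd₂⟩ :=
    SmoothOfRelativeDimension.exists_isStandardSmoothOfRelativeDimension (n := g)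
      (f := φ ≫ sY) x
  obtain rfl : W₂ = ⊤ := opens_specField_eq_top W₂ ((φ ≫ sY) x) (e₂ hxV₀)
  obtain ⟨r, hrle, hxr⟩ := hV₀.exists_basicOpen_le (V := φ ⁻¹ᵁ U) ⟨x, hyU⟩ hxV₀
  have hV : IsAffineOpen (X.basicOpen r) := hV₀.basicOpen r
  refine ⟨⟨U, hU⟩, ⟨X.basicOpen r, hV⟩, hxr, hrle, ?_⟩
  have eV : X.basicOpen r ≤ (φ ≫ sY) ⁻¹ᵁ ⊤ := (X.basicOpen_le r).trans e₂
  have hstdT : RingHom.IsStandardSmoothOfRelativeDimension g
      ((φ ≫ sY).appLE ⊤ (X.basicOpen r) eV).hom := by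
    rw [← (φ ≫ sY).appLE_map e₂ (homOfLE (X.basicOpen_le r)).op]
    have : IsLocalization.Away r Γ(X, X.basicOpen r) := hV₀.isLocalization_basicOpen r
    exact (RingHom.isStandardSmoothOfRelativeDimension_stableUnderCompositionWithLocalizationAway
      g).2 _ r _ hstd₂
  -- the three rings
  let a : Γ(Spec (CommRingCat.of K), ⊤) ⟶ Γ(Y, U) := sY.appLE ⊤ U e₁
  let b : Γ(Y, U) ⟶ Γ(X, X.basicOpen r) := φ.appLE U (X.basicOpen r) hrle
  have hab : a ≫ b = (φ ≫ sY).appLE ⊤ (X.basicOpen r) eV :=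
    Scheme.Hom.appLE_comp_appLE _ _ _ _ _ _ _
  have hstdT' : RingHom.IsStandardSmoothOfRelativeDimension g (b.hom.comp a.hom) := by
    rw [← CommRingCat.hom_comp, hab]; exact hstdT
  let algRS : Algebra Γ(Spec (CommRingCat.of K), ⊤) Γ(Y, U) := a.hom.toAlgebra
  let algST : Algebra Γ(Y, U) Γ(X, X.basicOpen r) := b.hom.toAlgebra
  let algRT : Algebra Γ(Spec (CommRingCat.of K), ⊤) Γ(X, X.basicOpen r) :=
    (b.hom.comp a.hom).toAlgebra
  have : IsScalarTower Γ(Spec (CommRingCat.of K), ⊤) Γ(Y, U) Γ(X, X.basicOpen r) :=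
    IsScalarTower.of_algebraMap_eq' rfl
  have iS : Algebra.IsStandardSmoothOfRelativeDimension g Γ(Spec (CommRingCat.of K), ⊤) Γ(Y, U) :=
    hstd₁
  have iT : Algebra.IsStandardSmoothOfRelativeDimension g Γ(Spec (CommRingCat.of K), ⊤)
      Γ(X, X.basicOpen r) := hstdT'
  have : Algebra.IsStandardSmooth Γ(Spec (CommRingCat.of K), ⊤) Γ(Y, U) := iS.isStandardSmooth
  have : Algebra.IsStandardSmooth Γ(Spec (CommRingCat.of K), ⊤) Γ(X, X.basicOpen r) :=
    iT.isStandardSmooth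
  have : Nonempty (X.basicOpen r) := ⟨⟨x, hxr⟩⟩
  have : Nontrivial Γ(X, X.basicOpen r) := inferInstance
  have : Nontrivial Γ(Y, U) := (algebraMap Γ(Y, U) Γ(X, X.basicOpen r)).domain_nontrivial
  have : Algebra.FiniteType Γ(Y, U) Γ(X, X.basicOpen r) :=
    Algebra.FiniteType.of_restrictScalars_finiteType Γ(Spec (CommRingCat.of K), ⊤) _ _
  have hrank : Module.finrank Γ(Y, U) Ω[Γ(Y, U)⁄Γ(Spec (CommRingCat.of K), ⊤)] =
      Module.finrank Γ(X, X.basicOpen r) Ω[Γ(X, X.basicOpen r)⁄Γ(Spec (CommRingCat.of K), ⊤)] := by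
    rw [Module.finrank_eq_of_rank_eq
        (Algebra.IsStandardSmoothOfRelativeDimension.rank_kaehlerDifferential g),
      Module.finrank_eq_of_rank_eq
        (Algebra.IsStandardSmoothOfRelativeDimension.rank_kaehlerDifferential g)]
  have hfe : Algebra.FormallyEtale Γ(Y, U) Γ(X, X.basicOpen r) := by
    refine formallyEtale_of_forall_derivation_eq_zero Γ(Spec (CommRingCat.of K), ⊤) Γ(Y, U)
      Γ(X, X.basicOpen r) hrank ?_
    intro 𝔪 h𝔪 D
    let κ : Type u := Γ(X, X.basicOpen r) ⧸ 𝔪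
    let _ : Field κ := Ideal.Quotient.field 𝔪
    let β₁ : Γ(X, X.basicOpen r) ⟶ CommRingCat.of (DualNumber κ) :=
      CommRingCat.ofHom (derivationDualHom 𝔪 D)
    let β₂ : Γ(X, X.basicOpen r) ⟶ CommRingCat.of (DualNumber κ) :=
      CommRingCat.ofHom (derivationDualHom 𝔪 (0 : Derivation Γ(Y, U) Γ(X, X.basicOpen r) κ))
    let mk𝔪 : Γ(X, X.basicOpen r) ⟶ CommRingCat.of κ := CommRingCat.ofHom (Ideal.Quotient.mk 𝔪)
    have hβ₂ : β₂ = mk𝔪 ≫ CommRingCat.ofHom (algebraMap κ (DualNumber κ)) :=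
      CommRingCat.hom_ext (derivationDualHom_zero_eq (S := Γ(Y, U)) 𝔪)
    have hb : b ≫ β₁ = b ≫ β₂ := by
      refine CommRingCat.hom_ext (RingHom.ext fun s => ?_)
      change derivationDualHom 𝔪 D (algebraMap Γ(Y, U) Γ(X, X.basicOpen r) s) =
        derivationDualHom 𝔪 (0 : Derivation Γ(Y, U) Γ(X, X.basicOpen r) κ)
          (algebraMap Γ(Y, U) Γ(X, X.basicOpen r) s)
      rw [derivationDualHom_algebraMap, derivationDualHom_algebraMap]
    have hc : (φ ≫ sY).appLE ⊤ (X.basicOpen r) eV ≫ β₁ =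
        (φ ≫ sY).appLE ⊤ (X.basicOpen r) eV ≫ β₂ := by
      rw [← hab, Category.assoc, Category.assoc, hb]
    have hfst : β₁ ≫ CommRingCat.ofHom (TrivSqZeroExt.fstHom κ κ κ).toRingHom =
        β₂ ≫ CommRingCat.ofHom (TrivSqZeroExt.fstHom κ κ κ).toRingHom := by
      refine CommRingCat.hom_ext (RingHom.ext fun t => ?_)
      change (derivationDualHom 𝔪 D t).fst =
        (derivationDualHom 𝔪 (0 : Derivation Γ(Y, U) Γ(X, X.basicOpen r) κ) t).fst
      rw [fst_derivationDualHom, fst_derivationDualHom]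
    have hSpecK : hV.fromSpec ≫ (φ ≫ sY) =
        Spec.map ((φ ≫ sY).appLE ⊤ (X.basicOpen r) eV) ≫
          (isAffineOpen_top (Spec (CommRingCat.of K))).fromSpec :=
      (IsAffineOpen.SpecMap_appLE_fromSpec (φ ≫ sY) (isAffineOpen_top _) hV eV).symm
    have hSpecY : hV.fromSpec ≫ φ = Spec.map b ≫ hU.fromSpec :=
      (IsAffineOpen.SpecMap_appLE_fromSpec φ hU hV hrle).symm
    let t₀ : Spec (CommRingCat.of κ) ⟶ Spec (CommRingCat.of K) :=
      Spec.map mk𝔪 ≫ hV.fromSpec ≫ (φ ≫ sY)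
    have c2 : (Spec.map β₂ ≫ hV.fromSpec) ≫ (φ ≫ sY) = dualStr κ ≫ t₀ := by
      simp only [dualStr, t₀, hβ₂, Spec.map_comp, Category.assoc]
    have c1 : (Spec.map β₁ ≫ hV.fromSpec) ≫ (φ ≫ sY) = dualStr κ ≫ t₀ := by
      rw [← c2, Category.assoc, Category.assoc, hSpecK, ← Spec.map_comp_assoc,
        ← Spec.map_comp_assoc, hc]
    have c3 : dualPt κ ≫ (Spec.map β₁ ≫ hV.fromSpec) = dualPt κ ≫ (Spec.map β₂ ≫ hV.fromSpec) := by
      simp only [dualPt, ← Spec.map_comp_assoc, hfst]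
    have c4 : (Spec.map β₁ ≫ hV.fromSpec) ≫ φ = (Spec.map β₂ ≫ hV.fromSpec) ≫ φ := by
      rw [Category.assoc, Category.assoc, hSpecY, ← Spec.map_comp_assoc, ← Spec.map_comp_assoc, hb]
    have key := h κ t₀ _ _ c1 c2 c3 c4
    rw [cancel_mono] at key
    have hβ : β₁ = β₂ := Spec.map_injective key
    ext t
    have := congrArg (fun β : Γ(X, X.basicOpen r) ⟶ CommRingCat.of (DualNumber κ) =>
      (β.hom t).snd) hβ
    have h2 : (derivationDualHom 𝔪 D t).snd =
        (derivationDualHom 𝔪 (0 : Derivation Γ(Y, U) Γ(X, X.basicOpen r) κ) t).snd := this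
    rw [snd_derivationDualHom, snd_derivationDualHom] at h2
    simpa using h2
  have : Algebra.FinitePresentation Γ(Y, U) Γ(X, X.basicOpen r) :=
    Algebra.FinitePresentation.of_restrict_scalars_finitePresentation
      Γ(Spec (CommRingCat.of K), ⊤) _ _
  have : Algebra.Etale Γ(Y, U) Γ(X, X.basicOpen r) := ⟨hfe, inferInstance⟩
  exact RingHom.etale_algebraMap.mpr this

end Main

end Fermat.Agent.AV
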