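/-
PROJECT AV (S26) -- helper6 -- AV1, Part II: multiplication by `n` is etale.

For a commutative group object `G` of `Over (Spec K)` (`K` any field), smooth of relative
dimension `g`, and `n` invertible in `K`, the morphism `nMap G n : G ⟶ G` is etale
(`etale_nMap`).  The proof: tangent vectors at the unit (`κ[ε]`-points restricting to the unit)
form a group on which the group law is addition of the `ε`-components (`rep_mul_snd`, by the
`κ[ε₁, ε₂]` trick), hence `w ^ n = 1` forces `w = 1` (`eq_one_of_pow_eq_one`); this gives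
`TangentInjective` for `nMap G n`, and Part I (`etale_of_tangentInjective`) concludes.
-/
import Mathlib
import Fermat.Agent.AV.AV0_helper4_NMap
import Fermat.Agent.AV.AV1_helper6_TangentCrit

set_option autoImplicit false

open CategoryTheory CategoryTheory.Limits AlgebraicGeometry
open MonoidalCategory CartesianMonoidalCategory MonObj

universe u

namespace Fermat.Agent.AV

/-- A point of `X` with values in a local ring `R` whose closed point lands in the affine open `V`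
is of the form `Spec.map β ≫ hV.fromSpec`. -/
theorem exists_specMap_fromSpec {X : Scheme.{u}} {V : X.Opens} (hV : IsAffineOpen V)
    {R : CommRingCat.{u}} [IsLocalRing R] (z : Spec R ⟶ X)
    (hz : z (IsLocalRing.closedPoint R) ∈ V) :
    ∃ β : Γ(X, V) ⟶ R, Spec.map β ≫ hV.fromSpec = z := by
  have h := IsAffineOpen.SpecMap_appLE_fromSpec z hV (isAffineOpen_top _)
    (Scheme.preimage_eq_top_of_closedPoint_mem z hz).ge
  rw [IsAffineOpen.fromSpec_top, Iso.eq_inv_comp, Scheme.isoSpec_Spec_hom] at h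
  refine ⟨Scheme.Hom.appLE z V ⊤ (Scheme.preimage_eq_top_of_closedPoint_mem z hz).ge ≫
    (Scheme.ΓSpecIso R).hom, ?_⟩
  rw [Spec.map_comp, Category.assoc]
  exact h

theorem specMap_fromSpec_injective {X : Scheme.{u}} {V : X.Opens} (hV : IsAffineOpen V)
    {R : CommRingCat.{u}} (β β' : Γ(X, V) ⟶ R)
    (h : Spec.map β ≫ hV.fromSpec = Spec.map β' ≫ hV.fromSpec) : β = β' :=
  Spec.map_injective ((cancel_mono hV.fromSpec).mp h)

instance tsz_isLocalRing (κ M : Type*) [Field κ] [AddCommGroup M] [Module κ M] [Module κᵐᵒᵖ M]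
    [IsCentralScalar κ M] : IsLocalRing (TrivSqZeroExt κ M) where
  isUnit_or_isUnit_of_add_one {a b} h := by
    rw [add_comm, ← eq_sub_iff_add_eq] at h
    rcases eq_or_ne (TrivSqZeroExt.fst a) 0 with ha | ha <;>
    simp [TrivSqZeroExt.isUnit_iff_isUnit_fst, h, ha]

section Ovr

variable {K : Type u} [Field K] {κ : Type u} [Field κ]
  (t₀ : Spec (CommRingCat.of κ) ⟶ Spec (CommRingCat.of K))

/-- The object of `Over (Spec K)` given by a `κ`-algebra `R` (through `t₀ : Spec κ ⟶ Spec K`). -/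
noncomputable abbrev ovr (R : Type u) [CommRing R] [Algebra κ R] :
    Over (Spec (CommRingCat.of K)) :=
  Over.mk (Spec.map (CommRingCat.ofHom (algebraMap κ R)) ≫ t₀)

/-- The morphism of `Over (Spec K)` given by a `κ`-algebra homomorphism. -/
noncomputable def ovrMap {R R' : Type u} [CommRing R] [CommRing R'] [Algebra κ R] [Algebra κ R']
    (h : R →ₐ[κ] R') : ovr t₀ R' ⟶ ovr t₀ R :=
  Over.homMk (Spec.map (CommRingCat.ofHom h.toRingHom)) (by
    simp only [Over.mk_hom, ← Category.assoc, ← Spec.map_comp, ← CommRingCat.ofHom_comp,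
      AlgHom.toRingHom_eq_coe, AlgHom.comp_algebraMap])

@[simp] theorem ovrMap_left {R R' : Type u} [CommRing R] [CommRing R'] [Algebra κ R] [Algebra κ R']
    (h : R →ₐ[κ] R') : (ovrMap t₀ h).left = Spec.map (CommRingCat.ofHom h.toRingHom) := rfl

theorem ovrMap_comp {R R' R'' : Type u} [CommRing R] [CommRing R'] [CommRing R''] [Algebra κ R]
    [Algebra κ R'] [Algebra κ R''] (h : R →ₐ[κ] R') (h' : R' →ₐ[κ] R'') :
    ovrMap t₀ (h'.comp h) = ovrMap t₀ h' ≫ ovrMap t₀ h := by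
  ext1
  simp only [ovrMap_left, Over.comp_left, ← Spec.map_comp, ← CommRingCat.ofHom_comp]
  rfl

theorem ovrMap_id {R : Type u} [CommRing R] [Algebra κ R] :
    ovrMap t₀ (AlgHom.id κ R) = 𝟙 _ := by
  ext1
  simp only [ovrMap_left, Over.id_left]
  exact Spec.map_id _

end Ovr

section Tangent

variable {K : Type u} [Field K] (G : Over (Spec (CommRingCat.of K)))
  {κ : Type u} [Field κ] (t₀ : Spec (CommRingCat.of κ) ⟶ Spec (CommRingCat.of K))
  {V : G.left.Opens} (hV : IsAffineOpen V)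

/-- `β : Γ(G, V) ⟶ R` represents the `R`-point `z` of `G`. -/
def Rep {R : Type u} [CommRing R] [Algebra κ R] (z : ovr t₀ R ⟶ G)
    (β : Γ(G.left, V) ⟶ CommRingCat.of R) : Prop :=
  Spec.map β ≫ hV.fromSpec = z.left

variable {G t₀ hV}

theorem Rep.unique {R : Type u} [CommRing R] [Algebra κ R] {z : ovr t₀ R ⟶ G}
    {β β' : Γ(G.left, V) ⟶ CommRingCat.of R} (h : Rep G t₀ hV z β) (h' : Rep G t₀ hV z β') :
    β = β' :=
  specMap_fromSpec_injective hV β β' (h.trans h'.symm)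

theorem Rep.ext {R : Type u} [CommRing R] [Algebra κ R] {z z' : ovr t₀ R ⟶ G}
    {β : Γ(G.left, V) ⟶ CommRingCat.of R} (h : Rep G t₀ hV z β) (h' : Rep G t₀ hV z' β) :
    z = z' :=
  Over.OverMorphism.ext (h.symm.trans h')

theorem Rep.comp {R R' : Type u} [CommRing R] [Algebra κ R] [CommRing R'] [Algebra κ R']
    {z : ovr t₀ R ⟶ G} {β : Γ(G.left, V) ⟶ CommRingCat.of R} (h : Rep G t₀ hV z β)
    (φ : R →ₐ[κ] R') :
    Rep G t₀ hV (ovrMap t₀ φ ≫ z) (β ≫ CommRingCat.ofHom φ.toRingHom) := by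
  unfold Rep at h ⊢
  rw [Spec.map_comp, Category.assoc, h]
  rfl

theorem exists_rep {R : Type u} [CommRing R] [Algebra κ R] [IsLocalRing R] (z : ovr t₀ R ⟶ G)
    (hz : z.left (IsLocalRing.closedPoint R) ∈ V) :
    ∃ β : Γ(G.left, V) ⟶ CommRingCat.of R, Rep G t₀ hV z β :=
  exists_specMap_fromSpec hV (R := CommRingCat.of R) z.left hz

end Tangent


section Core

open TrivSqZeroExt

variable {K : Type u} [Field K] {G : Over (Spec (CommRingCat.of K))} [GrpObj G]
  {κ : Type u} [Field κ] {t₀ : Spec (CommRingCat.of κ) ⟶ Spec (CommRingCat.of K)}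

instance fstHom_isLocalHom (M : Type u) [AddCommGroup M] [Module κ M] [Module κᵐᵒᵖ M]
    [IsCentralScalar κ M] :
    IsLocalHom (CommRingCat.ofHom (fstHom κ κ M).toRingHom).hom :=
  ⟨fun _ h => isUnit_iff_isUnit_fst.mpr h⟩

theorem map_zero_eq (M N : Type u) [AddCommGroup M] [Module κ M] [Module κᵐᵒᵖ M]
    [IsCentralScalar κ M] [AddCommGroup N] [Module κ N] [Module κᵐᵒᵖ N]
    [IsCentralScalar κ N] :
    TrivSqZeroExt.map (0 : M →ₗ[κ] N) = (inlAlgHom κ κ N).comp (fstHom κ κ M) := by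
  apply algHom_ext
  intro m
  simp

theorem left_closedPoint_of_aug (M : Type u) [AddCommGroup M] [Module κ M] [Module κᵐᵒᵖ M]
    [IsCentralScalar κ M] (w : ovr t₀ (TrivSqZeroExt κ M) ⟶ G)
    (hw : ovrMap t₀ (fstHom κ κ M) ≫ w = 1) :
    w.left (IsLocalRing.closedPoint (TrivSqZeroExt κ M)) =
      (1 : ovr t₀ κ ⟶ G).left (IsLocalRing.closedPoint κ) := by
  rw [← hw, Over.comp_left, Scheme.Hom.comp_apply, ovrMap_left]
  congr 1
  exact (Spec_closedPoint (R := CommRingCat.of (TrivSqZeroExt κ M)) (S := CommRingCat.of κ)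
    (f := CommRingCat.ofHom (fstHom κ κ M).toRingHom)).symm


/-- Additivity of the `ε`-component of tangent vectors at the unit under the group law
(the `κ[ε₁, ε₂]` trick). -/
theorem rep_mul_snd {V : G.left.Opens} (hV : IsAffineOpen V)
    (hxV : (1 : ovr t₀ κ ⟶ G).left (IsLocalRing.closedPoint κ) ∈ V)
    (w w' : ovr t₀ (DualNumber κ) ⟶ G)
    (hw : ovrMap t₀ (fstHom κ κ κ) ≫ w = 1) (hw' : ovrMap t₀ (fstHom κ κ κ) ≫ w' = 1)
    {β β' β'' : Γ(G.left, V) ⟶ CommRingCat.of (DualNumber κ)}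
    (h : Rep G t₀ hV w β) (h' : Rep G t₀ hV w' β') (h'' : Rep G t₀ hV (w * w') β'')
    (b : Γ(G.left, V)) :
    snd (β''.hom b) = snd (β.hom b) + snd (β'.hom b) := by
  let i₁ : DualNumber κ →ₐ[κ] TrivSqZeroExt κ (κ × κ) := TrivSqZeroExt.map (LinearMap.inl κ κ κ)
  let i₂ : DualNumber κ →ₐ[κ] TrivSqZeroExt κ (κ × κ) := TrivSqZeroExt.map (LinearMap.inr κ κ κ)
  let p₁ : TrivSqZeroExt κ (κ × κ) →ₐ[κ] DualNumber κ := TrivSqZeroExt.map (LinearMap.fst κ κ κ)
  let p₂ : TrivSqZeroExt κ (κ × κ) →ₐ[κ] DualNumber κ := TrivSqZeroExt.map (LinearMap.snd κ κ κ)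
  let σ : TrivSqZeroExt κ (κ × κ) →ₐ[κ] DualNumber κ :=
    TrivSqZeroExt.map (LinearMap.coprod LinearMap.id LinearMap.id)
  let u : ovr t₀ (TrivSqZeroExt κ (κ × κ)) ⟶ G := (ovrMap t₀ i₁ ≫ w) * (ovrMap t₀ i₂ ≫ w')
  have hu : ovrMap t₀ (fstHom κ κ (κ × κ)) ≫ u = 1 := by
    simp only [u, MonObj.comp_mul, ← Category.assoc, ← ovrMap_comp, i₁, i₂, fstHom_comp_map, hw,
      hw', _root_.mul_one]
  obtain ⟨βu, hβu⟩ := exists_rep (hV := hV) u (by rw [left_closedPoint_of_aug _ u hu]; exact hxV)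
  have hconst : ovrMap t₀ ((inlAlgHom κ κ κ).comp (fstHom κ κ κ)) ≫ w' = 1 ∧
      ovrMap t₀ ((inlAlgHom κ κ κ).comp (fstHom κ κ κ)) ≫ w = 1 := by
    rw [ovrMap_comp, Category.assoc, Category.assoc, hw, hw', MonObj.comp_one]
    exact ⟨rfl, rfl⟩
  have e₁ : ovrMap t₀ p₁ ≫ u = w := by
    simp only [u, MonObj.comp_mul, ← Category.assoc, ← ovrMap_comp, i₁, i₂, p₁, ← map_comp_map,
      LinearMap.fst_comp_inl, LinearMap.fst_comp_inr, map_id, ovrMap_id, Category.id_comp,
      map_zero_eq, hconst.1, _root_.mul_one]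
  have e₂ : ovrMap t₀ p₂ ≫ u = w' := by
    simp only [u, MonObj.comp_mul, ← Category.assoc, ← ovrMap_comp, i₁, i₂, p₂, ← map_comp_map,
      LinearMap.snd_comp_inl, LinearMap.snd_comp_inr, map_id, ovrMap_id, Category.id_comp,
      map_zero_eq, hconst.2, _root_.one_mul]
  have e₃ : ovrMap t₀ σ ≫ u = w * w' := by
    simp only [u, MonObj.comp_mul, ← Category.assoc, ← ovrMap_comp, i₁, i₂, σ, ← map_comp_map,
      LinearMap.coprod_inl, LinearMap.coprod_inr, map_id, ovrMap_id, Category.id_comp]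
  have r₁ := (e₁ ▸ hβu.comp p₁).unique h
  have r₂ := (e₂ ▸ hβu.comp p₂).unique h'
  have r₃ := (e₃ ▸ hβu.comp σ).unique h''
  rw [← r₁, ← r₂, ← r₃]
  simp [p₁, p₂, σ]


/-- A tangent vector at the unit (a `κ[ε]`-point restricting to the unit) killed by `n`,
with `n` invertible in `κ`, is trivial. -/
theorem eq_one_of_pow_eq_one (w : ovr t₀ (DualNumber κ) ⟶ G)
    (hw : ovrMap t₀ (fstHom κ κ κ) ≫ w = 1) (n : ℕ) (hn : (n : κ) ≠ 0) (hwn : w ^ n = 1) :
    w = 1 := by
  obtain ⟨V, hV, hxV⟩ : ∃ V : G.left.Opens, IsAffineOpen V ∧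
      (1 : ovr t₀ κ ⟶ G).left (IsLocalRing.closedPoint κ) ∈ V := by
    obtain ⟨_, ⟨V, hV, rfl⟩, hxV, -⟩ := G.left.isBasis_affineOpens.exists_subset_of_mem_open
      (Set.mem_univ ((1 : ovr t₀ κ ⟶ G).left (IsLocalRing.closedPoint κ))) isOpen_univ
    exact ⟨V, hV, hxV⟩
  obtain ⟨β₀, hβ₀⟩ := exists_rep (hV := hV) (1 : ovr t₀ κ ⟶ G) hxV
  have h1 : Rep G t₀ hV (1 : ovr t₀ (DualNumber κ) ⟶ G)
      (β₀ ≫ CommRingCat.ofHom (inlAlgHom κ κ κ).toRingHom) := by
    have := hβ₀.comp (inlAlgHom κ κ κ)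
    rwa [MonObj.comp_one] at this
  have hmem : ∀ m : ℕ, ovrMap t₀ (fstHom κ κ κ) ≫ w ^ m = 1 := fun m => by
    rw [MonObj.comp_pow, hw, one_pow]
  have hex : ∀ m : ℕ, ∃ βm, Rep G t₀ hV (w ^ m) βm := fun m =>
    exists_rep (hV := hV) (w ^ m) (by rw [left_closedPoint_of_aug _ _ (hmem m)]; exact hxV)
  obtain ⟨β, hβ⟩ : ∃ β, Rep G t₀ hV w β := by simpa using hex 1
  have hfst : ∀ b, fst (β.hom b) = β₀.hom b := fun b => by
    have := (hw ▸ hβ.comp (fstHom κ κ κ)).unique hβ₀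
    exact congrArg (fun f => f.hom b) this
  have hind : ∀ m : ℕ, ∀ βm, Rep G t₀ hV (w ^ m) βm → ∀ b, snd (βm.hom b) = m • snd (β.hom b) := by
    intro m
    induction m with
    | zero =>
      intro βm hβm b
      rw [pow_zero] at hβm
      rw [hβm.unique h1]
      simp
    | succ m ih =>
      intro βm hβm b
      obtain ⟨βm', hβm'⟩ := hex m
      rw [pow_succ] at hβm
      rw [rep_mul_snd hV hxV (w ^ m) w (hmem m) hw hβm' hβ hβm b, ih βm' hβm' b, succ_nsmul]
  have hsnd : ∀ b, snd (β.hom b) = 0 := fun b => by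
    have h2 := hind n _ (hwn ▸ h1) b
    have h3 : snd ((β₀ ≫ CommRingCat.ofHom (inlAlgHom κ κ κ).toRingHom).hom b) = (0 : κ) := by simp
    rw [h3, nsmul_eq_mul] at h2
    rcases mul_eq_zero.mp h2.symm with h4 | h4
    · exact absurd h4 hn
    · exact h4
  have hββ : β = β₀ ≫ CommRingCat.ofHom (inlAlgHom κ κ κ).toRingHom := by
    ext b
    · rw [hfst]; simp
    · rw [hsnd]; simp
  exact (hββ ▸ hβ).ext h1

end Core


section NMap

variable {K : Type u} [Field K] (G : Over (Spec (CommRingCat.of K))) [GrpObj G] [IsCommMonObj G]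

theorem natCast_ne_zero_of_specHom {κ : Type u} [Field κ]
    (t₀ : Spec (CommRingCat.of κ) ⟶ Spec (CommRingCat.of K)) (n : ℕ) (hn : (n : K) ≠ 0) :
    (n : κ) ≠ 0 := by
  have h := (Spec.preimage t₀).hom.injective
  intro h0
  apply hn
  apply h
  rw [map_natCast, map_zero]
  exact h0

/-- Multiplication by `n` on a commutative group scheme over a field in which `n` is invertible
is injective on tangent vectors. -/
theorem tangentInjective_nMap (n : ℕ) (hn : (n : K) ≠ 0) :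
    TangentInjective G.hom (nMap G n).left := by
  intro κ _ t₀ g₁ g₂ h₁ h₂ hpt hφ
  let x₁ : ovr t₀ (DualNumber κ) ⟶ G := Over.homMk g₁ h₁
  let x₂ : ovr t₀ (DualNumber κ) ⟶ G := Over.homMk g₂ h₂
  have hi : ovrMap t₀ (TrivSqZeroExt.fstHom κ κ κ) ≫ x₁ =
      ovrMap t₀ (TrivSqZeroExt.fstHom κ κ κ) ≫ x₂ := by
    ext1
    exact hpt
  have hn' : x₁ ≫ nMap G n = x₂ ≫ nMap G n := by
    ext1
    exact hφ
  rw [comp_nMap, comp_nMap] at hn'
  have hw : ovrMap t₀ (TrivSqZeroExt.fstHom κ κ κ) ≫ (x₁ / x₂) = 1 := by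
    rw [GrpObj.comp_div, hi, div_self']
  have hwn : (x₁ / x₂) ^ n = 1 := by
    rw [div_pow, hn', div_self']
  have := eq_one_of_pow_eq_one (x₁ / x₂) hw n (natCast_ne_zero_of_specHom t₀ n hn) hwn
  have h12 : x₁ = x₂ := div_eq_one.mp this
  exact congrArg (fun x => x.left) h12

/-- Multiplication by `n` on a smooth commutative group scheme over a field in which `n` is
invertible is etale. -/
theorem etale_nMap (g : ℕ) [SmoothOfRelativeDimension g G.hom] (n : ℕ) (hn : (n : K) ≠ 0) :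
    Etale (nMap G n).left :=
  etale_of_tangentInjective G.hom G.hom (nMap G n).left (Over.w (nMap G n)) g
    (tangentInjective_nMap G n hn)

end NMap

end Fermat.Agent.AV
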