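/-
PROJECT AV (S26) -- helper6 -- AV1, Part III: multiplication by `n` is finite etale of constant
rank, and the number of `n`-torsion points is that rank.

For a commutative group object `G` of `Over (Spec K)`, proper and smooth of relative dimension `g`
over the field `K`, and `n` invertible in `K`:
* `isFinite_nMap` : `nMap G n` is finite (proper + etale, Zariski's main theorem);
* `finrank_nMap_eq` : its rank (`Scheme.Hom.finrank`) is constant if `G` is connected;
* `card_torsion_eq_finrank` : if moreover `K` is algebraically closed, the number of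
  `x : 𝟙_ ⟶ G` with `x ^ n = 1` is the rank of `nMap G n` at any point.
General lemmas: `locallyQuasiFinite_of_etale`, `card_primeSpectrum_eq_finrank`,
`card_sections_eq_finrank`, `card_lifts_eq_finrank`.
-/
import Mathlib
import Fermat.Agent.AV.AV1_helper6_NMapEtale

set_option autoImplicit false

open CategoryTheory CategoryTheory.Limits AlgebraicGeometry
open MonoidalCategory CartesianMonoidalCategory MonObj

universe u

namespace Fermat.Agent.AV

theorem ringHom_quasiFinite_of_etale {R S : Type*} [CommRing R] [CommRing S] (f : R →+* S)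
    (hf : f.Etale) : f.QuasiFinite := by
  algebraize [f]
  have : Algebra.EssFiniteType R S := inferInstance
  exact inferInstanceAs (Algebra.QuasiFinite R S)

theorem locallyQuasiFinite_of_etale {X Y : Scheme.{u}} (f : X ⟶ Y) [Etale f] :
    LocallyQuasiFinite f := by
  rw [locallyQuasiFinite_iff]
  intro U hU V hV e
  exact ringHom_quasiFinite_of_etale _
    (HasRingHomProperty.appLE (P := @Etale) f ‹_› ⟨U, hU⟩ ⟨V, hV⟩ e)


theorem card_primeSpectrum_eq_finrank (K A : Type u) [Field K] [IsSepClosed K] [CommRing A]
    [Algebra K A] [Module.Finite K A] [Algebra.Etale K A] :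
    Nat.card (PrimeSpectrum A) = Module.finrank K A := by
  have : IsArtinianRing A := isArtinian_of_tower K inferInstance
  have : Fintype (PrimeSpectrum A) := Fintype.ofFinite _
  let e := Algebra.FormallyEtale.equivPiOfIsSepClosed K A
  rw [e.toLinearEquiv.finrank_eq, Module.finrank_fintype_fun_eq_card, Nat.card_eq_fintype_card]


/-- For a finite etale `K`-algebra `A` over an algebraically closed field, the number of sections of
`Spec A ⟶ Spec K` is its rank. -/
theorem card_sections_SpecMap {K : Type u} [Field K] [IsAlgClosed K] {A : CommRingCat.{u}}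
    (ψ : CommRingCat.of K ⟶ A) [IsFinite (Spec.map ψ)] [Etale (Spec.map ψ)]
    (y : Spec (CommRingCat.of K)) :
    Nat.card {s : Spec (CommRingCat.of K) ⟶ Spec A // s ≫ Spec.map ψ = 𝟙 _} =
      (Spec.map ψ).finrank y := by
  algebraize [ψ.hom]
  have hfin : Module.Finite K A := by
    have : ψ.hom.Finite := (IsFinite.SpecMap_iff (f := ψ)).mp inferInstance
    exact this
  have het : Algebra.Etale K A := by
    have : ψ.hom.Etale := (HasRingHomProperty.Spec_iff (P := @Etale)).mp inferInstance
    exact this
  have hψ : ψ = CommRingCat.ofHom (algebraMap K A) := rfl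
  have : IsArtinianRing A := isArtinian_of_tower K inferInstance
  have hdisc : DiscreteTopology (Spec A) := inferInstanceAs (DiscreteTopology (PrimeSpectrum A))
  have hcl : closedPoints (Spec A) = Set.univ := by
    ext x
    simp only [mem_closedPoints_iff, Set.mem_univ, iff_true]
    exact isClosed_discrete _
  rw [Nat.card_congr (pointEquivClosedPoint (Spec.map ψ)), hcl,
    Nat.card_congr (Equiv.Set.univ _)]
  rw [hψ, Scheme.Hom.finrank_SpecMap_algebraMap, Module.rankAtStalk_eq_finrank_of_free]
  exact card_primeSpectrum_eq_finrank K A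


/-- For a finite etale morphism `p : F ⟶ Spec K` over an algebraically closed field, the number of
sections of `p` is its rank. -/
theorem card_sections_eq_finrank {K : Type u} [Field K] [IsAlgClosed K] {F : Scheme.{u}}
    (p : F ⟶ Spec (CommRingCat.of K)) [IsFinite p] [Etale p] (y : Spec (CommRingCat.of K)) :
    Nat.card {s : Spec (CommRingCat.of K) ⟶ F // s ≫ p = 𝟙 _} = p.finrank y := by
  have hF : IsAffine F := isAffine_of_isAffineHom p
  obtain ⟨ψ, hψ⟩ := Spec.map_surjective (F.isoSpec.inv ≫ p)
  have hp : p = F.isoSpec.hom ≫ Spec.map ψ := by rw [hψ, Iso.hom_inv_id_assoc]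
  have h1 : IsFinite (Spec.map ψ) := by rw [hψ]; infer_instance
  have h2 : Etale (Spec.map ψ) := by rw [hψ]; infer_instance
  have hr : p.finrank = (Spec.map ψ).finrank := by
    rw [hp, Scheme.Hom.finrank_comp_left_of_isIso]
  rw [hr, ← card_sections_SpecMap ψ y]
  refine Nat.card_congr ?_
  exact
    { toFun := fun s => ⟨s.1 ≫ F.isoSpec.hom, by rw [Category.assoc, ← hp, s.2]⟩
      invFun := fun s => ⟨s.1 ≫ F.isoSpec.inv, by
        rw [hp, Category.assoc, Iso.inv_hom_id_assoc, s.2]⟩
      left_inv := fun s => by simp
      right_inv := fun s => by simp }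


/-- For a finite etale morphism `φ : X ⟶ Y` and a `K`-point `e` of `Y` (`K` algebraically closed),
the number of `K`-points of `X` above `e` is the rank of `φ` at the image of `e`. -/
theorem card_lifts_eq_finrank {K : Type u} [Field K] [IsAlgClosed K] {X Y : Scheme.{u}}
    (φ : X ⟶ Y) [IsFinite φ] [Etale φ] (e : Spec (CommRingCat.of K) ⟶ Y)
    (y : Spec (CommRingCat.of K)) :
    Nat.card {x : Spec (CommRingCat.of K) ⟶ X // x ≫ φ = e} = φ.finrank (e y) := by
  rw [← Scheme.Hom.finrank_pullback_snd φ e y, ← card_sections_eq_finrank (pullback.snd φ e) y]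
  refine Nat.card_congr ?_
  exact
    { toFun := fun x => ⟨pullback.lift x.1 (𝟙 _) (by rw [x.2, Category.id_comp]),
        pullback.lift_snd _ _ _⟩
      invFun := fun s => ⟨s.1 ≫ pullback.fst φ e, by
        rw [Category.assoc, pullback.condition, ← Category.assoc, s.2, Category.id_comp]⟩
      left_inv := fun x => Subtype.ext (pullback.lift_fst _ _ _)
      right_inv := fun s => by
        apply Subtype.ext
        apply pullback.hom_ext
        · exact pullback.lift_fst _ _ _
        · exact (pullback.lift_snd _ _ _).trans s.2.symm }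


section NMapFinite

variable {K : Type u} [Field K] (G : Over (Spec (CommRingCat.of K))) [GrpObj G]

theorem isProper_nMap [IsProper G.hom] (n : ℕ) : IsProper (nMap G n).left := by
  have : IsProper ((nMap G n).left ≫ G.hom) := by rw [Over.w]; infer_instance
  exact IsProper.of_comp _ G.hom

variable [IsCommMonObj G] [IsProper G.hom] (g : ℕ) [SmoothOfRelativeDimension g G.hom] (n : ℕ)

include g in
theorem isFinite_nMap (hn : (n : K) ≠ 0) : IsFinite (nMap G n).left := by
  have := etale_nMap G g n hn
  have := locallyQuasiFinite_of_etale (nMap G n).left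
  have := isProper_nMap G n
  exact IsFinite.of_isProper_of_locallyQuasiFinite _

include g in
theorem finrank_nMap_eq [ConnectedSpace G.left] (hn : (n : K) ≠ 0) (y y' : G.left) :
    (nMap G n).left.finrank y = (nMap G n).left.finrank y' := by
  have := etale_nMap G g n hn
  have := isFinite_nMap G g n hn
  exact (Scheme.Hom.isLocallyConstant_finrank (nMap G n).left).apply_eq_of_preconnectedSpace y y'

/-- the `n`-torsion `K`-points are the `K`-points of `G` above the unit under `nMap G n`. -/
noncomputable def torsionEquivLifts :
    {x : 𝟙_ (Over (Spec (CommRingCat.of K))) ⟶ G // x ^ n = 1} ≃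
      {x : Spec (CommRingCat.of K) ⟶ G.left // x ≫ (nMap G n).left = η[G].left} where
  toFun x := ⟨x.1.left, by
    have h := (pow_eq_one_iff_comp_nMap x.1 n).mp x.2
    exact congrArg (fun z => z.left) h⟩
  invFun x := ⟨Over.homMk x.1 (by
      have h1 : (nMap G n).left ≫ G.hom = G.hom := Over.w (nMap G n)
      have h2 : η[G].left ≫ G.hom = 𝟙 _ := Over.w η[G]
      change x.1 ≫ G.hom = 𝟙 _
      rw [← h1, ← Category.assoc, x.2]
      exact h2), by
    rw [pow_eq_one_iff_comp_nMap]
    ext1
    exact x.2⟩
  left_inv x := rfl
  right_inv x := rfl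

include g in
/-- **AV1**: over an algebraically closed field, the number of `n`-torsion points of a proper smooth
connected commutative group scheme is the rank of the finite etale morphism `nMap G n`
at any point. -/
theorem card_torsion_eq_finrank [IsAlgClosed K] [ConnectedSpace G.left] (hn : (n : K) ≠ 0)
    (y : G.left) :
    Nat.card {x : 𝟙_ (Over (Spec (CommRingCat.of K))) ⟶ G // x ^ n = 1} =
      (nMap G n).left.finrank y := by
  have := etale_nMap G g n hn
  have := isFinite_nMap G g n hn
  rw [Nat.card_congr (torsionEquivLifts G n),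
    card_lifts_eq_finrank (nMap G n).left η[G].left (IsLocalRing.closedPoint K)]
  exact finrank_nMap_eq G g n hn _ _

end NMapFinite

end Fermat.Agent.AV
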