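/-
PROJECT AV (S26) -- helper6 -- AV1, Part IV: degree of the function field extension = rank,
separability, and multiplicativity of the rank of `[n ^ j]`.

General (no group structure):
* `functionFieldMap φ hφ : Y.functionField ⟶ X.functionField` for `φ : X ⟶ Y` with
  `hφ : φ (genericPoint X) = genericPoint Y`; `germToFunctionField_functionFieldMap` (compatibility
  with sections); `map_genericPoint_of_surjective`;
* `finrank_functionField_eq_finrank` : `φ` finite flat between integral schemes ⇒
  `[K(X) : K(Y)] = φ.finrank y` for every `y`;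
* `functionField_finite_separable` : `φ` finite etale ⇒ `K(X) / K(Y)` finite separable;
* `isPullback_chart`, `finrank_fromSpec_eq`, `ringHom_finite_flat_app`,
  `ringHom_finrank_eq_of_isDomain` (affine charts of finite flat morphisms).
For the group scheme `G` (proper smooth connected commutative over alg. closed `K`, `n ∈ Kˣ`):
* `surjective_nMap`, `nMap_genericPoint`, `finrank_functionField_nMap`;
* `card_pow_eq` (every `K`-point has exactly `rank [n]` `n`-th roots), `card_torsion_mul`,
  `card_torsion_pow`, `finrank_nMap_pow : rank [n ^ j] = (rank [n]) ^ j`.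
-/
import Mathlib
import Fermat.Agent.AV.AV1_helper6_NMapFinite

set_option autoImplicit false

open CategoryTheory CategoryTheory.Limits AlgebraicGeometry
open MonoidalCategory CartesianMonoidalCategory MonObj

universe u

namespace Fermat.Agent.AV

theorem map_genericPoint_of_surjective {X Y : Scheme.{u}} [IrreducibleSpace X] [IrreducibleSpace Y]
    (φ : X ⟶ Y) [Surjective φ] : φ (genericPoint X) = genericPoint Y := by
  apply ((genericPoint_spec Y).eq _).symm
  have h := (genericPoint_spec X).image φ.continuous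
  rw [Set.image_univ, φ.surjective.range_eq, closure_univ] at h
  exact h


/-- the map of function fields induced by a morphism of irreducible schemes sending the generic
point to the generic point. -/
noncomputable def functionFieldMap {X Y : Scheme.{u}} [IrreducibleSpace X] [IrreducibleSpace Y]
    (φ : X ⟶ Y) (hφ : φ (genericPoint X) = genericPoint Y) :
    Y.functionField ⟶ X.functionField :=
  Y.presheaf.stalkSpecializes (specializes_of_eq hφ) ≫ φ.stalkMap (genericPoint X)

theorem nonempty_preimage_of_genericPoint {X Y : Scheme.{u}} [IrreducibleSpace X]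
    [IrreducibleSpace Y] (φ : X ⟶ Y) (hφ : φ (genericPoint X) = genericPoint Y) (V : Y.Opens)
    [h : Nonempty V] : Nonempty (φ ⁻¹ᵁ V) := by
  refine ⟨⟨genericPoint X, ?_⟩⟩
  change φ (genericPoint X) ∈ V
  rw [hφ]
  exact ((genericPoint_spec Y).mem_open_set_iff V.isOpen).mpr (by simpa using h)

theorem germToFunctionField_functionFieldMap {X Y : Scheme.{u}} [IrreducibleSpace X]
    [IrreducibleSpace Y] (φ : X ⟶ Y) (hφ : φ (genericPoint X) = genericPoint Y) (V : Y.Opens)
    [Nonempty V] [Nonempty (φ ⁻¹ᵁ V)] :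
    Y.germToFunctionField V ≫ functionFieldMap φ hφ =
      φ.app V ≫ X.germToFunctionField (φ ⁻¹ᵁ V) := by
  unfold functionFieldMap Scheme.germToFunctionField
  rw [← Category.assoc, TopCat.Presheaf.germ_stalkSpecializes, Scheme.Hom.germ_stalkMap]


theorem isPullback_chart {X Y : Scheme.{u}} (φ : X ⟶ Y) {V : Y.Opens} (hV : IsAffineOpen V)
    (hU : IsAffineOpen (φ ⁻¹ᵁ V)) :
    IsPullback hU.fromSpec (Spec.map (φ.app V)) φ hV.fromSpec := by
  refine (IsOpenImmersion.isPullback (Spec.map (φ.app V)) hU.fromSpec hV.fromSpec φ ?_ ?_).flip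
  · have := IsAffineOpen.SpecMap_appLE_fromSpec φ hV hU le_rfl
    rw [← this, Scheme.Hom.appLE_eq_app]
  · simp

theorem finrank_fromSpec_eq {X Y : Scheme.{u}} (φ : X ⟶ Y) [Flat φ] [IsFinite φ] {V : Y.Opens}
    (hV : IsAffineOpen V) (y' : Spec Γ(Y, V)) :
    φ.finrank (hV.fromSpec y') = (φ.app V).hom.finrank y' := by
  have hU : IsAffineOpen (φ ⁻¹ᵁ V) := hV.preimage φ
  have hpb := isPullback_chart φ hV hU
  have h1 : IsFinite (Spec.map (φ.app V)) := MorphismProperty.of_isPullback hpb ‹_›
  have h2 : Flat (Spec.map (φ.app V)) := MorphismProperty.of_isPullback hpb ‹_›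
  rw [← Scheme.Hom.finrank_of_isPullback _ _ _ _ hpb y', Scheme.Hom.finrank_SpecMap_eq_finrank]
  · exact (IsFinite.SpecMap_iff _).mp h1
  · exact Flat.SpecMap_iff.mp h2

theorem ringHom_finite_flat_app {X Y : Scheme.{u}} (φ : X ⟶ Y) [Flat φ] [IsFinite φ] {V : Y.Opens}
    (hV : IsAffineOpen V) : (φ.app V).hom.Finite ∧ (φ.app V).hom.Flat := by
  have hU : IsAffineOpen (φ ⁻¹ᵁ V) := hV.preimage φ
  have hpb := isPullback_chart φ hV hU
  have h1 : IsFinite (Spec.map (φ.app V)) := MorphismProperty.of_isPullback hpb ‹_›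
  have h2 : Flat (Spec.map (φ.app V)) := MorphismProperty.of_isPullback hpb ‹_›
  exact ⟨(IsFinite.SpecMap_iff _).mp h1, Flat.SpecMap_iff.mp h2⟩

theorem ringHom_finrank_eq_of_isDomain {B C : Type u} [CommRing B] [CommRing C] [IsDomain B]
    (f : B →+* C) (hfin : f.Finite) (hflat : f.Flat) (p : PrimeSpectrum B) :
    f.finrank p = @Module.finrank B C _ _ f.toAlgebra.toModule := by
  algebraize [f]
  rw [RingHom.finrank]
  have := Ideal.finrank_fiber_eq_rankAtStalk (R := B) (M := C) p.asIdeal
  rw [← this, Ideal.finrank_fiber_eq_finrank]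

/-- **degree = rank**: for a finite flat morphism of integral schemes preserving generic points,
the degree of the function field extension is the rank of the morphism at any point. -/
theorem finrank_functionField_eq_finrank {X Y : Scheme.{u}} [IsIntegral X] [IsIntegral Y]
    (φ : X ⟶ Y) [Flat φ] [IsFinite φ] (hφ : φ (genericPoint X) = genericPoint Y) (y : Y) :
    @Module.finrank Y.functionField X.functionField _ _
      (functionFieldMap φ hφ).hom.toAlgebra.toModule = φ.finrank y := by
  obtain ⟨_, ⟨V, hV, rfl⟩, hyV, -⟩ := Y.isBasis_affineOpens.exists_subset_of_mem_open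
    (Set.mem_univ y) isOpen_univ
  have hne : Nonempty V := ⟨⟨y, hyV⟩⟩
  have hne' := nonempty_preimage_of_genericPoint φ hφ V
  have hU : IsAffineOpen (φ ⁻¹ᵁ V) := hV.preimage φ
  obtain ⟨y', rfl⟩ : ∃ y', hV.fromSpec y' = y := by
    have : y ∈ Set.range hV.fromSpec := by rw [hV.range_fromSpec]; exact hyV
    exact this
  obtain ⟨hfin, hflat⟩ := ringHom_finite_flat_app φ hV
  rw [finrank_fromSpec_eq φ hV y', ringHom_finrank_eq_of_isDomain _ hfin hflat]
  let a1 : Algebra Γ(Y, V) Γ(X, φ ⁻¹ᵁ V) := (φ.app V).hom.toAlgebra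
  let a2 : Algebra Y.functionField X.functionField := (functionFieldMap φ hφ).hom.toAlgebra
  let a3 : Algebra Γ(Y, V) X.functionField :=
    (φ.app V ≫ X.germToFunctionField (φ ⁻¹ᵁ V)).hom.toAlgebra
  have t1 : IsScalarTower Γ(Y, V) Γ(X, φ ⁻¹ᵁ V) X.functionField :=
    IsScalarTower.of_algebraMap_eq' rfl
  have t2 : IsScalarTower Γ(Y, V) Y.functionField X.functionField :=
    IsScalarTower.of_algebraMap_eq' (by
      have := germToFunctionField_functionFieldMap φ hφ V
      exact congrArg CommRingCat.Hom.hom this.symm)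
  have f1 := functionField_isFractionRing_of_isAffineOpen Y V hV
  have f2 := functionField_isFractionRing_of_isAffineOpen X (φ ⁻¹ᵁ V) hU
  exact IsFractionRing.finrank_eq Γ(Y, V) Y.functionField Γ(X, φ ⁻¹ᵁ V) X.functionField


/-- for a finite etale morphism of integral schemes preserving generic points, the function field
extension is finite separable. -/
theorem functionField_finite_separable {X Y : Scheme.{u}} [IsIntegral X] [IsIntegral Y]
    (φ : X ⟶ Y) [Etale φ] [IsFinite φ] (hφ : φ (genericPoint X) = genericPoint Y) :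
    @FiniteDimensional Y.functionField X.functionField _ _
      (functionFieldMap φ hφ).hom.toAlgebra.toModule ∧
    @Algebra.IsSeparable Y.functionField X.functionField _ _
      (functionFieldMap φ hφ).hom.toAlgebra := by
  let y : Y := genericPoint Y
  obtain ⟨_, ⟨V, hV, rfl⟩, hyV, -⟩ := Y.isBasis_affineOpens.exists_subset_of_mem_open
    (Set.mem_univ y) isOpen_univ
  have hne : Nonempty V := ⟨⟨y, hyV⟩⟩
  have hne' := nonempty_preimage_of_genericPoint φ hφ V
  have hU : IsAffineOpen (φ ⁻¹ᵁ V) := hV.preimage φ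
  obtain ⟨hfin, hflat⟩ := ringHom_finite_flat_app φ hV
  have het : (φ.app V).hom.Etale := by
    have := HasRingHomProperty.appLE (P := @Etale) φ ‹_› ⟨V, hV⟩ ⟨φ ⁻¹ᵁ V, hU⟩ le_rfl
    rwa [Scheme.Hom.appLE_eq_app] at this
  let a1 : Algebra Γ(Y, V) Γ(X, φ ⁻¹ᵁ V) := (φ.app V).hom.toAlgebra
  let a2 : Algebra Y.functionField X.functionField := (functionFieldMap φ hφ).hom.toAlgebra
  let a3 : Algebra Γ(Y, V) X.functionField :=
    (φ.app V ≫ X.germToFunctionField (φ ⁻¹ᵁ V)).hom.toAlgebra
  have t1 : IsScalarTower Γ(Y, V) Γ(X, φ ⁻¹ᵁ V) X.functionField :=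
    IsScalarTower.of_algebraMap_eq' rfl
  have t2 : IsScalarTower Γ(Y, V) Y.functionField X.functionField :=
    IsScalarTower.of_algebraMap_eq' (by
      have := germToFunctionField_functionFieldMap φ hφ V
      exact congrArg CommRingCat.Hom.hom this.symm)
  have f1 := functionField_isFractionRing_of_isAffineOpen Y V hV
  have f2 := functionField_isFractionRing_of_isAffineOpen X (φ ⁻¹ᵁ V) hU
  have e1 : Algebra.Etale Γ(Y, V) Γ(X, φ ⁻¹ᵁ V) := het
  have m1 : Module.Finite Γ(Y, V) Γ(X, φ ⁻¹ᵁ V) := hfin
  -- K(X) is formally etale over Γ(X, U), hence over Γ(Y, V), hence over K(Y)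
  have e2 : Algebra.FormallyEtale Γ(X, φ ⁻¹ᵁ V) X.functionField :=
    Algebra.FormallyEtale.of_isLocalization (nonZeroDivisors Γ(X, φ ⁻¹ᵁ V))
  have e3 : Algebra.FormallyEtale Γ(Y, V) X.functionField :=
    Algebra.FormallyEtale.comp Γ(Y, V) Γ(X, φ ⁻¹ᵁ V) X.functionField
  have e4 : Algebra.FormallyEtale Y.functionField X.functionField :=
    Algebra.FormallyEtale.localization_base (nonZeroDivisors Γ(Y, V))
  -- finiteness
  have hfd : FiniteDimensional Y.functionField X.functionField := by
    apply Module.finite_of_finrank_pos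
    have h1 := finrank_functionField_eq_finrank φ hφ (φ (genericPoint X))
    have h2 := Scheme.Hom.one_le_finrank_map φ (genericPoint X)
    change 0 < @Module.finrank Y.functionField X.functionField _ _
      (functionFieldMap φ hφ).hom.toAlgebra.toModule
    omega
  refine ⟨hfd, ?_⟩
  exact (Algebra.FormallyEtale.iff_isSeparable Y.functionField X.functionField).mp e4


section Pow

variable {K : Type u} [Field K] (G : Over (Spec (CommRingCat.of K))) [GrpObj G]

/-- the `K`-points `x` with `x ^ n = y` are the `K`-points of `G` above `y` under `nMap G n`. -/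
noncomputable def powEqEquivLifts (n : ℕ) (y : 𝟙_ (Over (Spec (CommRingCat.of K))) ⟶ G) :
    {x : 𝟙_ (Over (Spec (CommRingCat.of K))) ⟶ G // x ^ n = y} ≃
      {x : Spec (CommRingCat.of K) ⟶ G.left // x ≫ (nMap G n).left = y.left} where
  toFun x := ⟨x.1.left, by
    have h : x.1 ≫ nMap G n = y := by rw [comp_nMap]; exact x.2
    exact congrArg (fun z => z.left) h⟩
  invFun x := ⟨Over.homMk x.1 (by
      have h1 : (nMap G n).left ≫ G.hom = G.hom := Over.w (nMap G n)
      have h2 : y.left ≫ G.hom = 𝟙 _ := Over.w y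
      change x.1 ≫ G.hom = 𝟙 _
      rw [← h1, ← Category.assoc, x.2]
      exact h2), by
    rw [← comp_nMap]
    ext1
    exact x.2⟩
  left_inv x := rfl
  right_inv x := rfl

variable [IsCommMonObj G] [IsProper G.hom] (g : ℕ) [SmoothOfRelativeDimension g G.hom]
  [IsAlgClosed K] [ConnectedSpace G.left]

include g in
theorem card_pow_eq (n : ℕ) (hn : (n : K) ≠ 0) (y : 𝟙_ (Over (Spec (CommRingCat.of K))) ⟶ G)
    (z : G.left) :
    Nat.card {x : 𝟙_ (Over (Spec (CommRingCat.of K))) ⟶ G // x ^ n = y} =
      (nMap G n).left.finrank z := by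
  have := etale_nMap G g n hn
  have := isFinite_nMap G g n hn
  rw [Nat.card_congr (powEqEquivLifts G n y),
    card_lifts_eq_finrank (nMap G n).left y.left (IsLocalRing.closedPoint K)]
  exact finrank_nMap_eq G g n hn _ _

omit [IsAlgClosed K] in
include g in
theorem finrank_nMap_pos (n : ℕ) (hn : (n : K) ≠ 0) (z : G.left) :
    0 < (nMap G n).left.finrank z := by
  have := etale_nMap G g n hn
  have := isFinite_nMap G g n hn
  have h := Scheme.Hom.one_le_finrank_map (nMap G n).left z
  rw [finrank_nMap_eq G g n hn _ z] at h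
  exact h

include g in
theorem card_torsion_mul (n m : ℕ) (hn : (n : K) ≠ 0) :
    Nat.card {x : 𝟙_ (Over (Spec (CommRingCat.of K))) ⟶ G // x ^ (n * m) = 1} =
      Nat.card {y : 𝟙_ (Over (Spec (CommRingCat.of K))) ⟶ G // y ^ m = 1} *
        Nat.card {x : 𝟙_ (Over (Spec (CommRingCat.of K))) ⟶ G // x ^ n = 1} := by
  obtain ⟨z⟩ : Nonempty G.left := inferInstance
  set d := (nMap G n).left.finrank z with hd
  have hdpos : 0 < d := finrank_nMap_pos G g n hn z
  have hfib : ∀ y : 𝟙_ (Over (Spec (CommRingCat.of K))) ⟶ G,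
      Nat.card {x : 𝟙_ (Over (Spec (CommRingCat.of K))) ⟶ G // x ^ n = y} = d :=
    fun y => card_pow_eq G g n hn y z
  have e : {x : 𝟙_ (Over (Spec (CommRingCat.of K))) ⟶ G // x ^ (n * m) = 1} ≃
      Σ y : {y : 𝟙_ (Over (Spec (CommRingCat.of K))) ⟶ G // y ^ m = 1},
        {x : 𝟙_ (Over (Spec (CommRingCat.of K))) ⟶ G // x ^ n = y.1} :=
    { toFun := fun x => ⟨⟨x.1 ^ n, by rw [← pow_mul]; exact x.2⟩, ⟨x.1, rfl⟩⟩
      invFun := fun p => ⟨p.2.1, by rw [pow_mul, p.2.2, p.1.2]⟩
      left_inv := fun x => rfl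
      right_inv := fun p => by
        obtain ⟨⟨y, hy⟩, ⟨x, hx⟩⟩ := p
        dsimp only at hx
        subst hx
        rfl }
  have e2 : ∀ y : {y : 𝟙_ (Over (Spec (CommRingCat.of K))) ⟶ G // y ^ m = 1},
      {x : 𝟙_ (Over (Spec (CommRingCat.of K))) ⟶ G // x ^ n = y.1} ≃ Fin d := fun y => by
    have hfin : Finite {x : 𝟙_ (Over (Spec (CommRingCat.of K))) ⟶ G // x ^ n = y.1} :=
      Nat.finite_of_card_ne_zero (by rw [hfib]; omega)
    exact Finite.equivFinOfCardEq (hfib y.1)
  rw [Nat.card_congr (e.trans (Equiv.sigmaEquivProdOfEquiv e2)), Nat.card_prod, hfib 1,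
    Nat.card_fin]

include g in
theorem card_torsion_pow (n : ℕ) (hn : (n : K) ≠ 0) (j : ℕ) :
    Nat.card {x : 𝟙_ (Over (Spec (CommRingCat.of K))) ⟶ G // x ^ (n ^ j) = 1} =
      Nat.card {x : 𝟙_ (Over (Spec (CommRingCat.of K))) ⟶ G // x ^ n = 1} ^ j := by
  induction j with
  | zero =>
    simp only [pow_zero, pow_one]
    have : Unique {x : 𝟙_ (Over (Spec (CommRingCat.of K))) ⟶ G // x = 1} :=
      ⟨⟨⟨1, rfl⟩⟩, fun x => Subtype.ext x.2⟩
    exact Nat.card_unique
  | succ j ih =>
    rw [pow_succ', card_torsion_mul G g n (n ^ j) hn, ih, pow_succ]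

include g in
/-- the rank of `[n ^ j]` is the `j`-th power of the rank of `[n]`. -/
theorem finrank_nMap_pow (n : ℕ) (hn : (n : K) ≠ 0) (j : ℕ) (z : G.left) :
    (nMap G (n ^ j)).left.finrank z = (nMap G n).left.finrank z ^ j := by
  have hnj : ((n ^ j : ℕ) : K) ≠ 0 := by
    rw [Nat.cast_pow]
    exact pow_ne_zero j hn
  rw [← card_torsion_eq_finrank G g (n ^ j) hnj z, ← card_torsion_eq_finrank G g n hn z]
  exact card_torsion_pow G g n hn j

omit [IsAlgClosed K] in
include g in
theorem surjective_nMap (n : ℕ) (hn : (n : K) ≠ 0) : Surjective (nMap G n).left := by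
  have := etale_nMap G g n hn
  have := isFinite_nMap G g n hn
  rw [← Scheme.Hom.one_le_finrank_iff_surjective]
  intro z
  exact finrank_nMap_pos G g n hn z

omit [IsAlgClosed K] in
include g in
theorem nMap_genericPoint [IsIntegral G.left] (n : ℕ) (hn : (n : K) ≠ 0) :
    (nMap G n).left (genericPoint G.left) = genericPoint G.left := by
  have := surjective_nMap G g n hn
  exact map_genericPoint_of_surjective _

omit [IsAlgClosed K] in
include g in
/-- the degree of the function field extension defined by `[n]` is the rank of `[n]`. -/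
theorem finrank_functionField_nMap [IsIntegral G.left] (n : ℕ) (hn : (n : K) ≠ 0) (z : G.left) :
    @Module.finrank G.left.functionField G.left.functionField _ _
      (functionFieldMap (nMap G n).left (nMap_genericPoint G g n hn)).hom.toAlgebra.toModule =
      (nMap G n).left.finrank z := by
  have := etale_nMap G g n hn
  have := isFinite_nMap G g n hn
  exact finrank_functionField_eq_finrank _ _ z

omit [IsAlgClosed K] in
include g in
theorem functionField_nMap_finite_separable [IsIntegral G.left] (n : ℕ) (hn : (n : K) ≠ 0) :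
    @FiniteDimensional G.left.functionField G.left.functionField _ _
      (functionFieldMap (nMap G n).left (nMap_genericPoint G g n hn)).hom.toAlgebra.toModule ∧
    @Algebra.IsSeparable G.left.functionField G.left.functionField _ _
      (functionFieldMap (nMap G n).left (nMap_genericPoint G g n hn)).hom.toAlgebra := by
  have := etale_nMap G g n hn
  have := isFinite_nMap G g n hn
  exact functionField_finite_separable _ _

end Pow

end Fermat.Agent.AV
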