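/-
PROJECT AV (S26) -- helper6 -- AV1, Part IV (packaging for AV5): `FunctionFieldVia φ hφ`, the
function field `K(X)` regarded as an extension of `K(Y)` through `φ : X ⟶ Y`, with
`Field`, `Algebra K(Y) _`, `finrank_eq` (degree = rank of `φ`), `FiniteDimensional` and
`Algebra.IsSeparable` (for `φ` finite etale); the structure maps `functionFieldStr sX : K ⟶ K(X)`,
`functionFieldAlgebra sX`, `FunctionFieldVia.algebraBase`, `FunctionFieldVia.isScalarTower_base`.
-/
import Mathlib
import Fermat.Agent.AV.AV1_helper6_Degree

set_option autoImplicit false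

open CategoryTheory CategoryTheory.Limits AlgebraicGeometry

universe u

namespace Fermat.Agent.AV

section Str

variable {K : Type u} [Field K]

instance nonempty_top_opens {X : Scheme.{u}} [IrreducibleSpace X] : Nonempty (⊤ : X.Opens) :=
  ⟨⟨genericPoint X, trivial⟩⟩

/-- the structure map `K ⟶ K(X)` of the function field of an irreducible `K`-scheme. -/
noncomputable def functionFieldStr {X : Scheme.{u}} [IrreducibleSpace X]
    (sX : X ⟶ Spec (CommRingCat.of K)) : CommRingCat.of K ⟶ X.functionField :=
  (Scheme.ΓSpecIso (CommRingCat.of K)).inv ≫ sX.appTop ≫ X.germToFunctionField ⊤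

theorem functionFieldStr_functionFieldMap {X Y : Scheme.{u}} [IrreducibleSpace X]
    [IrreducibleSpace Y] (φ : X ⟶ Y) (hφ : φ (genericPoint X) = genericPoint Y)
    (sY : Y ⟶ Spec (CommRingCat.of K)) :
    functionFieldStr sY ≫ functionFieldMap φ hφ = functionFieldStr (φ ≫ sY) := by
  unfold functionFieldStr
  have hne : Nonempty (φ ⁻¹ᵁ (⊤ : Y.Opens)) := nonempty_top_opens (X := X)
  have h := germToFunctionField_functionFieldMap φ hφ ⊤
  rw [Category.assoc, Category.assoc, h, Scheme.Hom.comp_appTop, Category.assoc]
  rfl

end Str

section Via

variable {K : Type u} [Field K] {X Y : Scheme.{u}} [IsIntegral X] [IsIntegral Y]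

/-- the natural `K`-algebra structure on the function field of an integral `K`-scheme
(a `def`, to be installed with `letI`). -/
@[reducible] noncomputable def functionFieldAlgebra (sX : X ⟶ Spec (CommRingCat.of K)) :
    Algebra K X.functionField :=
  (functionFieldStr sX).hom.toAlgebra

/-- `K(X)` regarded as an extension of `K(Y)` through `φ : X ⟶ Y` (type synonym). -/
def FunctionFieldVia (φ : X ⟶ Y) (_hφ : φ (genericPoint X) = genericPoint Y) : Type u :=
  X.functionField

namespace FunctionFieldVia

variable (φ : X ⟶ Y) (hφ : φ (genericPoint X) = genericPoint Y)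

noncomputable instance instField : Field (FunctionFieldVia φ hφ) :=
  inferInstanceAs (Field X.functionField)

noncomputable instance instAlgebra : Algebra Y.functionField (FunctionFieldVia φ hφ) :=
  (functionFieldMap φ hφ).hom.toAlgebra

theorem algebraMap_eq :
    algebraMap Y.functionField (FunctionFieldVia φ hφ) = (functionFieldMap φ hφ).hom := rfl

/-- the degree of `K(X) / K(Y)` is the rank of `φ`. -/
theorem finrank_eq [Flat φ] [IsFinite φ] (y : Y) :
    Module.finrank Y.functionField (FunctionFieldVia φ hφ) = φ.finrank y :=
  finrank_functionField_eq_finrank φ hφ y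

instance instFiniteDimensional [Etale φ] [IsFinite φ] :
    FiniteDimensional Y.functionField (FunctionFieldVia φ hφ) :=
  (functionField_finite_separable φ hφ).1

instance instIsSeparable [Etale φ] [IsFinite φ] :
    Algebra.IsSeparable Y.functionField (FunctionFieldVia φ hφ) :=
  (functionField_finite_separable φ hφ).2

/-- the `K`-algebra structure on `FunctionFieldVia φ hφ` induced by a structure map of `Y`
(it is the natural structure of `K(X)` for the structure map `φ ≫ sY`). -/
@[reducible] noncomputable def algebraBase (sY : Y ⟶ Spec (CommRingCat.of K)) :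
    Algebra K (FunctionFieldVia φ hφ) :=
  (functionFieldStr (φ ≫ sY)).hom.toAlgebra

theorem isScalarTower_base (sY : Y ⟶ Spec (CommRingCat.of K)) :
    letI := functionFieldAlgebra sY
    letI := algebraBase φ hφ sY
    IsScalarTower K Y.functionField (FunctionFieldVia φ hφ) := by
  let _ := functionFieldAlgebra sY
  let _ := algebraBase φ hφ sY
  refine IsScalarTower.of_algebraMap_eq' ?_
  have h := functionFieldStr_functionFieldMap φ hφ sY
  exact congrArg CommRingCat.Hom.hom h.symm

end FunctionFieldVia

end Via

end Fermat.Agent.AV
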