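/-
PROJECT AV (S26) -- helper6 -- AV1 -> AV5 bridge, valuation half of (I2): scheme-side facts about
a finite flat morphism `φ : X ⟶ Y` of integral (locally noetherian) schemes needed to build
helper2's `FiniteCover` between the prime divisor systems of `Y` and `X`.

* (F1) `coheight_map_eq` : `coheight (φ q) = coheight q` (`φ` locally quasi-finite and flat);
  `eq_of_specializes_of_map_eq`, `strictMono_of_locallyQuasiFinite`;
* (F2) `isIntegralElem_of_forall_mem_stalk` : `y ∈ K(X)` lying in `𝒪_{X,q}` for all `q` over `p`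
  is integral over `𝒪_{Y,p}` (`φ` finite; no normality needed);
  (F2b) `mem_range_stalk_of_ord_nonneg` : nonnegative order at a DVR stalk ⇒ in the stalk;
  (F2c) `isIntegralElem_of_forall_ord_nonneg` : the combination, in terms of `Scheme.ord`;
* (F3) `ord_functionFieldMap` : `ord_q (φ^* x) = e * ord_{φ q} x` with `0 < e`
  (`ordFrac_map_eq_pow` at ring level, `stalkMap_functionFieldMap` compatibility).
-/
import Mathlib
import Fermat.Agent.AV.AV1_helper6_FFVia

set_option autoImplicit false

open CategoryTheory CategoryTheory.Limits AlgebraicGeometry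

universe u

namespace Fermat.Agent.AV

/-- distinct points of a fibre of a locally quasi-finite morphism do not specialise to each
other. -/
theorem eq_of_specializes_of_map_eq {X Y : Scheme.{u}} (φ : X ⟶ Y) [LocallyQuasiFinite φ]
    {a b : X} (h : b ⤳ a) (hab : φ a = φ b) : a = b := by
  have hd := (φ.isDiscrete_preimage_singleton (φ a)).to_subtype
  let a' : φ ⁻¹' {φ a} := ⟨a, rfl⟩
  let b' : φ ⁻¹' {φ a} := ⟨b, hab.symm⟩
  have h' : b' ⤳ a' := Topology.IsInducing.subtypeVal.specializes_iff.mp h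
  have : b' = a' := (specializes_iff_eq.mp h')
  exact (congrArg Subtype.val this).symm

theorem scheme_lt_iff {X : Scheme.{u}} {a b : X} : a < b ↔ b ⤳ a ∧ ¬ a ⤳ b := Iff.rfl

theorem scheme_le_iff {X : Scheme.{u}} {a b : X} : a ≤ b ↔ b ⤳ a := Iff.rfl

theorem strictMono_of_locallyQuasiFinite {X Y : Scheme.{u}} (φ : X ⟶ Y) [LocallyQuasiFinite φ] :
    StrictMono (φ : X → Y) := by
  intro a b hab
  rw [scheme_lt_iff] at hab ⊢
  obtain ⟨h1, h2⟩ := hab
  have h3 : φ b ⤳ φ a := h1.map φ.continuous
  refine ⟨h3, fun h4 => h2 ?_⟩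
  have heq : φ a = φ b := (h4.antisymm h3).eq
  rw [eq_of_specializes_of_map_eq φ h1 heq]

/-- **(F1)** a locally quasi-finite flat morphism preserves the codimension of points. -/
theorem coheight_map_eq {X Y : Scheme.{u}} (φ : X ⟶ Y) [LocallyQuasiFinite φ] [Flat φ] (q : X) :
    Order.coheight (φ q) = Order.coheight q := by
  refine (Order.coheight_eq_of_strictMono (φ : X → Y) (strictMono_of_locallyQuasiFinite φ)
    ?_ q).symm
  intro a b hab
  rw [scheme_lt_iff] at hab
  obtain ⟨a', ha', rfl⟩ := Flat.generalizingMap φ hab.1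
  refine ⟨a', scheme_lt_iff.mpr ⟨ha', fun h => hab.2 (h.map φ.continuous)⟩, rfl⟩

theorem ringHom_finite_flat_app' {X Y : Scheme.{u}} (φ : X ⟶ Y) [IsFinite φ] {V : Y.Opens}
    (hV : IsAffineOpen V) : (φ.app V).hom.Finite := by
  have hU : IsAffineOpen (φ ⁻¹ᵁ V) := hV.preimage φ
  have hpb := isPullback_chart φ hV hU
  have h1 : IsFinite (Spec.map (φ.app V)) := MorphismProperty.of_isPullback hpb ‹_›
  exact (IsFinite.SpecMap_iff _).mp h1

/-- **(F2)** integrality criterion: for a finite morphism `φ : X ⟶ Y` of integral schemes, an element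
of `K(X)` lying in the local rings of all points over `p : Y` is integral over `𝒪_{Y,p}`. -/
theorem isIntegralElem_of_forall_mem_stalk {X Y : Scheme.{u}} [IsIntegral X] [IsIntegral Y]
    (φ : X ⟶ Y) [IsFinite φ] (hφ : φ (genericPoint X) = genericPoint Y) (p : Y)
    (y : X.functionField)
    (h : ∀ q : X, φ q = p → y ∈ Set.range (algebraMap (X.presheaf.stalk q) X.functionField)) :
    ((functionFieldMap φ hφ).hom.comp
      (algebraMap (Y.presheaf.stalk p) Y.functionField)).IsIntegralElem y := by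
  obtain ⟨_, ⟨V, hV, rfl⟩, hpV, -⟩ := Y.isBasis_affineOpens.exists_subset_of_mem_open
    (Set.mem_univ p) isOpen_univ
  have hne : Nonempty V := ⟨⟨p, hpV⟩⟩
  have hne' := nonempty_preimage_of_genericPoint φ hφ V
  have hU : IsAffineOpen (φ ⁻¹ᵁ V) := hV.preimage φ
  set ρ := (functionFieldMap φ hφ).hom.comp (algebraMap (Y.presheaf.stalk p) Y.functionField)
    with hρ
  let ψ : Γ(Y, V) →+* Γ(X, φ ⁻¹ᵁ V) := (φ.app V).hom
  let gX : Γ(X, φ ⁻¹ᵁ V) →+* X.functionField := (X.germToFunctionField (φ ⁻¹ᵁ V)).hom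
  let gp : Γ(Y, V) →+* Y.presheaf.stalk p := (Y.presheaf.germ V p hpV).hom
  -- compatibility
  have hcompat : ρ.comp gp = gX.comp ψ := by
    ext b
    simp only [hρ, RingHom.comp_apply, gp, gX, ψ]
    rw [Scheme.algebraMap_germ_eq_germToFunctionField]
    exact congrArg (fun f => f.hom b) (germToFunctionField_functionFieldMap φ hφ V)
  -- the prime of `p`
  let 𝔭 : PrimeSpectrum Γ(Y, V) := hV.primeIdealOf ⟨p, hpV⟩
  have h𝔭 : hV.fromSpec 𝔭 = p := hV.fromSpec_primeIdealOf ⟨p, hpV⟩
  have hloc := hV.isLocalization_stalk ⟨p, hpV⟩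
  -- the ideal of denominators of `y`
  let I : Ideal Γ(X, φ ⁻¹ᵁ V) :=
    { carrier := {c | gX c * y ∈ gX.range}
      add_mem' := fun {a b} ha hb => by
        change gX (a + b) * y ∈ gX.range
        rw [map_add, add_mul]
        exact gX.range.add_mem ha hb
      zero_mem' := by
        change gX 0 * y ∈ gX.range
        rw [map_zero, zero_mul]
        exact gX.range.zero_mem
      smul_mem' := fun c {a} ha => by
        change gX (c • a) * y ∈ gX.range
        rw [smul_eq_mul, map_mul, mul_assoc]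
        exact gX.range.mul_mem ⟨c, rfl⟩ ha }
  have hfin : ψ.Finite := (ringHom_finite_flat_app' φ hV)
  -- key claim
  have hkey : ¬ (I.comap ψ ≤ 𝔭.asIdeal) := by
    intro hle
    algebraize [ψ]
    have hint : Algebra.IsIntegral Γ(Y, V) Γ(X, φ ⁻¹ᵁ V) := inferInstance
    obtain ⟨Q, hIQ, hQprime, hQ⟩ :=
      Ideal.exists_ideal_over_prime_of_isIntegral 𝔭.asIdeal I hle
    let 𝔮 : PrimeSpectrum Γ(X, φ ⁻¹ᵁ V) := ⟨Q, hQprime⟩
    have hq'U : hU.fromSpec 𝔮 ∈ φ ⁻¹ᵁ V := by
      have : hU.fromSpec 𝔮 ∈ Set.range hU.fromSpec := ⟨𝔮, rfl⟩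
      rwa [hU.range_fromSpec] at this
    have hφq : φ (hU.fromSpec 𝔮) = p := by
      have hsq := IsAffineOpen.SpecMap_appLE_fromSpec φ hV hU le_rfl
      have h1 : φ (hU.fromSpec 𝔮) = hV.fromSpec (Spec.map (φ.appLE V (φ ⁻¹ᵁ V) le_rfl) 𝔮) := by
        rw [← Scheme.Hom.comp_apply, ← Scheme.Hom.comp_apply, hsq]
      rw [h1, ← h𝔭]
      congr 1
      apply PrimeSpectrum.ext
      rw [Scheme.Hom.appLE_eq_app]
      exact hQ
    obtain ⟨z, hz⟩ := h _ hφq
    have hlocq := hU.isLocalization_stalk' 𝔮 hq'U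
    obtain ⟨⟨c, t⟩, hct⟩ := @IsLocalization.surj _ _ _ _ _
      (TopCat.Presheaf.algebra_section_stalk X.presheaf ⟨hU.fromSpec 𝔮, hq'U⟩) hlocq z
    have htI : (t : Γ(X, φ ⁻¹ᵁ V)) ∈ I := by
      change gX t * y ∈ gX.range
      refine ⟨c, ?_⟩
      rw [← hz, mul_comm]
      have e1 : gX t = algebraMap (X.presheaf.stalk (hU.fromSpec 𝔮)) X.functionField
          (X.presheaf.germ (φ ⁻¹ᵁ V) (hU.fromSpec 𝔮) hq'U t) :=
        (Scheme.algebraMap_germ_eq_germToFunctionField X hq'U _).symm
      have e2 : gX c = algebraMap (X.presheaf.stalk (hU.fromSpec 𝔮)) X.functionField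
          (X.presheaf.germ (φ ⁻¹ᵁ V) (hU.fromSpec 𝔮) hq'U c) :=
        (Scheme.algebraMap_germ_eq_germToFunctionField X hq'U _).symm
      rw [e1, e2, ← map_mul]
      exact congrArg _ hct.symm
    exact t.2 (hIQ htI)
  -- a denominator outside `𝔭`
  obtain ⟨s, hsI, hs𝔭⟩ : ∃ s, s ∈ I.comap ψ ∧ s ∉ 𝔭.asIdeal := by
    by_contra hcon
    push Not at hcon
    exact hkey (fun s hs => hcon s hs)
  obtain ⟨c, hc⟩ : gX (ψ s) * y ∈ gX.range := hsI
  -- `gp s` is a unit of the stalk
  have hu : IsUnit (gp s) :=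
    @IsLocalization.map_units _ _ _ _ _
      (TopCat.Presheaf.algebra_section_stalk Y.presheaf ⟨p, hpV⟩) hloc ⟨s, hs𝔭⟩
  obtain ⟨u, hu'⟩ := hu
  -- `gX c` is integral over `ρ`
  have hc_int : ρ.IsIntegralElem (gX c) := by
    obtain ⟨P, hPm, hP0⟩ := hfin.to_isIntegral c
    refine ⟨P.map gp, hPm.map gp, ?_⟩
    rw [Polynomial.eval₂_map, hcompat, ← Polynomial.hom_eval₂, hP0, map_zero]
  have hy : y = ρ ((u⁻¹ : (Y.presheaf.stalk p)ˣ) : Y.presheaf.stalk p) * gX c := by
    have h1 : ρ (gp s) = gX (ψ s) := congrArg (fun f => f s) hcompat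
    have h2 : ρ ((u⁻¹ : (Y.presheaf.stalk p)ˣ) : Y.presheaf.stalk p) * ρ (gp s) = 1 := by
      rw [← map_mul, ← hu', Units.inv_mul, map_one]
    rw [hc, ← h1, ← mul_assoc, h2, one_mul]
  rw [hy]
  exact RingHom.IsIntegralElem.mul ρ (ρ.isIntegralElem_map) hc_int

/-- in a discrete valuation ring, an element of the fraction field of nonnegative order is
integral. -/
theorem mem_range_of_one_le_ordFrac {R : Type*} [CommRing R] [IsDomain R]
    [IsDiscreteValuationRing R] {K : Type*} [Field K] [Algebra R K] [IsFractionRing R K] (y : K)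
    (k : ℕ) (hy : Ring.ordFrac R y = (WithZero.exp 1) ^ k) :
    y ∈ Set.range (algebraMap R K) := by
  obtain ⟨π, hπ⟩ := IsDiscreteValuationRing.exists_irreducible R
  have h1 : Ring.ordFrac R (algebraMap R K (π ^ k)) = Ring.ordFrac R y := by
    rw [map_pow, map_pow, Ring.ordFrac_irreducible hπ, hy]
  obtain ⟨u, hu⟩ := Ring.associated_of_ordFrac_eq _ _ h1
  refine ⟨u * π ^ k, ?_⟩
  rw [← hu, map_mul, Units.smul_def, Algebra.smul_def]

/-- **(F2b)** a rational function of nonnegative order along a codimension-one point with DVR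
local ring lies in that local ring. -/
theorem mem_range_stalk_of_ord_nonneg {X : Scheme.{u}} [IsIntegral X] [IsLocallyNoetherian X]
    (q : X) (hq : Order.coheight q = 1) [IsDiscreteValuationRing (X.presheaf.stalk q)]
    (y : X.functionField) (hy : y ≠ 0 → 0 ≤ Scheme.ord y q) :
    y ∈ Set.range (algebraMap (X.presheaf.stalk q) X.functionField) := by
  by_cases h0 : y = 0
  · exact ⟨0, by rw [h0, map_zero]⟩
  have hk := hy h0
  obtain ⟨k, hk'⟩ := Int.eq_ofNat_of_zero_le hk
  have h1 : Scheme.ordHom q hq y = Multiplicative.ofAdd (k : ℤ) :=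
    (Scheme.ord_eq_iff hq h0).mp hk'
  refine mem_range_of_one_le_ordFrac (R := X.presheaf.stalk q) y k ?_
  change Scheme.ordHom q hq y = _
  rw [h1, WithZero.exp, ← WithZero.coe_pow, ← ofAdd_nsmul]
  simp

/-- **(F2c)** integrality criterion in terms of orders of vanishing: for `φ` finite flat, `p` a
codimension-one point of `Y`, if all stalks of `X` over `p` are discrete valuation rings, then a
rational function on `X` without poles along the points over `p` is integral over `𝒪_{Y,p}`. -/
theorem isIntegralElem_of_forall_ord_nonneg {X Y : Scheme.{u}} [IsIntegral X] [IsIntegral Y]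
    [IsLocallyNoetherian X] (φ : X ⟶ Y) [IsFinite φ] [Flat φ]
    (hφ : φ (genericPoint X) = genericPoint Y) (p : Y) (hp : Order.coheight p = 1)
    (hdvr : ∀ q : X, φ q = p → IsDiscreteValuationRing (X.presheaf.stalk q))
    (y : X.functionField) (h : ∀ q : X, φ q = p → y ≠ 0 → 0 ≤ Scheme.ord y q) :
    ((functionFieldMap φ hφ).hom.comp
      (algebraMap (Y.presheaf.stalk p) Y.functionField)).IsIntegralElem y := by
  refine isIntegralElem_of_forall_mem_stalk φ hφ p y (fun q hq => ?_)
  have := hdvr q hq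
  have hcq : Order.coheight q = 1 := by rw [← coheight_map_eq φ q, hq, hp]
  exact mem_range_stalk_of_ord_nonneg q hcq y (h q hq)

/-- ramification: for a local homomorphism of discrete valuation rings compatible with a
homomorphism of fraction fields, the order functions differ by a positive integer factor
(multiplicatively: a power). -/
theorem ordFrac_map_eq_pow {A B : Type*} [CommRing A] [CommRing B] [IsDomain A] [IsDomain B]
    [IsDiscreteValuationRing A] [IsDiscreteValuationRing B]
    {KA KB : Type*} [Field KA] [Field KB] [Algebra A KA] [Algebra B KB] [IsFractionRing A KA]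
    [IsFractionRing B KB] (f : A →+* B) [IsLocalHom f] (ι : KA →+* KB)
    (hcomp : ι.comp (algebraMap A KA) = (algebraMap B KB).comp f) :
    ∃ e : ℕ, 0 < e ∧ ∀ x : KA, Ring.ordFrac B (ι x) = (Ring.ordFrac A x) ^ e := by
  have hc : ∀ a : A, ι (algebraMap A KA a) = algebraMap B KB (f a) := fun a =>
    congrArg (fun g => g a) hcomp
  have hfinj : Function.Injective f := by
    intro a b hab
    apply IsFractionRing.injective A KA
    apply ι.injective
    rw [hc, hc, hab]
  obtain ⟨π, hπ⟩ := IsDiscreteValuationRing.exists_irreducible A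
  obtain ⟨ϖ, hϖ⟩ := IsDiscreteValuationRing.exists_irreducible B
  have hfπ0 : f π ≠ 0 := fun h => hπ.ne_zero (hfinj (h.trans (map_zero f).symm))
  obtain ⟨e, v, hev⟩ := IsDiscreteValuationRing.eq_unit_mul_pow_irreducible hfπ0 hϖ
  have he : 0 < e := by
    rcases Nat.eq_zero_or_pos e with h0 | h0
    · exfalso
      rw [h0, pow_zero, mul_one] at hev
      have : IsUnit (f π) := hev ▸ v.isUnit
      exact hπ.not_isUnit (isUnit_of_map_unit f π this)
    · exact h0
  have hBπ : Ring.ordFrac B (algebraMap B KB (f π)) = (WithZero.exp 1) ^ e := by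
    rw [hev, map_mul, map_mul, map_pow, map_pow, Ring.ordFrac_of_isUnit v.isUnit, one_mul,
      Ring.ordFrac_irreducible hϖ]
  -- on elements of `A`
  have hA : ∀ a : A, a ≠ 0 →
      Ring.ordFrac B (ι (algebraMap A KA a)) = (Ring.ordFrac A (algebraMap A KA a)) ^ e := by
    intro a ha
    obtain ⟨n, u, rfl⟩ := IsDiscreteValuationRing.eq_unit_mul_pow_irreducible ha hπ
    rw [hc, map_mul f, map_pow f, map_mul (algebraMap B KB), map_pow (algebraMap B KB), map_mul,
      map_pow, hBπ, Ring.ordFrac_of_isUnit (u.isUnit.map f), one_mul,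
      map_mul (algebraMap A KA), map_pow (algebraMap A KA), map_mul, map_pow,
      Ring.ordFrac_of_isUnit u.isUnit, one_mul, Ring.ordFrac_irreducible hπ, ← pow_mul, ← pow_mul,
      mul_comm]
  refine ⟨e, he, fun x => ?_⟩
  obtain ⟨a, b, hb, rfl⟩ := IsFractionRing.div_surjective (A := A) x
  have hb0 : b ≠ 0 := nonZeroDivisors.ne_zero hb
  by_cases ha : a = 0
  · subst ha
    simp [zero_pow he.ne']
  · rw [map_div₀, map_div₀, map_div₀, div_pow, hA a ha, hA b hb0]

/-- compatibility of the stalk map at `q` with the map of function fields. -/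
theorem stalkMap_functionFieldMap {X Y : Scheme.{u}} [IrreducibleSpace X] [IrreducibleSpace Y]
    (φ : X ⟶ Y) (hφ : φ (genericPoint X) = genericPoint Y) (q : X) :
    (algebraMap (X.presheaf.stalk q) X.functionField).comp (φ.stalkMap q).hom =
      (functionFieldMap φ hφ).hom.comp (algebraMap (Y.presheaf.stalk (φ q)) Y.functionField) := by
  have hq : genericPoint X ⤳ q := (genericPoint_spec X).specializes trivial
  have h1 := Scheme.Hom.stalkSpecializes_stalkMap φ (genericPoint X) q hq
  have h2 : Y.presheaf.stalkSpecializes ((genericPoint_spec Y).specializes trivial) ≫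
      Y.presheaf.stalkSpecializes (specializes_of_eq hφ) =
      Y.presheaf.stalkSpecializes (φ.base.hom.map_specializes hq) :=
    Y.presheaf.stalkSpecializes_comp _ _
  have h3 : φ.stalkMap q ≫ X.presheaf.stalkSpecializes hq =
      Y.presheaf.stalkSpecializes ((genericPoint_spec Y).specializes trivial) ≫
        functionFieldMap φ hφ := by
    unfold functionFieldMap
    rw [← Category.assoc, h2, h1]
  exact congrArg CommRingCat.Hom.hom h3

/-- **(F3)** the order of vanishing of a pulled-back function along a codimension-one point `q` is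
a positive multiple of its order along `φ q`. -/
theorem ord_functionFieldMap {X Y : Scheme.{u}} [IsIntegral X] [IsIntegral Y]
    [IsLocallyNoetherian X] [IsLocallyNoetherian Y] (φ : X ⟶ Y)
    (hφ : φ (genericPoint X) = genericPoint Y) (q : X) (hq : Order.coheight q = 1)
    (hp : Order.coheight (φ q) = 1) [IsDiscreteValuationRing (X.presheaf.stalk q)]
    [IsDiscreteValuationRing (Y.presheaf.stalk (φ q))] :
    ∃ e : ℕ, 0 < e ∧ ∀ x : Y.functionField, x ≠ 0 →
      Scheme.ord ((functionFieldMap φ hφ).hom x) q = e * Scheme.ord x (φ q) := by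
  have hloc : IsLocalHom (φ.stalkMap q).hom := inferInstance
  obtain ⟨e, he, hpow⟩ := ordFrac_map_eq_pow (A := Y.presheaf.stalk (φ q))
    (B := X.presheaf.stalk q) (KA := Y.functionField) (KB := X.functionField)
    (φ.stalkMap q).hom (functionFieldMap φ hφ).hom (stalkMap_functionFieldMap φ hφ q).symm
  refine ⟨e, he, fun x hx => ?_⟩
  have hx' : (functionFieldMap φ hφ).hom x ≠ 0 :=
    (map_ne_zero_iff _ (functionFieldMap φ hφ).hom.injective).mpr hx
  rw [Scheme.ord_eq_iff hq hx']
  have h1 : Scheme.ordHom (φ q) hp x = Multiplicative.ofAdd (Scheme.ord x (φ q)) :=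
    (Scheme.ord_eq_iff hp hx).mp rfl
  have h2 : Scheme.ordHom q hq ((functionFieldMap φ hφ).hom x) =
      (Scheme.ordHom (φ q) hp x) ^ e := hpow x
  rw [h2, h1, ← WithZero.coe_pow, ← ofAdd_nsmul, nsmul_eq_mul]

end Fermat.Agent.AV
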