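/-
PROJECT AV (S26 long shot) — AV5, helper2: prime-divisor systems on a function field and their
Riemann–Roch spaces `L(E)`.

A *prime divisor system* on a field `F` over `K` is a family of normalised discrete valuations of
`F`, trivial on `K`, such that every nonzero function has only finitely many zeros and poles
(the codimension-one points of a normal model).  A *divisor* is any function `E : ι → ℤ`;
`L(E) = {f | div f + E ≥ 0}` is a `K`-subspace of `F`.  No sheaves are involved; the dictionary
with invertible sheaves is `H⁰(X, O(E)) = L(E)`.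
-/
import Mathlib

set_option autoImplicit false

universe u v w

namespace Fermat.Agent.AV

open scoped Classical

/-- a family of normalised discrete valuations on `F`, trivial on `K`, with finite supports. -/
structure PDS (K : Type u) (F : Type v) [Field K] [Field F] [Algebra K F] where
  /-- the prime divisors -/
  ι : Type w
  /-- the order of vanishing along a prime divisor -/
  ord : ι → AddValuation F (WithTop ℤ)
  /-- constants have neither zeros nor poles -/
  ord_algebraMap : ∀ (p : ι) (c : K), c ≠ 0 → ord p (algebraMap K F c) = 0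
  /-- a nonzero function has finitely many zeros and poles -/
  finite_support : ∀ x : F, x ≠ 0 → {p : ι | ord p x ≠ 0}.Finite
  /-- every prime divisor has a uniformiser -/
  exists_uniformizer : ∀ p : ι, ∃ x : F, ord p x = 1

namespace PDS

variable {K : Type u} {F : Type v} [Field K] [Field F] [Algebra K F] (S : PDS.{u, v, w} K F)

/-- the integer order of a function (junk value `0` at `0`). -/
noncomputable def ordZ (p : S.ι) (x : F) : ℤ := (S.ord p x).untopD 0

theorem ord_eq_coe_ordZ (p : S.ι) {x : F} (hx : x ≠ 0) : S.ord p x = ((S.ordZ p x : ℤ) : WithTop ℤ) := by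
  have h : S.ord p x ≠ ⊤ := (AddValuation.ne_top_iff (S.ord p)).mpr hx
  obtain ⟨z, hz⟩ := WithTop.ne_top_iff_exists.mp h
  rw [ordZ, ← hz]
  rfl

theorem ordZ_mul (p : S.ι) {x y : F} (hx : x ≠ 0) (hy : y ≠ 0) :
    S.ordZ p (x * y) = S.ordZ p x + S.ordZ p y := by
  have h := (S.ord p).map_mul x y
  rw [S.ord_eq_coe_ordZ p hx, S.ord_eq_coe_ordZ p hy, S.ord_eq_coe_ordZ p (mul_ne_zero hx hy),
    ← WithTop.coe_add] at h
  exact WithTop.coe_injective h

/-- the Riemann–Roch space of a divisor. -/
def RRSpace (E : S.ι → ℤ) : Submodule K F where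
  carrier := {f | ∀ p : S.ι, ((-(E p) : ℤ) : WithTop ℤ) ≤ S.ord p f}
  add_mem' := by
    intro a b ha hb p
    exact (S.ord p).map_le_add (ha p) (hb p)
  zero_mem' := by
    intro p
    rw [(S.ord p).map_zero]
    exact le_top
  smul_mem' := by
    intro c f hf p
    by_cases hc : c = 0
    · subst hc
      rw [zero_smul, (S.ord p).map_zero]
      exact le_top
    · rw [Algebra.smul_def, (S.ord p).map_mul, S.ord_algebraMap p c hc, zero_add]
      exact hf p

theorem mem_RRSpace {E : S.ι → ℤ} {f : F} :
    f ∈ S.RRSpace E ↔ ∀ p : S.ι, ((-(E p) : ℤ) : WithTop ℤ) ≤ S.ord p f := Iff.rfl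

theorem RRSpace_mono {E E' : S.ι → ℤ} (h : ∀ p, E p ≤ E' p) : S.RRSpace E ≤ S.RRSpace E' := by
  intro f hf p
  refine le_trans ?_ (hf p)
  exact_mod_cast neg_le_neg (h p)

/-- multiplication by `s ∈ L(E')` maps `L(E)` into `L(E + E')`. -/
theorem mul_mem_RRSpace {E E' : S.ι → ℤ} {f s : F} (hf : f ∈ S.RRSpace E) (hs : s ∈ S.RRSpace E') :
    f * s ∈ S.RRSpace (fun p => E p + E' p) := by
  intro p
  rw [(S.ord p).map_mul]
  have h1 := hf p
  have h2 := hs p
  calc ((-(E p + E' p) : ℤ) : WithTop ℤ) = ((-(E p) : ℤ) : WithTop ℤ) + ((-(E' p) : ℤ) : WithTop ℤ) := by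
        rw [← WithTop.coe_add]; congr 1; ring
    _ ≤ S.ord p f + S.ord p s := add_le_add h1 h2

/-- multiplication by a fixed function, as a `K`-linear map between Riemann–Roch spaces. -/
noncomputable def mulRR {E E' E'' : S.ι → ℤ} (s : F) (hs : s ∈ S.RRSpace E')
    (h : ∀ p, E p + E' p ≤ E'' p) : S.RRSpace E →ₗ[K] S.RRSpace E'' where
  toFun f := ⟨f.1 * s, S.RRSpace_mono h (S.mul_mem_RRSpace f.2 hs)⟩
  map_add' := by
    intro a b
    apply Subtype.ext
    simp [add_mul]
  map_smul' := by
    intro c a
    apply Subtype.ext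
    simp [Algebra.smul_def, mul_assoc]

theorem mulRR_injective {E E' E'' : S.ι → ℤ} (s : F) (hs : s ∈ S.RRSpace E')
    (h : ∀ p, E p + E' p ≤ E'' p) (hs0 : s ≠ 0) : Function.Injective (S.mulRR s hs h) := by
  intro a b hab
  have := congrArg Subtype.val hab
  simp only [mulRR, LinearMap.coe_mk, AddHom.coe_mk] at this
  exact Subtype.ext (mul_right_cancel₀ hs0 this)

/-- `L(E) ≤ L(E'')` in dimension as soon as `E'' - E` is linearly equivalent to an effective
divisor: there is `s ≠ 0` in `L(E'' - E)`. -/
theorem finrank_RRSpace_le_of_mem {E E' E'' : S.ι → ℤ} (s : F) (hs : s ∈ S.RRSpace E') (hs0 : s ≠ 0)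
    (h : ∀ p, E p + E' p ≤ E'' p) [FiniteDimensional K (S.RRSpace E'')] :
    Module.finrank K (S.RRSpace E) ≤ Module.finrank K (S.RRSpace E'') :=
  LinearMap.finrank_le_finrank_of_injective (S.mulRR_injective s hs h hs0)

theorem finiteDimensional_RRSpace_of_mem {E E' E'' : S.ι → ℤ} (s : F) (hs : s ∈ S.RRSpace E')
    (hs0 : s ≠ 0) (h : ∀ p, E p + E' p ≤ E'' p) [FiniteDimensional K (S.RRSpace E'')] :
    FiniteDimensional K (S.RRSpace E) :=
  FiniteDimensional.of_injective _ (S.mulRR_injective s hs h hs0)

end PDS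

end Fermat.Agent.AV
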