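/-
PROJECT AV (S26 long shot) — AV5, helper2: the `H⁰`-sandwich for a finite cover, in the
function-field / prime-divisor language (no sheaves).

`F₂ / F₁` finite separable of degree `d` (think `φ^* : K(Y) → K(X)` for `φ : X → Y` finite
surjective between normal proper varieties), prime divisor systems `S₁` on `F₁`, `S₂` on `F₂`,
`push : S₂.ι → S₁.ι` (`φ_*` on prime divisors), ramification indices `e`, and the
trace-integrality property (a function regular along all prime divisors over `p` has a trace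
regular along `p` — true when ALL extensions of `ord_p` belong to `S₂`, i.e. `φ` finite, `Y` normal).

For an `F₁`-basis `b` of `F₂` and `P = poleDiv b` (an effective divisor on `Y` with finite
support, independent of `E`):
  `(L₁(E - P))^d ↪ L₂(φ^*E) ↪ (L₁(E + P))^d`   (injective `K`-linear maps),
hence `d · ℓ₁(E - P) ≤ ℓ₂(φ^* E) ≤ d · ℓ₁(E + P)`.
-/
import Mathlib
import Fermat.Agent.AV.AV5_helper2_PDS

set_option autoImplicit false

universe u v₁ v₂ w₁ w₂

namespace Fermat.Agent.AV

open scoped Classical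

section WithTopInt

theorem withTop_coe_mul_le_nsmul {z : ℤ} {x : WithTop ℤ} (n : ℕ) (h : (z : WithTop ℤ) ≤ x) :
    (((n : ℤ) * z : ℤ) : WithTop ℤ) ≤ n • x := by
  induction x using WithTop.recTopCoe with
  | top =>
    rcases Nat.eq_zero_or_pos n with hn | hn
    · subst hn; simp
    · obtain ⟨k, rfl⟩ : ∃ k, n = k + 1 := ⟨n - 1, by omega⟩
      have : (k + 1) • (⊤ : WithTop ℤ) = ⊤ := by
        rw [succ_nsmul, WithTop.add_top]
      rw [this]; exact le_top
  | coe y =>
    have hzy : z ≤ y := by exact_mod_cast h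
    rw [← WithTop.coe_nsmul]
    have : (n : ℤ) * z ≤ n • y := by
      rw [nsmul_eq_mul]
      exact mul_le_mul_of_nonneg_left hzy (by positivity)
    exact_mod_cast this

theorem withTop_neg_le_of_nonneg_add {c : ℤ} {x : WithTop ℤ} (h : (0 : WithTop ℤ) ≤ (c : WithTop ℤ) + x) :
    ((-c : ℤ) : WithTop ℤ) ≤ x := by
  induction x using WithTop.recTopCoe with
  | top => exact le_top
  | coe y =>
    rw [← WithTop.coe_add] at h
    have : (0 : ℤ) ≤ c + y := by exact_mod_cast h
    have : -c ≤ y := by omega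
    exact_mod_cast this

end WithTopInt

variable {K : Type u} {F₁ : Type v₁} {F₂ : Type v₂} [Field K] [Field F₁] [Field F₂]
  [Algebra K F₁] [Algebra K F₂] [Algebra F₁ F₂] [IsScalarTower K F₁ F₂]

/-- `ord (π ^ c)` for an integer exponent. -/
theorem addValuation_map_zpow {F : Type*} [Field F] (v : AddValuation F (WithTop ℤ)) {x : F}
    (hx : v x = 1) (c : ℤ) : v (x ^ c) = ((c : ℤ) : WithTop ℤ) := by
  have hx0 : x ≠ 0 := by
    intro h
    rw [h, AddValuation.map_zero] at hx
    exact WithTop.top_ne_one hx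
  have hnat : ∀ n : ℕ, v (x ^ n) = ((n : ℤ) : WithTop ℤ) := by
    intro n
    rw [AddValuation.map_pow, hx]
    induction n with
    | zero => simp
    | succ n ih => rw [succ_nsmul, ih]; push_cast; rfl
  rcases Int.eq_nat_or_neg c with ⟨n, rfl | rfl⟩
  · rw [zpow_natCast]; exact hnat n
  · rw [zpow_neg, zpow_natCast, AddValuation.map_inv, hnat n]
    rfl

/-- the data of a finite cover between prime divisor systems. -/
structure FiniteCover (S₁ : PDS.{u, v₁, w₁} K F₁) (S₂ : PDS.{u, v₂, w₂} K F₂) where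
  /-- image of a prime divisor -/
  push : S₂.ι → S₁.ι
  /-- ramification index -/
  e : S₂.ι → ℕ
  e_pos : ∀ q, 0 < e q
  ord_algebraMap : ∀ (q : S₂.ι) (x : F₁),
    S₂.ord q (algebraMap F₁ F₂ x) = e q • S₁.ord (push q) x
  /-- trace-integrality: regular along every prime divisor over `p` ⇒ trace regular along `p`. -/
  trace_nonneg : ∀ (p : S₁.ι) (y : F₂), (∀ q, push q = p → (0 : WithTop ℤ) ≤ S₂.ord q y) →
    (0 : WithTop ℤ) ≤ S₁.ord p (Algebra.trace F₁ F₂ y)

namespace FiniteCover

variable {S₁ : PDS.{u, v₁, w₁} K F₁} {S₂ : PDS.{u, v₂, w₂} K F₂} (c : FiniteCover S₁ S₂)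

/-- pull-back of divisors. -/
def pullback (E : S₁.ι → ℤ) : S₂.ι → ℤ := fun q => (c.e q : ℤ) * E (c.push q)

/-- the push-forward of the polar part of a finite family of functions: an effective divisor on
the base, with finite support. -/
noncomputable def poleDiv {n : ℕ} (b : Fin n → F₂) : S₁.ι → ℤ := fun p =>
  ∑ i : Fin n, if h : b i = 0 then 0 else
    ∑ q ∈ (S₂.finite_support (b i) h).toFinset.filter (fun q => c.push q = p),
      (((-(S₂.ordZ q (b i))).toNat : ℕ) : ℤ)

theorem poleDiv_nonneg {n : ℕ} (b : Fin n → F₂) (p : S₁.ι) : 0 ≤ c.poleDiv b p := by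
  unfold poleDiv
  apply Finset.sum_nonneg
  intro i _
  split_ifs
  · exact le_rfl
  · apply Finset.sum_nonneg
    intro q _
    positivity

theorem poleDiv_spec {n : ℕ} (b : Fin n → F₂) (i : Fin n) (hbi : b i ≠ 0) (q : S₂.ι) :
    -((c.e q : ℤ) * c.poleDiv b (c.push q)) ≤ S₂.ordZ q (b i) := by
  have hP := c.poleDiv_nonneg b (c.push q)
  have he : (1 : ℤ) ≤ (c.e q : ℤ) := by exact_mod_cast c.e_pos q
  by_cases hneg : 0 ≤ S₂.ordZ q (b i)
  · have : 0 ≤ (c.e q : ℤ) * c.poleDiv b (c.push q) := mul_nonneg (by positivity) hP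
    omega
  · push_neg at hneg
    -- q is a pole of b i, hence appears in the sum
    have hq : q ∈ (S₂.finite_support (b i) hbi).toFinset.filter (fun q' => c.push q' = c.push q) := by
      rw [Finset.mem_filter, Set.Finite.mem_toFinset]
      refine ⟨?_, rfl⟩
      show S₂.ord q (b i) ≠ 0
      rw [S₂.ord_eq_coe_ordZ q hbi]
      intro h0
      have : S₂.ordZ q (b i) = 0 := by exact_mod_cast h0
      omega
    have h1 : (((-(S₂.ordZ q (b i))).toNat : ℕ) : ℤ) ≤ c.poleDiv b (c.push q) := by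
      unfold poleDiv
      have hterm : (((-(S₂.ordZ q (b i))).toNat : ℕ) : ℤ) ≤
          ∑ q' ∈ (S₂.finite_support (b i) hbi).toFinset.filter (fun q' => c.push q' = c.push q),
            (((-(S₂.ordZ q' (b i))).toNat : ℕ) : ℤ) :=
        Finset.single_le_sum (f := fun q' => (((-(S₂.ordZ q' (b i))).toNat : ℕ) : ℤ))
          (fun q' _ => by positivity) hq
      refine le_trans hterm ?_
      have hsum := Finset.single_le_sum (s := Finset.univ)
        (f := fun i' : Fin n => if h : b i' = 0 then (0 : ℤ) else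
          ∑ q' ∈ (S₂.finite_support (b i') h).toFinset.filter (fun q' => c.push q' = c.push q),
            (((-(S₂.ordZ q' (b i'))).toNat : ℕ) : ℤ))
        (fun i' _ => by
          split_ifs
          · exact le_rfl
          · exact Finset.sum_nonneg (fun q' _ => by positivity)) (Finset.mem_univ i)
      simp only [dif_neg hbi] at hsum
      exact hsum
    have h2 : -(S₂.ordZ q (b i)) ≤ c.poleDiv b (c.push q) := by
      have : (((-(S₂.ordZ q (b i))).toNat : ℕ) : ℤ) = -(S₂.ordZ q (b i)) := Int.toNat_of_nonneg (by omega)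
      omega
    nlinarith

/-- the support of `poleDiv b` is finite. -/
theorem poleDiv_finite_support {n : ℕ} (b : Fin n → F₂) : {p : S₁.ι | c.poleDiv b p ≠ 0}.Finite := by
  -- contained in the image under `push` of the union of the supports of the `b i`
  let T : Finset S₂.ι := Finset.univ.biUnion (fun i : Fin n =>
    if h : b i = 0 then ∅ else (S₂.finite_support (b i) h).toFinset)
  apply Set.Finite.subset (T.image c.push).finite_toSet
  intro p hp
  simp only [Set.mem_setOf_eq] at hp
  by_contra hnot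
  apply hp
  unfold poleDiv
  apply Finset.sum_eq_zero
  intro i _
  split_ifs with h
  · rfl
  · apply Finset.sum_eq_zero
    intro q hq
    exfalso
    apply hnot
    rw [Finset.mem_filter] at hq
    rw [Finset.coe_image, Set.mem_image]
    refine ⟨q, ?_, hq.2⟩
    rw [Finset.mem_coe, Finset.mem_biUnion]
    exact ⟨i, Finset.mem_univ i, by rw [dif_neg h]; exact hq.1⟩

/-- order of `algebraMap h * b i` along `q`, lower bound. -/
theorem ord_algebraMap_mul_ge {n : ℕ} (b : Fin n → F₂) (i : Fin n) (hbi : b i ≠ 0)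
    (E : S₁.ι → ℤ) {h : F₁} (hh : h ∈ S₁.RRSpace (fun p => E p - c.poleDiv b p)) (q : S₂.ι) :
    ((-(c.pullback E q) : ℤ) : WithTop ℤ) ≤ S₂.ord q (algebraMap F₁ F₂ h * b i) := by
  rw [AddValuation.map_mul, c.ord_algebraMap, S₂.ord_eq_coe_ordZ q hbi]
  have h1 := withTop_coe_mul_le_nsmul (c.e q) (hh (c.push q))
  have h2 := c.poleDiv_spec b i hbi q
  have h3 : ((-((c.e q : ℤ) * c.poleDiv b (c.push q)) : ℤ) : WithTop ℤ) ≤ ((S₂.ordZ q (b i) : ℤ) : WithTop ℤ) := by
    exact_mod_cast h2
  calc ((-(c.pullback E q) : ℤ) : WithTop ℤ)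
      = (((c.e q : ℤ) * -(E (c.push q) - c.poleDiv b (c.push q)) : ℤ) : WithTop ℤ)
          + ((-((c.e q : ℤ) * c.poleDiv b (c.push q)) : ℤ) : WithTop ℤ) := by
        rw [← WithTop.coe_add]; congr 1; unfold pullback; ring
    _ ≤ c.e q • S₁.ord (c.push q) h + ((S₂.ordZ q (b i) : ℤ) : WithTop ℤ) := add_le_add h1 h3

/-- **lower half of the sandwich**: `(h_i) ↦ Σ h_i b_i` maps `L₁(E - P)^n` into `L₂(φ^*E)`. -/
noncomputable def lowerMap {n : ℕ} (b : Fin n → F₂) (hb : ∀ i, b i ≠ 0) (E : S₁.ι → ℤ) :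
    (Fin n → S₁.RRSpace (fun p => E p - c.poleDiv b p)) →ₗ[K] S₂.RRSpace (c.pullback E) where
  toFun h := ⟨∑ i, algebraMap F₁ F₂ (h i).1 * b i, by
    intro q
    apply AddValuation.map_le_sum
    intro i _
    exact c.ord_algebraMap_mul_ge b i (hb i) E (h i).2 q⟩
  map_add' := by
    intro h h'
    apply Subtype.ext
    simp [add_mul, Finset.sum_add_distrib]
  map_smul' := by
    intro a h
    apply Subtype.ext
    simp only [Pi.smul_apply, SetLike.val_smul, RingHom.id_apply]
    rw [Finset.smul_sum]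
    apply Finset.sum_congr rfl
    intro i _
    rw [Algebra.smul_def, Algebra.smul_def, map_mul, ← IsScalarTower.algebraMap_apply, mul_assoc]

theorem lowerMap_injective {n : ℕ} (b : Module.Basis (Fin n) F₁ F₂) (E : S₁.ι → ℤ) :
    Function.Injective (c.lowerMap (fun i => b i) (fun i => b.ne_zero i) E) := by
  rw [← LinearMap.ker_eq_bot, LinearMap.ker_eq_bot']
  intro h hh
  have h0 : ∑ i, algebraMap F₁ F₂ (h i).1 * b i = 0 := congrArg Subtype.val hh
  have h1 : ∑ i, (h i).1 • b i = 0 := by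
    simpa [Algebra.smul_def] using h0
  have h2 := Fintype.linearIndependent_iff.mp b.linearIndependent (fun i => (h i).1) h1
  funext i
  exact Subtype.ext (h2 i)

/-- **upper half of the sandwich**: `h ↦ (Tr (h b_i))_i` maps `L₂(φ^*E)` into `L₁(E + P)^n`. -/
theorem trace_mul_mem {n : ℕ} (b : Fin n → F₂) (i : Fin n) (hbi : b i ≠ 0) (E : S₁.ι → ℤ)
    {h : F₂} (hh : h ∈ S₂.RRSpace (c.pullback E)) :
    Algebra.trace F₁ F₂ (h * b i) ∈ S₁.RRSpace (fun p => E p + c.poleDiv b p) := by
  intro p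
  obtain ⟨π, hπ⟩ := S₁.exists_uniformizer p
  set cc : ℤ := E p + c.poleDiv b p with hcc
  set t : F₁ := π ^ cc with ht
  have htord : S₁.ord p t = ((cc : ℤ) : WithTop ℤ) := addValuation_map_zpow (S₁.ord p) hπ cc
  -- y = t • (h * b i)
  have hy : ∀ q, c.push q = p → (0 : WithTop ℤ) ≤ S₂.ord q (algebraMap F₁ F₂ t * (h * b i)) := by
    intro q hq
    rw [AddValuation.map_mul, AddValuation.map_mul, c.ord_algebraMap, hq, htord,
      S₂.ord_eq_coe_ordZ q hbi, ← WithTop.coe_nsmul]
    have h1 := hh q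
    have h2 := c.poleDiv_spec b i hbi q
    rw [hq] at h2
    have h3 : ((-((c.e q : ℤ) * c.poleDiv b p) : ℤ) : WithTop ℤ) ≤ ((S₂.ordZ q (b i) : ℤ) : WithTop ℤ) := by
      exact_mod_cast h2
    have h4 : ((-(c.pullback E q) : ℤ) : WithTop ℤ) + ((-((c.e q : ℤ) * c.poleDiv b p) : ℤ) : WithTop ℤ)
        ≤ S₂.ord q h + ((S₂.ordZ q (b i) : ℤ) : WithTop ℤ) := add_le_add h1 h3
    have h5 : (0 : WithTop ℤ) = ((c.e q • cc : ℤ) : WithTop ℤ) +
        (((-(c.pullback E q) : ℤ) : WithTop ℤ) + ((-((c.e q : ℤ) * c.poleDiv b p) : ℤ) : WithTop ℤ)) := by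
      rw [← WithTop.coe_add, ← WithTop.coe_add]
      have : c.e q • cc + (-(c.pullback E q) + -((c.e q : ℤ) * c.poleDiv b p)) = 0 := by
        unfold pullback
        rw [hq, nsmul_eq_mul, hcc]
        ring
      rw [this]; rfl
    rw [h5]
    exact add_le_add le_rfl h4
  have htr := c.trace_nonneg p _ hy
  have hlin : Algebra.trace F₁ F₂ (algebraMap F₁ F₂ t * (h * b i)) = t * Algebra.trace F₁ F₂ (h * b i) := by
    rw [← Algebra.smul_def, map_smul, smul_eq_mul]
  rw [hlin, AddValuation.map_mul, htord] at htr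
  exact withTop_neg_le_of_nonneg_add htr

noncomputable def upperMap {n : ℕ} (b : Fin n → F₂) (hb : ∀ i, b i ≠ 0) (E : S₁.ι → ℤ) :
    S₂.RRSpace (c.pullback E) →ₗ[K] (Fin n → S₁.RRSpace (fun p => E p + c.poleDiv b p)) where
  toFun h := fun i => ⟨Algebra.trace F₁ F₂ (h.1 * b i), c.trace_mul_mem b i (hb i) E h.2⟩
  map_add' := by
    intro h h'
    funext i
    apply Subtype.ext
    simp [add_mul]
  map_smul' := by
    intro a h
    funext i
    apply Subtype.ext
    simp only [SetLike.val_smul, RingHom.id_apply, Pi.smul_apply]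
    rw [Algebra.smul_def, Algebra.smul_def, IsScalarTower.algebraMap_apply K F₁ F₂, mul_assoc,
      ← Algebra.smul_def (algebraMap K F₁ a), map_smul, smul_eq_mul]

theorem upperMap_injective [FiniteDimensional F₁ F₂] [Algebra.IsSeparable F₁ F₂] {n : ℕ}
    (b : Module.Basis (Fin n) F₁ F₂) (E : S₁.ι → ℤ) :
    Function.Injective (c.upperMap (fun i => b i) (fun i => b.ne_zero i) E) := by
  rw [← LinearMap.ker_eq_bot, LinearMap.ker_eq_bot']
  intro h hh
  have hnd := traceForm_nondegenerate F₁ F₂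
  -- all coordinates of h in the dual basis vanish
  have hrepr : ∀ i, ((Algebra.traceForm F₁ F₂).dualBasis hnd b).repr h.1 i = 0 := by
    intro i
    rw [LinearMap.BilinForm.dualBasis_repr_apply, Algebra.traceForm_apply]
    have := congrFun hh i
    exact congrArg Subtype.val this
  have : h.1 = 0 := by
    have h2 : ((Algebra.traceForm F₁ F₂).dualBasis hnd b).repr h.1 = 0 := by
      ext i; exact hrepr i
    exact (LinearEquiv.map_eq_zero_iff _).mp h2
  exact Subtype.ext this

end FiniteCover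

end Fermat.Agent.AV
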