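/-
PROJECT AV (S26 long shot) — AV5, helper2: the degree formula `deg φ = m ^ g` from `H⁰` alone.

`S` a prime divisor system on `F = K(A)`, `D` a divisor with `c₁ k^g ≤ ℓ(kD) ≤ c₂ k^g` and the
"ample" property (`aD - E` is linearly equivalent to an effective divisor for `a ≫ 0`, every
effective `E`).  If for every `j` there is a finite separable cover of degree `d^j`
(think `[n^j] : A → A`) with `φ_j^*(kD) ∼ (m^j k) D`, then `d = m^g`.
-/
import Mathlib
import Fermat.Agent.AV.AV5_helper2_Core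
import Fermat.Agent.AV.AV5_helper2_Sandwich

set_option autoImplicit false

universe u v v' w w'

namespace Fermat.Agent.AV

open scoped Classical

variable {K : Type u} {F : Type v} [Field K] [Field F] [Algebra K F]

/-- multiples of a divisor. -/
def PDS.nsmulDiv (S : PDS.{u, v, w} K F) (k : ℕ) (D : S.ι → ℤ) : S.ι → ℤ := fun p => (k : ℤ) * D p

/-- a finite separable cover of degree `dj` of the model `(F, S)` along which `D` pulls back to
(a divisor linearly equivalent to) `mj • D`, in the `H⁰` form. -/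
structure CoverDatum (S : PDS.{u, v, w} K F) (D : S.ι → ℤ) (dj mj : ℕ) where
  /-- the function field upstairs -/
  F' : Type v'
  [instField : Field F']
  [instAlgK : Algebra K F']
  [instAlg : Algebra F F']
  [instTower : IsScalarTower K F F']
  [instFin : FiniteDimensional F F']
  [instSep : Algebra.IsSeparable F F']
  /-- the prime divisors upstairs -/
  S' : PDS.{u, v', w'} K F'
  cover : FiniteCover S S'
  finrank_eq : Module.finrank F F' = dj
  /-- `H⁰(φ^*(kD)) ≅ H⁰((mj k) D)` -/
  linEquiv : ∀ k : ℕ, S'.RRSpace (cover.pullback (S.nsmulDiv k D)) ≃ₗ[K] S.RRSpace (S.nsmulDiv (mj * k) D)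

attribute [instance] CoverDatum.instField CoverDatum.instAlgK CoverDatum.instAlg
  CoverDatum.instTower CoverDatum.instFin CoverDatum.instSep

/-- the sandwich for one cover datum. -/
theorem CoverDatum.sandwich (S : PDS.{u, v, w} K F) (D : S.ι → ℤ) {dj mj : ℕ}
    (cd : CoverDatum.{u, v, v', w, w'} S D dj mj)
    (hfin : ∀ k : ℕ, FiniteDimensional K (S.RRSpace (S.nsmulDiv k D)))
    (hample : ∀ E : S.ι → ℤ, (∀ p, 0 ≤ E p) → {p | E p ≠ 0}.Finite →
      ∃ a : ℕ, ∃ s : F, s ≠ 0 ∧ s ∈ S.RRSpace (fun p => (a : ℤ) * D p - E p)) :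
    ∃ a : ℕ, ∀ k : ℕ, a ≤ k →
      dj * Module.finrank K (S.RRSpace (S.nsmulDiv (k - a) D)) ≤
          Module.finrank K (S.RRSpace (S.nsmulDiv (mj * k) D)) ∧
      Module.finrank K (S.RRSpace (S.nsmulDiv (mj * k) D)) ≤
          dj * Module.finrank K (S.RRSpace (S.nsmulDiv (k + a) D)) := by
  -- a basis of F' over F
  have hb : Module.finrank F cd.F' = dj := cd.finrank_eq
  let b : Module.Basis (Fin dj) F cd.F' := Module.finBasisOfFinrankEq F cd.F' hb
  set P : S.ι → ℤ := cd.cover.poleDiv (fun i => b i) with hP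
  have hP0 : ∀ p, 0 ≤ P p := cd.cover.poleDiv_nonneg _
  have hPfin : {p | P p ≠ 0}.Finite := cd.cover.poleDiv_finite_support _
  obtain ⟨a, s, hs0, hs⟩ := hample P hP0 hPfin
  refine ⟨a, fun k hk => ⟨?_, ?_⟩⟩
  · -- lower
    haveI := hfin k
    haveI := hfin (mj * k)
    -- L(kD - P) finite-dimensional (inside L(kD))
    haveI hfd1 : FiniteDimensional K (S.RRSpace (fun p => S.nsmulDiv k D p - P p)) :=
      Submodule.finiteDimensional_of_le
        (S.RRSpace_mono (E' := S.nsmulDiv k D) (fun p => by have := hP0 p; omega))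
    have h1 : Module.finrank K (S.RRSpace (S.nsmulDiv (k - a) D)) ≤
        Module.finrank K (S.RRSpace (fun p => S.nsmulDiv k D p - P p)) := by
      apply S.finrank_RRSpace_le_of_mem s hs hs0
      intro p
      unfold PDS.nsmulDiv
      have : ((k - a : ℕ) : ℤ) = (k : ℤ) - a := by omega
      rw [this]
      linarith [show ((k : ℤ) - a) * D p + ((a : ℤ) * D p - P p) = (k : ℤ) * D p - P p by ring]
    haveI : FiniteDimensional K (cd.S'.RRSpace (cd.cover.pullback (S.nsmulDiv k D))) :=
      (cd.linEquiv k).symm.finiteDimensional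
    have h2 := LinearMap.finrank_le_finrank_of_injective
      (cd.cover.lowerMap_injective b (S.nsmulDiv k D))
    rw [Module.finrank_pi_fintype, Finset.sum_const, Finset.card_univ, Fintype.card_fin,
      smul_eq_mul] at h2
    rw [(cd.linEquiv k).finrank_eq] at h2
    calc dj * Module.finrank K (S.RRSpace (S.nsmulDiv (k - a) D))
        ≤ dj * Module.finrank K (S.RRSpace (fun p => S.nsmulDiv k D p - P p)) :=
          Nat.mul_le_mul_left _ h1
      _ ≤ _ := h2
  · -- upper
    haveI := hfin (k + a)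
    haveI := hfin (mj * k)
    haveI hfd2 : FiniteDimensional K (S.RRSpace (fun p => S.nsmulDiv k D p + P p)) := by
      apply S.finiteDimensional_RRSpace_of_mem s hs hs0 (E'' := S.nsmulDiv (k + a) D)
      intro p
      unfold PDS.nsmulDiv
      push_cast
      linarith [show (k : ℤ) * D p + P p + ((a : ℤ) * D p - P p) = ((k : ℤ) + a) * D p by ring]
    have h1 : Module.finrank K (S.RRSpace (fun p => S.nsmulDiv k D p + P p)) ≤
        Module.finrank K (S.RRSpace (S.nsmulDiv (k + a) D)) := by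
      apply S.finrank_RRSpace_le_of_mem s hs hs0
      intro p
      unfold PDS.nsmulDiv
      push_cast
      linarith [show (k : ℤ) * D p + P p + ((a : ℤ) * D p - P p) = ((k : ℤ) + a) * D p by ring]
    have h2 := LinearMap.finrank_le_finrank_of_injective
      (cd.cover.upperMap_injective b (S.nsmulDiv k D))
    rw [Module.finrank_pi_fintype, Finset.sum_const, Finset.card_univ, Fintype.card_fin,
      smul_eq_mul] at h2
    rw [(cd.linEquiv k).finrank_eq] at h2
    calc Module.finrank K (S.RRSpace (S.nsmulDiv (mj * k) D))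
        ≤ dj * Module.finrank K (S.RRSpace (fun p => S.nsmulDiv k D p + P p)) := h2
      _ ≤ dj * Module.finrank K (S.RRSpace (S.nsmulDiv (k + a) D)) := Nat.mul_le_mul_left _ h1

/-- **AV5: the degree formula from `H⁰` alone.** -/
theorem degree_eq_pow_of_coverData (S : PDS.{u, v, w} K F) (D : S.ι → ℤ) (g : ℕ)
    (c₁ c₂ : ℝ) (hc₁ : 0 < c₁) (k₀ : ℕ)
    (hfin : ∀ k : ℕ, FiniteDimensional K (S.RRSpace (S.nsmulDiv k D)))
    (hlow : ∀ k : ℕ, k₀ ≤ k →
      c₁ * (k : ℝ) ^ g ≤ (Module.finrank K (S.RRSpace (S.nsmulDiv k D)) : ℝ))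
    (hup : ∀ k : ℕ, k₀ ≤ k →
      (Module.finrank K (S.RRSpace (S.nsmulDiv k D)) : ℝ) ≤ c₂ * (k : ℝ) ^ g)
    (hample : ∀ E : S.ι → ℤ, (∀ p, 0 ≤ E p) → {p | E p ≠ 0}.Finite →
      ∃ a : ℕ, ∃ s : F, s ≠ 0 ∧ s ∈ S.RRSpace (fun p => (a : ℤ) * D p - E p))
    (d m : ℕ) (hm : 0 < m)
    (hcov : ∀ j : ℕ, Nonempty (CoverDatum.{u, v, v', w, w'} S D (d ^ j) (m ^ j))) :
    d = m ^ g := by
  refine degree_eq_pow_of_sandwich g (fun k => Module.finrank K (S.RRSpace (S.nsmulDiv k D)))
    c₁ c₂ hc₁ k₀ hlow hup d m hm ?_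
  intro j
  obtain ⟨cd⟩ := hcov j
  obtain ⟨a, ha⟩ := cd.sandwich S D hfin hample
  exact ⟨a, a, fun k hk => ha k (by omega)⟩

end Fermat.Agent.AV
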