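/-
PROJECT AV (S26 long shot) — AV5 (I1), helper2: the prime divisor system of a scheme.

`X` an integral noetherian scheme whose stalks at the points of codimension one are discrete
valuation rings (e.g. `X` normal; for an abelian variety: helper4's N2a).  Then the points of
codimension one, with Mathlib's `Scheme.ord`, form a `PDS K K(X)`:
* `finite_coheight_one_of_isClosed`: a proper closed subset contains finitely many points of
  codimension one (generic points of its irreducible components);
* `ordAddValuation`: `Scheme.ord · z` as an `AddValuation`;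
* `schemePDS`: the prime divisor system; `schemePDS_ord_apply`.
-/
import Mathlib
import Fermat.Agent.AV.AV5_helper2_PDS

set_option autoImplicit false
set_option linter.style.haveILetI false

open AlgebraicGeometry Order TopologicalSpace CategoryTheory

universe u

namespace Fermat.Agent.AV

open scoped Classical

/-- in an integral noetherian scheme, a proper closed subset contains only finitely many points of
codimension one. -/
theorem finite_coheight_one_of_isClosed (X : Scheme.{u}) [IsIntegral X] [IsNoetherian X]
    (Z : Set X) (hZ : IsClosed Z) (hη : genericPoint X ∉ Z) :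
    {z : X | z ∈ Z ∧ coheight z = 1}.Finite := by
  classical
  obtain ⟨S, hSf, hSc, hSi, hSU⟩ := NoetherianSpace.exists_finite_set_isClosed_irreducible hZ
  -- generic points of the pieces
  let gp : Set X → X := fun t =>
    if h : IsIrreducible t ∧ IsClosed t then (QuasiSober.sober h.1 h.2).choose else genericPoint X
  have hgp : ∀ t ∈ S, IsGenericPoint (gp t) t := by
    intro t ht
    have h : IsIrreducible t ∧ IsClosed t := ⟨hSi t ht, hSc t ht⟩
    simp only [gp, dif_pos h]
    exact (QuasiSober.sober h.1 h.2).choose_spec
  refine (hSf.image gp).subset ?_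
  rintro z ⟨hzZ, hz1⟩
  rw [hSU] at hzZ
  obtain ⟨t, htS, hzt⟩ := hzZ
  refine ⟨t, htS, ?_⟩
  have hg := hgp t htS
  -- `z ≤ gp t`
  have hle : z ≤ gp t := by
    show gp t ⤳ z
    rw [specializes_iff_mem_closure, hg.def]
    exact hzt
  by_contra hne
  have hlt : z < gp t := by
    rw [lt_iff_le_not_ge]
    refine ⟨hle, fun h => hne ?_⟩
    have h1 : z ⤳ gp t := h
    have h2 : gp t ⤳ z := hle
    exact ((h1.antisymm h2).eq).symm
  have h1 := coheight_add_one_le hlt
  rw [hz1] at h1
  have h0 : coheight (gp t) = 0 := by
    have h5 : coheight (gp t) + 1 ≤ 0 + 1 := by simpa using h1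
    have h6 : coheight (gp t) ≤ 0 := (ENat.add_le_add_iff_right (by simp)).mp h5
    exact le_antisymm h6 bot_le
  rw [coheight_eq_zero] at h0
  -- the generic point of `X` specialises to `gp t`
  have h2 : gp t ≤ genericPoint X := by
    show genericPoint X ⤳ gp t
    exact (genericPoint_spec X).specializes trivial
  have h3 : genericPoint X ≤ gp t := h0 h2
  have h4 : genericPoint X ∈ t := by
    have : gp t ⤳ genericPoint X := h3
    rw [specializes_iff_mem_closure, hg.def] at this
    exact this
  exact hη (hSU ▸ ⟨t, htS, h4⟩)

section

variable (X : Scheme.{u}) [IsIntegral X] [IsLocallyNoetherian X]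

theorem scheme_ord_one (z : X) : Scheme.ord (1 : X.functionField) z = 0 := by
  have h := Scheme.ord_mul (x := z) (one_ne_zero (α := X.functionField))
    (one_ne_zero (α := X.functionField))
  rw [one_mul] at h
  omega

/-- the order of vanishing at a codimension-one point with DVR stalk, as an additive valuation. -/
noncomputable def ordAddValuation (z : X) [IsDiscreteValuationRing (X.presheaf.stalk z)] :
    AddValuation X.functionField (WithTop ℤ) :=
  AddValuation.of (fun f => if f = 0 then (⊤ : WithTop ℤ) else ((Scheme.ord f z : ℤ) : WithTop ℤ))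
    (by simp)
    (by
      rw [if_neg one_ne_zero, scheme_ord_one]
      rfl)
    (by
      intro f g
      by_cases hf : f = 0
      · subst hf; simp
      by_cases hg : g = 0
      · subst hg; simp
      by_cases hfg : f + g = 0
      · simp [hfg]
      rw [if_neg hf, if_neg hg, if_neg hfg, ← WithTop.coe_min, WithTop.coe_le_coe]
      exact Scheme.ord_add hfg)
    (by
      intro f g
      by_cases hf : f = 0
      · subst hf; simp
      by_cases hg : g = 0
      · subst hg; simp
      rw [if_neg hf, if_neg hg, if_neg (mul_ne_zero hf hg), ← WithTop.coe_add, Scheme.ord_mul hf hg])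

theorem ordAddValuation_apply (z : X) [IsDiscreteValuationRing (X.presheaf.stalk z)]
    {f : X.functionField} (hf : f ≠ 0) :
    ordAddValuation X z f = ((Scheme.ord f z : ℤ) : WithTop ℤ) := by
  simp [ordAddValuation, AddValuation.of_apply, hf]

theorem exists_scheme_ord_eq_one (z : X) (hz : coheight z = 1)
    [IsDiscreteValuationRing (X.presheaf.stalk z)] :
    ∃ x : X.functionField, x ≠ 0 ∧ Scheme.ord x z = 1 := by
  obtain ⟨ϖ, hϖ⟩ := IsDiscreteValuationRing.exists_irreducible (X.presheaf.stalk z)
  refine ⟨algebraMap (X.presheaf.stalk z) X.functionField ϖ, ?_, ?_⟩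
  · rw [Ne, map_eq_zero_iff _ (IsFractionRing.injective (X.presheaf.stalk z) X.functionField)]
    exact hϖ.ne_zero
  · have hne : algebraMap (X.presheaf.stalk z) X.functionField ϖ ≠ 0 := by
      rw [Ne, map_eq_zero_iff _ (IsFractionRing.injective (X.presheaf.stalk z) X.functionField)]
      exact hϖ.ne_zero
    rw [Scheme.ord_eq_iff hz hne]
    have := Ring.ordFrac_irreducible (R := X.presheaf.stalk z) (K := X.functionField) hϖ
    rw [WithZero.exp_eq_coe_ofAdd] at this
    exact this

end

section PDSofScheme

variable {K : Type u} [Field K] (X : Scheme.{u}) [IsIntegral X] [IsNoetherian X]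
  [Algebra K X.functionField]

/-- **The prime divisor system of an integral noetherian scheme** whose codimension-one stalks are
discrete valuation rings (e.g. a normal scheme). -/
noncomputable def schemePDS
    (hDVR : ∀ z : X, coheight z = 1 → IsDiscreteValuationRing (X.presheaf.stalk z))
    (hK : ∀ c : K, c ≠ 0 → ∀ z : X, coheight z = 1 →
      Scheme.ord (algebraMap K X.functionField c) z = 0) :
    PDS.{u, u, u} K X.functionField where
  ι := {z : X // coheight z = 1}
  ord z := haveI := hDVR z.1 z.2; ordAddValuation X z.1
  ord_algebraMap := by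
    intro z c hc
    haveI := hDVR z.1 z.2
    have hne : algebraMap K X.functionField c ≠ 0 := by
      rwa [Ne, map_eq_zero]
    rw [ordAddValuation_apply X z.1 hne, hK c hc z.1 z.2]
    rfl
  finite_support := by
    intro f hf
    obtain ⟨U, _, f', hne, hf', hunit⟩ := exists_isUnit_germ_eq X f hf
    have hη : genericPoint X ∉ ((U : Set X)ᶜ) := by
      intro h
      apply h
      exact ((genericPoint_spec X).mem_open_set_iff U.isOpen).mpr (by simpa using hne)
    have hfin := finite_coheight_one_of_isClosed X ((U : Set X)ᶜ) U.isOpen.isClosed_compl hη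
    refine (hfin.preimage (Subtype.val_injective.injOn)).subset ?_
    intro z hz
    haveI := hDVR z.1 z.2
    refine ⟨?_, z.2⟩
    intro hzU
    apply hz
    rw [ordAddValuation_apply X z.1 hf, ← hf', Scheme.ord_of_isUnit hunit hzU]
    rfl
  exists_uniformizer := by
    intro z
    haveI := hDVR z.1 z.2
    obtain ⟨x, hx, h1⟩ := exists_scheme_ord_eq_one X z.1 z.2
    refine ⟨x, ?_⟩
    rw [ordAddValuation_apply X z.1 hx, h1]
    rfl

theorem schemePDS_ord_apply
    (hDVR : ∀ z : X, coheight z = 1 → IsDiscreteValuationRing (X.presheaf.stalk z))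
    (hK : ∀ c : K, c ≠ 0 → ∀ z : X, coheight z = 1 →
      Scheme.ord (algebraMap K X.functionField c) z = 0)
    (z : (schemePDS X hDVR hK).ι) {f : X.functionField} (hf : f ≠ 0) :
    (schemePDS X hDVR hK).ord z f = ((Scheme.ord f z.1 : ℤ) : WithTop ℤ) := by
  haveI := hDVR z.1 z.2
  exact ordAddValuation_apply X z.1 hf

/-- constants have order zero as soon as the `K`-structure of the function field factors through
global sections. -/
theorem scheme_ord_algebraMap_eq_zero (φ : K →+* Γ(X, ⊤))
    (hφ : ∀ c, algebraMap K X.functionField c =
      (X.germToFunctionField ⊤ (h := ⟨⟨genericPoint X, trivial⟩⟩)) (φ c))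
    (c : K) (hc : c ≠ 0) (z : X) (_hz : coheight z = 1) :
    Scheme.ord (algebraMap K X.functionField c) z = 0 := by
  haveI : Nonempty (⊤ : X.Opens) := ⟨⟨genericPoint X, trivial⟩⟩
  rw [hφ]
  exact Scheme.ord_of_isUnit ((IsUnit.mk0 c hc).map φ) (x := z) trivial

end PDSofScheme

end Fermat.Agent.AV
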