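/-
PROJECT AV (S26 long shot) — AV5, helper2: the trace-integrality field of `FiniteCover` from
integrality.  If every `y ∈ F₂` regular along all prime divisors over `p` is integral over the
valuation ring `O_p ⊂ F₁` (true when `φ` is finite and the base is normal: `O_p`'s integral
closure in `F₂` is the intersection of the valuation rings of the prime divisors over `p`), then
`FiniteCover.trace_nonneg` holds.
-/
import Mathlib
import Fermat.Agent.AV.AV5_helper2_Sandwich

set_option autoImplicit false

universe u v₁ v₂ w₁ w₂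

namespace Fermat.Agent.AV

variable {K : Type u} {F₁ : Type v₁} {F₂ : Type v₂} [Field K] [Field F₁] [Field F₂]
  [Algebra K F₁] [Algebra K F₂] [Algebra F₁ F₂] [IsScalarTower K F₁ F₂]

/-- the valuation ring of a prime divisor. -/
def PDS.integerSubring (S : PDS.{u, v₁, w₁} K F₁) (p : S.ι) : Subring F₁ :=
  (AddValuation.toValuation (S.ord p)).integer

theorem PDS.mem_integerSubring (S : PDS.{u, v₁, w₁} K F₁) (p : S.ι) (x : F₁) :
    x ∈ S.integerSubring p ↔ (0 : WithTop ℤ) ≤ S.ord p x := by
  unfold PDS.integerSubring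
  rw [Valuation.mem_integer_iff]
  rfl

/-- the trace of an element integral over `O_p` is regular along `p`. -/
theorem PDS.trace_nonneg_of_isIntegral (S₁ : PDS.{u, v₁, w₁} K F₁) [FiniteDimensional F₁ F₂]
    (p : S₁.ι) (y : F₂) (hy : IsIntegral (S₁.integerSubring p) y) :
    (0 : WithTop ℤ) ≤ S₁.ord p (Algebra.trace F₁ F₂ y) := by
  have h1 : IsIntegral (S₁.integerSubring p) (Algebra.trace F₁ F₂ y) :=
    Algebra.isIntegral_trace (R := S₁.integerSubring p) (L := F₁) (F := F₂) hy
  have h2 := (Valuation.integer.integers (AddValuation.toValuation (S₁.ord p))).mem_of_integral h1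
  exact (S₁.mem_integerSubring p _).mp h2

/-- constructor of a finite cover from the integrality criterion. -/
def FiniteCover.ofIsIntegral {S₁ : PDS.{u, v₁, w₁} K F₁} {S₂ : PDS.{u, v₂, w₂} K F₂}
    [FiniteDimensional F₁ F₂]
    (push : S₂.ι → S₁.ι) (e : S₂.ι → ℕ) (e_pos : ∀ q, 0 < e q)
    (ord_algebraMap : ∀ (q : S₂.ι) (x : F₁),
      S₂.ord q (algebraMap F₁ F₂ x) = e q • S₁.ord (push q) x)
    (integral : ∀ (p : S₁.ι) (y : F₂), (∀ q, push q = p → (0 : WithTop ℤ) ≤ S₂.ord q y) →
      IsIntegral (S₁.integerSubring p) y) :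
    FiniteCover S₁ S₂ where
  push := push
  e := e
  e_pos := e_pos
  ord_algebraMap := ord_algebraMap
  trace_nonneg p y hy := S₁.trace_nonneg_of_isIntegral p y (integral p y hy)

end Fermat.Agent.AV
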