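/-
PROJECT AV (S26 long shot) — CHAIN (helper9), link (C2): the `linEquiv` field of helper2's
`CoverDatum` from a rational function with prescribed divisor.  Pure PDS algebra.

Setting: `S` a prime divisor system on `F`, `S'` one on `F'`, `cover : FiniteCover S S'`
(so `F'` is an `F`-algebra: think `φ^* : K(A) → K(A)` for `φ = [n^j]`), and an identification
`ψ : F' ≃ₐ[K] F`, `σ : S'.ι ≃ S.ι` of the UPSTAIRS model with the downstairs one (for `φ : A → A`
both are `K(A)` with its codimension-one points; `ψ = id`, `σ = id`).  If `h ≠ 0` in `F` satisfies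
`div h = φ^* D − N·D` (which is what an isomorphism `φ^* O(D) ≅ O(D)^N` of line bundles gives), then
multiplication by `h^k` is an isomorphism `L'(φ^*(kD)) ≃ L((N k) D)`.
-/
import Mathlib
import Fermat.Agent.AV.AV5_helper2_Degree

set_option autoImplicit false

universe u v v' w w'

namespace Fermat.Agent.AV

open scoped Classical

namespace PDS

variable {K : Type u} {F : Type v} [Field K] [Field F] [Algebra K F] (S : PDS.{u, v, w} K F)

/-- multiplication by a function `h` with `div h = E − E'` is an isomorphism `L(E) ≃ L(E')`. -/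
noncomputable def mulEquivOfDiv (E E' : S.ι → ℤ) (h : F) (hh : h ≠ 0)
    (hdiv : ∀ p, S.ord p h = ((E p - E' p : ℤ) : WithTop ℤ)) :
    S.RRSpace E ≃ₗ[K] S.RRSpace E' where
  toFun f := ⟨f.1 * h, by
    intro p
    rw [(S.ord p).map_mul, hdiv p]
    have h1 := f.2 p
    calc ((-(E' p) : ℤ) : WithTop ℤ) = ((-(E p) : ℤ) : WithTop ℤ) + ((E p - E' p : ℤ) : WithTop ℤ) := by
          rw [← WithTop.coe_add]; congr 1; ring
      _ ≤ S.ord p f.1 + ((E p - E' p : ℤ) : WithTop ℤ) := by gcongr⟩
  invFun f := ⟨f.1 * h⁻¹, by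
    intro p
    have hinv : S.ord p h⁻¹ = ((E' p - E p : ℤ) : WithTop ℤ) := by
      rw [AddValuation.map_inv, hdiv p]
      have e : (-(((E p - E' p : ℤ)) : WithTop ℤ)) = ((-(E p - E' p) : ℤ) : WithTop ℤ) := rfl
      rw [e]
      congr 1; ring
    rw [(S.ord p).map_mul, hinv]
    have h1 := f.2 p
    calc ((-(E p) : ℤ) : WithTop ℤ) = ((-(E' p) : ℤ) : WithTop ℤ) + ((E' p - E p : ℤ) : WithTop ℤ) := by
          rw [← WithTop.coe_add]; congr 1; ring
      _ ≤ S.ord p f.1 + ((E' p - E p : ℤ) : WithTop ℤ) := by gcongr⟩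
  map_add' a b := Subtype.ext (by simp [add_mul])
  map_smul' c a := Subtype.ext (by simp [Algebra.smul_def, mul_assoc])
  left_inv f := Subtype.ext (by simp [mul_assoc, mul_inv_cancel₀ hh])
  right_inv f := Subtype.ext (by simp [mul_assoc, inv_mul_cancel₀ hh])

variable {F' : Type v'} [Field F'] [Algebra K F'] (S' : PDS.{u, v', w'} K F')

/-- transport of Riemann–Roch spaces along an identification of two models. -/
noncomputable def transportEquiv (ψ : F' ≃ₐ[K] F) (σ : S'.ι ≃ S.ι)
    (hψ : ∀ q x, S'.ord q x = S.ord (σ q) (ψ x)) (E' : S'.ι → ℤ) (E : S.ι → ℤ)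
    (hE : ∀ q, E' q = E (σ q)) :
    S'.RRSpace E' ≃ₗ[K] S.RRSpace E where
  toFun f := ⟨ψ f.1, by
    intro p
    obtain ⟨q, rfl⟩ := σ.surjective p
    rw [← hψ, ← hE]
    exact f.2 q⟩
  invFun f := ⟨ψ.symm f.1, by
    intro q
    rw [hψ, hE, AlgEquiv.apply_symm_apply]
    exact f.2 (σ q)⟩
  map_add' a b := Subtype.ext (by simp)
  map_smul' c a := Subtype.ext (by simp)
  left_inv f := Subtype.ext (by simp)
  right_inv f := Subtype.ext (by simp)

end PDS

section Cover

variable {K : Type u} {F : Type v} {F' : Type v'} [Field K] [Field F] [Field F'] [Algebra K F]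
  [Algebra K F'] [Algebra F F'] [IsScalarTower K F F']
  {S : PDS.{u, v, w} K F} {S' : PDS.{u, v', w'} K F'}

/-- **(C2)** the `linEquiv` of a `CoverDatum` from a function `h` with `div h = φ^*D − N·D`. -/
noncomputable def linEquivOfPrincipal (cover : FiniteCover S S') (ψ : F' ≃ₐ[K] F)
    (σ : S'.ι ≃ S.ι) (hψ : ∀ q x, S'.ord q x = S.ord (σ q) (ψ x)) (D : S.ι → ℤ) (N : ℕ)
    (h : F) (hh : h ≠ 0)
    (hdiv : ∀ q : S'.ι, S.ord (σ q) h = ((cover.pullback D q - (N : ℤ) * D (σ q) : ℤ) : WithTop ℤ))
    (k : ℕ) :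
    S'.RRSpace (cover.pullback (S.nsmulDiv k D)) ≃ₗ[K] S.RRSpace (S.nsmulDiv (N * k) D) :=
  (PDS.transportEquiv S S' ψ σ hψ (cover.pullback (S.nsmulDiv k D))
      (fun p => cover.pullback (S.nsmulDiv k D) (σ.symm p)) (fun q => by simp)).trans
    (S.mulEquivOfDiv _ _ (h ^ k) (pow_ne_zero k hh) (by
      intro p
      obtain ⟨q, rfl⟩ := σ.surjective p
      rw [AddValuation.map_pow, hdiv q, ← WithTop.coe_nsmul]
      congr 1
      simp only [Equiv.symm_apply_apply, FiniteCover.pullback, PDS.nsmulDiv, nsmul_eq_mul]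
      push_cast
      ring))

end Cover

/-- a `CoverDatum` without its `linEquiv`, plus an identification `(ψ, σ)` of the upstairs model
`(F', S')` with the downstairs model `(F, S)` (for an isogeny `φ : A → A` both are `K(A)` with its
codimension-one points).  This is what the scheme side (helper6's cover assembly) produces. -/
structure CoverCore {K : Type u} {F : Type v} [Field K] [Field F] [Algebra K F]
    (S : PDS.{u, v, w} K F) (dj : ℕ) where
  /-- the function field upstairs -/
  F' : Type v'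
  [instField : Field F']
  [instAlgK : Algebra K F']
  [instAlg : Algebra F F']
  [instTower : IsScalarTower K F F']
  [instFin : FiniteDimensional F F']
  [instSep : Algebra.IsSeparable F F']
  /-- the prime divisors upstairs -/
  S' : PDS.{u, v', w'} K F'
  cover : FiniteCover S S'
  finrank_eq : Module.finrank F F' = dj
  /-- identification of the two function fields (as `K`-algebras, NOT as `F`-algebras) -/
  ψ : F' ≃ₐ[K] F
  /-- identification of the prime divisors -/
  σ : S'.ι ≃ S.ι
  hψ : ∀ q x, S'.ord q x = S.ord (σ q) (ψ x)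

attribute [instance] CoverCore.instField CoverCore.instAlgK CoverCore.instAlg
  CoverCore.instTower CoverCore.instFin CoverCore.instSep

/-- **(C2')** completing a `CoverCore` to a `CoverDatum` with a function `h`, `div h = φ^*D − N·D`. -/
noncomputable def CoverCore.toCoverDatum {K : Type u} {F : Type v} [Field K] [Field F] [Algebra K F]
    {S : PDS.{u, v, w} K F} {dj : ℕ} (c : CoverCore.{u, v, v', w, w'} S dj) (D : S.ι → ℤ) (N : ℕ)
    (h : F) (hh : h ≠ 0)
    (hdiv : ∀ q : c.S'.ι,
      S.ord (c.σ q) h = ((c.cover.pullback D q - (N : ℤ) * D (c.σ q) : ℤ) : WithTop ℤ)) :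
    CoverDatum.{u, v, v', w, w'} S D dj N where
  F' := c.F'
  S' := c.S'
  cover := c.cover
  finrank_eq := c.finrank_eq
  linEquiv := linEquivOfPrincipal c.cover c.ψ c.σ c.hψ D N h hh hdiv

end Fermat.Agent.AV
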