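/-
PROJECT AV (S26) — helper6 — AV5/AV6 glue: **the finite cover of prime divisor systems defined by
a finite flat morphism, and helper9's `CoverCore` for `[n ^ j]`**.

* `pdsOf sX hX` : helper2's `schemePDS X hX _` for the `K`-structure `functionFieldAlgebra sX`
  (`pdsOf_ord_apply`); `algebra_eq_functionFieldAlgebra` (any `Algebra K K(X)` with the same
  `algebraMap` IS `functionFieldAlgebra sX`);
* `pdsVia φ hφ sY hX` : the same for the source, on `FunctionFieldVia φ hφ` with `algebraBase`;
* `pushPrime φ`, `ramIdx φ hφ hX hY`, `ord_functionFieldMap_eq_ramIdx_mul`;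
* **`coverOf φ hφ sY hX hY : FiniteCover (pdsOf sY hY) (pdsVia φ hφ sY hX)`** for `φ` finite flat
  (`FiniteCover.ofIsIntegral` + (F1)–(F3) of `AV1_helper6_Valuation` + helper4's N2b);
* for an endomorphism `φ` of `A` over `K`: `viaAlgEquiv`, `viaIdxEquiv`, `pdsVia_ord_eq`,
  `rrSpaceViaEquiv`, `coverDatumOf` (helper2's `CoverDatum` from a given `linEquiv`),
  **`coverCoreOf`** (helper9's `CoverCore`), `coverCoreOf_push/_σ_apply/_ord/_pullback_apply`;
* **`coverCore_nMap G g hG n hn j : CoverCore (pdsOf G.hom hG) (rank[n] ^ j)`** with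
  `coverCore_nMap_push`, `coverCore_nMap_σ_apply`, `coverCore_nMap_ord`.
-/
import Mathlib
import Fermat.Agent.AV.AV1_helper6_Valuation
import Fermat.Agent.AV.AV0_helper4_Hartogs
import Fermat.Agent.AV.AV5_helper2_SchemePDS
import Fermat.Agent.AV.AV5_helper2_Trace
import Fermat.Agent.AV.AV5_helper2_Degree
import Fermat.Agent.AV.CHAIN_helper9_LinEquiv

set_option autoImplicit false
set_option linter.style.haveILetI false
set_option linter.unusedSectionVars false
open CategoryTheory CategoryTheory.Limits AlgebraicGeometry Order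
open MonoidalCategory CartesianMonoidalCategory MonObj
universe u

namespace Fermat.Agent.AV

section PDSof

variable {K : Type u} [Field K] {X : Scheme.{u}} [IsIntegral X] [IsNoetherian X]

/-- constants have order zero along every prime divisor. -/
theorem ord_functionFieldStr_eq_zero (sX : X ⟶ Spec (CommRingCat.of K)) (c : K) (hc : c ≠ 0)
    (z : X) (hz : coheight z = 1) : Scheme.ord ((functionFieldStr sX).hom c) z = 0 := by
  letI := functionFieldAlgebra sX
  exact scheme_ord_algebraMap_eq_zero (K := K) X
    ((sX.appTop.hom).comp (Scheme.ΓSpecIso (CommRingCat.of K)).inv.hom) (fun c => rfl) c hc z hz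

/-- the prime divisor system of an integral noetherian `K`-scheme with DVR stalks in codimension
one, for the `K`-structure `functionFieldAlgebra sX` on `K(X)`. -/
noncomputable def pdsOf (sX : X ⟶ Spec (CommRingCat.of K))
    (hX : ∀ z : X, coheight z = 1 → IsDiscreteValuationRing (X.presheaf.stalk z)) :
    @PDS.{u, u, u} K X.functionField _ _ (functionFieldAlgebra sX) :=
  letI := functionFieldAlgebra sX
  schemePDS X hX (fun c hc z hz => ord_functionFieldStr_eq_zero sX c hc z hz)

theorem pdsOf_ord_apply (sX : X ⟶ Spec (CommRingCat.of K))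
    (hX : ∀ z : X, coheight z = 1 → IsDiscreteValuationRing (X.presheaf.stalk z))
    (z : {z : X // coheight z = 1}) {f : X.functionField} (hf : f ≠ 0) :
    letI := functionFieldAlgebra sX
    (pdsOf sX hX).ord z f = ((Scheme.ord f z.1 : ℤ) : WithTop ℤ) := by
  letI := functionFieldAlgebra sX
  exact schemePDS_ord_apply X hX _ z hf


/-- a `K`-algebra structure on `K(X)` with the natural `algebraMap` is `functionFieldAlgebra sX`. -/
theorem algebra_eq_functionFieldAlgebra (sX : X ⟶ Spec (CommRingCat.of K))
    (inst : Algebra K X.functionField)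
    (halg : ∀ c : K, @algebraMap K X.functionField _ _ inst c = (functionFieldStr sX).hom c) :
    inst = functionFieldAlgebra sX :=
  Algebra.algebra_ext _ _ halg

end PDSof

section Cover

variable {K : Type u} [Field K] {X Y : Scheme.{u}} [IsIntegral X] [IsIntegral Y]
  [IsNoetherian X] [IsNoetherian Y]
  (φ : X ⟶ Y) (hφ : φ (genericPoint X) = genericPoint Y) (sY : Y ⟶ Spec (CommRingCat.of K))
  (hX : ∀ z : X, coheight z = 1 → IsDiscreteValuationRing (X.presheaf.stalk z))
  (hY : ∀ z : Y, coheight z = 1 → IsDiscreteValuationRing (Y.presheaf.stalk z))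

/-- the prime divisor system of the source, on `FunctionFieldVia φ hφ`, for the `K`-structure
induced from the base. -/
noncomputable def pdsVia :
    @PDS.{u, u, u} K (FunctionFieldVia φ hφ) _ _ (FunctionFieldVia.algebraBase φ hφ sY) :=
  pdsOf (φ ≫ sY) hX

theorem pdsVia_ord_apply (z : {z : X // coheight z = 1}) {f : FunctionFieldVia φ hφ}
    (hf : f ≠ 0) :
    letI := FunctionFieldVia.algebraBase φ hφ sY
    (pdsVia φ hφ sY hX).ord z f = ((Scheme.ord (X := X) f z.1 : ℤ) : WithTop ℤ) :=
  pdsOf_ord_apply (φ ≫ sY) hX z hf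

/-- finite flat covers induce finite function field extensions. -/
theorem FunctionFieldVia.finiteDimensional_of_flat [Flat φ] [IsFinite φ] :
    FiniteDimensional Y.functionField (FunctionFieldVia φ hφ) := by
  apply Module.finite_of_finrank_pos
  rw [FunctionFieldVia.finrank_eq φ hφ (φ (genericPoint X))]
  exact Scheme.Hom.one_le_finrank_map φ (genericPoint X)


/-- the image of a prime divisor under a finite flat cover. -/
noncomputable def pushPrime [IsFinite φ] [Flat φ] (q : {z : X // coheight z = 1}) :
    {z : Y // coheight z = 1} :=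
  ⟨φ q.1, by rw [coheight_map_eq]; exact q.2⟩

include hX hY in
theorem exists_ramification [IsFinite φ] [Flat φ] (q : {z : X // coheight z = 1}) :
    ∃ e : ℕ, 0 < e ∧ ∀ x : Y.functionField, x ≠ 0 →
      Scheme.ord ((functionFieldMap φ hφ).hom x) q.1 = e * Scheme.ord x (φ q.1) := by
  have h1 := hX q.1 q.2
  have h2 := hY (φ q.1) (pushPrime φ q).2
  exact ord_functionFieldMap φ hφ q.1 q.2 (pushPrime φ q).2

/-- the ramification index of a finite flat cover along a prime divisor. -/
noncomputable def ramIdx [IsFinite φ] [Flat φ] (q : {z : X // coheight z = 1}) : ℕ :=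
  (exists_ramification φ hφ hX hY q).choose

theorem ramIdx_pos [IsFinite φ] [Flat φ] (q : {z : X // coheight z = 1}) :
    0 < ramIdx φ hφ hX hY q :=
  (exists_ramification φ hφ hX hY q).choose_spec.1

theorem ord_functionFieldMap_eq_ramIdx_mul [IsFinite φ] [Flat φ] (q : {z : X // coheight z = 1})
    (x : Y.functionField) (hx : x ≠ 0) :
    Scheme.ord ((functionFieldMap φ hφ).hom x) q.1 =
      ramIdx φ hφ hX hY q * Scheme.ord x (φ q.1) :=
  (exists_ramification φ hφ hX hY q).choose_spec.2 x hx

/-- elements of the local ring of a prime divisor are regular along it. -/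
theorem pdsOf_ord_algebraMap_stalk_nonneg (p : {z : Y // coheight z = 1})
    (a : Y.presheaf.stalk p.1) :
    letI := functionFieldAlgebra sY
    (0 : WithTop ℤ) ≤ (pdsOf sY hY).ord p (algebraMap (Y.presheaf.stalk p.1) Y.functionField a) := by
  letI := functionFieldAlgebra sY
  by_cases h0 : algebraMap (Y.presheaf.stalk p.1) Y.functionField a = 0
  · rw [h0, AddValuation.map_zero]
    exact le_top
  · rw [pdsOf_ord_apply sY hY p h0]
    have := hY p.1 p.2
    rcases (mem_range_stalk_iff_ord p.1 p.2 _).mp ⟨a, rfl⟩ with h | h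
    · exact absurd h h0
    · exact_mod_cast h

/-- **the finite cover of prime divisor systems defined by a finite flat morphism** of integral
noetherian schemes with DVR stalks in codimension one. -/
noncomputable def coverOf [IsFinite φ] [Flat φ] :
    letI := functionFieldAlgebra sY
    letI := FunctionFieldVia.algebraBase φ hφ sY
    haveI := FunctionFieldVia.isScalarTower_base φ hφ sY
    FiniteCover (pdsOf sY hY) (pdsVia φ hφ sY hX) :=
  letI := functionFieldAlgebra sY
  letI := FunctionFieldVia.algebraBase φ hφ sY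
  haveI := FunctionFieldVia.isScalarTower_base φ hφ sY
  haveI := FunctionFieldVia.finiteDimensional_of_flat φ hφ
  FiniteCover.ofIsIntegral (S₁ := pdsOf sY hY) (S₂ := pdsVia φ hφ sY hX)
    (pushPrime φ) (ramIdx φ hφ hX hY) (ramIdx_pos φ hφ hX hY)
    (by
      intro q x
      by_cases hx : x = 0
      · subst hx
        rw [map_zero, AddValuation.map_zero, AddValuation.map_zero]
        obtain ⟨k, hk⟩ := Nat.exists_eq_succ_of_ne_zero (ramIdx_pos φ hφ hX hY q).ne'
        rw [hk, succ_nsmul, WithTop.add_top]
      · have hx' : algebraMap Y.functionField (FunctionFieldVia φ hφ) x ≠ 0 := by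
          rwa [Ne, map_eq_zero]
        rw [pdsVia_ord_apply φ hφ sY hX q hx', pdsOf_ord_apply sY hY _ hx,
          ← WithTop.coe_nsmul]
        congr 1
        rw [nsmul_eq_mul]
        exact ord_functionFieldMap_eq_ramIdx_mul φ hφ hX hY q x hx)
    (by
      intro p y hy
      have hdvr : ∀ q : X, φ q = p.1 → IsDiscreteValuationRing (X.presheaf.stalk q) := by
        intro q hq
        apply hX
        rw [← coheight_map_eq φ q, hq]
        exact p.2
      have hord : ∀ q : X, φ q = p.1 → y ≠ 0 → 0 ≤ Scheme.ord (X := X) y q := by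
        intro q hq hy0
        have hq1 : coheight q = 1 := by
          rw [← coheight_map_eq φ q, hq]
          exact p.2
        have h1 := hy ⟨q, hq1⟩ (Subtype.ext hq)
        rw [pdsVia_ord_apply φ hφ sY hX ⟨q, hq1⟩ hy0] at h1
        exact_mod_cast h1
      obtain ⟨P, hP, hPe⟩ := isIntegralElem_of_forall_ord_nonneg φ hφ p.1 p.2 hdvr y hord
      -- transport the monic equation to the valuation ring of `p`
      let ψ : Y.presheaf.stalk p.1 →+* (pdsOf sY hY).integerSubring p :=
        (algebraMap (Y.presheaf.stalk p.1) Y.functionField).codRestrict _ (fun a =>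
          ((pdsOf sY hY).mem_integerSubring p _).mpr
            (pdsOf_ord_algebraMap_stalk_nonneg sY hY p a))
      refine ⟨P.map ψ, hP.map ψ, ?_⟩
      rw [Polynomial.eval₂_map]
      exact hPe)


theorem coverOf_push [IsFinite φ] [Flat φ] (q : {z : X // coheight z = 1}) :
    letI := functionFieldAlgebra sY
    letI := FunctionFieldVia.algebraBase φ hφ sY
    haveI := FunctionFieldVia.isScalarTower_base φ hφ sY
    (coverOf φ hφ sY hX hY).push q = pushPrime φ q := rfl

theorem coverOf_e [IsFinite φ] [Flat φ] (q : {z : X // coheight z = 1}) :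
    letI := functionFieldAlgebra sY
    letI := FunctionFieldVia.algebraBase φ hφ sY
    haveI := FunctionFieldVia.isScalarTower_base φ hφ sY
    (coverOf φ hφ sY hX hY).e q = ramIdx φ hφ hX hY q := rfl

theorem coverOf_pullback_apply [IsFinite φ] [Flat φ] (E : {z : Y // coheight z = 1} → ℤ)
    (q : {z : X // coheight z = 1}) :
    letI := functionFieldAlgebra sY
    letI := FunctionFieldVia.algebraBase φ hφ sY
    haveI := FunctionFieldVia.isScalarTower_base φ hφ sY
    (coverOf φ hφ sY hX hY).pullback E q = (ramIdx φ hφ hX hY q : ℤ) * E (pushPrime φ q) := rfl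

end Cover


section Endo

variable {K : Type u} [Field K] {A : Scheme.{u}} [IsIntegral A] [IsNoetherian A]
  (sA : A ⟶ Spec (CommRingCat.of K))
  (hA : ∀ z : A, coheight z = 1 → IsDiscreteValuationRing (A.presheaf.stalk z))
  (φ : A ⟶ A) (hφ : φ (genericPoint A) = genericPoint A)

theorem algebraMap_via_eq (hφK : φ ≫ sA = sA) (c : K) :
    letI := functionFieldAlgebra sA
    letI := FunctionFieldVia.algebraBase φ hφ sA
    (algebraMap K (FunctionFieldVia φ hφ) c : A.functionField) = algebraMap K A.functionField c := by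
  show (functionFieldStr (φ ≫ sA)).hom c = (functionFieldStr sA).hom c
  rw [hφK]


/-- the Riemann–Roch spaces do not depend on the (propositionally equal) structure map. -/
noncomputable def rrSpaceCongr {s s' : A ⟶ Spec (CommRingCat.of K)} (h : s = s')
    (E : {z : A // coheight z = 1} → ℤ) :
    (letI := functionFieldAlgebra s; ↥((pdsOf s hA).RRSpace E)) ≃ₗ[K]
      (letI := functionFieldAlgebra s'; ↥((pdsOf s' hA).RRSpace E)) := by
  subst h
  exact LinearEquiv.refl _ _

theorem rrSpaceCongr_apply {s s' : A ⟶ Spec (CommRingCat.of K)} (h : s = s')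
    (E : {z : A // coheight z = 1} → ℤ)
    (f : letI := functionFieldAlgebra s; ↥((pdsOf s hA).RRSpace E)) :
    (rrSpaceCongr hA h E f).1 = f.1 := by
  subst h
  rfl


/-- for an endomorphism `φ` of `A` over `K`, the Riemann–Roch spaces of the source (in
`FunctionFieldVia φ hφ`) are those of `A`. -/
noncomputable def rrSpaceViaEquiv (hφK : φ ≫ sA = sA) (E : {z : A // coheight z = 1} → ℤ) :
    (letI := FunctionFieldVia.algebraBase φ hφ sA; ↥((pdsVia φ hφ sA hA).RRSpace E)) ≃ₗ[K]
      (letI := functionFieldAlgebra sA; ↥((pdsOf sA hA).RRSpace E)) :=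
  rrSpaceCongr hA hφK E

theorem rrSpaceViaEquiv_apply (hφK : φ ≫ sA = sA) (E : {z : A // coheight z = 1} → ℤ)
    (f : letI := FunctionFieldVia.algebraBase φ hφ sA; ↥((pdsVia φ hφ sA hA).RRSpace E)) :
    (rrSpaceViaEquiv sA hA φ hφ hφK E f).1 = f.1 :=
  rrSpaceCongr_apply hA hφK E f


/-- **`CoverDatum` minus `linEquiv`** for a finite etale endomorphism `φ` of `A` over `K`. -/
noncomputable def coverDatumOf [IsFinite φ] [Etale φ] (D : {z : A // coheight z = 1} → ℤ)
    (dj mj : ℕ) (y : A) (hd : φ.finrank y = dj)
    (lin : ∀ k : ℕ,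
      letI := functionFieldAlgebra sA
      letI := FunctionFieldVia.algebraBase φ hφ sA
      haveI := FunctionFieldVia.isScalarTower_base φ hφ sA
      (pdsVia φ hφ sA hA).RRSpace
          ((coverOf φ hφ sA hA hA).pullback ((pdsOf sA hA).nsmulDiv k D)) ≃ₗ[K]
        (pdsOf sA hA).RRSpace ((pdsOf sA hA).nsmulDiv (mj * k) D)) :
    letI := functionFieldAlgebra sA
    CoverDatum.{u, u, u, u, u} (pdsOf sA hA) D dj mj :=
  letI := functionFieldAlgebra sA
  { F' := FunctionFieldVia φ hφ
    instField := inferInstance
    instAlgK := FunctionFieldVia.algebraBase φ hφ sA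
    instAlg := inferInstance
    instTower := FunctionFieldVia.isScalarTower_base φ hφ sA
    instFin := inferInstance
    instSep := inferInstance
    S' := pdsVia φ hφ sA hA
    cover := coverOf φ hφ sA hA hA
    finrank_eq := (FunctionFieldVia.finrank_eq φ hφ y).trans hd
    linEquiv := lin }


/-- the identity `K(A) = K(A)` as a `K`-algebra isomorphism from the source model
(`FunctionFieldVia φ hφ`, `K`-structure through `φ ≫ sA`) to the target model. -/
noncomputable def viaAlgEquiv (hφK : φ ≫ sA = sA) :
    letI := functionFieldAlgebra sA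
    letI := FunctionFieldVia.algebraBase φ hφ sA
    FunctionFieldVia φ hφ ≃ₐ[K] A.functionField :=
  letI := functionFieldAlgebra sA
  letI := FunctionFieldVia.algebraBase φ hφ sA
  { RingEquiv.refl A.functionField with
    commutes' := fun c => algebraMap_via_eq sA φ hφ hφK c }

theorem viaAlgEquiv_apply (hφK : φ ≫ sA = sA) (x : FunctionFieldVia φ hφ) :
    letI := functionFieldAlgebra sA
    letI := FunctionFieldVia.algebraBase φ hφ sA
    viaAlgEquiv sA φ hφ hφK x = (x : A.functionField) := rfl

theorem pdsVia_ord_eq (q : {z : A // coheight z = 1}) (x : FunctionFieldVia φ hφ) :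
    letI := functionFieldAlgebra sA
    letI := FunctionFieldVia.algebraBase φ hφ sA
    (pdsVia φ hφ sA hA).ord q x = (pdsOf sA hA).ord q (x : A.functionField) := by
  letI := functionFieldAlgebra sA
  letI := FunctionFieldVia.algebraBase φ hφ sA
  by_cases hx : x = 0
  · subst hx
    rw [AddValuation.map_zero]
    exact (AddValuation.map_zero ((pdsOf sA hA).ord q)).symm
  · rw [pdsVia_ord_apply φ hφ sA hA q hx]
    exact (pdsOf_ord_apply sA hA q hx).symm


/-- the identity on prime divisors, from the source model to the target model. -/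
noncomputable def viaIdxEquiv :
    letI := functionFieldAlgebra sA
    letI := FunctionFieldVia.algebraBase φ hφ sA
    (pdsVia φ hφ sA hA).ι ≃ (pdsOf sA hA).ι :=
  (Equiv.refl {z : A // coheight z = 1} : {z : A // coheight z = 1} ≃ {z : A // coheight z = 1})


theorem viaIdxEquiv_apply (q : {z : A // coheight z = 1}) :
    viaIdxEquiv sA hA φ hφ q = q := rfl

theorem pdsVia_ord_eq' (q : {z : A // coheight z = 1}) (x : FunctionFieldVia φ hφ)
    (hφK : φ ≫ sA = sA) :
    letI := functionFieldAlgebra sA
    letI := FunctionFieldVia.algebraBase φ hφ sA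
    (pdsVia φ hφ sA hA).ord q x =
      (pdsOf sA hA).ord (viaIdxEquiv sA hA φ hφ q) (viaAlgEquiv sA φ hφ hφK x) :=
  pdsVia_ord_eq sA hA φ hφ q x

/-- **helper9's `CoverCore`** (= `CoverDatum` minus `linEquiv`, plus the identification of the
source and target models) for a finite etale endomorphism `φ` of `A` over `K`. -/
noncomputable def coverCoreOf [IsFinite φ] [Etale φ] (hφK : φ ≫ sA = sA) (dj : ℕ) (y : A)
    (hd : φ.finrank y = dj) :
    letI := functionFieldAlgebra sA
    CoverCore.{u, u, u, u, u} (pdsOf sA hA) dj :=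
  letI := functionFieldAlgebra sA
  { F' := FunctionFieldVia φ hφ
    instField := inferInstance
    instAlgK := FunctionFieldVia.algebraBase φ hφ sA
    instAlg := inferInstance
    instTower := FunctionFieldVia.isScalarTower_base φ hφ sA
    instFin := inferInstance
    instSep := inferInstance
    S' := pdsVia φ hφ sA hA
    cover := coverOf φ hφ sA hA hA
    finrank_eq := (FunctionFieldVia.finrank_eq φ hφ y).trans hd
    ψ := viaAlgEquiv sA φ hφ hφK
    σ := viaIdxEquiv sA hA φ hφ
    hψ := fun q x => pdsVia_ord_eq' sA hA φ hφ q x hφK }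


theorem coverCoreOf_push [IsFinite φ] [Etale φ] (hφK : φ ≫ sA = sA) (dj : ℕ) (y : A)
    (hd : φ.finrank y = dj) (q : {z : A // coheight z = 1}) :
    letI := functionFieldAlgebra sA
    ((coverCoreOf sA hA φ hφ hφK dj y hd).cover.push q).1 = φ q.1 := rfl

theorem coverCoreOf_σ_apply [IsFinite φ] [Etale φ] (hφK : φ ≫ sA = sA) (dj : ℕ) (y : A)
    (hd : φ.finrank y = dj) (q : {z : A // coheight z = 1}) :
    letI := functionFieldAlgebra sA
    (coverCoreOf sA hA φ hφ hφK dj y hd).σ q = q := rfl

theorem coverCoreOf_ord [IsFinite φ] [Etale φ] (hφK : φ ≫ sA = sA) (dj : ℕ) (y : A)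
    (hd : φ.finrank y = dj) (q : {z : A // coheight z = 1}) (x : A.functionField) (hx : x ≠ 0) :
    letI := functionFieldAlgebra sA
    Scheme.ord ((functionFieldMap φ hφ).hom x) q.1 =
      ((coverCoreOf sA hA φ hφ hφK dj y hd).cover.e q : ℤ) * Scheme.ord x (φ q.1) :=
  ord_functionFieldMap_eq_ramIdx_mul φ hφ hA hA q x hx

theorem coverCoreOf_pullback_apply [IsFinite φ] [Etale φ] (hφK : φ ≫ sA = sA) (dj : ℕ) (y : A)
    (hd : φ.finrank y = dj) (D : {z : A // coheight z = 1} → ℤ) (q : {z : A // coheight z = 1}) :
    letI := functionFieldAlgebra sA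
    (coverCoreOf sA hA φ hφ hφK dj y hd).cover.pullback D q =
      ((coverCoreOf sA hA φ hφ hφK dj y hd).cover.e q : ℤ) *
        D ((coverCoreOf sA hA φ hφ hφK dj y hd).cover.push q) := rfl

end Endo


section NMapCover

variable {K : Type u} [Field K] [IsAlgClosed K] (G : Over (Spec (CommRingCat.of K))) [GrpObj G]
  [IsCommMonObj G] [IsProper G.hom] (g : ℕ) [SmoothOfRelativeDimension g G.hom]
  [ConnectedSpace G.left] [IsIntegral G.left] [IsNoetherian G.left]
  (hG : ∀ z : G.left, coheight z = 1 → IsDiscreteValuationRing (G.left.presheaf.stalk z))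
  (n : ℕ) (hn : (n : K) ≠ 0)

include hn in
omit [IsAlgClosed K] [GrpObj G] in
theorem natCast_pow_ne_zero (j : ℕ) : ((n ^ j : ℕ) : K) ≠ 0 := by
  rw [Nat.cast_pow]
  exact pow_ne_zero j hn

/-- **the `CoverCore` of `[n ^ j]`** on an abelian variety `G` over an algebraically closed field,
`(n : K) ≠ 0`: degree `(rank [n]) ^ j`. -/
noncomputable def coverCore_nMap (j : ℕ) :
    letI := functionFieldAlgebra G.hom
    CoverCore.{u, u, u, u, u} (pdsOf G.hom hG)
      ((nMap G n).left.finrank (genericPoint G.left) ^ j) :=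
  haveI := etale_nMap G g (n ^ j) (natCast_pow_ne_zero n hn j)
  haveI := isFinite_nMap G g (n ^ j) (natCast_pow_ne_zero n hn j)
  coverCoreOf G.hom hG (nMap G (n ^ j)).left
    (nMap_genericPoint G g (n ^ j) (natCast_pow_ne_zero n hn j)) (Over.w (nMap G (n ^ j)))
    _ (genericPoint G.left) (finrank_nMap_pow G g n hn j (genericPoint G.left))


theorem coverCore_nMap_push (j : ℕ) (q : {z : G.left // coheight z = 1}) :
    letI := functionFieldAlgebra G.hom
    ((coverCore_nMap G g hG n hn j).cover.push q).1 = (nMap G (n ^ j)).left q.1 := rfl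

theorem coverCore_nMap_σ_apply (j : ℕ) (q : {z : G.left // coheight z = 1}) :
    letI := functionFieldAlgebra G.hom
    (coverCore_nMap G g hG n hn j).σ q = q := rfl

theorem coverCore_nMap_ord (j : ℕ) (q : {z : G.left // coheight z = 1})
    (x : G.left.functionField) (hx : x ≠ 0) :
    letI := functionFieldAlgebra G.hom
    Scheme.ord ((functionFieldMap (nMap G (n ^ j)).left
        (nMap_genericPoint G g (n ^ j) (natCast_pow_ne_zero n hn j))).hom x) q.1 =
      ((coverCore_nMap G g hG n hn j).cover.e q : ℤ) *
        Scheme.ord x ((nMap G (n ^ j)).left q.1) := by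
  haveI := etale_nMap G g (n ^ j) (natCast_pow_ne_zero n hn j)
  haveI := isFinite_nMap G g (n ^ j) (natCast_pow_ne_zero n hn j)
  exact coverCoreOf_ord G.hom hG (nMap G (n ^ j)).left _ (Over.w (nMap G (n ^ j))) _ _
    (finrank_nMap_pow G g n hn j (genericPoint G.left)) q x hx

end NMapCover

end Fermat.Agent.AV
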