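/-
PROJECT AV (S26) — (PROD-CONN), helper6: products over an algebraically closed field.

For a cartesian square `IsPullback p₁ p₂ iX iT` over `Spec K`:
* `smooth_comp_of_isPullback`, `isProper_comp_of_isPullback`,
  `locallyOfFiniteType_comp_of_isPullback`: `Y ⟶ Spec K` is smooth / proper / locally of finite
  type; `isReduced_of_isPullback`;
and for `K` algebraically closed:
* `exists_kPoint_of_nonempty`: a nonempty scheme locally of finite type over `K` has a `K`-point;
* **`connectedSpace_of_isPullback`**: `X`, `T` connected and locally of finite type ⇒ `Y` connected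
  (closed points are `K`-points and are dense; the slices `{x₀} × T`, `X × {t}` are connected and
  chained);
* **`isIntegral_of_isPullback`** (with helper4's `isIntegral_of_smooth_of_connected`): `X`, `T`
  smooth connected ⇒ `Y` integral;
* the same for `(G ⊗ H).left` in `Over (Spec K)`: `isPullback_tensorObj`,
  `connectedSpace_tensorObj_left`, `smooth_tensorObj_hom`, `isProper_tensorObj_hom`,
  `locallyOfFiniteType_tensorObj_hom`, `isReduced_tensorObj_left`, `isIntegral_tensorObj_left`.
-/
import Mathlib
import Fermat.Agent.AV.AV0_helper4_NormalScheme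

set_option autoImplicit false
open CategoryTheory CategoryTheory.Limits AlgebraicGeometry
universe u

namespace Fermat.Agent.AV

section ProdBasic

variable {K : Type u} [Field K] {X T Y : Scheme.{u}}
  (iX : X ⟶ Spec (CommRingCat.of K)) (iT : T ⟶ Spec (CommRingCat.of K))
  (p₁ : Y ⟶ X) (p₂ : Y ⟶ T) (H : IsPullback p₁ p₂ iX iT)

include H in
/-- the structure map of a product of smooth `K`-schemes is smooth. -/
theorem smooth_comp_of_isPullback [Smooth iX] [Smooth iT] : Smooth (p₁ ≫ iX) := by
  have hp₁ : Smooth p₁ := MorphismProperty.of_isPullback H.flip ‹_›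
  infer_instance

include H in
/-- the structure map of a product of proper `K`-schemes is proper. -/
theorem isProper_comp_of_isPullback [IsProper iX] [IsProper iT] : IsProper (p₁ ≫ iX) := by
  have hp₁ : IsProper p₁ := MorphismProperty.of_isPullback H.flip ‹_›
  infer_instance

include H in
/-- the structure map of a product of `K`-schemes locally of finite type is locally of finite
type. -/
theorem locallyOfFiniteType_comp_of_isPullback [LocallyOfFiniteType iX] [LocallyOfFiniteType iT] :
    LocallyOfFiniteType (p₁ ≫ iX) := by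
  have hp₁ : LocallyOfFiniteType p₁ := MorphismProperty.of_isPullback H.flip ‹_›
  infer_instance

include H in
/-- a product of smooth `K`-schemes is reduced. -/
theorem isReduced_of_isPullback [Smooth iX] [Smooth iT] : IsReduced Y := by
  have := smooth_comp_of_isPullback iX iT p₁ p₂ H
  exact isReduced_of_smooth (p₁ ≫ iX)

end ProdBasic

section ProdConn

variable {K : Type u} [Field K] [IsAlgClosed K] {X T Y : Scheme.{u}}
  (iX : X ⟶ Spec (CommRingCat.of K)) (iT : T ⟶ Spec (CommRingCat.of K))
  (p₁ : Y ⟶ X) (p₂ : Y ⟶ T) (H : IsPullback p₁ p₂ iX iT)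

/-- a nonempty scheme locally of finite type over an algebraically closed field has a `K`-point. -/
theorem exists_kPoint_of_nonempty [LocallyOfFiniteType iX] [Nonempty X] :
    ∃ x : Spec (CommRingCat.of K) ⟶ X, x ≫ iX = 𝟙 _ := by
  have : JacobsonSpace X := LocallyOfFiniteType.jacobsonSpace iX
  have h : (closedPoints X).Nonempty := by
    by_contra hne
    rw [Set.not_nonempty_iff_eq_empty] at hne
    have := closure_closedPoints (X := X)
    rw [hne, closure_empty] at this
    exact Set.empty_ne_univ this
  obtain ⟨z, hz⟩ := h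
  exact ⟨_, ((pointEquivClosedPoint iX).symm ⟨z, hz⟩).2⟩

include H in
/-- **(PROD-CONN)** the product of two connected schemes locally of finite type over an
algebraically closed field is connected. -/
theorem connectedSpace_of_isPullback [LocallyOfFiniteType iX] [LocallyOfFiniteType iT]
    [ConnectedSpace X] [ConnectedSpace T] : ConnectedSpace Y := by
  have hp₁ : LocallyOfFiniteType p₁ := MorphismProperty.of_isPullback H.flip ‹_›
  have hY : LocallyOfFiniteType (p₁ ≫ iX) := inferInstance
  have : JacobsonSpace Y := LocallyOfFiniteType.jacobsonSpace (p₁ ≫ iX)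
  obtain ⟨x₀, hx₀⟩ := exists_kPoint_of_nonempty iX
  obtain ⟨t₀, ht₀⟩ := exists_kPoint_of_nonempty iT
  let pt : Spec (CommRingCat.of K) := IsLocalRing.closedPoint K
  -- the slices
  let s₀ : T ⟶ Y := H.lift (iT ≫ x₀) (𝟙 T) (by rw [Category.assoc, hx₀, Category.comp_id,
    Category.id_comp])
  have hr : ∀ t : Spec (CommRingCat.of K) ⟶ T, t ≫ iT = 𝟙 _ →
      (iX ≫ t) ≫ iT = iX := fun t ht => by rw [Category.assoc, ht, Category.comp_id]
  let r : ∀ t : {t : Spec (CommRingCat.of K) ⟶ T // t ≫ iT = 𝟙 _}, X ⟶ Y := fun t =>
    H.lift (𝟙 X) (iX ≫ t.1) (by rw [Category.id_comp, hr t.1 t.2])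
  -- the chained union of slices
  let C : Set Y := ⋃ t : {t : Spec (CommRingCat.of K) ⟶ T // t ≫ iT = 𝟙 _},
    (Set.range s₀ ∪ Set.range (r t))
  have hmeet : ∀ t : {t : Spec (CommRingCat.of K) ⟶ T // t ≫ iT = 𝟙 _},
      s₀ (t.1 pt) = r t (x₀ pt) := by
    intro t
    have hmor : t.1 ≫ s₀ = x₀ ≫ r t := by
      apply H.hom_ext
      · simp only [s₀, r, Category.assoc, IsPullback.lift_fst, Category.comp_id]
        rw [← Category.assoc, t.2, Category.id_comp]
      · simp only [s₀, r, Category.assoc, IsPullback.lift_snd, Category.comp_id]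
        rw [← Category.assoc, hx₀, Category.id_comp]
    rw [← Scheme.Hom.comp_apply, ← Scheme.Hom.comp_apply, hmor]
  have hC : _root_.IsPreconnected C := by
    apply isPreconnected_iUnion
    · refine ⟨s₀ (t₀ pt), Set.mem_iInter.mpr fun t => Or.inl ⟨_, rfl⟩⟩
    · intro t
      refine _root_.IsPreconnected.union (s₀ (t.1 pt)) ⟨_, rfl⟩ (hmeet t ▸ ⟨_, rfl⟩) ?_ ?_
      · exact (isConnected_range s₀.continuous).isPreconnected
      · exact (isConnected_range (r t).continuous).isPreconnected
  -- every closed point lies in `C`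
  have hcl : closedPoints Y ⊆ C := by
    intro y hy
    obtain ⟨⟨yk, hyk⟩, hyy⟩ := (pointEquivClosedPoint (p₁ ≫ iX)).surjective ⟨y, hy⟩
    have hy' : yk pt = y := congrArg Subtype.val hyy
    have ht : (yk ≫ p₂) ≫ iT = 𝟙 _ := by
      rw [Category.assoc, ← H.w, hyk]
    refine Set.mem_iUnion.mpr ⟨⟨yk ≫ p₂, ht⟩, Or.inr ⟨(yk ≫ p₁) pt, ?_⟩⟩
    have hmor : (yk ≫ p₁) ≫ r ⟨yk ≫ p₂, ht⟩ = yk := by
      apply H.hom_ext
      · simp only [r, Category.assoc, IsPullback.lift_fst, Category.comp_id]
      · simp only [r, Category.assoc, IsPullback.lift_snd]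
        rw [← Category.assoc, ← Category.assoc, Category.assoc yk, hyk, Category.id_comp]
    rw [← hy', ← Scheme.Hom.comp_apply, hmor]
  have huniv : _root_.IsPreconnected (Set.univ : Set Y) := by
    have h1 := hC.closure
    have h2 : closure C = Set.univ := by
      apply Set.eq_univ_of_univ_subset
      rw [← closure_closedPoints (X := Y)]
      exact closure_mono hcl
    rwa [h2] at h1
  have : PreconnectedSpace Y := ⟨huniv⟩
  have : Nonempty Y := ⟨s₀ (t₀ pt)⟩
  exact ConnectedSpace.mk inferInstance


include H in
/-- **a product of smooth connected schemes over an algebraically closed field is integral.** -/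
theorem isIntegral_of_isPullback [Smooth iX] [Smooth iT] [ConnectedSpace X] [ConnectedSpace T] :
    IsIntegral Y := by
  have := smooth_comp_of_isPullback iX iT p₁ p₂ H
  have := connectedSpace_of_isPullback iX iT p₁ p₂ H
  exact isIntegral_of_smooth_of_connected (p₁ ≫ iX)

end ProdConn

section Over

open MonoidalCategory CartesianMonoidalCategory

variable {K : Type u} [Field K] (G H : Over (Spec (CommRingCat.of K)))

/-- the monoidal product of `Over (Spec K)` is the fibre product. -/
theorem isPullback_tensorObj :
    IsPullback (fst G H).left (snd G H).left G.hom H.hom :=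
  IsPullback.of_hasPullback G.hom H.hom

theorem tensorObj_hom_eq : (G ⊗ H).hom = (fst G H).left ≫ G.hom := rfl

theorem smooth_tensorObj_hom [Smooth G.hom] [Smooth H.hom] : Smooth (G ⊗ H).hom :=
  smooth_comp_of_isPullback G.hom H.hom _ _ (isPullback_tensorObj G H)

theorem isProper_tensorObj_hom [IsProper G.hom] [IsProper H.hom] : IsProper (G ⊗ H).hom :=
  isProper_comp_of_isPullback G.hom H.hom _ _ (isPullback_tensorObj G H)

theorem locallyOfFiniteType_tensorObj_hom [LocallyOfFiniteType G.hom] [LocallyOfFiniteType H.hom] :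
    LocallyOfFiniteType (G ⊗ H).hom :=
  locallyOfFiniteType_comp_of_isPullback G.hom H.hom _ _ (isPullback_tensorObj G H)

theorem isReduced_tensorObj_left [Smooth G.hom] [Smooth H.hom] : IsReduced (G ⊗ H).left :=
  isReduced_of_isPullback G.hom H.hom _ _ (isPullback_tensorObj G H)

theorem connectedSpace_tensorObj_left [IsAlgClosed K] [LocallyOfFiniteType G.hom]
    [LocallyOfFiniteType H.hom] [ConnectedSpace G.left] [ConnectedSpace H.left] :
    ConnectedSpace (G ⊗ H).left :=
  connectedSpace_of_isPullback G.hom H.hom _ _ (isPullback_tensorObj G H)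

theorem isIntegral_tensorObj_left [IsAlgClosed K] [Smooth G.hom] [Smooth H.hom]
    [ConnectedSpace G.left] [ConnectedSpace H.left] : IsIntegral (G ⊗ H).left :=
  isIntegral_of_isPullback G.hom H.hom _ _ (isPullback_tensorObj G H)

end Over

end Fermat.Agent.AV
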