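/-
PROJECT AV (S26) — helper5 — **core of the cocycle model of line bundles**: `LB X` = an open cover
`U : ι → X.Opens` with transition functions `g i j ∈ Γ(X, U i ⊓ U j)` (`g i i = 1`, cocycle condition).

* `res U h : Γ(X, V) →+* Γ(X, U)` (restriction), `res_res`, `res_self`, `eq_of_res_eq` (locality),
  `exists_glue` (gluing), `app_res` (naturality of `φ.app`);
* `LB.pullback φ` (ANY morphism `φ : Y ⟶ X`), `LB.tensor`, `LB.inv`, `LB.trivial X`;
* `LB.H0 M` = global sections `{s : ∀ i, Γ(X, U i) | s i = g i j * s j on U i ⊓ U j}`, a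
  `Module Γ(X, ⊤)`; `pullbackSection`, `tensorSection`;
* `LB.IsTrivial M` = there is a section all of whose components are units.
-/
import Mathlib

set_option autoImplicit false

open AlgebraicGeometry CategoryTheory Opposite TopologicalSpace

universe u

namespace Fermat.Agent.AV

noncomputable section

/-- restriction of sections of the structure sheaf, as a ring homomorphism. -/
abbrev res {X : Scheme.{u}} {V : X.Opens} (U : X.Opens) (h : U ≤ V) :
    Γ(X, V) →+* Γ(X, U) :=
  (X.presheaf.map (homOfLE h).op).hom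

theorem res_res {X : Scheme.{u}} {W V U : X.Opens} (h₁ : V ≤ W) (h₂ : U ≤ V) (a : Γ(X, W)) :
    res U h₂ (res V h₁ a) = res U (h₂.trans h₁) a := by
  simp only [res]
  rw [← CommRingCat.comp_apply, ← Functor.map_comp]
  rfl

theorem res_self {X : Scheme.{u}} {U : X.Opens} (a : Γ(X, U)) : res U le_rfl a = a := by
  simp only [res]
  have : (homOfLE (le_refl U)).op = 𝟙 (op U) := rfl
  rw [this, X.presheaf.map_id]
  rfl

/-- restriction only depends on the opens. -/
theorem res_congr {X : Scheme.{u}} {V U : X.Opens} (h h' : U ≤ V) (a : Γ(X, V)) :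
    res U h a = res U h' a := rfl

/-- locality: two sections agreeing on a cover agree. -/
theorem eq_of_res_eq {X : Scheme.{u}} {ι : Type*} {V : X.Opens} (U : ι → X.Opens)
    (hU : ∀ i, U i ≤ V) (hcover : V ≤ ⨆ i, U i) (a b : Γ(X, V))
    (h : ∀ i, res (U i) (hU i) a = res (U i) (hU i) b) : a = b :=
  TopCat.Sheaf.eq_of_locally_eq' X.sheaf U V (fun i => homOfLE (hU i)) hcover a b h


/-- gluing of sections of the structure sheaf over a cover. -/
theorem exists_glue {X : Scheme.{u}} {ι : Type u} {V : X.Opens} (U : ι → X.Opens)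
    (hU : ∀ i, U i ≤ V) (hcover : V ≤ ⨆ i, U i) (sf : ∀ i, Γ(X, U i))
    (h : ∀ i j, res (U i ⊓ U j) inf_le_left (sf i) = res (U i ⊓ U j) inf_le_right (sf j)) :
    ∃! s : Γ(X, V), ∀ i, res (U i) (hU i) s = sf i :=
  TopCat.Sheaf.existsUnique_gluing' X.sheaf U V (fun i => homOfLE (hU i)) hcover sf h

/-- pullback of sections commutes with restriction. -/
theorem app_res {X Y : Scheme.{u}} (φ : Y ⟶ X) {V U : X.Opens} (h : U ≤ V) (a : Γ(X, V)) :
    (φ.app U).hom (res U h a) =
      res (φ ⁻¹ᵁ U) ((Opens.map φ.base).monotone h) ((φ.app V).hom a) := by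
  have := φ.naturality (homOfLE h).op
  have h2 := congrArg (fun f => f.hom a) this
  simp only [res] at h2 ⊢
  exact h2

/-- a line bundle on a scheme in cocycle form. -/
structure LB (X : Scheme.{u}) where
  ι : Type u
  U : ι → X.Opens
  iSup_U : ⨆ i, U i = ⊤
  g : ∀ i j, Γ(X, U i ⊓ U j)
  g_self : ∀ i, g i i = 1
  cocycle : ∀ i j k,
    res (U i ⊓ U j ⊓ U k) inf_le_left (g i j) *
      res (U i ⊓ U j ⊓ U k) (le_inf (inf_le_left.trans inf_le_right) inf_le_right) (g j k) =
    res (U i ⊓ U j ⊓ U k) (le_inf (inf_le_left.trans inf_le_left) inf_le_right) (g i k)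

namespace LB

variable {X : Scheme.{u}} (M : LB X)

/-- the cocycle relation on any open contained in the triple intersection. -/
theorem cocycle' (i j k : M.ι) (W : X.Opens) (hi : W ≤ M.U i) (hj : W ≤ M.U j) (hk : W ≤ M.U k) :
    res W (le_inf hi hj) (M.g i j) * res W (le_inf hj hk) (M.g j k) =
      res W (le_inf hi hk) (M.g i k) := by
  have h := congrArg (res W (le_inf (le_inf hi hj) hk)) (M.cocycle i j k)
  rw [map_mul, res_res, res_res, res_res] at h
  exact h

theorem g_mul_symm (i j : M.ι) :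
    M.g i j * res (M.U i ⊓ M.U j) (le_inf inf_le_right inf_le_left) (M.g j i) = 1 := by
  have h := M.cocycle' i j i (M.U i ⊓ M.U j) inf_le_left inf_le_right inf_le_left
  rw [res_self] at h
  rw [h]
  have h2 : res (M.U i ⊓ M.U j) (le_inf inf_le_left inf_le_left) (M.g i i) = 1 := by
    rw [M.g_self, map_one]
  exact h2

theorem isUnit_g (i j : M.ι) : IsUnit (M.g i j) :=
  IsUnit.of_mul_eq_one _ (M.g_mul_symm i j)

/-- global sections of a line bundle (Čech description). -/
def IsSection (s : ∀ i, Γ(X, M.U i)) : Prop :=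
  ∀ i j, res (M.U i ⊓ M.U j) inf_le_left (s i) =
    M.g i j * res (M.U i ⊓ M.U j) inf_le_right (s j)

/-- the additive group of global sections. -/
def sections : AddSubgroup (∀ i, Γ(X, M.U i)) where
  carrier := {s | M.IsSection s}
  zero_mem' := fun i j => by simp
  add_mem' := fun {s t} hs ht i j => by
    simp only [Pi.add_apply, map_add, mul_add, hs i j, ht i j]
  neg_mem' := fun {s} hs i j => by
    simp only [Pi.neg_apply, map_neg, mul_neg, hs i j]

/-- the type of global sections. -/
abbrev H0 : Type u := ↥M.sections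

instance : SMul Γ(X, ⊤) M.H0 where
  smul r s := ⟨fun i => res (M.U i) le_top r * s.1 i, fun i j => by
    simp only [map_mul, res_res]
    rw [s.2 i j]
    ring⟩

theorem smul_apply (r : Γ(X, ⊤)) (s : M.H0) (i : M.ι) :
    (r • s).1 i = res (M.U i) le_top r * s.1 i := rfl

instance : Module Γ(X, ⊤) M.H0 where
  one_smul s := Subtype.ext (funext fun i => by simp [smul_apply])
  mul_smul r r' s := Subtype.ext (funext fun i => by simp [smul_apply, mul_assoc])
  smul_zero r := Subtype.ext (funext fun i => by simp [smul_apply])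
  smul_add r s t := Subtype.ext (funext fun i => by simp [smul_apply, mul_add])
  add_smul r r' s := Subtype.ext (funext fun i => by simp [smul_apply, add_mul])
  zero_smul s := Subtype.ext (funext fun i => by simp [smul_apply])

/-- the trivial line bundle. -/
def trivial (X : Scheme.{u}) : LB X where
  ι := PUnit
  U := fun _ => ⊤
  iSup_U := by simp
  g := fun _ _ => 1
  g_self := fun _ => rfl
  cocycle := fun _ _ _ => by simp


/-- pullback of a line bundle along an arbitrary morphism. -/
def pullback {Y : Scheme.{u}} (φ : Y ⟶ X) : LB Y where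
  ι := M.ι
  U := fun i => φ ⁻¹ᵁ M.U i
  iSup_U := by
    have h := congrArg (fun W => φ ⁻¹ᵁ W) M.iSup_U
    simp only [Opens.map_iSup] at h
    exact h
  g := fun i j => (φ.app (M.U i ⊓ M.U j)).hom (M.g i j)
  g_self := fun i => by
    show (φ.app (M.U i ⊓ M.U i)).hom (M.g i i) = 1
    rw [M.g_self, map_one]
  cocycle := fun i j k => by
    have h := congrArg (φ.app (M.U i ⊓ M.U j ⊓ M.U k)).hom (M.cocycle i j k)
    rw [map_mul, app_res, app_res, app_res] at h
    exact h

/-- tensor product of two line bundles. -/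
def tensor (N : LB X) : LB X where
  ι := M.ι × N.ι
  U := fun p => M.U p.1 ⊓ N.U p.2
  iSup_U := by
    show ⨆ p : M.ι × N.ι, M.U p.1 ⊓ N.U p.2 = ⊤
    rw [← iSup_inf_iSup, M.iSup_U, N.iSup_U, top_inf_eq]
  g := fun p q =>
    res _ (le_inf (inf_le_left.trans inf_le_left) (inf_le_right.trans inf_le_left)) (M.g p.1 q.1) *
    res _ (le_inf (inf_le_left.trans inf_le_right) (inf_le_right.trans inf_le_right)) (N.g p.2 q.2)
  g_self := fun p => by rw [M.g_self, N.g_self, map_one, map_one, mul_one]
  cocycle := fun p q r => by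
    simp only [map_mul, res_res]
    have h1 := M.cocycle' p.1 q.1 r.1 ((M.U p.1 ⊓ N.U p.2) ⊓ (M.U q.1 ⊓ N.U q.2) ⊓ (M.U r.1 ⊓ N.U r.2))
      ((inf_le_left.trans inf_le_left).trans inf_le_left)
      ((inf_le_left.trans inf_le_right).trans inf_le_left) (inf_le_right.trans inf_le_left)
    have h2 := N.cocycle' p.2 q.2 r.2 ((M.U p.1 ⊓ N.U p.2) ⊓ (M.U q.1 ⊓ N.U q.2) ⊓ (M.U r.1 ⊓ N.U r.2))
      ((inf_le_left.trans inf_le_left).trans inf_le_right)
      ((inf_le_left.trans inf_le_right).trans inf_le_right) (inf_le_right.trans inf_le_right)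
    calc _ = (res _ _ (M.g p.1 q.1) * res _ _ (M.g q.1 r.1)) *
          (res _ _ (N.g p.2 q.2) * res _ _ (N.g q.2 r.2)) := by ring
      _ = _ := by rw [h1, h2]

/-- the inverse (dual) line bundle. -/
def inv : LB X where
  ι := M.ι
  U := M.U
  iSup_U := M.iSup_U
  g := fun i j => res (M.U i ⊓ M.U j) (le_inf inf_le_right inf_le_left) (M.g j i)
  g_self := fun i => by rw [M.g_self, map_one]
  cocycle := fun i j k => by
    simp only [res_res]
    have h := M.cocycle' k j i (M.U i ⊓ M.U j ⊓ M.U k) inf_le_right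
      (inf_le_left.trans inf_le_right) (inf_le_left.trans inf_le_left)
    rw [mul_comm]
    exact h


/-- pullback of a global section. -/
def pullbackSection {Y : Scheme.{u}} (φ : Y ⟶ X) (s : M.H0) : (M.pullback φ).H0 :=
  ⟨fun i => (φ.app (M.U i)).hom (s.1 i), fun i j => by
    have h := congrArg (φ.app (M.U i ⊓ M.U j)).hom (s.2 i j)
    rw [map_mul, app_res, app_res] at h
    exact h⟩

theorem pullbackSection_apply {Y : Scheme.{u}} (φ : Y ⟶ X) (s : M.H0) (i : M.ι) :
    (M.pullbackSection φ s).1 i = (φ.app (M.U i)).hom (s.1 i) := rfl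

/-- tensor product of global sections. -/
def tensorSection (N : LB X) (s : M.H0) (t : N.H0) : (M.tensor N).H0 :=
  ⟨fun (p : M.ι × N.ι) => res (M.U p.1 ⊓ N.U p.2) inf_le_left (s.1 p.1) *
      res (M.U p.1 ⊓ N.U p.2) inf_le_right (t.1 p.2), by
    rintro ⟨i, a⟩ ⟨j, b⟩
    have hs := congrArg (res ((M.U i ⊓ N.U a) ⊓ (M.U j ⊓ N.U b))
      (le_inf (inf_le_left.trans inf_le_left) (inf_le_right.trans inf_le_left))) (s.2 i j)
    have ht := congrArg (res ((M.U i ⊓ N.U a) ⊓ (M.U j ⊓ N.U b))
      (le_inf (inf_le_left.trans inf_le_right) (inf_le_right.trans inf_le_right))) (t.2 a b)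
    simp only [map_mul, res_res] at hs ht
    show res ((M.U i ⊓ N.U a) ⊓ (M.U j ⊓ N.U b)) inf_le_left
        (res (M.U i ⊓ N.U a) inf_le_left (s.1 i) * res (M.U i ⊓ N.U a) inf_le_right (t.1 a)) =
      (res ((M.U i ⊓ N.U a) ⊓ (M.U j ⊓ N.U b))
          (le_inf (inf_le_left.trans inf_le_left) (inf_le_right.trans inf_le_left)) (M.g i j) *
        res ((M.U i ⊓ N.U a) ⊓ (M.U j ⊓ N.U b))
          (le_inf (inf_le_left.trans inf_le_right) (inf_le_right.trans inf_le_right)) (N.g a b)) *
      res ((M.U i ⊓ N.U a) ⊓ (M.U j ⊓ N.U b)) inf_le_right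
        (res (M.U j ⊓ N.U b) inf_le_left (s.1 j) * res (M.U j ⊓ N.U b) inf_le_right (t.1 b))
    simp only [map_mul, res_res]
    rw [hs, ht]
    ring⟩

/-- a line bundle is trivial if it has a nowhere vanishing section. -/
def IsTrivial : Prop := ∃ s : M.H0, ∀ i, IsUnit (s.1 i)

end LB

end

end Fermat.Agent.AV
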