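import Mathlib
import Fermat.Agent.AV.LB_helper5_Core

set_option autoImplicit false
set_option linter.style.haveILetI false

open AlgebraicGeometry CategoryTheory Opposite TopologicalSpace

universe u

namespace Fermat.Agent.AV

noncomputable section

/-- sections over an empty open form the zero ring. -/
theorem subsingleton_of_not_nonempty {X : Scheme.{u}} (U : X.Opens) (h : ¬ Nonempty U) :
    Subsingleton Γ(X, U) := by
  have hU : U = ⊥ := by
    ext x
    simp only [Opens.coe_bot, Set.mem_empty_iff_false, iff_false]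
    exact fun hx => h ⟨⟨x, hx⟩⟩
  subst hU
  infer_instance

/-- on an integral scheme restriction to a nonempty open is injective. -/
theorem res_injective {X : Scheme.{u}} [IsIntegral X] {V U : X.Opens} (h : U ≤ V)
    [Nonempty U] : Function.Injective (res U h) :=
  map_injective_of_isIntegral X (homOfLE h)

/-- two nonempty opens of an integral scheme meet. -/
theorem nonempty_inf {X : Scheme.{u}} [IsIntegral X] (U V : X.Opens) [hU : Nonempty U]
    [hV : Nonempty V] : Nonempty (U ⊓ V : X.Opens) := by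
  obtain ⟨⟨x, hx⟩⟩ := hU
  obtain ⟨⟨y, hy⟩⟩ := hV
  obtain ⟨z, hz⟩ := nonempty_preirreducible_inter U.isOpen V.isOpen ⟨x, hx⟩ ⟨y, hy⟩
  exact ⟨⟨z, hz⟩⟩

namespace LB

variable {X : Scheme.{u}} (M : LB X)

/-- on an integral scheme a section vanishing on one nonempty chart vanishes. -/
theorem eq_zero_of_apply_eq_zero [IsIntegral X] (s : M.H0) (i : M.ι) [Nonempty (M.U i)]
    (h : s.1 i = 0) : s = 0 := by
  apply Subtype.ext
  funext j
  show s.1 j = 0
  by_cases hj : Nonempty (M.U j)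
  · haveI := hj
    haveI := nonempty_inf (M.U j) (M.U i)
    apply res_injective (U := M.U j ⊓ M.U i) inf_le_left
    rw [s.2 j i, h, map_zero, mul_zero, map_zero]
  · haveI := subsingleton_of_not_nonempty _ hj
    exact Subsingleton.elim _ _

/-- some chart is nonempty on a nonempty scheme. -/
theorem exists_nonempty_chart [Nonempty X] : ∃ i, Nonempty (M.U i) := by
  obtain ⟨x⟩ := (inferInstance : Nonempty X)
  have hx : x ∈ (⨆ i, M.U i : X.Opens) := by rw [M.iSup_U]; trivial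
  obtain ⟨i, hi⟩ := Opens.mem_iSup.1 hx
  exact ⟨i, ⟨⟨x, hi⟩⟩⟩

/-- the componentwise inverse of a nowhere vanishing section is a section of the inverse. -/
theorem inv_isTrivial (h : M.IsTrivial) : M.inv.IsTrivial := by
  obtain ⟨s, hs⟩ := h
  choose u hu using hs
  let w : ∀ i, Γ(X, M.U i) := fun i => (((u i)⁻¹ : Γ(X, M.U i)ˣ) : Γ(X, M.U i))
  refine ⟨⟨w, fun i j => ?_⟩, fun i => Units.isUnit ((u i)⁻¹ : Γ(X, M.U i)ˣ)⟩
  show res (M.U i ⊓ M.U j) inf_le_left ((u i)⁻¹ : Γ(X, M.U i)ˣ) =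
    res (M.U i ⊓ M.U j) (le_inf inf_le_right inf_le_left) (M.g j i) *
      res (M.U i ⊓ M.U j) inf_le_right ((u j)⁻¹ : Γ(X, M.U j)ˣ)
  have h1 := congrArg (res (M.U i ⊓ M.U j) (le_inf inf_le_right inf_le_left)) (s.2 j i)
  rw [map_mul, res_res, res_res, ← hu i, ← hu j] at h1
  -- h1 : res (u j) = res (g j i) * res (u i)
  have e1 : res (M.U i ⊓ M.U j) inf_le_left ((u i)⁻¹ : Γ(X, M.U i)ˣ) =
      ((Units.map (res (M.U i ⊓ M.U j) inf_le_left).toMonoidHom (u i))⁻¹ : Γ(X, M.U i ⊓ M.U j)ˣ) := by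
    rw [← map_inv]; rfl
  have e2 : res (M.U i ⊓ M.U j) inf_le_right ((u j)⁻¹ : Γ(X, M.U j)ˣ) =
      ((Units.map (res (M.U i ⊓ M.U j) inf_le_right).toMonoidHom (u j))⁻¹ : Γ(X, M.U i ⊓ M.U j)ˣ) := by
    rw [← map_inv]; rfl
  rw [e1, e2]
  set a := Units.map (res (M.U i ⊓ M.U j) inf_le_left).toMonoidHom (u i) with ha
  set b := Units.map (res (M.U i ⊓ M.U j) inf_le_right).toMonoidHom (u j) with hb
  have h2 : (b : Γ(X, M.U i ⊓ M.U j)) =
      res (M.U i ⊓ M.U j) (le_inf inf_le_right inf_le_left) (M.g j i) * (a : Γ(X, M.U i ⊓ M.U j)) := h1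
  -- a⁻¹ = g * b⁻¹  ⇐  b = g * a
  calc ((a⁻¹ : Γ(X, M.U i ⊓ M.U j)ˣ) : Γ(X, M.U i ⊓ M.U j))
      = (b : Γ(X, M.U i ⊓ M.U j)) * ((b⁻¹ : Γ(X, M.U i ⊓ M.U j)ˣ) : Γ(X, M.U i ⊓ M.U j)) *
          ((a⁻¹ : Γ(X, M.U i ⊓ M.U j)ˣ) : Γ(X, M.U i ⊓ M.U j)) := by
        rw [Units.mul_inv, one_mul]
    _ = _ := by
        rw [h2]
        have : (a : Γ(X, M.U i ⊓ M.U j)) * ((a⁻¹ : Γ(X, M.U i ⊓ M.U j)ˣ) : Γ(X, M.U i ⊓ M.U j)) = 1 :=
          Units.mul_inv a
        calc _ = res (M.U i ⊓ M.U j) (le_inf inf_le_right inf_le_left) (M.g j i) *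
              ((b⁻¹ : Γ(X, M.U i ⊓ M.U j)ˣ) : Γ(X, M.U i ⊓ M.U j)) *
              ((a : Γ(X, M.U i ⊓ M.U j)) * ((a⁻¹ : Γ(X, M.U i ⊓ M.U j)ˣ) : Γ(X, M.U i ⊓ M.U j))) := by ring
          _ = _ := by rw [this, mul_one]

/-- **AV2, triviality criterion**: on an integral scheme whose ring of global functions is a field
(e.g. proper over a field), a line bundle is trivial iff it and its inverse have nonzero sections. -/
theorem isTrivial_iff_exists_ne_zero [IsIntegral X] (hfield : IsField Γ(X, ⊤)) :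
    M.IsTrivial ↔ (∃ s : M.H0, s ≠ 0) ∧ (∃ t : M.inv.H0, t ≠ 0) := by
  have key : ∀ N : LB X, N.IsTrivial → ∃ s : N.H0, s ≠ 0 := by
    intro N ⟨s, hs⟩
    refine ⟨s, fun h0 => ?_⟩
    obtain ⟨i, hi⟩ := N.exists_nonempty_chart
    haveI := hi
    have : s.1 i = 0 := by rw [h0]; rfl
    exact (hs i).ne_zero this
  constructor
  · intro h
    exact ⟨key M h, key M.inv (M.inv_isTrivial h)⟩
  · rintro ⟨⟨s, hs⟩, ⟨t, ht⟩⟩
    -- the components of `t` as sections over the charts of `M`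
    let t' : ∀ i, Γ(X, M.U i) := fun i => t.1 i
    have ht' : ∀ i j, res (M.U i ⊓ M.U j) inf_le_left (t' i) =
        res (M.U i ⊓ M.U j) (le_inf inf_le_right inf_le_left) (M.g j i) *
          res (M.U i ⊓ M.U j) inf_le_right (t' j) := fun i j => t.2 i j
    -- the global function `c` with `c = s i * t i` on `U i`
    have hcompat : ∀ i j, res (M.U i ⊓ M.U j) inf_le_left (s.1 i * t' i) =
        res (M.U i ⊓ M.U j) inf_le_right (s.1 j * t' j) := by
      intro i j
      have h1 := s.2 i j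
      rw [map_mul, map_mul, h1, ht' i j]
      have h3 := M.g_mul_symm i j
      calc _ = (M.g i j * res (M.U i ⊓ M.U j) (le_inf inf_le_right inf_le_left) (M.g j i)) *
            (res (M.U i ⊓ M.U j) inf_le_right (s.1 j) * res (M.U i ⊓ M.U j) inf_le_right (t' j)) := by
              ring
        _ = _ := by rw [h3, one_mul]
    obtain ⟨c, hc, -⟩ := exists_glue (V := ⊤) M.U (fun i => le_top) (by rw [M.iSup_U])
      (fun i => s.1 i * t' i) hcompat
    have hc0 : c ≠ 0 := by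
      intro h0
      obtain ⟨i, hi⟩ := M.exists_nonempty_chart
      haveI := hi
      have h1 : s.1 i * t' i = 0 := by rw [← hc i, h0, map_zero]
      rcases mul_eq_zero.1 h1 with h | h
      · exact hs (M.eq_zero_of_apply_eq_zero s i h)
      · haveI : Nonempty (M.inv.U i) := hi
        exact ht (M.inv.eq_zero_of_apply_eq_zero t i h)
    obtain ⟨d, hd⟩ := hfield.mul_inv_cancel hc0
    refine ⟨s, fun i => ?_⟩
    have h1 : s.1 i * (t' i * res (M.U i) le_top d) = 1 := by
      rw [← mul_assoc, ← hc i, ← map_mul, hd, map_one]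
    exact IsUnit.of_mul_eq_one _ h1

/-- the criterion for an integral scheme universally closed over a field. -/
theorem isTrivial_iff_of_universallyClosed {K : Type u} [Field K] [IsIntegral X]
    (f : X ⟶ Spec (.of K)) [UniversallyClosed f] :
    M.IsTrivial ↔ (∃ s : M.H0, s ≠ 0) ∧ (∃ t : M.inv.H0, t ≠ 0) :=
  M.isTrivial_iff_exists_ne_zero (isField_of_universallyClosed K f)

end LB

end

end Fermat.Agent.AV
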