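/-
PROJECT AV (S26 long shot) — AV4 (growth bounds), helper2: the abstract upper bound.

`F` a finite separable extension of `E = K(x₁,…,x_g)` (`P = K[x₁,…,x_g] = MvPolynomial (Fin g) K`,
`IsFractionRing P E`).  A `K`-subspace `M ⊆ F` whose elements are integral over `P` and have pole
order `≤ m` "at infinity" (w.r.t. the second standard chart `K[1/x₀, xᵢ/x₀]` of `ℙ^g`, expressed via
valuation rings of `F`) has dimension `≤ [F:E] (m + N₀ + 1)^g`: the trace coordinates
`f ↦ (Tr(f ωⱼ))ⱼ` w.r.t. an integral basis land in polynomials of total degree `≤ m + N₀`.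

Main statement: `finrank_le_of_integral_of_goodV`.
-/
import Mathlib

set_option autoImplicit false

namespace Fermat.Agent.AV

open MvPolynomial

section OInf

variable {K : Type*} [Field K] {g : ℕ} (E : Type*) [Field E]
  [Algebra (MvPolynomial (Fin g) K) E] [IsFractionRing (MvPolynomial (Fin g) K) E]

/-- the valuation ring of the degree valuation on `K(x₁,…,x_g)`: fractions `p/q` with
`deg p ≤ deg q`. -/
def degValuationSubring : ValuationSubring E where
  carrier := {z | ∃ p q : MvPolynomial (Fin g) K, q ≠ 0 ∧ p.totalDegree ≤ q.totalDegree ∧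
    z * algebraMap (MvPolynomial (Fin g) K) E q = algebraMap (MvPolynomial (Fin g) K) E p}
  mul_mem' := by
    rintro z z' ⟨p, q, hq, hd, h⟩ ⟨p', q', hq', hd', h'⟩
    refine ⟨p * p', q * q', mul_ne_zero hq hq', ?_, ?_⟩
    · calc (p * p').totalDegree ≤ p.totalDegree + p'.totalDegree := totalDegree_mul _ _
        _ ≤ q.totalDegree + q'.totalDegree := add_le_add hd hd'
        _ = (q * q').totalDegree := (totalDegree_mul_of_isDomain hq hq').symm
    · rw [map_mul, map_mul, ← h, ← h']; ring
  one_mem' := ⟨1, 1, one_ne_zero, le_rfl, by simp⟩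
  add_mem' := by
    rintro z z' ⟨p, q, hq, hd, h⟩ ⟨p', q', hq', hd', h'⟩
    refine ⟨p * q' + p' * q, q * q', mul_ne_zero hq hq', ?_, ?_⟩
    · have hqq : (q * q').totalDegree = q.totalDegree + q'.totalDegree :=
        totalDegree_mul_of_isDomain hq hq'
      refine (totalDegree_add _ _).trans (max_le ?_ ?_)
      · calc (p * q').totalDegree ≤ p.totalDegree + q'.totalDegree := totalDegree_mul _ _
          _ ≤ q.totalDegree + q'.totalDegree := by omega
          _ = _ := hqq.symm
      · calc (p' * q).totalDegree ≤ p'.totalDegree + q.totalDegree := totalDegree_mul _ _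
          _ ≤ q.totalDegree + q'.totalDegree := by omega
          _ = _ := hqq.symm
    · rw [map_mul, map_add, map_mul, map_mul, ← h, ← h']; ring
  zero_mem' := ⟨0, 1, one_ne_zero, by simp, by simp⟩
  neg_mem' := by
    rintro z ⟨p, q, hq, hd, h⟩
    exact ⟨-p, q, hq, by rwa [totalDegree_neg], by rw [map_neg, ← h]; ring⟩
  mem_or_inv_mem' := by
    intro z
    obtain ⟨p, q, hq, hz⟩ := IsFractionRing.div_surjective (A := MvPolynomial (Fin g) K) z
    have hq0 : q ≠ 0 := nonZeroDivisors.ne_zero hq
    have hqE : algebraMap (MvPolynomial (Fin g) K) E q ≠ 0 := by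
      rwa [Ne, IsFractionRing.to_map_eq_zero_iff]
    rcases le_total p.totalDegree q.totalDegree with h | h
    · left
      exact ⟨p, q, hq0, h, by rw [← hz, div_mul_cancel₀ _ hqE]⟩
    · by_cases hp0 : p = 0
      · left
        subst hp0
        exact ⟨0, 1, one_ne_zero, by simp, by rw [← hz]; simp⟩
      · right
        have hpE : algebraMap (MvPolynomial (Fin g) K) E p ≠ 0 := by
          rwa [Ne, IsFractionRing.to_map_eq_zero_iff]
        exact ⟨q, p, hp0, h, by rw [← hz, inv_div, div_mul_cancel₀ _ hpE]⟩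

theorem mem_degValuationSubring {z : E} : z ∈ degValuationSubring (K := K) (g := g) E ↔
    ∃ p q : MvPolynomial (Fin g) K, q ≠ 0 ∧ p.totalDegree ≤ q.totalDegree ∧
    z * algebraMap (MvPolynomial (Fin g) K) E q = algebraMap (MvPolynomial (Fin g) K) E p :=
  Iff.rfl

theorem degVS_algebraMap_X_ne_zero (i : Fin g) :
    algebraMap (MvPolynomial (Fin g) K) E (X i) ≠ 0 := by
  rw [Ne, IsFractionRing.to_map_eq_zero_iff]
  exact X_ne_zero i

/-- a polynomial `τ` with `τ / x₀^M` of non-positive degree has degree `≤ M`. -/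
theorem degVS_totalDegree_le_of_div_mem (i₀ : Fin g) (τ : MvPolynomial (Fin g) K) (M : ℕ)
    (h : algebraMap (MvPolynomial (Fin g) K) E τ /
      (algebraMap (MvPolynomial (Fin g) K) E (X i₀)) ^ M ∈ degValuationSubring (K := K) (g := g) E) :
    τ.totalDegree ≤ M := by
  obtain ⟨p, q, hq, hd, h⟩ := h
  by_cases hτ : τ = 0
  · subst hτ; simp
  have hX : algebraMap (MvPolynomial (Fin g) K) E (X i₀) ≠ 0 := degVS_algebraMap_X_ne_zero E i₀
  have h1 : τ * q = p * (X i₀) ^ M := by
    apply IsFractionRing.injective (MvPolynomial (Fin g) K) E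
    rw [map_mul, map_mul, map_pow, ← h]
    field_simp
  have hp : p ≠ 0 := by
    rintro rfl
    rw [zero_mul] at h1
    exact (mul_ne_zero hτ hq) h1
  have h2 := congrArg totalDegree h1
  rw [totalDegree_mul_of_isDomain hτ hq,
    totalDegree_mul_of_isDomain hp (pow_ne_zero _ (X_ne_zero i₀)), totalDegree_X_pow] at h2
  omega

theorem degVS_algebraMap_C_mem (c : K) :
    algebraMap (MvPolynomial (Fin g) K) E (C c) ∈ degValuationSubring (K := K) (g := g) E :=
  ⟨C c, 1, one_ne_zero, by simp, by simp⟩

theorem degVS_inv_X_mem (i₀ : Fin g) :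
    (algebraMap (MvPolynomial (Fin g) K) E (X i₀))⁻¹ ∈ degValuationSubring (K := K) (g := g) E :=
  ⟨1, X i₀, X_ne_zero i₀, by simp, by
    rw [inv_mul_cancel₀ (degVS_algebraMap_X_ne_zero E i₀), map_one]⟩

theorem degVS_X_div_X_mem (i i₀ : Fin g) :
    algebraMap (MvPolynomial (Fin g) K) E (X i) / algebraMap (MvPolynomial (Fin g) K) E (X i₀) ∈
      degValuationSubring (K := K) (g := g) E :=
  ⟨X i, X i₀, X_ne_zero i₀, by simp, by
    rw [div_mul_cancel₀ _ (degVS_algebraMap_X_ne_zero E i₀)]⟩

end OInf

theorem isIntegral_subring_of_monic_root {F : Type*} [Field F] (T : Subring F) (q : Polynomial F)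
    (hq : q.Monic) (hc : ∀ i, q.coeff i ∈ T) (y : F) (hy : q.eval y = 0) : IsIntegral T y := by
  have hsub : (↑q.coeffs : Set F) ⊆ T := by
    intro c hc'
    obtain ⟨n, _, rfl⟩ := Polynomial.mem_coeffs_iff.mp hc'
    exact hc n
  refine ⟨q.toSubring T hsub, (Polynomial.monic_toSubring q T hsub).mpr hq, ?_⟩
  rw [← Polynomial.eval_map, Algebra.algebraMap_ofSubring, Polynomial.map_toSubring]
  exact hy

theorem valuationSubring_mem_of_monic_root {F : Type*} [Field F] (V : ValuationSubring F)
    (q : Polynomial F) (hq : q.Monic) (hc : ∀ i, q.coeff i ∈ V) (y : F) (hy : q.eval y = 0) :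
    y ∈ V := by
  have h1 : IsIntegral V.toSubring y := isIntegral_subring_of_monic_root V.toSubring q hq hc y hy
  haveI : IsIntegrallyClosedIn V.toSubring F := inferInstanceAs (IsIntegrallyClosedIn V F)
  obtain ⟨z, hz⟩ := IsIntegrallyClosedIn.algebraMap_eq_of_integral h1
  rw [← hz]
  exact z.2

section GoodV

variable {K : Type*} [Field K] {g : ℕ} {F : Type*} [Field F]
  [Algebra (MvPolynomial (Fin g) K) F] [Algebra K F] [IsScalarTower K (MvPolynomial (Fin g) K) F]

/-- valuation rings of `F` "at infinity" w.r.t. the coordinates `x` and the chart `x_{i₀} ≠ 0`. -/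
def GoodV (i₀ : Fin g) (V : ValuationSubring F) : Prop :=
  (∀ c : K, algebraMap K F c ∈ V) ∧
  (algebraMap (MvPolynomial (Fin g) K) F (X i₀))⁻¹ ∈ V ∧
  ∀ i, algebraMap (MvPolynomial (Fin g) K) F (X i) / algebraMap (MvPolynomial (Fin g) K) F (X i₀) ∈ V

theorem GoodV.div_pow_mem (hinj : Function.Injective (algebraMap (MvPolynomial (Fin g) K) F))
    {i₀ : Fin g} {V : ValuationSubring F} (hV : GoodV (K := K) i₀ V)
    (a : MvPolynomial (Fin g) K) {m : ℕ} (ha : a.totalDegree ≤ m) :
    algebraMap (MvPolynomial (Fin g) K) F a /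
      (algebraMap (MvPolynomial (Fin g) K) F (X i₀)) ^ m ∈ V := by
  set ξ : Fin g → F := fun i => algebraMap (MvPolynomial (Fin g) K) F (X i) with hξ
  have hξ0 : ξ i₀ ≠ 0 := by
    intro h
    have : (X i₀ : MvPolynomial (Fin g) K) = 0 := hinj (by rw [map_zero]; exact h)
    exact X_ne_zero i₀ this
  rw [a.as_sum, map_sum, Finset.sum_div]
  refine sum_mem (fun μ hμ => ?_)
  have hμm : (∑ i, μ i) ≤ m := by
    have := (le_totalDegree hμ).trans ha
    rwa [Finsupp.sum_fintype _ _ (fun _ => rfl)] at this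
  have hmon : algebraMap (MvPolynomial (Fin g) K) F (monomial μ (coeff μ a)) =
      algebraMap K F (coeff μ a) * ∏ i, ξ i ^ μ i := by
    rw [monomial_eq, map_mul, Finsupp.prod_fintype _ _ (fun i => pow_zero _), map_prod]
    congr 1
    · rw [← MvPolynomial.algebraMap_eq, ← IsScalarTower.algebraMap_apply]
    · refine Finset.prod_congr rfl (fun i _ => ?_)
      rw [map_pow]
  have hid : algebraMap (MvPolynomial (Fin g) K) F (monomial μ (coeff μ a)) / ξ i₀ ^ m =
      algebraMap K F (coeff μ a) * (∏ i, (ξ i / ξ i₀) ^ μ i) * ((ξ i₀)⁻¹) ^ (m - ∑ i, μ i) := by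
    rw [hmon]
    have h1 : ∏ i, (ξ i / ξ i₀) ^ μ i = (∏ i, ξ i ^ μ i) / ξ i₀ ^ (∑ i, μ i) := by
      simp_rw [div_pow]
      rw [Finset.prod_div_distrib, Finset.prod_pow_eq_pow_sum]
    rw [h1, inv_pow]
    have h2 : ξ i₀ ^ m = ξ i₀ ^ (∑ i, μ i) * ξ i₀ ^ (m - ∑ i, μ i) := by
      rw [← pow_add]; congr 1; omega
    rw [h2]
    field_simp
  rw [hid]
  exact mul_mem (mul_mem (hV.1 _) (prod_mem (fun i _ => pow_mem (hV.2.2 i) _))) (pow_mem hV.2.1 _)

/-- an element integral over `K[x]` has bounded pole order at infinity. -/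
theorem exists_div_pow_mem_of_isIntegral
    (hinj : Function.Injective (algebraMap (MvPolynomial (Fin g) K) F)) (i₀ : Fin g) {ω : F}
    (hω : IsIntegral (MvPolynomial (Fin g) K) ω) :
    ∃ N : ℕ, ∀ V : ValuationSubring F, GoodV (K := K) i₀ V →
      ω / (algebraMap (MvPolynomial (Fin g) K) F (X i₀)) ^ N ∈ V := by
  obtain ⟨p, hp, hpe⟩ := hω
  set N := (Finset.range (p.natDegree + 1)).sup (fun i => (p.coeff i).totalDegree) with hN
  refine ⟨N, fun V hV => ?_⟩
  set ξ₀ : F := algebraMap (MvPolynomial (Fin g) K) F (X i₀) with hξ₀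
  set u : F := (ξ₀⁻¹) ^ N with hu
  set p' := p.map (algebraMap (MvPolynomial (Fin g) K) F) with hp'
  have hp'm : p'.Monic := hp.map _
  have hnat : p'.natDegree = p.natDegree := hp.natDegree_map _
  have hq : (p'.scaleRoots u).Monic := (Polynomial.monic_scaleRoots_iff u).mpr hp'm
  have hroot : (p'.scaleRoots u).eval (u * ω) = 0 := by
    rw [Polynomial.scaleRoots_eval_mul, hp', Polynomial.eval_map, hpe, mul_zero]
  have hdeg : ∀ i, (p.coeff i).totalDegree ≤ N * (p.natDegree - i) := by
    intro i
    rcases lt_trichotomy i p.natDegree with h | h | h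
    · have h1 : (p.coeff i).totalDegree ≤ N :=
        Finset.le_sup (f := fun i => (p.coeff i).totalDegree)
          (Finset.mem_range.mpr (by omega))
      calc (p.coeff i).totalDegree ≤ N * 1 := by rw [mul_one]; exact h1
        _ ≤ N * (p.natDegree - i) := Nat.mul_le_mul_left _ (by omega)
    · subst h
      have : p.coeff p.natDegree = 1 := hp
      rw [this]
      simp
    · rw [Polynomial.coeff_eq_zero_of_natDegree_lt h]
      simp
  have hcoeff : ∀ i, (p'.scaleRoots u).coeff i ∈ V := by
    intro i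
    rw [Polynomial.coeff_scaleRoots, hnat, hp', Polynomial.coeff_map, hu, ← pow_mul, inv_pow,
      ← div_eq_mul_inv]
    exact hV.div_pow_mem hinj (p.coeff i) (hdeg i)
  have := valuationSubring_mem_of_monic_root V _ hq hcoeff _ hroot
  rwa [hu, inv_pow, mul_comm, ← div_eq_mul_inv] at this

end GoodV

theorem finrank_restrictDegree_le (K : Type*) [Field K] (g N : ℕ) :
    Module.finrank K (restrictDegree (Fin g) K N) ≤ (N + 1) ^ g := by
  have hb := basisRestrictSupport K {n : Fin g →₀ ℕ | ∀ i, n i ≤ N}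
  have h1 : Module.finrank K (restrictDegree (Fin g) K N) =
      Nat.card ↥{n : Fin g →₀ ℕ | ∀ i, n i ≤ N} := by
    unfold restrictDegree
    exact Module.finrank_eq_nat_card_basis hb
  rw [h1]
  let φ : ↥{n : Fin g →₀ ℕ | ∀ i, n i ≤ N} → (Fin g → Fin (N + 1)) :=
    fun n i => ⟨n.1 i, Nat.lt_succ_of_le (n.2 i)⟩
  have hφ : Function.Injective φ := by
    intro n n' h
    apply Subtype.ext
    ext i
    have := congrFun h i
    simpa [φ] using this
  have := Nat.card_le_card_of_injective φ hφ
  simpa using this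

theorem finrank_restrictTotalDegree_le (K : Type*) [Field K] (g N : ℕ) :
    Module.finrank K (restrictTotalDegree (Fin g) K N) ≤ (N + 1) ^ g :=
  (Submodule.finrank_mono (restrictTotalDegree_le_restrictDegree (Fin g) K N)).trans
    (finrank_restrictDegree_le K g N)

section Main

variable {K : Type*} [Field K] {g : ℕ} (E F : Type*) [Field E] [Field F]
  [Algebra (MvPolynomial (Fin g) K) E] [IsFractionRing (MvPolynomial (Fin g) K) E]
  [Algebra E F] [Algebra (MvPolynomial (Fin g) K) F] [IsScalarTower (MvPolynomial (Fin g) K) E F]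
  [Algebra K E] [Algebra K F] [IsScalarTower K (MvPolynomial (Fin g) K) E] [IsScalarTower K E F]
  [IsScalarTower K (MvPolynomial (Fin g) K) F]

/-- `V` lies over the place at infinity of `E = K(x)`: it contains the degree valuation ring. -/
def AtInf (V : ValuationSubring F) : Prop :=
  ∀ z : E, z ∈ degValuationSubring (K := K) (g := g) E → algebraMap E F z ∈ V

variable {F} in
theorem AtInf.goodV {V : ValuationSubring F} (hV : AtInf (K := K) (g := g) E F V) (i₀ : Fin g) :
    GoodV (K := K) i₀ V := by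
  refine ⟨fun c => ?_, ?_, fun i => ?_⟩
  · have := hV _ (degVS_algebraMap_C_mem (K := K) (g := g) E c)
    rwa [← IsScalarTower.algebraMap_apply, ← MvPolynomial.algebraMap_eq,
      ← IsScalarTower.algebraMap_apply] at this
  · have := hV _ (degVS_inv_X_mem (K := K) (g := g) E i₀)
    rwa [map_inv₀, ← IsScalarTower.algebraMap_apply] at this
  · have := hV _ (degVS_X_div_X_mem (K := K) (g := g) E i i₀)
    rwa [map_div₀, ← IsScalarTower.algebraMap_apply, ← IsScalarTower.algebraMap_apply] at this

/-- an element of `F` lying in every valuation ring at infinity is integral over the degree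
valuation ring of `E`. -/
theorem isIntegral_degVS_of_forall_mem (h : F)
    (hall : ∀ V : ValuationSubring F, AtInf (K := K) (g := g) E F V → h ∈ V) :
    IsIntegral (degValuationSubring (K := K) (g := g) E) h := by
  set O := degValuationSubring (K := K) (g := g) E with hO
  have hmem : h ∈ (integralClosure O F).toSubring := by
    rw [Subring.eq_iInf_of_isIntegrallyClosedIn (R := (integralClosure O F).toSubring),
      Subring.mem_iInf]
    rintro ⟨V, hV⟩
    apply hall V
    intro z hz
    apply hV
    exact (integralClosure O F).algebraMap_mem ⟨z, hz⟩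
  exact hmem

theorem trace_mem_degVS [FiniteDimensional E F] (h : F)
    (hall : ∀ V : ValuationSubring F, AtInf (K := K) (g := g) E F V → h ∈ V) :
    Algebra.trace E F h ∈ degValuationSubring (K := K) (g := g) E := by
  have hi := isIntegral_degVS_of_forall_mem (K := K) (g := g) E F h hall
  have ht : IsIntegral (degValuationSubring (K := K) (g := g) E) (Algebra.trace E F h) :=
    Algebra.isIntegral_trace hi
  obtain ⟨z, hz⟩ := IsIntegrallyClosed.isIntegral_iff.mp ht
  rw [← hz]
  exact z.2

/-- every element of `E` has bounded pole order at infinity. -/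
theorem degVS_exists_div_pow_mem (i₀ : Fin g) (z : E) :
    ∃ C : ℕ, ∀ n : ℕ, C ≤ n →
      z / (algebraMap (MvPolynomial (Fin g) K) E (X i₀)) ^ n ∈
        degValuationSubring (K := K) (g := g) E := by
  obtain ⟨p, q, hq, hz⟩ := IsFractionRing.div_surjective (A := MvPolynomial (Fin g) K) z
  have hq0 : q ≠ 0 := nonZeroDivisors.ne_zero hq
  have hqE : algebraMap (MvPolynomial (Fin g) K) E q ≠ 0 := by
    rwa [Ne, IsFractionRing.to_map_eq_zero_iff]
  have hX : algebraMap (MvPolynomial (Fin g) K) E (X i₀) ≠ 0 := degVS_algebraMap_X_ne_zero E i₀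
  refine ⟨p.totalDegree, fun n hn => ⟨p, q * X i₀ ^ n, mul_ne_zero hq0 (pow_ne_zero _ (X_ne_zero i₀)),
    ?_, ?_⟩⟩
  · rw [totalDegree_mul_of_isDomain hq0 (pow_ne_zero _ (X_ne_zero i₀)), totalDegree_X_pow]
    omega
  · rw [← hz, map_mul, map_pow]
    field_simp

/-- a nonzero element `a` of `F` that is regular at a place `V` at infinity divides a fixed
power of `1/x₀` there. -/
theorem exists_pow_div_mem_of_mem [FiniteDimensional E F] (i₀ : Fin g) (a : F) (ha : a ≠ 0) :
    ∃ C : ℕ, ∀ V : ValuationSubring F, AtInf (K := K) (g := g) E F V → a ∈ V →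
      ((algebraMap (MvPolynomial (Fin g) K) F (X i₀))⁻¹) ^ C / a ∈ V := by
  classical
  have hint : IsIntegral E a := Algebra.IsIntegral.isIntegral a
  set p := minpoly E a with hp
  have hc0 : p.coeff 0 ≠ 0 := minpoly.coeff_zero_ne_zero hint ha
  set n := p.natDegree with hn
  set x₀ : E := algebraMap (MvPolynomial (Fin g) K) E (X i₀) with hx₀
  have hx₀ne : x₀ ≠ 0 := degVS_algebraMap_X_ne_zero E i₀
  have hξ : algebraMap (MvPolynomial (Fin g) K) F (X i₀) = algebraMap E F x₀ := by
    rw [hx₀, ← IsScalarTower.algebraMap_apply]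
  have hCi := fun i : ℕ => degVS_exists_div_pow_mem (K := K) (g := g) E i₀ (p.coeff (i + 1) / p.coeff 0)
  choose Ci hCi using hCi
  set C := (Finset.range n).sup Ci with hC
  refine ⟨C, fun V hV haV => ?_⟩
  -- the relation
  have hrel : algebraMap E F (p.coeff 0) +
      a * ∑ i ∈ Finset.range n, algebraMap E F (p.coeff (i + 1)) * a ^ i = 0 := by
    have h0 : Polynomial.aeval a p = 0 := minpoly.aeval E a
    rw [Polynomial.aeval_eq_sum_range, Finset.sum_range_succ'] at h0
    simp only [pow_zero, Algebra.smul_def, mul_one] at h0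
    rw [add_comm, Finset.mul_sum]
    rw [← h0]
    congr 1
    refine Finset.sum_congr rfl (fun i _ => ?_)
    rw [pow_succ]
    ring
  have hc0F : algebraMap E F (p.coeff 0) ≠ 0 := by
    rwa [Ne, map_eq_zero]
  have hxF : algebraMap E F x₀ ≠ 0 := by rwa [Ne, map_eq_zero]
  have hinv : ((algebraMap E F x₀)⁻¹) ^ C / a =
      - ∑ i ∈ Finset.range n,
        algebraMap E F ((p.coeff (i + 1) / p.coeff 0) / x₀ ^ C) * a ^ i := by
    have h1 : a * ∑ i ∈ Finset.range n, algebraMap E F (p.coeff (i + 1)) * a ^ i =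
        - algebraMap E F (p.coeff 0) := by
      linear_combination hrel
    have h2 : ∑ i ∈ Finset.range n,
        algebraMap E F ((p.coeff (i + 1) / p.coeff 0) / x₀ ^ C) * a ^ i =
        (∑ i ∈ Finset.range n, algebraMap E F (p.coeff (i + 1)) * a ^ i) /
          (algebraMap E F (p.coeff 0) * (algebraMap E F x₀) ^ C) := by
      rw [Finset.sum_div]
      refine Finset.sum_congr rfl (fun i _ => ?_)
      rw [map_div₀, map_div₀, map_pow]
      field_simp
    rw [h2, inv_pow]
    have h3 : ∑ i ∈ Finset.range n, algebraMap E F (p.coeff (i + 1)) * a ^ i =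
        - algebraMap E F (p.coeff 0) / a := by
      rw [← h1]
      field_simp
    rw [h3]
    field_simp
  rw [hξ, hinv]
  refine neg_mem (sum_mem (fun i hi => mul_mem ?_ (pow_mem haV _)))
  exact hV _ (hCi i C (Finset.le_sup hi))

/-- **The degree bound.**  `F` a finite separable extension of `E = K(x₁,…,x_g)`; `M k` a family of
`K`-subspaces of `F`, integral over `K[x]`, with pole order at the places at infinity
bounded by `C (k+1)`.  Then `dim M k ≤ [F:E] (C(k+1) + N₀ + 1)^g`. -/
theorem finrank_le_of_integral_of_atInf [FiniteDimensional E F] [Algebra.IsSeparable E F]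
    (i₀ : Fin g) (M : ℕ → Submodule K F)
    (hint : ∀ k, ∀ f ∈ M k, IsIntegral (MvPolynomial (Fin g) K) f)
    (C : ℕ) (hC : ∀ V : ValuationSubring F, AtInf (K := K) (g := g) E F V → ∀ k, ∀ f ∈ M k,
      f / (algebraMap (MvPolynomial (Fin g) K) F (X i₀)) ^ (C * (k + 1)) ∈ V) :
    ∃ N₀ : ℕ, ∀ k, FiniteDimensional K (M k) ∧
      Module.finrank K (M k) ≤ Module.finrank E F * (C * (k + 1) + N₀ + 1) ^ g := by
  classical
  have hinj : Function.Injective (algebraMap (MvPolynomial (Fin g) K) F) := by
    rw [IsScalarTower.algebraMap_eq (MvPolynomial (Fin g) K) E F]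
    exact (algebraMap E F).injective.comp (IsFractionRing.injective (MvPolynomial (Fin g) K) E)
  obtain ⟨s, b, hb_int⟩ := FiniteDimensional.exists_is_basis_integral (MvPolynomial (Fin g) K) E F
  have hN := fun j : s => exists_div_pow_mem_of_isIntegral (K := K) hinj i₀ (hb_int j)
  choose N hN using hN
  set N₀ := Finset.univ.sup N with hN₀
  refine ⟨N₀, fun k => ?_⟩
  set Md := C * (k + 1) + N₀ with hMd
  set ξ₀ : F := algebraMap (MvPolynomial (Fin g) K) F (X i₀) with hξ₀
  set x₀ : E := algebraMap (MvPolynomial (Fin g) K) E (X i₀) with hx₀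
  have hξx : ξ₀ = algebraMap E F x₀ := by
    rw [hξ₀, hx₀, ← IsScalarTower.algebraMap_apply]
  -- the target space of polynomials of bounded degree
  let ι : MvPolynomial (Fin g) K →ₗ[K] E :=
    (IsScalarTower.toAlgHom K (MvPolynomial (Fin g) K) E).toLinearMap
  let W : Submodule K E := (restrictTotalDegree (Fin g) K Md).map ι
  -- the trace coordinates
  let T : s → F →ₗ[K] E := fun j =>
    ((Algebra.trace E F).restrictScalars K).comp (LinearMap.mulRight K (b j))
  have hT : ∀ j f, T j f = Algebra.trace E F (f * b j) := fun j f => rfl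
  have hW : ∀ j, ∀ f ∈ M k, T j f ∈ W := by
    intro j f hf
    rw [hT]
    -- integrality over the polynomial ring
    have h1 : IsIntegral (MvPolynomial (Fin g) K) (f * b j) := (hint k f hf).mul (hb_int j)
    have h2 : IsIntegral (MvPolynomial (Fin g) K) (Algebra.trace E F (f * b j)) :=
      Algebra.isIntegral_trace h1
    obtain ⟨τ, hτ⟩ := IsIntegrallyClosed.isIntegral_iff.mp h2
    -- integrality at infinity
    have h3 : ∀ V : ValuationSubring F, AtInf (K := K) (g := g) E F V →
        (f * b j) / ξ₀ ^ Md ∈ V := by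
      intro V hV
      have hVg : GoodV (K := K) i₀ V := hV.goodV E i₀
      have hN₀j : N j ≤ N₀ := Finset.le_sup (Finset.mem_univ j)
      have e : (f * b j) / ξ₀ ^ Md =
          (f / ξ₀ ^ (C * (k + 1))) * (b j / ξ₀ ^ (N j)) * (ξ₀⁻¹) ^ (N₀ - N j) := by
        have hξne : ξ₀ ≠ 0 := by
          intro h
          have : (X i₀ : MvPolynomial (Fin g) K) = 0 := hinj (by rw [map_zero]; exact h)
          exact X_ne_zero i₀ this
        have : Md = C * (k + 1) + N j + (N₀ - N j) := by omega
        rw [this, pow_add, pow_add, inv_pow]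
        field_simp
      rw [e]
      exact mul_mem (mul_mem (hC V hV k f hf) (hN j V hVg)) (pow_mem hVg.2.1 _)
    have h4 := trace_mem_degVS (K := K) (g := g) E F _ h3
    have h5 : Algebra.trace E F ((f * b j) / ξ₀ ^ Md) =
        algebraMap (MvPolynomial (Fin g) K) E τ / x₀ ^ Md := by
      rw [hτ, hξx, ← map_pow, div_eq_mul_inv, ← map_inv₀, mul_comm, ← Algebra.smul_def,
        LinearMap.map_smul, smul_eq_mul, mul_comm, ← div_eq_mul_inv]
    rw [h5] at h4
    have h6 := degVS_totalDegree_le_of_div_mem (K := K) E i₀ τ Md h4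
    rw [← hτ]
    exact ⟨τ, (mem_restrictTotalDegree (Fin g) Md τ).mpr h6, rfl⟩
  -- the linear map
  let Ψ : M k →ₗ[K] (s → W) :=
    LinearMap.pi (fun j => ((T j).comp (M k).subtype).codRestrict W (fun f => hW j f.1 f.2))
  have hΨ : Function.Injective Ψ := by
    rw [← LinearMap.ker_eq_bot, LinearMap.ker_eq_bot']
    intro f hf
    have h0 : ∀ j, Algebra.trace E F (f.1 * b j) = 0 := by
      intro j
      have h := congrFun hf j
      have h' : (((Ψ f) j : W) : E) = 0 := by rw [h]; rfl
      exact h'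
    have h1 : Algebra.traceForm E F f.1 = 0 := by
      apply b.ext
      intro j
      simp [Algebra.traceForm_apply, h0 j]
    have h2 : f.1 = 0 := (traceForm_nondegenerate E F).1 f.1 (fun y => by rw [h1]; rfl)
    exact Subtype.ext h2
  haveI : FiniteDimensional K W := inferInstance
  refine ⟨FiniteDimensional.of_injective Ψ hΨ, ?_⟩
  have hcard : Fintype.card s = Module.finrank E F := (Module.finrank_eq_card_basis b).symm
  have hWle : Module.finrank K W ≤ (Md + 1) ^ g :=
    (Submodule.finrank_map_le ι _).trans (finrank_restrictTotalDegree_le K g Md)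
  calc Module.finrank K (M k) ≤ Module.finrank K (s → W) :=
        LinearMap.finrank_le_finrank_of_injective hΨ
    _ = Fintype.card s * Module.finrank K W := by
        rw [Module.finrank_pi_fintype K]; simp
    _ ≤ Module.finrank E F * (Md + 1) ^ g := by
        rw [hcard]; exact Nat.mul_le_mul_left _ hWle

/-- the same with the hypothesis required for all "good" valuation rings. -/
theorem finrank_le_of_integral_of_goodV [FiniteDimensional E F] [Algebra.IsSeparable E F]
    (i₀ : Fin g) (M : ℕ → Submodule K F)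
    (hint : ∀ k, ∀ f ∈ M k, IsIntegral (MvPolynomial (Fin g) K) f)
    (C : ℕ) (hC : ∀ V : ValuationSubring F, GoodV (K := K) i₀ V → ∀ k, ∀ f ∈ M k,
      f / (algebraMap (MvPolynomial (Fin g) K) F (X i₀)) ^ (C * (k + 1)) ∈ V) :
    ∃ N₀ : ℕ, ∀ k, FiniteDimensional K (M k) ∧
      Module.finrank K (M k) ≤ Module.finrank E F * (C * (k + 1) + N₀ + 1) ^ g :=
  finrank_le_of_integral_of_atInf (K := K) (g := g) E F i₀ M hint C
    (fun V hV => hC V (hV.goodV E i₀))

end Main
end Fermat.Agent.AV
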