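/-
PROJECT AV (S26 long shot) — AV4 (growth bounds), helper2: the degree bound WITHOUT separability.

`K` perfect, `F` finite over `E = K(x)` (possibly inseparable).  Let `F_s` be the separable closure
of `E` in `F` and `q = p^n` with `F^q ⊆ F_s`.  The Frobenius twist `f ↦ f^q` is an injective
`Frob`-semilinear map `F → F_s`; it preserves `K`-dimensions (Mathlib `rank_eq_of_equiv_equiv`),
integrality over `K[x]`, and (pulling valuation rings of `F_s` back to `F`) the pole bounds at
infinity.  So `finrank_le_of_integral_of_atInf` for `F_s/E` gives the bound for `F/E`.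
-/
import Mathlib
import Fermat.Agent.AV.AV4_helper2_DegreeBound

set_option autoImplicit false
set_option linter.style.haveILetI false

namespace Fermat.Agent.AV

open MvPolynomial

section Insep

variable {K : Type*} [Field K] {g : ℕ} (E F : Type*) [Field E] [Field F]
  [Algebra (MvPolynomial (Fin g) K) E] [IsFractionRing (MvPolynomial (Fin g) K) E]
  [Algebra E F] [Algebra (MvPolynomial (Fin g) K) F] [IsScalarTower (MvPolynomial (Fin g) K) E F]
  [Algebra K E] [Algebra K F] [IsScalarTower K (MvPolynomial (Fin g) K) E] [IsScalarTower K E F]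
  [IsScalarTower K (MvPolynomial (Fin g) K) F]

/-- **The degree bound without separability** (`K` perfect): Frobenius twist into the separable
closure of `E` in `F`. -/
theorem finrank_le_of_integral_of_atInf_perfect [PerfectField K] [FiniteDimensional E F]
    (i₀ : Fin g) (M : ℕ → Submodule K F)
    (hint : ∀ k, ∀ f ∈ M k, IsIntegral (MvPolynomial (Fin g) K) f)
    (C : ℕ) (hC : ∀ V : ValuationSubring F, AtInf (K := K) (g := g) E F V → ∀ k, ∀ f ∈ M k,
      f / (algebraMap (MvPolynomial (Fin g) K) F (X i₀)) ^ (C * (k + 1)) ∈ V) :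
    ∃ e C' N₀ : ℕ, ∀ k, FiniteDimensional K (M k) ∧
      Module.finrank K (M k) ≤ e * (C' * (k + 1) + N₀ + 1) ^ g := by
  classical
  obtain ⟨p, hp⟩ := ExpChar.exists K
  let Fs := separableClosure E F
  haveI i3 : IsScalarTower (MvPolynomial (Fin g) K) E Fs :=
    IsScalarTower.of_algebraMap_eq (fun a => Subtype.ext
      (IsScalarTower.algebraMap_apply (MvPolynomial (Fin g) K) E F a))
  haveI i4 : IsScalarTower K E Fs :=
    IsScalarTower.of_algebraMap_eq (fun a => Subtype.ext (IsScalarTower.algebraMap_apply K E F a))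
  haveI i5 : IsScalarTower K (MvPolynomial (Fin g) K) Fs :=
    IsScalarTower.of_algebraMap_eq (fun a => Subtype.ext
      (IsScalarTower.algebraMap_apply K (MvPolynomial (Fin g) K) F a))
  haveI i10 : IsScalarTower K Fs F := IsScalarTower.of_algebraMap_eq (fun a => rfl)
  haveI i11 : IsScalarTower (MvPolynomial (Fin g) K) Fs F :=
    IsScalarTower.of_algebraMap_eq (fun a => rfl)
  haveI : ExpChar Fs p := expChar_of_injective_algebraMap (algebraMap K Fs).injective p
  set n := IsPurelyInseparable.exponent Fs F with hn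
  let Φ : F →+* Fs := IsPurelyInseparable.iterateFrobenius Fs F p (le_refl n)
  have hΦ : ∀ a : F, algebraMap Fs F (Φ a) = a ^ p ^ n :=
    fun a => IsPurelyInseparable.algebraMap_iterateFrobenius Fs p (le_refl n) a
  have hΦalg : ∀ a : Fs, Φ (algebraMap Fs F a) = a ^ p ^ n :=
    fun a => IsPurelyInseparable.iterateFrobenius_algebraMap F p (le_refl n) a
  let Φs : F →ₛₗ[iterateFrobenius K p n] Fs :=
    IsPurelyInseparable.iterateFrobeniusₛₗ K Fs F p (le_refl n)
  have hΦs : ∀ a : F, Φs a = Φ a := fun a => rfl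
  haveI : RingHomSurjective (iterateFrobenius K p n) :=
    ⟨(bijective_iterateFrobenius K p n).surjective⟩
  let M' : ℕ → Submodule K Fs := fun k => (M k).map Φs
  -- integrality
  have hint' : ∀ k, ∀ h ∈ M' k, IsIntegral (MvPolynomial (Fin g) K) h := by
    rintro k h ⟨f, hf, rfl⟩
    rw [← isIntegral_algebraMap_iff (algebraMap Fs F).injective, hΦs, hΦ]
    exact (hint k f hf).pow _
  -- poles
  have hξ : algebraMap (MvPolynomial (Fin g) K) F (X i₀) =
      algebraMap Fs F (algebraMap (MvPolynomial (Fin g) K) Fs (X i₀)) :=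
    IsScalarTower.algebraMap_apply _ _ _ _
  have hC' : ∀ Vs : ValuationSubring Fs, AtInf (K := K) (g := g) E Fs Vs → ∀ k, ∀ h ∈ M' k,
      h / (algebraMap (MvPolynomial (Fin g) K) Fs (X i₀)) ^ (p ^ n * C * (k + 1)) ∈ Vs := by
    rintro Vs hVs k h ⟨f, hf, rfl⟩
    have hV : AtInf (K := K) (g := g) E F (Vs.comap Φ) := by
      intro z hz
      rw [ValuationSubring.mem_comap, IsScalarTower.algebraMap_apply E Fs F, hΦalg]
      exact pow_mem (hVs z hz) _
    have h1 := hC (Vs.comap Φ) hV k f hf
    rw [ValuationSubring.mem_comap, map_div₀, map_pow, hξ, hΦalg, ← pow_mul] at h1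
    rw [hΦs]
    convert h1 using 3
    ring
  obtain ⟨N₀, hN₀⟩ := finrank_le_of_integral_of_atInf (K := K) (g := g) E Fs i₀ M' hint'
    (p ^ n * C) hC'
  refine ⟨Module.finrank E Fs, p ^ n * C, N₀, fun k => ?_⟩
  obtain ⟨hfd, hle⟩ := hN₀ k
  -- transfer along the semilinear bijection
  have hinj : Function.Injective Φs := fun a b hab => Φ.injective hab
  let jhom : M k →+ M' k :=
    { toFun := fun f => ⟨Φs f.1, Submodule.mem_map_of_mem f.2⟩
      map_zero' := Subtype.ext (map_zero Φs)
      map_add' := fun a b => Subtype.ext (map_add Φs a.1 b.1) }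
  have jbij : Function.Bijective jhom := by
    constructor
    · intro a b hab
      exact Subtype.ext (hinj (congrArg Subtype.val hab))
    · rintro ⟨h, f, hf, rfl⟩
      exact ⟨⟨f, hf⟩, rfl⟩
  have hrank := rank_eq_of_equiv_equiv (iterateFrobenius K p n) (AddEquiv.ofBijective jhom jbij)
    (bijective_iterateFrobenius K p n) (fun r m => Subtype.ext (map_smulₛₗ Φs r m.1))
  have hfin : Module.Finite K (M k) := by
    rw [← Module.rank_lt_aleph0_iff, hrank, Module.rank_lt_aleph0_iff]
    exact hfd
  refine ⟨hfin, ?_⟩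
  have : Module.finrank K (M k) = Module.finrank K (M' k) := congrArg Cardinal.toNat hrank
  rw [this]
  exact hle

end Insep
end Fermat.Agent.AV
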