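/-
PROJECT AV (S26 long shot) — AV4 (growth bounds), helper2: the lower bound `ℓ(kD) ≥ c₁ k^g` and the
"ample" property, in the language of prime divisor systems.

* `PDS.card_le_finrank_RRSpace`: if `x₁,…,x_g ∈ L(bD)` are algebraically independent and `D ≥ 0`,
  then `(⌊k/(bg)⌋ + 1)^g ≤ ℓ(kD)` (count monomials).
* `PDS.lower_bound`: the real form `c₁ k^g ≤ ℓ(kD)` with `c₁ = (bg)^{-g}`.
* `PDS.ample_of_amp0`: if `D ≥ 0` and every prime divisor `p` outside the support of `D` is a zero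
  of some nonzero `s ∈ ⋃ L(kD)` (i.e. `A ∖ Supp D` is affine with coordinate ring `⋃ L(kD)`),
  then for every effective divisor `E` there are `a` and `s ≠ 0` with `s ∈ L(aD - E)`.
-/
import Mathlib
import Fermat.Agent.AV.AV5_helper2_PDS
import Fermat.Agent.AV.AV5_helper2_Degree

set_option autoImplicit false

universe u v w

namespace Fermat.Agent.AV

open scoped Classical

namespace PDS

variable {K : Type u} {F : Type v} [Field K] [Field F] [Algebra K F] (S : PDS.{u, v, w} K F)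

theorem one_mem_RRSpace {E : S.ι → ℤ} (hE : ∀ p, 0 ≤ E p) : (1 : F) ∈ S.RRSpace E := by
  intro p
  rw [(S.ord p).map_one]
  exact_mod_cast neg_nonpos.mpr (hE p)

theorem pow_mem_RRSpace {E : S.ι → ℤ} {f : F} (hf : f ∈ S.RRSpace E) (n : ℕ) :
    f ^ n ∈ S.RRSpace (fun p => (n : ℤ) * E p) := by
  induction n with
  | zero =>
    rw [pow_zero]
    exact S.one_mem_RRSpace (fun p => by simp)
  | succ n ih =>
    rw [pow_succ]
    refine S.RRSpace_mono (fun p => ?_) (S.mul_mem_RRSpace ih hf)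
    push_cast
    linarith

theorem prod_mem_RRSpace {α : Type*} (s : Finset α) (f : α → F) (E : α → S.ι → ℤ)
    (h : ∀ a ∈ s, f a ∈ S.RRSpace (E a)) :
    ∏ a ∈ s, f a ∈ S.RRSpace (fun p => ∑ a ∈ s, E a p) := by
  induction s using Finset.induction_on with
  | empty =>
    rw [Finset.prod_empty]
    exact S.one_mem_RRSpace (fun p => by simp)
  | insert a s ha ih =>
    rw [Finset.prod_insert ha]
    have h1 := h a (Finset.mem_insert_self a s)
    have h2 := ih (fun a' ha' => h a' (Finset.mem_insert_of_mem ha'))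
    refine S.RRSpace_mono (fun p => ?_) (S.mul_mem_RRSpace h1 h2)
    rw [Finset.sum_insert ha]

/-- a monomial of total degree `≤ k / b` in elements of `L(bD)` lies in `L(kD)`. -/
theorem monomial_mem_RRSpace {D : S.ι → ℤ} (hD : ∀ p, 0 ≤ D p) {g b k : ℕ} (x : Fin g → F)
    (hxD : ∀ i, x i ∈ S.RRSpace (S.nsmulDiv b D)) (e : Fin g → ℕ) (he : (∑ i, e i) * b ≤ k) :
    ∏ i, x i ^ e i ∈ S.RRSpace (S.nsmulDiv k D) := by
  have h1 := S.prod_mem_RRSpace Finset.univ (fun i => x i ^ e i)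
    (fun i p => (e i : ℤ) * S.nsmulDiv b D p) (fun i _ => S.pow_mem_RRSpace (hxD i) (e i))
  refine S.RRSpace_mono (fun p => ?_) h1
  unfold nsmulDiv
  have h2 : ∑ i, (e i : ℤ) * ((b : ℤ) * D p) = ((∑ i, e i : ℕ) : ℤ) * b * D p := by
    push_cast
    rw [Finset.sum_mul, Finset.sum_mul]
    refine Finset.sum_congr rfl (fun i _ => ?_)
    ring
  rw [h2]
  have h3 : (((∑ i, e i : ℕ) : ℤ) * b) ≤ (k : ℤ) := by exact_mod_cast he
  exact mul_le_mul_of_nonneg_right h3 (hD p)

/-- counting monomials: `(⌊k/(bg)⌋+1)^g ≤ ℓ(kD)`. -/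
theorem card_le_finrank_RRSpace {D : S.ι → ℤ} (hD : ∀ p, 0 ≤ D p) {g b : ℕ} (x : Fin g → F)
    (hx : AlgebraicIndependent K x) (hxD : ∀ i, x i ∈ S.RRSpace (S.nsmulDiv b D)) (k : ℕ)
    [FiniteDimensional K (S.RRSpace (S.nsmulDiv k D))] :
    (k / (b * g) + 1) ^ g ≤ Module.finrank K (S.RRSpace (S.nsmulDiv k D)) := by
  set N := k / (b * g) with hN
  -- the index embedding
  let emb : (Fin g → Fin (N + 1)) → (Fin g →₀ ℕ) :=
    fun ν => Finsupp.equivFunOnFinite.symm (fun i => (ν i : ℕ))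
  have hemb : Function.Injective emb := by
    intro ν ν' h
    funext i
    have := congrArg (fun s : Fin g →₀ ℕ => s i) h
    simp only [emb, Finsupp.equivFunOnFinite_symm_apply_apply] at this
    exact Fin.ext this
  have hli0 : LinearIndependent K (fun ν : Fin g → Fin (N + 1) =>
      (MvPolynomial.monomial (emb ν) (1 : K) : MvPolynomial (Fin g) K)) := by
    have := (MvPolynomial.basisMonomials (Fin g) K).linearIndependent.comp emb hemb
    rwa [MvPolynomial.coe_basisMonomials] at this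
  have hinj : Function.Injective (MvPolynomial.aeval x : MvPolynomial (Fin g) K →ₐ[K] F) :=
    algebraicIndependent_iff_injective_aeval.mp hx
  have hli1 : LinearIndependent K (fun ν : Fin g → Fin (N + 1) =>
      (MvPolynomial.aeval x : MvPolynomial (Fin g) K →ₐ[K] F)
        (MvPolynomial.monomial (emb ν) (1 : K))) := by
    have := hli0.map' (MvPolynomial.aeval x : MvPolynomial (Fin g) K →ₐ[K] F).toLinearMap
      (LinearMap.ker_eq_bot.mpr hinj)
    exact this
  have hval : ∀ ν : Fin g → Fin (N + 1),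
      (MvPolynomial.aeval x : MvPolynomial (Fin g) K →ₐ[K] F)
        (MvPolynomial.monomial (emb ν) (1 : K)) = ∏ i, x i ^ (ν i : ℕ) := by
    intro ν
    rw [MvPolynomial.aeval_monomial, map_one, one_mul, Finsupp.prod_fintype _ _ (fun i => pow_zero _)]
    rfl
  have hmem : ∀ ν : Fin g → Fin (N + 1),
      (MvPolynomial.aeval x : MvPolynomial (Fin g) K →ₐ[K] F)
        (MvPolynomial.monomial (emb ν) (1 : K)) ∈ S.RRSpace (S.nsmulDiv k D) := by
    intro ν
    rw [hval]
    refine S.monomial_mem_RRSpace hD x hxD (fun i => (ν i : ℕ)) ?_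
    have h1 : ∑ i, ((ν i : ℕ)) ≤ g * N := by
      calc ∑ i, ((ν i : ℕ)) ≤ ∑ _i : Fin g, N :=
            Finset.sum_le_sum (fun i _ => Nat.lt_succ_iff.mp (ν i).2)
        _ = g * N := by simp
    calc (∑ i, ((ν i : ℕ))) * b ≤ g * N * b := Nat.mul_le_mul_right _ h1
      _ = (b * g) * (k / (b * g)) := by rw [hN]; ring
      _ ≤ k := Nat.mul_div_le _ _
  let w : (Fin g → Fin (N + 1)) → S.RRSpace (S.nsmulDiv k D) := fun ν => ⟨_, hmem ν⟩
  have hli2 : LinearIndependent K w :=
    LinearIndependent.of_comp (S.RRSpace (S.nsmulDiv k D)).subtype hli1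
  have := hli2.fintype_card_le_finrank
  simpa using this

/-- the lower bound `c₁ k^g ≤ ℓ(kD)` with `c₁ = (bg)^{-g}` (`c₁ = 1` if `g = 0`). -/
theorem lower_bound {D : S.ι → ℤ} (hD : ∀ p, 0 ≤ D p) {g b : ℕ} (hb : 0 < b) (x : Fin g → F)
    (hx : AlgebraicIndependent K x) (hxD : ∀ i, x i ∈ S.RRSpace (S.nsmulDiv b D))
    (hfin : ∀ k : ℕ, FiniteDimensional K (S.RRSpace (S.nsmulDiv k D))) :
    ∃ c₁ : ℝ, 0 < c₁ ∧ ∀ k : ℕ,
      c₁ * (k : ℝ) ^ g ≤ (Module.finrank K (S.RRSpace (S.nsmulDiv k D)) : ℝ) := by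
  rcases Nat.eq_zero_or_pos g with hg | hg
  · subst hg
    refine ⟨1, one_pos, fun k => ?_⟩
    haveI := hfin k
    have := S.card_le_finrank_RRSpace hD x hx hxD k
    simp only [pow_zero, mul_one] at this ⊢
    exact_mod_cast this
  · have hbg : 0 < b * g := Nat.mul_pos hb hg
    have hbgR : (0 : ℝ) < ((b * g : ℕ) : ℝ) := by exact_mod_cast hbg
    refine ⟨(1 / ((b * g : ℕ) : ℝ)) ^ g, by positivity, fun k => ?_⟩
    haveI := hfin k
    have h1 := S.card_le_finrank_RRSpace hD x hx hxD k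
    have h2 : (k : ℝ) / ((b * g : ℕ) : ℝ) ≤ ((k / (b * g) + 1 : ℕ) : ℝ) := by
      rw [div_le_iff₀ hbgR]
      have := (Nat.lt_mul_div_succ k hbg).le
      have h3 : ((k : ℕ) : ℝ) ≤ ((b * g * (k / (b * g) + 1) : ℕ) : ℝ) := by exact_mod_cast this
      rw [Nat.cast_mul] at h3
      linarith
    calc (1 / ((b * g : ℕ) : ℝ)) ^ g * (k : ℝ) ^ g = ((k : ℝ) / ((b * g : ℕ) : ℝ)) ^ g := by
          rw [← mul_pow]; congr 1; ring
      _ ≤ (((k / (b * g) + 1 : ℕ) : ℝ)) ^ g :=
          pow_le_pow_left₀ (by positivity) h2 g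
      _ = (((k / (b * g) + 1) ^ g : ℕ) : ℝ) := by push_cast; ring
      _ ≤ _ := by exact_mod_cast h1

/-- the "ample" property from: every prime divisor outside `Supp D` is a zero of a nonzero element
of `⋃ L(kD)`. -/
theorem ample_of_amp0 {D : S.ι → ℤ} (hD : ∀ p, 0 ≤ D p)
    (hamp0 : ∀ p, D p = 0 → ∃ k : ℕ, ∃ s : F, s ≠ 0 ∧ s ∈ S.RRSpace (S.nsmulDiv k D) ∧
      (1 : WithTop ℤ) ≤ S.ord p s)
    (E : S.ι → ℤ) (hE : ∀ p, 0 ≤ E p) (hEfin : {p | E p ≠ 0}.Finite) :
    ∃ a : ℕ, ∃ s : F, s ≠ 0 ∧ s ∈ S.RRSpace (fun p => (a : ℤ) * D p - E p) := by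
  -- induction over finite sets of primes
  have key : ∀ T : Finset S.ι, ∃ a : ℕ, ∃ s : F, s ≠ 0 ∧
      s ∈ S.RRSpace (fun p => (a : ℤ) * D p - (if p ∈ T then E p else 0)) := by
    intro T
    induction T using Finset.induction_on with
    | empty =>
      refine ⟨0, 1, one_ne_zero, S.one_mem_RRSpace (fun p => by simp)⟩
    | insert p₀ T hp₀ ih =>
      obtain ⟨a, s, hs0, hs⟩ := ih
      rcases eq_or_lt_of_le (hD p₀) with h0 | hpos
      · -- `D p₀ = 0`
        obtain ⟨k₀, s₀, hs₀0, hs₀, hord⟩ := hamp0 p₀ h0.symm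
        set n := (E p₀).toNat with hn
        have hnE : (n : ℤ) = E p₀ := Int.toNat_of_nonneg (hE p₀)
        have hs₀' : s₀ ∈ S.RRSpace (fun q => (k₀ : ℤ) * D q - (if q = p₀ then 1 else 0)) := by
          intro q
          show ((-((k₀ : ℤ) * D q - (if q = p₀ then 1 else 0)) : ℤ) : WithTop ℤ) ≤ S.ord q s₀
          by_cases hq : q = p₀
          · subst hq
            rw [if_pos rfl, ← h0]
            simpa using hord
          · rw [if_neg hq]
            simpa [nsmulDiv] using hs₀ q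
        have hpow := S.pow_mem_RRSpace hs₀' n
        refine ⟨a + n * k₀, s * s₀ ^ n, mul_ne_zero hs0 (pow_ne_zero _ hs₀0), ?_⟩
        refine S.RRSpace_mono (fun q => ?_) (S.mul_mem_RRSpace hs hpow)
        by_cases hq : q = p₀
        · subst hq
          simp only [hp₀, if_false, Finset.mem_insert, true_or, if_true]
          push_cast
          rw [← h0, hnE]
          simp
        · have hiff : (q ∈ insert p₀ T) ↔ q ∈ T := by
            simp [Finset.mem_insert, hq]
          simp only [hiff, if_neg hq]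
          push_cast
          linarith [show ((a : ℤ) + n * k₀) * D q = a * D q + n * (k₀ * D q) by ring]
      · -- `D p₀ ≥ 1`
        set n := (E p₀).toNat with hn
        have hnE : (n : ℤ) = E p₀ := Int.toNat_of_nonneg (hE p₀)
        refine ⟨a + n, s, hs0, S.RRSpace_mono (fun q => ?_) hs⟩
        by_cases hq : q = p₀
        · subst hq
          simp only [hp₀, if_false, Finset.mem_insert, true_or, if_true]
          push_cast
          rw [hnE]
          nlinarith [hE q, hD q]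
        · have hiff : (q ∈ insert p₀ T) ↔ q ∈ T := by
            simp [Finset.mem_insert, hq]
          simp only [hiff]
          push_cast
          nlinarith [hD q, Int.natCast_nonneg n]
  obtain ⟨a, s, hs0, hs⟩ := key hEfin.toFinset
  refine ⟨a, s, hs0, S.RRSpace_mono (fun p => ?_) hs⟩
  by_cases hp : p ∈ hEfin.toFinset
  · rw [if_pos hp]
  · rw [if_neg hp]
    have : E p = 0 := by
      by_contra h
      exact hp (hEfin.mem_toFinset.mpr h)
    rw [this]

end PDS

end Fermat.Agent.AV
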