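/-
PROJECT AV (S26 long shot) — AV4 (growth bounds), helper2: the upper bound `ℓ(kD) ≤ c₂ k^g` in the
language of prime divisor systems, and the packaged growth statement feeding AV5.

Inputs (to be supplied by the scheme side, `F = K(A)`, `U = A ∖ Supp D = Spec R` affine):
* `x : Fin g → F` algebraically independent, `x i ∈ L(b₁ D)`; `F` finite separable over `K(x)`;
  every `f ∈ L(kD)` is integral over `K[x]` (Noether normalisation of `R = ⋃ L(kD)`);
* a finite system of "pole equations" `a j ∈ F`, `a j ≠ 0`: every valuation ring `V ⊇ K` of `F`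
  has a `j` with `a j ∈ V` and `f^b (a j)^k ∈ V` for all `f ∈ L(kD)` (centre `ξ` of `V` on the
  proper `A`; `a j` a local equation of `bD` at `ξ` — or, with `b = 1`, any nonzero function
  regular near `ξ` and vanishing on `Supp D`, by Hartogs at `ξ`; base-point-free form:
  `a j = 1 / t j` with `t j ∈ L(bD)` generating `O(bD)` at `ξ`, see `PDS.poles_of_bpf`);
* `amp0`: every prime divisor outside `Supp D` is a zero of some nonzero `s ∈ ⋃ L(kD)`.
Outputs: `hfin`, `hlow`, `hup`, `hample` of `degree_eq_pow_of_coverData`, and the final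
`PDS.degree_eq_pow_of_geometric`.
-/
import Mathlib
import Fermat.Agent.AV.AV4_helper2_DegreeBound
import Fermat.Agent.AV.AV4_helper2_Insep
import Fermat.Agent.AV.AV4_helper2_Lower

set_option autoImplicit false
set_option linter.style.haveILetI false

universe u v w

namespace Fermat.Agent.AV

open scoped Classical
open MvPolynomial

theorem valuationSubring_mem_of_pow_mem {F : Type*} [Field F] (V : ValuationSubring F) {y : F}
    {n : ℕ} (hn : 0 < n) (h : y ^ n ∈ V) : y ∈ V := by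
  have h1 : IsIntegral V (y ^ n) := by
    have : y ^ n = algebraMap V F ⟨y ^ n, h⟩ := rfl
    rw [this]
    exact isIntegral_algebraMap
  obtain ⟨z, hz⟩ := IsIntegrallyClosed.exists_algebraMap_eq_of_isIntegral_pow hn h1
  rw [← hz]
  exact z.2

section Inst

variable {K : Type u} {F : Type v} [Field K] [Field F] [Algebra K F] {g : ℕ} (x : Fin g → F)

/-- the coordinates as elements of `K(x)`. -/
noncomputable def coordE : Fin g → IntermediateField.adjoin K (Set.range x) :=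
  fun i => ⟨x i, IntermediateField.subset_adjoin K _ ⟨i, rfl⟩⟩

/-- `K[X] → K(x)`. -/
@[reducible] noncomputable def algPolyE :
    Algebra (MvPolynomial (Fin g) K) (IntermediateField.adjoin K (Set.range x)) :=
  (aeval (coordE x)).toRingHom.toAlgebra

/-- `K[X] → F`. -/
@[reducible] noncomputable def algPolyF : Algebra (MvPolynomial (Fin g) K) F :=
  (aeval x).toRingHom.toAlgebra

theorem algPoly_coe_aeval (p : MvPolynomial (Fin g) K) :
    ((aeval (coordE x) p : IntermediateField.adjoin K (Set.range x)) : F) = aeval x p := by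
  have : (aeval x : MvPolynomial (Fin g) K →ₐ[K] F) =
      (IntermediateField.val _).comp (aeval (coordE x)) := by
    apply MvPolynomial.algHom_ext
    intro i
    simp [coordE]
  rw [this]
  rfl

theorem algPoly_tower_PEF :
    letI := algPolyE (K := K) x
    letI := algPolyF (K := K) x
    IsScalarTower (MvPolynomial (Fin g) K) (IntermediateField.adjoin K (Set.range x)) F := by
  letI := algPolyE (K := K) x
  letI := algPolyF (K := K) x
  refine IsScalarTower.of_algebraMap_eq (fun p => ?_)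
  exact (algPoly_coe_aeval x p).symm

theorem algPoly_tower_KPE :
    letI := algPolyE (K := K) x
    IsScalarTower K (MvPolynomial (Fin g) K) (IntermediateField.adjoin K (Set.range x)) := by
  letI := algPolyE (K := K) x
  refine IsScalarTower.of_algebraMap_eq (fun c => ?_)
  show _ = aeval (coordE x) (algebraMap K (MvPolynomial (Fin g) K) c)
  rw [AlgHom.commutes]

theorem algPoly_tower_KPF :
    letI := algPolyF (K := K) x
    IsScalarTower K (MvPolynomial (Fin g) K) F := by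
  letI := algPolyF (K := K) x
  refine IsScalarTower.of_algebraMap_eq (fun c => ?_)
  show _ = aeval x (algebraMap K (MvPolynomial (Fin g) K) c)
  rw [AlgHom.commutes]

theorem algPoly_isFractionRing (hx : AlgebraicIndependent K x) :
    letI := algPolyE (K := K) x
    IsFractionRing (MvPolynomial (Fin g) K) (IntermediateField.adjoin K (Set.range x)) := by
  letI := algPolyE (K := K) x
  have hinj : Function.Injective (algebraMap (MvPolynomial (Fin g) K)
      (IntermediateField.adjoin K (Set.range x))) := by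
    intro p q hpq
    have h1 : aeval x p = aeval x q := by
      exact (algPoly_coe_aeval x p).symm.trans
        ((congrArg Subtype.val hpq).trans (algPoly_coe_aeval x q))
    exact algebraicIndependent_iff_injective_aeval.mp hx h1
  haveI : FaithfulSMul (MvPolynomial (Fin g) K) (IntermediateField.adjoin K (Set.range x)) :=
    (faithfulSMul_iff_algebraMap_injective _ _).mpr hinj
  refine IsFractionRing.of_field _ _ (fun z => ?_)
  obtain ⟨r, hr, s, hs, hz⟩ := IntermediateField.mem_adjoin_iff_div.mp z.2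
  rw [Algebra.adjoin_range_eq_range_aeval] at hr hs
  obtain ⟨a, rfl⟩ := hr
  obtain ⟨b, rfl⟩ := hs
  refine ⟨a, b, Subtype.ext ?_⟩
  rw [hz]
  show _ = ((aeval (coordE x) a / aeval (coordE x) b : IntermediateField.adjoin K (Set.range x)) : F)
  rw [IntermediateField.coe_div, algPoly_coe_aeval, algPoly_coe_aeval]
  rfl


theorem isIntegral_poly_of_isIntegral_adjoin (hx : AlgebraicIndependent K x) {f : F}
    (hf : IsIntegral (Algebra.adjoin K (Set.range x)) f) :
    letI := algPolyF (K := K) x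
    IsIntegral (MvPolynomial (Fin g) K) f := by
  letI := algPolyF (K := K) x
  obtain ⟨q, hq, hqe⟩ := hf
  refine ⟨q.map (hx.aevalEquiv.symm : Algebra.adjoin K (Set.range x) →+* MvPolynomial (Fin g) K),
    hq.map _, ?_⟩
  rw [Polynomial.eval₂_map]
  have hcomp : (algebraMap (MvPolynomial (Fin g) K) F).comp
      (hx.aevalEquiv.symm : Algebra.adjoin K (Set.range x) →+* MvPolynomial (Fin g) K) =
      algebraMap (Algebra.adjoin K (Set.range x)) F := by
    ext a
    have h1 := hx.algebraMap_aevalEquiv (hx.aevalEquiv.symm a)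
    rw [AlgEquiv.apply_symm_apply] at h1
    exact h1.symm
  rw [hcomp]
  exact hqe

/-- from a finite system of "pole equations" `a j` (every valuation ring `V ⊇ K` of `F` has a `j`
with `a j ∈ V` and `f^b (a j)^k ∈ V` for all `f ∈ M k`) to a linear pole bound at infinity. -/
theorem exists_bound_of_poles (hx : AlgebraicIndependent K x)
    [FiniteDimensional (IntermediateField.adjoin K (Set.range x)) F]
    (M : ℕ → Submodule K F)
    (b : ℕ) (hb : 0 < b) {r : ℕ} (a : Fin r → F) (ha0 : ∀ j, a j ≠ 0)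
    (hpole : ∀ V : ValuationSubring F, (∀ c : K, algebraMap K F c ∈ V) →
      ∃ j, a j ∈ V ∧ ∀ k : ℕ, ∀ f ∈ M k, f ^ b * (a j) ^ k ∈ V)
    (i₀ : Fin g) :
    letI := algPolyE (K := K) x
    letI := algPolyF (K := K) x
    haveI := algPoly_isFractionRing x hx
    ∃ C : ℕ, ∀ V : ValuationSubring F,
      AtInf (K := K) (g := g) (IntermediateField.adjoin K (Set.range x)) F V → ∀ k, ∀ f ∈ M k,
      f / (algebraMap (MvPolynomial (Fin g) K) F (X i₀)) ^ (C * (k + 1)) ∈ V := by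
  letI := algPolyE (K := K) x
  letI := algPolyF (K := K) x
  haveI := algPoly_tower_PEF (K := K) x
  haveI := algPoly_tower_KPE (K := K) x
  haveI := algPoly_tower_KPF (K := K) x
  haveI := algPoly_isFractionRing x hx
  have hinj : Function.Injective (algebraMap (MvPolynomial (Fin g) K) F) :=
    algebraicIndependent_iff_injective_aeval.mp hx
  have hCj := fun j => exists_pow_div_mem_of_mem (K := K) (g := g)
    (IntermediateField.adjoin K (Set.range x)) F i₀ (a j) (ha0 j)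
  choose Cj hCj using hCj
  set C' := Finset.univ.sup Cj with hC'
  refine ⟨C', ?_⟩
  intro V hV k f hf
  have hVg : GoodV (K := K) i₀ V := hV.goodV _ i₀
  set ξ₀ : F := algebraMap (MvPolynomial (Fin g) K) F (X i₀) with hξ₀
  have hξne : ξ₀ ≠ 0 := by
    intro h
    have : (X i₀ : MvPolynomial (Fin g) K) = 0 := hinj (by rw [map_zero]; exact h)
    exact X_ne_zero i₀ this
  obtain ⟨j, hjV, hj⟩ := hpole V hVg.1
  have hjle : Cj j ≤ C' := Finset.le_sup (Finset.mem_univ j)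
  have h1 : (ξ₀⁻¹) ^ C' / a j ∈ V := by
    have e : (ξ₀⁻¹) ^ C' / a j = ((ξ₀⁻¹) ^ (Cj j) / a j) * (ξ₀⁻¹) ^ (C' - Cj j) := by
      have : C' = Cj j + (C' - Cj j) := by omega
      rw [div_mul_eq_mul_div, ← pow_add, ← this]
    rw [e]
    exact mul_mem (hCj j V hV hjV) (pow_mem hVg.2.1 _)
  have h2 : f ^ b / ξ₀ ^ (C' * k) ∈ V := by
    have e : f ^ b / ξ₀ ^ (C' * k) = (f ^ b * (a j) ^ k) * ((ξ₀⁻¹) ^ C' / a j) ^ k := by
      have := ha0 j
      rw [div_pow, ← pow_mul, inv_pow]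
      field_simp
    rw [e]
    exact mul_mem (hj k f hf) (pow_mem h1 _)
  have h3 : (f / ξ₀ ^ (C' * k)) ^ b ∈ V := by
    have e : (f / ξ₀ ^ (C' * k)) ^ b =
        (f ^ b / ξ₀ ^ (C' * k)) * (ξ₀⁻¹) ^ (C' * k * (b - 1)) := by
      rw [div_pow, ← pow_mul, inv_pow]
      have : C' * k * b = C' * k + C' * k * (b - 1) := by
        have : b = 1 + (b - 1) := by omega
        nth_rewrite 1 [this]
        ring
      rw [this, pow_add]
      field_simp
    rw [e]
    exact mul_mem h2 (pow_mem hVg.2.1 _)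
  have h4 : f / ξ₀ ^ (C' * k) ∈ V := valuationSubring_mem_of_pow_mem V hb h3
  have e : f / ξ₀ ^ (C' * (k + 1)) = (f / ξ₀ ^ (C' * k)) * (ξ₀⁻¹) ^ C' := by
    rw [mul_add, mul_one, pow_add, inv_pow]
    field_simp
  rw [e]
  exact mul_mem h4 (pow_mem hVg.2.1 _)

/-- the abstract upper bound from a finite system of "pole equations", separable case
(`K` any field). -/
theorem upper_bound_of_poles (hx : AlgebraicIndependent K x)
    [FiniteDimensional (IntermediateField.adjoin K (Set.range x)) F]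
    [Algebra.IsSeparable (IntermediateField.adjoin K (Set.range x)) F]
    (M : ℕ → Submodule K F)
    (hint : ∀ k : ℕ, ∀ f ∈ M k, IsIntegral (Algebra.adjoin K (Set.range x)) f)
    (b : ℕ) (hb : 0 < b) {r : ℕ} (a : Fin r → F) (ha0 : ∀ j, a j ≠ 0)
    (hpole : ∀ V : ValuationSubring F, (∀ c : K, algebraMap K F c ∈ V) →
      ∃ j, a j ∈ V ∧ ∀ k : ℕ, ∀ f ∈ M k, f ^ b * (a j) ^ k ∈ V)
    (i₀ : Fin g) :
    ∃ e C N₀ : ℕ, ∀ k, FiniteDimensional K (M k) ∧
      Module.finrank K (M k) ≤ e * (C * (k + 1) + N₀ + 1) ^ g := by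
  obtain ⟨C, hC⟩ := exists_bound_of_poles x hx M b hb a ha0 hpole i₀
  letI := algPolyE (K := K) x
  letI := algPolyF (K := K) x
  haveI := algPoly_tower_PEF (K := K) x
  haveI := algPoly_tower_KPE (K := K) x
  haveI := algPoly_tower_KPF (K := K) x
  haveI := algPoly_isFractionRing x hx
  have hintP : ∀ k : ℕ, ∀ f ∈ M k, IsIntegral (MvPolynomial (Fin g) K) f :=
    fun k f hf => isIntegral_poly_of_isIntegral_adjoin x hx (hint k f hf)
  obtain ⟨N₀, hN₀⟩ := finrank_le_of_integral_of_atInf (K := K) (g := g)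
    (IntermediateField.adjoin K (Set.range x)) F i₀ M hintP C hC
  exact ⟨_, C, N₀, hN₀⟩

/-- the abstract upper bound from a finite system of "pole equations", `K` perfect, no
separability hypothesis. -/
theorem upper_bound_of_poles_perfect [PerfectField K] (hx : AlgebraicIndependent K x)
    [FiniteDimensional (IntermediateField.adjoin K (Set.range x)) F]
    (M : ℕ → Submodule K F)
    (hint : ∀ k : ℕ, ∀ f ∈ M k, IsIntegral (Algebra.adjoin K (Set.range x)) f)
    (b : ℕ) (hb : 0 < b) {r : ℕ} (a : Fin r → F) (ha0 : ∀ j, a j ≠ 0)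
    (hpole : ∀ V : ValuationSubring F, (∀ c : K, algebraMap K F c ∈ V) →
      ∃ j, a j ∈ V ∧ ∀ k : ℕ, ∀ f ∈ M k, f ^ b * (a j) ^ k ∈ V)
    (i₀ : Fin g) :
    ∃ e C N₀ : ℕ, ∀ k, FiniteDimensional K (M k) ∧
      Module.finrank K (M k) ≤ e * (C * (k + 1) + N₀ + 1) ^ g := by
  obtain ⟨C, hC⟩ := exists_bound_of_poles x hx M b hb a ha0 hpole i₀
  letI := algPolyE (K := K) x
  letI := algPolyF (K := K) x
  haveI := algPoly_tower_PEF (K := K) x
  haveI := algPoly_tower_KPE (K := K) x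
  haveI := algPoly_tower_KPF (K := K) x
  haveI := algPoly_isFractionRing x hx
  have hintP : ∀ k : ℕ, ∀ f ∈ M k, IsIntegral (MvPolynomial (Fin g) K) f :=
    fun k f hf => isIntegral_poly_of_isIntegral_adjoin x hx (hint k f hf)
  exact finrank_le_of_integral_of_atInf_perfect (K := K) (g := g)
    (IntermediateField.adjoin K (Set.range x)) F i₀ M hintP C hC

/-- the case `g = 0`: everything is finite over `K`. -/
theorem upper_bound_zero (x : Fin 0 → F)
    [FiniteDimensional (IntermediateField.adjoin K (Set.range x)) F] (M : Submodule K F) :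
    FiniteDimensional K M ∧
      Module.finrank K M ≤ Module.finrank (IntermediateField.adjoin K (Set.range x)) F := by
  have hE : IntermediateField.adjoin K (Set.range x) = ⊥ := by
    rw [Set.range_eq_empty, IntermediateField.adjoin_empty]
  have h1 : ∀ (L : IntermediateField K F), L = ⊥ → FiniteDimensional K L ∧ Module.finrank K L = 1 := by
    rintro L rfl
    exact ⟨inferInstance, IntermediateField.finrank_bot⟩
  obtain ⟨hfE, hrE⟩ := h1 _ hE
  haveI := hfE
  haveI : FiniteDimensional K F :=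
    Module.Finite.trans (IntermediateField.adjoin K (Set.range x)) F
  refine ⟨inferInstance, ?_⟩
  have h2 := Module.finrank_mul_finrank K (IntermediateField.adjoin K (Set.range x)) F
  rw [hrE, one_mul] at h2
  rw [h2]
  exact Submodule.finrank_le M

/-- real form of the bound `e (C(k+1)+N₀+1)^g`. -/
theorem real_bound_of_nat_bound {g : ℕ} (M : ℕ → Submodule K F) (e C N₀ : ℕ)
    (h : ∀ k, FiniteDimensional K (M k) ∧
      Module.finrank K (M k) ≤ e * (C * (k + 1) + N₀ + 1) ^ g) :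
    ∃ c₂ : ℝ, ∀ k : ℕ, FiniteDimensional K (M k) ∧
      (1 ≤ k → (Module.finrank K (M k) : ℝ) ≤ c₂ * (k : ℝ) ^ g) := by
  refine ⟨(e : ℝ) * ((2 * C + N₀ + 1 : ℕ) : ℝ) ^ g, fun k => ⟨(h k).1, fun hk => ?_⟩⟩
  have h1 : C * (k + 1) + N₀ + 1 ≤ (2 * C + N₀ + 1) * k := by nlinarith
  have h2 : ((C * (k + 1) + N₀ + 1 : ℕ) : ℝ) ^ g ≤ (((2 * C + N₀ + 1) * k : ℕ) : ℝ) ^ g :=
    pow_le_pow_left₀ (by positivity) (by exact_mod_cast h1) g
  calc (Module.finrank K (M k) : ℝ)
      ≤ ((e * (C * (k + 1) + N₀ + 1) ^ g : ℕ) : ℝ) := by exact_mod_cast (h k).2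
    _ = (e : ℝ) * ((C * (k + 1) + N₀ + 1 : ℕ) : ℝ) ^ g := by push_cast; ring
    _ ≤ (e : ℝ) * (((2 * C + N₀ + 1) * k : ℕ) : ℝ) ^ g :=
        mul_le_mul_of_nonneg_left h2 (by positivity)
    _ = _ := by rw [Nat.cast_mul, mul_pow]; ring

/-- the upper bound, all `g`, separable case. -/
theorem upper_bound_of_poles' (hx : AlgebraicIndependent K x)
    [FiniteDimensional (IntermediateField.adjoin K (Set.range x)) F]
    [Algebra.IsSeparable (IntermediateField.adjoin K (Set.range x)) F]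
    (M : ℕ → Submodule K F)
    (hint : ∀ k : ℕ, ∀ f ∈ M k, IsIntegral (Algebra.adjoin K (Set.range x)) f)
    (b : ℕ) (hb : 0 < b) {r : ℕ} (a : Fin r → F) (ha0 : ∀ j, a j ≠ 0)
    (hpole : ∀ V : ValuationSubring F, (∀ c : K, algebraMap K F c ∈ V) →
      ∃ j, a j ∈ V ∧ ∀ k : ℕ, ∀ f ∈ M k, f ^ b * (a j) ^ k ∈ V) :
    ∃ c₂ : ℝ, ∀ k : ℕ, FiniteDimensional K (M k) ∧
      (1 ≤ k → (Module.finrank K (M k) : ℝ) ≤ c₂ * (k : ℝ) ^ g) := by
  rcases Nat.eq_zero_or_pos g with hg | hg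
  · subst hg
    refine ⟨(Module.finrank (IntermediateField.adjoin K (Set.range x)) F : ℝ), fun k => ?_⟩
    obtain ⟨h1, h2⟩ := upper_bound_zero (K := K) x (M k)
    refine ⟨h1, fun _ => ?_⟩
    rw [pow_zero, mul_one]
    exact_mod_cast h2
  · obtain ⟨e, C, N₀, h⟩ := upper_bound_of_poles x hx M hint b hb a ha0 hpole ⟨0, hg⟩
    exact real_bound_of_nat_bound M e C N₀ h

/-- the upper bound, all `g`, `K` perfect, no separability hypothesis. -/
theorem upper_bound_of_poles_perfect' [PerfectField K] (hx : AlgebraicIndependent K x)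
    [FiniteDimensional (IntermediateField.adjoin K (Set.range x)) F]
    (M : ℕ → Submodule K F)
    (hint : ∀ k : ℕ, ∀ f ∈ M k, IsIntegral (Algebra.adjoin K (Set.range x)) f)
    (b : ℕ) (hb : 0 < b) {r : ℕ} (a : Fin r → F) (ha0 : ∀ j, a j ≠ 0)
    (hpole : ∀ V : ValuationSubring F, (∀ c : K, algebraMap K F c ∈ V) →
      ∃ j, a j ∈ V ∧ ∀ k : ℕ, ∀ f ∈ M k, f ^ b * (a j) ^ k ∈ V) :
    ∃ c₂ : ℝ, ∀ k : ℕ, FiniteDimensional K (M k) ∧
      (1 ≤ k → (Module.finrank K (M k) : ℝ) ≤ c₂ * (k : ℝ) ^ g) := by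
  rcases Nat.eq_zero_or_pos g with hg | hg
  · subst hg
    refine ⟨(Module.finrank (IntermediateField.adjoin K (Set.range x)) F : ℝ), fun k => ?_⟩
    obtain ⟨h1, h2⟩ := upper_bound_zero (K := K) x (M k)
    refine ⟨h1, fun _ => ?_⟩
    rw [pow_zero, mul_one]
    exact_mod_cast h2
  · obtain ⟨e, C, N₀, h⟩ := upper_bound_of_poles_perfect x hx M hint b hb a ha0 hpole ⟨0, hg⟩
    exact real_bound_of_nat_bound M e C N₀ h

end Inst

namespace PDS

variable {K : Type u} {F : Type v} [Field K] [Field F] [Algebra K F] (S : PDS.{u, v, w} K F)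

/-- **Growth of `ℓ(kD)`** from the geometric inputs ("pole equations" form). -/
theorem growth (D : S.ι → ℤ) (hD : ∀ p, 0 ≤ D p) {g : ℕ} (x : Fin g → F)
    (hx : AlgebraicIndependent K x)
    [FiniteDimensional (IntermediateField.adjoin K (Set.range x)) F]
    [Algebra.IsSeparable (IntermediateField.adjoin K (Set.range x)) F]
    (b₁ : ℕ) (hb₁ : 0 < b₁) (hxD : ∀ i, x i ∈ S.RRSpace (S.nsmulDiv b₁ D))
    (hint : ∀ k : ℕ, ∀ f ∈ S.RRSpace (S.nsmulDiv k D),
      IsIntegral (Algebra.adjoin K (Set.range x)) f)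
    (b : ℕ) (hb : 0 < b) {r : ℕ} (a : Fin r → F) (ha0 : ∀ j, a j ≠ 0)
    (hpole : ∀ V : ValuationSubring F, (∀ c : K, algebraMap K F c ∈ V) →
      ∃ j, a j ∈ V ∧ ∀ k : ℕ, ∀ f ∈ S.RRSpace (S.nsmulDiv k D), f ^ b * (a j) ^ k ∈ V) :
    (∀ k : ℕ, FiniteDimensional K (S.RRSpace (S.nsmulDiv k D))) ∧
    ∃ c₁ c₂ : ℝ, 0 < c₁ ∧ ∀ k : ℕ, 1 ≤ k →
      c₁ * (k : ℝ) ^ g ≤ (Module.finrank K (S.RRSpace (S.nsmulDiv k D)) : ℝ) ∧
      (Module.finrank K (S.RRSpace (S.nsmulDiv k D)) : ℝ) ≤ c₂ * (k : ℝ) ^ g := by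
  obtain ⟨c₂, h2⟩ := upper_bound_of_poles' x hx (fun k => S.RRSpace (S.nsmulDiv k D)) hint b hb a ha0
    hpole
  have hfin : ∀ k : ℕ, FiniteDimensional K (S.RRSpace (S.nsmulDiv k D)) := fun k => (h2 k).1
  obtain ⟨c₁, hc₁, h1⟩ := S.lower_bound hD hb₁ x hx hxD hfin
  exact ⟨hfin, c₁, c₂, hc₁, fun k hk => ⟨h1 k, (h2 k).2 hk⟩⟩

/-- **Growth of `ℓ(kD)`**, `K` perfect, no separability hypothesis. -/
theorem growth_perfect [PerfectField K] (D : S.ι → ℤ) (hD : ∀ p, 0 ≤ D p) {g : ℕ} (x : Fin g → F)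
    (hx : AlgebraicIndependent K x)
    [FiniteDimensional (IntermediateField.adjoin K (Set.range x)) F]
    (b₁ : ℕ) (hb₁ : 0 < b₁) (hxD : ∀ i, x i ∈ S.RRSpace (S.nsmulDiv b₁ D))
    (hint : ∀ k : ℕ, ∀ f ∈ S.RRSpace (S.nsmulDiv k D),
      IsIntegral (Algebra.adjoin K (Set.range x)) f)
    (b : ℕ) (hb : 0 < b) {r : ℕ} (a : Fin r → F) (ha0 : ∀ j, a j ≠ 0)
    (hpole : ∀ V : ValuationSubring F, (∀ c : K, algebraMap K F c ∈ V) →
      ∃ j, a j ∈ V ∧ ∀ k : ℕ, ∀ f ∈ S.RRSpace (S.nsmulDiv k D), f ^ b * (a j) ^ k ∈ V) :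
    (∀ k : ℕ, FiniteDimensional K (S.RRSpace (S.nsmulDiv k D))) ∧
    ∃ c₁ c₂ : ℝ, 0 < c₁ ∧ ∀ k : ℕ, 1 ≤ k →
      c₁ * (k : ℝ) ^ g ≤ (Module.finrank K (S.RRSpace (S.nsmulDiv k D)) : ℝ) ∧
      (Module.finrank K (S.RRSpace (S.nsmulDiv k D)) : ℝ) ≤ c₂ * (k : ℝ) ^ g := by
  obtain ⟨c₂, h2⟩ := upper_bound_of_poles_perfect' x hx (fun k => S.RRSpace (S.nsmulDiv k D)) hint
    b hb a ha0 hpole
  have hfin : ∀ k : ℕ, FiniteDimensional K (S.RRSpace (S.nsmulDiv k D)) := fun k => (h2 k).1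
  obtain ⟨c₁, hc₁, h1⟩ := S.lower_bound hD hb₁ x hx hxD hfin
  exact ⟨hfin, c₁, c₂, hc₁, fun k hk => ⟨h1 k, (h2 k).2 hk⟩⟩

/-- the base-point-free form of the pole hypothesis: `t j ∈ L(bD)` nonzero with, for every
valuation ring `V ⊇ K`, some `j` such that `f^b / t_j^k ∈ V` for all `f ∈ L(kD)`. -/
theorem poles_of_bpf (D : S.ι → ℤ) (hD : ∀ p, 0 ≤ D p) (b : ℕ) {r : ℕ} (t : Fin r → F)
    (hbpf : ∀ V : ValuationSubring F, (∀ c : K, algebraMap K F c ∈ V) →
      ∃ j, ∀ k : ℕ, ∀ f ∈ S.RRSpace (S.nsmulDiv k D), f ^ b / (t j) ^ k ∈ V)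
    (V : ValuationSubring F) (hV : ∀ c : K, algebraMap K F c ∈ V) :
    ∃ j, (t j)⁻¹ ∈ V ∧ ∀ k : ℕ, ∀ f ∈ S.RRSpace (S.nsmulDiv k D), f ^ b * ((t j)⁻¹) ^ k ∈ V := by
  obtain ⟨j, hj⟩ := hbpf V hV
  refine ⟨j, ?_, fun k f hf => ?_⟩
  · have h1 : (1 : F) ∈ S.RRSpace (S.nsmulDiv 1 D) :=
      S.one_mem_RRSpace (fun p => by unfold nsmulDiv; simpa using hD p)
    have := hj 1 1 h1
    simpa using this
  · have := hj k f hf
    rwa [div_eq_mul_inv, ← inv_pow] at this

/-- **The degree formula from geometric inputs**: `d = m^g`. -/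
theorem degree_eq_pow_of_geometric (D : S.ι → ℤ) (hD : ∀ p, 0 ≤ D p) {g : ℕ} (x : Fin g → F)
    (hx : AlgebraicIndependent K x)
    [FiniteDimensional (IntermediateField.adjoin K (Set.range x)) F]
    [Algebra.IsSeparable (IntermediateField.adjoin K (Set.range x)) F]
    (b₁ : ℕ) (hb₁ : 0 < b₁) (hxD : ∀ i, x i ∈ S.RRSpace (S.nsmulDiv b₁ D))
    (hint : ∀ k : ℕ, ∀ f ∈ S.RRSpace (S.nsmulDiv k D),
      IsIntegral (Algebra.adjoin K (Set.range x)) f)
    (b : ℕ) (hb : 0 < b) {r : ℕ} (a : Fin r → F) (ha0 : ∀ j, a j ≠ 0)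
    (hpole : ∀ V : ValuationSubring F, (∀ c : K, algebraMap K F c ∈ V) →
      ∃ j, a j ∈ V ∧ ∀ k : ℕ, ∀ f ∈ S.RRSpace (S.nsmulDiv k D), f ^ b * (a j) ^ k ∈ V)
    (hamp0 : ∀ p, D p = 0 → ∃ k : ℕ, ∃ s : F, s ≠ 0 ∧ s ∈ S.RRSpace (S.nsmulDiv k D) ∧
      (1 : WithTop ℤ) ≤ S.ord p s)
    (d m : ℕ) (hm : 0 < m)
    (hcov : ∀ j : ℕ, Nonempty (CoverDatum.{u, v, v, w, w} S D (d ^ j) (m ^ j))) :
    d = m ^ g := by
  obtain ⟨hfin, c₁, c₂, hc₁, hb12⟩ := S.growth D hD x hx b₁ hb₁ hxD hint b hb a ha0 hpole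
  exact degree_eq_pow_of_coverData S D g c₁ c₂ hc₁ 1 hfin (fun k hk => (hb12 k hk).1)
    (fun k hk => (hb12 k hk).2) (S.ample_of_amp0 hD hamp0) d m hm hcov

/-- **The degree formula from geometric inputs**, `K` perfect, no separability hypothesis. -/
theorem degree_eq_pow_of_geometric_perfect [PerfectField K] (D : S.ι → ℤ) (hD : ∀ p, 0 ≤ D p)
    {g : ℕ} (x : Fin g → F) (hx : AlgebraicIndependent K x)
    [FiniteDimensional (IntermediateField.adjoin K (Set.range x)) F]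
    (b₁ : ℕ) (hb₁ : 0 < b₁) (hxD : ∀ i, x i ∈ S.RRSpace (S.nsmulDiv b₁ D))
    (hint : ∀ k : ℕ, ∀ f ∈ S.RRSpace (S.nsmulDiv k D),
      IsIntegral (Algebra.adjoin K (Set.range x)) f)
    (b : ℕ) (hb : 0 < b) {r : ℕ} (a : Fin r → F) (ha0 : ∀ j, a j ≠ 0)
    (hpole : ∀ V : ValuationSubring F, (∀ c : K, algebraMap K F c ∈ V) →
      ∃ j, a j ∈ V ∧ ∀ k : ℕ, ∀ f ∈ S.RRSpace (S.nsmulDiv k D), f ^ b * (a j) ^ k ∈ V)
    (hamp0 : ∀ p, D p = 0 → ∃ k : ℕ, ∃ s : F, s ≠ 0 ∧ s ∈ S.RRSpace (S.nsmulDiv k D) ∧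
      (1 : WithTop ℤ) ≤ S.ord p s)
    (d m : ℕ) (hm : 0 < m)
    (hcov : ∀ j : ℕ, Nonempty (CoverDatum.{u, v, v, w, w} S D (d ^ j) (m ^ j))) :
    d = m ^ g := by
  obtain ⟨hfin, c₁, c₂, hc₁, hb12⟩ := S.growth_perfect D hD x hx b₁ hb₁ hxD hint b hb a ha0 hpole
  exact degree_eq_pow_of_coverData S D g c₁ c₂ hc₁ 1 hfin (fun k hk => (hb12 k hk).1)
    (fun k hk => (hb12 k hk).2) (S.ample_of_amp0 hD hamp0) d m hm hcov

end PDS

end Fermat.Agent.AV
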