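/-
PROJECT AV (S26) — helper5 — **the Picard functor of the cocycle model `LB`.**

* `LB.IsoData M N` : an isomorphism `M ≅ N` given on a common refinement `W k ≤ M.U (α k) ⊓ N.U (β k)`
  by units `f k` with `f k * g^M (α k) (α l) = g^N (β k) (β l) * f l`; `refl`, `symm`, `trans`, `tensor`,
  `inv`, `pullback`, and the coherence isomorphisms `tensorComm`, `tensorAssoc`, `trivialTensor`,
  `invTensor`, `pullbackId`, `pullbackComp`, `pullbackTensor` (no gluing needed anywhere);
* `LB.Iso M N := Nonempty (IsoData M N)`; `LB.isTrivial_iff_iso_trivial : M.IsTrivial ↔ Iso (trivial X) M`;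
  `LB.isUnit_of_cover`, `LB.isTrivial_of_chart_eq_top`;
* `PicGroup X` (an `AddCommGroup`), `PicGroup.mk`, `mk_tensor`, `mk_inv`, `mk_trivial`,
  `mk_eq_zero_iff : mk M = 0 ↔ M.IsTrivial`, `PicGroup.map φ : PicGroup X →+ PicGroup Y`, `map_mk`,
  `map_id`, `map_comp`;
* `Pic : Scheme.{u}ᵒᵖ ⥤ AddCommGrpCat.{u+1}`, `PicOver S : (Over S)ᵒᵖ ⥤ AddCommGrpCat.{u+1}`,
  `PicGroup.eq_zero_of_field`, `PicOver_unit_eq_zero` (`Pic (Spec K) = 0`).
-/
import Mathlib
import Fermat.Agent.AV.LB_helper5_Core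

set_option autoImplicit false
set_option linter.style.haveILetI false

open AlgebraicGeometry CategoryTheory Opposite TopologicalSpace

universe u

namespace Fermat.Agent.AV

noncomputable section

namespace LB

variable {X : Scheme.{u}}

/-- `g i j * g j i = 1` on any open inside both charts. -/
theorem g_mul_g_symm' (M : LB X) (i j : M.ι) (W : X.Opens) (hi : W ≤ M.U i) (hj : W ≤ M.U j) :
    res W (le_inf hi hj) (M.g i j) * res W (le_inf hj hi) (M.g j i) = 1 := by
  have h := M.cocycle' i j i W hi hj hi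
  rw [h, M.g_self, map_one]

/-- the transition functions of a tensor product, restricted. -/
theorem tensor_g_res (M N : LB X) (p q : M.ι × N.ι) (V : X.Opens)
    (h : V ≤ (M.tensor N).U p ⊓ (M.tensor N).U q) :
    res V h ((M.tensor N).g p q) =
      res V (le_inf ((h.trans inf_le_left).trans inf_le_left)
        ((h.trans inf_le_right).trans inf_le_left)) (M.g p.1 q.1) *
      res V (le_inf ((h.trans inf_le_left).trans inf_le_right)
        ((h.trans inf_le_right).trans inf_le_right)) (N.g p.2 q.2) := by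
  have h' : V ≤ (M.U p.1 ⊓ N.U p.2) ⊓ (M.U q.1 ⊓ N.U q.2) := h
  show res V h' (res _ _ (M.g p.1 q.1) * res _ _ (N.g p.2 q.2)) = _
  rw [map_mul, res_res, res_res]

/-- the transition functions of the inverse, restricted. -/
theorem inv_g_res (M : LB X) (i j : M.ι) (V : X.Opens) (h : V ≤ M.inv.U i ⊓ M.inv.U j) :
    res V h (M.inv.g i j) =
      res V (show V ≤ M.U j ⊓ M.U i from le_inf (h.trans inf_le_right) (h.trans inf_le_left))
        (M.g j i) := by
  have h' : V ≤ M.U i ⊓ M.U j := h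
  show res V h' (res _ _ (M.g j i)) = _
  rw [res_res]

/-- the transition functions of the pullback of a tensor product, restricted. -/
theorem pullback_tensor_g_res {Y : Scheme.{u}} (φ : Y ⟶ X) (M N : LB X) (p q : M.ι × N.ι)
    (V : Y.Opens) (h : V ≤ φ ⁻¹ᵁ ((M.U p.1 ⊓ N.U p.2) ⊓ (M.U q.1 ⊓ N.U q.2))) :
    res V h (((M.tensor N).pullback φ).g p q) =
      res V (show V ≤ φ ⁻¹ᵁ M.U p.1 ⊓ φ ⁻¹ᵁ M.U q.1 from
          h.trans (le_inf (Scheme.Hom.preimage_mono φ (inf_le_left.trans inf_le_left))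
            (Scheme.Hom.preimage_mono φ (inf_le_right.trans inf_le_left))))
        ((M.pullback φ).g p.1 q.1) *
      res V (show V ≤ φ ⁻¹ᵁ N.U p.2 ⊓ φ ⁻¹ᵁ N.U q.2 from
          h.trans (le_inf (Scheme.Hom.preimage_mono φ (inf_le_left.trans inf_le_right))
            (Scheme.Hom.preimage_mono φ (inf_le_right.trans inf_le_right))))
        ((N.pullback φ).g p.2 q.2) := by
  show res V h ((φ.app ((M.U p.1 ⊓ N.U p.2) ⊓ (M.U q.1 ⊓ N.U q.2))).hom
      (res _ (le_inf (inf_le_left.trans inf_le_left) (inf_le_right.trans inf_le_left))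
          (M.g p.1 q.1) *
        res _ (le_inf (inf_le_left.trans inf_le_right) (inf_le_right.trans inf_le_right))
          (N.g p.2 q.2))) =
    res V _ ((φ.app (M.U p.1 ⊓ M.U q.1)).hom (M.g p.1 q.1)) *
      res V _ ((φ.app (N.U p.2 ⊓ N.U q.2)).hom (N.g p.2 q.2))
  rw [map_mul, map_mul, app_res, app_res, res_res, res_res]

/-- an isomorphism `M ≅ N`, given on a common refinement of the two covers. -/
structure IsoData (M N : LB X) where
  κ : Type u
  W : κ → X.Opens
  iSup_W : ⨆ k, W k = ⊤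
  α : κ → M.ι
  β : κ → N.ι
  hα : ∀ k, W k ≤ M.U (α k)
  hβ : ∀ k, W k ≤ N.U (β k)
  f : ∀ k, Γ(X, W k)
  fi : ∀ k, Γ(X, W k)
  f_mul_fi : ∀ k, f k * fi k = 1
  compat : ∀ k l,
    res (W k ⊓ W l) inf_le_left (f k) *
      res (W k ⊓ W l) (le_inf (inf_le_left.trans (hα k)) (inf_le_right.trans (hα l)))
        (M.g (α k) (α l)) =
    res (W k ⊓ W l) (le_inf (inf_le_left.trans (hβ k)) (inf_le_right.trans (hβ l)))
        (N.g (β k) (β l)) *
      res (W k ⊓ W l) inf_le_right (f l)

namespace IsoData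

variable {M N P : LB X}

theorem compat' (D : IsoData M N) (k l : D.κ) (V : X.Opens) (hk : V ≤ D.W k) (hl : V ≤ D.W l) :
    res V hk (D.f k) * res V (le_inf (hk.trans (D.hα k)) (hl.trans (D.hα l)))
        (M.g (D.α k) (D.α l)) =
      res V (le_inf (hk.trans (D.hβ k)) (hl.trans (D.hβ l))) (N.g (D.β k) (D.β l)) *
        res V hl (D.f l) := by
  have h := congrArg (res V (le_inf hk hl)) (D.compat k l)
  simp only [map_mul, res_res] at h
  exact h

theorem f_mul_fi' (D : IsoData M N) (k : D.κ) (V : X.Opens) (hk : V ≤ D.W k) :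
    res V hk (D.f k) * res V hk (D.fi k) = 1 := by
  rw [← map_mul, D.f_mul_fi, map_one]

/-- reflexivity. -/
def refl (M : LB X) : IsoData M M where
  κ := M.ι
  W := M.U
  iSup_W := M.iSup_U
  α := id
  β := id
  hα := fun _ => le_rfl
  hβ := fun _ => le_rfl
  f := fun _ => 1
  fi := fun _ => 1
  f_mul_fi := fun _ => mul_one 1
  compat := fun k l => by simp

/-- symmetry. -/
def symm (D : IsoData M N) : IsoData N M where
  κ := D.κ
  W := D.W
  iSup_W := D.iSup_W
  α := D.β
  β := D.α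
  hα := D.hβ
  hβ := D.hα
  f := D.fi
  fi := D.f
  f_mul_fi := fun k => by rw [mul_comm]; exact D.f_mul_fi k
  compat := fun k l => by
    have h := D.compat' k l (D.W k ⊓ D.W l) inf_le_left inf_le_right
    have ha := D.f_mul_fi' k (D.W k ⊓ D.W l) inf_le_left
    have hb := D.f_mul_fi' l (D.W k ⊓ D.W l) inf_le_right
    linear_combination (-(res (D.W k ⊓ D.W l) inf_le_left (D.fi k) *
      res (D.W k ⊓ D.W l) inf_le_right (D.fi l))) * h +
      (-(res (D.W k ⊓ D.W l) inf_le_left (D.fi k) *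
        res (D.W k ⊓ D.W l) (le_inf (inf_le_left.trans (D.hβ k)) (inf_le_right.trans (D.hβ l)))
        (N.g (D.β k) (D.β l)))) * hb +
      (res (D.W k ⊓ D.W l) (le_inf (inf_le_left.trans (D.hα k)) (inf_le_right.trans (D.hα l)))
        (M.g (D.α k) (D.α l)) * res (D.W k ⊓ D.W l) inf_le_right (D.fi l)) * ha

/-- transitivity. -/
def trans (D : IsoData M N) (E : IsoData N P) : IsoData M P where
  κ := D.κ × E.κ
  W := fun p => D.W p.1 ⊓ E.W p.2
  iSup_W := by
    show ⨆ p : D.κ × E.κ, D.W p.1 ⊓ E.W p.2 = ⊤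
    rw [← iSup_inf_iSup, D.iSup_W, E.iSup_W, top_inf_eq]
  α := fun p => D.α p.1
  β := fun p => E.β p.2
  hα := fun p => inf_le_left.trans (D.hα p.1)
  hβ := fun p => inf_le_right.trans (E.hβ p.2)
  f := fun p => res _ inf_le_right (E.f p.2) *
    res _ (le_inf (inf_le_right.trans (E.hα p.2)) (inf_le_left.trans (D.hβ p.1)))
      (N.g (E.α p.2) (D.β p.1)) * res _ inf_le_left (D.f p.1)
  fi := fun p => res _ inf_le_left (D.fi p.1) *
    res _ (le_inf (inf_le_left.trans (D.hβ p.1)) (inf_le_right.trans (E.hα p.2)))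
      (N.g (D.β p.1) (E.α p.2)) * res _ inf_le_right (E.fi p.2)
  f_mul_fi := fun p => by
    have h1 := D.f_mul_fi' p.1 (D.W p.1 ⊓ E.W p.2) inf_le_left
    have h2 := E.f_mul_fi' p.2 (D.W p.1 ⊓ E.W p.2) inf_le_right
    have h3 := N.g_mul_g_symm' (E.α p.2) (D.β p.1) (D.W p.1 ⊓ E.W p.2)
      (inf_le_right.trans (E.hα p.2)) (inf_le_left.trans (D.hβ p.1))
    linear_combination (res (D.W p.1 ⊓ E.W p.2) inf_le_right (E.f p.2) *
        res (D.W p.1 ⊓ E.W p.2) inf_le_right (E.fi p.2) *
        res (D.W p.1 ⊓ E.W p.2) inf_le_left (D.f p.1) *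
        res (D.W p.1 ⊓ E.W p.2) inf_le_left (D.fi p.1)) * h3 +
      (res (D.W p.1 ⊓ E.W p.2) inf_le_right (E.f p.2) *
        res (D.W p.1 ⊓ E.W p.2) inf_le_right (E.fi p.2)) * h1 + h2
  compat := fun p q => by
    simp only [map_mul, res_res]
    have hD := D.compat' p.1 q.1 ((D.W p.1 ⊓ E.W p.2) ⊓ (D.W q.1 ⊓ E.W q.2))
      (inf_le_left.trans inf_le_left) (inf_le_right.trans inf_le_left)
    have hE := E.compat' p.2 q.2 ((D.W p.1 ⊓ E.W p.2) ⊓ (D.W q.1 ⊓ E.W q.2))
      (inf_le_left.trans inf_le_right) (inf_le_right.trans inf_le_right)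
    have c1 := N.cocycle' (E.α p.2) (D.β p.1) (D.β q.1)
      ((D.W p.1 ⊓ E.W p.2) ⊓ (D.W q.1 ⊓ E.W q.2))
      ((inf_le_left.trans inf_le_right).trans (E.hα p.2))
      ((inf_le_left.trans inf_le_left).trans (D.hβ p.1))
      ((inf_le_right.trans inf_le_left).trans (D.hβ q.1))
    have c2 := N.cocycle' (E.α p.2) (E.α q.2) (D.β q.1)
      ((D.W p.1 ⊓ E.W p.2) ⊓ (D.W q.1 ⊓ E.W q.2))
      ((inf_le_left.trans inf_le_right).trans (E.hα p.2))
      ((inf_le_right.trans inf_le_right).trans (E.hα q.2))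
      ((inf_le_right.trans inf_le_left).trans (D.hβ q.1))
    linear_combination
      (res ((D.W p.1 ⊓ E.W p.2) ⊓ (D.W q.1 ⊓ E.W q.2)) (inf_le_left.trans inf_le_right) (E.f p.2) *
        res ((D.W p.1 ⊓ E.W p.2) ⊓ (D.W q.1 ⊓ E.W q.2))
          (le_inf ((inf_le_left.trans inf_le_right).trans (E.hα p.2))
            ((inf_le_left.trans inf_le_left).trans (D.hβ p.1))) (N.g (E.α p.2) (D.β p.1))) * hD +
      (res ((D.W p.1 ⊓ E.W p.2) ⊓ (D.W q.1 ⊓ E.W q.2)) (inf_le_left.trans inf_le_right) (E.f p.2) *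
        res ((D.W p.1 ⊓ E.W p.2) ⊓ (D.W q.1 ⊓ E.W q.2)) (inf_le_right.trans inf_le_left)
          (D.f q.1)) * c1 -
      (res ((D.W p.1 ⊓ E.W p.2) ⊓ (D.W q.1 ⊓ E.W q.2)) (inf_le_left.trans inf_le_right) (E.f p.2) *
        res ((D.W p.1 ⊓ E.W p.2) ⊓ (D.W q.1 ⊓ E.W q.2)) (inf_le_right.trans inf_le_left)
          (D.f q.1)) * c2 +
      (res ((D.W p.1 ⊓ E.W p.2) ⊓ (D.W q.1 ⊓ E.W q.2))
          (le_inf ((inf_le_right.trans inf_le_right).trans (E.hα q.2))
            ((inf_le_right.trans inf_le_left).trans (D.hβ q.1))) (N.g (E.α q.2) (D.β q.1)) *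
        res ((D.W p.1 ⊓ E.W p.2) ⊓ (D.W q.1 ⊓ E.W q.2)) (inf_le_right.trans inf_le_left)
          (D.f q.1)) * hE

/-- tensor products of isomorphisms. -/
def tensor {M' N' : LB X} (D : IsoData M M') (E : IsoData N N') :
    IsoData (M.tensor N) (M'.tensor N') where
  κ := D.κ × E.κ
  W := fun p => D.W p.1 ⊓ E.W p.2
  iSup_W := by
    show ⨆ p : D.κ × E.κ, D.W p.1 ⊓ E.W p.2 = ⊤
    rw [← iSup_inf_iSup, D.iSup_W, E.iSup_W, top_inf_eq]
  α := fun p => (D.α p.1, E.α p.2)
  β := fun p => (D.β p.1, E.β p.2)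
  hα := fun p => inf_le_inf (D.hα p.1) (E.hα p.2)
  hβ := fun p => inf_le_inf (D.hβ p.1) (E.hβ p.2)
  f := fun p => res _ inf_le_left (D.f p.1) * res _ inf_le_right (E.f p.2)
  fi := fun p => res _ inf_le_left (D.fi p.1) * res _ inf_le_right (E.fi p.2)
  f_mul_fi := fun p => by
    have h1 := D.f_mul_fi' p.1 (D.W p.1 ⊓ E.W p.2) inf_le_left
    have h2 := E.f_mul_fi' p.2 (D.W p.1 ⊓ E.W p.2) inf_le_right
    linear_combination (res (D.W p.1 ⊓ E.W p.2) inf_le_right (E.f p.2) *
        res (D.W p.1 ⊓ E.W p.2) inf_le_right (E.fi p.2)) * h1 + h2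
  compat := fun p q => by
    rw [tensor_g_res, tensor_g_res]
    simp only [map_mul, res_res]
    have hD := D.compat' p.1 q.1 ((D.W p.1 ⊓ E.W p.2) ⊓ (D.W q.1 ⊓ E.W q.2))
      (inf_le_left.trans inf_le_left) (inf_le_right.trans inf_le_left)
    have hE := E.compat' p.2 q.2 ((D.W p.1 ⊓ E.W p.2) ⊓ (D.W q.1 ⊓ E.W q.2))
      (inf_le_left.trans inf_le_right) (inf_le_right.trans inf_le_right)
    linear_combination
      (res ((D.W p.1 ⊓ E.W p.2) ⊓ (D.W q.1 ⊓ E.W q.2)) (inf_le_left.trans inf_le_right) (E.f p.2) *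
        res ((D.W p.1 ⊓ E.W p.2) ⊓ (D.W q.1 ⊓ E.W q.2))
          (le_inf ((inf_le_left.trans inf_le_right).trans (E.hα p.2))
            ((inf_le_right.trans inf_le_right).trans (E.hα q.2))) (N.g (E.α p.2) (E.α q.2))) * hD +
      (res ((D.W p.1 ⊓ E.W p.2) ⊓ (D.W q.1 ⊓ E.W q.2))
          (le_inf ((inf_le_left.trans inf_le_left).trans (D.hβ p.1))
            ((inf_le_right.trans inf_le_left).trans (D.hβ q.1))) (M'.g (D.β p.1) (D.β q.1)) *
        res ((D.W p.1 ⊓ E.W p.2) ⊓ (D.W q.1 ⊓ E.W q.2)) (inf_le_right.trans inf_le_left)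
          (D.f q.1)) * hE

/-- the inverse of an isomorphism, between the inverse bundles. -/
def inv (D : IsoData M N) : IsoData M.inv N.inv where
  κ := D.κ
  W := D.W
  iSup_W := D.iSup_W
  α := D.α
  β := D.β
  hα := D.hα
  hβ := D.hβ
  f := D.fi
  fi := D.f
  f_mul_fi := fun k => by rw [mul_comm]; exact D.f_mul_fi k
  compat := fun k l => by
    rw [inv_g_res, inv_g_res]
    have h := D.compat' l k (D.W k ⊓ D.W l) inf_le_right inf_le_left
    have ha := D.f_mul_fi' k (D.W k ⊓ D.W l) inf_le_left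
    have hb := D.f_mul_fi' l (D.W k ⊓ D.W l) inf_le_right
    linear_combination (res (D.W k ⊓ D.W l) inf_le_left (D.fi k) *
      res (D.W k ⊓ D.W l) inf_le_right (D.fi l)) * h -
      (res (D.W k ⊓ D.W l) inf_le_left (D.fi k) *
        res (D.W k ⊓ D.W l) (le_inf (inf_le_right.trans (D.hα l)) (inf_le_left.trans (D.hα k)))
        (M.g (D.α l) (D.α k))) * hb +
      (res (D.W k ⊓ D.W l) (le_inf (inf_le_right.trans (D.hβ l)) (inf_le_left.trans (D.hβ k)))
        (N.g (D.β l) (D.β k)) * res (D.W k ⊓ D.W l) inf_le_right (D.fi l)) * ha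

/-- pullback of an isomorphism. -/
def pullback {Y : Scheme.{u}} (φ : Y ⟶ X) (D : IsoData M N) :
    IsoData (M.pullback φ) (N.pullback φ) where
  κ := D.κ
  W := fun k => φ ⁻¹ᵁ D.W k
  iSup_W := Scheme.Hom.iSup_preimage_eq_top φ D.iSup_W
  α := D.α
  β := D.β
  hα := fun k => Scheme.Hom.preimage_mono φ (D.hα k)
  hβ := fun k => Scheme.Hom.preimage_mono φ (D.hβ k)
  f := fun k => (φ.app (D.W k)).hom (D.f k)
  fi := fun k => (φ.app (D.W k)).hom (D.fi k)
  f_mul_fi := fun k => by rw [← map_mul, D.f_mul_fi, map_one]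
  compat := fun k l => by
    have h := congrArg (φ.app (D.W k ⊓ D.W l)).hom (D.compat k l)
    rw [map_mul, map_mul, app_res, app_res, app_res, app_res] at h
    exact h

/-- commutativity of the tensor product. -/
def tensorComm (M N : LB X) : IsoData (M.tensor N) (N.tensor M) where
  κ := M.ι × N.ι
  W := fun p => M.U p.1 ⊓ N.U p.2
  iSup_W := (M.tensor N).iSup_U
  α := id
  β := fun p => (p.2, p.1)
  hα := fun _ => le_rfl
  hβ := fun _ => le_inf inf_le_right inf_le_left
  f := fun _ => 1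
  fi := fun _ => 1
  f_mul_fi := fun _ => mul_one 1
  compat := fun p q => by
    rw [tensor_g_res, tensor_g_res]
    simp only [map_one, one_mul, mul_one]
    exact mul_comm _ _

/-- associativity of the tensor product. -/
def tensorAssoc (M N P : LB X) : IsoData ((M.tensor N).tensor P) (M.tensor (N.tensor P)) where
  κ := (M.ι × N.ι) × P.ι
  W := fun p => (M.U p.1.1 ⊓ N.U p.1.2) ⊓ P.U p.2
  iSup_W := ((M.tensor N).tensor P).iSup_U
  α := id
  β := fun p => (p.1.1, (p.1.2, p.2))
  hα := fun _ => le_rfl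
  hβ := fun _ => le_inf (inf_le_left.trans inf_le_left)
    (le_inf (inf_le_left.trans inf_le_right) inf_le_right)
  f := fun _ => 1
  fi := fun _ => 1
  f_mul_fi := fun _ => mul_one 1
  compat := fun p q => by
    rw [tensor_g_res, tensor_g_res, tensor_g_res, tensor_g_res]
    simp only [map_one, one_mul, mul_one]
    exact mul_assoc _ _ _

/-- the trivial bundle is a unit for the tensor product. -/
def trivialTensor (M : LB X) : IsoData ((LB.trivial X).tensor M) M where
  κ := PUnit.{u + 1} × M.ι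
  W := fun p => ⊤ ⊓ M.U p.2
  iSup_W := ((LB.trivial X).tensor M).iSup_U
  α := id
  β := fun p => p.2
  hα := fun _ => le_rfl
  hβ := fun _ => inf_le_right
  f := fun _ => 1
  fi := fun _ => 1
  f_mul_fi := fun _ => mul_one 1
  compat := fun p q => by
    rw [tensor_g_res]
    simp only [map_one, one_mul, mul_one]
    have : (LB.trivial X).g (id p).1 (id q).1 = 1 := rfl
    rw [this, map_one, one_mul]
    rfl

/-- the inverse bundle is an inverse for the tensor product. -/
def invTensor (M : LB X) : IsoData (M.inv.tensor M) (LB.trivial X) where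
  κ := M.ι
  W := M.U
  iSup_W := M.iSup_U
  α := fun i => (i, i)
  β := fun _ => PUnit.unit
  hα := fun _ => le_inf le_rfl le_rfl
  hβ := fun _ => le_top
  f := fun _ => 1
  fi := fun _ => 1
  f_mul_fi := fun _ => mul_one 1
  compat := fun i j => by
    rw [tensor_g_res, inv_g_res]
    have : (LB.trivial X).g PUnit.unit PUnit.unit = 1 := rfl
    rw [this]
    simp only [map_one, one_mul, mul_one]
    exact M.g_mul_g_symm' j i (M.U i ⊓ M.U j) inf_le_right inf_le_left

/-- pullback along the identity. -/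
def pullbackId (M : LB X) : IsoData (M.pullback (𝟙 X)) M where
  κ := M.ι
  W := M.U
  iSup_W := M.iSup_U
  α := id
  β := id
  hα := fun _ => le_rfl
  hβ := fun _ => le_rfl
  f := fun _ => 1
  fi := fun _ => 1
  f_mul_fi := fun _ => mul_one 1
  compat := fun i j => by
    simp only [map_one, one_mul, mul_one]
    have : (M.pullback (𝟙 X)).g i j = M.g i j := by
      show ((𝟙 X : X ⟶ X).app (M.U i ⊓ M.U j)).hom (M.g i j) = M.g i j
      rw [Scheme.Hom.id_app]
      rfl
    exact congrArg _ this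

/-- pullback along a composition. -/
def pullbackComp {Y Z : Scheme.{u}} (φ : Z ⟶ Y) (ψ : Y ⟶ X) (M : LB X) :
    IsoData (M.pullback (φ ≫ ψ)) ((M.pullback ψ).pullback φ) where
  κ := M.ι
  W := fun i => (φ ≫ ψ) ⁻¹ᵁ M.U i
  iSup_W := (M.pullback (φ ≫ ψ)).iSup_U
  α := id
  β := id
  hα := fun _ => le_rfl
  hβ := fun _ => le_rfl
  f := fun _ => 1
  fi := fun _ => 1
  f_mul_fi := fun _ => mul_one 1
  compat := fun i j => by
    simp only [map_one, one_mul, mul_one]
    have : (M.pullback (φ ≫ ψ)).g i j = ((M.pullback ψ).pullback φ).g i j := by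
      show ((φ ≫ ψ).app (M.U i ⊓ M.U j)).hom (M.g i j) =
        (φ.app (ψ ⁻¹ᵁ M.U i ⊓ ψ ⁻¹ᵁ M.U j)).hom ((ψ.app (M.U i ⊓ M.U j)).hom (M.g i j))
      rw [Scheme.Hom.comp_app]
      rfl
    exact congrArg _ this

/-- pullback commutes with tensor products. -/
def pullbackTensor {Y : Scheme.{u}} (φ : Y ⟶ X) (M N : LB X) :
    IsoData ((M.tensor N).pullback φ) ((M.pullback φ).tensor (N.pullback φ)) where
  κ := M.ι × N.ι
  W := fun p => φ ⁻¹ᵁ (M.U p.1 ⊓ N.U p.2)
  iSup_W := ((M.tensor N).pullback φ).iSup_U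
  α := id
  β := id
  hα := fun _ => le_rfl
  hβ := fun _ => le_rfl
  f := fun _ => 1
  fi := fun _ => 1
  f_mul_fi := fun _ => mul_one 1
  compat := fun p q => by
    simp only [map_one, one_mul, mul_one]
    rw [tensor_g_res]
    exact pullback_tensor_g_res φ M N p q _ _

end IsoData

/-- two line bundles are isomorphic. -/
def Iso (M N : LB X) : Prop := Nonempty (IsoData M N)

theorem Iso.refl (M : LB X) : Iso M M := ⟨IsoData.refl M⟩

theorem Iso.symm {M N : LB X} (h : Iso M N) : Iso N M := ⟨h.some.symm⟩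

theorem Iso.trans {M N P : LB X} (h : Iso M N) (h' : Iso N P) : Iso M P :=
  ⟨h.some.trans h'.some⟩

/-- a section which is a unit locally on a cover is a unit. -/
theorem isUnit_of_cover {ι : Type*} {V : X.Opens} (U : ι → X.Opens) (hU : ∀ i, U i ≤ V)
    (hcover : V ≤ ⨆ i, U i) (a : Γ(X, V)) (h : ∀ i, IsUnit (res (U i) (hU i) a)) : IsUnit a := by
  apply X.toRingedSpace.isUnit_of_isUnit_germ V a
  intro x hx
  obtain ⟨i, hi⟩ := Opens.mem_iSup.1 (hcover hx)
  have h1 := (h i).map (X.presheaf.germ (U i) x hi).hom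
  have h2 : (X.presheaf.germ (U i) x hi).hom (res (U i) (hU i) a) =
      (X.presheaf.germ V x hx).hom a :=
    TopCat.Presheaf.germ_res_apply X.presheaf (homOfLE (hU i)) x hi a
  rw [h2] at h1
  exact h1

/-- a trivialising section gives an isomorphism with the trivial bundle. -/
def IsoData.ofSection (M : LB X) (s : M.H0) (t : ∀ i, Γ(X, M.U i)) (hst : ∀ i, s.1 i * t i = 1) :
    IsoData (LB.trivial X) M where
  κ := M.ι
  W := M.U
  iSup_W := M.iSup_U
  α := fun _ => PUnit.unit
  β := id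
  hα := fun _ => le_top
  hβ := fun _ => le_rfl
  f := s.1
  fi := t
  f_mul_fi := hst
  compat := fun i j => by
    have h1 : (LB.trivial X).g PUnit.unit PUnit.unit = 1 := rfl
    rw [h1, map_one, mul_one]
    have h2 := s.2 i j
    rw [h2]
    congr 1
    exact (res_self _).symm

theorem isTrivial_iff_iso_trivial (M : LB X) : M.IsTrivial ↔ Iso (LB.trivial X) M := by
  constructor
  · rintro ⟨s, hs⟩
    choose t ht using fun i => (hs i).exists_right_inv
    exact ⟨IsoData.ofSection M s t ht⟩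
  · rintro ⟨D⟩
    have h1 : (LB.trivial X).g PUnit.unit PUnit.unit = 1 := rfl
    -- the local pieces of the section on the chart `i`
    have hcov : ∀ i : M.ι, M.U i ≤ ⨆ k, M.U i ⊓ D.W k := by
      intro i
      rw [← inf_iSup_eq, D.iSup_W, inf_top_eq]
    have key : ∀ (i : M.ι) (k l : D.κ) (V : X.Opens) (hi : V ≤ M.U i) (hk : V ≤ D.W k)
        (hl : V ≤ D.W l),
        res V (le_inf hi (hk.trans (D.hβ k))) (M.g i (D.β k)) * res V hk (D.f k) =
          res V (le_inf hi (hl.trans (D.hβ l))) (M.g i (D.β l)) * res V hl (D.f l) := by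
      intro i k l V hi hk hl
      have hc := D.compat' k l V hk hl
      have h1' : (LB.trivial X).g (D.α k) (D.α l) = 1 := rfl
      rw [h1', map_one, mul_one] at hc
      have hco := M.cocycle' i (D.β k) (D.β l) V hi (hk.trans (D.hβ k)) (hl.trans (D.hβ l))
      rw [hc, ← mul_assoc, hco]
    have hglue : ∀ i : M.ι, ∃ s : Γ(X, M.U i), ∀ k, res (M.U i ⊓ D.W k) inf_le_left s =
        res (M.U i ⊓ D.W k) (le_inf inf_le_left (inf_le_right.trans (D.hβ k))) (M.g i (D.β k)) *
          res (M.U i ⊓ D.W k) inf_le_right (D.f k) := by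
      intro i
      obtain ⟨s, hs, -⟩ := exists_glue (V := M.U i) (fun k => M.U i ⊓ D.W k)
        (fun k => inf_le_left) (hcov i)
        (fun k => res (M.U i ⊓ D.W k) (le_inf inf_le_left (inf_le_right.trans (D.hβ k)))
          (M.g i (D.β k)) * res (M.U i ⊓ D.W k) inf_le_right (D.f k))
        (fun k l => by
          simp only [map_mul, res_res]
          exact key i k l _ (inf_le_left.trans inf_le_left) (inf_le_left.trans inf_le_right)
            (inf_le_right.trans inf_le_right))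
      exact ⟨s, hs⟩
    choose s hs using hglue
    have hs' : ∀ (i : M.ι) (k : D.κ) (V : X.Opens) (hi : V ≤ M.U i) (hk : V ≤ D.W k),
        res V hi (s i) = res V (le_inf hi (hk.trans (D.hβ k))) (M.g i (D.β k)) *
          res V hk (D.f k) := by
      intro i k V hi hk
      have h := congrArg (res V (le_inf hi hk)) (hs i k)
      simp only [map_mul, res_res] at h
      exact h
    refine ⟨⟨s, fun i j => ?_⟩, fun i => ?_⟩
    · -- the section property, checked on the cover `(U i ⊓ U j) ⊓ W k`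
      apply eq_of_res_eq (fun k => (M.U i ⊓ M.U j) ⊓ D.W k) (fun k => inf_le_left)
        (by rw [← inf_iSup_eq, D.iSup_W, inf_top_eq])
      intro k
      simp only [map_mul, res_res]
      rw [hs' i k _ (inf_le_left.trans inf_le_left) inf_le_right,
        hs' j k _ (inf_le_left.trans inf_le_right) inf_le_right, ← mul_assoc]
      congr 1
      exact (M.cocycle' i j (D.β k) _ (inf_le_left.trans inf_le_left)
        (inf_le_left.trans inf_le_right) (inf_le_right.trans (D.hβ k))).symm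
    · -- units, checked on the cover `U i ⊓ W k`
      apply isUnit_of_cover (fun k => M.U i ⊓ D.W k) (fun k => inf_le_left) (hcov i)
      intro k
      show IsUnit (res (M.U i ⊓ D.W k) inf_le_left (s i))
      rw [hs i k]
      exact ((M.isUnit_g i (D.β k)).map _).mul
        ((IsUnit.of_mul_eq_one _ (D.f_mul_fi k)).map _)

/-- isomorphism of line bundles as a setoid. -/
instance setoid (X : Scheme.{u}) : Setoid (LB X) where
  r := Iso
  iseqv := ⟨Iso.refl, Iso.symm, Iso.trans⟩

/-- a line bundle one of whose charts is everything is trivial. -/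
theorem isTrivial_of_chart_eq_top (M : LB X) (i : M.ι) (h : M.U i = ⊤) : M.IsTrivial := by
  have hi : ∀ j, M.U j ≤ M.U j ⊓ M.U i := fun j => le_inf le_rfl (h ▸ le_top)
  refine ⟨⟨fun j => res (M.U j) (hi j) (M.g j i), fun j k => ?_⟩, fun j => (M.isUnit_g j i).map _⟩
  simp only [res_res]
  have hc := M.cocycle' j k i (M.U j ⊓ M.U k) inf_le_left inf_le_right (h ▸ le_top)
  rw [res_self] at hc
  exact hc.symm

end LB

/-- the Picard group of a scheme: line bundles up to isomorphism. -/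
def PicGroup (X : Scheme.{u}) : Type (u + 1) := Quotient (LB.setoid X)

namespace PicGroup

variable {X : Scheme.{u}}

/-- the class of a line bundle. -/
def mk (M : LB X) : PicGroup X := Quotient.mk (LB.setoid X) M

theorem mk_eq_mk_iff (M N : LB X) : mk M = mk N ↔ LB.Iso M N := Quotient.eq

theorem mk_surjective : Function.Surjective (mk (X := X)) := Quotient.mk_surjective

instance : Zero (PicGroup X) := ⟨mk (LB.trivial X)⟩

instance : Add (PicGroup X) :=
  ⟨Quotient.map₂ LB.tensor (fun _ _ h _ _ h' => ⟨h.some.tensor h'.some⟩)⟩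

instance : Neg (PicGroup X) := ⟨Quotient.map LB.inv (fun _ _ h => ⟨h.some.inv⟩)⟩

theorem add_assoc' (x y z : PicGroup X) : x + y + z = x + (y + z) := by
  obtain ⟨M, rfl⟩ := mk_surjective x
  obtain ⟨N, rfl⟩ := mk_surjective y
  obtain ⟨P, rfl⟩ := mk_surjective z
  exact Quotient.sound ⟨LB.IsoData.tensorAssoc M N P⟩

theorem zero_add' (x : PicGroup X) : 0 + x = x := by
  obtain ⟨M, rfl⟩ := mk_surjective x
  exact Quotient.sound ⟨LB.IsoData.trivialTensor M⟩

theorem neg_add_cancel' (x : PicGroup X) : -x + x = 0 := by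
  obtain ⟨M, rfl⟩ := mk_surjective x
  exact Quotient.sound ⟨LB.IsoData.invTensor M⟩

theorem add_comm' (x y : PicGroup X) : x + y = y + x := by
  obtain ⟨M, rfl⟩ := mk_surjective x
  obtain ⟨N, rfl⟩ := mk_surjective y
  exact Quotient.sound ⟨LB.IsoData.tensorComm M N⟩

instance : AddCommGroup (PicGroup X) :=
  { AddGroup.ofLeftAxioms add_assoc' zero_add' neg_add_cancel' with
    add_comm := add_comm' }

theorem mk_tensor (M N : LB X) : mk (M.tensor N) = mk M + mk N := rfl

theorem mk_inv (M : LB X) : mk M.inv = - mk M := rfl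

theorem mk_trivial : mk (LB.trivial X) = 0 := rfl

theorem mk_eq_zero_iff (M : LB X) : mk M = 0 ↔ M.IsTrivial := by
  rw [← mk_trivial, eq_comm, mk_eq_mk_iff, LB.isTrivial_iff_iso_trivial]

/-- pullback of classes of line bundles. -/
def map {Y : Scheme.{u}} (φ : Y ⟶ X) : PicGroup X →+ PicGroup Y :=
  AddMonoidHom.mk' (Quotient.map (fun M => M.pullback φ) (fun _ _ h => ⟨h.some.pullback φ⟩)) (by
    rintro ⟨M⟩ ⟨N⟩
    exact Quotient.sound ⟨LB.IsoData.pullbackTensor φ M N⟩)

theorem map_mk {Y : Scheme.{u}} (φ : Y ⟶ X) (M : LB X) : map φ (mk M) = mk (M.pullback φ) := rfl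

theorem map_id (x : PicGroup X) : map (𝟙 X) x = x := by
  obtain ⟨M, rfl⟩ := mk_surjective x
  exact Quotient.sound ⟨LB.IsoData.pullbackId M⟩

theorem map_comp {Y Z : Scheme.{u}} (φ : Z ⟶ Y) (ψ : Y ⟶ X) (x : PicGroup X) :
    map (φ ≫ ψ) x = map φ (map ψ x) := by
  obtain ⟨M, rfl⟩ := mk_surjective x
  exact Quotient.sound ⟨LB.IsoData.pullbackComp φ ψ M⟩

end PicGroup

/-- **the Picard functor**. -/
def Pic : Scheme.{u}ᵒᵖ ⥤ AddCommGrpCat.{u + 1} where
  obj X := AddCommGrpCat.of (PicGroup X.unop)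
  map f := AddCommGrpCat.ofHom (PicGroup.map f.unop)
  map_id X := by
    ext x
    exact PicGroup.map_id x
  map_comp f g := by
    ext x
    exact PicGroup.map_comp g.unop f.unop x

/-- the Picard group of the spectrum of a field is trivial. -/
theorem PicGroup.eq_zero_of_field (K : Type u) [Field K] (x : PicGroup (Spec (.of K))) : x = 0 := by
  obtain ⟨M, rfl⟩ := PicGroup.mk_surjective x
  rw [PicGroup.mk_eq_zero_iff]
  let pt : (Spec (.of K)) := (⊥ : PrimeSpectrum K)
  have hpt : pt ∈ (⨆ i, M.U i : (Spec (.of K)).Opens) := by rw [M.iSup_U]; trivial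
  obtain ⟨i, hi⟩ := Opens.mem_iSup.1 hpt
  apply M.isTrivial_of_chart_eq_top i
  ext y
  simp only [Opens.coe_top, Set.mem_univ, iff_true]
  have : y = pt := Subsingleton.elim (α := PrimeSpectrum K) y pt
  rw [this]
  exact hi

/-- the Picard functor on schemes over a base. -/
def PicOver (S : Scheme.{u}) : (Over S)ᵒᵖ ⥤ AddCommGrpCat.{u + 1} := (Over.forget S).op ⋙ Pic

theorem PicOver_map_apply {S : Scheme.{u}} {T T' : Over S} (f : T ⟶ T')
    (x : PicGroup T'.left) : ((PicOver S).map f.op).hom x = PicGroup.map f.left x := rfl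

open MonoidalCategory in
/-- the Picard group of the terminal `K`-scheme is trivial. -/
theorem PicOver_unit_eq_zero (K : Type u) [Field K]
    (x : (PicOver (Spec (.of K))).obj (op (𝟙_ (Over (Spec (.of K)))))) : x = 0 :=
  PicGroup.eq_zero_of_field K x

end

end Fermat.Agent.AV
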