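/-
PROJECT AV (S26 long shot) — AV5 (dictionary), helper2: rational sections of line bundles (helper5's
cocycle model `LB`) and their divisors; isomorphic line bundles have linearly equivalent divisors.

* `ggerm U h : Γ(X,U) →+* K(X)` (germ at the generic point), `ggerm_res`, `ord_ggerm_of_isUnit`;
* `LB.RatSec M` (nonzero rational sections), `LB.canonicalRatSec` (existence), `RatSec.div`,
  `RatSec.div_eq` (independence of the chart);
* `LB.IsoData.exists_function`: `M ≅ N`, rational sections `s`, `t` ⇒ `∃ h ≠ 0, div h = div s - div t`;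
* `RatSec.one`, `RatSec.tensor` (+`tensor_div`), `LB.npow`, `mk_npow`, `RatSec.npow` (+`npow_div`);
* **`LB.exists_function_of_mk_eq_nsmul`**: `[M'] = m • [L]` in `PicGroup X` ⇒
  `∃ f ≠ 0, ord f z = div s' z - m * div s z` for all `z` — this turns the theorem of the cube
  (`[n]^*L = n² L` in `Pic A`) into the linear equivalence needed by `CoverDatum.linEquiv`;
* `RatSec.pullback`, `RatSec.pullback_div` (pullback along a dominant morphism, in terms of the map
  of function fields and the ramification formula `ord (ψ x) q = e * ord x (φ q)`).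
-/
import Mathlib
import Fermat.Agent.AV.LB_helper5_Core
import Fermat.Agent.AV.LB_helper5_Pic

set_option autoImplicit false
set_option linter.style.haveILetI false
set_option linter.unusedSectionVars false

open AlgebraicGeometry CategoryTheory Opposite TopologicalSpace Order

universe u

namespace Fermat.Agent.AV

noncomputable section

open scoped Classical

variable {X : Scheme.{u}} [IsIntegral X]

theorem genericPoint_mem_of_mem {U : X.Opens} {z : X} (hz : z ∈ U) : genericPoint X ∈ U :=
  ((genericPoint_spec X).mem_open_set_iff U.isOpen).mpr ⟨z, trivial, hz⟩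

abbrev ggerm (U : X.Opens) (h : genericPoint X ∈ U) : Γ(X, U) →+* X.functionField :=
  (X.presheaf.germ U (genericPoint X) h).hom

theorem ggerm_res {V U : X.Opens} (hUV : U ≤ V) (h : genericPoint X ∈ U) (a : Γ(X, V)) :
    ggerm U h (res U hUV a) = ggerm V (hUV h) a :=
  X.presheaf.germ_res_apply (homOfLE hUV) (genericPoint X) h a

theorem ggerm_injective (U : X.Opens) (h : genericPoint X ∈ U) :
    Function.Injective (ggerm U h) :=
  germ_injective_of_isIntegral X (genericPoint X) h

namespace LB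

/-- a nonzero rational section of a line bundle. -/
structure RatSec (M : LB X) where
  σ : M.ι → X.functionField
  ne_zero : ∀ i, genericPoint X ∈ M.U i → σ i ≠ 0
  compat : ∀ i j (h : genericPoint X ∈ M.U i ⊓ M.U j),
    σ i = ggerm (M.U i ⊓ M.U j) h (M.g i j) * σ j

/-- a chart containing a given point. -/
def chart (M : LB X) (z : X) : M.ι :=
  (Opens.mem_iSup.mp (show z ∈ ⨆ i, M.U i by rw [M.iSup_U]; trivial)).choose

theorem mem_chart (M : LB X) (z : X) : z ∈ M.U (M.chart z) :=
  (Opens.mem_iSup.mp (show z ∈ ⨆ i, M.U i by rw [M.iSup_U]; trivial)).choose_spec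

/-- every line bundle has a rational section (trivialise at the generic point). -/
def canonicalRatSec (M : LB X) : M.RatSec where
  σ := fun i => if h : genericPoint X ∈ M.U i then
      ggerm (M.U i ⊓ M.U (M.chart (genericPoint X))) ⟨h, M.mem_chart _⟩
        (M.g i (M.chart (genericPoint X)))
    else 1
  ne_zero := by
    intro i h
    rw [dif_pos h]
    intro h0
    have hu := M.isUnit_g i (M.chart (genericPoint X))
    have := hu.map (ggerm (M.U i ⊓ M.U (M.chart (genericPoint X))) ⟨h, M.mem_chart _⟩)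
    rw [h0] at this
    exact not_isUnit_zero this
  compat := by
    intro i j h
    have hi : genericPoint X ∈ M.U i := h.1
    have hj : genericPoint X ∈ M.U j := h.2
    rw [dif_pos hi, dif_pos hj]
    set i₀ := M.chart (genericPoint X) with hi₀
    have hη₀ : genericPoint X ∈ M.U i₀ := M.mem_chart _
    set W : X.Opens := M.U i ⊓ M.U j ⊓ M.U i₀ with hW
    have hηW : genericPoint X ∈ W := ⟨h, hη₀⟩
    have hc := M.cocycle' i j i₀ W (inf_le_left.trans inf_le_left) (inf_le_left.trans inf_le_right)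
      inf_le_right
    have hc' := congrArg (ggerm W hηW) hc
    rw [map_mul, ggerm_res, ggerm_res, ggerm_res] at hc'
    exact hc'.symm

variable [IsLocallyNoetherian X]

/-- a unit on an open has order zero at every point of the open. -/
theorem ord_ggerm_of_isUnit {U : X.Opens} {a : Γ(X, U)} (ha : IsUnit a) {z : X} (hz : z ∈ U) :
    Scheme.ord (ggerm U (genericPoint_mem_of_mem hz) a) z = 0 := by
  haveI : Nonempty U := ⟨⟨z, hz⟩⟩
  exact Scheme.ord_of_isUnit ha hz

namespace RatSec

variable {M : LB X}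

/-- the order of a rational section does not depend on the chart. -/
theorem ord_eq (s : M.RatSec) {z : X} {i j : M.ι} (hi : z ∈ M.U i) (hj : z ∈ M.U j) :
    Scheme.ord (s.σ i) z = Scheme.ord (s.σ j) z := by
  have hz : z ∈ M.U i ⊓ M.U j := ⟨hi, hj⟩
  have hη := genericPoint_mem_of_mem hz
  have hηj : genericPoint X ∈ M.U j := hη.2
  rw [s.compat i j hη, Scheme.ord_mul ?_ (s.ne_zero j hηj), ord_ggerm_of_isUnit (M.isUnit_g i j) hz,
    zero_add]
  intro h0
  have := (M.isUnit_g i j).map (ggerm (M.U i ⊓ M.U j) hη)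
  rw [h0] at this
  exact not_isUnit_zero this

/-- the divisor of a rational section. -/
def div (s : M.RatSec) (z : X) : ℤ := Scheme.ord (s.σ (M.chart z)) z

theorem div_eq (s : M.RatSec) {z : X} {i : M.ι} (hi : z ∈ M.U i) :
    s.div z = Scheme.ord (s.σ i) z :=
  s.ord_eq (M.mem_chart z) hi

end RatSec

/-- **isomorphic line bundles have linearly equivalent divisors**: the rational function
comparing two rational sections through an isomorphism. -/
theorem IsoData.exists_function {M N : LB X} (D : IsoData M N) (s : M.RatSec) (t : N.RatSec) :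
    ∃ h : X.functionField, h ≠ 0 ∧ ∀ z : X, Scheme.ord h z = s.div z - t.div z := by
  -- a chart of the refinement containing the generic point
  have hη : genericPoint X ∈ ⨆ k, D.W k := by rw [D.iSup_W]; trivial
  obtain ⟨k₀, hk₀⟩ := Opens.mem_iSup.mp hη
  -- the candidate on each chart
  let hh : D.κ → X.functionField := fun k =>
    if hk : genericPoint X ∈ D.W k then
      ggerm (D.W k) hk (D.f k) * s.σ (D.α k) / t.σ (D.β k) else 1
  have hhk : ∀ k (hk : genericPoint X ∈ D.W k),
      hh k = ggerm (D.W k) hk (D.f k) * s.σ (D.α k) / t.σ (D.β k) := fun k hk => dif_pos hk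
  -- independence of the chart
  have hind : ∀ k l (hk : genericPoint X ∈ D.W k) (hl : genericPoint X ∈ D.W l), hh k = hh l := by
    intro k l hk hl
    rw [hhk k hk, hhk l hl]
    have hkl : genericPoint X ∈ D.W k ⊓ D.W l := ⟨hk, hl⟩
    have hc := congrArg (ggerm (D.W k ⊓ D.W l) hkl) (D.compat k l)
    rw [map_mul, map_mul, ggerm_res, ggerm_res, ggerm_res, ggerm_res] at hc
    have hsα := s.compat (D.α k) (D.α l) ⟨D.hα k hk, D.hα l hl⟩
    have htβ := t.compat (D.β k) (D.β l) ⟨D.hβ k hk, D.hβ l hl⟩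
    have htk : t.σ (D.β k) ≠ 0 := t.ne_zero _ (D.hβ k hk)
    have htl : t.σ (D.β l) ≠ 0 := t.ne_zero _ (D.hβ l hl)
    rw [div_eq_div_iff htk htl, hsα, htβ]
    linear_combination (s.σ (D.α l) * t.σ (D.β l)) * hc
  refine ⟨hh k₀, ?_, ?_⟩
  · rw [hhk k₀ hk₀]
    have hu : IsUnit (D.f k₀) := IsUnit.of_mul_eq_one _ (D.f_mul_fi k₀)
    have h1 : ggerm (D.W k₀) hk₀ (D.f k₀) ≠ 0 := (hu.map (ggerm (D.W k₀) hk₀)).ne_zero
    exact div_ne_zero (mul_ne_zero h1 (s.ne_zero _ (D.hα k₀ hk₀))) (t.ne_zero _ (D.hβ k₀ hk₀))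
  · intro z
    have hz : z ∈ ⨆ k, D.W k := by rw [D.iSup_W]; trivial
    obtain ⟨k, hk⟩ := Opens.mem_iSup.mp hz
    have hηk := genericPoint_mem_of_mem hk
    rw [hind k₀ k hk₀ hηk, hhk k hηk]
    have hu : IsUnit (D.f k) := IsUnit.of_mul_eq_one _ (D.f_mul_fi k)
    have h1 : ggerm (D.W k) hηk (D.f k) ≠ 0 := (hu.map (ggerm (D.W k) hηk)).ne_zero
    have hs0 : s.σ (D.α k) ≠ 0 := s.ne_zero _ (D.hα k hηk)
    have ht0 : t.σ (D.β k) ≠ 0 := t.ne_zero _ (D.hβ k hηk)
    have hdiv : Scheme.ord (ggerm (D.W k) hηk (D.f k) * s.σ (D.α k) / t.σ (D.β k)) z +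
        Scheme.ord (t.σ (D.β k)) z = Scheme.ord (ggerm (D.W k) hηk (D.f k) * s.σ (D.α k)) z := by
      rw [← Scheme.ord_mul (div_ne_zero (mul_ne_zero h1 hs0) ht0) ht0, div_mul_cancel₀ _ ht0]
    rw [Scheme.ord_mul h1 hs0, ord_ggerm_of_isUnit hu hk, zero_add] at hdiv
    rw [s.div_eq (D.hα k hk), t.div_eq (D.hβ k hk)]
    omega

namespace RatSec

/-- the rational section `1` of the trivial bundle. -/
def one (X : Scheme.{u}) [IsIntegral X] : (LB.trivial X).RatSec where
  σ := fun _ => 1
  ne_zero := fun _ _ => one_ne_zero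
  compat := by
    intro i j h
    show (1 : X.functionField) = ggerm _ h (1 : Γ(X, _)) * 1
    rw [map_one, mul_one]

theorem one_div (z : X) : (one X).div z = 0 := by
  unfold div
  have h := Scheme.ord_mul (x := z) (one_ne_zero (α := X.functionField))
    (one_ne_zero (α := X.functionField))
  rw [one_mul] at h
  show Scheme.ord (1 : X.functionField) z = 0
  omega

/-- the product of two rational sections. -/
def tensor {M N : LB X} (s : M.RatSec) (t : N.RatSec) : (M.tensor N).RatSec where
  σ := fun p => s.σ p.1 * t.σ p.2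
  ne_zero := by
    intro p h
    have h' : genericPoint X ∈ M.U p.1 ⊓ N.U p.2 := h
    exact mul_ne_zero (s.ne_zero _ h'.1) (t.ne_zero _ h'.2)
  compat := by
    intro p q h
    have h' : genericPoint X ∈ (M.U p.1 ⊓ N.U p.2) ⊓ (M.U q.1 ⊓ N.U q.2) := h
    have hM : genericPoint X ∈ M.U p.1 ⊓ M.U q.1 := ⟨h'.1.1, h'.2.1⟩
    have hN : genericPoint X ∈ N.U p.2 ⊓ N.U q.2 := ⟨h'.1.2, h'.2.2⟩
    have hg : ggerm ((M.tensor N).U p ⊓ (M.tensor N).U q) h ((M.tensor N).g p q) =
        ggerm _ hM (M.g p.1 q.1) * ggerm _ hN (N.g p.2 q.2) := by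
      have := congrArg (ggerm ((M.tensor N).U p ⊓ (M.tensor N).U q) h)
        (LB.tensor_g_res M N p q _ le_rfl)
      rw [res_self, map_mul, ggerm_res, ggerm_res] at this
      exact this
    rw [hg, s.compat p.1 q.1 hM, t.compat p.2 q.2 hN]
    ring

theorem tensor_div {M N : LB X} (s : M.RatSec) (t : N.RatSec) (z : X) :
    (s.tensor t).div z = s.div z + t.div z := by
  have hz := (M.tensor N).mem_chart z
  set p := (M.tensor N).chart z with hp
  have hz' : z ∈ M.U p.1 ⊓ N.U p.2 := hz
  have hη := genericPoint_mem_of_mem hz'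
  rw [(s.tensor t).div_eq hz, s.div_eq hz'.1, t.div_eq hz'.2]
  exact Scheme.ord_mul (s.ne_zero _ hη.1) (t.ne_zero _ hη.2)

end RatSec

/-- tensor powers. -/
def npow (L : LB X) : ℕ → LB X
  | 0 => LB.trivial X
  | (m + 1) => (npow L m).tensor L

theorem mk_npow (L : LB X) (m : ℕ) : PicGroup.mk (L.npow m) = m • PicGroup.mk L := by
  induction m with
  | zero => simp [npow, PicGroup.mk_trivial]
  | succ m ih =>
    show PicGroup.mk ((L.npow m).tensor L) = _
    rw [PicGroup.mk_tensor, ih, succ_nsmul]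

/-- powers of a rational section. -/
def RatSec.npow {L : LB X} (s : L.RatSec) : (m : ℕ) → (L.npow m).RatSec
  | 0 => RatSec.one X
  | (m + 1) => (RatSec.npow s m).tensor s

theorem RatSec.npow_div {L : LB X} (s : L.RatSec) (m : ℕ) (z : X) :
    (s.npow m).div z = m * s.div z := by
  induction m with
  | zero =>
    show (RatSec.one X).div z = _
    rw [RatSec.one_div]
    simp
  | succ m ih =>
    show ((s.npow m).tensor s).div z = _
    rw [RatSec.tensor_div, ih]
    push_cast
    ring

/-- **from a relation in the Picard group to a rational function**: if `[M'] = m [L]` in `Pic X`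
then `div s' - m div s` is principal for any rational sections `s'` of `M'` and `s` of `L`. -/
theorem exists_function_of_mk_eq_nsmul {L M' : LB X} (m : ℕ)
    (h : PicGroup.mk M' = m • PicGroup.mk L) (s : L.RatSec) (s' : M'.RatSec) :
    ∃ f : X.functionField, f ≠ 0 ∧ ∀ z : X, Scheme.ord f z = s'.div z - m * s.div z := by
  rw [← mk_npow, PicGroup.mk_eq_mk_iff] at h
  obtain ⟨D⟩ := h
  obtain ⟨f, hf0, hf⟩ := D.exists_function s' (s.npow m)
  refine ⟨f, hf0, fun z => ?_⟩
  rw [hf z, RatSec.npow_div]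

/-- pullback of a rational section along a dominant morphism, given the induced map of function
fields. -/
def RatSec.pullback {Y : Scheme.{u}} [IsIntegral Y] {M : LB X} (s : M.RatSec) (φ : Y ⟶ X)
    (hφ : φ (genericPoint Y) = genericPoint X) (ψ : X.functionField →+* Y.functionField)
    (hψ : ∀ (U : X.Opens) (hη : genericPoint X ∈ U) (hη' : genericPoint Y ∈ φ ⁻¹ᵁ U) (a : Γ(X, U)),
      ψ (ggerm U hη a) = ggerm (φ ⁻¹ᵁ U) hη' ((φ.app U).hom a)) :
    (M.pullback φ).RatSec where
  σ := fun i => ψ (s.σ i)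
  ne_zero := by
    intro i h
    have h' : φ (genericPoint Y) ∈ M.U i := h
    rw [hφ] at h'
    rw [Ne, map_eq_zero]
    exact s.ne_zero i h'
  compat := by
    intro i j h
    have h' : φ (genericPoint Y) ∈ M.U i ⊓ M.U j := h
    rw [hφ] at h'
    rw [s.compat i j h', map_mul, hψ _ h' h]
    rfl

theorem RatSec.pullback_div {Y : Scheme.{u}} [IsIntegral Y] [IsLocallyNoetherian Y] {M : LB X}
    (s : M.RatSec) (φ : Y ⟶ X)
    (hφ : φ (genericPoint Y) = genericPoint X) (ψ : X.functionField →+* Y.functionField)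
    (hψ : ∀ (U : X.Opens) (hη : genericPoint X ∈ U) (hη' : genericPoint Y ∈ φ ⁻¹ᵁ U) (a : Γ(X, U)),
      ψ (ggerm U hη a) = ggerm (φ ⁻¹ᵁ U) hη' ((φ.app U).hom a))
    (q : Y) (e : ℤ)
    (he : ∀ x : X.functionField, x ≠ 0 → Scheme.ord (ψ x) q = e * Scheme.ord x (φ q)) :
    (s.pullback φ hφ ψ hψ).div q = e * s.div (φ q) := by
  set i := M.chart (φ q) with hi
  have hz : φ q ∈ M.U i := M.mem_chart _
  have hq : q ∈ (M.pullback φ).U i := hz
  rw [(s.pullback φ hφ ψ hψ).div_eq hq, s.div_eq hz]
  exact he _ (s.ne_zero i (genericPoint_mem_of_mem hz))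

end LB

end

end Fermat.Agent.AV
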