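/-
PROJECT AV (S26) — helper5 — **(7d): the complement of an affine open is a Cartier divisor** on an
integral, separated, locally noetherian scheme with factorial local rings.

* `exists_eq_span_singleton_of_regular_away` (pure algebra): a radical ideal `span S` of a UFD `O` with
  `1 = ∑ c k * j k`, `j k ∈ span S`, `c k ∈ Frac O` integral after inverting any element of `S`, is
  principal;
* `complIdeal U V : Ideal Γ(X, V)` := functions on `V` whose non-vanishing locus lies in `U`;
* `IsLocalEq U V e` : `e ∈ complIdeal U V` divides every element of `complIdeal U V'`, `V' ≤ V`;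
  `IsLocalEq.basicOpen_eq : X.basicOpen e = V ⊓ U`;
* `exists_isLocalEq` : local equations exist at every point whose local ring is a UFD;
* **`exists_LB_of_isAffineOpen`**, `exists_LB_of_isAffineOpen_of_closedPoints`,
  `exists_LB_of_affine_inter`, `exists_LB_of_isLocalEq` :
  `∃ (M : LB X) (s : M.H0), ∀ i, X.basicOpen (s.1 i) = M.U i ⊓ U`.
-/
import Mathlib
import Fermat.Agent.AV.LB_helper5_Core
import Fermat.Agent.AV.AV2_helper5_Main

set_option autoImplicit false
set_option linter.style.haveILetI false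
set_option linter.unusedSectionVars false

open AlgebraicGeometry CategoryTheory Opposite TopologicalSpace

universe u

namespace Fermat.Agent.AV

/-- in a UFD, if every prime factor of `b` divides `d` then `b` divides a power of `d`. -/
theorem exists_dvd_pow_of_forall_prime_dvd {O : Type*} [CommRing O] [IsDomain O]
    [UniqueFactorizationMonoid O] (d b : O) (hb : b ≠ 0)
    (h : ∀ ρ : O, Prime ρ → ρ ∣ b → ρ ∣ d) : ∃ N : ℕ, b ∣ d ^ N := by
  induction b using UniqueFactorizationMonoid.induction_on_prime with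
  | h₁ => exact absurd rfl hb
  | h₂ x hx => exact ⟨0, hx.dvd⟩
  | h₃ a p ha hp ih =>
    obtain ⟨N, hN⟩ := ih ha (fun ρ hρ hρa => h ρ hρ (Dvd.dvd.mul_left hρa p))
    have hpd : p ∣ d := h p hp (Dvd.intro a rfl)
    exact ⟨N + 1, by rw [pow_succ']; exact mul_dvd_mul hpd hN⟩

/-- **local equation**: a radical ideal `span S` of a UFD `O` such that `1 = ∑ c k * j k` with
`j k ∈ span S` and `c k` fractions which become integral after inverting any element of `S`,
is principal. -/
theorem exists_eq_span_singleton_of_regular_away {O F : Type*} [CommRing O] [IsDomain O]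
    [UniqueFactorizationMonoid O] [Field F] [Algebra O F] [IsFractionRing O F]
    (S : Set O) (hrad : (Ideal.span S).IsRadical) {n : ℕ} (c : Fin n → F) (j : Fin n → O)
    (hj : ∀ k, j k ∈ Ideal.span S)
    (hsum : ∑ k, c k * algebraMap O F (j k) = 1)
    (hreg : ∀ b ∈ S, ∀ k, ∃ (m : ℕ) (a : O), c k * algebraMap O F b ^ m = algebraMap O F a) :
    ∃ π : O, Ideal.span S = Ideal.span {π} := by
  classical
  have hinj : Function.Injective (algebraMap O F) := IsFractionRing.injective O F
  -- reduced fractions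
  choose a b hab hc using fun k => IsFractionRing.exists_reduced_fraction O (K := F) (c k)
  have hb0 : ∀ k, (b k : O) ≠ 0 := fun k => nonZeroDivisors.ne_zero (b k).2
  have hc' : ∀ k, c k * algebraMap O F (b k) = algebraMap O F (a k) := by
    intro k
    rw [← hc k, IsLocalization.mk'_spec]
  -- each denominator divides a power of each element of `S`
  have hdvd : ∀ s ∈ S, ∀ k, ∃ m : ℕ, (b k : O) ∣ s ^ m := by
    intro s hs k
    obtain ⟨m, x, hx⟩ := hreg s hs k
    refine ⟨m, ?_⟩
    have h1 : a k * s ^ m = x * b k := by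
      apply hinj
      rw [map_mul, map_mul, map_pow, ← hc' k, ← hx]
      ring
    have h2 : (b k : O) ∣ a k * s ^ m := ⟨x, by rw [h1, mul_comm]⟩
    exact (hab k).symm.dvd_of_dvd_mul_left h2
  -- the product of the denominators lies in the ideal
  set β : O := ∏ k, (b k : O) with hβ
  have hβ0 : β ≠ 0 := Finset.prod_ne_zero_iff.2 (fun k _ => hb0 k)
  have hβJ : β ∈ Ideal.span S := by
    have h1 : β = ∑ k, (a k * ∏ l ∈ Finset.univ.erase k, (b l : O)) * j k := by
      apply hinj
      have h2 : ∀ k, algebraMap O F ((a k * ∏ l ∈ Finset.univ.erase k, (b l : O)) * j k) =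
          algebraMap O F β * (c k * algebraMap O F (j k)) := by
        intro k
        have h3 : β = (b k : O) * ∏ l ∈ Finset.univ.erase k, (b l : O) :=
          (Finset.mul_prod_erase Finset.univ (fun l => (b l : O)) (Finset.mem_univ k)).symm
        rw [h3, map_mul, map_mul, map_mul, ← hc' k]
        ring
      rw [map_sum]
      simp only [h2]
      rw [← Finset.mul_sum, hsum, mul_one]
    rw [h1]
    exact Ideal.sum_mem _ (fun k _ => Ideal.mul_mem_left _ _ (hj k))
  -- every prime factor of `β` divides every element of the ideal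
  have hprime : ∀ ρ : O, Prime ρ → ρ ∣ β → ∀ x ∈ Ideal.span S, ρ ∣ x := by
    intro ρ hρ hρβ x hx
    obtain ⟨k, -, hk⟩ := (Prime.dvd_finsetProd_iff hρ _).1 hρβ
    have hS : S ⊆ (Ideal.span {ρ} : Ideal O) := by
      intro s hs
      obtain ⟨m, hm⟩ := hdvd s hs k
      exact Ideal.mem_span_singleton.2 (hρ.dvd_of_dvd_pow (hk.trans hm))
    exact Ideal.mem_span_singleton.1 (Ideal.span_le.2 hS hx)
  -- a minimal nonzero element of the ideal
  have hwf : WellFounded (DvdNotUnit : O → O → Prop) := wellFounded_dvdNotUnit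
  obtain ⟨π, ⟨hπJ, hπ0⟩, hmin⟩ := hwf.has_min {x : O | x ∈ Ideal.span S ∧ x ≠ 0} ⟨β, hβJ, hβ0⟩
  refine ⟨π, le_antisymm ?_ ((Ideal.span_singleton_le_iff_mem _).2 hπJ)⟩
  intro x hx
  rw [Ideal.mem_span_singleton]
  let _ : GCDMonoid O := UniqueFactorizationMonoid.toGCDMonoid O
  set e := gcd π x with he
  have heπ : e ∣ π := gcd_dvd_left π x
  have hex : e ∣ x := gcd_dvd_right π x
  have he0 : e ≠ 0 := fun h0 => hπ0 (by rw [h0] at heπ; exact zero_dvd_iff.1 heπ)
  have heJ : e ∈ Ideal.span S := by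
    obtain ⟨N, hN⟩ := exists_dvd_pow_of_forall_prime_dvd e β hβ0
      (fun ρ hρ hρβ => dvd_gcd (hprime ρ hρ hρβ π hπJ) (hprime ρ hρ hρβ x hx))
    apply hrad
    refine ⟨N, ?_⟩
    obtain ⟨y, hy⟩ := hN
    rw [hy]
    exact Ideal.mul_mem_right _ _ hβJ
  obtain ⟨y, hy⟩ := heπ
  by_cases hyu : IsUnit y
  · obtain ⟨u, rfl⟩ := hyu
    have : π ∣ e := ⟨(u⁻¹ : Oˣ), by rw [hy, mul_assoc, Units.mul_inv, mul_one]⟩
    exact this.trans hex
  · exact absurd ⟨he0, y, hyu, hy⟩ (hmin e ⟨heJ, he0⟩)

noncomputable section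

variable {X : Scheme.{u}}

theorem basicOpen_res_eq_inf {V V' : X.Opens} (h : V' ≤ V) (a : Γ(X, V)) :
    X.basicOpen (res V' h a) = V' ⊓ X.basicOpen a :=
  Scheme.basicOpen_res X a (homOfLE h).op

/-- the ideal of the functions on `V` whose non-vanishing locus lies in `U`. -/
def complIdeal (U V : X.Opens) : Ideal Γ(X, V) where
  carrier := {a | X.basicOpen a ≤ U}
  zero_mem' := by
    show X.basicOpen (0 : Γ(X, V)) ≤ U
    rw [Scheme.basicOpen_zero]; exact bot_le
  add_mem' := fun {a b} ha hb =>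
    (X.basicOpen_add_le a b).trans (sup_le ha hb)
  smul_mem' := fun c a ha => by
    show X.basicOpen (c * a) ≤ U
    rw [Scheme.basicOpen_mul]
    exact inf_le_right.trans ha

theorem mem_complIdeal {U V : X.Opens} {a : Γ(X, V)} :
    a ∈ complIdeal U V ↔ X.basicOpen a ≤ U := Iff.rfl

theorem res_mem_complIdeal {U V V' : X.Opens} (h : V' ≤ V) {a : Γ(X, V)}
    (ha : a ∈ complIdeal U V) : res V' h a ∈ complIdeal U V' := by
  rw [mem_complIdeal, basicOpen_res_eq_inf]
  exact inf_le_right.trans ha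

theorem complIdeal_isRadical (U V : X.Opens) : (complIdeal U V).IsRadical := by
  rintro a ⟨n, hn⟩
  rw [mem_complIdeal] at hn ⊢
  rcases Nat.eq_zero_or_pos n with rfl | hpos
  · rw [pow_zero, Scheme.basicOpen_one] at hn
    exact (X.basicOpen_le a).trans hn
  · rwa [Scheme.basicOpen_pow X a hpos] at hn

theorem isUnit_res_basicOpen_self {V : X.Opens} (a : Γ(X, V)) :
    IsUnit (res (X.basicOpen a) (X.basicOpen_le a) a) :=
  X.toRingedSpace.isUnit_res_basicOpen a

/-- **S1**: if `U ⊓ W` is affine (and `W` is affine), `1` is a combination of restrictions of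
elements of `complIdeal U W` with coefficients in `Γ(X, U ⊓ W)`. -/
theorem exists_partition_complIdeal {U W : X.Opens} (hW : IsAffineOpen W)
    (hUW : IsAffineOpen (U ⊓ W)) :
    ∃ (n : ℕ) (c : Fin n → Γ(X, U ⊓ W)) (j : Fin n → Γ(X, W)), (∀ k, j k ∈ complIdeal U W) ∧
      ∑ k, c k * res (U ⊓ W) inf_le_right (j k) = 1 := by
  set s : Set Γ(X, U ⊓ W) := (res (U ⊓ W) inf_le_right) '' (complIdeal U W : Set Γ(X, W)) with hs
  have hcov : U ⊓ W ≤ ⨆ f : s, X.basicOpen (f : Γ(X, U ⊓ W)) := by
    intro y hy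
    obtain ⟨f, hf1, hf2⟩ := hW.exists_basicOpen_le (V := U) ⟨y, hy.1⟩ hy.2
    have hmem : res (U ⊓ W) inf_le_right f ∈ s := ⟨f, hf1, rfl⟩
    refine Opens.mem_iSup.2 ⟨⟨_, hmem⟩, ?_⟩
    show y ∈ X.basicOpen (res (U ⊓ W) inf_le_right f)
    rw [basicOpen_res_eq_inf]
    exact ⟨hy, hf2⟩
  have hspan : Ideal.span s = ⊤ := hUW.self_le_iSup_basicOpen_iff.1 hcov
  have h1 : (1 : Γ(X, U ⊓ W)) ∈ Ideal.span s := by rw [hspan]; trivial
  obtain ⟨n, c, g, hg⟩ := Submodule.mem_span_set'.1 h1
  choose j hj1 hj2 using fun k => (g k).2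
  refine ⟨n, c, j, hj1, ?_⟩
  rw [← hg]
  refine Finset.sum_congr rfl (fun k _ => ?_)
  rw [hj2 k, smul_eq_mul]

/-- **S2**: a function on `U ⊓ W` becomes a function on `W` after multiplication by a power of any
element of `complIdeal U W`. -/
theorem exists_pow_mul_eq_res {U W : X.Opens} (hW : IsAffineOpen W) (b : Γ(X, W))
    (hb : b ∈ complIdeal U W) (c : Γ(X, U ⊓ W)) :
    ∃ (m : ℕ) (a : Γ(X, W)),
      res (X.basicOpen b) (le_inf hb (X.basicOpen_le b)) c *
        res (X.basicOpen b) (X.basicOpen_le b) b ^ m = res (X.basicOpen b) (X.basicOpen_le b) a := by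
  haveI := hW.isLocalization_basicOpen b
  obtain ⟨⟨a, ⟨_, m, rfl⟩⟩, h⟩ := IsLocalization.surj (Submonoid.powers b)
    (res (X.basicOpen b) (le_inf hb (X.basicOpen_le b)) c)
  refine ⟨m, a, ?_⟩
  rw [← map_pow]
  exact h

/-- the germ at the generic point does not see restrictions. -/
theorem germToFunctionField_hom_res [IsIntegral X] {V V' : X.Opens} [Nonempty V] [Nonempty V']
    (h : V' ≤ V) (a : Γ(X, V)) :
    (X.germToFunctionField V').hom (res V' h a) = (X.germToFunctionField V).hom a :=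
  TopCat.Presheaf.germ_res_apply X.presheaf (homOfLE h) _ _ a

/-- a function with empty non-vanishing locus on an integral scheme is zero. -/
theorem eq_zero_of_basicOpen_eq_bot [IsIntegral X] {V : X.Opens} [Nonempty V] (a : Γ(X, V))
    (h : ¬ Nonempty (X.basicOpen a)) : a = 0 := by
  apply X.germToFunctionField_injective V
  rw [map_zero]
  by_contra h0
  apply h
  have hη : genericPoint X ∈ V :=
    ((genericPoint_spec X).mem_open_set_iff V.isOpen).mpr (by simpa using ‹Nonempty V›)
  refine ⟨⟨genericPoint X, ?_⟩⟩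
  rw [Scheme.mem_basicOpen X a _ hη]
  exact (isUnit_iff_ne_zero.2 h0 : IsUnit ((X.germToFunctionField V).hom a))

/-- **S3 + S4**: at a point `x` of an affine open `W` whose local ring is factorial, the ideal of
`X ∖ U` is principal, provided `U ⊓ W` is affine. -/
theorem exists_germ_generator [IsIntegral X] {U W : X.Opens} [Nonempty U] (hW : IsAffineOpen W)
    (hUW : IsAffineOpen (U ⊓ W)) (x : X) (hx : x ∈ W)
    [UniqueFactorizationMonoid (X.presheaf.stalk x)] :
    ∃ π : X.presheaf.stalk x,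
      (complIdeal U W).map (X.presheaf.germ W x hx).hom = Ideal.span {π} := by
  haveI : Nonempty W := ⟨⟨x, hx⟩⟩
  haveI : Nonempty (U ⊓ W : X.Opens) := nonempty_inf U W
  letI := X.presheaf.algebra_section_stalk ⟨x, hx⟩
  haveI := hW.isLocalization_stalk ⟨x, hx⟩
  obtain ⟨n, c, j, hj, hsum⟩ := exists_partition_complIdeal hW hUW
  have hcompat : ∀ a : Γ(X, W), algebraMap (X.presheaf.stalk x) X.functionField
      ((X.presheaf.germ W x hx).hom a) = (X.germToFunctionField W).hom a :=
    fun a => Scheme.algebraMap_germ_eq_germToFunctionField X hx a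
  have hrad : ((complIdeal U W).map (X.presheaf.germ W x hx).hom).IsRadical := by
    have h1 := IsLocalization.map_radical (hW.primeIdealOf ⟨x, hx⟩).asIdeal.primeCompl
      (S := X.presheaf.stalk x) (complIdeal U W)
    rw [(complIdeal_isRadical U W).radical] at h1
    exact Ideal.radical_eq_iff.1 h1.symm
  refine exists_eq_span_singleton_of_regular_away (F := X.functionField)
    ((X.presheaf.germ W x hx).hom '' (complIdeal U W : Set Γ(X, W))) hrad
    (fun k => (X.germToFunctionField (U ⊓ W)).hom (c k))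
    (fun k => (X.presheaf.germ W x hx).hom (j k))
    (fun k => Ideal.subset_span ⟨j k, hj k, rfl⟩) ?_ ?_
  · have h2 := congrArg (X.germToFunctionField (U ⊓ W)).hom hsum
    rw [map_sum, map_one] at h2
    rw [← h2]
    refine Finset.sum_congr rfl (fun k _ => ?_)
    rw [map_mul, hcompat, germToFunctionField_hom_res]
  · rintro _ ⟨b₀, hb₀, rfl⟩ k
    by_cases hne : Nonempty (X.basicOpen b₀)
    · haveI := hne
      obtain ⟨m, a, hma⟩ := exists_pow_mul_eq_res hW b₀ hb₀ (c k)
      refine ⟨m, (X.presheaf.germ W x hx).hom a, ?_⟩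
      have h3 := congrArg (X.germToFunctionField (X.basicOpen b₀)).hom hma
      rw [map_mul, map_pow, germToFunctionField_hom_res, germToFunctionField_hom_res,
        germToFunctionField_hom_res] at h3
      rw [hcompat, hcompat]
      exact h3
    · have hb0 : b₀ = 0 := eq_zero_of_basicOpen_eq_bot b₀ hne
      refine ⟨1, 0, ?_⟩
      simp [hb0]


/-- **S5**: spreading out a generator of the stalk of the ideal to a basic open neighbourhood. -/
theorem exists_basicOpen_generator [IsIntegral X] {U W : X.Opens} (hW : IsAffineOpen W)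
    [IsNoetherianRing Γ(X, W)] (x : X) (hx : x ∈ W) (π : X.presheaf.stalk x)
    (hπ : (complIdeal U W).map (X.presheaf.germ W x hx).hom = Ideal.span {π}) :
    ∃ (h e : Γ(X, W)), x ∈ X.basicOpen h ∧ e ∈ complIdeal U W ∧
      ∀ b ∈ complIdeal U W, ∃ w : Γ(X, X.basicOpen h),
        res (X.basicOpen h) (X.basicOpen_le h) b = w * res (X.basicOpen h) (X.basicOpen_le h) e := by
  classical
  letI := X.presheaf.algebra_section_stalk ⟨x, hx⟩
  haveI := hW.isLocalization_stalk ⟨x, hx⟩
  set M := (hW.primeIdealOf ⟨x, hx⟩).asIdeal.primeCompl with hM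
  have hinj : Function.Injective (X.presheaf.germ W x hx).hom := germ_injective_of_isIntegral X x hx
  have halg : ∀ a : Γ(X, W), algebraMap Γ(X, W) (X.presheaf.stalk x) a =
      (X.presheaf.germ W x hx).hom a := fun _ => rfl
  have hunitM : ∀ s : M, IsUnit ((X.presheaf.germ W x hx).hom (s : Γ(X, W))) := fun s =>
    IsLocalization.map_units (X.presheaf.stalk x) s
  -- the generator comes from an element of the ideal
  have hπmem : π ∈ (complIdeal U W).map (algebraMap Γ(X, W) (X.presheaf.stalk x)) := by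
    show π ∈ (complIdeal U W).map (X.presheaf.germ W x hx).hom
    rw [hπ]; exact Ideal.mem_span_singleton_self π
  obtain ⟨⟨⟨e, he⟩, s₀⟩, hes⟩ := (IsLocalization.mem_map_algebraMap_iff M (X.presheaf.stalk x)).1 hπmem
  simp only [halg] at hes
  -- each element of the ideal is a multiple of `e` up to an element of `M`
  have hkey : ∀ b ∈ complIdeal U W, ∃ (u : Γ(X, W)) (t : M), b * (s₀ : Γ(X, W)) * (t : Γ(X, W)) = e * u := by
    intro b hb
    have hb' : (X.presheaf.germ W x hx).hom b ∈ Ideal.span {π} := by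
      rw [← hπ]; exact Ideal.mem_map_of_mem _ hb
    obtain ⟨o, ho⟩ := Ideal.mem_span_singleton'.1 hb'
    obtain ⟨⟨u, t⟩, hut⟩ := IsLocalization.surj M o
    simp only [halg] at hut
    refine ⟨u, t, hinj ?_⟩
    rw [map_mul, map_mul, map_mul, ← ho, ← hes, ← hut]
    ring
  -- finitely many generators
  obtain ⟨T, hT⟩ := (IsNoetherian.noetherian (complIdeal U W) : (complIdeal U W).FG)
  have hTJ : ∀ b ∈ T, b ∈ complIdeal U W := fun b hb => hT ▸ Ideal.subset_span hb
  choose u t hut using fun b : T => hkey b.1 (hTJ b.1 b.2)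
  set h : Γ(X, W) := (s₀ : Γ(X, W)) * ∏ b ∈ T.attach, (t b : Γ(X, W)) with hh
  have hhM : h ∈ M := M.mul_mem s₀.2 (M.prod_mem (fun b _ => (t b).2))
  refine ⟨h, e, ?_, he, ?_⟩
  · rw [Scheme.mem_basicOpen X h x hx]
    exact hunitM ⟨h, hhM⟩
  · have hunit : IsUnit (res (X.basicOpen h) (X.basicOpen_le h) h) := isUnit_res_basicOpen_self h
    have hdvd_unit : ∀ a : Γ(X, W), a ∣ h →
        IsUnit (res (X.basicOpen h) (X.basicOpen_le h) a) := by
      rintro a ⟨c, hc⟩
      have h2 : IsUnit (res (X.basicOpen h) (X.basicOpen_le h) a *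
          res (X.basicOpen h) (X.basicOpen_le h) c) := by
        rw [← map_mul, ← hc]; exact hunit
      exact isUnit_of_mul_isUnit_left h2
    have hunit_s : IsUnit (res (X.basicOpen h) (X.basicOpen_le h) (s₀ : Γ(X, W))) :=
      hdvd_unit _ ⟨_, hh⟩
    have hunit_t : ∀ b : T, IsUnit (res (X.basicOpen h) (X.basicOpen_le h) (t b : Γ(X, W))) :=
      fun b => hdvd_unit _ (Dvd.dvd.mul_left
        (Finset.dvd_prod_of_mem (fun b : T => (t b : Γ(X, W))) (Finset.mem_attach T b)) _)
    intro b hb
    rw [← hT] at hb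
    induction hb using Submodule.span_induction with
    | mem b hbT =>
      obtain ⟨v, hv⟩ := ((hunit_s.mul (hunit_t ⟨b, hbT⟩))).exists_right_inv
      refine ⟨res _ (X.basicOpen_le h) (u ⟨b, hbT⟩) * v, ?_⟩
      have h1 := congrArg (res (X.basicOpen h) (X.basicOpen_le h)) (hut ⟨b, hbT⟩)
      simp only [map_mul] at h1
      calc res (X.basicOpen h) (X.basicOpen_le h) b
          = res (X.basicOpen h) (X.basicOpen_le h) b *
            ((res (X.basicOpen h) (X.basicOpen_le h) (s₀ : Γ(X, W)) *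
              res (X.basicOpen h) (X.basicOpen_le h) (t ⟨b, hbT⟩ : Γ(X, W))) * v) := by
            rw [hv, mul_one]
        _ = (res (X.basicOpen h) (X.basicOpen_le h) b *
              res (X.basicOpen h) (X.basicOpen_le h) (s₀ : Γ(X, W)) *
              res (X.basicOpen h) (X.basicOpen_le h) (t ⟨b, hbT⟩ : Γ(X, W))) * v := by ring
        _ = _ := by rw [h1]; ring
    | zero => exact ⟨0, by simp⟩
    | add a b _ _ ha hb =>
      obtain ⟨wa, hwa⟩ := ha
      obtain ⟨wb, hwb⟩ := hb
      exact ⟨wa + wb, by rw [map_add, hwa, hwb, add_mul]⟩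
    | smul r a _ ha =>
      obtain ⟨wa, hwa⟩ := ha
      exact ⟨res _ (X.basicOpen_le h) r * wa, by rw [smul_eq_mul, map_mul, hwa, mul_assoc]⟩

/-- **descent to a basic open**: if `e` divides (on `D(h)`) all functions of `W` vanishing off `U`,
it divides all functions of `D(h)` vanishing off `U`. -/
theorem dvd_of_mem_complIdeal_basicOpen {U W : X.Opens} (hW : IsAffineOpen W) (h e : Γ(X, W))
    (H : ∀ b ∈ complIdeal U W, ∃ w : Γ(X, X.basicOpen h),
      res (X.basicOpen h) (X.basicOpen_le h) b = w * res (X.basicOpen h) (X.basicOpen_le h) e) :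
    ∀ b' ∈ complIdeal U (X.basicOpen h), ∃ w : Γ(X, X.basicOpen h),
      b' = w * res (X.basicOpen h) (X.basicOpen_le h) e := by
  intro b' hb'
  haveI := hW.isLocalization_basicOpen h
  obtain ⟨⟨a, ⟨_, l, rfl⟩⟩, hal⟩ := IsLocalization.surj (Submonoid.powers h) b'
  have hal' : b' * res (X.basicOpen h) (X.basicOpen_le h) h ^ l =
      res (X.basicOpen h) (X.basicOpen_le h) a := by
    rw [← map_pow]; exact hal
  have hmem : a * h ∈ complIdeal U W := by
    rw [mem_complIdeal, Scheme.basicOpen_mul, inf_comm, ← basicOpen_res_eq_inf (X.basicOpen_le h) a,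
      ← hal', Scheme.basicOpen_mul]
    exact inf_le_left.trans hb'
  obtain ⟨w, hw⟩ := H (a * h) hmem
  obtain ⟨v, hv⟩ := ((isUnit_res_basicOpen_self h).pow (l + 1)).exists_right_inv
  refine ⟨w * v, ?_⟩
  rw [map_mul, ← hal'] at hw
  calc b' = b' * (res (X.basicOpen h) (X.basicOpen_le h) h ^ (l + 1) * v) := by rw [hv, mul_one]
    _ = (b' * res (X.basicOpen h) (X.basicOpen_le h) h ^ l *
          res (X.basicOpen h) (X.basicOpen_le h) h) * v := by ring
    _ = _ := by rw [hw]; ring

/-- `e` is a local equation on `V` of the complement of `U`. -/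
structure IsLocalEq (U V : X.Opens) (e : Γ(X, V)) : Prop where
  mem : e ∈ complIdeal U V
  dvd : ∀ (V' : X.Opens) (h : V' ≤ V) (a : Γ(X, V')), a ∈ complIdeal U V' →
    ∃ c : Γ(X, V'), a = c * res V' h e

/-- a divisor of all functions of an affine open vanishing off a nonempty `U` is nonzero. -/
theorem ne_zero_of_forall_dvd [IsIntegral X] {U W : X.Opens} [Nonempty U] [Nonempty W]
    (hW : IsAffineOpen W) (e : Γ(X, W))
    (H : ∀ b ∈ complIdeal U W, ∃ w : Γ(X, W), b = w * e) : e ≠ 0 := by
  intro he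
  obtain ⟨⟨y, hy⟩⟩ := nonempty_inf U W
  obtain ⟨f, hf1, hf2⟩ := hW.exists_basicOpen_le (V := U) ⟨y, hy.1⟩ hy.2
  obtain ⟨w, hw⟩ := H f hf1
  rw [he, mul_zero] at hw
  rw [hw, Scheme.basicOpen_zero] at hf2
  exact hf2

/-- cancellation of a nonzero function on an integral scheme. -/
theorem mul_res_cancel [IsIntegral X] {V V' : X.Opens} [Nonempty V] (h : V' ≤ V) (e : Γ(X, V))
    (he : e ≠ 0) (a b : Γ(X, V')) (hab : a * res V' h e = b * res V' h e) : a = b := by
  by_cases hne : Nonempty V'
  · haveI := hne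
    have h1 : res V' h e ≠ 0 := fun h0 => he (res_injective h (by rw [h0, map_zero]))
    exact mul_right_cancel₀ h1 hab
  · haveI := subsingleton_of_not_nonempty V' hne
    exact Subsingleton.elim _ _

/-- **S7**: local equations exist at every point with factorial local ring. -/
theorem exists_isLocalEq [IsIntegral X] [IsLocallyNoetherian X] {U : X.Opens} [Nonempty U]
    (hsep : ∀ W : X.Opens, IsAffineOpen W → IsAffineOpen (U ⊓ W))
    (x : X) [UniqueFactorizationMonoid (X.presheaf.stalk x)] :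
    ∃ (V : X.Opens) (e : Γ(X, V)), x ∈ V ∧ IsLocalEq U V e := by
  obtain ⟨_, ⟨W, hW : IsAffineOpen W, rfl⟩, hxW, -⟩ :=
    X.isBasis_affineOpens.exists_subset_of_mem_open (Set.mem_univ x) isOpen_univ
  haveI : IsNoetherianRing Γ(X, W) := IsLocallyNoetherian.component_noetherian ⟨W, hW⟩
  obtain ⟨π, hπ⟩ := exists_germ_generator hW (hsep W hW) x hxW
  obtain ⟨h, e, hxh, he, H⟩ := exists_basicOpen_generator hW x hxW π hπ
  have hW' : IsAffineOpen (X.basicOpen h) := hW.basicOpen h
  haveI : Nonempty (X.basicOpen h) := ⟨⟨x, hxh⟩⟩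
  set e' := res (X.basicOpen h) (X.basicOpen_le h) e with he'
  have H1 := dvd_of_mem_complIdeal_basicOpen hW h e H
  have he'0 : e' ≠ 0 := ne_zero_of_forall_dvd hW' e' H1
  refine ⟨X.basicOpen h, e', hxh, res_mem_complIdeal _ he, ?_⟩
  intro V' hV' a ha
  -- local quotients on basic opens of `D(h)` inside `V'`
  have hloc : ∀ y : V', ∃ (q : Γ(X, X.basicOpen h)) (hq : X.basicOpen q ≤ V')
      (c : Γ(X, X.basicOpen q)), (y : X) ∈ X.basicOpen q ∧
      res (X.basicOpen q) hq a = c * res (X.basicOpen q) (X.basicOpen_le q) e' := by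
    intro y
    obtain ⟨q, hq1, hq2⟩ := hW'.exists_basicOpen_le (V := V') y (hV' y.2)
    have H2 := dvd_of_mem_complIdeal_basicOpen hW' q e' (fun b hb => by
      obtain ⟨w, hw⟩ := H1 b hb
      exact ⟨res _ (X.basicOpen_le q) w, by rw [hw, map_mul]⟩)
    obtain ⟨c, hc⟩ := H2 (res (X.basicOpen q) hq1 a) (res_mem_complIdeal hq1 ha)
    exact ⟨q, hq1, c, hq2, hc⟩
  choose q hq c hyq hc using hloc
  have hcover : V' ≤ ⨆ y : V', X.basicOpen (q y) := fun y hy =>
    Opens.mem_iSup.2 ⟨⟨y, hy⟩, hyq ⟨y, hy⟩⟩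
  obtain ⟨c₀, hc₀, -⟩ := exists_glue (V := V') (fun y : V' => X.basicOpen (q y)) hq hcover c
    (fun y z => by
      apply mul_res_cancel ((inf_le_left.trans (hq y)).trans hV') e' he'0
      have h1 := congrArg (res (X.basicOpen (q y) ⊓ X.basicOpen (q z)) inf_le_left) (hc y)
      have h2 := congrArg (res (X.basicOpen (q y) ⊓ X.basicOpen (q z)) inf_le_right) (hc z)
      simp only [map_mul, res_res] at h1 h2
      rw [← h1, ← h2])
  refine ⟨c₀, ?_⟩
  apply eq_of_res_eq (fun y : V' => X.basicOpen (q y)) hq hcover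
  intro y
  rw [map_mul, hc₀ y, res_res, hc y, res_res]

namespace IsLocalEq

variable [IsIntegral X] {U V : X.Opens} [Nonempty U] {e : Γ(X, V)}

/-- a local equation is invertible on `V ⊓ U`. -/
theorem isUnit_res (H : IsLocalEq U V e) : IsUnit (res (V ⊓ U) inf_le_left e) := by
  have h1 : (1 : Γ(X, V ⊓ U)) ∈ complIdeal U (V ⊓ U) := by
    rw [mem_complIdeal, Scheme.basicOpen_one]; exact inf_le_right
  obtain ⟨c, hc⟩ := H.dvd (V ⊓ U) inf_le_left 1 h1
  exact IsUnit.of_mul_eq_one c (by rw [mul_comm]; exact hc.symm)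

theorem basicOpen_eq (H : IsLocalEq U V e) : X.basicOpen e = V ⊓ U := by
  apply le_antisymm (le_inf (X.basicOpen_le e) H.mem)
  have h1 := Scheme.basicOpen_of_isUnit X H.isUnit_res
  rw [basicOpen_res_eq_inf] at h1
  intro y hy
  have : y ∈ (V ⊓ U) ⊓ X.basicOpen e := by rw [h1]; exact hy
  exact this.2

theorem ne_zero [Nonempty V] (H : IsLocalEq U V e) : e ≠ 0 := by
  intro h0
  haveI : Nonempty (V ⊓ U : X.Opens) := nonempty_inf V U
  have h1 := H.isUnit_res
  rw [h0, map_zero] at h1
  exact not_isUnit_zero h1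

end IsLocalEq

/-- a local equation restricts to a local equation on a smaller open. -/
theorem IsLocalEq.restrict {U V W : X.Opens} {e : Γ(X, V)} (H : IsLocalEq U V e) (h : W ≤ V) :
    IsLocalEq U W (res W h e) where
  mem := res_mem_complIdeal h H.mem
  dvd := fun V' hV' a ha => by
    obtain ⟨c, hc⟩ := H.dvd V' (hV'.trans h) a ha
    exact ⟨c, by rw [hc, res_res]⟩

/-- **S8 = (7d)**, general form: local equations of the complement of `U` on opens with a property
`P` glue to a line bundle whose charts have `P`, with a section all of whose components are local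
equations. -/
theorem exists_LB_of_isLocalEq_prop [IsIntegral X] {U : X.Opens} [Nonempty U]
    (P : X.Opens → Prop)
    (H : ∀ x : X, ∃ (V : X.Opens) (e : Γ(X, V)), x ∈ V ∧ IsLocalEq U V e ∧ P V) :
    ∃ (M : LB X) (s : M.H0), (∀ i, IsLocalEq U (M.U i) (s.1 i)) ∧ ∀ i, P (M.U i) := by
  choose V e hxV hE hP using H
  haveI : ∀ x, Nonempty (V x) := fun x => ⟨⟨x, hxV x⟩⟩
  have he0 : ∀ x, e x ≠ 0 := fun x => (hE x).ne_zero
  have hg : ∀ x y : X, ∃ c : Γ(X, V x ⊓ V y),
      res (V x ⊓ V y) inf_le_left (e x) = c * res (V x ⊓ V y) inf_le_right (e y) := fun x y =>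
    (hE y).dvd (V x ⊓ V y) inf_le_right _ (res_mem_complIdeal inf_le_left (hE x).mem)
  choose g hgs using hg
  let M : LB X :=
    { ι := X
      U := V
      iSup_U := by
        rw [eq_top_iff]
        intro x _
        exact Opens.mem_iSup.2 ⟨x, hxV x⟩
      g := g
      g_self := fun x => by
        apply mul_res_cancel (V := V x) inf_le_right (e x) (he0 x)
        rw [one_mul]
        exact (hgs x x).symm
      cocycle := fun x y z => by
        apply mul_res_cancel (V := V z) inf_le_right (e z) (he0 z)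
        have h1 := congrArg (res (V x ⊓ V y ⊓ V z) inf_le_left) (hgs x y)
        have h2 := congrArg (res (V x ⊓ V y ⊓ V z)
          (le_inf (inf_le_left.trans inf_le_right) inf_le_right)) (hgs y z)
        have h3 := congrArg (res (V x ⊓ V y ⊓ V z)
          (le_inf (inf_le_left.trans inf_le_left) inf_le_right)) (hgs x z)
        simp only [map_mul, res_res] at h1 h2 h3
        rw [← h3, mul_assoc, ← h2, ← h1] }
  exact ⟨M, ⟨e, fun x y => hgs x y⟩, fun x => hE x, fun x => hP x⟩

/-- **S8 = (7d)**: local equations of the complement of `U` glue to a line bundle with a section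
whose non-vanishing locus is exactly `U`. -/
theorem exists_LB_of_isLocalEq [IsIntegral X] {U : X.Opens} [Nonempty U]
    (H : ∀ x : X, ∃ (V : X.Opens) (e : Γ(X, V)), x ∈ V ∧ IsLocalEq U V e) :
    ∃ (M : LB X) (s : M.H0), ∀ i, X.basicOpen (s.1 i) = M.U i ⊓ U := by
  obtain ⟨M, s, hs, -⟩ := exists_LB_of_isLocalEq_prop (fun _ => True) (fun x => by
    obtain ⟨V, e, hx, hE⟩ := H x
    exact ⟨V, e, hx, hE, True.intro⟩)
  exact ⟨M, s, fun i => (hs i).basicOpen_eq⟩

/-- **(7d)**: on an integral, locally noetherian scheme all of whose local rings are factorial, the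
complement of a nonempty open `U` meeting every affine open in an affine open (e.g. `U` affine and
`X` separated) is the zero locus of a section of a line bundle. -/
theorem exists_LB_of_affine_inter [IsIntegral X] [IsLocallyNoetherian X] {U : X.Opens} [Nonempty U]
    (hsep : ∀ W : X.Opens, IsAffineOpen W → IsAffineOpen (U ⊓ W))
    (hUFD : ∀ x : X, UniqueFactorizationMonoid (X.presheaf.stalk x)) :
    ∃ (M : LB X) (s : M.H0), ∀ i, X.basicOpen (s.1 i) = M.U i ⊓ U :=
  exists_LB_of_isLocalEq (fun x => by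
    haveI := hUFD x
    exact exists_isLocalEq hsep x)

/-- **(7d)** for a nonempty affine open of a separated scheme. -/
theorem exists_LB_of_isAffineOpen [IsIntegral X] [IsLocallyNoetherian X] [X.IsSeparated]
    {U : X.Opens} [Nonempty U] (hU : IsAffineOpen U)
    (hUFD : ∀ x : X, UniqueFactorizationMonoid (X.presheaf.stalk x)) :
    ∃ (M : LB X) (s : M.H0), ∀ i, X.basicOpen (s.1 i) = M.U i ⊓ U :=
  exists_LB_of_affine_inter (fun _ hW => hU.inf hW) hUFD

/-- **(7d)**, closed-point version: on a quasi-compact scheme it suffices that the local rings at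
the closed points are factorial. -/
theorem exists_LB_of_isAffineOpen_of_closedPoints [IsIntegral X] [IsLocallyNoetherian X]
    [X.IsSeparated] [CompactSpace X] {U : X.Opens} [Nonempty U] (hU : IsAffineOpen U)
    (hUFD : ∀ y : X, IsClosed ({y} : Set X) → UniqueFactorizationMonoid (X.presheaf.stalk y)) :
    ∃ (M : LB X) (s : M.H0), ∀ i, X.basicOpen (s.1 i) = M.U i ⊓ U :=
  exists_LB_of_isLocalEq (fun x => by
    obtain ⟨y, hy, hyc⟩ := (isClosed_closure (s := ({x} : Set X))).exists_closed_singleton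
      ⟨x, subset_closure rfl⟩
    haveI := hUFD y hyc
    obtain ⟨V, e, hyV, hE⟩ := exists_isLocalEq (U := U) (fun _ hW => hU.inf hW) y
    have hspec : x ⤳ y := specializes_iff_mem_closure.2 hy
    exact ⟨V, e, hspec.mem_open V.isOpen hyV, hE⟩)

/-- local equations on AFFINE opens. -/
theorem exists_isLocalEq_affine [IsIntegral X] [IsLocallyNoetherian X] {U : X.Opens} [Nonempty U]
    (hsep : ∀ W : X.Opens, IsAffineOpen W → IsAffineOpen (U ⊓ W))
    (x : X) [UniqueFactorizationMonoid (X.presheaf.stalk x)] :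
    ∃ (V : X.Opens) (e : Γ(X, V)), x ∈ V ∧ IsLocalEq U V e ∧ IsAffineOpen V := by
  obtain ⟨V, e, hxV, hE⟩ := exists_isLocalEq hsep x
  obtain ⟨_, ⟨W, hW : IsAffineOpen W, rfl⟩, hxW, hWV⟩ :=
    X.isBasis_affineOpens.exists_subset_of_mem_open hxV V.isOpen
  exact ⟨W, res W hWV e, hxW, hE.restrict hWV, hW⟩

/-- **(7d), strong form**: the line bundle `O(D)`, `D = X ∖ U`, on AFFINE charts, with the canonical
section all of whose components are local equations of `D`. -/
theorem exists_LB_affine_of_isAffineOpen_of_closedPoints [IsIntegral X] [IsLocallyNoetherian X]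
    [X.IsSeparated] [CompactSpace X] {U : X.Opens} [Nonempty U] (hU : IsAffineOpen U)
    (hUFD : ∀ y : X, IsClosed ({y} : Set X) → UniqueFactorizationMonoid (X.presheaf.stalk y)) :
    ∃ (M : LB X) (s : M.H0), (∀ i, IsLocalEq U (M.U i) (s.1 i)) ∧ ∀ i, IsAffineOpen (M.U i) :=
  exists_LB_of_isLocalEq_prop IsAffineOpen (fun x => by
    obtain ⟨y, hy, hyc⟩ := (isClosed_closure (s := ({x} : Set X))).exists_closed_singleton
      ⟨x, subset_closure rfl⟩
    haveI := hUFD y hyc
    obtain ⟨V, e, hyV, hE, hV⟩ := exists_isLocalEq_affine (U := U) (fun _ hW => hU.inf hW) y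
    have hspec : x ⤳ y := specializes_iff_mem_closure.2 hy
    exact ⟨V, e, hspec.mem_open V.isOpen hyV, hE, hV⟩)

/-- local equations of the complement of `U` on the members of an arbitrary open cover by nonempty
opens glue to a line bundle on that cover. -/
theorem exists_LB_of_isLocalEq_family [IsIntegral X] {U : X.Opens} [Nonempty U] {ι : Type u}
    (V : ι → X.Opens) (e : ∀ i, Γ(X, V i)) (hcover : ⨆ i, V i = ⊤) (hne : ∀ i, Nonempty (V i))
    (hE : ∀ i, IsLocalEq U (V i) (e i)) :
    ∃ (M : LB X) (s : M.H0) (φ : M.ι ≃ ι), (∀ i, M.U i = V (φ i)) ∧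
      ∀ i, IsLocalEq U (M.U i) (s.1 i) := by
  haveI := hne
  have he0 : ∀ x, e x ≠ 0 := fun x => (hE x).ne_zero
  have hg : ∀ x y : ι, ∃ c : Γ(X, V x ⊓ V y),
      res (V x ⊓ V y) inf_le_left (e x) = c * res (V x ⊓ V y) inf_le_right (e y) := fun x y =>
    (hE y).dvd (V x ⊓ V y) inf_le_right _ (res_mem_complIdeal inf_le_left (hE x).mem)
  choose g hgs using hg
  let M : LB X :=
    { ι := ι
      U := V
      iSup_U := hcover
      g := g
      g_self := fun x => by
        apply mul_res_cancel (V := V x) inf_le_right (e x) (he0 x)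
        rw [one_mul]
        exact (hgs x x).symm
      cocycle := fun x y z => by
        apply mul_res_cancel (V := V z) inf_le_right (e z) (he0 z)
        have h1 := congrArg (res (V x ⊓ V y ⊓ V z) inf_le_left) (hgs x y)
        have h2 := congrArg (res (V x ⊓ V y ⊓ V z)
          (le_inf (inf_le_left.trans inf_le_right) inf_le_right)) (hgs y z)
        have h3 := congrArg (res (V x ⊓ V y ⊓ V z)
          (le_inf (inf_le_left.trans inf_le_left) inf_le_right)) (hgs x z)
        simp only [map_mul, res_res] at h1 h2 h3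
        rw [← h3, mul_assoc, ← h2, ← h1] }
  exact ⟨M, ⟨e, fun x y => hgs x y⟩, Equiv.refl ι, fun _ => rfl, fun x => hE x⟩

/-- **(7d), finite strong form**: on a compact scheme the line bundle `O(D)`, `D = X ∖ U`, can be
given on FINITELY many AFFINE charts, with a section all of whose components are local equations
of `D`. -/
theorem exists_LB_finite_affine_of_isAffineOpen_of_closedPoints [IsIntegral X]
    [IsLocallyNoetherian X] [X.IsSeparated] [CompactSpace X] {U : X.Opens} [Nonempty U]
    (hU : IsAffineOpen U)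
    (hUFD : ∀ y : X, IsClosed ({y} : Set X) → UniqueFactorizationMonoid (X.presheaf.stalk y)) :
    ∃ (M : LB X) (s : M.H0), Finite M.ι ∧ (∀ i, IsLocalEq U (M.U i) (s.1 i)) ∧
      ∀ i, IsAffineOpen (M.U i) := by
  classical
  have H : ∀ x : X, ∃ (V : X.Opens) (e : Γ(X, V)), x ∈ V ∧ IsLocalEq U V e ∧ IsAffineOpen V := by
    intro x
    obtain ⟨y, hy, hyc⟩ := (isClosed_closure (s := ({x} : Set X))).exists_closed_singleton
      ⟨x, subset_closure rfl⟩
    haveI := hUFD y hyc
    obtain ⟨V, e, hyV, hE, hV⟩ := exists_isLocalEq_affine (U := U) (fun _ hW => hU.inf hW) y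
    have hspec : x ⤳ y := specializes_iff_mem_closure.2 hy
    exact ⟨V, e, hspec.mem_open V.isOpen hyV, hE, hV⟩
  choose V e hxV hE hV using H
  obtain ⟨T, hT⟩ := isCompact_univ.elim_finite_subcover (fun x => (V x : Set X))
    (fun x => (V x).isOpen) (fun x _ => Set.mem_iUnion.2 ⟨x, hxV x⟩)
  have hcover : ⨆ i : T, V i.1 = ⊤ := by
    rw [eq_top_iff]
    intro y _
    obtain ⟨x, hx⟩ := Set.mem_iUnion.1 (hT (Set.mem_univ y))
    obtain ⟨hxT, hyx⟩ := Set.mem_iUnion.1 hx
    exact Opens.mem_iSup.2 ⟨⟨x, hxT⟩, hyx⟩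
  obtain ⟨M, s, φ, hφ, hs⟩ := exists_LB_of_isLocalEq_family (U := U) (fun i : T => V i.1)
    (fun i => e i.1) hcover (fun i => ⟨⟨i.1, hxV i.1⟩⟩) (fun i => hE i.1)
  refine ⟨M, s, Finite.of_equiv _ φ.symm, hs, fun i => ?_⟩
  rw [hφ i]
  exact hV _

end

end Fermat.Agent.AV
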