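/-
PROJECT AV (S26) — helper5 — **the centre of a valuation on a proper integral scheme** (FIN-geo input).

* `functionFieldStrMap f : .of K ⟶ X.functionField` := `(ΓSpecIso).inv ≫ f.appTop ≫ germ ⊤ η`
  (the same ring map as helper6's `functionFieldStr`);
* `exists_centre_hom` : `f : X ⟶ Spec K` universally closed, `X` integral, `V ⊇ K` a valuation subring of
  `K(X)` ⇒ `∃ ξ (ψ : O_{X,ξ} →+* V), IsLocalHom ψ ∧ ∀ a, (ψ a : K(X)) = algebraMap a`;
* `exists_centre`, `exists_centre_sections` (for sections over any open containing `ξ`).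
-/
import Mathlib

set_option autoImplicit false
set_option linter.style.haveILetI false

open AlgebraicGeometry CategoryTheory Opposite TopologicalSpace

universe u

namespace Fermat.Agent.AV

noncomputable section

/-- the structure map of the function field of a `K`-scheme. -/
def functionFieldStrMap {K : Type u} [Field K] {X : Scheme.{u}} [IsIntegral X]
    (f : X ⟶ Spec (.of K)) : CommRingCat.of K ⟶ X.functionField :=
  (Scheme.ΓSpecIso (.of K)).inv ≫ f.appTop ≫ X.presheaf.germ ⊤ (genericPoint X) trivial

theorem fromSpecStalk_genericPoint_comp {K : Type u} [Field K] {X : Scheme.{u}} [IsIntegral X]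
    (f : X ⟶ Spec (.of K)) :
    X.fromSpecStalk (genericPoint X) ≫ f = Spec.map (functionFieldStrMap f) := by
  apply ext_of_isAffine
  rw [Scheme.Hom.comp_appTop, Scheme.fromSpecStalk_appTop]
  have h := (Scheme.ΓSpecIso_inv_naturality (functionFieldStrMap f)).symm
  rw [Iso.inv_comp_eq] at h
  rw [h, functionFieldStrMap]
  simp only [Category.assoc, Iso.hom_inv_id_assoc]
  congr 2

/-- **centre of a valuation**: on an integral scheme universally closed over a field `K`, every
valuation ring `V ⊇ K` of the function field dominates the local ring of some point `ξ`. -/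
theorem exists_centre_hom {K : Type u} [Field K] {X : Scheme.{u}} [IsIntegral X]
    (f : X ⟶ Spec (.of K)) [UniversallyClosed f] (V : ValuationSubring X.functionField)
    (hK : ∀ c : K, (functionFieldStrMap f).hom c ∈ V) :
    ∃ (ξ : X) (ψ : X.presheaf.stalk ξ →+* V), IsLocalHom ψ ∧
      ∀ a : X.presheaf.stalk ξ,
        ((ψ a : V) : X.functionField) = algebraMap (X.presheaf.stalk ξ) X.functionField a := by
  have hex : ValuativeCriterion.Existence f := by
    have h : (ValuativeCriterion.Existence ⊓ @QuasiCompact) f := by
      rw [← UniversallyClosed.eq_valuativeCriterion]; infer_instance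
    exact h.1
  -- the structure map `K → V`
  let φ : K →+* V := (functionFieldStrMap f).hom.codRestrict V.toSubring hK
  let S : ValuativeCommSq f :=
    { R := V
      K := X.functionField
      i₁ := X.fromSpecStalk (genericPoint X)
      i₂ := Spec.map (CommRingCat.ofHom φ)
      commSq := ⟨by
        rw [fromSpecStalk_genericPoint_comp, ← Spec.map_comp]
        congr 1⟩ }
  obtain ⟨⟨l, hl₁, hl₂⟩⟩ := (hex S).exists_lift
  -- the centre
  set ψ := Scheme.stalkClosedPointTo l with hψ
  have hspec : genericPoint X ⤳ l (IsLocalRing.closedPoint V) :=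
    (genericPoint_spec X).specializes trivial
  have key : ψ ≫ CommRingCat.ofHom (algebraMap V X.functionField) =
      X.presheaf.stalkSpecializes hspec := by
    apply Spec.map_injective
    rw [← cancel_mono (X.fromSpecStalk (l (IsLocalRing.closedPoint V))), Spec.map_comp,
      Category.assoc, Scheme.Spec_stalkClosedPointTo_fromSpecStalk,
      Scheme.SpecMap_stalkSpecializes_fromSpecStalk]
    exact hl₁
  refine ⟨l (IsLocalRing.closedPoint V), ψ.hom, Scheme.isLocalHom_stalkClosedPointTo' l,
    fun a => ?_⟩
  have h1 : algebraMap (X.presheaf.stalk (l (IsLocalRing.closedPoint V))) X.functionField a =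
      (X.presheaf.stalkSpecializes hspec).hom a := rfl
  rw [h1, ← key]
  rfl

/-- the centre of a valuation: every local function at the centre lies in the valuation ring. -/
theorem exists_centre {K : Type u} [Field K] {X : Scheme.{u}} [IsIntegral X]
    (f : X ⟶ Spec (.of K)) [UniversallyClosed f] (V : ValuationSubring X.functionField)
    (hK : ∀ c : K, (functionFieldStrMap f).hom c ∈ V) :
    ∃ ξ : X, ∀ a : X.presheaf.stalk ξ,
      algebraMap (X.presheaf.stalk ξ) X.functionField a ∈ V := by
  obtain ⟨ξ, ψ, -, hψ⟩ := exists_centre_hom f V hK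
  exact ⟨ξ, fun a => hψ a ▸ (ψ a).2⟩

/-- the centre of a valuation, for sections over an open containing the centre. -/
theorem exists_centre_sections {K : Type u} [Field K] {X : Scheme.{u}} [IsIntegral X]
    (f : X ⟶ Spec (.of K)) [UniversallyClosed f] (V : ValuationSubring X.functionField)
    (hK : ∀ c : K, (functionFieldStrMap f).hom c ∈ V) :
    ∃ ξ : X, ∀ (U : X.Opens) (hξ : ξ ∈ U) (a : Γ(X, U)),
      haveI : Nonempty U := ⟨⟨ξ, hξ⟩⟩
      (X.germToFunctionField U).hom a ∈ V := by
  obtain ⟨ξ, hξ⟩ := exists_centre f V hK
  refine ⟨ξ, fun U hU a => ?_⟩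
  haveI : Nonempty U := ⟨⟨ξ, hU⟩⟩
  have := hξ ((X.presheaf.germ U ξ hU).hom a)
  rwa [Scheme.algebraMap_germ_eq_germToFunctionField] at this

end

end Fermat.Agent.AV
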