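/-
PROJECT AV (S26) — helper5 — **powers of a line bundle, the rational functions `σ / s^k`, and the linear
domination of their poles** (FIN-geo in Cartier form).

* `LB.pow M k` (same cover, `g^k`), `powSection`, `mulSection`, `IsoData.powSucc`, `pow_zero_isTrivial`,
  `mk_pow : PicGroup.mk (M.pow k) = k • PicGroup.mk M`, `pullback_pow : (M.pow k).pullback φ = (M.pullback φ).pow k`;
* `germOf U a` (germ at the generic point, `1` on the empty open), `LB.powComp`, `LB.chart0`;
* `LB.ratio k s σ : K(X)` (`= σ / s^k`), `ratio_mul_pow`, `ratio_eq_div`, `ratio_add`, `ratio_zero`,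
  `ratio_injective`, `ratio_smul`, `mem_range_ratio_iff`;
* **`LB.exists_poles`** / `exists_poles_submodule` (shape of helper2's `hpole`), `LB.ratioSubmodule`.
-/
import Mathlib
import Fermat.Agent.AV.LB_helper5_Core
import Fermat.Agent.AV.AV2_helper5_Main
import Fermat.Agent.AV.LB_helper5_Pic
import Fermat.Agent.AV.CENTRE_helper5_Valuative
import Fermat.Agent.AV.CART_helper5_Divisor

set_option autoImplicit false
set_option linter.style.haveILetI false
set_option linter.unusedSectionVars false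

open AlgebraicGeometry CategoryTheory Opposite TopologicalSpace

universe u

namespace Fermat.Agent.AV

noncomputable section

namespace LB

variable {X : Scheme.{u}} (M : LB X)

/-- the `k`-th tensor power of a line bundle, on the same cover. -/
def pow (k : ℕ) : LB X where
  ι := M.ι
  U := M.U
  iSup_U := M.iSup_U
  g := fun i j => M.g i j ^ k
  g_self := fun i => by rw [M.g_self, one_pow]
  cocycle := fun i j l => by
    rw [map_pow, map_pow, map_pow, ← mul_pow, M.cocycle]

/-- the `k`-th power of a section. -/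
def powSection (k : ℕ) (s : M.H0) : (M.pow k).H0 :=
  ⟨fun i => s.1 i ^ k, fun (i j : M.ι) => by
    show res (M.U i ⊓ M.U j) inf_le_left (s.1 i ^ k) =
      M.g i j ^ k * res (M.U i ⊓ M.U j) inf_le_right (s.1 j ^ k)
    rw [map_pow, map_pow, s.2 i j, mul_pow]⟩

/-- the product of sections of powers. -/
def mulSection {k l : ℕ} (s : (M.pow k).H0) (t : (M.pow l).H0) : (M.pow (k + l)).H0 :=
  ⟨fun (i : M.ι) => (show Γ(X, M.U i) from s.1 i) * (show Γ(X, M.U i) from t.1 i),
      fun (i j : M.ι) => by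
    have hs : res (M.U i ⊓ M.U j) inf_le_left (show Γ(X, M.U i) from s.1 i) =
        M.g i j ^ k * res (M.U i ⊓ M.U j) inf_le_right (show Γ(X, M.U j) from s.1 j) := s.2 i j
    have ht : res (M.U i ⊓ M.U j) inf_le_left (show Γ(X, M.U i) from t.1 i) =
        M.g i j ^ l * res (M.U i ⊓ M.U j) inf_le_right (show Γ(X, M.U j) from t.1 j) := t.2 i j
    show res (M.U i ⊓ M.U j) inf_le_left
        ((show Γ(X, M.U i) from s.1 i) * (show Γ(X, M.U i) from t.1 i)) =
      M.g i j ^ (k + l) * res (M.U i ⊓ M.U j) inf_le_right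
        ((show Γ(X, M.U j) from s.1 j) * (show Γ(X, M.U j) from t.1 j))
    rw [map_mul, map_mul, hs, ht, pow_add]
    ring⟩

/-- `M^(k+1) ≅ M^k ⊗ M`. -/
def IsoData.powSucc (k : ℕ) : IsoData (M.pow (k + 1)) ((M.pow k).tensor M) where
  κ := M.ι
  W := M.U
  iSup_W := M.iSup_U
  α := id
  β := fun i => (i, i)
  hα := fun _ => le_rfl
  hβ := fun _ => le_inf le_rfl le_rfl
  f := fun _ => 1
  fi := fun _ => 1
  f_mul_fi := fun _ => mul_one 1
  compat := fun i j => by
    rw [tensor_g_res]
    simp only [map_one, one_mul, mul_one]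
    show res (M.U i ⊓ M.U j) _ (M.g i j ^ (k + 1)) =
      res (M.U i ⊓ M.U j) _ (M.g i j ^ k) * res (M.U i ⊓ M.U j) _ (M.g i j)
    rw [← map_mul, pow_succ]

/-- `M^0` is trivial. -/
theorem pow_zero_isTrivial : (M.pow 0).IsTrivial :=
  ⟨⟨fun _ => 1, fun (i j : M.ι) => by
    have h : res (M.U i ⊓ M.U j) inf_le_left (1 : Γ(X, M.U i)) =
        M.g i j ^ 0 * res (M.U i ⊓ M.U j) inf_le_right (1 : Γ(X, M.U j)) := by
      rw [pow_zero, map_one, map_one, mul_one]
    exact h⟩, fun _ => isUnit_one⟩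

theorem mk_pow (k : ℕ) : PicGroup.mk (M.pow k) = k • PicGroup.mk M := by
  induction k with
  | zero => rw [zero_smul, PicGroup.mk_eq_zero_iff]; exact M.pow_zero_isTrivial
  | succ k ih =>
    rw [succ_nsmul, ← ih, ← PicGroup.mk_tensor, PicGroup.mk_eq_mk_iff]
    exact ⟨IsoData.powSucc M k⟩

/-- pullback commutes with powers. -/
theorem pullback_pow {Y : Scheme.{u}} (φ : Y ⟶ X) (k : ℕ) :
    (M.pow k).pullback φ = (M.pullback φ).pow k := by
  have hg : ((M.pow k).pullback φ).g = ((M.pullback φ).pow k).g := by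
    funext i j
    show (φ.app (M.U i ⊓ M.U j)).hom (M.g i j ^ k) = ((φ.app (M.U i ⊓ M.U j)).hom (M.g i j)) ^ k
    rw [map_pow]
  unfold pow pullback at hg ⊢
  simp only at hg ⊢
  congr 1

section ratio

variable [IsIntegral X]

open Classical in
/-- the germ at the generic point of a function on an open (`1` on the empty open). -/
def germOf (U : X.Opens) (a : Γ(X, U)) : X.functionField :=
  if h : Nonempty U then
    haveI := h
    (X.germToFunctionField U).hom a
  else 1

theorem germOf_eq (U : X.Opens) [h : Nonempty U] (a : Γ(X, U)) :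
    germOf U a = (X.germToFunctionField U).hom a := by
  rw [germOf, dif_pos h]

theorem germOf_res {V U : X.Opens} [Nonempty U] [Nonempty V] (h : U ≤ V) (a : Γ(X, V)) :
    germOf U (res U h a) = germOf V a := by
  rw [germOf_eq, germOf_eq, germToFunctionField_hom_res]

theorem germOf_ne_zero (U : X.Opens) (a : Γ(X, U)) (h : Nonempty U → a ≠ 0) : germOf U a ≠ 0 := by
  by_cases hU : Nonempty U
  · haveI := hU
    rw [germOf_eq]
    intro h0
    apply h hU
    apply X.germToFunctionField_injective U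
    rw [h0, map_zero]
  · rw [germOf, dif_neg hU]; exact one_ne_zero

/-- the `i`-th component of a section of `M^k`, as a function on `M.U i`. -/
def powComp {k : ℕ} (σ : (M.pow k).H0) (i : M.ι) : Γ(X, M.U i) := σ.1 i

theorem powComp_res {k : ℕ} (σ : (M.pow k).H0) (i j : M.ι) :
    res (M.U i ⊓ M.U j) inf_le_left (M.powComp σ i) =
      M.g i j ^ k * res (M.U i ⊓ M.U j) inf_le_right (M.powComp σ j) := σ.2 i j

/-- a chosen nonempty chart. -/
def chart0 [Nonempty X] : M.ι := Classical.choose M.exists_nonempty_chart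

instance nonempty_chart0 [Nonempty X] : Nonempty (M.U M.chart0) :=
  Classical.choose_spec M.exists_nonempty_chart

theorem germOf_ne_zero_of_section (s : M.H0) (hs : s ≠ 0) (i : M.ι) :
    germOf (M.U i) (s.1 i) ≠ 0 :=
  germOf_ne_zero _ _ (fun hne h0 => hs (by haveI := hne; exact M.eq_zero_of_apply_eq_zero s i h0))

/-- on nonempty charts the germs of a section of `M^k` and of the `k`-th power of a section of `M`
transform by the same factor. -/
theorem germOf_mul_germOf_pow (k : ℕ) (s : M.H0) (σ : (M.pow k).H0) (i j : M.ι)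
    [Nonempty (M.U i)] [Nonempty (M.U j)] :
    germOf (M.U i) (M.powComp σ i) * germOf (M.U j) (s.1 j) ^ k =
      germOf (M.U j) (M.powComp σ j) * germOf (M.U i) (s.1 i) ^ k := by
  haveI : Nonempty (M.U i ⊓ M.U j : X.Opens) := nonempty_inf (M.U i) (M.U j)
  have hs := congrArg (germOf (M.U i ⊓ M.U j)) (s.2 i j)
  have hσ := congrArg (germOf (M.U i ⊓ M.U j)) (M.powComp_res σ i j)
  rw [germOf_res] at hs hσ
  rw [germOf_eq (M.U i ⊓ M.U j), map_mul, ← germOf_eq, ← germOf_eq, germOf_res] at hs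
  rw [germOf_eq (M.U i ⊓ M.U j), map_mul, map_pow, ← germOf_eq, ← germOf_eq, germOf_res] at hσ
  rw [hs, hσ]
  ring

/-- the rational function `σ / s^k` attached to a section `σ` of `M^k` and a section `s` of `M`. -/
def ratio (k : ℕ) (s : M.H0) (σ : (M.pow k).H0) : X.functionField :=
  germOf (M.U M.chart0) (M.powComp σ M.chart0) / germOf (M.U M.chart0) (s.1 M.chart0) ^ k

theorem ratio_mul_pow (k : ℕ) (s : M.H0) (hs : s ≠ 0) (σ : (M.pow k).H0) (i : M.ι)
    [Nonempty (M.U i)] :
    M.ratio k s σ * germOf (M.U i) (s.1 i) ^ k = germOf (M.U i) (M.powComp σ i) := by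
  have h0 := M.germOf_ne_zero_of_section s hs M.chart0
  rw [ratio, div_mul_eq_mul_div, div_eq_iff (pow_ne_zero k h0)]
  exact M.germOf_mul_germOf_pow k s σ _ i

theorem ratio_eq_div (k : ℕ) (s : M.H0) (hs : s ≠ 0) (σ : (M.pow k).H0) (i : M.ι)
    [Nonempty (M.U i)] :
    M.ratio k s σ = germOf (M.U i) (M.powComp σ i) / germOf (M.U i) (s.1 i) ^ k := by
  rw [eq_div_iff (pow_ne_zero k (M.germOf_ne_zero_of_section s hs i))]
  exact M.ratio_mul_pow k s hs σ i

theorem ratio_add (k : ℕ) (s : M.H0) (σ τ : (M.pow k).H0) :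
    M.ratio k s (σ + τ) = M.ratio k s σ + M.ratio k s τ := by
  rw [ratio, ratio, ratio, ← add_div]
  congr 1
  rw [germOf_eq, germOf_eq, germOf_eq, ← map_add]
  rfl

theorem ratio_zero (k : ℕ) (s : M.H0) : M.ratio k s 0 = 0 := by
  have h := M.ratio_add k s 0 0
  rw [add_zero] at h
  exact left_eq_add.1 h

theorem ratio_injective (k : ℕ) (s : M.H0) (hs : s ≠ 0) :
    Function.Injective (M.ratio k s) := by
  intro σ τ h
  have h1 := M.ratio_mul_pow k s hs σ M.chart0
  have h2 := M.ratio_mul_pow k s hs τ M.chart0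
  rw [h, h2, germOf_eq, germOf_eq] at h1
  have h3 : M.powComp τ M.chart0 = M.powComp σ M.chart0 :=
    X.germToFunctionField_injective _ h1
  have h4 : (τ - σ).1 M.chart0 = 0 := by
    show τ.1 _ - σ.1 _ = 0
    exact sub_eq_zero.2 h3
  haveI : Nonempty ((M.pow k).U M.chart0) := M.nonempty_chart0
  have h5 := (M.pow k).eq_zero_of_apply_eq_zero (τ - σ) _ h4
  exact (sub_eq_zero.1 h5).symm

/-- the action of a global function on `ratio`. -/
theorem ratio_smul (k : ℕ) (s : M.H0) (r : Γ(X, ⊤)) (σ : (M.pow k).H0) :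
    M.ratio k s (r • σ) =
      (X.presheaf.germ ⊤ (genericPoint X) (Opens.mem_top _)).hom r * M.ratio k s σ := by
  rw [ratio, ratio, ← mul_div_assoc]
  congr 1
  have h1 : M.powComp (r • σ) M.chart0 =
      res (M.U M.chart0) le_top r * M.powComp σ M.chart0 := rfl
  rw [h1, germOf_eq, germOf_eq, map_mul]
  congr 1
  exact TopCat.Presheaf.germ_res_apply X.presheaf (homOfLE le_top) _ _ r

end ratio

section poles

variable [IsIntegral X]

open Classical in
/-- **description of the image of `ratio`**: `f = σ / s^k` for a section `σ` of `M^k` iff `f * s_i^k` is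
a regular function on every nonempty chart. -/
theorem mem_range_ratio_iff (k : ℕ) (s : M.H0) (hs : s ≠ 0) (f : X.functionField) :
    f ∈ Set.range (M.ratio k s) ↔
      ∀ i : M.ι, Nonempty (M.U i) →
        ∃ a : Γ(X, M.U i), f * germOf (M.U i) (s.1 i) ^ k = germOf (M.U i) a := by
  constructor
  · rintro ⟨σ, rfl⟩ i hi
    haveI := hi
    exact ⟨M.powComp σ i, M.ratio_mul_pow k s hs σ i⟩
  · intro H
    let a : ∀ i, Γ(X, M.U i) := fun i =>
      if h : Nonempty (M.U i) then Classical.choose (H i h) else 0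
    have ha : ∀ i (h : Nonempty (M.U i)), f * germOf (M.U i) (s.1 i) ^ k = germOf (M.U i) (a i) := by
      intro i h
      have : a i = Classical.choose (H i h) := dif_pos h
      rw [this]
      exact Classical.choose_spec (H i h)
    have hsec : ∀ i j : M.ι, res (M.U i ⊓ M.U j) inf_le_left (a i) =
        M.g i j ^ k * res (M.U i ⊓ M.U j) inf_le_right (a j) := by
      intro i j
      by_cases hij : Nonempty (M.U i ⊓ M.U j : X.Opens)
      · haveI := hij
        obtain ⟨⟨y, hy⟩⟩ := hij
        haveI hi : Nonempty (M.U i) := ⟨⟨y, hy.1⟩⟩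
        haveI hj : Nonempty (M.U j) := ⟨⟨y, hy.2⟩⟩
        apply X.germToFunctionField_injective (M.U i ⊓ M.U j)
        have hs' := congrArg (germOf (M.U i ⊓ M.U j)) (s.2 i j)
        rw [germOf_res, germOf_eq (M.U i ⊓ M.U j), map_mul, ← germOf_eq, ← germOf_eq,
          germOf_res] at hs'
        rw [map_mul, map_pow, ← germOf_eq, ← germOf_eq, ← germOf_eq, germOf_res, germOf_res,
          ← ha i hi, ← ha j hj, hs']
        ring
      · haveI := subsingleton_of_not_nonempty _ hij
        exact Subsingleton.elim _ _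
    let σ : (M.pow k).H0 := ⟨a, hsec⟩
    refine ⟨σ, ?_⟩
    have h1 := M.ratio_mul_pow k s hs σ M.chart0
    have h2 : M.powComp σ M.chart0 = a M.chart0 := rfl
    rw [h2, ← ha M.chart0 M.nonempty_chart0] at h1
    exact mul_right_cancel₀ (pow_ne_zero k (M.germOf_ne_zero_of_section s hs M.chart0)) h1

/-- **poles of the sections of `M^k` are dominated linearly in `k`** (FIN-geo, Cartier form): on an
integral scheme universally closed over `K` there are finitely many nonzero rational functions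
`a j` such that for every valuation ring `V ⊇ K` of the function field some `a j` lies in `V` and
`(σ / s^k) * a j ^ k ∈ V` for all `k` and all sections `σ` of `M^k`. -/
theorem exists_poles {K : Type u} [Field K] (f : X ⟶ Spec (.of K)) [UniversallyClosed f]
    [CompactSpace X] (s : M.H0) (hs : s ≠ 0) :
    ∃ (r : ℕ) (a : Fin r → X.functionField), (∀ j, a j ≠ 0) ∧
      ∀ V : ValuationSubring X.functionField, (∀ c : K, (functionFieldStrMap f).hom c ∈ V) →
        ∃ j, a j ∈ V ∧ ∀ (k : ℕ) (σ : (M.pow k).H0), M.ratio k s σ * a j ^ k ∈ V := by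
  classical
  -- a finite subcover
  obtain ⟨t, ht⟩ := isCompact_univ.elim_finite_subcover (fun i => (M.U i : Set X))
    (fun i => (M.U i).isOpen) (by
      intro x _
      have hx : x ∈ (⨆ i, M.U i : X.Opens) := by rw [M.iSup_U]; exact Opens.mem_top x
      obtain ⟨i, hi⟩ := Opens.mem_iSup.1 hx
      exact Set.mem_iUnion.2 ⟨i, hi⟩)
  refine ⟨t.card, fun j => germOf (M.U (t.equivFin.symm j).1) (s.1 (t.equivFin.symm j).1),
    fun j => M.germOf_ne_zero_of_section s hs _, ?_⟩
  intro V hV
  obtain ⟨ξ, hξ⟩ := exists_centre_sections f V hV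
  obtain ⟨i, hi⟩ := Set.mem_iUnion.1 (ht (Set.mem_univ ξ))
  obtain ⟨hit, hξi⟩ := Set.mem_iUnion.1 hi
  haveI : Nonempty (M.U i) := ⟨⟨ξ, hξi⟩⟩
  have key : ∀ p : t, p = ⟨i, hit⟩ → (germOf (M.U p.1) (s.1 p.1) ∈ V ∧
      ∀ (k : ℕ) (σ : (M.pow k).H0), M.ratio k s σ * germOf (M.U p.1) (s.1 p.1) ^ k ∈ V) := by
    rintro p rfl
    refine ⟨?_, fun k σ => ?_⟩
    · rw [germOf_eq]
      exact hξ (M.U i) hξi (s.1 i)
    · rw [M.ratio_mul_pow k s hs σ i, germOf_eq]
      exact hξ (M.U i) hξi (M.powComp σ i)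
  exact ⟨t.equivFin ⟨i, hit⟩, (key _ (Equiv.symm_apply_apply _ _)).1,
    (key _ (Equiv.symm_apply_apply _ _)).2⟩

end poles

section submodule

variable [IsIntegral X] {K : Type u} [Field K]

/-- the `K`-subspace `{σ / s^k}` of the function field (`= L(kD)` for `D = div s`). -/
def ratioSubmodule (f : X ⟶ Spec (.of K)) [Algebra K X.functionField]
    (halg : ∀ c : K, algebraMap K X.functionField c = (functionFieldStrMap f).hom c)
    (k : ℕ) (s : M.H0) : Submodule K X.functionField where
  carrier := Set.range (M.ratio k s)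
  zero_mem' := ⟨0, M.ratio_zero k s⟩
  add_mem' := by
    rintro _ _ ⟨σ, rfl⟩ ⟨τ, rfl⟩
    exact ⟨σ + τ, M.ratio_add k s σ τ⟩
  smul_mem' := by
    rintro c _ ⟨σ, rfl⟩
    refine ⟨(f.appTop.hom ((Scheme.ΓSpecIso (.of K)).inv.hom c)) • σ, ?_⟩
    rw [M.ratio_smul, Algebra.smul_def, halg]
    rfl

theorem mem_ratioSubmodule (f : X ⟶ Spec (.of K)) [Algebra K X.functionField]
    (halg : ∀ c : K, algebraMap K X.functionField c = (functionFieldStrMap f).hom c)
    (k : ℕ) (s : M.H0) (x : X.functionField) :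
    x ∈ M.ratioSubmodule f halg k s ↔ ∃ σ : (M.pow k).H0, M.ratio k s σ = x := Iff.rfl

/-- `exists_poles` in the shape of helper2's `upper_bound_of_poles'` (`b = 1`). -/
theorem exists_poles_submodule (f : X ⟶ Spec (.of K)) [UniversallyClosed f] [CompactSpace X]
    [Algebra K X.functionField]
    (halg : ∀ c : K, algebraMap K X.functionField c = (functionFieldStrMap f).hom c)
    (s : M.H0) (hs : s ≠ 0) :
    ∃ (r : ℕ) (a : Fin r → X.functionField), (∀ j, a j ≠ 0) ∧
      ∀ V : ValuationSubring X.functionField, (∀ c : K, algebraMap K X.functionField c ∈ V) →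
        ∃ j, a j ∈ V ∧ ∀ (k : ℕ), ∀ x ∈ M.ratioSubmodule f halg k s, x ^ 1 * a j ^ k ∈ V := by
  obtain ⟨r, a, ha0, H⟩ := M.exists_poles f s hs
  refine ⟨r, a, ha0, fun V hV => ?_⟩
  obtain ⟨j, hj, hjk⟩ := H V (fun c => halg c ▸ hV c)
  refine ⟨j, hj, ?_⟩
  rintro k _ ⟨σ, rfl⟩
  rw [pow_one]
  exact hjk k σ

end submodule

end LB

end

end Fermat.Agent.AV
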