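/-
PROJECT AV (S26 long shot) — AV5 (dictionary, part 2), helper2: the bridge between helper5's Cartier
language (`LB`, sections, `ratio k s σ = σ / s^k`) and the prime-divisor language (`schemePDS`,
`RRSpace`).

* `LB.RatSec.ofSection M s hs` : a nonzero global section as a rational section; `LB.sectionDiv`;
* `sectionDiv_nonneg`, `sectionDiv_eq_zero_iff` (non-vanishing locus `U` ⇒ `div s z = 0 ↔ z ∈ U`);
* **`mem_RRSpace_sectionDiv_iff`** : `f ∈ L(k · div s) ↔ f ∈ range (ratio k s)` (one direction is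
  Hartogs, helper4's N2c);
* `RRSpace_sectionDiv_eq_ratioSubmodule`.
-/
import Mathlib
import Fermat.Agent.AV.AV5_helper2_SchemePDS
import Fermat.Agent.AV.AV5_helper2_RatSec
import Fermat.Agent.AV.AV5_helper2_Degree
import Fermat.Agent.AV.LB_helper5_Pow

set_option autoImplicit false
set_option linter.style.haveILetI false
set_option linter.unusedSectionVars false

open AlgebraicGeometry CategoryTheory Opposite TopologicalSpace Order

universe u

namespace Fermat.Agent.AV

noncomputable section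

open scoped Classical

variable {X : Scheme.{u}} [IsIntegral X]

theorem germOf_eq_ggerm (U : X.Opens) (h : genericPoint X ∈ U) (a : Γ(X, U)) :
    LB.germOf U a = ggerm U h a := by
  haveI : Nonempty U := ⟨⟨genericPoint X, h⟩⟩
  rw [LB.germOf_eq]

/-- a nonzero section over `V` has non-negative order at every codimension-one point of `V`. -/
theorem scheme_ord_germ_nonneg [IsLocallyNoetherian X] {V : X.Opens} [Nonempty V] (z : X)
    (hzV : z ∈ V) (hz : coheight z = 1) (a : Γ(X, V)) (ha : a ≠ 0) :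
    0 ≤ Scheme.ord (X.germToFunctionField V a) z := by
  have hf : X.germToFunctionField V a ≠ 0 := fun h =>
    ha (X.germToFunctionField_injective V (by rw [h, map_zero]))
  rw [Scheme.le_ord_iff hz hf, ofAdd_zero, WithZero.coe_one,
    ← Scheme.algebraMap_germ_eq_germToFunctionField X hzV]
  have : Ring.KrullDimLE 1 (X.presheaf.stalk z) := krullDimLE_of_coheight_le hz.le
  refine Ring.ordFrac_ge_one_of_ne_zero (R := X.presheaf.stalk z) ?_
  intro h0
  exact ha (germ_injective_of_isIntegral X z hzV (by rw [h0, map_zero]))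

namespace LB

/-- a nonzero global section, as a rational section. -/
def RatSec.ofSection (M : LB X) (s : M.H0) (hs : s ≠ 0) : M.RatSec where
  σ := fun i => germOf (M.U i) (s.1 i)
  ne_zero := fun i _ => M.germOf_ne_zero_of_section s hs i
  compat := by
    intro i j h
    have hi : genericPoint X ∈ M.U i := h.1
    have hj : genericPoint X ∈ M.U j := h.2
    rw [germOf_eq_ggerm _ hi, germOf_eq_ggerm _ hj]
    have h1 := congrArg (ggerm (M.U i ⊓ M.U j) h) (s.2 i j)
    rw [map_mul, ggerm_res, ggerm_res] at h1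
    exact h1

/-- the divisor of a nonzero global section. -/
def sectionDiv (M : LB X) [IsLocallyNoetherian X] (s : M.H0) (hs : s ≠ 0) (z : X) : ℤ :=
  (RatSec.ofSection M s hs).div z

variable [IsLocallyNoetherian X] (M : LB X) (s : M.H0) (hs : s ≠ 0)

theorem sectionDiv_eq {z : X} {i : M.ι} (hi : z ∈ M.U i) :
    M.sectionDiv s hs z = Scheme.ord (germOf (M.U i) (s.1 i)) z :=
  (RatSec.ofSection M s hs).div_eq hi

include hs in
theorem section_apply_ne_zero (i : M.ι) [Nonempty (M.U i)] : s.1 i ≠ 0 := fun h0 =>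
  hs (M.eq_zero_of_apply_eq_zero s i h0)

theorem sectionDiv_nonneg (z : X) : 0 ≤ M.sectionDiv s hs z := by
  by_cases hz : coheight z = 1
  · have hi := M.mem_chart z
    haveI : Nonempty (M.U (M.chart z)) := ⟨⟨z, hi⟩⟩
    rw [M.sectionDiv_eq s hs hi, germOf_eq]
    exact scheme_ord_germ_nonneg z hi hz _ (M.section_apply_ne_zero s hs _)
  · unfold sectionDiv RatSec.div
    rw [Scheme.ord_eq_zero_of_coheight_neq_one hz]

/-- if the non-vanishing locus of `s` is `U`, then `div s` vanishes exactly at the codimension-one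
points of `U`. -/
theorem sectionDiv_eq_zero_iff (U : X.Opens) (hsU : ∀ i, X.basicOpen (s.1 i) = M.U i ⊓ U)
    (z : X) (hz : coheight z = 1) [IsDiscreteValuationRing (X.presheaf.stalk z)] :
    M.sectionDiv s hs z = 0 ↔ z ∈ U := by
  have hi := M.mem_chart z
  haveI : Nonempty (M.U (M.chart z)) := ⟨⟨z, hi⟩⟩
  have ha0 := M.section_apply_ne_zero s hs (M.chart z)
  have hf : X.germToFunctionField (M.U (M.chart z)) (s.1 (M.chart z)) ≠ 0 := fun h =>
    ha0 (X.germToFunctionField_injective _ (by rw [h, map_zero]))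
  rw [M.sectionDiv_eq s hs hi, germOf_eq, Scheme.ord_eq_iff hz hf]
  have h1 : z ∈ U ↔ z ∈ X.basicOpen (s.1 (M.chart z)) := by
    rw [hsU]; exact ⟨fun h => ⟨hi, h⟩, fun h => h.2⟩
  rw [h1, Scheme.mem_basicOpen _ _ z hi,
    Ring.isUnit_iff_ordFrac_one_of_isDiscreteValuationRing (K := X.functionField),
    Scheme.algebraMap_germ_eq_germToFunctionField X hi]
  rfl

end LB

theorem scheme_ord_pow [IsLocallyNoetherian X] {x : X.functionField} (hx : x ≠ 0) (k : ℕ) (z : X) :
    Scheme.ord (x ^ k) z = (k : ℤ) * Scheme.ord x z := by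
  induction k with
  | zero => rw [pow_zero, scheme_ord_one]; simp
  | succ k ih =>
    rw [pow_succ, Scheme.ord_mul (pow_ne_zero k hx) hx, ih]
    push_cast
    ring

section Bridge

variable {K : Type u} [Field K] (X : Scheme.{u}) [IsIntegral X] [IsNoetherian X]
  [Algebra K X.functionField]
  (hDVR : ∀ z : X, coheight z = 1 → IsDiscreteValuationRing (X.presheaf.stalk z))
  (hK : ∀ c : K, c ≠ 0 → ∀ z : X, coheight z = 1 →
      Scheme.ord (algebraMap K X.functionField c) z = 0)
  (M : LB X) (s : M.H0) (hs : s ≠ 0)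

/-- membership in a Riemann–Roch space of `schemePDS`, for a nonzero function. -/
theorem mem_RRSpace_schemePDS_iff (E : (schemePDS X hDVR hK).ι → ℤ) {f : X.functionField}
    (hf : f ≠ 0) :
    f ∈ (schemePDS X hDVR hK).RRSpace E ↔
      ∀ (z : X) (hz : coheight z = 1), -(E ⟨z, hz⟩) ≤ Scheme.ord f z := by
  rw [PDS.mem_RRSpace]
  constructor
  · intro h z hz
    have := h ⟨z, hz⟩
    rwa [schemePDS_ord_apply X hDVR hK ⟨z, hz⟩ hf, WithTop.coe_le_coe] at this
  · intro h z
    rw [schemePDS_ord_apply X hDVR hK z hf, WithTop.coe_le_coe]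
    exact h z.1 z.2

/-- the divisor of a section, on the prime divisors of `schemePDS`. -/
def LB.pdsDiv : (schemePDS X hDVR hK).ι → ℤ := fun z => M.sectionDiv s hs z.1

theorem LB.pdsDiv_mk (z : X) (hz : coheight z = 1) :
    M.pdsDiv X hDVR hK s hs ⟨z, hz⟩ = M.sectionDiv s hs z := rfl

theorem LB.pdsDiv_nonneg (z : (schemePDS X hDVR hK).ι) : 0 ≤ M.pdsDiv X hDVR hK s hs z :=
  M.sectionDiv_nonneg s hs z.1

theorem LB.pdsDiv_eq_zero_iff (U : X.Opens) (hsU : ∀ i, X.basicOpen (s.1 i) = M.U i ⊓ U)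
    (z : X) (hz : coheight z = 1) : M.pdsDiv X hDVR hK s hs ⟨z, hz⟩ = 0 ↔ z ∈ U := by
  haveI := hDVR z hz
  exact M.sectionDiv_eq_zero_iff s hs U hsU z hz

theorem LB.germOf_zero (U : X.Opens) : LB.germOf U (0 : Γ(X, U)) = 0 ∨ ¬ Nonempty U := by
  by_cases h : Nonempty U
  · left
    rw [LB.germOf_eq, map_zero]
  · exact Or.inr h

/-- sections of `M^k` give elements of `L(k · div s)`. -/
theorem LB.ratio_mem_RRSpace (k : ℕ) (σ : (M.pow k).H0) :
    M.ratio k s σ ∈ (schemePDS X hDVR hK).RRSpace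
      ((schemePDS X hDVR hK).nsmulDiv k (M.pdsDiv X hDVR hK s hs)) := by
  by_cases hf : M.ratio k s σ = 0
  · rw [hf]; exact Submodule.zero_mem _
  rw [mem_RRSpace_schemePDS_iff X hDVR hK _ hf]
  intro z hz
  have hi := M.mem_chart z
  haveI hne : Nonempty (M.U (M.chart z)) := ⟨⟨z, hi⟩⟩
  have h1 := M.ratio_mul_pow k s hs σ (M.chart z)
  have hs0 := M.germOf_ne_zero_of_section s hs (M.chart z)
  have hσ0 : M.powComp σ (M.chart z) ≠ 0 := by
    intro h0
    rw [h0] at h1
    rcases LB.germOf_zero X (M.U (M.chart z)) with h | h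
    · rw [h] at h1
      exact (mul_ne_zero hf (pow_ne_zero k hs0)) h1
    · exact h hne
  have h2 : Scheme.ord (M.ratio k s σ * LB.germOf (M.U (M.chart z)) (s.1 (M.chart z)) ^ k) z =
      Scheme.ord (LB.germOf (M.U (M.chart z)) (M.powComp σ (M.chart z))) z := by rw [h1]
  rw [Scheme.ord_mul hf (pow_ne_zero k hs0), scheme_ord_pow hs0, LB.germOf_eq (M.U (M.chart z))
    (M.powComp σ _)] at h2
  have h3 : 0 ≤ Scheme.ord ((X.germToFunctionField (M.U (M.chart z))).hom
      (M.powComp σ (M.chart z))) z := scheme_ord_germ_nonneg z hi hz _ hσ0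
  have h4 : M.pdsDiv X hDVR hK s hs ⟨z, hz⟩ = Scheme.ord (LB.germOf (M.U (M.chart z)) (s.1 _)) z :=
    M.sectionDiv_eq s hs hi
  unfold PDS.nsmulDiv
  rw [h4]
  omega

/-- **the bridge**: `L(k · div s) = {σ / s^k}`; the inclusion `⊆` is Hartogs' lemma `hH`
(helper4's N2c). -/
theorem LB.mem_RRSpace_pdsDiv_iff
    (hH : ∀ (V : X.Opens) [Nonempty V] (f : X.functionField),
      (∀ z ∈ V, coheight z = 1 → 0 ≤ Scheme.ord f z) → f ∈ Set.range (X.germToFunctionField V))
    (k : ℕ) (f : X.functionField) :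
    f ∈ (schemePDS X hDVR hK).RRSpace
        ((schemePDS X hDVR hK).nsmulDiv k (M.pdsDiv X hDVR hK s hs)) ↔
      f ∈ Set.range (M.ratio k s) := by
  constructor
  · intro hfL
    by_cases hf : f = 0
    · exact ⟨0, by rw [hf, M.ratio_zero]⟩
    rw [M.mem_range_ratio_iff k s hs]
    intro i hi
    haveI := hi
    have hs0 := M.germOf_ne_zero_of_section s hs i
    have hmem := hH (M.U i) (f * LB.germOf (M.U i) (s.1 i) ^ k) (by
      intro z hz hzc
      rw [Scheme.ord_mul hf (pow_ne_zero k hs0), scheme_ord_pow hs0]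
      have h1 := (mem_RRSpace_schemePDS_iff X hDVR hK _ hf).1 hfL z hzc
      have h4 : M.pdsDiv X hDVR hK s hs ⟨z, hzc⟩ = Scheme.ord (LB.germOf (M.U i) (s.1 i)) z :=
        M.sectionDiv_eq s hs hz
      unfold PDS.nsmulDiv at h1
      rw [h4] at h1
      omega)
    obtain ⟨a, ha⟩ := hmem
    exact ⟨a, ha.symm.trans (LB.germOf_eq (M.U i) a).symm⟩
  · rintro ⟨σ, rfl⟩
    exact M.ratio_mem_RRSpace X hDVR hK s hs k σ

end Bridge

end

end Fermat.Agent.AV
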