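/-
PROJECT AV (S26 long shot) — AV4 (geometric inputs), helper2: from a line bundle `M` with a section
`s` whose non-vanishing locus is a nonempty affine open `U` (helper5's (7d)) on an integral noetherian
scheme `X`, universally closed over a perfect field `K`, with DVR stalks in codimension one and
Hartogs' lemma, to the growth `c₁ k^g ≤ ℓ(k · div s) ≤ c₂ k^g`, the "ample" property and the degree
formula `d = m^g` (inputs of `PDS.degree_eq_pow_of_geometric_perfect`).

* `PDS.exists_mem_RRSpace_nsmulDiv` : `f` regular off the support of `D ≥ 0` ⇒ `f ∈ L(kD)` for some `k`;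
* `LB.mem_range_germ_of_mem_RRSpace` : `L(k · div s) ⊆ Γ(X, U)`;
* `LB.exists_mem_RRSpace_of_section` : `Γ(X, U) ⊆ ⋃ₖ L(k · div s)`;
* `LB.pdsDiv_poles` : the pole hypothesis `hpole` (from helper5's `exists_poles`);
* `LB.pdsDiv_amp0` : the hypothesis `hamp0`;
* `LB.growth_of_section`, **`LB.degree_eq_pow_of_section`**.
-/
import Mathlib
import Fermat.Agent.AV.AV5_helper2_Bridge
import Fermat.Agent.AV.AV4_helper2_Upper

set_option autoImplicit false
set_option linter.style.haveILetI false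
set_option linter.unusedSectionVars false

open AlgebraicGeometry CategoryTheory Opposite TopologicalSpace Order

universe u v w

namespace Fermat.Agent.AV

noncomputable section

open scoped Classical

namespace PDS

variable {K : Type u} {F : Type v} [Field K] [Field F] [Algebra K F] (S : PDS.{u, v, w} K F)

/-- a function without poles off the support of an effective divisor `D` lies in some `L(kD)`. -/
theorem exists_mem_RRSpace_nsmulDiv {D : S.ι → ℤ} (hD : ∀ p, 0 ≤ D p) {f : F} (hf : f ≠ 0)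
    (hreg : ∀ p, D p = 0 → (0 : WithTop ℤ) ≤ S.ord p f) :
    ∃ k : ℕ, f ∈ S.RRSpace (S.nsmulDiv k D) := by
  set T := (S.finite_support f hf).toFinset with hT
  refine ⟨∑ p ∈ T, (-(S.ordZ p f)).toNat, fun p => ?_⟩
  show ((-(((∑ p ∈ T, (-(S.ordZ p f)).toNat : ℕ) : ℤ) * D p) : ℤ) : WithTop ℤ) ≤ S.ord p f
  rw [S.ord_eq_coe_ordZ p hf, WithTop.coe_le_coe]
  by_cases hneg : 0 ≤ S.ordZ p f
  · have : 0 ≤ ((∑ p ∈ T, (-(S.ordZ p f)).toNat : ℕ) : ℤ) * D p :=
      mul_nonneg (by positivity) (hD p)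
    omega
  · push_neg at hneg
    have hpT : p ∈ T := by
      rw [hT, Set.Finite.mem_toFinset]
      show S.ord p f ≠ 0
      rw [S.ord_eq_coe_ordZ p hf]
      intro h0
      have : S.ordZ p f = 0 := by exact_mod_cast h0
      omega
    have hDp : 1 ≤ D p := by
      rcases eq_or_lt_of_le (hD p) with h0 | h
      · exfalso
        have := hreg p h0.symm
        rw [S.ord_eq_coe_ordZ p hf] at this
        have : (0 : ℤ) ≤ S.ordZ p f := by exact_mod_cast this
        omega
      · omega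
    have h1 : (-(S.ordZ p f)).toNat ≤ ∑ q ∈ T, (-(S.ordZ q f)).toNat :=
      Finset.single_le_sum (f := fun q => (-(S.ordZ q f)).toNat) (fun _ _ => Nat.zero_le _) hpT
    have h2 : (((-(S.ordZ p f)).toNat : ℕ) : ℤ) = -(S.ordZ p f) := Int.toNat_of_nonneg (by omega)
    have h3 : (((-(S.ordZ p f)).toNat : ℕ) : ℤ) ≤ ((∑ q ∈ T, (-(S.ordZ q f)).toNat : ℕ) : ℤ) := by
      exact_mod_cast h1
    nlinarith

end PDS

section Geo

variable {K : Type u} [Field K] (X : Scheme.{u}) [IsIntegral X] [IsNoetherian X]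
  [Algebra K X.functionField]
  (hDVR : ∀ z : X, coheight z = 1 → IsDiscreteValuationRing (X.presheaf.stalk z))
  (hK : ∀ c : K, c ≠ 0 → ∀ z : X, coheight z = 1 →
      Scheme.ord (algebraMap K X.functionField c) z = 0)
  (M : LB X) (s : M.H0) (hs : s ≠ 0)
  (U : X.Opens) (hsU : ∀ i, X.basicOpen (s.1 i) = M.U i ⊓ U)

include hsU in
/-- `L(k · div s) ⊆ Γ(X, U)` (Hartogs). -/
theorem LB.mem_range_germ_of_mem_RRSpace [Nonempty U]
    (hH : ∀ (V : X.Opens) [Nonempty V] (f : X.functionField),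
      (∀ z ∈ V, coheight z = 1 → 0 ≤ Scheme.ord f z) → f ∈ Set.range (X.germToFunctionField V))
    (k : ℕ) {f : X.functionField}
    (hf : f ∈ (schemePDS X hDVR hK).RRSpace
      ((schemePDS X hDVR hK).nsmulDiv k (M.pdsDiv X hDVR hK s hs))) :
    f ∈ Set.range (X.germToFunctionField U) := by
  by_cases hf0 : f = 0
  · exact ⟨0, by rw [hf0, map_zero]⟩
  apply hH U f
  intro z hz hzc
  have h1 := (mem_RRSpace_schemePDS_iff X hDVR hK _ hf0).1 hf z hzc
  have h2 := (M.pdsDiv_eq_zero_iff X hDVR hK s hs U hsU z hzc).2 hz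
  unfold PDS.nsmulDiv at h1
  rw [h2] at h1
  simpa using h1

include hsU in
/-- `Γ(X, U) ⊆ ⋃ₖ L(k · div s)`. -/
theorem LB.exists_mem_RRSpace_of_section [Nonempty U] (a : Γ(X, U)) (ha : a ≠ 0) :
    ∃ k : ℕ, (X.germToFunctionField U).hom a ∈ (schemePDS X hDVR hK).RRSpace
      ((schemePDS X hDVR hK).nsmulDiv k (M.pdsDiv X hDVR hK s hs)) := by
  have hf0 : (X.germToFunctionField U).hom a ≠ 0 := fun h =>
    ha (X.germToFunctionField_injective U (by rw [h, map_zero]))
  apply (schemePDS X hDVR hK).exists_mem_RRSpace_nsmulDiv (M.pdsDiv_nonneg X hDVR hK s hs) hf0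
  intro p hp
  have hpU : p.1 ∈ U := (M.pdsDiv_eq_zero_iff X hDVR hK s hs U hsU p.1 p.2).1 hp
  rw [schemePDS_ord_apply X hDVR hK p hf0]
  have := scheme_ord_germ_nonneg p.1 hpU p.2 a ha
  exact_mod_cast this

/-- the pole hypothesis `hpole` of `PDS.growth` for `D = div s` (with `b = 1`), from helper5's
`exists_poles` and the bridge. -/
theorem LB.pdsDiv_poles
    (hH : ∀ (V : X.Opens) [Nonempty V] (f : X.functionField),
      (∀ z ∈ V, coheight z = 1 → 0 ≤ Scheme.ord f z) → f ∈ Set.range (X.germToFunctionField V))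
    (f : X ⟶ Spec (.of K)) [UniversallyClosed f]
    (halg : ∀ c : K, algebraMap K X.functionField c = (functionFieldStrMap f).hom c) :
    ∃ (r : ℕ) (a : Fin r → X.functionField), (∀ j, a j ≠ 0) ∧
      ∀ V : ValuationSubring X.functionField, (∀ c : K, algebraMap K X.functionField c ∈ V) →
        ∃ j, a j ∈ V ∧ ∀ (k : ℕ), ∀ x ∈ (schemePDS X hDVR hK).RRSpace
          ((schemePDS X hDVR hK).nsmulDiv k (M.pdsDiv X hDVR hK s hs)), x ^ 1 * a j ^ k ∈ V := by
  obtain ⟨r, a, ha0, H⟩ := M.exists_poles_submodule f halg s hs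
  refine ⟨r, a, ha0, fun V hV => ?_⟩
  obtain ⟨j, hj, hjk⟩ := H V hV
  refine ⟨j, hj, fun k x hx => hjk k x ?_⟩
  exact (M.mem_RRSpace_pdsDiv_iff X hDVR hK s hs hH k x).1 hx

include hsU in
theorem LB.pdsDiv_amp0_aux (hU : IsAffineOpen U) (z : X) (hz : coheight z = 1) (hzU : z ∈ U) :
    ∃ k : ℕ, ∃ t : X.functionField, t ≠ 0 ∧
      t ∈ (schemePDS X hDVR hK).RRSpace
        ((schemePDS X hDVR hK).nsmulDiv k (M.pdsDiv X hDVR hK s hs)) ∧
      1 ≤ Scheme.ord t z := by
  haveI : Nonempty U := ⟨⟨z, hzU⟩⟩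
  haveI := hDVR z hz
  haveI := functionField_isFractionRing_of_isAffineOpen X U hU
  obtain ⟨ϖ, hϖ0, hϖ⟩ := exists_scheme_ord_eq_one X z hz
  obtain ⟨a, b, hb, hab⟩ := IsFractionRing.div_surjective (A := Γ(X, U)) ϖ
  have hb0 : b ≠ 0 := nonZeroDivisors.ne_zero hb
  have hgb0 : (X.germToFunctionField U).hom b ≠ 0 := fun h =>
    hb0 (X.germToFunctionField_injective U (by rw [map_zero]; exact h))
  have ha0 : a ≠ 0 := by
    rintro rfl
    rw [map_zero, zero_div] at hab
    exact hϖ0 hab.symm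
  have hga0 : (X.germToFunctionField U).hom a ≠ 0 := fun h =>
    ha0 (X.germToFunctionField_injective U (by rw [map_zero]; exact h))
  obtain ⟨k, hk⟩ := M.exists_mem_RRSpace_of_section X hDVR hK s hs U hsU a ha0
  refine ⟨k, (X.germToFunctionField U).hom a, hga0, hk, ?_⟩
  have h1 : (X.germToFunctionField U).hom a = ϖ * (X.germToFunctionField U).hom b := by
    rw [← hab]
    exact (div_mul_cancel₀ _ hgb0).symm
  have h3 : 0 ≤ Scheme.ord ((X.germToFunctionField U).hom b) z :=
    scheme_ord_germ_nonneg z hzU hz b hb0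
  rw [h1, Scheme.ord_mul hϖ0 hgb0, hϖ]
  omega

include hsU in
/-- the hypothesis `hamp0` of `PDS.ample_of_amp0` for `D = div s`, `U` affine. -/
theorem LB.pdsDiv_amp0 (hU : IsAffineOpen U) (p : (schemePDS X hDVR hK).ι)
    (hp : M.pdsDiv X hDVR hK s hs p = 0) :
    ∃ k : ℕ, ∃ t : X.functionField, t ≠ 0 ∧
      t ∈ (schemePDS X hDVR hK).RRSpace
        ((schemePDS X hDVR hK).nsmulDiv k (M.pdsDiv X hDVR hK s hs)) ∧
      (1 : WithTop ℤ) ≤ (schemePDS X hDVR hK).ord p t := by
  have hpU : p.1 ∈ U := (M.pdsDiv_eq_zero_iff X hDVR hK s hs U hsU p.1 p.2).1 hp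
  obtain ⟨k, t, ht0, ht, h1⟩ := M.pdsDiv_amp0_aux X hDVR hK s hs U hsU hU p.1 p.2 hpU
  refine ⟨k, t, ht0, ht, ?_⟩
  rw [schemePDS_ord_apply X hDVR hK p ht0]
  exact_mod_cast h1

end Geo

section NN

variable {K : Type u} [Field K] (X : Scheme.{u}) [IsIntegral X] [Algebra K X.functionField]
  (U : X.Opens) [Nonempty U] [Algebra K Γ(X, U)] [IsScalarTower K Γ(X, U) X.functionField]
  {g : ℕ} (ν : MvPolynomial (Fin g) K →ₐ[K] Γ(X, U))

/-- the coordinates of a Noether normalisation of `Γ(X, U)`, as rational functions. -/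
def nnCoord : Fin g → X.functionField :=
  fun i => algebraMap Γ(X, U) X.functionField (ν (MvPolynomial.X i))

theorem aeval_nnCoord :
    (MvPolynomial.aeval (nnCoord X U ν) : MvPolynomial (Fin g) K →ₐ[K] X.functionField) =
      (IsScalarTower.toAlgHom K Γ(X, U) X.functionField).comp ν := by
  apply MvPolynomial.algHom_ext
  intro i
  simp [nnCoord]

theorem algebraicIndependent_nnCoord (hν : Function.Injective ν) :
    AlgebraicIndependent K (nnCoord X U ν) := by
  rw [algebraicIndependent_iff_injective_aeval, aeval_nnCoord]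
  exact (X.germToFunctionField_injective U).comp hν

/-- elements of `Γ(X, U)` are integral over `K[x]`. -/
theorem isIntegral_adjoin_nnCoord (hνint : ν.IsIntegral) (a : Γ(X, U)) :
    IsIntegral (Algebra.adjoin K (Set.range (nnCoord X U ν)))
      (algebraMap Γ(X, U) X.functionField a) := by
  obtain ⟨q, hq, hqe⟩ := hνint a
  -- the ring hom `K[X] → adjoin K (range x)`
  have hrange : ∀ P : MvPolynomial (Fin g) K,
      MvPolynomial.aeval (nnCoord X U ν) P ∈ Algebra.adjoin K (Set.range (nnCoord X U ν)) := by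
    intro P
    rw [Algebra.adjoin_range_eq_range_aeval]
    exact ⟨P, rfl⟩
  let ρ : MvPolynomial (Fin g) K →+* Algebra.adjoin K (Set.range (nnCoord X U ν)) :=
    ((MvPolynomial.aeval (nnCoord X U ν)).codRestrict _ hrange).toRingHom
  refine ⟨q.map ρ, hq.map _, ?_⟩
  rw [Polynomial.eval₂_map]
  have hcomp : (algebraMap (Algebra.adjoin K (Set.range (nnCoord X U ν))) X.functionField).comp ρ =
      (algebraMap Γ(X, U) X.functionField).comp ν.toRingHom := by
    ext P
    · show MvPolynomial.aeval (nnCoord X U ν) (MvPolynomial.C P) = _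
      rw [aeval_nnCoord]
      rfl
    · show MvPolynomial.aeval (nnCoord X U ν) (MvPolynomial.X P) = _
      rw [aeval_nnCoord]
      rfl
  rw [hcomp, ← Polynomial.hom_eval₂, hqe, map_zero]

/-- integrality over `K[x]` implies integrality over `K(x)`. -/
theorem isIntegral_intermediateField_of_adjoin {F : Type*} [Field F] [Algebra K F] (S : Set F)
    {y : F} (hy : IsIntegral (Algebra.adjoin K S) y) :
    IsIntegral (IntermediateField.adjoin K S) y := by
  obtain ⟨q, hq, hqe⟩ := hy
  let ι : Algebra.adjoin K S →+* IntermediateField.adjoin K S :=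
    (Subalgebra.inclusion (IntermediateField.algebra_adjoin_le_adjoin K S)).toRingHom
  refine ⟨q.map ι, hq.map _, ?_⟩
  rw [Polynomial.eval₂_map]
  exact hqe

/-- `K(X)` is finite over `K(x)` for a Noether normalisation `x` of an affine open. -/
theorem finiteDimensional_nnCoord (hU : IsAffineOpen U) [Algebra.FiniteType K Γ(X, U)]
    (hνint : ν.IsIntegral) :
    FiniteDimensional (IntermediateField.adjoin K (Set.range (nnCoord X U ν))) X.functionField := by
  haveI := functionField_isFractionRing_of_isAffineOpen X U hU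
  haveI : Algebra.EssFiniteType Γ(X, U) X.functionField :=
    Algebra.EssFiniteType.of_isLocalization _ (nonZeroDivisors Γ(X, U))
  haveI : Algebra.EssFiniteType K X.functionField :=
    Algebra.EssFiniteType.comp K Γ(X, U) X.functionField
  haveI : Algebra.EssFiniteType (IntermediateField.adjoin K (Set.range (nnCoord X U ν)))
      X.functionField := Algebra.EssFiniteType.of_comp K _ _
  haveI : Algebra.IsAlgebraic (IntermediateField.adjoin K (Set.range (nnCoord X U ν)))
      X.functionField := by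
    constructor
    intro y
    obtain ⟨a, b, _, hab⟩ := IsFractionRing.div_surjective (A := Γ(X, U)) y
    rw [← hab]
    have ha := (isIntegral_intermediateField_of_adjoin _
      (isIntegral_adjoin_nnCoord X U ν hνint a)).isAlgebraic
    have hb := (isIntegral_intermediateField_of_adjoin _
      (isIntegral_adjoin_nnCoord X U ν hνint b)).isAlgebraic
    rw [div_eq_mul_inv]
    exact ha.mul hb.inv
  exact Algebra.finite_of_essFiniteType_of_isAlgebraic

end NN

section Main

variable {K : Type u} [Field K] [PerfectField K] (X : Scheme.{u}) [IsIntegral X] [IsNoetherian X]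
  [Algebra K X.functionField]
  (hDVR : ∀ z : X, coheight z = 1 → IsDiscreteValuationRing (X.presheaf.stalk z))
  (hK : ∀ c : K, c ≠ 0 → ∀ z : X, coheight z = 1 →
      Scheme.ord (algebraMap K X.functionField c) z = 0)
  (hH : ∀ (V : X.Opens) [Nonempty V] (f : X.functionField),
      (∀ z ∈ V, coheight z = 1 → 0 ≤ Scheme.ord f z) → f ∈ Set.range (X.germToFunctionField V))
  (f : X ⟶ Spec (.of K)) [UniversallyClosed f]
  (halg : ∀ c : K, algebraMap K X.functionField c = (functionFieldStrMap f).hom c)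
  (M : LB X) (s : M.H0) (hs : s ≠ 0)
  (U : X.Opens) (hU : IsAffineOpen U) [Nonempty U]
  (hsU : ∀ i, X.basicOpen (s.1 i) = M.U i ⊓ U)
  [Algebra K Γ(X, U)] [IsScalarTower K Γ(X, U) X.functionField] [Algebra.FiniteType K Γ(X, U)]
  {g : ℕ} (ν : MvPolynomial (Fin g) K →ₐ[K] Γ(X, U)) (hν : Function.Injective ν)
  (hνint : ν.IsIntegral)

include hH halg hU hsU hν hνint in
/-- **growth of `ℓ(k · div s)`** for a section `s` with affine non-vanishing locus `U` and a Noether
normalisation `ν : K[X₁..X_g] ↪ Γ(X, U)`. -/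
theorem LB.growth_of_section :
    (∀ k : ℕ, FiniteDimensional K ((schemePDS X hDVR hK).RRSpace
      ((schemePDS X hDVR hK).nsmulDiv k (M.pdsDiv X hDVR hK s hs)))) ∧
    ∃ c₁ c₂ : ℝ, 0 < c₁ ∧ ∀ k : ℕ, 1 ≤ k →
      c₁ * (k : ℝ) ^ g ≤ (Module.finrank K ((schemePDS X hDVR hK).RRSpace
        ((schemePDS X hDVR hK).nsmulDiv k (M.pdsDiv X hDVR hK s hs))) : ℝ) ∧
      (Module.finrank K ((schemePDS X hDVR hK).RRSpace
        ((schemePDS X hDVR hK).nsmulDiv k (M.pdsDiv X hDVR hK s hs))) : ℝ) ≤ c₂ * (k : ℝ) ^ g := by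
  haveI := finiteDimensional_nnCoord X U ν hU hνint
  -- the coordinates lie in a common `L(b₁ D)`
  have hx0 : ∀ i, ν (MvPolynomial.X i) ≠ 0 := fun i h0 => by
    have := hν (h0.trans (map_zero ν).symm)
    exact MvPolynomial.X_ne_zero i this
  choose kx hkx using fun i =>
    M.exists_mem_RRSpace_of_section X hDVR hK s hs U hsU (ν (MvPolynomial.X i)) (hx0 i)
  set b₁ := (∑ i, kx i) + 1 with hb₁
  have hxD : ∀ i, nnCoord X U ν i ∈ (schemePDS X hDVR hK).RRSpace
      ((schemePDS X hDVR hK).nsmulDiv b₁ (M.pdsDiv X hDVR hK s hs)) := by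
    intro i
    refine (schemePDS X hDVR hK).RRSpace_mono (fun p => ?_) (hkx i)
    unfold PDS.nsmulDiv
    have h1 : kx i ≤ b₁ := by
      have := Finset.single_le_sum (f := kx) (fun _ _ => Nat.zero_le _) (Finset.mem_univ i)
      omega
    exact mul_le_mul_of_nonneg_right (by exact_mod_cast h1) (M.pdsDiv_nonneg X hDVR hK s hs p)
  obtain ⟨r, a, ha0, hpole⟩ := M.pdsDiv_poles X hDVR hK s hs hH f halg
  refine (schemePDS X hDVR hK).growth_perfect (M.pdsDiv X hDVR hK s hs)
    (M.pdsDiv_nonneg X hDVR hK s hs) (nnCoord X U ν) (algebraicIndependent_nnCoord X U ν hν)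
    b₁ (by omega) hxD ?_ 1 one_pos a ha0 hpole
  intro k y hy
  obtain ⟨a', rfl⟩ := M.mem_range_germ_of_mem_RRSpace X hDVR hK s hs U hsU hH k hy
  exact isIntegral_adjoin_nnCoord X U ν hνint a'

include hH halg hU hsU hν hνint in
/-- **the degree formula** `d = m^g` for covers along which `div s` pulls back to `m^j · div s`. -/
theorem LB.degree_eq_pow_of_section (d m : ℕ) (hm : 0 < m)
    (hcov : ∀ j : ℕ, Nonempty (CoverDatum.{u, u, u, u, u} (schemePDS X hDVR hK)
      (M.pdsDiv X hDVR hK s hs) (d ^ j) (m ^ j))) :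
    d = m ^ g := by
  obtain ⟨hfin, c₁, c₂, hc₁, hb12⟩ :=
    M.growth_of_section X hDVR hK hH f halg s hs U hU hsU ν hν hνint
  exact degree_eq_pow_of_coverData _ _ g c₁ c₂ hc₁ 1 hfin (fun k hk => (hb12 k hk).1)
    (fun k hk => (hb12 k hk).2)
    ((schemePDS X hDVR hK).ample_of_amp0 (M.pdsDiv_nonneg X hDVR hK s hs)
      (M.pdsDiv_amp0 X hDVR hK s hs U hsU hU)) d m hm hcov

end Main

end

end Fermat.Agent.AV
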