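/-
PROJECT AV (S26) — helper5 — **regular functions inside the function field, and the sections of the
powers of `O(D)`** (`D` = the complement of an open `U`, in Cartier form `(M, s)` with
`X.basicOpen (s.1 i) = M.U i ⊓ U`).

* `regAt y`, `regOn V : Subring X.functionField` (rational functions regular at `y` / on `V`);
  `mem_regOn_iff_exists` (regular on a nonempty `V` = germ of a section over `V`), locality is
  built in;
* `LB.ratio_mem_regOn`: `σ / s^k` is regular on `U` (`hint`-input of the upper bound);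
* `LB.exists_pow_mul_mem_regOn`: uniform pole order (relative to an open `W` with affine
  `M.U i ⊓ W`), `LB.exists_ratio_eq`: `Γ(X, U) = ⋃_k {σ / s^k}`.
-/
import Mathlib
import Fermat.Agent.AV.LB_helper5_Pow

set_option autoImplicit false
set_option linter.style.haveILetI false
set_option linter.unusedSectionVars false

open AlgebraicGeometry CategoryTheory Opposite TopologicalSpace

universe u

namespace Fermat.Agent.AV

open LB

noncomputable section

variable {X : Scheme.{u}}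

/-- a function whose non-vanishing locus is everything is a unit. -/
theorem isUnit_of_basicOpen_eq {V : X.Opens} (a : Γ(X, V)) (h : X.basicOpen a = V) : IsUnit a := by
  apply X.toRingedSpace.isUnit_of_isUnit_germ V a
  intro x hx
  have hx' : x ∈ X.basicOpen a := by rw [h]; exact hx
  exact (Scheme.mem_basicOpen X a x hx).1 hx'

/-- on an affine open, a function on a basic open becomes a function on the whole affine open
after multiplication by a power of the equation. -/
theorem exists_pow_mul_eq_res_basicOpen {V : X.Opens} (hV : IsAffineOpen V) (b : Γ(X, V))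
    (c : Γ(X, X.basicOpen b)) :
    ∃ (m : ℕ) (a : Γ(X, V)),
      c * res (X.basicOpen b) (X.basicOpen_le b) b ^ m =
        res (X.basicOpen b) (X.basicOpen_le b) a := by
  haveI := hV.isLocalization_basicOpen b
  obtain ⟨⟨a, ⟨_, m, rfl⟩⟩, h⟩ := IsLocalization.surj (Submonoid.powers b) c
  refine ⟨m, a, ?_⟩
  rw [← map_pow]
  exact h

section reg

variable [IsIntegral X]

namespace LB

theorem germOf_map_one (U : X.Opens) : germOf U (1 : Γ(X, U)) = 1 := by
  by_cases h : Nonempty U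
  · haveI := h
    rw [germOf_eq, map_one]
  · rw [germOf, dif_neg h]

theorem germOf_map_mul (U : X.Opens) [Nonempty U] (a b : Γ(X, U)) :
    germOf U (a * b) = germOf U a * germOf U b := by
  rw [germOf_eq, germOf_eq, germOf_eq, map_mul]

theorem germOf_map_add (U : X.Opens) [Nonempty U] (a b : Γ(X, U)) :
    germOf U (a + b) = germOf U a + germOf U b := by
  rw [germOf_eq, germOf_eq, germOf_eq, map_add]

theorem germOf_map_pow (U : X.Opens) [Nonempty U] (a : Γ(X, U)) (n : ℕ) :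
    germOf U (a ^ n) = germOf U a ^ n := by
  rw [germOf_eq, germOf_eq, map_pow]

theorem germOf_map_zero (U : X.Opens) [Nonempty U] : germOf U (0 : Γ(X, U)) = 0 := by
  rw [germOf_eq, map_zero]

theorem germOf_map_neg (U : X.Opens) [Nonempty U] (a : Γ(X, U)) : germOf U (-a) = -germOf U a := by
  rw [germOf_eq, germOf_eq, map_neg]

theorem germOf_injective (U : X.Opens) [Nonempty U] : Function.Injective (germOf (X := X) U) := by
  intro a b h
  rw [germOf_eq, germOf_eq] at h
  exact X.germToFunctionField_injective U h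

/-- germs do not see restrictions (only the smaller open has to be nonempty). -/
theorem germOf_res' {V U : X.Opens} [hU : Nonempty U] (h : U ≤ V) (a : Γ(X, V)) :
    germOf U (res U h a) = germOf V a := by
  haveI : Nonempty V := ⟨⟨hU.some.1, h hU.some.2⟩⟩
  exact germOf_res h a

end LB

/-- the rational functions which are regular at the point `y`. -/
def regAt (y : X) : Subring X.functionField where
  carrier := {f | ∃ (W : X.Opens) (b : Γ(X, W)), y ∈ W ∧ germOf W b = f}
  mul_mem' := by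
    rintro f f' ⟨W, b, hy, rfl⟩ ⟨W', b', hy', rfl⟩
    haveI : Nonempty (W ⊓ W' : X.Opens) := ⟨⟨y, hy, hy'⟩⟩
    refine ⟨W ⊓ W', res _ inf_le_left b * res _ inf_le_right b', ⟨hy, hy'⟩, ?_⟩
    rw [germOf_map_mul, germOf_res', germOf_res']
  one_mem' := ⟨⊤, 1, Opens.mem_top y, germOf_map_one _⟩
  add_mem' := by
    rintro f f' ⟨W, b, hy, rfl⟩ ⟨W', b', hy', rfl⟩
    haveI : Nonempty (W ⊓ W' : X.Opens) := ⟨⟨y, hy, hy'⟩⟩
    refine ⟨W ⊓ W', res _ inf_le_left b + res _ inf_le_right b', ⟨hy, hy'⟩, ?_⟩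
    rw [germOf_map_add, germOf_res', germOf_res']
  zero_mem' := by
    haveI : Nonempty (⊤ : X.Opens) := ⟨⟨y, Opens.mem_top y⟩⟩
    exact ⟨⊤, 0, Opens.mem_top y, germOf_map_zero _⟩
  neg_mem' := by
    rintro f ⟨W, b, hy, rfl⟩
    haveI : Nonempty W := ⟨⟨y, hy⟩⟩
    exact ⟨W, -b, hy, germOf_map_neg _ _⟩

theorem mem_regAt {y : X} {f : X.functionField} :
    f ∈ regAt y ↔ ∃ (W : X.Opens) (b : Γ(X, W)), y ∈ W ∧ germOf W b = f := Iff.rfl

/-- the rational functions which are regular on the open `V`. -/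
def regOn (V : X.Opens) : Subring X.functionField := ⨅ y : V, regAt y.1

theorem mem_regOn {V : X.Opens} {f : X.functionField} :
    f ∈ regOn V ↔ ∀ y ∈ V, f ∈ regAt y := by
  rw [regOn, Subring.mem_iInf]
  exact ⟨fun h y hy => h ⟨y, hy⟩, fun h y => h y.1 y.2⟩

theorem regOn_anti {V V' : X.Opens} (h : V' ≤ V) : regOn V ≤ regOn V' := by
  intro f hf
  rw [mem_regOn] at hf ⊢
  exact fun y hy => hf y (h hy)

/-- locality: regularity can be checked on a cover. -/
theorem mem_regOn_of_cover {ι : Type*} {V : X.Opens} (W : ι → X.Opens) (hcover : V ≤ ⨆ i, W i)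
    {f : X.functionField} (hf : ∀ i, f ∈ regOn (W i)) : f ∈ regOn V := by
  rw [mem_regOn]
  intro y hy
  obtain ⟨i, hi⟩ := Opens.mem_iSup.1 (hcover hy)
  exact mem_regOn.1 (hf i) y hi

theorem germOf_mem_regOn (V : X.Opens) (a : Γ(X, V)) : germOf V a ∈ regOn V := by
  rw [mem_regOn]
  exact fun y hy => ⟨V, a, hy, rfl⟩

theorem germOf_mem_regOn_of_le {V V' : X.Opens} (h : V' ≤ V) (a : Γ(X, V)) :
    germOf V a ∈ regOn V' :=
  regOn_anti h (germOf_mem_regOn V a)

/-- a rational function which is regular on a nonempty open `V` is the germ of a section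
over `V`. -/
theorem exists_germOf_eq_of_mem_regOn (V : X.Opens) [Nonempty V] {f : X.functionField}
    (hf : f ∈ regOn V) : ∃ a : Γ(X, V), germOf V a = f := by
  rw [mem_regOn] at hf
  choose W b hyW hb using hf
  obtain ⟨a, ha, -⟩ := exists_glue (V := V) (fun y : V => W y.1 y.2 ⊓ V) (fun y => inf_le_right)
    (fun y hy => Opens.mem_iSup.2 ⟨⟨y, hy⟩, hyW y hy, hy⟩)
    (fun y => res _ inf_le_left (b y.1 y.2))
    (fun y z => by
      by_cases hne : Nonempty ((W y.1 y.2 ⊓ V) ⊓ (W z.1 z.2 ⊓ V) : X.Opens)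
      · haveI := hne
        obtain ⟨⟨p, hp⟩⟩ := hne
        haveI : Nonempty (W y.1 y.2 ⊓ V : X.Opens) := ⟨⟨p, hp.1⟩⟩
        haveI : Nonempty (W z.1 z.2 ⊓ V : X.Opens) := ⟨⟨p, hp.2⟩⟩
        apply germOf_injective ((W y.1 y.2 ⊓ V) ⊓ (W z.1 z.2 ⊓ V))
        rw [germOf_res', germOf_res', germOf_res', germOf_res', hb, hb]
      · haveI := subsingleton_of_not_nonempty _ hne
        exact Subsingleton.elim _ _)
  refine ⟨a, ?_⟩
  obtain ⟨⟨y, hy⟩⟩ := ‹Nonempty V›
  haveI : Nonempty (W y hy ⊓ V : X.Opens) := ⟨⟨y, hyW y hy, hy⟩⟩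
  rw [← germOf_res' (inf_le_right : W y hy ⊓ V ≤ V) a, ha ⟨y, hy⟩, germOf_res', hb]

theorem mem_regOn_iff_exists (V : X.Opens) [Nonempty V] {f : X.functionField} :
    f ∈ regOn V ↔ ∃ a : Γ(X, V), germOf V a = f :=
  ⟨exists_germOf_eq_of_mem_regOn V, fun ⟨a, ha⟩ => ha ▸ germOf_mem_regOn V a⟩

/-- the inverse of (the germ of) a unit is regular. -/
theorem inv_germOf_mem_regOn {V : X.Opens} (a : Γ(X, V)) (ha : IsUnit a) :
    (germOf V a)⁻¹ ∈ regOn V := by
  by_cases hV : Nonempty V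
  · haveI := hV
    obtain ⟨b, hb⟩ := ha.exists_right_inv
    have h1 : germOf V a * germOf V b = 1 := by rw [← germOf_map_mul, hb, germOf_map_one]
    have h2 : (germOf V a)⁻¹ = germOf V b := inv_eq_of_mul_eq_one_right h1
    rw [h2]
    exact germOf_mem_regOn V b
  · rw [mem_regOn]
    intro y hy
    exact absurd ⟨⟨y, hy⟩⟩ hV

theorem regOn_eq_top_of_not_nonempty {V : X.Opens} (hV : ¬ Nonempty V) (f : X.functionField) :
    f ∈ regOn V := by
  rw [mem_regOn]
  intro y hy
  exact absurd ⟨⟨y, hy⟩⟩ hV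

/-- a function is invertible on every open inside its non-vanishing locus. -/
theorem isUnit_res_of_le_basicOpen {V W : X.Opens} (a : Γ(X, V)) (h : W ≤ X.basicOpen a) :
    IsUnit (res W (h.trans (X.basicOpen_le a)) a) := by
  have h1 := (isUnit_res_basicOpen_self a).map (res W h)
  rwa [res_res] at h1

end reg

namespace LB

variable [IsIntegral X] (M : LB X)

theorem exists_mem_chart (y : X) : ∃ i, y ∈ M.U i := by
  have hy : y ∈ (⨆ i, M.U i : X.Opens) := by rw [M.iSup_U]; exact Opens.mem_top y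
  exact Opens.mem_iSup.1 hy

/-- a section whose non-vanishing locus is nonempty is nonzero. -/
theorem ne_zero_of_basicOpen_eq (s : M.H0) (U : X.Opens) [hne : Nonempty U]
    (hU : ∀ i, X.basicOpen (s.1 i) = M.U i ⊓ U) : s ≠ 0 := by
  rintro rfl
  obtain ⟨⟨y, hy⟩⟩ := hne
  obtain ⟨i, hi⟩ := M.exists_mem_chart y
  have h1 : y ∈ X.basicOpen ((0 : M.H0).1 i) := by rw [hU i]; exact ⟨hi, hy⟩
  have h2 : (0 : M.H0).1 i = 0 := rfl
  rw [h2, Scheme.basicOpen_zero] at h1
  exact h1

/-- the germs of the components of a section on two overlapping charts differ by the germ of the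
transition function. -/
theorem germOf_section_eq (s : M.H0) (i j : M.ι) [Nonempty (M.U i ⊓ M.U j : X.Opens)] :
    germOf (M.U i) (s.1 i) = germOf (M.U i ⊓ M.U j) (M.g i j) * germOf (M.U j) (s.1 j) := by
  have hs := congrArg (germOf (M.U i ⊓ M.U j)) (s.2 i j)
  rw [germOf_res', germOf_map_mul, germOf_res'] at hs
  exact hs

/-- **(A1)** `σ / s^k` is regular on the non-vanishing locus `U` of `s`. -/
theorem ratio_mem_regOn (s : M.H0) (U : X.Opens) (hU : ∀ i, X.basicOpen (s.1 i) = M.U i ⊓ U)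
    (k : ℕ) (σ : (M.pow k).H0) : M.ratio k s σ ∈ regOn U := by
  rw [mem_regOn]
  intro y hy
  haveI : Nonempty U := ⟨⟨y, hy⟩⟩
  have hs : s ≠ 0 := M.ne_zero_of_basicOpen_eq s U hU
  obtain ⟨i, hi⟩ := M.exists_mem_chart y
  haveI : Nonempty (M.U i) := ⟨⟨y, hi⟩⟩
  haveI : Nonempty (M.U i ⊓ U : X.Opens) := ⟨⟨y, hi, hy⟩⟩
  have hunit : IsUnit (res (M.U i ⊓ U) inf_le_left (s.1 i)) :=
    isUnit_res_of_le_basicOpen (s.1 i) (hU i).ge
  have h0 : germOf (M.U i) (s.1 i) ≠ 0 := M.germOf_ne_zero_of_section s hs i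
  have h1 := M.ratio_mul_pow k s hs σ i
  have h2 : M.ratio k s σ =
      germOf (M.U i) (M.powComp σ i) * ((germOf (M.U i) (s.1 i))⁻¹) ^ k := by
    rw [← h1, inv_pow, mul_assoc, mul_inv_cancel₀ (pow_ne_zero k h0), mul_one]
  have h3 : M.ratio k s σ ∈ regOn (M.U i ⊓ U) := by
    rw [h2]
    refine Subring.mul_mem _ (germOf_mem_regOn_of_le inf_le_left _) (Subring.pow_mem _ ?_ k)
    rw [← germOf_res' (inf_le_left : M.U i ⊓ U ≤ M.U i)]
    exact inv_germOf_mem_regOn _ hunit
  exact mem_regOn.1 h3 y ⟨hi, hy⟩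

/-- **(A1)**, section form: `σ / s^k` is the germ of a function on `U`. -/
theorem exists_germOf_eq_ratio (s : M.H0) (U : X.Opens) [Nonempty U]
    (hU : ∀ i, X.basicOpen (s.1 i) = M.U i ⊓ U) (k : ℕ) (σ : (M.pow k).H0) :
    ∃ a : Γ(X, U), germOf U a = M.ratio k s σ :=
  exists_germOf_eq_of_mem_regOn U (M.ratio_mem_regOn s U hU k σ)

/-- the image of `ratio` in terms of `regOn`. -/
theorem mem_range_ratio_iff_regOn (k : ℕ) (s : M.H0) (hs : s ≠ 0) (f : X.functionField) :
    f ∈ Set.range (M.ratio k s) ↔ ∀ i, f * germOf (M.U i) (s.1 i) ^ k ∈ regOn (M.U i) := by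
  rw [M.mem_range_ratio_iff k s hs f]
  constructor
  · intro H i
    by_cases hi : Nonempty (M.U i)
    · obtain ⟨a, ha⟩ := H i hi
      rw [ha]
      exact germOf_mem_regOn _ a
    · exact regOn_eq_top_of_not_nonempty hi _
  · intro H i hi
    haveI := hi
    obtain ⟨a, ha⟩ := exists_germOf_eq_of_mem_regOn (M.U i) (H i)
    exact ⟨a, ha.symm⟩

/-- pole order on one chart: `f` regular on `U ⊓ W`, `M.U i ⊓ W` affine ⇒ `f * s_i^m` is regular
on `M.U i ⊓ W` for some `m`. -/
theorem exists_pow_mul_mem_regOn_chart (s : M.H0) (U W : X.Opens)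
    (hU : ∀ i, X.basicOpen (s.1 i) = M.U i ⊓ U) (i : M.ι) (haff : IsAffineOpen (M.U i ⊓ W))
    (f : X.functionField) (hf : f ∈ regOn (U ⊓ W)) :
    ∃ m : ℕ, f * germOf (M.U i) (s.1 i) ^ m ∈ regOn (M.U i ⊓ W) := by
  by_cases hV : Nonempty (M.U i ⊓ W : X.Opens)
  swap
  · exact ⟨0, regOn_eq_top_of_not_nonempty hV _⟩
  haveI := hV
  set t : Γ(X, M.U i ⊓ W) := res (M.U i ⊓ W) inf_le_left (s.1 i) with ht
  have htgerm : germOf (M.U i ⊓ W) t = germOf (M.U i) (s.1 i) := germOf_res' _ _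
  by_cases hB : Nonempty (X.basicOpen t)
  swap
  · have h0 : t = 0 := eq_zero_of_basicOpen_eq_bot t hB
    refine ⟨1, ?_⟩
    rw [← htgerm, h0, germOf_map_zero, pow_one, mul_zero]
    exact Subring.zero_mem _
  haveI := hB
  have hBle : X.basicOpen t ≤ U ⊓ W := by
    rw [ht, basicOpen_res_eq_inf, hU i]
    exact le_inf (inf_le_right.trans inf_le_right) (inf_le_left.trans inf_le_right)
  obtain ⟨c, hc⟩ := exists_germOf_eq_of_mem_regOn (X.basicOpen t) (regOn_anti hBle hf)
  obtain ⟨m, a, hma⟩ := exists_pow_mul_eq_res_basicOpen haff t c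
  refine ⟨m, ?_⟩
  have h1 := congrArg (germOf (X.basicOpen t)) hma
  rw [germOf_map_mul, germOf_map_pow, hc, germOf_res' (X.basicOpen_le t) t, htgerm,
    germOf_res' (X.basicOpen_le t) a] at h1
  rw [h1]
  exact germOf_mem_regOn _ a

/-- **uniform pole order**: on a compact `X`, if all `M.U i ⊓ W` are affine and `f` is regular on
`U ⊓ W`, then for one `m` all `f * s_i^m` are regular on `M.U i ⊓ W`. -/
theorem exists_pow_mul_mem_regOn [CompactSpace X] (s : M.H0) (U W : X.Opens)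
    (hU : ∀ i, X.basicOpen (s.1 i) = M.U i ⊓ U) (haff : ∀ i, IsAffineOpen (M.U i ⊓ W))
    (f : X.functionField) (hf : f ∈ regOn (U ⊓ W)) :
    ∃ m : ℕ, ∀ i, f * germOf (M.U i) (s.1 i) ^ m ∈ regOn (M.U i ⊓ W) := by
  classical
  choose m hm using fun i => M.exists_pow_mul_mem_regOn_chart s U W hU i (haff i) f hf
  obtain ⟨T, hT⟩ := isCompact_univ.elim_finite_subcover (fun i => (M.U i : Set X))
    (fun i => (M.U i).isOpen) (by
      intro x _
      obtain ⟨i, hi⟩ := M.exists_mem_chart x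
      exact Set.mem_iUnion.2 ⟨i, hi⟩)
  refine ⟨T.sup m, fun j => ?_⟩
  rw [mem_regOn]
  intro y hy
  obtain ⟨i, hi⟩ := Set.mem_iUnion.1 (hT (Set.mem_univ y))
  obtain ⟨hiT, hyi⟩ := Set.mem_iUnion.1 hi
  have hyi' : y ∈ M.U i := hyi
  haveI : Nonempty (M.U j ⊓ M.U i : X.Opens) := ⟨⟨y, hy.1, hyi'⟩⟩
  have hle : m i ≤ T.sup m := Finset.le_sup hiT
  obtain ⟨d, hd⟩ := Nat.exists_eq_add_of_le hle
  have hgerm := M.germOf_section_eq s j i
  have hrw : f * germOf (M.U j) (s.1 j) ^ T.sup m =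
      germOf (M.U j ⊓ M.U i) (M.g j i) ^ T.sup m *
        (f * germOf (M.U i) (s.1 i) ^ m i) * germOf (M.U i) (s.1 i) ^ d := by
    rw [hgerm, mul_pow]
    generalize germOf (M.U j ⊓ M.U i) (M.g j i) = G
    generalize germOf (M.U i) (s.1 i) = S
    rw [hd, pow_add, pow_add]
    ring
  rw [hrw]
  refine Subring.mul_mem _ (Subring.mul_mem _ (Subring.pow_mem _ ?_ _) ?_) (Subring.pow_mem _ ?_ _)
  · exact mem_regOn.1 (germOf_mem_regOn _ (M.g j i)) y ⟨hy.1, hyi'⟩
  · exact mem_regOn.1 (hm i) y ⟨hyi', hy.2⟩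
  · exact mem_regOn.1 (germOf_mem_regOn _ (s.1 i)) y hyi'

/-- **(A2)** `Γ(X, U) = ⋃_k {σ / s^k}`: with affine charts on a compact `X`, every function on the
non-vanishing locus `U` of `s` is `σ / s^k` for some `k` and some section `σ` of `M^k`. -/
theorem exists_ratio_eq [CompactSpace X] (s : M.H0) (U : X.Opens) [Nonempty U]
    (hU : ∀ i, X.basicOpen (s.1 i) = M.U i ⊓ U) (haff : ∀ i, IsAffineOpen (M.U i))
    (f : X.functionField) (hf : f ∈ regOn U) :
    ∃ (k : ℕ) (σ : (M.pow k).H0), M.ratio k s σ = f := by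
  have hs : s ≠ 0 := M.ne_zero_of_basicOpen_eq s U hU
  have haff' : ∀ i, IsAffineOpen (M.U i ⊓ ⊤) := fun i => by rw [inf_top_eq]; exact haff i
  obtain ⟨m, hm⟩ := M.exists_pow_mul_mem_regOn s U ⊤ hU haff' f (regOn_anti inf_le_left hf)
  have hmem : f ∈ Set.range (M.ratio m s) := by
    rw [M.mem_range_ratio_iff_regOn m s hs f]
    intro i
    exact regOn_anti (le_inf le_rfl le_top) (hm i)
  obtain ⟨σ, hσ⟩ := hmem
  exact ⟨m, σ, hσ⟩

/-- the spaces `{σ / s^k}` increase with `k`. -/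
theorem range_ratio_mono (s : M.H0) (hs : s ≠ 0) {k l : ℕ} (hkl : k ≤ l) :
    Set.range (M.ratio k s) ⊆ Set.range (M.ratio l s) := by
  intro f hf
  rw [M.mem_range_ratio_iff_regOn _ s hs f] at hf ⊢
  intro i
  obtain ⟨d, rfl⟩ := Nat.exists_eq_add_of_le hkl
  rw [pow_add, ← mul_assoc]
  exact Subring.mul_mem _ (hf i) (Subring.pow_mem _ (germOf_mem_regOn _ _) _)

end LB

end

end Fermat.Agent.AV
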