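/-
PROJECT AV (S26) — helper5 — **finite-dimensionality and growth of `H⁰(X, M^k)`** for a line bundle
`M = O(D)` on an integral scheme `X` proper over a perfect field `K`, `D` = complement of a
nonempty affine open `U` (Cartier form `(M, s)`, `X.basicOpen (s.1 i) = M.U i ⊓ U`).

* `exists_noether_fractionField` (Mathlib only): Noether normalisation inside the fraction field;
* `sectionsStrMap f U : K →+* Γ(X, U)`, `finiteType_sectionsStrMap`;
* `LB.exists_upper_bound`: `∃ g x`, `x : Fin g → Γ(X, U)` a transcendence basis of `K(X) / K`, and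
  `dim_K {σ / s^k} ≤ c₂ k^g`, all these spaces finite-dimensional (helper2's upper bound + `hint`
  from `ratio_mem_regOn` + `hpole` from `exists_poles_submodule`).
-/
import Mathlib
import Fermat.Agent.AV.AV4_helper5_Sections
import Fermat.Agent.AV.AV4_helper2_Upper

set_option autoImplicit false
set_option linter.style.haveILetI false
set_option linter.unusedSectionVars false

open AlgebraicGeometry CategoryTheory Opposite TopologicalSpace

universe u v w

namespace Fermat.Agent.AV

open LB

section algebra

open MvPolynomial

/-- **Noether normalisation inside the fraction field.**  `R` a domain of finite type over the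
field `K` with fraction field `F`: there are `x₁ … x_g ∈ R` whose images form a transcendence basis
of `F / K`, with `F` finite over `K(x)` and every element of `R` integral over `K[x]`. -/
theorem exists_noether_fractionField (K : Type u) (R : Type v) (F : Type w) [Field K] [CommRing R]
    [IsDomain R] [Algebra K R] [Algebra.FiniteType K R] [Field F] [Algebra K F] [Algebra R F]
    [IsScalarTower K R F] [IsFractionRing R F] :
    ∃ (g : ℕ) (x : Fin g → R),
      IsTranscendenceBasis K (fun i => algebraMap R F (x i)) ∧
      FiniteDimensional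
        (IntermediateField.adjoin K (Set.range fun i => algebraMap R F (x i))) F ∧
      ∀ r : R, IsIntegral (Algebra.adjoin K (Set.range fun i => algebraMap R F (x i)))
        (algebraMap R F r) := by
  obtain ⟨g, φ, hinj, hint⟩ := exists_integral_inj_algHom_of_fg K R
  refine ⟨g, fun i => φ (X i), ?_⟩
  set y : Fin g → F := fun i => algebraMap R F (φ (X i)) with hy
  have haeval : (aeval y : MvPolynomial (Fin g) K →ₐ[K] F) =
      (IsScalarTower.toAlgHom K R F).comp φ := by
    apply MvPolynomial.algHom_ext
    intro i
    simp [hy]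
  have hind : AlgebraicIndependent K y := by
    rw [algebraicIndependent_iff_injective_aeval, haeval]
    exact (IsFractionRing.injective R F).comp hinj
  have hintF : ∀ r : R, IsIntegral (Algebra.adjoin K (Set.range y)) (algebraMap R F r) := by
    intro r
    obtain ⟨p, hp, hpr⟩ := hint r
    let ψ : MvPolynomial (Fin g) K →ₐ[K] Algebra.adjoin K (Set.range y) :=
      (aeval y).codRestrict _ (fun q => by
        rw [Algebra.adjoin_range_eq_range_aeval]
        exact ⟨q, rfl⟩)
    refine ⟨p.map ψ.toRingHom, hp.map _, ?_⟩
    rw [Polynomial.eval₂_map]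
    have hcomp : (algebraMap (Algebra.adjoin K (Set.range y)) F).comp ψ.toRingHom =
        (algebraMap R F).comp φ.toRingHom := by
      ext q
      · show aeval y (C q) = algebraMap R F (φ (C q))
        rw [haeval]; rfl
      · show aeval y (X q) = algebraMap R F (φ (X q))
        rw [haeval]; rfl
    rw [hcomp, ← Polynomial.hom_eval₂]
    have : Polynomial.eval₂ φ.toRingHom r p = 0 := hpr
    rw [this, map_zero]
  have halg : Algebra.IsAlgebraic (Algebra.adjoin K (Set.range y)) F := by
    haveI : Nontrivial (Algebra.adjoin K (Set.range y)) := inferInstance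
    refine ⟨fun z => ?_⟩
    obtain ⟨a, b, -, rfl⟩ := IsFractionRing.div_surjective (A := R) z
    rw [div_eq_mul_inv]
    exact (hintF a).isAlgebraic.mul (hintF b).isAlgebraic.inv
  have hbasis : IsTranscendenceBasis K y := hind.isTranscendenceBasis_iff_isAlgebraic.mpr halg
  refine ⟨hbasis, ?_, hintF⟩
  haveI : Algebra.IsAlgebraic (IntermediateField.adjoin K (Set.range y)) F :=
    hbasis.isAlgebraic_field
  haveI : Algebra.EssFiniteType R F := Algebra.EssFiniteType.of_isLocalization F (nonZeroDivisors R)
  haveI : Algebra.EssFiniteType K F := Algebra.EssFiniteType.comp K R F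
  haveI : Algebra.EssFiniteType (IntermediateField.adjoin K (Set.range y)) F :=
    Algebra.EssFiniteType.of_comp K _ F
  exact Algebra.finite_of_essFiniteType_of_isAlgebraic

end algebra

noncomputable section

variable {X : Scheme.{u}} {K : Type u} [Field K]

/-- the structure map `K → Γ(X, U)` of a `K`-scheme. -/
def sectionsStrMap (f : X ⟶ Spec (.of K)) (U : X.Opens) : K →+* Γ(X, U) :=
  (f.appLE ⊤ U (fun _ _ => trivial)).hom.comp (Scheme.ΓSpecIso (.of K)).inv.hom

theorem finiteType_sectionsStrMap (f : X ⟶ Spec (.of K)) [LocallyOfFiniteType f] {U : X.Opens}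
    (hU : IsAffineOpen U) : (sectionsStrMap f U).FiniteType := by
  refine RingHom.FiniteType.comp (Scheme.Hom.finiteType_appLE f (isAffineOpen_top _) hU _) ?_
  apply RingHom.FiniteType.of_surjective
  intro a
  refine ⟨(Scheme.ΓSpecIso (.of K)).hom.hom a, ?_⟩
  rw [← CommRingCat.comp_apply, Iso.hom_inv_id]
  rfl

theorem germOf_sectionsStrMap [IsIntegral X] (f : X ⟶ Spec (.of K)) (U : X.Opens) [Nonempty U]
    (c : K) : germOf U (sectionsStrMap f U c) = (functionFieldStrMap f).hom c := by
  rw [germOf_eq]
  simp only [sectionsStrMap, functionFieldStrMap, RingHom.comp_apply]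
  rw [Scheme.Hom.appLE]
  simp only [CommRingCat.comp_apply]
  exact TopCat.Presheaf.germ_res_apply X.presheaf (homOfLE le_top) _ _ _

namespace LB

variable [IsIntegral X] (M : LB X)

/-- **upper bound and finite-dimensionality** of the spaces `{σ / s^k} ≅ H⁰(X, M^k)`. -/
theorem exists_upper_bound [PerfectField K] (f : X ⟶ Spec (.of K)) [LocallyOfFiniteType f]
    [UniversallyClosed f] [CompactSpace X] [Algebra K X.functionField]
    (halg : ∀ c : K, algebraMap K X.functionField c = (functionFieldStrMap f).hom c)
    (s : M.H0) (U : X.Opens) [Nonempty U] (hUaff : IsAffineOpen U)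
    (hU : ∀ i, X.basicOpen (s.1 i) = M.U i ⊓ U) :
    ∃ (g : ℕ) (x : Fin g → Γ(X, U)), IsTranscendenceBasis K (fun i => germOf U (x i)) ∧
      ∃ c₂ : ℝ, ∀ k : ℕ, FiniteDimensional K (M.ratioSubmodule f halg k s) ∧
        (1 ≤ k → (Module.finrank K (M.ratioSubmodule f halg k s) : ℝ) ≤ c₂ * (k : ℝ) ^ g) := by
  have hs : s ≠ 0 := M.ne_zero_of_basicOpen_eq s U hU
  letI : Algebra K Γ(X, U) := (sectionsStrMap f U).toAlgebra
  haveI : IsScalarTower K Γ(X, U) X.functionField := by
    refine IsScalarTower.of_algebraMap_eq (fun c => ?_)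
    rw [halg, ← germOf_sectionsStrMap f U c, germOf_eq]
    rfl
  haveI : Algebra.FiniteType K Γ(X, U) := finiteType_sectionsStrMap f hUaff
  haveI := functionField_isFractionRing_of_isAffineOpen X U hUaff
  obtain ⟨g, x, hbasis, hfin, hint⟩ := exists_noether_fractionField K Γ(X, U) X.functionField
  have hgerm : (fun i => algebraMap Γ(X, U) X.functionField (x i)) = fun i => germOf U (x i) := by
    funext i
    rw [germOf_eq]
    rfl
  refine ⟨g, x, hgerm ▸ hbasis, ?_⟩
  obtain ⟨r, a, ha0, hpole⟩ := M.exists_poles_submodule f halg s hs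
  haveI := hfin
  refine upper_bound_of_poles_perfect' (fun i => algebraMap Γ(X, U) X.functionField (x i))
    hbasis.1 (fun k => M.ratioSubmodule f halg k s) ?_ 1 one_pos a ha0 hpole
  rintro k _ ⟨σ, rfl⟩
  obtain ⟨b, hb⟩ := M.exists_germOf_eq_ratio s U hU k σ
  rw [← hb, germOf_eq]
  exact hint b

end LB

end

end Fermat.Agent.AV
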