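/-
PROJECT AV (S26 long shot) — AV5 core, helper2.

Framework-independent arithmetic heart of the degree formula `deg φ = m ^ g`:
if `ℓ k` (= `h⁰(L^k)`) has two-sided polynomial bounds of degree `g`, and every iterate `φ^j`
(degree `d^j`, `(φ^j)^* L ≅ L^(m^j)`) satisfies the `H⁰`-sandwich
`d^j * ℓ (k - a_j) ≤ ℓ (m^j * k) ≤ d^j * ℓ (k + a'_j)`, then `d = m^g`.
No Hilbert polynomial, no limit: constants cancel by taking `j`-th roots.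
-/
import Mathlib

set_option autoImplicit false

namespace Fermat.Agent.AV

/-- a real `x` all of whose powers are bounded by a constant is at most `1`. -/
theorem le_one_of_pow_le {x C : ℝ} (hx : 0 ≤ x) (h : ∀ j : ℕ, x ^ j ≤ C) : x ≤ 1 := by
  by_contra hlt
  push_neg at hlt
  obtain ⟨j, hj⟩ := pow_unbounded_of_one_lt C hlt
  exact absurd (h j) (not_le.mpr hj)

/-- if `a^j ≤ C * b^j` for all `j` (with `b > 0`), then `a ≤ b`. -/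
theorem le_of_forall_pow_le_const_mul_pow {a b C : ℝ} (ha : 0 ≤ a) (hb : 0 < b)
    (h : ∀ j : ℕ, a ^ j ≤ C * b ^ j) : a ≤ b := by
  have h1 : a / b ≤ 1 := by
    refine le_one_of_pow_le (C := C) (div_nonneg ha hb.le) ?_
    intro j
    rw [div_pow, div_le_iff₀ (pow_pos hb j)]
    exact h j
  rwa [div_le_one hb] at h1

/-- **AV5 core.**  `ℓ` has polynomial bounds `c₁ k^g ≤ ℓ k ≤ c₂ k^g` for `k ≥ k₀`; for every `j`
there are shifts `a, a'` with `d^j ℓ(k-a) ≤ ℓ(m^j k) ≤ d^j ℓ(k+a')` for `k ≥ a + k₀`.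
Then `d = m^g`. -/
theorem degree_eq_pow_of_sandwich (g : ℕ) (ℓ : ℕ → ℕ) (c₁ c₂ : ℝ) (hc₁ : 0 < c₁) (k₀ : ℕ)
    (hlow : ∀ k : ℕ, k₀ ≤ k → c₁ * (k : ℝ) ^ g ≤ (ℓ k : ℝ))
    (hup : ∀ k : ℕ, k₀ ≤ k → (ℓ k : ℝ) ≤ c₂ * (k : ℝ) ^ g)
    (d m : ℕ) (hm : 0 < m)
    (hsand : ∀ j : ℕ, ∃ a a' : ℕ, ∀ k : ℕ, a + k₀ ≤ k →
      d ^ j * ℓ (k - a) ≤ ℓ (m ^ j * k) ∧ ℓ (m ^ j * k) ≤ d ^ j * ℓ (k + a')) :
    d = m ^ g := by
  have hmR : (0 : ℝ) < (m : ℝ) := by exact_mod_cast hm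
  have hmg : (0 : ℝ) < (m : ℝ) ^ g := pow_pos hmR g
  -- c₂ > 0
  have hc₂ : 0 < c₂ := by
    have h1 := hlow (k₀ + 1) (by omega)
    have h2 := hup (k₀ + 1) (by omega)
    have hk : (0 : ℝ) < ((k₀ + 1 : ℕ) : ℝ) ^ g := by positivity
    have : c₁ * ((k₀ + 1 : ℕ) : ℝ) ^ g ≤ c₂ * ((k₀ + 1 : ℕ) : ℝ) ^ g := h1.trans h2
    by_contra hneg
    push_neg at hneg
    have h3 : c₂ * ((k₀ + 1 : ℕ) : ℝ) ^ g ≤ 0 := mul_nonpos_of_nonpos_of_nonneg hneg hk.le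
    have h4 : 0 < c₁ * ((k₀ + 1 : ℕ) : ℝ) ^ g := mul_pos hc₁ hk
    linarith
  set C : ℝ := c₂ / c₁ * 2 ^ g with hC
  -- key inequalities for every j
  have key : ∀ j : ℕ, ((d : ℝ)) ^ j ≤ C * ((m : ℝ) ^ g) ^ j ∧
      ((m : ℝ) ^ g) ^ j ≤ C * ((d : ℝ)) ^ j := by
    intro j
    obtain ⟨a, a', h⟩ := hsand j
    -- choose k large: k ≥ 2a + 2a' + k₀ + 1
    set k : ℕ := 2 * a + 2 * a' + k₀ + 1 with hk
    obtain ⟨h1, h2⟩ := h k (by omega)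
    have hkpos : (0 : ℝ) < (k : ℝ) := by
      have : 0 < k := by omega
      exact_mod_cast this
    have hkg : (0 : ℝ) < (k : ℝ) ^ g := pow_pos hkpos g
    have hmj : (0 : ℝ) < ((m : ℝ) ^ j) := pow_pos hmR j
    -- (k - a) ≥ k/2 and k + a' ≤ 2k
    have hka : (k : ℝ) / 2 ≤ ((k - a : ℕ) : ℝ) := by
      have : k ≤ 2 * (k - a) := by omega
      have h' : (k : ℝ) ≤ 2 * ((k - a : ℕ) : ℝ) := by exact_mod_cast this
      linarith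
    have hka' : ((k + a' : ℕ) : ℝ) ≤ 2 * (k : ℝ) := by
      have : k + a' ≤ 2 * k := by omega
      exact_mod_cast this
    have e1 : ((m ^ j * k : ℕ) : ℝ) ^ g = ((m : ℝ) ^ g) ^ j * (k : ℝ) ^ g := by
      push_cast
      rw [mul_pow, ← pow_mul, ← pow_mul, mul_comm j g]
    constructor
    · -- d^j c₁ (k/2)^g ≤ d^j ℓ(k-a) ≤ ℓ(m^j k) ≤ c₂ (m^j k)^g
      have hl := hlow (k - a) (by omega)
      have hu := hup (m ^ j * k) (by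
        have : 1 ≤ m ^ j := Nat.one_le_pow _ _ hm
        calc k₀ ≤ k := by omega
          _ = 1 * k := (one_mul k).symm
          _ ≤ m ^ j * k := Nat.mul_le_mul_right k this)
      have h1R : ((d : ℝ)) ^ j * (ℓ (k - a) : ℝ) ≤ (ℓ (m ^ j * k) : ℝ) := by exact_mod_cast h1
      have hhalf : ((k : ℝ) / 2) ^ g ≤ ((k - a : ℕ) : ℝ) ^ g :=
        pow_le_pow_left₀ (by positivity) hka g
      have hd0 : (0 : ℝ) ≤ (d : ℝ) ^ j := by positivity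
      have step : (d : ℝ) ^ j * (c₁ * ((k : ℝ) / 2) ^ g) ≤ c₂ * (((m : ℝ) ^ g) ^ j * (k : ℝ) ^ g) := by
        calc (d : ℝ) ^ j * (c₁ * ((k : ℝ) / 2) ^ g)
            ≤ (d : ℝ) ^ j * (c₁ * ((k - a : ℕ) : ℝ) ^ g) := by
              apply mul_le_mul_of_nonneg_left _ hd0
              exact mul_le_mul_of_nonneg_left hhalf hc₁.le
          _ ≤ (d : ℝ) ^ j * (ℓ (k - a) : ℝ) := mul_le_mul_of_nonneg_left hl hd0
          _ ≤ (ℓ (m ^ j * k) : ℝ) := h1R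
          _ ≤ c₂ * ((m ^ j * k : ℕ) : ℝ) ^ g := hu
          _ = c₂ * (((m : ℝ) ^ g) ^ j * (k : ℝ) ^ g) := by rw [e1]
      -- divide by c₁ (k/2)^g
      have hk2 : ((k : ℝ) / 2) ^ g = (k : ℝ) ^ g / 2 ^ g := div_pow _ _ _
      rw [hk2] at step
      have h2g : (0 : ℝ) < 2 ^ g := by positivity
      have : (d : ℝ) ^ j * (c₁ * (k : ℝ) ^ g) ≤ (c₂ * 2 ^ g) * ((m : ℝ) ^ g) ^ j * (k : ℝ) ^ g := by
        have := mul_le_mul_of_nonneg_right step h2g.le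
        calc (d : ℝ) ^ j * (c₁ * (k : ℝ) ^ g)
            = (d : ℝ) ^ j * (c₁ * ((k : ℝ) ^ g / 2 ^ g)) * 2 ^ g := by field_simp
          _ ≤ c₂ * (((m : ℝ) ^ g) ^ j * (k : ℝ) ^ g) * 2 ^ g := this
          _ = (c₂ * 2 ^ g) * ((m : ℝ) ^ g) ^ j * (k : ℝ) ^ g := by ring
      have h3 : (d : ℝ) ^ j * c₁ ≤ (c₂ * 2 ^ g) * ((m : ℝ) ^ g) ^ j := by
        have h4 : (d : ℝ) ^ j * c₁ * (k : ℝ) ^ g ≤ (c₂ * 2 ^ g) * ((m : ℝ) ^ g) ^ j * (k : ℝ) ^ g := by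
          calc (d : ℝ) ^ j * c₁ * (k : ℝ) ^ g = (d : ℝ) ^ j * (c₁ * (k : ℝ) ^ g) := by ring
            _ ≤ _ := this
        exact le_of_mul_le_mul_right h4 hkg
      rw [hC]
      calc (d : ℝ) ^ j = ((d : ℝ) ^ j * c₁) / c₁ := by field_simp
        _ ≤ ((c₂ * 2 ^ g) * ((m : ℝ) ^ g) ^ j) / c₁ := div_le_div_of_nonneg_right h3 hc₁.le
        _ = c₂ / c₁ * 2 ^ g * ((m : ℝ) ^ g) ^ j := by ring
    · -- c₁ (m^j k)^g ≤ ℓ(m^j k) ≤ d^j ℓ(k+a') ≤ d^j c₂ (2k)^g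
      have hl := hlow (m ^ j * k) (by
        have : 1 ≤ m ^ j := Nat.one_le_pow _ _ hm
        calc k₀ ≤ k := by omega
          _ = 1 * k := (one_mul k).symm
          _ ≤ m ^ j * k := Nat.mul_le_mul_right k this)
      have hu := hup (k + a') (by omega)
      have h2R : (ℓ (m ^ j * k) : ℝ) ≤ ((d : ℝ)) ^ j * (ℓ (k + a') : ℝ) := by exact_mod_cast h2
      have hd0 : (0 : ℝ) ≤ (d : ℝ) ^ j := by positivity
      have h2k : ((k + a' : ℕ) : ℝ) ^ g ≤ (2 * (k : ℝ)) ^ g :=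
        pow_le_pow_left₀ (by positivity) hka' g
      have step : c₁ * (((m : ℝ) ^ g) ^ j * (k : ℝ) ^ g) ≤ (d : ℝ) ^ j * (c₂ * (2 * (k : ℝ)) ^ g) := by
        calc c₁ * (((m : ℝ) ^ g) ^ j * (k : ℝ) ^ g) = c₁ * ((m ^ j * k : ℕ) : ℝ) ^ g := by rw [e1]
          _ ≤ (ℓ (m ^ j * k) : ℝ) := hl
          _ ≤ (d : ℝ) ^ j * (ℓ (k + a') : ℝ) := h2R
          _ ≤ (d : ℝ) ^ j * (c₂ * ((k + a' : ℕ) : ℝ) ^ g) := mul_le_mul_of_nonneg_left hu hd0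
          _ ≤ (d : ℝ) ^ j * (c₂ * (2 * (k : ℝ)) ^ g) := by
              apply mul_le_mul_of_nonneg_left _ hd0
              exact mul_le_mul_of_nonneg_left h2k hc₂.le
      rw [mul_pow] at step
      have h3 : c₁ * ((m : ℝ) ^ g) ^ j ≤ (d : ℝ) ^ j * (c₂ * 2 ^ g) := by
        have h4 : c₁ * ((m : ℝ) ^ g) ^ j * (k : ℝ) ^ g ≤ (d : ℝ) ^ j * (c₂ * 2 ^ g) * (k : ℝ) ^ g := by
          calc c₁ * ((m : ℝ) ^ g) ^ j * (k : ℝ) ^ g = c₁ * (((m : ℝ) ^ g) ^ j * (k : ℝ) ^ g) := by ring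
            _ ≤ (d : ℝ) ^ j * (c₂ * (2 ^ g * (k : ℝ) ^ g)) := step
            _ = (d : ℝ) ^ j * (c₂ * 2 ^ g) * (k : ℝ) ^ g := by ring
        exact le_of_mul_le_mul_right h4 hkg
      rw [hC]
      calc ((m : ℝ) ^ g) ^ j = (c₁ * ((m : ℝ) ^ g) ^ j) / c₁ := by field_simp
        _ ≤ ((d : ℝ) ^ j * (c₂ * 2 ^ g)) / c₁ := div_le_div_of_nonneg_right h3 hc₁.le
        _ = c₂ / c₁ * 2 ^ g * (d : ℝ) ^ j := by ring
  -- d > 0
  have hdpos : (0 : ℝ) < (d : ℝ) := by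
    by_contra hd
    push_neg at hd
    have hd0 : (d : ℝ) = 0 := le_antisymm hd (by positivity)
    have := (key 1).2
    rw [hd0] at this
    simp at this
    linarith [pow_pos hmR g]
  have h1 : (d : ℝ) ≤ (m : ℝ) ^ g :=
    le_of_forall_pow_le_const_mul_pow hdpos.le hmg (fun j => (key j).1)
  have h2 : (m : ℝ) ^ g ≤ (d : ℝ) :=
    le_of_forall_pow_le_const_mul_pow hmg.le hdpos (fun j => (key j).2)
  have : (d : ℝ) = ((m ^ g : ℕ) : ℝ) := by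
    push_cast
    exact le_antisymm h1 h2
  exact_mod_cast this

end Fermat.Agent.AV
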