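/-
PROJECT AV (S26 long shot) — AV5 (glue for `hcov`), helper2: from the Picard-group relation
`[φ^*M] = N • [M]` (theorem of the cube for symmetric `M`, `φ = [n]`, `N = n²`) and the ramification
formula of `φ` along prime divisors to the principal divisor needed by `CoverDatum.linEquiv`
(helper9's `linEquivOfPrincipal`):

  `∃ h ≠ 0, ∀ q, ord_q h = e_q · D(φ q) - N · D(q)`,   `D = div s`.

* `LB.exists_function_of_pullback` (scheme level, `Scheme.ord`);
* `LB.exists_function_of_pullback_pds` (`schemePDS` level, shape of `hdiv`).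
-/
import Mathlib
import Fermat.Agent.AV.AV5_helper2_Bridge

set_option autoImplicit false
set_option linter.style.haveILetI false
set_option linter.unusedSectionVars false

open AlgebraicGeometry CategoryTheory Opposite TopologicalSpace Order

universe u

namespace Fermat.Agent.AV

noncomputable section

open scoped Classical

namespace LB

section SchemeLevel

variable {X : Scheme.{u}} [IsIntegral X] [IsLocallyNoetherian X] (M : LB X) (s : M.H0) (hs : s ≠ 0)
  (φ : X ⟶ X) (hφ : φ (genericPoint X) = genericPoint X)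
  (ψ : X.functionField →+* X.functionField)
  (hψ : ∀ (U : X.Opens) (hη : genericPoint X ∈ U) (hη' : genericPoint X ∈ φ ⁻¹ᵁ U) (a : Γ(X, U)),
    ψ (ggerm U hη a) = ggerm (φ ⁻¹ᵁ U) hη' ((φ.app U).hom a))

include hφ hψ in
/-- if `[φ^*M] = N • [M]` in `Pic X` and `φ` has ramification index `e q` along `q`, then
`e_q · D(φ q) - N · D(q)` is the divisor of a rational function (`D = div s`). -/
theorem exists_function_of_pullback (N : ℕ)
    (hN : PicGroup.mk (M.pullback φ) = N • PicGroup.mk M) (e : X → ℤ)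
    (he : ∀ q : X, coheight q = 1 → ∀ x : X.functionField, x ≠ 0 →
      Scheme.ord (ψ x) q = e q * Scheme.ord x (φ q)) :
    ∃ h : X.functionField, h ≠ 0 ∧ ∀ q : X, coheight q = 1 →
      Scheme.ord h q = e q * M.sectionDiv s hs (φ q) - N * M.sectionDiv s hs q := by
  obtain ⟨h, h0, hh⟩ := exists_function_of_mk_eq_nsmul N hN (RatSec.ofSection M s hs)
    ((RatSec.ofSection M s hs).pullback φ hφ ψ hψ)
  refine ⟨h, h0, fun q hq => ?_⟩
  rw [hh q, RatSec.pullback_div (RatSec.ofSection M s hs) φ hφ ψ hψ q (e q) (he q hq)]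
  rfl

end SchemeLevel

section PDSLevel

variable {K : Type u} [Field K] (X : Scheme.{u}) [IsIntegral X] [IsNoetherian X]
  [Algebra K X.functionField]
  (hDVR : ∀ z : X, coheight z = 1 → IsDiscreteValuationRing (X.presheaf.stalk z))
  (hK : ∀ c : K, c ≠ 0 → ∀ z : X, coheight z = 1 →
      Scheme.ord (algebraMap K X.functionField c) z = 0)
  (M : LB X) (s : M.H0) (hs : s ≠ 0)
  (φ : X ⟶ X) (hφ : φ (genericPoint X) = genericPoint X)
  (ψ : X.functionField →+* X.functionField)
  (hψ : ∀ (U : X.Opens) (hη : genericPoint X ∈ U) (hη' : genericPoint X ∈ φ ⁻¹ᵁ U) (a : Γ(X, U)),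
    ψ (ggerm U hη a) = ggerm (φ ⁻¹ᵁ U) hη' ((φ.app U).hom a))

include hφ hψ in
/-- the `schemePDS` form: the input `hdiv` of helper9's `linEquivOfPrincipal` (with `σ = id`),
for a cover whose `push q` lies over `φ q` and whose `e q` is the ramification index. -/
theorem exists_function_of_pullback_pds (N : ℕ)
    (hN : PicGroup.mk (M.pullback φ) = N • PicGroup.mk M)
    (push : (schemePDS X hDVR hK).ι → (schemePDS X hDVR hK).ι)
    (hpush : ∀ q, (push q).1 = φ q.1)
    (e : (schemePDS X hDVR hK).ι → ℕ)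
    (he : ∀ (q : (schemePDS X hDVR hK).ι) (x : X.functionField), x ≠ 0 →
      Scheme.ord (ψ x) q.1 = (e q : ℤ) * Scheme.ord x (φ q.1)) :
    ∃ h : X.functionField, h ≠ 0 ∧ ∀ q : (schemePDS X hDVR hK).ι,
      (schemePDS X hDVR hK).ord q h =
        (((e q : ℤ) * M.pdsDiv X hDVR hK s hs (push q) - (N : ℤ) * M.pdsDiv X hDVR hK s hs q : ℤ) :
          WithTop ℤ) := by
  let e' : X → ℤ := fun z => if hz : coheight z = 1 then (e ⟨z, hz⟩ : ℤ) else 0
  obtain ⟨h, h0, hh⟩ := M.exists_function_of_pullback s hs φ hφ ψ hψ N hN e' (by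
    intro q hq x hx
    have : e' q = (e ⟨q, hq⟩ : ℤ) := dif_pos hq
    rw [this]
    exact he ⟨q, hq⟩ x hx)
  refine ⟨h, h0, fun q => ?_⟩
  rw [schemePDS_ord_apply X hDVR hK q h0, hh q.1 q.2]
  have h1 : e' q.1 = (e q : ℤ) := dif_pos q.2
  have h2 : M.pdsDiv X hDVR hK s hs (push q) = M.sectionDiv s hs (φ q.1) := by
    show M.sectionDiv s hs (push q).1 = _
    rw [hpush]
  rw [h1, h2]
  rfl

end PDSLevel

end LB

end

end Fermat.Agent.AV
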