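/-
PROJECT AV (S26) — helper3 — [AV3a] **the formal consequences of the theorem of the cube.**

Abstract setting: a category `C` with finite products, a commutative group object `A` of `C`, and
a contravariant functor `P : Cᵒᵖ ⥤ AddCommGrpCat` (think: `Pic` on `K`-schemes) such that

* `P` of the terminal object is trivial (`Pic (Spec K) = 0`);
* **cube property**: an element of `P (A × A × A)` whose pull-backs along the three inclusions
  `A × A → A × A × A` (`(0, a, b)`, `(a, 0, b)`, `(a, b, 0)`) vanish, is zero.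

Then for `f g h : X ⟶ A` and `L : P A` (Mumford, Abelian Varieties, §6 Cor. 2, 3):

* `cube_formula` : `(f+g+h)^*L - (f+g)^*L - (f+h)^*L - (g+h)^*L + f^*L + g^*L + h^*L = 0`;
* `pull_zpow_succ_add_pred` : `[n+1]^*L + [n-1]^*L = 2 [n]^*L + L + [-1]^*L`;
* `two_smul_pull_zpow` : `2 [n]^*L = (n² + n) L + (n² - n) [-1]^*L`;
* `pull_zpow_of_symm` : `[-1]^*L = L → [n]^*L = n² L` (needs no division: direct induction).

Everything here is Mathlib-only and independent of the model of `Pic` chosen in AV2.
-/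
import Mathlib

set_option autoImplicit false
set_option linter.unusedSectionVars false

open CategoryTheory MonoidalCategory CartesianMonoidalCategory MonObj Opposite

namespace Fermat.Agent.AV.CubeFormal

universe w v u

variable {C : Type u} [Category.{v} C] [CartesianMonoidalCategory C] [BraidedCategory C]
  (P : Cᵒᵖ ⥤ AddCommGrpCat.{w})

/-- pull-back along `f` for the contravariant functor `P`. -/
def pull {X Y : C} (f : X ⟶ Y) : P.obj (op Y) →+ P.obj (op X) := (P.map f.op).hom

@[simp] theorem pull_id {X : C} (x : P.obj (op X)) : pull P (𝟙 X) x = x := by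
  simp [pull]

theorem pull_comp {X Y Z : C} (f : X ⟶ Y) (g : Y ⟶ Z) (x : P.obj (op Z)) :
    pull P (f ≫ g) x = pull P f (pull P g x) := by
  simp [pull]

variable (A : C) [GrpObj A] [IsCommMonObj A]

/-- the point of `A × A × A` with coordinates `f, g, h`. -/
def triple {X : C} (f g h : X ⟶ A) : X ⟶ A ⊗ (A ⊗ A) := lift f (lift g h)

/-- **the cube property** of the functor `P` for the group object `A`. -/
def CubeProperty : Prop :=
  ∀ x : P.obj (op (A ⊗ (A ⊗ A))),
    pull P (triple A (1 : A ⊗ A ⟶ A) (fst A A) (snd A A)) x = 0 →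
    pull P (triple A (fst A A) (1 : A ⊗ A ⟶ A) (snd A A)) x = 0 →
    pull P (triple A (fst A A) (snd A A) (1 : A ⊗ A ⟶ A)) x = 0 → x = 0

variable {A}

/-- the three coordinates of `A × A × A`. -/
def pr₁ : A ⊗ (A ⊗ A) ⟶ A := fst A (A ⊗ A)
def pr₂ : A ⊗ (A ⊗ A) ⟶ A := snd A (A ⊗ A) ≫ fst A A
def pr₃ : A ⊗ (A ⊗ A) ⟶ A := snd A (A ⊗ A) ≫ snd A A

@[simp] theorem triple_pr₁ {X : C} (f g h : X ⟶ A) : triple A f g h ≫ pr₁ = f := by
  simp [triple, pr₁]

@[simp] theorem triple_pr₂ {X : C} (f g h : X ⟶ A) : triple A f g h ≫ pr₂ = g := by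
  simp [triple, pr₂]

@[simp] theorem triple_pr₃ {X : C} (f g h : X ⟶ A) : triple A f g h ≫ pr₃ = h := by
  simp [triple, pr₃]

/-- the alternating sum attached to three points `f g h` of `A` and `L`. -/
def theta {X : C} (f g h : X ⟶ A) (L : P.obj (op A)) : P.obj (op X) :=
  pull P (f * g * h) L - pull P (f * g) L - pull P (f * h) L - pull P (g * h) L
    + pull P f L + pull P g L + pull P h L

theorem pull_theta {X Y : C} (k : Y ⟶ X) (f g h : X ⟶ A) (L : P.obj (op A)) :
    pull P k (theta P f g h L) = theta P (k ≫ f) (k ≫ g) (k ≫ h) L := by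
  simp only [theta, map_add, map_sub, ← pull_comp, MonObj.comp_mul]

/-- pull-back along a constant map kills everything, when `P` of the point is trivial. -/
theorem pull_one_eq_zero (hterm : ∀ x : P.obj (op (𝟙_ C)), x = 0) {X : C} (L : P.obj (op A)) :
    pull P (1 : X ⟶ A) L = 0 := by
  rw [Hom.one_def, pull_comp, hterm (pull P η L), map_zero]

theorem theta_one_left (hterm : ∀ x : P.obj (op (𝟙_ C)), x = 0) {X : C} (g h : X ⟶ A)
    (L : P.obj (op A)) : theta P 1 g h L = 0 := by
  have e1 : (1 : X ⟶ A) * g * h = g * h := by rw [_root_.one_mul]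
  have e2 : (1 : X ⟶ A) * g = g := _root_.one_mul g
  have e3 : (1 : X ⟶ A) * h = h := _root_.one_mul h
  unfold theta
  rw [e1, e2, e3, pull_one_eq_zero P hterm]
  abel

theorem theta_one_mid (hterm : ∀ x : P.obj (op (𝟙_ C)), x = 0) {X : C} (f h : X ⟶ A)
    (L : P.obj (op A)) : theta P f 1 h L = 0 := by
  have e1 : f * (1 : X ⟶ A) * h = f * h := by rw [_root_.mul_one]
  have e2 : f * (1 : X ⟶ A) = f := _root_.mul_one f
  have e3 : (1 : X ⟶ A) * h = h := _root_.one_mul h
  unfold theta
  rw [e1, e2, e3, pull_one_eq_zero P hterm]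
  abel

theorem theta_one_right (hterm : ∀ x : P.obj (op (𝟙_ C)), x = 0) {X : C} (f g : X ⟶ A)
    (L : P.obj (op A)) : theta P f g 1 L = 0 := by
  have e1 : f * g * (1 : X ⟶ A) = f * g := _root_.mul_one _
  have e2 : f * (1 : X ⟶ A) = f := _root_.mul_one f
  have e3 : g * (1 : X ⟶ A) = g := _root_.mul_one g
  unfold theta
  rw [e1, e2, e3, pull_one_eq_zero P hterm]
  abel

/-- **the universal case**: `Θ(L) = 0` on `A × A × A`. -/
theorem theta_universal (hterm : ∀ x : P.obj (op (𝟙_ C)), x = 0) (hcube : CubeProperty P A)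
    (L : P.obj (op A)) : theta P (pr₁ (A := A)) pr₂ pr₃ L = 0 := by
  apply hcube
  · rw [pull_theta, triple_pr₁, triple_pr₂, triple_pr₃]
    exact theta_one_left P hterm _ _ L
  · rw [pull_theta, triple_pr₁, triple_pr₂, triple_pr₃]
    exact theta_one_mid P hterm _ _ L
  · rw [pull_theta, triple_pr₁, triple_pr₂, triple_pr₃]
    exact theta_one_right P hterm _ _ L

/-- **Mumford §6 Cor. 2**: the theorem of the cube for three points of `A`. -/
theorem cube_formula (hterm : ∀ x : P.obj (op (𝟙_ C)), x = 0) (hcube : CubeProperty P A)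
    {X : C} (f g h : X ⟶ A) (L : P.obj (op A)) : theta P f g h L = 0 := by
  have h0 := congrArg (pull P (triple A f g h)) (theta_universal P hterm hcube L)
  rw [pull_theta, triple_pr₁, triple_pr₂, triple_pr₃, map_zero] at h0
  exact h0

/-- multiplication by `n` on `A`. -/
def nmul (A : C) [GrpObj A] [IsCommMonObj A] (n : ℤ) : A ⟶ A := (𝟙 A) ^ n

/-- **Mumford §6 Cor. 3, recursion**:
`[n+1]^*L + [n-1]^*L = 2 [n]^*L + L + [-1]^*L`. -/
theorem pull_zpow_succ_add_pred (hterm : ∀ x : P.obj (op (𝟙_ C)), x = 0)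
    (hcube : CubeProperty P A) (L : P.obj (op A)) (n : ℤ) :
    pull P (nmul A (n + 1)) L + pull P (nmul A (n - 1)) L =
      2 • pull P (nmul A n) L + L + pull P (nmul A (-1)) L := by
  have h := cube_formula P hterm hcube (nmul A n) (nmul A 1) (nmul A (-1)) L
  have e1 : nmul A n * nmul A 1 * nmul A (-1) = nmul A n := by
    simp only [nmul, ← zpow_add]; congr 1; ring
  have e2 : nmul A n * nmul A 1 = nmul A (n + 1) := by
    simp only [nmul, ← zpow_add]
  have e3 : nmul A n * nmul A (-1) = nmul A (n - 1) := by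
    simp only [nmul, ← zpow_add]; congr 1
  have e4 : nmul A 1 * nmul A (-1) = (1 : A ⟶ A) := by
    simp only [nmul, ← zpow_add]; simp
  have e5 : nmul A 1 = 𝟙 A := by simp [nmul]
  unfold theta at h
  rw [e1, e2, e3, e4, pull_one_eq_zero P hterm, e5, pull_id] at h
  have h' : pull P (nmul A (n + 1)) L + pull P (nmul A (n - 1)) L
      - (2 • pull P (nmul A n) L + L + pull P (nmul A (-1)) L) = 0 := by
    rw [← neg_eq_zero, ← h, two_smul]
    abel
  exact sub_eq_zero.mp h'

theorem pull_nmul_zero (hterm : ∀ x : P.obj (op (𝟙_ C)), x = 0) (L : P.obj (op A)) :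
    pull P (nmul A 0) L = 0 := by
  have : nmul A 0 = (1 : A ⟶ A) := by simp [nmul]
  rw [this, pull_one_eq_zero P hterm]

theorem pull_nmul_one (L : P.obj (op A)) : pull P (nmul A 1) L = L := by
  have : nmul A 1 = 𝟙 A := by simp [nmul]
  rw [this, pull_id]

/-- **`2 [n]^*L = (n² + n) L + (n² - n) [-1]^*L`**, for every integer `n`. -/
theorem two_smul_pull_zpow (hterm : ∀ x : P.obj (op (𝟙_ C)), x = 0)
    (hcube : CubeProperty P A) (L : P.obj (op A)) (n : ℤ) :
    (2 : ℤ) • pull P (nmul A n) L =
      (n ^ 2 + n) • L + (n ^ 2 - n) • pull P (nmul A (-1)) L := by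
  set M := pull P (nmul A (-1)) L with hM
  have hrec := pull_zpow_succ_add_pred P hterm hcube L
  -- two-sided induction on `n` with the pair statement
  have key : ∀ m : ℕ, ((2 : ℤ) • pull P (nmul A m) L =
        ((m : ℤ) ^ 2 + m) • L + ((m : ℤ) ^ 2 - m) • M) ∧
      ((2 : ℤ) • pull P (nmul A (m + 1)) L =
        (((m : ℤ) + 1) ^ 2 + (m + 1)) • L + (((m : ℤ) + 1) ^ 2 - (m + 1)) • M) := by
    intro m
    induction m with
    | zero =>
      refine ⟨?_, ?_⟩
      · simp [pull_nmul_zero P hterm]
      · simp only [Nat.cast_zero, zero_add]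
        rw [pull_nmul_one]
        norm_num
    | succ m ih =>
      refine ⟨by exact_mod_cast ih.2, ?_⟩
      have h1 := hrec ((m : ℤ) + 1)
      have e : ((m : ℤ) + 1 - 1) = m := by ring
      rw [e] at h1
      have h2 : pull P (nmul A ((m : ℤ) + 1 + 1)) L =
          2 • pull P (nmul A ((m : ℤ) + 1)) L + L + M - pull P (nmul A m) L := by
        rw [← h1]; abel
      push_cast
      rw [h2, smul_sub, smul_add, smul_add, two_smul ℕ, smul_add, ih.1, ih.2]
      simp only [two_smul, add_smul, sub_smul, one_smul, pow_two, mul_add, add_mul, _root_.mul_one,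
        _root_.one_mul]
      abel
  -- negative `n`: use the recursion downwards; we prove it by symmetry of the recursion
  have keyneg : ∀ m : ℕ, ((2 : ℤ) • pull P (nmul A (-(m : ℤ))) L =
        ((m : ℤ) ^ 2 - m) • L + ((m : ℤ) ^ 2 + m) • M) ∧
      ((2 : ℤ) • pull P (nmul A (-((m : ℤ) + 1))) L =
        (((m : ℤ) + 1) ^ 2 - (m + 1)) • L + (((m : ℤ) + 1) ^ 2 + (m + 1)) • M) := by
    intro m
    induction m with
    | zero =>
      refine ⟨?_, ?_⟩
      · simp [pull_nmul_zero P hterm]
      · simp only [Nat.cast_zero, zero_add]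
        norm_num
        rw [hM]
    | succ m ih =>
      refine ⟨by exact_mod_cast ih.2, ?_⟩
      have h1 := hrec (-((m : ℤ) + 1))
      have e : (-((m : ℤ) + 1) + 1) = -(m : ℤ) := by ring
      have e' : (-((m : ℤ) + 1) - 1) = -((m : ℤ) + 1 + 1) := by ring
      rw [e, e'] at h1
      have h2 : pull P (nmul A (-((m : ℤ) + 1 + 1))) L =
          2 • pull P (nmul A (-((m : ℤ) + 1))) L + L + M - pull P (nmul A (-(m : ℤ))) L := by
        rw [← h1]; abel
      push_cast
      rw [h2, smul_sub, smul_add, smul_add, two_smul ℕ, smul_add, ih.1, ih.2]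
      simp only [two_smul, add_smul, sub_smul, one_smul, pow_two, mul_add, add_mul, _root_.mul_one,
        _root_.one_mul]
      abel
  rcases Int.eq_nat_or_neg n with ⟨m, rfl | rfl⟩
  · exact (key m).1
  · have := (keyneg m).1
    rw [this]
    congr 1
    · congr 1; ring
    · congr 1; ring

/-- **the symmetric case**: `[-1]^*L = L ⟹ [n]^*L = n² L`. -/
theorem pull_zpow_of_symm (hterm : ∀ x : P.obj (op (𝟙_ C)), x = 0)
    (hcube : CubeProperty P A) (L : P.obj (op A)) (hL : pull P (nmul A (-1)) L = L) (n : ℕ) :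
    pull P (nmul A n) L = (n ^ 2 : ℤ) • L := by
  have hrec := pull_zpow_succ_add_pred P hterm hcube L
  have key : ∀ m : ℕ, pull P (nmul A m) L = ((m : ℤ) ^ 2) • L ∧
      pull P (nmul A ((m : ℤ) + 1)) L = (((m : ℤ) + 1) ^ 2) • L := by
    intro m
    induction m with
    | zero =>
      refine ⟨?_, ?_⟩
      · simp [pull_nmul_zero P hterm]
      · simp only [Nat.cast_zero, zero_add]
        rw [pull_nmul_one]; simp
    | succ m ih =>
      refine ⟨by exact_mod_cast ih.2, ?_⟩
      have h1 := hrec ((m : ℤ) + 1)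
      have e : ((m : ℤ) + 1 - 1) = m := by ring
      rw [e, hL] at h1
      have h2 : pull P (nmul A ((m : ℤ) + 1 + 1)) L =
          2 • pull P (nmul A ((m : ℤ) + 1)) L + L + L - pull P (nmul A m) L := by
        rw [← h1]; abel
      push_cast
      rw [h2, ih.1, ih.2]
      simp only [two_smul, add_smul, pow_two, mul_add, add_mul, _root_.mul_one, _root_.one_mul, one_smul]
      abel
  exact_mod_cast (key n).1

end Fermat.Agent.AV.CubeFormal
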