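/-
PROJECT AV (S26 long shot) — CHAIN (helper9), link (C1): from the cube property of the Picard functor
(helper3's formal file) to the line-bundle statement used by AV5:

  `CubeProperty (PicOver (Spec K)) G`  ⟹  for every `M : LB G.left` with `[−1]^* M ≅ M`:
      `[n]^* M ≅ M^{n²}`   (`LB.Iso (M.pullback (nMap G n).left) (M.pow (n ^ 2))`),

and the symmetrisation `M₀ ⊗ [−1]^* M₀` of an arbitrary line bundle is symmetric.  Everything is
formal: it bridges helper3's `CubeFormal.nmul` (ℤ-powers), helper4's `nMap` (ℕ-powers) and helper5's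
`PicOver`, `PicGroup.mk`, `LB.pow`.
-/
import Mathlib
import Fermat.Agent.AV.CUBE_helper3_Formal
import Fermat.Agent.AV.LB_helper5_Pow
import Fermat.Agent.AV.AV0_helper4_NMap

set_option autoImplicit false

open CategoryTheory MonoidalCategory CartesianMonoidalCategory MonObj Opposite AlgebraicGeometry

noncomputable section

namespace Fermat.Agent.AV.Chain

universe u

variable {K : Type u} [Field K]

/-- the Picard functor on `K`-schemes. -/
abbrev PK (K : Type u) [Field K] :
    (Over (Spec (CommRingCat.of K)))ᵒᵖ ⥤ AddCommGrpCat.{u + 1} :=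
  PicOver (Spec (CommRingCat.of K))

/-- `P` of the point is trivial: the `hterm` hypothesis of `CubeFormal`. -/
theorem hterm (K : Type u) [Field K] :
    ∀ x : (PK K).obj (op (𝟙_ (Over (Spec (CommRingCat.of K))))), x = 0 :=
  PicOver_unit_eq_zero K

/-- pull-back of classes along a morphism of `K`-schemes, on representatives. -/
theorem pull_mk {T T' : Over (Spec (CommRingCat.of K))} (f : T ⟶ T') (M : LB T'.left) :
    CubeFormal.pull (PK K) f (PicGroup.mk M) = PicGroup.mk (M.pullback f.left) := rfl

variable (G : Over (Spec (CommRingCat.of K))) [GrpObj G] [IsCommMonObj G]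

/-- helper3's `nmul` at a natural number is helper4's `nMap`. -/
theorem nmul_natCast (n : ℕ) : CubeFormal.nmul G (n : ℤ) = nMap G n := by
  simp [CubeFormal.nmul, nMap]

/-- the inverse morphism `[−1]` of `G`. -/
def negMap : G ⟶ G := CubeFormal.nmul G (-1)

theorem negMap_comp_negMap : negMap G ≫ negMap G = 𝟙 G := by
  unfold negMap CubeFormal.nmul
  rw [GrpObj.comp_zpow, Category.comp_id, ← zpow_mul]
  simp

/-- a class `L` in `Pic G` is symmetric if `[−1]^* L = L`. -/
def IsSymm (L : (PK K).obj (op G)) : Prop := CubeFormal.pull (PK K) (negMap G) L = L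

/-- symmetrisation `L₀ + [−1]^* L₀` is symmetric. -/
theorem isSymm_symmetrize (L₀ : (PK K).obj (op G)) :
    IsSymm G (L₀ + CubeFormal.pull (PK K) (negMap G) L₀) := by
  unfold IsSymm
  rw [map_add, ← CubeFormal.pull_comp, negMap_comp_negMap, CubeFormal.pull_id, add_comm]

/-- **(C1), Picard-group form**: `[n]^* L = n² L` for symmetric `L`. -/
theorem pull_nMap_of_isSymm (hcube : CubeFormal.CubeProperty (PK K) G)
    (L : (PK K).obj (op G)) (hL : IsSymm G L) (n : ℕ) :
    CubeFormal.pull (PK K) (nMap G n) L = (n ^ 2) • L := by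
  have h := CubeFormal.pull_zpow_of_symm (PK K) (hterm K) hcube L hL n
  rw [nmul_natCast] at h
  rw [h]
  norm_cast

/-- a line bundle on `G` is symmetric if `[−1]^* M ≅ M`. -/
def LBIsSymm (M : LB G.left) : Prop := LB.Iso (M.pullback (negMap G).left) M

theorem isSymm_mk_iff (M : LB G.left) : IsSymm G (PicGroup.mk M : (PK K).obj (op G)) ↔
    LBIsSymm G M := by
  unfold IsSymm LBIsSymm
  rw [pull_mk]
  exact PicGroup.mk_eq_mk_iff _ _

/-- the symmetrisation `M₀ ⊗ [−1]^* M₀` of a line bundle. -/
def symmetrize (M₀ : LB G.left) : LB G.left := M₀.tensor (M₀.pullback (negMap G).left)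

theorem lbIsSymm_symmetrize (M₀ : LB G.left) : LBIsSymm G (symmetrize G M₀) := by
  rw [← isSymm_mk_iff]
  have h := isSymm_symmetrize G (PicGroup.mk M₀ : (PK K).obj (op G))
  rw [pull_mk] at h
  exact h

/-- **(C1), line-bundle form**: `[n]^* M ≅ M^{n²}` for a symmetric line bundle `M` on `G`, from the
cube property of `Pic`. -/
theorem iso_pullback_nMap_of_symm (hcube : CubeFormal.CubeProperty (PK K) G)
    (M : LB G.left) (hM : LBIsSymm G M) (n : ℕ) :
    LB.Iso (M.pullback (nMap G n).left) (M.pow (n ^ 2)) := by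
  have h := pull_nMap_of_isSymm G hcube (PicGroup.mk M) ((isSymm_mk_iff G M).mpr hM) n
  rw [pull_mk] at h
  rw [← PicGroup.mk_eq_mk_iff, h]
  exact (LB.mk_pow M (n ^ 2)).symm

/-- the cube property of `Pic` on `G`, unfolded to line bundles: a line bundle on `G × G × G` whose
restrictions to the three coordinate "planes" are trivial is trivial. -/
theorem cubeProperty_iff :
    CubeFormal.CubeProperty (PK K) G ↔
      ∀ N : LB (G ⊗ (G ⊗ G)).left,
        (N.pullback (CubeFormal.triple G (1 : G ⊗ G ⟶ G) (fst G G) (snd G G)).left).IsTrivial →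
        (N.pullback (CubeFormal.triple G (fst G G) (1 : G ⊗ G ⟶ G) (snd G G)).left).IsTrivial →
        (N.pullback (CubeFormal.triple G (fst G G) (snd G G) (1 : G ⊗ G ⟶ G)).left).IsTrivial →
        N.IsTrivial := by
  constructor
  · intro h N h1 h2 h3
    rw [← PicGroup.mk_eq_zero_iff] at h1 h2 h3 ⊢
    exact h (PicGroup.mk N) h1 h2 h3
  · intro h x h1 h2 h3
    obtain ⟨N, rfl⟩ := PicGroup.mk_surjective (X := (G ⊗ (G ⊗ G)).left) x
    have h1' : PicGroup.mk (N.pullback
        (CubeFormal.triple G (1 : G ⊗ G ⟶ G) (fst G G) (snd G G)).left) = 0 := h1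
    have h2' : PicGroup.mk (N.pullback
        (CubeFormal.triple G (fst G G) (1 : G ⊗ G ⟶ G) (snd G G)).left) = 0 := h2
    have h3' : PicGroup.mk (N.pullback
        (CubeFormal.triple G (fst G G) (snd G G) (1 : G ⊗ G ⟶ G)).left) = 0 := h3
    rw [PicGroup.mk_eq_zero_iff] at h1' h2' h3'
    exact (PicGroup.mk_eq_zero_iff N).mpr (h N h1' h2' h3')

end Fermat.Agent.AV.Chain

end
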