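import Mathlib

/-!
# AV7 (7c): descent of unique factorisation along a faithfully flat local extension (helper7)

`ufm_of_faithfullyFlat` : if `R → S` is faithfully flat, `S` is a local domain and a UFD, and `R` is
a noetherian domain, then `R` is a UFD.  (Mori's theorem: a noetherian local domain whose completion
is a UFD is a UFD: `ufm_of_ufm_adicCompletion`.)

The proof avoids divisorial ideals and height-one primes: a noetherian domain is a UFD as soon as
every `aR ∩ bR` is principal; `(aR ∩ bR)S = aS ∩ bS` by the equational criterion of flatness; and an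
ideal `I` of `R` with `IS` principal is principal (`S` local domain, `IS ∩ R = I`).
-/

namespace Fermat.Agent.AV

open Ideal

section Descent

variable {R S : Type*} [CommRing R] [CommRing S] [Algebra R S]

/-- Flat base change commutes with the intersection of two principal ideals. -/
theorem span_singleton_inf_map_of_flat [Module.Flat R S] (a b : R) :
    (span {algebraMap R S a} ⊓ span {algebraMap R S b} : Ideal S) =
      (span {a} ⊓ span {b} : Ideal R).map (algebraMap R S) := by
  apply le_antisymm
  · rintro x ⟨hxa, hxb⟩
    obtain ⟨s, rfl⟩ := Ideal.mem_span_singleton'.mp hxa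
    obtain ⟨t, ht⟩ := Ideal.mem_span_singleton'.mp hxb
    -- the relation `a • s + (-b) • t = 0`
    obtain ⟨k, A, y, hxy, hA⟩ := Module.Flat.isTrivialRelation_of_sum_smul_eq_zero (R := R) (M := S)
      (f := ![a, -b]) (x := ![s, t]) (by
        simp only [Fin.sum_univ_two, Matrix.cons_val_zero, Matrix.cons_val_one, Algebra.smul_def,
          map_neg]
        linear_combination -ht)
    have hs : s = ∑ j, A 0 j • y j := by simpa using hxy 0
    have hAj : ∀ j, a * A 0 j = b * A 1 j := by
      intro j
      have := hA j
      simp [Fin.sum_univ_two] at this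
      linear_combination this
    rw [hs, Finset.sum_mul]
    refine Ideal.sum_mem _ fun j _ => ?_
    have hmem : a * A 0 j ∈ (span {a} ⊓ span {b} : Ideal R) := by
      refine ⟨Ideal.mem_span_singleton'.mpr ⟨A 0 j, mul_comm _ _⟩, ?_⟩
      rw [hAj j]
      exact Ideal.mem_span_singleton'.mpr ⟨A 1 j, mul_comm _ _⟩
    have : A 0 j • y j * algebraMap R S a = y j * algebraMap R S (a * A 0 j) := by
      rw [Algebra.smul_def, map_mul]; ring
    rw [this]
    exact Ideal.mul_mem_left _ _ (Ideal.mem_map_of_mem _ hmem)
  · rw [Ideal.map_le_iff_le_comap]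
    rintro x ⟨hxa, hxb⟩
    obtain ⟨s, rfl⟩ := Ideal.mem_span_singleton'.mp hxa
    obtain ⟨t, ht⟩ := Ideal.mem_span_singleton'.mp hxb
    refine ⟨?_, ?_⟩
    · exact Ideal.mem_span_singleton'.mpr ⟨algebraMap R S s, by simp⟩
    · rw [← ht]
      exact Ideal.mem_span_singleton'.mpr ⟨algebraMap R S t, by simp⟩

/-- If `S` is a local domain, faithfully flat over `R`, and the extension `IS` of an ideal `I` of
`R` is principal, then `I` is principal. -/
theorem isPrincipal_of_map_isPrincipal [IsDomain S] [IsLocalRing S] [Module.FaithfullyFlat R S]
    (I : Ideal R) (h : (I.map (algebraMap R S)).IsPrincipal) : I.IsPrincipal := by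
  obtain ⟨x, hx⟩ := h
  have hx' : I.map (algebraMap R S) = span {x} := hx
  by_cases hx0 : x = 0
  · refine ⟨0, ?_⟩
    rw [← Ideal.comap_map_eq_self_of_faithfullyFlat (B := S) I, hx', hx0]
    ext r
    simp only [Ideal.mem_comap, Set.singleton_zero, span_zero, Ideal.mem_bot]
    exact (FaithfulSMul.algebraMap_injective R S).eq_iff' (map_zero _)
  · -- some `a ∈ I` has `ι a = d * x` with `d` a unit
    have key : ∃ a ∈ I, ∃ d : S, IsUnit d ∧ algebraMap R S a = d * x := by
      by_contra hcon
      push Not at hcon
      have hle : I.map (algebraMap R S) ≤ IsLocalRing.maximalIdeal S * span {x} := by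
        rw [Ideal.map_le_iff_le_comap]
        intro a ha
        have hmem : algebraMap R S a ∈ (span {x} : Ideal S) := hx' ▸ Ideal.mem_map_of_mem _ ha
        obtain ⟨d, hd⟩ := Ideal.mem_span_singleton'.mp hmem
        have hnu : ¬ IsUnit d := fun hu => hcon a ha d hu hd.symm
        rw [Ideal.mem_comap, ← hd]
        exact Ideal.mul_mem_mul ((IsLocalRing.mem_maximalIdeal d).mpr hnu)
          (Ideal.mem_span_singleton_self x)
      have hxm : x ∈ IsLocalRing.maximalIdeal S * span {x} := by
        apply hle
        rw [hx']
        exact Ideal.mem_span_singleton_self x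
      obtain ⟨m, hm, hmx⟩ := Ideal.mem_mul_span_singleton.mp hxm
      have h1 : m = 1 := by
        have : (m - 1) * x = 0 := by rw [sub_mul, hmx, one_mul, sub_self]
        rcases mul_eq_zero.mp this with h | h
        · exact sub_eq_zero.mp h
        · exact absurd h hx0
      rw [h1] at hm
      exact (IsLocalRing.maximalIdeal S).ne_top_iff_one.mp
        (IsLocalRing.maximalIdeal.isMaximal S).ne_top hm
    obtain ⟨a, -, d, hd, had⟩ := key
    refine ⟨a, ?_⟩
    have hspan : (span {x} : Ideal S) = span {algebraMap R S a} := by
      rw [had]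
      exact (Ideal.span_singleton_mul_left_unit hd x).symm
    have : I.map (algebraMap R S) = (span {a} : Ideal R).map (algebraMap R S) := by
      rw [hx', hspan, Ideal.map_span, Set.image_singleton]
    rw [← Ideal.comap_map_eq_self_of_faithfullyFlat (B := S) I, this,
      Ideal.comap_map_eq_self_of_faithfullyFlat]

/-- A noetherian domain in which the intersection of any two principal ideals is principal is a
unique factorisation domain. -/
theorem ufm_of_inf_isPrincipal [IsDomain R] [IsNoetherianRing R]
    (h : ∀ a b : R, (span {a} ⊓ span {b} : Ideal R).IsPrincipal) :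
    UniqueFactorizationMonoid R := by
  classical
  have hlcm : ∀ a b : R, ∃ c : R, ∀ d : R, a ∣ d ∧ b ∣ d ↔ c ∣ d := by
    intro a b
    obtain ⟨c, hc⟩ := h a b
    refine ⟨c, fun d => ?_⟩
    have hc' : (span {a} ⊓ span {b} : Ideal R) = span {c} := hc
    rw [← Ideal.mem_span_singleton, ← Ideal.mem_span_singleton, ← Ideal.mem_span_singleton, ← hc']
    rfl
  let _ : GCDMonoid R := gcdMonoidOfExistsLCM hlcm
  infer_instance

/-- **Descent of unique factorisation** along a faithfully flat extension `R → S` with `S` a local
domain: if `S` is a UFD then so is the noetherian domain `R`. -/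
theorem ufm_of_faithfullyFlat [IsDomain R] [IsNoetherianRing R] [IsDomain S] [IsLocalRing S]
    [Module.FaithfullyFlat R S] [UniqueFactorizationMonoid S] : UniqueFactorizationMonoid R := by
  classical
  apply ufm_of_inf_isPrincipal
  intro a b
  apply isPrincipal_of_map_isPrincipal (S := S)
  rw [← span_singleton_inf_map_of_flat]
  -- in the UFD `S`, `aS ∩ bS = lcm(a,b) S`
  let _ : GCDMonoid S := (UniqueFactorizationMonoid.toGCDMonoid S)
  refine ⟨lcm (algebraMap R S a) (algebraMap R S b), ?_⟩
  ext x
  change x ∈ span _ ⊓ span _ ↔ x ∈ span _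
  rw [Ideal.mem_inf, Ideal.mem_span_singleton, Ideal.mem_span_singleton, Ideal.mem_span_singleton,
    lcm_dvd_iff]

end Descent

section Completion

open IsLocalRing

variable (R : Type*) [CommRing R] [IsNoetherianRing R] [IsLocalRing R]

/-- The completion of a noetherian local ring is faithfully flat. -/
theorem faithfullyFlat_adicCompletion :
    Module.FaithfullyFlat R (AdicCompletion (maximalIdeal R) R) :=
  Module.FaithfullyFlat.of_flat_of_isLocalHom

/-- A noetherian local ring whose completion is a domain is a domain. -/
theorem isDomain_of_isDomain_adicCompletion [IsDomain (AdicCompletion (maximalIdeal R) R)] :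
    IsDomain R := by
  have := faithfullyFlat_adicCompletion R
  exact (FaithfulSMul.algebraMap_injective R (AdicCompletion (maximalIdeal R) R)).isDomain _

/-- **Mori's theorem**: a noetherian local ring whose completion is a UFD is a UFD. -/
theorem ufm_of_ufm_adicCompletion [IsDomain R] [IsDomain (AdicCompletion (maximalIdeal R) R)]
    [UniqueFactorizationMonoid (AdicCompletion (maximalIdeal R) R)] :
    UniqueFactorizationMonoid R := by
  have := faithfullyFlat_adicCompletion R
  exact ufm_of_faithfullyFlat (S := AdicCompletion (maximalIdeal R) R)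

/-- Mori's theorem, with the completion identified with a UFD `T` by a ring isomorphism. -/
theorem ufm_of_adicCompletion_ringEquiv {T : Type*} [CommRing T] [IsDomain T]
    [UniqueFactorizationMonoid T] (e : AdicCompletion (maximalIdeal R) R ≃+* T) :
    IsDomain R ∧ UniqueFactorizationMonoid R := by
  have hdom : IsDomain (AdicCompletion (maximalIdeal R) R) := e.toMulEquiv.isDomain T
  have hufm : UniqueFactorizationMonoid (AdicCompletion (maximalIdeal R) R) :=
    e.symm.toMulEquiv.uniqueFactorizationMonoid inferInstance
  have hR := isDomain_of_isDomain_adicCompletion R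
  exact ⟨hR, ufm_of_ufm_adicCompletion R⟩

end Completion

end Fermat.Agent.AV
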