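import Mathlib
import Fermat.Agent.AV.AV7_helper7_Descent

/-!
# AV7 (7b): the completion of a formally smooth local `K`-algebra with residue field `K` is a power
series ring (helper7)
-/

namespace Fermat.Agent.AV

open Ideal

section AdicEquiv

variable {R S : Type*} [CommRing R] [CommRing S]

/-- Compatibility of the projections `evalₐ` of an adic completion with the transition maps. -/
theorem factorPow_evalₐ (I : Ideal R) {m n : ℕ} (h : m ≤ n) (x : AdicCompletion I R) :
    Ideal.Quotient.factorPow I h (AdicCompletion.evalₐ I n x) = AdicCompletion.evalₐ I m x := by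
  obtain ⟨r, rfl⟩ := AdicCompletion.mk_surjective I R x
  simp only [AdicCompletion.evalₐ_mk, Ideal.Quotient.factor_mk]
  rw [Ideal.Quotient.eq]
  have := r.2 h
  rw [SModEq.sub_mem] at this
  have h2 : r.val n - r.val m ∈ (I ^ m • ⊤ : Submodule R R) := by
    have := Submodule.neg_mem _ this
    simpa using this
  simpa using h2

variable {I : Ideal R} {J : Ideal S} (φ : R →+* S) (hφ : I ≤ J.comap φ)

/-- The map `R ⧸ I ^ n → S ⧸ J ^ n` induced by a ring homomorphism `φ` with `φ I ⊆ J`. -/
noncomputable def quotPowMap (n : ℕ) : R ⧸ I ^ n →+* S ⧸ J ^ n :=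
  Ideal.quotientMap (J ^ n) φ
    ((Ideal.pow_right_mono hφ n).trans (Ideal.le_comap_pow φ n))

@[simp]
theorem quotPowMap_mk (n : ℕ) (r : R) :
    quotPowMap φ hφ n (Ideal.Quotient.mk _ r) = Ideal.Quotient.mk _ (φ r) := by
  simp [quotPowMap]

theorem factorPow_quotPowMap {m n : ℕ} (h : m ≤ n) (x : R ⧸ I ^ n) :
    Ideal.Quotient.factorPow J h (quotPowMap φ hφ n x) =
      quotPowMap φ hφ m (Ideal.Quotient.factorPow I h x) := by
  obtain ⟨r, rfl⟩ := Ideal.Quotient.mk_surjective x
  simp

theorem quotPowMap_comp_evalₐ_compat {m n : ℕ} (h : m ≤ n) :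
    (Ideal.Quotient.factorPow J h).comp ((quotPowMap φ hφ n).comp
      (AdicCompletion.evalₐ I n : AdicCompletion I R →+* R ⧸ I ^ n)) =
    (quotPowMap φ hφ m).comp (AdicCompletion.evalₐ I m : AdicCompletion I R →+* R ⧸ I ^ m) := by
  ext x
  simp only [RingHom.comp_apply, RingHom.coe_coe]
  rw [factorPow_quotPowMap, factorPow_evalₐ]

/-- The ring homomorphism of adic completions induced by `φ`. -/
noncomputable def adicCompletionMap : AdicCompletion I R →+* AdicCompletion J S :=
  AdicCompletion.liftRingHom J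
    (fun n => (quotPowMap φ hφ n).comp (AdicCompletion.evalₐ I n : AdicCompletion I R →+* R ⧸ I ^ n))
    (fun {_ _} h => quotPowMap_comp_evalₐ_compat φ hφ h)

@[simp]
theorem evalₐ_adicCompletionMap (n : ℕ) (x : AdicCompletion I R) :
    AdicCompletion.evalₐ J n (adicCompletionMap φ hφ x) =
      quotPowMap φ hφ n (AdicCompletion.evalₐ I n x) :=
  AdicCompletion.evalₐ_liftRingHom J _ (fun {_ _} h => quotPowMap_comp_evalₐ_compat φ hφ h) n x

/-- If `φ : R → S` with `φ I ⊆ J` induces bijections `R ⧸ I ^ n → S ⧸ J ^ n` for all `n`, the adic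
completions are isomorphic. -/
noncomputable def adicCompletionRingEquivOfBijective
    (hbij : ∀ n, Function.Bijective (quotPowMap φ hφ n)) :
    AdicCompletion I R ≃+* AdicCompletion J S := by
  let e : ∀ n, (R ⧸ I ^ n) ≃+* (S ⧸ J ^ n) := fun n => RingEquiv.ofBijective _ (hbij n)
  have he : ∀ n x, e n x = quotPowMap φ hφ n x := fun n x => rfl
  have hcompat : ∀ {m n : ℕ} (h : m ≤ n) (y : S ⧸ J ^ n),
      Ideal.Quotient.factorPow I h ((e n).symm y) = (e m).symm (Ideal.Quotient.factorPow J h y) := by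
    intro m n h y
    apply (e m).injective
    rw [RingEquiv.apply_symm_apply, he, ← factorPow_quotPowMap, ← he, RingEquiv.apply_symm_apply]
  let G : AdicCompletion J S →+* AdicCompletion I R :=
    AdicCompletion.liftRingHom I
      (fun n => ((e n).symm : (S ⧸ J ^ n) →+* (R ⧸ I ^ n)).comp
        (AdicCompletion.evalₐ J n : AdicCompletion J S →+* S ⧸ J ^ n))
      (fun {m n} h => by
        ext y
        simp only [RingHom.comp_apply, RingHom.coe_coe]
        rw [hcompat, factorPow_evalₐ])
  refine RingEquiv.ofRingHom (adicCompletionMap φ hφ) G ?_ ?_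
  · refine RingHom.ext fun y => ?_
    apply AdicCompletion.ext_evalₐ
    intro n
    simp only [RingHom.comp_apply, RingHom.id_apply, evalₐ_adicCompletionMap]
    rw [AdicCompletion.evalₐ_liftRingHom]
    simp only [RingHom.comp_apply, RingHom.coe_coe]
    rw [← he, RingEquiv.apply_symm_apply]
  · refine RingHom.ext fun x => ?_
    apply AdicCompletion.ext_evalₐ
    intro n
    simp only [RingHom.comp_apply, RingHom.id_apply]
    rw [AdicCompletion.evalₐ_liftRingHom]
    simp only [RingHom.comp_apply, RingHom.coe_coe, evalₐ_adicCompletionMap]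
    rw [← he, RingEquiv.symm_apply_apply]

end AdicEquiv

section Smooth

open IsLocalRing MvPolynomial

variable {K O : Type*} [Field K] [CommRing O] [Algebra K O] [IsLocalRing O]

/-- Every element of `O` is congruent to a constant modulo the maximal ideal when the residue field
is `K`. -/
theorem exists_sub_algebraMap_mem_maximalIdeal
    (hres : Function.Surjective (algebraMap K (IsLocalRing.ResidueField O))) (x : O) :
    ∃ c : K, x - algebraMap K O c ∈ maximalIdeal O := by
  obtain ⟨c, hc⟩ := hres (residue O x)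
  refine ⟨c, ?_⟩
  rw [← residue_eq_zero_iff, map_sub, ← hc, IsScalarTower.algebraMap_apply K O (IsLocalRing.ResidueField O)]
  exact sub_self _

/-- A nonzero constant is not in the maximal ideal. -/
theorem algebraMap_mem_maximalIdeal_iff (c : K) : algebraMap K O c ∈ maximalIdeal O ↔ c = 0 := by
  constructor
  · intro h
    by_contra hc
    exact (mem_maximalIdeal _).mp h ((isUnit_iff_ne_zero.mpr hc).map (algebraMap K O))
  · rintro rfl
    simp

/-- Regular parameters: a finite family in `𝔪` generating `𝔪` whose classes in `𝔪/𝔪²` are linearly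
independent over `K`. -/
theorem exists_parameters [IsNoetherianRing O] :
    ∃ (d : ℕ) (t : Fin d → O), (∀ i, t i ∈ maximalIdeal O) ∧
      Ideal.span (Set.range t) = maximalIdeal O ∧
      ∀ c : Fin d → K, ∑ i, algebraMap K O (c i) * t i ∈ maximalIdeal O ^ 2 → c = 0 := by
  classical
  let b := Module.finBasis (IsLocalRing.ResidueField O) (CotangentSpace O)
  choose t' ht' using fun i => Ideal.toCotangent_surjective (maximalIdeal O) (b i)
  refine ⟨_, fun i => (t' i : O), fun i => (t' i).2, ?_, ?_⟩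
  · have h1 : Submodule.span (IsLocalRing.ResidueField O)
        ((maximalIdeal O).toCotangent '' Set.range t') = ⊤ := by
      rw [← Set.range_comp]
      have : (maximalIdeal O).toCotangent ∘ t' = b := funext ht'
      rw [this]
      exact b.span_eq
    have h2 := CotangentSpace.span_image_eq_top_iff.mp h1
    have h3 := congrArg (Submodule.map (maximalIdeal O).subtype) h2
    rw [Submodule.map_span, Submodule.map_top, Submodule.range_subtype, ← Set.range_comp] at h3
    exact h3
  · intro c hc
    have hmem : ∑ i, algebraMap K O (c i) * (t' i : O) ∈ maximalIdeal O :=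
      Ideal.pow_le_self two_ne_zero hc
    have hsum : (⟨∑ i, algebraMap K O (c i) * (t' i : O), hmem⟩ : maximalIdeal O) =
        ∑ i, algebraMap K O (c i) • t' i := by
      ext
      simp [Algebra.smul_def]
    have h0 : (maximalIdeal O).toCotangent ⟨_, hmem⟩ = 0 :=
      (Ideal.toCotangent_eq_zero _ _).mpr hc
    rw [hsum, map_sum] at h0
    have h1 : ∑ i, algebraMap K (IsLocalRing.ResidueField O) (c i) • b i = 0 := by
      rw [← h0]
      refine Finset.sum_congr rfl fun i _ => ?_
      rw [map_smul, ht', IsScalarTower.algebraMap_apply K O (IsLocalRing.ResidueField O),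
        ← algebraMap_smul (IsLocalRing.ResidueField O) (algebraMap K O (c i)) (b i)]
    have h2 := Fintype.linearIndependent_iff.mp b.linearIndependent _ h1
    funext i
    exact (map_eq_zero _).mp (h2 i)

end Smooth

section Param

open IsLocalRing MvPolynomial

variable {K O : Type*} [Field K] [CommRing O] [Algebra K O] [IsLocalRing O] {d : ℕ}

theorem mem_idealOfVars_iff_constantCoeff {σ R : Type*} [CommRing R] (p : MvPolynomial σ R) :
    p ∈ idealOfVars σ R ↔ constantCoeff p = 0 := by
  have h := mem_pow_idealOfVars_iff' (σ := σ) (R := R) 1 p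
  rw [pow_one] at h
  rw [h]
  constructor
  · intro hp
    exact hp 0 (by simp)
  · intro hp x hx
    have hx0 : x = 0 := by
      have : Finsupp.degree x = 0 := by omega
      exact (Finsupp.degree_eq_zero_iff x).mp this
    subst hx0
    exact hp

theorem sub_C_constantCoeff_mem_idealOfVars {σ R : Type*} [CommRing R] (p : MvPolynomial σ R) :
    p - C (constantCoeff p) ∈ idealOfVars σ R := by
  rw [mem_idealOfVars_iff_constantCoeff]
  simp

/-- Every polynomial is, modulo `(X)²`, an affine-linear polynomial. -/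
theorem exists_affine_sub_mem_sq (p : MvPolynomial (Fin d) K) :
    ∃ (c₀ : K) (c : Fin d → K),
      p - C c₀ - ∑ i, C (c i) * X i ∈ idealOfVars (Fin d) K ^ 2 := by
  classical
  induction p using MvPolynomial.induction_on with
  | C a =>
    refine ⟨a, 0, ?_⟩
    simp
  | add p q hp hq =>
    obtain ⟨a₀, a, ha⟩ := hp
    obtain ⟨b₀, b, hb⟩ := hq
    refine ⟨a₀ + b₀, a + b, ?_⟩
    have := Ideal.add_mem _ ha hb
    convert this using 1
    simp only [Pi.add_apply, map_add, add_mul, Finset.sum_add_distrib]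
    ring
  | mul_X p j hp =>
    obtain ⟨a₀, a, ha⟩ := hp
    refine ⟨0, fun i => if i = j then a₀ else 0, ?_⟩
    have hXj : (X j : MvPolynomial (Fin d) K) ∈ idealOfVars (Fin d) K :=
      Ideal.subset_span ⟨j, rfl⟩
    have h1 : (p - C a₀ - ∑ i, C (a i) * X i) * X j ∈ idealOfVars (Fin d) K ^ 2 :=
      Ideal.mul_mem_right _ _ ha
    have h2 : (∑ i, C (a i) * X i) * X j ∈ idealOfVars (Fin d) K ^ 2 := by
      rw [pow_two]
      refine Ideal.mul_mem_mul ?_ hXj
      exact Ideal.sum_mem _ fun i _ => Ideal.mul_mem_left _ _ (Ideal.subset_span ⟨i, rfl⟩)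
    have h3 := Ideal.add_mem _ h1 h2
    convert h3 using 1
    have : ∑ i, C (if i = j then a₀ else 0) * (X i : MvPolynomial (Fin d) K) = C a₀ * X j := by
      rw [Finset.sum_eq_single j]
      · simp
      · intro i _ hij; simp [hij]
      · simp
    rw [this]
    simp only [map_zero]
    ring

variable (t : Fin d → O)

theorem idealOfVars_le_comap_aeval (ht : ∀ i, t i ∈ maximalIdeal O) :
    idealOfVars (Fin d) K ≤
      (maximalIdeal O).comap (aeval t : MvPolynomial (Fin d) K →ₐ[K] O).toRingHom := by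
  rw [idealOfVars, Ideal.span_le]
  rintro _ ⟨i, rfl⟩
  simpa using ht i

theorem aeval_mem_pow (ht : ∀ i, t i ∈ maximalIdeal O) {k : ℕ} {p : MvPolynomial (Fin d) K}
    (hp : p ∈ idealOfVars (Fin d) K ^ k) : aeval t p ∈ maximalIdeal O ^ k := by
  have h := (Ideal.pow_right_mono (idealOfVars_le_comap_aeval (K := K) t ht) k).trans
    (Ideal.le_comap_pow _ k)
  exact h hp

/-- If `φ p ∈ 𝔪` then `p ∈ (X)`. -/
theorem mem_idealOfVars_of_aeval_mem (ht : ∀ i, t i ∈ maximalIdeal O) {p : MvPolynomial (Fin d) K}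
    (hp : aeval t p ∈ maximalIdeal O) : p ∈ idealOfVars (Fin d) K := by
  have h1 := sub_C_constantCoeff_mem_idealOfVars p
  have h2 : aeval t (p - C (constantCoeff p)) ∈ maximalIdeal O := by
    have := aeval_mem_pow (K := K) t ht (k := 1) (by simpa using h1)
    simpa using this
  have h3 : algebraMap K O (constantCoeff p) ∈ maximalIdeal O := by
    have := Ideal.sub_mem _ hp h2
    simpa using this
  rw [algebraMap_mem_maximalIdeal_iff] at h3
  rw [mem_idealOfVars_iff_constantCoeff, h3]

/-- Elements of `𝔪` are, modulo `𝔪²`, `K`-linear combinations of the parameters. -/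
theorem exists_linear_sub_mem_sq (hres : Function.Surjective (algebraMap K (IsLocalRing.ResidueField O)))
    (hspan : Ideal.span (Set.range t) = maximalIdeal O) {b : O} (hb : b ∈ maximalIdeal O) :
    ∃ c : Fin d → K, b - ∑ i, algebraMap K O (c i) * t i ∈ maximalIdeal O ^ 2 := by
  rw [← hspan] at hb
  obtain ⟨o, rfl⟩ := (Ideal.mem_span_range_iff_exists_fun).mp hb
  choose c hc using fun i => exists_sub_algebraMap_mem_maximalIdeal hres (o i)
  refine ⟨c, ?_⟩
  rw [← Finset.sum_sub_distrib]
  refine Ideal.sum_mem _ fun i _ => ?_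
  rw [← sub_mul, pow_two]
  refine Ideal.mul_mem_mul (hc i) ?_
  rw [← hspan]
  exact Ideal.subset_span ⟨i, rfl⟩

/-- Graded surjectivity: `𝔪ᵏ ⊆ φ((X)ᵏ) + 𝔪ᵏ⁺¹`. -/
theorem exists_sub_aeval_mem_pow_succ
    (hres : Function.Surjective (algebraMap K (IsLocalRing.ResidueField O)))
    (ht : ∀ i, t i ∈ maximalIdeal O) (hspan : Ideal.span (Set.range t) = maximalIdeal O) (k : ℕ)
    {x : O} (hx : x ∈ maximalIdeal O ^ k) :
    ∃ p ∈ idealOfVars (Fin d) K ^ k, x - aeval t p ∈ maximalIdeal O ^ (k + 1) := by
  induction k generalizing x with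
  | zero =>
    obtain ⟨c, hc⟩ := exists_sub_algebraMap_mem_maximalIdeal hres x
    exact ⟨C c, by simp, by simpa using hc⟩
  | succ k ih =>
    rw [pow_succ] at hx
    refine Submodule.mul_induction_on hx ?_ ?_
    · intro a ha b hb
      obtain ⟨q, hq, hq'⟩ := ih ha
      obtain ⟨c, hc⟩ := exists_linear_sub_mem_sq t hres hspan hb
      refine ⟨q * ∑ i, C (c i) * X i, ?_, ?_⟩
      · rw [pow_succ]
        refine Ideal.mul_mem_mul hq ?_
        exact Ideal.sum_mem _ fun i _ => Ideal.mul_mem_left _ _ (Ideal.subset_span ⟨i, rfl⟩)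
      · have hφ : aeval t (∑ i, C (c i) * X i : MvPolynomial (Fin d) K) =
            ∑ i, algebraMap K O (c i) * t i := by
          simp
        have hsplit : a * b - aeval t (q * ∑ i, C (c i) * X i) =
            (a - aeval t q) * b + aeval t q * (b - ∑ i, algebraMap K O (c i) * t i) := by
          rw [map_mul, hφ]; ring
        rw [hsplit]
        refine Ideal.add_mem _ ?_ ?_
        · have : maximalIdeal O ^ (k + 1) * maximalIdeal O = maximalIdeal O ^ (k + 1 + 1) :=
            (pow_succ _ _).symm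
          rw [← this]
          exact Ideal.mul_mem_mul hq' hb
        · have : maximalIdeal O ^ k * maximalIdeal O ^ 2 = maximalIdeal O ^ (k + 1 + 1) := by
            rw [← pow_add]
          rw [← this]
          exact Ideal.mul_mem_mul (aeval_mem_pow t ht hq) hc
    · rintro x y ⟨p, hp, hp'⟩ ⟨q, hq, hq'⟩
      refine ⟨p + q, Ideal.add_mem _ hp hq, ?_⟩
      have : x + y - aeval t (p + q) = (x - aeval t p) + (y - aeval t q) := by
        rw [map_add]; ring
      rw [this]
      exact Ideal.add_mem _ hp' hq'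

/-- Surjectivity modulo every power of the maximal ideal. -/
theorem exists_sub_aeval_mem_pow
    (hres : Function.Surjective (algebraMap K (IsLocalRing.ResidueField O)))
    (ht : ∀ i, t i ∈ maximalIdeal O) (hspan : Ideal.span (Set.range t) = maximalIdeal O) (k : ℕ)
    (x : O) : ∃ p : MvPolynomial (Fin d) K, x - aeval t p ∈ maximalIdeal O ^ k := by
  induction k with
  | zero => exact ⟨0, by simp⟩
  | succ k ih =>
    obtain ⟨p, hp⟩ := ih
    obtain ⟨q, -, hq⟩ := exists_sub_aeval_mem_pow_succ t hres ht hspan k hp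
    refine ⟨p + q, ?_⟩
    have : x - aeval t (p + q) = x - aeval t p - aeval t q := by rw [map_add]; ring
    rw [this]
    exact hq

/-- Injectivity modulo squares: `φ p ∈ 𝔪² → p ∈ (X)²`. -/
theorem mem_sq_of_aeval_mem_sq (ht : ∀ i, t i ∈ maximalIdeal O)
    (hind : ∀ c : Fin d → K, ∑ i, algebraMap K O (c i) * t i ∈ maximalIdeal O ^ 2 → c = 0)
    {p : MvPolynomial (Fin d) K} (hp : aeval t p ∈ maximalIdeal O ^ 2) :
    p ∈ idealOfVars (Fin d) K ^ 2 := by
  obtain ⟨c₀, c, hc⟩ := exists_affine_sub_mem_sq p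
  have h1 := aeval_mem_pow t ht hc
  have hφ : aeval t (p - C c₀ - ∑ i, C (c i) * X i) =
      aeval t p - algebraMap K O c₀ - ∑ i, algebraMap K O (c i) * t i := by
    simp
  rw [hφ] at h1
  -- `c₀ = 0`
  have hlin : ∑ i, algebraMap K O (c i) * t i ∈ maximalIdeal O :=
    Ideal.sum_mem _ fun i _ => Ideal.mul_mem_left _ _ (ht i)
  have h2 : algebraMap K O c₀ ∈ maximalIdeal O := by
    have h3 := Ideal.pow_le_self two_ne_zero h1
    have h4 := Ideal.pow_le_self two_ne_zero hp
    have : algebraMap K O c₀ = aeval t p - ∑ i, algebraMap K O (c i) * t i -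
        (aeval t p - algebraMap K O c₀ - ∑ i, algebraMap K O (c i) * t i) := by ring
    rw [this]
    exact Ideal.sub_mem _ (Ideal.sub_mem _ h4 hlin) h3
  rw [algebraMap_mem_maximalIdeal_iff] at h2
  subst h2
  have h5 : ∑ i, algebraMap K O (c i) * t i ∈ maximalIdeal O ^ 2 := by
    have : ∑ i, algebraMap K O (c i) * t i = aeval t p -
        (aeval t p - algebraMap K O 0 - ∑ i, algebraMap K O (c i) * t i) := by
      simp
    rw [this]
    exact Ideal.sub_mem _ hp h1
  have hc0 := hind c h5
  subst hc0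
  simpa using hc

end Param

section Unipotent

open MvPolynomial

variable {K : Type*} [Field K] {d : ℕ} (n : Fin d → MvPolynomial (Fin d) K)

/-- `Θ - id` maps everything into `(X)` when `Θ X_i = X_i + n_i`, `n_i ∈ (X)²`. -/
theorem aeval_add_sub_self_mem (hn : ∀ i, n i ∈ idealOfVars (Fin d) K ^ 2)
    (p : MvPolynomial (Fin d) K) :
    aeval (fun i => X i + n i) p - p ∈ idealOfVars (Fin d) K := by
  induction p using MvPolynomial.induction_on with
  | C a => simp
  | add p q hp hq =>
    have := Ideal.add_mem _ hp hq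
    convert this using 1
    rw [map_add]; ring
  | mul_X p j hp =>
    have hnj : n j ∈ idealOfVars (Fin d) K := Ideal.pow_le_self two_ne_zero (hn j)
    have hXj : (X j : MvPolynomial (Fin d) K) ∈ idealOfVars (Fin d) K :=
      Ideal.subset_span ⟨j, rfl⟩
    have : aeval (fun i => X i + n i) (p * X j) - p * X j =
        (aeval (fun i => X i + n i) p - p) * X j + aeval (fun i => X i + n i) p * n j := by
      rw [map_mul, aeval_X]; ring
    rw [this]
    exact Ideal.add_mem _ (Ideal.mul_mem_left _ _ hXj) (Ideal.mul_mem_left _ _ hnj)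

theorem aeval_add_mem_idealOfVars (hn : ∀ i, n i ∈ idealOfVars (Fin d) K ^ 2)
    {p : MvPolynomial (Fin d) K} (hp : p ∈ idealOfVars (Fin d) K) :
    aeval (fun i => X i + n i) p ∈ idealOfVars (Fin d) K := by
  have := Ideal.add_mem _ (aeval_add_sub_self_mem n hn p) hp
  simpa using this

theorem aeval_add_mem_pow (hn : ∀ i, n i ∈ idealOfVars (Fin d) K ^ 2) {j : ℕ}
    {p : MvPolynomial (Fin d) K} (hp : p ∈ idealOfVars (Fin d) K ^ j) :
    aeval (fun i => X i + n i) p ∈ idealOfVars (Fin d) K ^ j := by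
  have hle : idealOfVars (Fin d) K ≤ (idealOfVars (Fin d) K).comap
      (aeval (fun i => X i + n i) : MvPolynomial (Fin d) K →ₐ[K] _).toRingHom :=
    fun q hq => aeval_add_mem_idealOfVars n hn hq
  exact ((Ideal.pow_right_mono hle j).trans (Ideal.le_comap_pow _ j)) hp

theorem aeval_add_sub_self_mem_sq (hn : ∀ i, n i ∈ idealOfVars (Fin d) K ^ 2)
    {p : MvPolynomial (Fin d) K} (hp : p ∈ idealOfVars (Fin d) K) :
    aeval (fun i => X i + n i) p - p ∈ idealOfVars (Fin d) K ^ 2 := by
  induction hp using Submodule.span_induction with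
  | mem x hx =>
    obtain ⟨i, rfl⟩ := hx
    simpa using hn i
  | zero => simp
  | add x y _ _ hx hy =>
    have := Ideal.add_mem _ hx hy
    convert this using 1
    rw [map_add]; ring
  | smul a x hxmem hx =>
    have : aeval (fun i => X i + n i) (a • x) - a • x =
        aeval (fun i => X i + n i) a * (aeval (fun i => X i + n i) x - x) +
          (aeval (fun i => X i + n i) a - a) * x := by
      rw [smul_eq_mul, map_mul]; ring
    rw [this]
    refine Ideal.add_mem _ (Ideal.mul_mem_left _ _ hx) ?_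
    rw [pow_two]
    exact Ideal.mul_mem_mul (aeval_add_sub_self_mem n hn a) hxmem

theorem aeval_add_sub_self_mem_pow_succ (hn : ∀ i, n i ∈ idealOfVars (Fin d) K ^ 2) (j : ℕ)
    {p : MvPolynomial (Fin d) K} (hp : p ∈ idealOfVars (Fin d) K ^ j) :
    aeval (fun i => X i + n i) p - p ∈ idealOfVars (Fin d) K ^ (j + 1) := by
  induction j generalizing p with
  | zero => simpa using aeval_add_sub_self_mem n hn p
  | succ j ih =>
    rw [pow_succ] at hp
    refine Submodule.mul_induction_on hp ?_ ?_
    · intro a ha b hb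
      have : aeval (fun i => X i + n i) (a * b) - a * b =
          aeval (fun i => X i + n i) a * (aeval (fun i => X i + n i) b - b) +
            (aeval (fun i => X i + n i) a - a) * b := by
        rw [map_mul]; ring
      rw [this]
      refine Ideal.add_mem _ ?_ ?_
      · have h : idealOfVars (Fin d) K ^ j * idealOfVars (Fin d) K ^ 2 =
            idealOfVars (Fin d) K ^ (j + 1 + 1) := by rw [← pow_add]
        rw [← h]
        exact Ideal.mul_mem_mul (aeval_add_mem_pow n hn ha) (aeval_add_sub_self_mem_sq n hn hb)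
      · have h : idealOfVars (Fin d) K ^ (j + 1) * idealOfVars (Fin d) K =
            idealOfVars (Fin d) K ^ (j + 1 + 1) := (pow_succ _ _).symm
        rw [← h]
        exact Ideal.mul_mem_mul (ih ha) hb
    · intro x y hx hy
      have := Ideal.add_mem _ hx hy
      convert this using 1
      rw [map_add]; ring

/-- A "unipotent" substitution `X_i ↦ X_i + n_i`, `n_i ∈ (X)²`, reflects the `(X)`-adic
filtration. -/
theorem mem_pow_of_aeval_add_mem_pow (hn : ∀ i, n i ∈ idealOfVars (Fin d) K ^ 2) (k : ℕ)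
    {p : MvPolynomial (Fin d) K} (hp : aeval (fun i => X i + n i) p ∈ idealOfVars (Fin d) K ^ k) :
    p ∈ idealOfVars (Fin d) K ^ k := by
  have key : ∀ j, j ≤ k → p ∈ idealOfVars (Fin d) K ^ j := by
    intro j
    induction j with
    | zero => intro _; simp
    | succ j ih =>
      intro hj
      have h1 := aeval_add_sub_self_mem_pow_succ n hn j (ih (by omega))
      have h2 : aeval (fun i => X i + n i) p ∈ idealOfVars (Fin d) K ^ (j + 1) :=
        Ideal.pow_le_pow_right hj hp
      have := Ideal.sub_mem _ h2 h1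
      simpa using this
  exact key k le_rfl

end Unipotent

section Lift

open IsLocalRing MvPolynomial

variable {K O : Type*} [Field K] [CommRing O] [Algebra K O] [IsLocalRing O] {d : ℕ}
  (t : Fin d → O)

/-- **Injectivity modulo every power**, from formal smoothness: `φ p ∈ 𝔪ᵏ → p ∈ (X)ᵏ`. -/
theorem mem_pow_of_aeval_mem_pow [Algebra.FormallySmooth K O]
    (hres : Function.Surjective (algebraMap K (IsLocalRing.ResidueField O)))
    (ht : ∀ i, t i ∈ maximalIdeal O) (hspan : Ideal.span (Set.range t) = maximalIdeal O)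
    (hind : ∀ c : Fin d → K, ∑ i, algebraMap K O (c i) * t i ∈ maximalIdeal O ^ 2 → c = 0)
    (k : ℕ) {p : MvPolynomial (Fin d) K} (hp : aeval t p ∈ maximalIdeal O ^ k) :
    p ∈ idealOfVars (Fin d) K ^ k := by
  rcases k with _ | _ | k
  · simp
  · rw [pow_one] at hp ⊢
    exact mem_idealOfVars_of_aeval_mem t ht hp
  -- now the exponent is `k + 2`
  set 𝔫 := idealOfVars (Fin d) K with h𝔫
  set 𝔪 := maximalIdeal O with h𝔪
  -- the map `g : P ⧸ 𝔫^(k+2) → O ⧸ 𝔪²`
  have hg0 : ∀ a : MvPolynomial (Fin d) K, a ∈ 𝔫 ^ (k + 2) →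
      ((Ideal.Quotient.mkₐ K (𝔪 ^ 2)).comp (aeval t : MvPolynomial (Fin d) K →ₐ[K] O)) a = 0 := by
    intro a ha
    have h1 : aeval t a ∈ 𝔪 ^ (k + 2) := aeval_mem_pow t ht ha
    have h2 : aeval t a ∈ 𝔪 ^ 2 := Ideal.pow_le_pow_right (by omega) h1
    rw [AlgHom.comp_apply, Ideal.Quotient.mkₐ_eq_mk, Ideal.Quotient.eq_zero_iff_mem]
    exact h2
  let g : (MvPolynomial (Fin d) K ⧸ 𝔫 ^ (k + 2)) →ₐ[K] (O ⧸ 𝔪 ^ 2) :=
    Ideal.Quotient.liftₐ (𝔫 ^ (k + 2)) _ hg0
  have hg_mk : ∀ q : MvPolynomial (Fin d) K,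
      g (Ideal.Quotient.mk _ q) = Ideal.Quotient.mk _ (aeval t q) := fun q => rfl
  have hg_surj : Function.Surjective g := by
    intro y
    obtain ⟨x, rfl⟩ := Ideal.Quotient.mk_surjective y
    obtain ⟨q, hq⟩ := exists_sub_aeval_mem_pow t hres ht hspan 2 x
    refine ⟨Ideal.Quotient.mk _ q, ?_⟩
    rw [hg_mk, eq_comm, Ideal.Quotient.eq]
    exact hq
  have hker : RingHom.ker g.toRingHom ≤ 𝔫.map (Ideal.Quotient.mk (𝔫 ^ (k + 2))) := by
    intro y hy
    obtain ⟨q, rfl⟩ := Ideal.Quotient.mk_surjective y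
    rw [RingHom.mem_ker] at hy
    have hy' : g (Ideal.Quotient.mk _ q) = 0 := hy
    rw [hg_mk, Ideal.Quotient.eq_zero_iff_mem] at hy'
    exact Ideal.mem_map_of_mem _
      (mem_idealOfVars_of_aeval_mem t ht (Ideal.pow_le_self two_ne_zero hy'))
  have hmapbot : (𝔫.map (Ideal.Quotient.mk (𝔫 ^ (k + 2)))) ^ (k + 2) = ⊥ := by
    rw [← Ideal.map_pow, Ideal.map_quotient_self]
  have hnil : IsNilpotent (RingHom.ker g.toRingHom) := by
    refine ⟨k + 2, ?_⟩
    rw [Submodule.zero_eq_bot, ← le_bot_iff, ← hmapbot]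
    exact Ideal.pow_right_mono hker _
  -- lift `O → O ⧸ 𝔪²` through `g`
  let σ : O →ₐ[K] (MvPolynomial (Fin d) K ⧸ 𝔫 ^ (k + 2)) :=
    Algebra.FormallySmooth.liftOfSurjective (Ideal.Quotient.mkₐ K (𝔪 ^ 2)) g hg_surj hnil
  have hσ : ∀ x : O, g (σ x) = Ideal.Quotient.mk _ x := fun x =>
    AlgHom.congr_fun (Algebra.FormallySmooth.comp_liftOfSurjective
      (Ideal.Quotient.mkₐ K (𝔪 ^ 2)) g hg_surj hnil) x
  -- representatives of `σ (t i)`
  choose r hr using fun i => Ideal.Quotient.mk_surjective (σ (t i))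
  have hn : ∀ i, r i - X i ∈ 𝔫 ^ 2 := by
    intro i
    apply mem_sq_of_aeval_mem_sq t ht hind
    have h1 := hσ (t i)
    rw [← hr i, hg_mk, Ideal.Quotient.eq] at h1
    simpa using h1
  have hΘ : ∀ q : MvPolynomial (Fin d) K,
      Ideal.Quotient.mk (𝔫 ^ (k + 2)) (aeval (fun i => X i + (r i - X i)) q) = σ (aeval t q) := by
    intro q
    have : (Ideal.Quotient.mkₐ K (𝔫 ^ (k + 2))).comp
        (aeval (fun i => X i + (r i - X i)) : MvPolynomial (Fin d) K →ₐ[K] _) =
        σ.comp (aeval t : MvPolynomial (Fin d) K →ₐ[K] O) := by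
      apply MvPolynomial.algHom_ext
      intro i
      simp [hr i]
    exact AlgHom.congr_fun this q
  -- `σ 𝔪 ⊆ 𝔫 / 𝔫^(k+2)`
  have hσ𝔪 : 𝔪 ≤ (𝔫.map (Ideal.Quotient.mk (𝔫 ^ (k + 2)))).comap (σ : O →+* _) := by
    intro x hx
    obtain ⟨q, hq⟩ := Ideal.Quotient.mk_surjective (σ x)
    have h1 := hσ x
    rw [← hq, hg_mk, Ideal.Quotient.eq] at h1
    have h2 : aeval t q ∈ 𝔪 := by
      have := Ideal.add_mem _ (Ideal.pow_le_self two_ne_zero h1) hx
      simpa using this
    rw [Ideal.mem_comap]
    change σ x ∈ _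
    rw [← hq]
    exact Ideal.mem_map_of_mem _ (mem_idealOfVars_of_aeval_mem t ht h2)
  have hσpow : σ (aeval t p) = 0 := by
    have h1 := ((Ideal.pow_right_mono hσ𝔪 (k + 2)).trans (Ideal.le_comap_pow _ _)) hp
    rw [Ideal.mem_comap, hmapbot] at h1
    exact h1
  rw [← hΘ, Ideal.Quotient.eq_zero_iff_mem] at hσpow
  exact mem_pow_of_aeval_add_mem_pow _ hn _ hσpow

end Lift

section Main

open IsLocalRing MvPolynomial

variable (K O : Type*) [Field K] [CommRing O] [Algebra K O] [IsLocalRing O] [IsNoetherianRing O]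
  [Algebra.FormallySmooth K O]

/-- **(7b)** The completion of a noetherian local `K`-algebra `O`, formally smooth over `K` and with
residue field `K`, is a power series ring `K⟦X₁, …, X_d⟧`. -/
theorem exists_adicCompletion_ringEquiv_mvPowerSeries
    (hres : Function.Surjective (algebraMap K (IsLocalRing.ResidueField O))) :
    ∃ d : ℕ, Nonempty (AdicCompletion (maximalIdeal O) O ≃+* MvPowerSeries (Fin d) K) := by
  obtain ⟨d, t, ht, hspan, hind⟩ := exists_parameters (K := K) (O := O)
  refine ⟨d, ⟨?_⟩⟩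
  let φ : MvPolynomial (Fin d) K →+* O := (aeval t : MvPolynomial (Fin d) K →ₐ[K] O).toRingHom
  have hφ : idealOfVars (Fin d) K ≤ (maximalIdeal O).comap φ :=
    idealOfVars_le_comap_aeval (K := K) t ht
  have hφ_apply : ∀ p, φ p = aeval t p := fun p => rfl
  have hbij : ∀ n, Function.Bijective (quotPowMap φ hφ n) := by
    intro n
    constructor
    · rw [injective_iff_map_eq_zero]
      intro x hx
      obtain ⟨p, rfl⟩ := Ideal.Quotient.mk_surjective x
      rw [quotPowMap_mk, Ideal.Quotient.eq_zero_iff_mem, hφ_apply] at hx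
      rw [Ideal.Quotient.eq_zero_iff_mem]
      exact mem_pow_of_aeval_mem_pow t hres ht hspan hind n hx
    · intro y
      obtain ⟨x, rfl⟩ := Ideal.Quotient.mk_surjective y
      obtain ⟨p, hp⟩ := exists_sub_aeval_mem_pow t hres ht hspan n x
      refine ⟨Ideal.Quotient.mk _ p, ?_⟩
      rw [quotPowMap_mk, eq_comm, Ideal.Quotient.eq, hφ_apply]
      exact hp
  exact (adicCompletionRingEquivOfBijective φ hφ hbij).symm.trans
    (MvPowerSeries.toAdicCompletionAlgEquiv (Fin d) K).symm.toRingEquiv

/-- **(7b)+(7c)**: if all power series rings `K⟦X₁, …, X_d⟧` are UFDs (7a), then every noetherian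
local `K`-algebra, formally smooth over `K` with residue field `K`, is a UFD. -/
theorem ufm_of_formallySmooth_of_residueField
    (hUFD : ∀ d : ℕ, UniqueFactorizationMonoid (MvPowerSeries (Fin d) K))
    (hres : Function.Surjective (algebraMap K (IsLocalRing.ResidueField O))) :
    IsDomain O ∧ UniqueFactorizationMonoid O := by
  obtain ⟨d, ⟨e⟩⟩ := exists_adicCompletion_ringEquiv_mvPowerSeries K O hres
  have := hUFD d
  have hdom : IsDomain (MvPowerSeries (Fin d) K) := NoZeroDivisors.to_isDomain _
  exact ufm_of_adicCompletion_ringEquiv O e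

end Main

end Fermat.Agent.AV
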