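import Mathlib
import Fermat.Agent.AV.AV7_helper7_Completion

/-!
# AV7 (7a): power series rings over a field are unique factorisation domains (helper7)
-/

set_option linter.unusedSectionVars false

namespace Fermat.Agent.AV

open IsLocalRing

section Alpha

open PowerSeries

variable {A : Type*} [CommRing A] [IsDomain A] [IsLocalRing A]

/-- A polynomial factor `a` of a distinguished polynomial `p = a * b` which is a unit as a power
series is a unit as a polynomial. -/
theorem isUnit_of_isUnit_coe_of_mul_eq_distinguished {p a b : Polynomial A}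
    (hp : p.IsDistinguishedAt (maximalIdeal A)) (hab : p = a * b)
    (ha : IsUnit (a : A⟦X⟧)) : IsUnit a := by
  classical
  have ha0 : IsUnit (a.coeff 0) := by
    have := (PowerSeries.isUnit_iff_constantCoeff).mp ha
    simpa using this
  -- leading coefficient of `a` is a unit
  have hlead : a.leadingCoeff * b.leadingCoeff = 1 := by
    rw [← Polynomial.leadingCoeff_mul, ← hab]
    exact hp.monic
  have hleadu : IsUnit a.leadingCoeff := IsUnit.of_mul_eq_one _ hlead
  have hres_lead : residue A a.leadingCoeff ≠ 0 := by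
    intro h
    exact (mem_maximalIdeal _).mp ((residue_eq_zero_iff _).mp h) hleadu
  have hdeg : (a.map (residue A)).natDegree = a.natDegree :=
    Polynomial.natDegree_map_of_leadingCoeff_ne_zero _ hres_lead
  -- `ā` divides `X ^ n`
  have hmap : a.map (residue A) * b.map (residue A) = Polynomial.X ^ p.natDegree := by
    rw [← Polynomial.map_mul, ← hab]
    exact hp.map_eq_X_pow
  have hdvd : a.map (residue A) ∣ Polynomial.X ^ p.natDegree := Dvd.intro _ hmap
  obtain ⟨j, -, hj⟩ := (dvd_prime_pow Polynomial.prime_X _).mp hdvd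
  have hc0 : (a.map (residue A)).coeff 0 ≠ 0 := by
    rw [Polynomial.coeff_map]
    intro h
    exact (mem_maximalIdeal _).mp ((residue_eq_zero_iff _).mp h) ha0
  have hj0 : j = 0 := by
    by_contra hne
    obtain ⟨u, hu⟩ := hj.symm
    apply hc0
    rw [← hu, Polynomial.coeff_zero_eq_eval_zero, Polynomial.eval_mul, Polynomial.eval_pow,
      Polynomial.eval_X, zero_pow hne, zero_mul]
  rw [hj0, pow_zero] at hj
  have hunit : IsUnit (a.map (residue A)) := hj.symm.isUnit isUnit_one
  have hd0 : a.natDegree = 0 := by
    rw [← hdeg]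
    exact Polynomial.natDegree_eq_zero_of_isUnit hunit
  rw [Polynomial.eq_C_of_natDegree_eq_zero hd0]
  exact Polynomial.isUnit_C.mpr ha0

/-- **(α)** Over a complete local UFD `A`, an irreducible power series `g ∈ A⟦X⟧` which is regular in
`X` (nonzero modulo the maximal ideal of `A`) is prime. -/
theorem prime_of_irreducible_of_map_residue_ne_zero [IsAdicComplete (maximalIdeal A) A]
    [UniqueFactorizationMonoid A] {g : A⟦X⟧} (hirr : Irreducible g)
    (hg : g.map (residue A) ≠ 0) : Prime g := by
  obtain ⟨p, u, H⟩ := g.exists_isWeierstrassFactorization hg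
  have hassoc : Associated (p : A⟦X⟧) g := ⟨H.isUnit.unit, H.eq_mul.symm⟩
  have hp_irr : Irreducible (p : A⟦X⟧) := hassoc.symm.irreducible hirr
  have hp_irr' : Irreducible p := by
    constructor
    · intro hu
      exact hp_irr.not_isUnit (hu.map (Polynomial.coeToPowerSeries.ringHom))
    · intro a b hab
      have hcoe : (p : A⟦X⟧) = (a : A⟦X⟧) * (b : A⟦X⟧) := by rw [hab, Polynomial.coe_mul]
      rcases hp_irr.isUnit_or_isUnit hcoe with h | h
      · exact Or.inl (isUnit_of_isUnit_coe_of_mul_eq_distinguished H.isDistinguishedAt hab h)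
      · exact Or.inr (isUnit_of_isUnit_coe_of_mul_eq_distinguished H.isDistinguishedAt
          (by rw [hab, mul_comm]) h)
  have hp_prime' : Prime p := UniqueFactorizationMonoid.irreducible_iff_prime.mp hp_irr'
  have hdom : IsDomain (Polynomial A ⧸ Ideal.span {p}) := by
    rw [Ideal.Quotient.isDomain_iff_prime]
    exact (Ideal.span_singleton_prime hp_prime'.ne_zero).mpr hp_prime'
  have hdom2 : IsDomain (A⟦X⟧ ⧸ Ideal.span {(p : A⟦X⟧)}) :=
    H.isDistinguishedAt.algEquivQuotient.symm.toMulEquiv.isDomain _
  have hprime_p : Prime (p : A⟦X⟧) := by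
    rw [← Ideal.span_singleton_prime hp_irr.ne_zero, ← Ideal.Quotient.isDomain_iff_prime]
    exact hdom2
  exact hassoc.prime hprime_p

end Alpha

section Structure

open MvPowerSeries

variable (K : Type*) [Field K] (σ : Type*) [Finite σ]

theorem idealOfVars_isMaximal : (MvPolynomial.idealOfVars σ K).IsMaximal := by
  have : MvPolynomial.idealOfVars σ K =
      RingHom.ker (MvPolynomial.constantCoeff : MvPolynomial σ K →+* K) := by
    ext p
    rw [mem_idealOfVars_iff_constantCoeff, RingHom.mem_ker]
  rw [this]
  exact RingHom.ker_isMaximal_of_surjective _ fun c => ⟨MvPolynomial.C c, by simp⟩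

/-- The maximal ideal of `K⟦X_s : s ∈ σ⟧` is generated by the variables. -/
theorem maximalIdeal_mvPowerSeries :
    maximalIdeal (MvPowerSeries σ K) =
      Ideal.span (Set.range (X : σ → MvPowerSeries σ K)) := by
  symm
  apply IsLocalRing.eq_maximalIdeal
  have hmap : Ideal.map (toAdicCompletionAlgEquiv σ K).toRingEquiv
      (Ideal.span (Set.range (X : σ → MvPowerSeries σ K))) =
      (MvPolynomial.idealOfVars σ K).map (algebraMap (MvPolynomial σ K)
        (AdicCompletion (MvPolynomial.idealOfVars σ K) (MvPolynomial σ K))) := by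
    simp_rw [Ideal.map_span, ← Set.range_comp]
    congr 2; ext1
    simp [AdicCompletion.algebraMap_apply, ← MvPolynomial.coe_X, toAdicCompletion_coe]
  have := idealOfVars_isMaximal K σ
  have hmax := AdicCompletion.isMaximal_map_of_le (MvPolynomial.idealOfVars σ K)
    (MvPolynomial.idealOfVars σ K) le_rfl (MvPolynomial.idealOfVars_fg σ K)
  rw [← hmap] at hmax
  have hcomap := Ideal.comap_map_of_bijective (toAdicCompletionAlgEquiv σ K).toRingEquiv
    (toAdicCompletionAlgEquiv σ K).toRingEquiv.bijective
    (I := Ideal.span (Set.range (X : σ → MvPowerSeries σ K)))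
  rw [← hcomap]
  exact Ideal.comap_isMaximal_of_equiv _

instance isAdicComplete_maximalIdeal_mvPowerSeries :
    IsAdicComplete (maximalIdeal (MvPowerSeries σ K)) (MvPowerSeries σ K) := by
  rw [maximalIdeal_mvPowerSeries]
  infer_instance

end Structure

section Shear

open MvPowerSeries

variable {K : Type*} [Field K] {d : ℕ}

/-- The linear substitution `X₀ ↦ u X₀`, `X_s ↦ X_s + w_s X₀` (`s ≠ 0`). -/
noncomputable def shear (u : K) (w : Fin (d + 1) → K) (s : Fin (d + 1)) :
    MvPowerSeries (Fin (d + 1)) K :=
  if s = 0 then C u * X 0 else X s + C (w s) * X 0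

theorem shear_zero (u : K) (w : Fin (d + 1) → K) : shear u w 0 = C u * X 0 := if_pos rfl

theorem shear_of_ne (u : K) (w : Fin (d + 1) → K) {s : Fin (d + 1)} (h : s ≠ 0) :
    shear u w s = X s + C (w s) * X 0 := if_neg h

theorem constantCoeff_shear (u : K) (w : Fin (d + 1) → K) (s : Fin (d + 1)) :
    constantCoeff (shear u w s) = 0 := by
  by_cases h : s = 0
  · subst h; simp [shear_zero]
  · simp [shear_of_ne u w h]

theorem hasSubst_shear (u : K) (w : Fin (d + 1) → K) : HasSubst (shear u w) :=
  hasSubst_of_constantCoeff_zero (constantCoeff_shear u w)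

theorem shear_one_zero : shear (1 : K) (0 : Fin (d + 1) → K) = X := by
  funext s
  by_cases h : s = 0
  · subst h; simp [shear_zero]
  · simp [shear_of_ne _ _ h]

theorem substAlgHom_C_eq {σ τ : Type*} {a : σ → MvPowerSeries τ K} (ha : HasSubst a) (r : K) :
    substAlgHom (R := K) ha (C r) = C r := by
  rw [c_eq_algebraMap, AlgHom.commutes, ← c_eq_algebraMap]

theorem subst_shear_shear (u u' : K) (w w' : Fin (d + 1) → K) (s : Fin (d + 1)) :
    subst (shear u w) (shear u' w' s) = shear (u * u') (fun s => w s + w' s * u) s := by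
  have ha := hasSubst_shear u w
  rw [← substAlgHom_apply ha]
  by_cases h : s = 0
  · subst h
    rw [shear_zero, shear_zero, map_mul, substAlgHom_C_eq, substAlgHom_X, shear_zero, map_mul]
    ring
  · rw [shear_of_ne _ _ h, shear_of_ne _ _ h, map_add, map_mul, substAlgHom_C_eq, substAlgHom_X,
      substAlgHom_X, shear_of_ne _ _ h, shear_zero, map_add, map_mul]
    ring

theorem subst_shear_subst_shear (u u' : K) (w w' : Fin (d + 1) → K)
    (f : MvPowerSeries (Fin (d + 1)) K) :
    subst (shear u w) (subst (shear u' w') f) =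
      subst (shear (u * u') (fun s => w s + w' s * u)) f := by
  rw [subst_comp_subst_apply (hasSubst_shear u' w') (hasSubst_shear u w)]
  congr 1
  funext s
  exact subst_shear_shear u u' w w' s

/-- The shear substitution as a ring automorphism of `K⟦X₀, …, X_d⟧`. -/
noncomputable def shearEquiv (u : K) (hu : u ≠ 0) (w : Fin (d + 1) → K) :
    MvPowerSeries (Fin (d + 1)) K ≃+* MvPowerSeries (Fin (d + 1)) K :=
  RingEquiv.ofRingHom
    (substAlgHom (R := K) (hasSubst_shear u w)).toRingHom
    (substAlgHom (R := K) (hasSubst_shear u⁻¹ (fun s => -w s * u⁻¹))).toRingHom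
    (by
      refine RingHom.ext fun f => ?_
      change substAlgHom (R := K) (hasSubst_shear u w)
        (substAlgHom (R := K) (hasSubst_shear u⁻¹ (fun s => -w s * u⁻¹)) f) = f
      rw [substAlgHom_apply, substAlgHom_apply, subst_shear_subst_shear]
      have h1 : u * u⁻¹ = 1 := mul_inv_cancel₀ hu
      have h2 : (fun s => w s + -w s * u⁻¹ * u) = (0 : Fin (d + 1) → K) := by
        funext s
        simp only [Pi.zero_apply]
        field_simp
        ring
      rw [h1, h2, shear_one_zero, subst_self]
      rfl)
    (by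
      refine RingHom.ext fun f => ?_
      change substAlgHom (R := K) (hasSubst_shear u⁻¹ (fun s => -w s * u⁻¹))
        (substAlgHom (R := K) (hasSubst_shear u w) f) = f
      rw [substAlgHom_apply, substAlgHom_apply, subst_shear_subst_shear]
      have h1 : u⁻¹ * u = 1 := inv_mul_cancel₀ hu
      have h2 : (fun s => -w s * u⁻¹ + w s * u⁻¹) = (0 : Fin (d + 1) → K) := by
        funext s
        simp only [Pi.zero_apply]
        ring
      rw [h1, h2, shear_one_zero, subst_self]
      rfl)

theorem shearEquiv_apply (u : K) (hu : u ≠ 0) (w : Fin (d + 1) → K)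
    (f : MvPowerSeries (Fin (d + 1)) K) : shearEquiv u hu w f = subst (shear u w) f := by
  change substAlgHom (R := K) (hasSubst_shear u w) f = _
  rw [substAlgHom_apply]

end Shear

section ShearPoly

open MvPolynomial

variable {K : Type*} [Field K] {d : ℕ}

/-- The polynomial version of `shear`. -/
noncomputable def shearPoly (u : K) (w : Fin (d + 1) → K) (s : Fin (d + 1)) :
    MvPolynomial (Fin (d + 1)) K :=
  if s = 0 then C u * X 0 else X s + C (w s) * X 0

theorem shearPoly_zero (u : K) (w : Fin (d + 1) → K) : shearPoly u w 0 = C u * X 0 := if_pos rfl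

theorem shearPoly_of_ne (u : K) (w : Fin (d + 1) → K) {s : Fin (d + 1)} (h : s ≠ 0) :
    shearPoly u w s = X s + C (w s) * X 0 := if_neg h

theorem isHomogeneous_shearPoly (u : K) (w : Fin (d + 1) → K) (s : Fin (d + 1)) :
    (shearPoly u w s).IsHomogeneous 1 := by
  by_cases h : s = 0
  · subst h
    rw [shearPoly_zero]
    exact isHomogeneous_C_mul_X u 0
  · rw [shearPoly_of_ne u w h]
    exact (isHomogeneous_X K s).add (isHomogeneous_C_mul_X (w s) 0)

theorem coe_shearPoly (u : K) (w : Fin (d + 1) → K) (s : Fin (d + 1)) :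
    ((shearPoly u w s : MvPolynomial (Fin (d + 1)) K) : MvPowerSeries (Fin (d + 1)) K) =
      shear u w s := by
  by_cases h : s = 0
  · subst h
    simp [shearPoly_zero, shear_zero]
  · simp [shearPoly_of_ne u w h, shear_of_ne u w h]

/-- Evaluating the shear at the point `e₀ = (1, 0, …, 0)`. -/
theorem eval_single_shearPoly (u : K) (w : Fin (d + 1) → K) (hw : w 0 = u) (s : Fin (d + 1)) :
    eval (Pi.single (0 : Fin (d + 1)) (1 : K)) (shearPoly u w s) = w s := by
  by_cases h : s = 0
  · subst h
    simp [shearPoly_zero, hw]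
  · simp [shearPoly_of_ne u w h, h]

theorem eval_single_aeval_shearPoly (u : K) (w : Fin (d + 1) → K) (hw : w 0 = u)
    (p : MvPolynomial (Fin (d + 1)) K) :
    eval (Pi.single (0 : Fin (d + 1)) (1 : K)) (aeval (shearPoly u w) p) = eval w p := by
  have h := MvPolynomial.comp_aeval (R := K) (shearPoly u w)
    (MvPolynomial.aeval (R := K) (Pi.single (0 : Fin (d + 1)) (1 : K)))
  have h2 := AlgHom.congr_fun h p
  have h3 : eval (Pi.single (0 : Fin (d + 1)) (1 : K)) (aeval (shearPoly u w) p) =
      eval (fun i => eval (Pi.single (0 : Fin (d + 1)) (1 : K)) (shearPoly u w i)) p := h2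
  rw [h3]
  congr 2
  funext s
  exact eval_single_shearPoly u w hw s

/-- A monomial exponent of degree `n` other than `n·e₀` involves a variable other than `X₀`. -/
theorem exists_ne_zero_of_degree_eq {n : ℕ} {e : Fin (d + 1) →₀ ℕ} (hdeg : Finsupp.degree e = n)
    (hne : e ≠ Finsupp.single 0 n) : ∃ i, i ≠ 0 ∧ e i ≠ 0 := by
  by_contra hcon
  push Not at hcon
  apply hne
  ext i
  by_cases hi : i = 0
  · subst hi
    have : Finsupp.degree e = e 0 := by
      rw [Finsupp.degree_eq_sum]
      exact Fintype.sum_eq_single 0 fun i hi => hcon i hi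
    rw [Finsupp.single_eq_same, ← hdeg, this]
  · rw [Finsupp.single_eq_of_ne hi, hcon i hi]

theorem prod_single_pow_eq_zero {n : ℕ} {e : Fin (d + 1) →₀ ℕ} (hdeg : Finsupp.degree e = n)
    (hne : e ≠ Finsupp.single 0 n) :
    ∏ j ∈ e.support, ((Pi.single (0 : Fin (d + 1)) (1 : K) : Fin (d + 1) → K) j) ^ e j = 0 := by
  obtain ⟨i, hi0, hei⟩ := exists_ne_zero_of_degree_eq hdeg hne
  refine Finset.prod_eq_zero (Finsupp.mem_support_iff.mpr hei) ?_
  simp [hi0, hei]

/-- For a homogeneous polynomial `q` of degree `n`, the coefficient of `X₀ⁿ` is `q(1, 0, …, 0)`. -/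
theorem coeff_single_eq_eval_single {n : ℕ} {q : MvPolynomial (Fin (d + 1)) K}
    (hq : q.IsHomogeneous n) :
    coeff (Finsupp.single 0 n) q = eval (Pi.single (0 : Fin (d + 1)) (1 : K)) q := by
  classical
  rw [MvPolynomial.eval_eq]
  have hdeg : ∀ e ∈ q.support, Finsupp.degree e = n := by
    intro e he
    rw [Finsupp.degree_eq_weight_one]
    exact hq (mem_support_iff.mp he)
  by_cases hmem : Finsupp.single 0 n ∈ q.support
  · rw [Finset.sum_eq_single_of_mem _ hmem]
    · have : ∏ i ∈ (Finsupp.single (0 : Fin (d + 1)) n).support,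
          ((Pi.single (0 : Fin (d + 1)) (1 : K) : Fin (d + 1) → K) i) ^
            (Finsupp.single (0 : Fin (d + 1)) n) i = 1 := by
        refine Finset.prod_eq_one fun i hi => ?_
        have hi0 : i = 0 := by
          by_contra hne
          simp [Ne.symm hne] at hi
        subst hi0
        simp
      rw [this, mul_one]
    · intro e he hne
      rw [prod_single_pow_eq_zero (hdeg e he) hne, mul_zero]
  · rw [notMem_support_iff.mp hmem]
    symm
    refine Finset.sum_eq_zero fun e he => ?_
    have hne : e ≠ Finsupp.single 0 n := fun h => hmem (h ▸ he)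
    rw [prod_single_pow_eq_zero (hdeg e he) hne, mul_zero]

/-- A nonzero polynomial over an infinite field is nonzero at some point with nonzero first
coordinate. -/
theorem exists_eval_ne_zero_of_ne_zero [Infinite K] {p : MvPolynomial (Fin (d + 1)) K}
    (hp : p ≠ 0) : ∃ y : Fin (d + 1) → K, y 0 ≠ 0 ∧ eval y p ≠ 0 := by
  have hXp : X 0 * p ≠ 0 := mul_ne_zero (X_ne_zero 0) hp
  by_contra hcon
  push Not at hcon
  apply hXp
  apply MvPolynomial.funext
  intro y
  rw [map_mul, eval_X, map_zero]
  by_cases hy : y 0 = 0
  · rw [hy, zero_mul]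
  · rw [hcon y hy, mul_zero]

end ShearPoly

section Beta

open MvPowerSeries

variable {K : Type*} [Field K] {d : ℕ}

/-- Low-degree coefficients of a substitution only depend on the truncation. -/
theorem coeff_subst_shear_eq (u : K) (w : Fin (d + 1) → K) (f : MvPowerSeries (Fin (d + 1)) K)
    {k : ℕ} {e : Fin (d + 1) →₀ ℕ} (he : Finsupp.degree e < k) :
    coeff e (subst (shear u w) f) =
      MvPolynomial.coeff e (MvPolynomial.aeval (shearPoly u w) (truncTotal k f)) := by
  rw [← coeff_truncTotal _ he,
    truncTotal_subst_eq_truncTotal_truncTotal_subst (constantCoeff_shear u w),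
    coeff_truncTotal _ he, subst_coe]
  have h1 : (MvPolynomial.aeval (shear u w)) (truncTotal k f) =
      ((MvPolynomial.aeval (shearPoly u w) (truncTotal k f) : MvPolynomial (Fin (d + 1)) K) :
        MvPowerSeries (Fin (d + 1)) K) := by
    have h := MvPolynomial.comp_aeval (R := K) (shearPoly u w)
      (MvPolynomial.coeToMvPowerSeries.algHom (σ := Fin (d + 1)) (R := K) K)
    have h2 := AlgHom.congr_fun h (truncTotal k f)
    simp only [AlgHom.comp_apply, MvPolynomial.coeToMvPowerSeries.algHom_apply,
      Algebra.algebraMap_self, MvPowerSeries.map_id, RingHom.id_apply] at h2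
    rw [h2]
    congr 2
    funext s
    exact (coe_shearPoly u w s).symm
  rw [h1, MvPolynomial.coeff_coe]

/-- The lowest homogeneous part of a nonzero power series. -/
theorem truncTotal_order_isHomogeneous {f : MvPowerSeries (Fin (d + 1)) K} (hf : f ≠ 0) :
    (truncTotal (f.order.toNat + 1) f).IsHomogeneous f.order.toNat ∧
      truncTotal (f.order.toNat + 1) f ≠ 0 := by
  have hfin := (ne_zero_iff_order_finite).mp hf
  constructor
  · intro e he
    rw [coeff_truncTotal_eq_ite] at he
    split_ifs at he with hlt
    · have h1 : f.order ≤ Finsupp.degree e := order_le he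
      rw [← hfin] at h1
      have h2 : f.order.toNat ≤ Finsupp.degree e := by exact_mod_cast h1
      have h3 : Finsupp.degree e = f.order.toNat := by omega
      rw [Finsupp.degree_eq_weight_one] at h3
      exact h3
    · exact absurd rfl he
  · obtain ⟨e, he, hdeg⟩ := exists_coeff_ne_zero_and_order hfin
    intro h0
    apply he
    have hlt : Finsupp.degree e < f.order.toNat + 1 := by
      rw [← hfin] at hdeg
      have : Finsupp.degree e = f.order.toNat := by exact_mod_cast hdeg
      omega
    rw [← coeff_truncTotal _ hlt, h0, MvPolynomial.coeff_zero]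

/-- **(β)** Over an infinite field, every nonzero power series becomes regular in `X₀` after a
linear change of variables. -/
theorem exists_shearEquiv_coeff_ne_zero [Infinite K] {f : MvPowerSeries (Fin (d + 1)) K}
    (hf : f ≠ 0) :
    ∃ (α : MvPowerSeries (Fin (d + 1)) K ≃+* MvPowerSeries (Fin (d + 1)) K) (n : ℕ),
      coeff (Finsupp.single 0 n) (α f) ≠ 0 := by
  obtain ⟨hhom, hne⟩ := truncTotal_order_isHomogeneous hf
  set n := f.order.toNat with hn
  obtain ⟨y, hy0, hy⟩ := exists_eval_ne_zero_of_ne_zero hne
  refine ⟨shearEquiv (y 0) hy0 y, n, ?_⟩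
  rw [shearEquiv_apply, coeff_subst_shear_eq (y 0) y f (k := n + 1) (by simp)]
  have hhom2 : (MvPolynomial.aeval (shearPoly (y 0) y) (truncTotal (n + 1) f)).IsHomogeneous n := by
    have := hhom.aeval (shearPoly (y 0) y) (isHomogeneous_shearPoly (y 0) y)
    simpa using this
  rw [coeff_single_eq_eval_single hhom2, eval_single_aeval_shearPoly _ _ rfl]
  exact hy

end Beta

section Main

open MvPowerSeries

variable (K : Type*) [Field K] [Infinite K]

theorem cons_zero_eq_single {d : ℕ} (n : ℕ) :
    (Finsupp.cons n (0 : Fin d →₀ ℕ)) = Finsupp.single 0 n := by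
  ext i
  refine Fin.cases ?_ (fun j => ?_) i
  · simp
  · simp [Fin.succ_ne_zero]

/-- **(7a)** The power series rings `K⟦X₁, …, X_d⟧` over an infinite field are unique factorisation
domains. -/
theorem ufm_mvPowerSeries : ∀ d : ℕ, UniqueFactorizationMonoid (MvPowerSeries (Fin d) K) := by
  intro d
  induction d with
  | zero =>
    exact (MvPowerSeries.isEmptyEquiv (Fin 0) K).symm.toMulEquiv.uniqueFactorizationMonoid
      inferInstance
  | succ d ih =>
    have hdomA : IsDomain (MvPowerSeries (Fin d) K) := NoZeroDivisors.to_isDomain _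
    have hdomB : IsDomain (MvPowerSeries (Fin (d + 1)) K) := NoZeroDivisors.to_isDomain _
    have hwf : WfDvdMonoid (MvPowerSeries (Fin (d + 1)) K) := IsNoetherianRing.wfDvdMonoid
    refine { toIsWellFounded := hwf, irreducible_iff_prime := ?_ }
    intro f
    refine ⟨fun hirr => ?_, Prime.irreducible⟩
    obtain ⟨α, n, hn⟩ := exists_shearEquiv_coeff_ne_zero hirr.ne_zero
    set β := (MvPowerSeries.finSuccEquiv K d).toRingEquiv with hβ
    have hirr2 : Irreducible (β (α f)) :=
      (MulEquiv.irreducible_iff (α.trans β).toMulEquiv).mpr hirr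
    have hreg : (β (α f)).map (residue (MvPowerSeries (Fin d) K)) ≠ 0 := by
      intro h0
      have h1 := congrArg (PowerSeries.coeff n) h0
      rw [PowerSeries.coeff_map, map_zero, residue_eq_zero_iff, mem_maximalIdeal,
        mem_nonunits_iff, MvPowerSeries.isUnit_iff_constantCoeff, isUnit_iff_ne_zero, not_not]
        at h1
      apply hn
      rw [← cons_zero_eq_single, ← MvPowerSeries.coeff_coeff_finSuccEquiv]
      exact h1
    have hprime : Prime (β (α f)) := prime_of_irreducible_of_map_residue_ne_zero hirr2 hreg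
    exact (MulEquiv.prime_iff (α.trans β).toMulEquiv).mp hprime

end Main

end Fermat.Agent.AV
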