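import Mathlib
import Fermat.Agent.AV.AV7_helper7_Completion

/-!
# AV7: local rings of a smooth scheme over an algebraically closed field at closed points (helper7)

Bridge from schemes to the commutative algebra of `AV7_helper7_Completion`: for `f : A ⟶ Spec K`
smooth, `K` algebraically closed, and `x` a closed point, the stalk `O_{A,x}` is a noetherian local
`K`-algebra, formally smooth over `K`, with residue field `K`; hence its completion is a power series
ring, and it is a UFD as soon as the power series rings are.
-/

open AlgebraicGeometry CategoryTheory IsLocalRing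

universe u

namespace Fermat.Agent.AV

variable {K : Type u} [Field K] {A : Scheme.{u}} (f : A ⟶ Spec (.of K))

/-- The structure homomorphism `K → O_{A,x}`. -/
noncomputable def stalkStructureMap (x : A) : K →+* A.presheaf.stalk x :=
  (A.presheaf.germ ⊤ x trivial).hom.comp
    (f.appTop.hom.comp (Scheme.ΓSpecIso (.of K)).inv.hom)

/-- On `Spec K`, `K` a field, the germ map from global sections to any stalk is bijective. -/
theorem bijective_germ_top_Spec_field (y : Spec (.of K)) :
    Function.Bijective ((Spec (.of K)).presheaf.germ ⊤ y trivial).hom := by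
  obtain rfl : y = closedPoint K := Subsingleton.elim _ _
  have h := ΓSpecIso_hom_stalkClosedPointIso_inv (.of K)
  rw [← h]
  exact ((Scheme.ΓSpecIso (.of K)) ≪≫ (stalkClosedPointIso (.of K)).symm).commRingCatIsoToRingEquiv.bijective

theorem stalkStructureMap_eq (x : A) :
    stalkStructureMap f x = (f.stalkMap x).hom.comp
      (((Spec (.of K)).presheaf.germ ⊤ (f x) trivial).hom.comp
        (Scheme.ΓSpecIso (.of K)).inv.hom) := by
  have h := Scheme.Hom.germ_stalkMap f ⊤ x trivial
  ext c
  have h2 := congrArg (fun φ => φ.hom ((Scheme.ΓSpecIso (.of K)).inv.hom c)) h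
  simp only [CommRingCat.hom_comp, RingHom.comp_apply] at h2
  simp only [stalkStructureMap, RingHom.comp_apply]
  exact h2.symm

theorem formallySmooth_stalkStructureMap [Smooth f] (x : A) :
    (stalkStructureMap f x).FormallySmooth := by
  rw [stalkStructureMap_eq]
  have h1 : (f.stalkMap x).hom.FormallySmooth := by
    have := f.smoothLocus_eq_top
    have hx : x ∈ f.smoothLocus := by rw [this]; trivial
    exact Scheme.Hom.mem_smoothLocus.mp hx
  refine RingHom.FormallySmooth.comp ?_ h1
  apply RingHom.FormallySmooth.of_bijective
  exact (bijective_germ_top_Spec_field (f x)).comp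
    (Scheme.ΓSpecIso (.of K)).symm.commRingCatIsoToRingEquiv.bijective

/-- At a closed point of a scheme locally of finite type over an algebraically closed field `K`,
the residue field is `K`. -/
theorem bijective_residue_comp_stalkStructureMap [IsAlgClosed K] [LocallyOfFiniteType f] (x : A)
    (hx : IsClosed ({x} : Set A)) :
    Function.Bijective ((IsLocalRing.residue (A.presheaf.stalk x)).comp (stalkStructureMap f x)) := by
  have h1 := SpecMap_residueFieldIsoBase_inv f x hx
  have h2 : A.fromSpecResidueField x ≫ f =
      Spec.map (CommRingCat.ofHom
        ((IsLocalRing.residue (A.presheaf.stalk x)).comp (stalkStructureMap f x))) := by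
    rw [Scheme.fromSpecResidueField, Category.assoc, ← Scheme.SpecMap_stalkMap_fromSpecStalk,
      AlgebraicGeometry.Spec.fromSpecStalk_eq, ← Spec.map_comp, ← Spec.map_comp]
    congr 1
    ext c
    simp only [stalkStructureMap_eq]
    rfl
  rw [h2] at h1
  have h3 := Spec.map_injective h1
  have h4 : Function.Bijective (residueFieldIsoBase f x hx).inv.hom :=
    (residueFieldIsoBase f x hx).symm.commRingCatIsoToRingEquiv.bijective
  rw [h3] at h4
  exact h4

/-- **(7b), geometric form.** For `f : A ⟶ Spec K` smooth, `K` algebraically closed, and `x` a
closed point, the completion of `O_{A,x}` is a power series ring over `K`. -/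
theorem exists_stalk_adicCompletion_ringEquiv [IsAlgClosed K] [Smooth f] (x : A)
    (hx : IsClosed ({x} : Set A)) :
    ∃ d : ℕ, Nonempty (AdicCompletion (maximalIdeal (A.presheaf.stalk x)) (A.presheaf.stalk x) ≃+*
      MvPowerSeries (Fin d) K) := by
  have : IsLocallyNoetherian A := LocallyOfFiniteType.isLocallyNoetherian f
  let _ : Algebra K (A.presheaf.stalk x) := (stalkStructureMap f x).toAlgebra
  have : Algebra.FormallySmooth K (A.presheaf.stalk x) := formallySmooth_stalkStructureMap f x
  exact exists_adicCompletion_ringEquiv_mvPowerSeries K (A.presheaf.stalk x)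
    (bijective_residue_comp_stalkStructureMap f x hx).2

/-- **Local factoriality of smooth schemes over an algebraically closed field**, modulo (7a): if
all power series rings `K⟦X₁, …, X_d⟧` are UFDs, then the local ring of `A` at every closed point is
a UFD. -/
theorem stalk_ufm_of_smooth [IsAlgClosed K] [Smooth f]
    (hUFD : ∀ d : ℕ, UniqueFactorizationMonoid (MvPowerSeries (Fin d) K)) (x : A)
    (hx : IsClosed ({x} : Set A)) :
    IsDomain (A.presheaf.stalk x) ∧ UniqueFactorizationMonoid (A.presheaf.stalk x) := by
  have : IsLocallyNoetherian A := LocallyOfFiniteType.isLocallyNoetherian f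
  let _ : Algebra K (A.presheaf.stalk x) := (stalkStructureMap f x).toAlgebra
  have : Algebra.FormallySmooth K (A.presheaf.stalk x) := formallySmooth_stalkStructureMap f x
  exact ufm_of_formallySmooth_of_residueField K (A.presheaf.stalk x) hUFD
    (bijective_residue_comp_stalkStructureMap f x hx).2

end Fermat.Agent.AV
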