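import Mathlib
import Fermat.Agent.AV.AV7_helper7_Stalk
import Fermat.Agent.AV.AV7_helper7_PowerSeriesUFD

/-!
# AV7 (7a)+(7b)+(7c): local factoriality of smooth schemes over an algebraically closed field
(helper7)

`stalk_ufm` : for `f : A ⟶ Spec K` smooth, `K` algebraically closed, the local ring of `A` at every
closed point is a unique factorisation domain.
-/

open AlgebraicGeometry CategoryTheory

universe u

namespace Fermat.Agent.AV

/-- **Local factoriality.** The local ring of a smooth scheme over an algebraically closed field at a
closed point is a unique factorisation domain. -/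
theorem stalk_ufm {K : Type u} [Field K] [IsAlgClosed K] {A : Scheme.{u}}
    (f : A ⟶ Spec (.of K)) [Smooth f] (x : A) (hx : IsClosed ({x} : Set A)) :
    IsDomain (A.presheaf.stalk x) ∧ UniqueFactorizationMonoid (A.presheaf.stalk x) :=
  have : Infinite K := IsAlgClosed.instInfinite
  stalk_ufm_of_smooth f (ufm_mvPowerSeries K) x hx

end Fermat.Agent.AV
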