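/-
AV (helper1): sections of a cocycle line bundle `M : LB X` over an open `W ⊆ X`, on top of
helper5's `LB_helper5_Core`.

* `isUnit_iff_le_basicOpen`, `isUnit_of_cover` : units of `Γ(X, U)` are detected locally.
* `LB.SecOn M W` : sections of `M` over `W` (families `s i ∈ Γ(X, U i ⊓ W)` compatible with `g`).
* `LB.SecOn.restrict`, `LB.SecOn.ofH0`, `LB.SecOn.toH0`.
* `LB.IsTrivialOn M W` : there is a section over `W` with unit components;
  `LB.isTrivialOn_top_iff`.
* `LB.SecOn.exists_ratio` : over `W`, every section is a unique function multiple of a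
  trivialising section.
* `LB.SecOn.exists_glue` : sections over a cover of `W` agreeing on the overlaps glue.
* `LB.SecOn.pullback` : pull-back of local sections, with `pullback_restrict`, `pullback_smul`.
-/
import Mathlib
import Fermat.Agent.AV.LB_helper5_Core

set_option autoImplicit false

open AlgebraicGeometry CategoryTheory Opposite TopologicalSpace

universe u

namespace Fermat.Agent.AV

noncomputable section

/-- A function on `U` is a unit iff it vanishes nowhere on `U`. -/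
theorem isUnit_iff_le_basicOpen {X : Scheme.{u}} {U : X.Opens} (f : Γ(X, U)) :
    IsUnit f ↔ U ≤ X.basicOpen f := by
  constructor
  · intro h
    rw [X.basicOpen_of_isUnit h]
  · intro h
    refine X.toRingedSpace.isUnit_of_isUnit_germ U f ?_
    intro x hx
    exact (X.mem_basicOpen f x hx).mp (h hx)

theorem basicOpen_res' {X : Scheme.{u}} {V U : X.Opens} (h : U ≤ V) (f : Γ(X, V)) :
    X.basicOpen (res U h f) = U ⊓ X.basicOpen f :=
  X.basicOpen_res f (homOfLE h).op

/-- Units are detected on an open cover. -/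
theorem isUnit_of_cover {X : Scheme.{u}} {ι : Type*} {V : X.Opens} (U : ι → X.Opens)
    (hU : ∀ i, U i ≤ V) (hcover : V ≤ ⨆ i, U i) (f : Γ(X, V))
    (h : ∀ i, IsUnit (res (U i) (hU i) f)) : IsUnit f := by
  rw [isUnit_iff_le_basicOpen]
  refine hcover.trans (iSup_le fun i => ?_)
  have := (isUnit_iff_le_basicOpen _).mp (h i)
  rw [basicOpen_res'] at this
  exact this.trans inf_le_right

theorem isUnit_res {X : Scheme.{u}} {V U : X.Opens} (h : U ≤ V) {f : Γ(X, V)} (hf : IsUnit f) :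
    IsUnit (res U h f) := hf.map _

namespace LB

variable {X : Scheme.{u}} (M : LB X)

/-- Sections of the line bundle `M` over the open `W`. -/
structure SecOn (W : X.Opens) where
  /-- the components of the section in the charts of `M` -/
  s : ∀ i, Γ(X, M.U i ⊓ W)
  compat : ∀ i j,
    res (M.U i ⊓ M.U j ⊓ W) (le_inf (inf_le_left.trans inf_le_left) inf_le_right) (s i) =
      res (M.U i ⊓ M.U j ⊓ W) inf_le_left (M.g i j) *
      res (M.U i ⊓ M.U j ⊓ W) (le_inf (inf_le_left.trans inf_le_right) inf_le_right) (s j)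

namespace SecOn

variable {M}

@[ext]
theorem ext {W : X.Opens} {σ τ : M.SecOn W} (h : ∀ i, σ.s i = τ.s i) : σ = τ := by
  cases σ; cases τ; congr; funext i; exact h i

/-- the compatibility relation on any open inside `U i ⊓ U j ⊓ W`. -/
theorem compat' {W : X.Opens} (σ : M.SecOn W) (i j : M.ι) (O : X.Opens) (hi : O ≤ M.U i)
    (hj : O ≤ M.U j) (hW : O ≤ W) :
    res O (le_inf hi hW) (σ.s i) = res O (le_inf hi hj) (M.g i j) * res O (le_inf hj hW) (σ.s j) := by
  have h := congrArg (res O (le_inf (le_inf hi hj) hW)) (σ.compat i j)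
  rw [map_mul, res_res, res_res, res_res] at h
  exact h

/-- restriction of a section to a smaller open. -/
def restrict {W W' : X.Opens} (h : W' ≤ W) (σ : M.SecOn W) : M.SecOn W' where
  s i := res (M.U i ⊓ W') (inf_le_inf_left _ h) (σ.s i)
  compat i j := by
    rw [res_res, res_res]
    exact σ.compat' i j _ (inf_le_left.trans inf_le_left) (inf_le_left.trans inf_le_right)
      (inf_le_right.trans h)

@[simp]
theorem restrict_s {W W' : X.Opens} (h : W' ≤ W) (σ : M.SecOn W) (i : M.ι) :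
    (σ.restrict h).s i = res (M.U i ⊓ W') (inf_le_inf_left _ h) (σ.s i) := rfl

theorem restrict_restrict {W W' W'' : X.Opens} (h : W' ≤ W) (h' : W'' ≤ W') (σ : M.SecOn W) :
    (σ.restrict h).restrict h' = σ.restrict (h'.trans h) := by
  ext i
  simp only [restrict_s, res_res]

/-- multiplication of a section by a function. -/
def smul {W : X.Opens} (c : Γ(X, W)) (σ : M.SecOn W) : M.SecOn W where
  s i := res (M.U i ⊓ W) inf_le_right c * σ.s i
  compat i j := by
    rw [map_mul, res_res, σ.compat i j, map_mul, res_res]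
    ring

@[simp]
theorem smul_s {W : X.Opens} (c : Γ(X, W)) (σ : M.SecOn W) (i : M.ι) :
    (σ.smul c).s i = res (M.U i ⊓ W) inf_le_right c * σ.s i := rfl

/-- a global section, as a section over `⊤`. -/
def ofH0 (s : M.H0) : M.SecOn ⊤ where
  s i := res (M.U i ⊓ ⊤) inf_le_left (s.1 i)
  compat i j := by
    have h := congrArg (res (M.U i ⊓ M.U j ⊓ ⊤) inf_le_left) (s.2 i j)
    rw [map_mul, res_res, res_res] at h
    rw [res_res, res_res]
    exact h

/-- a section over `⊤`, as a global section. -/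
def toH0 (σ : M.SecOn ⊤) : M.H0 :=
  ⟨fun i => res (M.U i) (le_inf le_rfl le_top) (σ.s i), fun i j => by
    have h := σ.compat' i j (M.U i ⊓ M.U j) inf_le_left inf_le_right le_top
    rw [res_res, res_res]
    rw [res_self] at h
    exact h⟩

theorem toH0_apply (σ : M.SecOn ⊤) (i : M.ι) :
    (toH0 σ).1 i = res (M.U i) (le_inf le_rfl le_top) (σ.s i) := rfl

end SecOn

/-- `M` is trivial over the open `W`. -/
def IsTrivialOn (W : X.Opens) : Prop := ∃ σ : M.SecOn W, ∀ i, IsUnit (σ.s i)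

theorem isTrivialOn_top_iff : M.IsTrivialOn ⊤ ↔ M.IsTrivial := by
  constructor
  · rintro ⟨σ, hσ⟩
    exact ⟨SecOn.toH0 σ, fun i => by rw [SecOn.toH0_apply]; exact isUnit_res _ (hσ i)⟩
  · rintro ⟨s, hs⟩
    exact ⟨SecOn.ofH0 s, fun i => isUnit_res _ (hs i)⟩

theorem IsTrivialOn.mono {W W' : X.Opens} (h : W' ≤ W) (hW : M.IsTrivialOn W) :
    M.IsTrivialOn W' := by
  obtain ⟨σ, hσ⟩ := hW
  exact ⟨σ.restrict h, fun i => isUnit_res _ (hσ i)⟩

namespace SecOn

variable {M}

/-- Over `W`, every section `σ'` is a unique function multiple of a trivialising section `σ`. -/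
theorem exists_ratio {W : X.Opens} (σ : M.SecOn W) (hσ : ∀ i, IsUnit (σ.s i)) (σ' : M.SecOn W) :
    ∃! c : Γ(X, W), σ' = σ.smul c := by
  -- local ratios
  let c : ∀ i, Γ(X, M.U i ⊓ W) := fun i => σ'.s i * ((hσ i).unit⁻¹ : (Γ(X, M.U i ⊓ W))ˣ)
  have hc : ∀ i, σ'.s i = c i * σ.s i := fun i => by
    simp only [c]
    rw [mul_assoc, IsUnit.val_inv_mul, mul_one]
  have hcompat : ∀ i j, res ((M.U i ⊓ W) ⊓ (M.U j ⊓ W)) inf_le_left (c i) =
      res ((M.U i ⊓ W) ⊓ (M.U j ⊓ W)) inf_le_right (c j) := by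
    intro i j
    set O := (M.U i ⊓ W) ⊓ (M.U j ⊓ W) with hO
    have hi : O ≤ M.U i := inf_le_left.trans inf_le_left
    have hj : O ≤ M.U j := inf_le_right.trans inf_le_left
    have hW : O ≤ W := inf_le_left.trans inf_le_right
    have h1 := σ'.compat' i j O hi hj hW
    have h2 := σ.compat' i j O hi hj hW
    have hci := congrArg (res O (le_inf hi hW)) (hc i)
    have hcj := congrArg (res O (le_inf hj hW)) (hc j)
    rw [map_mul] at hci hcj
    have hu : IsUnit (res O (le_inf hi hW) (σ.s i)) := isUnit_res _ (hσ i)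
    -- `c i * σ i = σ' i = g σ' j = g c j σ j = c j * σ i`
    have : res O (le_inf hi hW) (c i) * res O (le_inf hi hW) (σ.s i) =
        res O (le_inf hj hW) (c j) * res O (le_inf hi hW) (σ.s i) := by
      rw [← hci, h1, hcj, h2]
      ring
    exact hu.mul_left_injective this
  obtain ⟨c₀, hc₀, huniq⟩ := Fermat.Agent.AV.exists_glue (V := W) (fun i => M.U i ⊓ W)
    (fun i => inf_le_right)
    (by
      intro x hx
      have : x ∈ (⊤ : X.Opens) := True.intro
      rw [← M.iSup_U] at this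
      obtain ⟨i, hi⟩ := Opens.mem_iSup.mp this
      exact Opens.mem_iSup.mpr ⟨i, ⟨hi, hx⟩⟩) c hcompat
  refine ⟨c₀, ?_, ?_⟩
  · ext i
    rw [smul_s, hc₀ i, hc i]
  · intro c' hc'
    apply huniq
    intro i
    have h := congrArg (fun τ => τ.s i) hc'
    simp only [smul_s] at h
    have h2 : c i * σ.s i = res (M.U i ⊓ W) inf_le_right c' * σ.s i := by rw [← hc i]; exact h
    exact ((hσ i).mul_left_injective h2).symm

/-- Sections over a cover of `W` which agree on the overlaps glue to a section over `W`. -/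
theorem exists_glue {W : X.Opens} {α : Type u} (Wα : α → X.Opens) (hle : ∀ a, Wα a ≤ W)
    (hcover : W ≤ ⨆ a, Wα a) (σ : ∀ a, M.SecOn (Wα a))
    (hσ : ∀ a b, (σ a).restrict (inf_le_left : Wα a ⊓ Wα b ≤ Wα a) =
      (σ b).restrict (inf_le_right : Wα a ⊓ Wα b ≤ Wα b)) :
    ∃ τ : M.SecOn W, ∀ a, τ.restrict (hle a) = σ a := by
  -- glue component-wise
  have hcov : ∀ i, M.U i ⊓ W ≤ ⨆ a, M.U i ⊓ Wα a := by
    intro i x hx
    obtain ⟨a, ha⟩ := Opens.mem_iSup.mp (hcover hx.2)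
    exact Opens.mem_iSup.mpr ⟨a, ⟨hx.1, ha⟩⟩
  have hgl : ∀ i, ∃! t : Γ(X, M.U i ⊓ W), ∀ a,
      res (M.U i ⊓ Wα a) (inf_le_inf_left _ (hle a)) t = (σ a).s i := by
    intro i
    refine Fermat.Agent.AV.exists_glue (V := M.U i ⊓ W) (fun a => M.U i ⊓ Wα a)
      (fun a => inf_le_inf_left _ (hle a)) (hcov i) (fun a => (σ a).s i) ?_
    intro a b
    have h := congrArg (fun τ => τ.s i) (hσ a b)
    simp only [restrict_s] at h
    have h' := congrArg (res ((M.U i ⊓ Wα a) ⊓ (M.U i ⊓ Wα b))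
      (le_inf (inf_le_left.trans inf_le_left)
        (le_inf (inf_le_left.trans inf_le_right) (inf_le_right.trans inf_le_right)))) h
    rw [res_res, res_res] at h'
    exact h'
  choose t ht _ using hgl
  refine ⟨⟨t, ?_⟩, ?_⟩
  · intro i j
    refine eq_of_res_eq (fun a => M.U i ⊓ M.U j ⊓ Wα a) (fun a => inf_le_inf_left _ (hle a))
      (by
        intro x hx
        obtain ⟨a, ha⟩ := Opens.mem_iSup.mp (hcover hx.2)
        exact Opens.mem_iSup.mpr ⟨a, ⟨hx.1, ha⟩⟩) _ _ ?_
    intro a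
    rw [map_mul, res_res, res_res, res_res]
    have hi := congrArg (res (M.U i ⊓ M.U j ⊓ Wα a)
      (le_inf (inf_le_left.trans inf_le_left) inf_le_right)) (ht i a)
    have hj := congrArg (res (M.U i ⊓ M.U j ⊓ Wα a)
      (le_inf (inf_le_left.trans inf_le_right) inf_le_right)) (ht j a)
    rw [res_res] at hi hj
    rw [hi, hj]
    exact (σ a).compat' i j _ (inf_le_left.trans inf_le_left) (inf_le_left.trans inf_le_right)
      inf_le_right
  · intro a
    ext i
    exact ht i a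

/-- If the local pieces are trivialising, so is the glued section. -/
theorem isUnit_of_restrict {W : X.Opens} {α : Type*} (Wα : α → X.Opens) (hle : ∀ a, Wα a ≤ W)
    (hcover : W ≤ ⨆ a, Wα a) (τ : M.SecOn W)
    (h : ∀ a i, IsUnit ((τ.restrict (hle a)).s i)) (i : M.ι) : IsUnit (τ.s i) := by
  refine isUnit_of_cover (fun a => M.U i ⊓ Wα a) (fun a => inf_le_inf_left _ (hle a)) ?_ _
    (fun a => h a i)
  intro x hx
  obtain ⟨a, ha⟩ := Opens.mem_iSup.mp (hcover hx.2)
  exact Opens.mem_iSup.mpr ⟨a, ⟨hx.1, ha⟩⟩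

end SecOn

end LB

/-- `φ^* : Γ(X, U ⊓ W) → Γ(Y, φ⁻¹U ⊓ φ⁻¹W)`. -/
def appInf {X Y : Scheme.{u}} (φ : Y ⟶ X) (U W : X.Opens) :
    Γ(X, U ⊓ W) →+* Γ(Y, φ ⁻¹ᵁ U ⊓ φ ⁻¹ᵁ W) :=
  (φ.app (U ⊓ W)).hom

theorem appInf_res {X Y : Scheme.{u}} (φ : Y ⟶ X) {U W U' W' : X.Opens}
    (h : U' ⊓ W' ≤ U ⊓ W) (h' : φ ⁻¹ᵁ U' ⊓ φ ⁻¹ᵁ W' ≤ φ ⁻¹ᵁ U ⊓ φ ⁻¹ᵁ W) (a : Γ(X, U ⊓ W)) :
    appInf φ U' W' (res (U' ⊓ W') h a) = res (φ ⁻¹ᵁ U' ⊓ φ ⁻¹ᵁ W') h' (appInf φ U W a) :=
  app_res φ h a

theorem appInf_res_right {X Y : Scheme.{u}} (φ : Y ⟶ X) (U W : X.Opens) (c : Γ(X, W)) :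
    appInf φ U W (res (U ⊓ W) inf_le_right c) =
      res (φ ⁻¹ᵁ U ⊓ φ ⁻¹ᵁ W) inf_le_right ((φ.app W).hom c) :=
  app_res φ inf_le_right c

theorem appInf_res_left {X Y : Scheme.{u}} (φ : Y ⟶ X) (U W : X.Opens) (c : Γ(X, U)) :
    appInf φ U W (res (U ⊓ W) inf_le_left c) =
      res (φ ⁻¹ᵁ U ⊓ φ ⁻¹ᵁ W) inf_le_left ((φ.app U).hom c) :=
  app_res φ inf_le_left c

namespace LB

namespace SecOn

variable {X : Scheme.{u}} {M : LB X}

/-- pull-back of a local section along an arbitrary morphism. -/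
def pullback {Y : Scheme.{u}} (φ : Y ⟶ X) {W : X.Opens} (σ : M.SecOn W) :
    (M.pullback φ).SecOn (φ ⁻¹ᵁ W) where
  s i := appInf φ (M.U i) W (σ.s i)
  compat i j := by
    have h := congrArg (φ.app (M.U i ⊓ M.U j ⊓ W)).hom (σ.compat i j)
    rw [map_mul, app_res, app_res, app_res] at h
    exact h

@[simp]
theorem pullback_s {Y : Scheme.{u}} (φ : Y ⟶ X) {W : X.Opens} (σ : M.SecOn W) (i : M.ι) :
    (σ.pullback φ).s i = appInf φ (M.U i) W (σ.s i) := rfl

theorem pullback_restrict {Y : Scheme.{u}} (φ : Y ⟶ X) {W W' : X.Opens} (h : W' ≤ W)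
    (σ : M.SecOn W) :
    (σ.restrict h).pullback φ = (σ.pullback φ).restrict (φ.preimage_mono h) := by
  refine SecOn.ext fun (i : M.ι) => ?_
  show appInf φ (M.U i) W' (res (M.U i ⊓ W') (inf_le_inf_left _ h) (σ.s i)) =
    res (φ ⁻¹ᵁ M.U i ⊓ φ ⁻¹ᵁ W') (inf_le_inf_left _ (φ.preimage_mono h))
      (appInf φ (M.U i) W (σ.s i))
  exact appInf_res φ _ _ _

theorem pullback_smul {Y : Scheme.{u}} (φ : Y ⟶ X) {W : X.Opens} (c : Γ(X, W)) (σ : M.SecOn W) :
    (σ.smul c).pullback φ = (σ.pullback φ).smul ((φ.app W).hom c) := by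
  refine SecOn.ext fun (i : M.ι) => ?_
  show appInf φ (M.U i) W (res (M.U i ⊓ W) inf_le_right c * σ.s i) =
    res (φ ⁻¹ᵁ M.U i ⊓ φ ⁻¹ᵁ W) inf_le_right ((φ.app W).hom c) * appInf φ (M.U i) W (σ.s i)
  rw [map_mul, appInf_res_right]

theorem restrict_smul {W W' : X.Opens} (h : W' ≤ W) (c : Γ(X, W)) (σ : M.SecOn W) :
    (σ.smul c).restrict h = (σ.restrict h).smul (res W' h c) := by
  ext i
  simp only [restrict_s, smul_s, map_mul, res_res]

theorem smul_smul {W : X.Opens} (c c' : Γ(X, W)) (σ : M.SecOn W) :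
    (σ.smul c).smul c' = σ.smul (c' * c) := by
  ext i
  simp only [smul_s, map_mul]
  ring

theorem smul_one {W : X.Opens} (σ : M.SecOn W) : σ.smul 1 = σ := by
  ext i
  simp only [smul_s, map_one, one_mul]

theorem restrict_self {W : X.Opens} (σ : M.SecOn W) : σ.restrict le_rfl = σ := by
  ext i
  simp only [restrict_s]
  exact res_self _

end SecOn

end LB

end

end Fermat.Agent.AV
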