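/-
PROJECT AV (S26 long shot) — cohomological primitives, producer side (helper8).

`CP_helper8_SecMod`: module structure on helper1's `LB.SecOn M W` (sections of a cocycle line
bundle over an open) and the pairing `M.inv.SecOn W × M.SecOn W → Γ(X, W)`.
-/
import Mathlib
import Fermat.Agent.AV.LBS_helper1_SecOn

set_option autoImplicit false

open AlgebraicGeometry CategoryTheory Opposite TopologicalSpace

universe u

namespace Fermat.Agent.AV.CP

open Fermat.Agent.AV Fermat.Agent.AV.LB

noncomputable section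

variable {X : Scheme.{u}} {M : LB X} {W : X.Opens}

/-! ### The module structure on `SecOn` -/

instance secOnZero : Zero (M.SecOn W) := ⟨⟨fun _ => 0, fun i j => by simp⟩⟩

instance secOnAdd : Add (M.SecOn W) :=
  ⟨fun σ τ => ⟨fun i => σ.s i + τ.s i, fun i j => by
    simp only [map_add, σ.compat i j, τ.compat i j, mul_add]⟩⟩

instance secOnNeg : Neg (M.SecOn W) :=
  ⟨fun σ => ⟨fun i => - σ.s i, fun i j => by
    simp only [map_neg, σ.compat i j, mul_neg]⟩⟩

instance secOnSMul : SMul Γ(X, W) (M.SecOn W) := ⟨fun c σ => σ.smul c⟩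

@[simp] lemma zero_s (i : M.ι) : (0 : M.SecOn W).s i = 0 := rfl
@[simp] lemma add_s (σ τ : M.SecOn W) (i : M.ι) : (σ + τ).s i = σ.s i + τ.s i := rfl
@[simp] lemma neg_s (σ : M.SecOn W) (i : M.ι) : (-σ).s i = - σ.s i := rfl
@[simp] lemma smul_s' (c : Γ(X, W)) (σ : M.SecOn W) (i : M.ι) :
    (c • σ).s i = res (M.U i ⊓ W) inf_le_right c * σ.s i := rfl

instance secOnAddCommGroup : AddCommGroup (M.SecOn W) where
  add_assoc a b c := by ext i; simp [add_assoc]
  zero_add a := by ext i; simp
  add_zero a := by ext i; simp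
  add_comm a b := by ext i; simp [add_comm]
  neg_add_cancel a := by ext i; simp
  nsmul := nsmulRec
  zsmul := zsmulRec

instance secOnModule : Module Γ(X, W) (M.SecOn W) where
  one_smul a := by ext i; simp
  mul_smul c c' a := by ext i; simp [mul_assoc]
  smul_zero c := by ext i; simp
  smul_add c a b := by ext i; simp [mul_add]
  add_smul c c' a := by ext i; simp [add_mul]
  zero_smul a := by ext i; simp

/-- Restriction of sections, as an additive map. -/
def restrictHom {W W' : X.Opens} (h : W' ≤ W) : M.SecOn W →+ M.SecOn W' where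
  toFun σ := σ.restrict h
  map_zero' := by ext i; simp
  map_add' σ τ := by ext i; simp

@[simp] lemma restrictHom_apply {W W' : X.Opens} (h : W' ≤ W) (σ : M.SecOn W) :
    restrictHom h σ = σ.restrict h := rfl

lemma restrict_smul' {W W' : X.Opens} (h : W' ≤ W) (c : Γ(X, W)) (σ : M.SecOn W) :
    (c • σ).restrict h = res W' h c • σ.restrict h :=
  SecOn.restrict_smul h c σ

/-- Sections are determined by their restrictions to a cover. -/
lemma secOn_ext_of_cover {α : Type*} (Wα : α → X.Opens) (hle : ∀ a, Wα a ≤ W)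
    (hcover : W ≤ ⨆ a, Wα a) (σ τ : M.SecOn W)
    (h : ∀ a, σ.restrict (hle a) = τ.restrict (hle a)) : σ = τ := by
  ext i
  refine eq_of_res_eq (fun a => M.U i ⊓ Wα a) (fun a => inf_le_inf_left _ (hle a)) ?_ _ _ ?_
  · intro x hx
    obtain ⟨a, ha⟩ := Opens.mem_iSup.mp (hcover hx.2)
    exact Opens.mem_iSup.mpr ⟨a, ⟨hx.1, ha⟩⟩
  · intro a
    have := congrArg (fun ρ => ρ.s i) (h a)
    simpa using this

/-! ### The pairing with the inverse bundle -/

lemma cover_inf (M : LB X) (W : X.Opens) : W ≤ ⨆ i, M.U i ⊓ W := by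
  intro x hx
  have : x ∈ (⊤ : X.Opens) := True.intro
  rw [← M.iSup_U] at this
  obtain ⟨i, hi⟩ := Opens.mem_iSup.mp this
  exact Opens.mem_iSup.mpr ⟨i, ⟨hi, hx⟩⟩

/-- The components of a section of the inverse bundle, with the type of the charts of `M`. -/
def invS (t : M.inv.SecOn W) (i : M.ι) : Γ(X, M.U i ⊓ W) := t.s i

lemma invS_add (t t' : M.inv.SecOn W) (i : M.ι) : invS (t + t') i = invS t i + invS t' i := rfl

lemma invS_smul (c : Γ(X, W)) (t : M.inv.SecOn W) (i : M.ι) :
    invS (c • t) i = res (M.U i ⊓ W) inf_le_right c * invS t i := rfl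

lemma invS_restrict {W' : X.Opens} (h : W' ≤ W) (t : M.inv.SecOn W) (i : M.ι) :
    invS (t.restrict h) i = res (M.U i ⊓ W') (inf_le_inf_left _ h) (invS t i) := rfl

lemma pair_compat (t : M.inv.SecOn W) (s : M.SecOn W) (i j : M.ι) :
    res ((M.U i ⊓ W) ⊓ (M.U j ⊓ W)) inf_le_left (invS t i * s.s i) =
      res ((M.U i ⊓ W) ⊓ (M.U j ⊓ W)) inf_le_right (invS t j * s.s j) := by
  set O := (M.U i ⊓ W) ⊓ (M.U j ⊓ W) with hO
  have hi : O ≤ M.U i := inf_le_left.trans inf_le_left
  have hj : O ≤ M.U j := inf_le_right.trans inf_le_left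
  have hW : O ≤ W := inf_le_left.trans inf_le_right
  have h1 := s.compat' i j O hi hj hW
  have h2 : res O (le_inf hi hW) (invS t i) =
      res O (le_inf hi hj) (M.inv.g i j) * res O (le_inf hj hW) (invS t j) :=
    t.compat' i j O hi hj hW
  have h3 := congrArg (res O (le_inf hi hj)) (M.g_mul_symm i j)
  rw [map_mul, map_one, res_res] at h3
  have h4 : res O (le_inf hi hj) (M.inv.g i j) = res O (le_inf hj hi) (M.g j i) := by
    show res O _ (res (M.U i ⊓ M.U j) _ (M.g j i)) = _
    rw [res_res]
  rw [map_mul, map_mul]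
  calc res O inf_le_left (invS t i) * res O inf_le_left (s.s i)
      = (res O (le_inf hj hi) (M.g j i) * res O (le_inf hj hW) (invS t j)) *
        (res O (le_inf hi hj) (M.g i j) * res O (le_inf hj hW) (s.s j)) := by
        rw [← h4, ← h2, ← h1]
    _ = (res O (le_inf hi hj) (M.g i j) * res O (le_inf hj hi) (M.g j i)) *
        (res O (le_inf hj hW) (invS t j) * res O (le_inf hj hW) (s.s j)) := by ring
    _ = res O inf_le_right (invS t j) * res O inf_le_right (s.s j) := by
        rw [h3, one_mul]

lemma pair_exists (t : M.inv.SecOn W) (s : M.SecOn W) :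
    ∃! f : Γ(X, W), ∀ i, res (M.U i ⊓ W) inf_le_right f = invS t i * s.s i :=
  Fermat.Agent.AV.exists_glue (V := W) (fun i => M.U i ⊓ W) (fun _ => inf_le_right)
    (cover_inf M W) (fun i => invS t i * s.s i) (pair_compat t s)

/-- The pairing `L⁻¹ × L → O`. -/
def pair (t : M.inv.SecOn W) (s : M.SecOn W) : Γ(X, W) := (pair_exists t s).choose

lemma res_pair (t : M.inv.SecOn W) (s : M.SecOn W) (i : M.ι) :
    res (M.U i ⊓ W) inf_le_right (pair t s) = invS t i * s.s i :=
  (pair_exists t s).choose_spec.1 i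

lemma pair_eq_of (t : M.inv.SecOn W) (s : M.SecOn W) (f : Γ(X, W))
    (h : ∀ i, res (M.U i ⊓ W) inf_le_right f = invS t i * s.s i) : pair t s = f :=
  ((pair_exists t s).choose_spec.2 f h).symm

lemma pair_add_right (t : M.inv.SecOn W) (s s' : M.SecOn W) :
    pair t (s + s') = pair t s + pair t s' :=
  pair_eq_of _ _ _ fun i => by rw [map_add, res_pair, res_pair, add_s, mul_add]

lemma pair_add_left (t t' : M.inv.SecOn W) (s : M.SecOn W) :
    pair (t + t') s = pair t s + pair t' s :=
  pair_eq_of _ _ _ fun i => by rw [map_add, res_pair, res_pair, invS_add, add_mul]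

lemma pair_smul_right (c : Γ(X, W)) (t : M.inv.SecOn W) (s : M.SecOn W) :
    pair t (c • s) = c * pair t s :=
  pair_eq_of _ _ _ fun i => by rw [map_mul, res_pair, smul_s']; ring

lemma pair_smul_left (c : Γ(X, W)) (t : M.inv.SecOn W) (s : M.SecOn W) :
    pair (c • t) s = c * pair t s :=
  pair_eq_of _ _ _ fun i => by
    rw [map_mul, res_pair, invS_smul]
    ring

lemma pair_restrict {W' : X.Opens} (h : W' ≤ W) (t : M.inv.SecOn W) (s : M.SecOn W) :
    pair (t.restrict h) (s.restrict h) = res W' h (pair t s) :=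
  pair_eq_of _ _ _ fun i => by
    rw [res_res]
    have := congrArg (res (M.U i ⊓ W') (inf_le_inf_left _ h)) (res_pair t s i)
    rw [res_res, map_mul] at this
    rw [invS_restrict]
    exact this

/-- The rank one identity. -/
lemma pair_swap (t : M.inv.SecOn W) (x y : M.SecOn W) : pair t x • y = pair t y • x := by
  ext i
  rw [smul_s', smul_s', res_pair, res_pair]
  ring

/-- The functional attached to a section of the inverse bundle. -/
def pairL (t : M.inv.SecOn W) : M.SecOn W →ₗ[Γ(X, W)] Γ(X, W) where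
  toFun s := pair t s
  map_add' := pair_add_right t
  map_smul' c s := by rw [pair_smul_right]; rfl

@[simp] lemma pairL_apply (t : M.inv.SecOn W) (s : M.SecOn W) : pairL t s = pair t s := rfl

end

end Fermat.Agent.AV.CP
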