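/-
AV (helper1): **(QC)** — sections of a cocycle line bundle over an AFFINE open form an invertible
module (partition of unity), requested by helper8's producer bridge.

* `exists_res_eq_pow_mul`, `exists_pow_mul_eq_zero` : the localisation facts for `Γ(U) → Γ(U ⊓ D(f))`,
  `U` affine, in `⊓`-form.
* `LB.SecOn.exists_of_refined` : a section of `L` over `W` from Čech data on a refinement
  `D b ⊆ U (i b)` of the chart cover.
* `LB.SecOn.invComp`, `LB.SecOn.pairing : L.inv.SecOn W → L.SecOn W → Γ(Y, W)` with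
  `res_pairing`, `res_pairing'`, `pairing_eq_of_forall`, `pairing_smul_left`.
* `LB.exists_secOn_eq_pow` : local generators extend after multiplication by `f ^ N`.
* `LB.exists_partition_of_unity` : for `W` affine there are finitely many `m b : L.SecOn W`,
  `τ b : L.inv.SecOn W` with `∑ b, pairing (τ b) (m b) = 1`.
-/
import Mathlib
import Fermat.Agent.AV.LBS_helper1_SecOn

set_option autoImplicit false

open AlgebraicGeometry CategoryTheory Opposite TopologicalSpace

universe u

namespace Fermat.Agent.AV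

noncomputable section

/-- extension of functions from `U ⊓ D(f)` to the affine open `U` after multiplication by a power
of `f`. -/
theorem exists_res_eq_pow_mul {Y : Scheme.{u}} {W U : Y.Opens} (hU : IsAffineOpen U) (hUW : U ≤ W)
    (f : Γ(Y, W)) (x : Γ(Y, U ⊓ Y.basicOpen f)) :
    ∃ (n : ℕ) (y : Γ(Y, U)), res (U ⊓ Y.basicOpen f) inf_le_left y =
      res (U ⊓ Y.basicOpen f) (inf_le_left.trans hUW) f ^ n * x := by
  have e : Y.basicOpen (res U hUW f) = U ⊓ Y.basicOpen f := basicOpen_res' hUW f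
  obtain ⟨n, y, hy⟩ := exists_eq_pow_mul_of_isAffineOpen Y U hU (res U hUW f)
    (res (Y.basicOpen (res U hUW f)) e.le x)
  refine ⟨n, y, ?_⟩
  have hy' : res (Y.basicOpen (res U hUW f)) (Y.basicOpen_le _) y =
      res (Y.basicOpen (res U hUW f)) (Y.basicOpen_le _) (res U hUW f) ^ n *
        res (Y.basicOpen (res U hUW f)) e.le x := hy
  have h2 := congrArg (res (U ⊓ Y.basicOpen f) e.ge) hy'
  rw [map_mul, map_pow, res_res, res_res, res_res, res_res, res_self] at h2
  exact h2

/-- a function on the affine open `U` vanishing on `U ⊓ D(f)` is killed by a power of `f`. -/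
theorem exists_pow_mul_eq_zero {Y : Scheme.{u}} {W U : Y.Opens} (hU : IsAffineOpen U)
    (hUW : U ≤ W) (f : Γ(Y, W)) (x : Γ(Y, U))
    (hx : res (U ⊓ Y.basicOpen f) inf_le_left x = 0) :
    ∃ n : ℕ, res U hUW f ^ n * x = 0 := by
  have e : Y.basicOpen (res U hUW f) = U ⊓ Y.basicOpen f := basicOpen_res' hUW f
  refine exists_pow_mul_eq_zero_of_res_basicOpen_eq_zero_of_isAffineOpen Y hU x (res U hUW f) ?_
  have h2 := congrArg (res (Y.basicOpen (res U hUW f)) e.le) hx
  rw [res_res, map_zero] at h2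
  exact h2

namespace LB

variable {Y : Scheme.{u}} {L : LB Y}

/-- **Sections from refined Čech data.**  Let `D b` (`b : β`) be opens covering `W`, each inside a
chart `U (i b)`, and `μ b ∈ Γ(Y, D b)` compatible with the transition functions
`g (i b) (i c)`.  Then there is a section of `L` over `W` whose component in the chart `i b`
restricts to `μ b` on `D b`. -/
theorem SecOn.exists_of_refined {W : Y.Opens} {β : Type u} (D : β → Y.Opens) (i : β → L.ι)
    (hDU : ∀ b, D b ≤ L.U (i b)) (hDW : ∀ b, D b ≤ W) (hcov : W ≤ ⨆ b, D b)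
    (μ : ∀ b, Γ(Y, D b))
    (hμ : ∀ b c, res (D b ⊓ D c) inf_le_left (μ b) =
      res (D b ⊓ D c) (le_inf (inf_le_left.trans (hDU b)) (inf_le_right.trans (hDU c)))
        (L.g (i b) (i c)) * res (D b ⊓ D c) inf_le_right (μ c)) :
    ∃ m : L.SecOn W, ∀ b, res (D b) (le_inf (hDU b) (hDW b)) (m.s (i b)) = μ b := by
  -- local pieces in the chart `j`
  let ν : ∀ (j : L.ι) (b : β), Γ(Y, L.U j ⊓ D b) := fun j b =>
    res (L.U j ⊓ D b) (le_inf inf_le_left (inf_le_right.trans (hDU b))) (L.g j (i b)) *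
      res (L.U j ⊓ D b) inf_le_right (μ b)
  have hν : ∀ (j : L.ι) (b : β) (O : Y.Opens) (hj : O ≤ L.U j) (hb : O ≤ D b),
      res O (le_inf hj hb) (ν j b) =
        res O (le_inf hj (hb.trans (hDU b))) (L.g j (i b)) * res O hb (μ b) := by
    intro j b O hj hb
    simp only [ν, map_mul, res_res]
  have hcovj : ∀ j, L.U j ⊓ W ≤ ⨆ b, L.U j ⊓ D b := by
    intro j x hx
    obtain ⟨b, hb⟩ := Opens.mem_iSup.mp (hcov hx.2)
    exact Opens.mem_iSup.mpr ⟨b, ⟨hx.1, hb⟩⟩
  have hgl : ∀ j, ∃! t : Γ(Y, L.U j ⊓ W), ∀ b,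
      res (L.U j ⊓ D b) (inf_le_inf_left _ (hDW b)) t = ν j b := by
    intro j
    refine Fermat.Agent.AV.exists_glue (V := L.U j ⊓ W) (fun b => L.U j ⊓ D b)
      (fun b => inf_le_inf_left _ (hDW b)) (hcovj j) (fun b => ν j b) ?_
    intro b c
    set O := (L.U j ⊓ D b) ⊓ (L.U j ⊓ D c) with hO
    have hOj : O ≤ L.U j := inf_le_left.trans inf_le_left
    have hOb : O ≤ D b := inf_le_left.trans inf_le_right
    have hOc : O ≤ D c := inf_le_right.trans inf_le_right
    have e1 := hν j b O hOj hOb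
    have e2 := hν j c O hOj hOc
    have e3 := congrArg (res O (le_inf hOb hOc)) (hμ b c)
    rw [map_mul, res_res, res_res, res_res] at e3
    have e4 := L.cocycle' j (i b) (i c) O hOj (hOb.trans (hDU b)) (hOc.trans (hDU c))
    calc res O inf_le_left (ν j b) = res O (le_inf hOj hOb) (ν j b) := rfl
      _ = _ := e1
      _ = res O _ (L.g j (i b)) * (res O _ (L.g (i b) (i c)) * res O hOc (μ c)) := by rw [e3]
      _ = res O _ (L.g j (i c)) * res O hOc (μ c) := by rw [← mul_assoc, e4]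
      _ = res O (le_inf hOj hOc) (ν j c) := e2.symm
  choose t ht _ using hgl
  have ht' : ∀ (j : L.ι) (b : β) (O : Y.Opens) (hj : O ≤ L.U j) (hb : O ≤ D b),
      res O (le_inf hj (hb.trans (hDW b))) (t j) =
        res O (le_inf hj (hb.trans (hDU b))) (L.g j (i b)) * res O hb (μ b) := by
    intro j b O hj hb
    rw [← hν j b O hj hb, ← ht j b, res_res]
  refine ⟨⟨t, ?_⟩, ?_⟩
  · intro j k
    refine eq_of_res_eq (fun b => L.U j ⊓ L.U k ⊓ D b) (fun b => inf_le_inf_left _ (hDW b))
      (by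
        intro x hx
        obtain ⟨b, hb⟩ := Opens.mem_iSup.mp (hcov hx.2)
        exact Opens.mem_iSup.mpr ⟨b, ⟨hx.1, hb⟩⟩) _ _ ?_
    intro b
    set O := L.U j ⊓ L.U k ⊓ D b with hO
    have hOj : O ≤ L.U j := inf_le_left.trans inf_le_left
    have hOk : O ≤ L.U k := inf_le_left.trans inf_le_right
    have hOb : O ≤ D b := inf_le_right
    rw [map_mul, res_res, res_res, res_res]
    have e1 := ht' j b O hOj hOb
    have e2 := ht' k b O hOk hOb
    have e4 := L.cocycle' j k (i b) O hOj hOk (hOb.trans (hDU b))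
    calc res O _ (t j) = _ := e1
      _ = res O _ (L.g j k) * (res O _ (L.g k (i b)) * res O hOb (μ b)) := by
          rw [← mul_assoc, e4]
      _ = res O _ (L.g j k) * res O _ (t k) := by rw [← e2]
  · intro b
    have e1 := ht' (i b) b (D b) (hDU b) le_rfl
    rw [res_self] at e1
    have e2 : res (D b) (le_inf (hDU b) (le_rfl.trans (hDU b))) (L.g (i b) (i b)) = 1 := by
      rw [L.g_self, map_one]
    rw [e2, one_mul] at e1
    exact e1

/-- the component of a section of the inverse bundle, typed in the charts of `L`. -/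
def SecOn.invComp {W : Y.Opens} (τ : L.inv.SecOn W) (i : L.ι) : Γ(Y, L.U i ⊓ W) := τ.s i

theorem SecOn.invComp_compat {W : Y.Opens} (τ : L.inv.SecOn W) (i j : L.ι) (O : Y.Opens)
    (hi : O ≤ L.U i) (hj : O ≤ L.U j) (hW : O ≤ W) :
    res O (le_inf hi hW) (τ.invComp i) =
      res O (le_inf hj hi) (L.g j i) * res O (le_inf hj hW) (τ.invComp j) := by
  have h := τ.compat' i j O hi hj hW
  have h2 : res O (le_inf hi hj) (L.inv.g i j) = res O (le_inf hj hi) (L.g j i) := by
    show res O _ (res (L.U i ⊓ L.U j) _ (L.g j i)) = _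
    rw [res_res]
  exact h.trans (congrArg (fun z => z * res O (le_inf hj hW) (τ.invComp j)) h2)

theorem exists_pairing {W : Y.Opens} (τ : L.inv.SecOn W) (m : L.SecOn W) :
    ∃! c : Γ(Y, W), ∀ i, res (L.U i ⊓ W) inf_le_right c = τ.invComp i * m.s i := by
  refine Fermat.Agent.AV.exists_glue (V := W) (fun i => L.U i ⊓ W) (fun i => inf_le_right)
    (by
      intro x hx
      have : x ∈ (⊤ : Y.Opens) := True.intro
      rw [← L.iSup_U] at this
      obtain ⟨i, hi⟩ := Opens.mem_iSup.mp this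
      exact Opens.mem_iSup.mpr ⟨i, ⟨hi, hx⟩⟩) (fun i => τ.invComp i * m.s i) ?_
  intro i j
  set O := (L.U i ⊓ W) ⊓ (L.U j ⊓ W) with hO
  have hi : O ≤ L.U i := inf_le_left.trans inf_le_left
  have hj : O ≤ L.U j := inf_le_right.trans inf_le_left
  have hW : O ≤ W := inf_le_left.trans inf_le_right
  have e1 := τ.invComp_compat i j O hi hj hW
  have e2 := m.compat' i j O hi hj hW
  have e3 := L.cocycle' j i j O hj hi hj
  have e4 : res O (le_inf hj hj) (L.g j j) = 1 := by rw [L.g_self, map_one]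
  rw [e4] at e3
  calc res O inf_le_left (τ.invComp i * m.s i)
      = res O (le_inf hi hW) (τ.invComp i) * res O (le_inf hi hW) (m.s i) := map_mul _ _ _
    _ = (res O _ (L.g j i) * res O _ (L.g i j)) *
          (res O (le_inf hj hW) (τ.invComp j) * res O (le_inf hj hW) (m.s j)) := by
        rw [e1, e2]; ring
    _ = res O (le_inf hj hW) (τ.invComp j) * res O (le_inf hj hW) (m.s j) := by
        rw [e3, one_mul]
    _ = res O inf_le_right (τ.invComp j * m.s j) := (map_mul _ _ _).symm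

/-- the natural pairing `L⁻¹ × L → O` on sections over `W`. -/
def SecOn.pairing {W : Y.Opens} (τ : L.inv.SecOn W) (m : L.SecOn W) : Γ(Y, W) :=
  (exists_pairing τ m).choose

theorem SecOn.res_pairing {W : Y.Opens} (τ : L.inv.SecOn W) (m : L.SecOn W) (i : L.ι) :
    res (L.U i ⊓ W) inf_le_right (SecOn.pairing τ m) = τ.invComp i * m.s i :=
  (exists_pairing τ m).choose_spec.1 i

theorem SecOn.res_pairing' {W : Y.Opens} (τ : L.inv.SecOn W) (m : L.SecOn W) (i : L.ι)
    (D : Y.Opens) (hi : D ≤ L.U i) (hW : D ≤ W) :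
    res D hW (SecOn.pairing τ m) =
      res D (le_inf hi hW) (τ.invComp i) * res D (le_inf hi hW) (m.s i) := by
  have h := congrArg (res D (le_inf hi hW)) (SecOn.res_pairing τ m i)
  rw [res_res, map_mul] at h
  exact h

theorem SecOn.pairing_eq_of_forall {W : Y.Opens} (τ : L.inv.SecOn W) (m : L.SecOn W)
    (c : Γ(Y, W)) (hc : ∀ i, res (L.U i ⊓ W) inf_le_right c = τ.invComp i * m.s i) :
    SecOn.pairing τ m = c :=
  ((exists_pairing τ m).choose_spec.2 c hc).symm

theorem SecOn.pairing_smul_left {W : Y.Opens} (c : Γ(Y, W)) (τ : L.inv.SecOn W) (m : L.SecOn W) :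
    SecOn.pairing (τ.smul c) m = c * SecOn.pairing τ m := by
  apply SecOn.pairing_eq_of_forall
  intro i
  rw [map_mul, SecOn.res_pairing]
  have h1 : (τ.smul c).invComp i = res (L.U i ⊓ W) inf_le_right c * τ.invComp i := rfl
  rw [h1, mul_assoc]

theorem isAffineOpen_basicOpen_inf {W : Y.Opens} (hW : IsAffineOpen W) (f₁ f₂ : Γ(Y, W)) :
    IsAffineOpen (Y.basicOpen f₁ ⊓ Y.basicOpen f₂) := by
  rw [← Y.basicOpen_mul]
  exact hW.basicOpen _

/-- **Local generators extend after multiplication by a power of the equation.**  `W` affine,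
covered by finitely many basic opens `D(f b)`, each inside a chart `U (i b)` of `L`.  For every
`a` there are `N` and a section of `L` over `W` whose `i a`-component restricts to `f a ^ N`
on `D(f a)`. -/
theorem exists_secOn_eq_pow {W : Y.Opens} (hW : IsAffineOpen W) {β : Type u} [Fintype β]
    (f : β → Γ(Y, W)) (i : β → L.ι) (hDU : ∀ b, Y.basicOpen (f b) ≤ L.U (i b))
    (hcov : W ≤ ⨆ b, Y.basicOpen (f b)) (a : β) :
    ∃ (N : ℕ) (m : L.SecOn W),
      res (Y.basicOpen (f a)) (le_inf (hDU a) (Y.basicOpen_le _)) (m.s (i a)) =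
        res (Y.basicOpen (f a)) (Y.basicOpen_le _) (f a) ^ N := by
  classical
  have hDW : ∀ b, Y.basicOpen (f b) ≤ W := fun b => Y.basicOpen_le _
  have hDaff : ∀ b, IsAffineOpen (Y.basicOpen (f b)) := fun b => hW.basicOpen _
  -- transition functions on the refined cover
  let γ : ∀ b c, Γ(Y, Y.basicOpen (f b) ⊓ Y.basicOpen (f c)) := fun b c =>
    res (Y.basicOpen (f b) ⊓ Y.basicOpen (f c))
      (le_inf (inf_le_left.trans (hDU b)) (inf_le_right.trans (hDU c))) (L.g (i b) (i c))
  have hγ : ∀ b c (O : Y.Opens) (hb : O ≤ Y.basicOpen (f b)) (hc : O ≤ Y.basicOpen (f c)),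
      res O (le_inf hb hc) (γ b c) =
        res O (le_inf (hb.trans (hDU b)) (hc.trans (hDU c))) (L.g (i b) (i c)) := by
    intro b c O hb hc
    simp only [γ, res_res]
  -- step 1: extend `f a ^ n * γ b a` from `D b ⊓ D a` to `D b`
  have h1 : ∀ b, ∃ (n : ℕ) (y : Γ(Y, Y.basicOpen (f b))),
      res (Y.basicOpen (f b) ⊓ Y.basicOpen (f a)) inf_le_left y =
        res (Y.basicOpen (f b) ⊓ Y.basicOpen (f a)) (inf_le_left.trans (hDW b)) (f a) ^ n *
          γ b a := fun b => exists_res_eq_pow_mul (hDaff b) (hDW b) (f a) (γ b a)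
  choose n y hy using h1
  -- uniform exponent
  obtain ⟨N, y', hy'⟩ : ∃ (N : ℕ) (y' : ∀ b, Γ(Y, Y.basicOpen (f b))), ∀ b,
      res (Y.basicOpen (f b) ⊓ Y.basicOpen (f a)) inf_le_left (y' b) =
        res (Y.basicOpen (f b) ⊓ Y.basicOpen (f a)) (inf_le_left.trans (hDW b)) (f a) ^ N *
          γ b a := by
    refine ⟨∑ b, n b, fun b => res (Y.basicOpen (f b)) (hDW b) (f a) ^ ((∑ b, n b) - n b) * y b,
      fun b => ?_⟩
    have hnN : n b ≤ ∑ b, n b := Finset.single_le_sum (fun _ _ => Nat.zero_le _)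
      (Finset.mem_univ b)
    rw [map_mul, map_pow, res_res, hy b, ← mul_assoc, ← pow_add, Nat.sub_add_cancel hnN]
  -- step 2: the defect of compatibility is killed by a power of `f a`
  have hz' : ∀ b c (O : Y.Opens) (hOb : O ≤ Y.basicOpen (f b)) (hOc : O ≤ Y.basicOpen (f c))
      (hOa : O ≤ Y.basicOpen (f a)),
      res O hOb (y' b) - res O (le_inf (hOb.trans (hDU b)) (hOc.trans (hDU c)))
        (L.g (i b) (i c)) * res O hOc (y' c) = 0 := by
    intro b c O hOb hOc hOa
    have e1 : res O hOb (y' b) = res O (hOb.trans (hDW b)) (f a) ^ N *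
        res O (le_inf (hOb.trans (hDU b)) (hOa.trans (hDU a))) (L.g (i b) (i a)) := by
      have := congrArg (res O (le_inf hOb hOa)) (hy' b)
      rw [res_res, map_mul, map_pow, res_res, hγ b a O hOb hOa] at this
      exact this
    have e2 : res O hOc (y' c) = res O (hOc.trans (hDW c)) (f a) ^ N *
        res O (le_inf (hOc.trans (hDU c)) (hOa.trans (hDU a))) (L.g (i c) (i a)) := by
      have := congrArg (res O (le_inf hOc hOa)) (hy' c)
      rw [res_res, map_mul, map_pow, res_res, hγ c a O hOc hOa] at this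
      exact this
    have e3 := L.cocycle' (i b) (i c) (i a) O (hOb.trans (hDU b)) (hOc.trans (hDU c))
      (hOa.trans (hDU a))
    rw [e1, e2, ← e3]
    ring
  have hz : ∀ b c, res ((Y.basicOpen (f b) ⊓ Y.basicOpen (f c)) ⊓ Y.basicOpen (f a))
      inf_le_left (res (Y.basicOpen (f b) ⊓ Y.basicOpen (f c)) inf_le_left (y' b) -
      γ b c * res (Y.basicOpen (f b) ⊓ Y.basicOpen (f c)) inf_le_right (y' c)) = 0 := by
    intro b c
    have := hz' b c ((Y.basicOpen (f b) ⊓ Y.basicOpen (f c)) ⊓ Y.basicOpen (f a))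
      (inf_le_left.trans inf_le_left) (inf_le_left.trans inf_le_right) inf_le_right
    rw [map_sub, map_mul, res_res, res_res, res_res]
    exact this
  have h2 : ∀ b c, ∃ k : ℕ,
      res (Y.basicOpen (f b) ⊓ Y.basicOpen (f c)) (inf_le_left.trans (hDW b)) (f a) ^ k *
        (res (Y.basicOpen (f b) ⊓ Y.basicOpen (f c)) inf_le_left (y' b) -
          γ b c * res (Y.basicOpen (f b) ⊓ Y.basicOpen (f c)) inf_le_right (y' c)) = 0 :=
    fun b c => exists_pow_mul_eq_zero (isAffineOpen_basicOpen_inf hW (f b) (f c))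
      (inf_le_left.trans (hDW b)) (f a) _ (hz b c)
  choose k hk using h2
  obtain ⟨N', hkN⟩ : ∃ N' : ℕ, ∀ b c, k b c ≤ N' :=
    ⟨∑ p : β × β, k p.1 p.2, fun b c =>
      Finset.single_le_sum (f := fun p : β × β => k p.1 p.2) (fun _ _ => Nat.zero_le _)
        (Finset.mem_univ (b, c))⟩
  have hμ : ∀ b c, res (Y.basicOpen (f b) ⊓ Y.basicOpen (f c)) inf_le_left
        (res (Y.basicOpen (f b)) (hDW b) (f a) ^ N' * y' b) =
      res (Y.basicOpen (f b) ⊓ Y.basicOpen (f c))
        (le_inf (inf_le_left.trans (hDU b)) (inf_le_right.trans (hDU c))) (L.g (i b) (i c)) *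
        res (Y.basicOpen (f b) ⊓ Y.basicOpen (f c)) inf_le_right
          (res (Y.basicOpen (f c)) (hDW c) (f a) ^ N' * y' c) := by
    intro b c
    have hk' : res (Y.basicOpen (f b) ⊓ Y.basicOpen (f c)) (inf_le_left.trans (hDW b)) (f a) ^ N' *
        (res (Y.basicOpen (f b) ⊓ Y.basicOpen (f c)) inf_le_left (y' b) -
          γ b c * res (Y.basicOpen (f b) ⊓ Y.basicOpen (f c)) inf_le_right (y' c)) = 0 := by
      rw [← Nat.sub_add_cancel (hkN b c), pow_add, mul_assoc, hk b c, mul_zero]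
    rw [mul_sub, sub_eq_zero] at hk'
    rw [map_mul, map_pow, res_res, hk', map_mul, map_pow, res_res]
    show _ = γ b c * _
    ring
  obtain ⟨m, hm⟩ := SecOn.exists_of_refined (L := L) (W := W) (fun b => Y.basicOpen (f b)) i hDU
    hDW hcov (fun b => res (Y.basicOpen (f b)) (hDW b) (f a) ^ N' * y' b) hμ
  refine ⟨N' + N, m, ?_⟩
  rw [hm a]
  -- `y' a = f a ^ N` on `D a`
  have e1 : y' a = res (Y.basicOpen (f a)) (hDW a) (f a) ^ N := by
    have := congrArg (res (Y.basicOpen (f a)) (le_inf le_rfl le_rfl)) (hy' a)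
    rw [res_res, res_self, map_mul, map_pow, res_res, hγ a a _ le_rfl le_rfl, L.g_self, map_one,
      mul_one] at this
    exact this
  rw [e1, pow_add]


/-- **(QC) Partition of unity on an affine open.**  For a line bundle `L` (cocycle model) on `Y`
and an affine open `W`, there are finitely many sections `m b` of `L` and `τ b` of `L⁻¹` over `W`
with `∑ b, ⟨τ b, m b⟩ = 1` in `Γ(Y, W)`; i.e. `Γ(W, L)` is an invertible `Γ(W, O)`-module with
inverse `Γ(W, L⁻¹)`. -/
theorem exists_partition_of_unity (L : LB Y) {W : Y.Opens} (hW : IsAffineOpen W) :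
    ∃ (β : Type u) (_ : Fintype β) (m : β → L.SecOn W) (τ : β → L.inv.SecOn W),
      ∑ b, SecOn.pairing (τ b) (m b) = 1 := by
  classical
  -- a chart and a basic open around every point of `W`
  have hpt : ∀ x : W, ∃ (i : L.ι) (f : Γ(Y, W)), Y.basicOpen f ≤ L.U i ∧ x.1 ∈ Y.basicOpen f := by
    intro x
    have hx : x.1 ∈ (⊤ : Y.Opens) := True.intro
    rw [← L.iSup_U] at hx
    obtain ⟨i, hi⟩ := Opens.mem_iSup.mp hx
    obtain ⟨f, hf1, hf2⟩ := hW.exists_basicOpen_le (V := L.U i) ⟨x.1, hi⟩ x.2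
    exact ⟨i, f, hf1, hf2⟩
  choose i₀ f₀ hf₀U hf₀x using hpt
  -- finite subcover
  obtain ⟨t, ht⟩ := hW.isCompact.elim_finite_subcover (fun x : W => (Y.basicOpen (f₀ x) : Set Y))
    (fun x => (Y.basicOpen (f₀ x)).2) (fun y hy => Set.mem_iUnion.mpr ⟨⟨y, hy⟩, hf₀x ⟨y, hy⟩⟩)
  let β : Type u := t
  let f : β → Γ(Y, W) := fun b => f₀ b.1
  let i : β → L.ι := fun b => i₀ b.1
  have hDU : ∀ b : β, Y.basicOpen (f b) ≤ L.U (i b) := fun b => hf₀U b.1
  have hcov : W ≤ ⨆ b : β, Y.basicOpen (f b) := by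
    intro y hy
    obtain ⟨x, hx⟩ := Set.mem_iUnion.mp (ht hy)
    obtain ⟨hxt, hyx⟩ := Set.mem_iUnion.mp hx
    exact Opens.mem_iSup.mpr ⟨⟨x, hxt⟩, hyx⟩
  -- local generators of `L` and of `L⁻¹`
  have hm : ∀ a : β, ∃ (N : ℕ) (m : L.SecOn W),
      res (Y.basicOpen (f a)) (le_inf (hDU a) (Y.basicOpen_le _)) (m.s (i a)) =
        res (Y.basicOpen (f a)) (Y.basicOpen_le _) (f a) ^ N :=
    fun a => exists_secOn_eq_pow hW f i hDU hcov a
  have hτ : ∀ a : β, ∃ (N : ℕ) (τ : L.inv.SecOn W),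
      res (Y.basicOpen (f a)) (le_inf (hDU a) (Y.basicOpen_le _)) (τ.invComp (i a)) =
        res (Y.basicOpen (f a)) (Y.basicOpen_le _) (f a) ^ N :=
    fun a => exists_secOn_eq_pow (L := L.inv) hW f i hDU hcov a
  choose N m hm using hm
  choose N' τ hτ using hτ
  -- the pairings do not vanish on `D a`
  have hr : ∀ a : β, Y.basicOpen (f a) ≤ Y.basicOpen (SecOn.pairing (τ a) (m a)) := by
    intro a
    have h1 := SecOn.res_pairing' (τ a) (m a) (i a) (Y.basicOpen (f a)) (hDU a)
      (Y.basicOpen_le _)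
    rw [hm a, hτ a, ← pow_add] at h1
    have hu : IsUnit (res (Y.basicOpen (f a)) (Y.basicOpen_le _) (f a)) :=
      Y.toRingedSpace.isUnit_res_basicOpen (f a)
    have hu2 : IsUnit (res (Y.basicOpen (f a)) (Y.basicOpen_le _) (SecOn.pairing (τ a) (m a))) := by
      rw [h1]; exact hu.pow _
    have := (isUnit_iff_le_basicOpen _).mp hu2
    rw [basicOpen_res'] at this
    exact this.trans inf_le_right
  have hspan : Ideal.span (Set.range fun a : β => SecOn.pairing (τ a) (m a)) = ⊤ := by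
    rw [← hW.self_le_iSup_basicOpen_iff]
    intro y hy
    obtain ⟨a, ha⟩ := Opens.mem_iSup.mp (hcov hy)
    exact Opens.mem_iSup.mpr ⟨⟨_, a, rfl⟩, hr a ha⟩
  have h1 : (1 : Γ(Y, W)) ∈ Ideal.span (Set.range fun a : β => SecOn.pairing (τ a) (m a)) := by
    rw [hspan]; trivial
  obtain ⟨c, hc⟩ := (Ideal.mem_span_range_iff_exists_fun).mp h1
  refine ⟨β, inferInstance, m, fun a => (τ a).smul (c a), ?_⟩
  rw [← hc]
  exact Finset.sum_congr rfl fun a _ => SecOn.pairing_smul_left (c a) (τ a) (m a)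

end LB

end

end Fermat.Agent.AV
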