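/-
AV (helper1): bridge of `LB.exists_partition_of_unity` (file `LBS_helper1_QC`) to helper8's module
language (`CP.pair`, `Fin n`-indexed), the shape requested by the producer side.
-/
import Mathlib
import Fermat.Agent.AV.LBS_helper1_QC
import Fermat.Agent.AV.CP_helper8_SecMod

set_option autoImplicit false

open AlgebraicGeometry CategoryTheory Opposite TopologicalSpace

universe u

namespace Fermat.Agent.AV.CP

open Fermat.Agent.AV Fermat.Agent.AV.LB

noncomputable section

variable {Y : Scheme.{u}} {L : LB Y} {W : Y.Opens}

/-- helper8's pairing and helper1's pairing agree. -/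
theorem pair_eq_pairing (t : L.inv.SecOn W) (m : L.SecOn W) :
    CP.pair t m = LB.SecOn.pairing t m :=
  CP.pair_eq_of t m _ fun i => LB.SecOn.res_pairing t m i

/-- **(QC)** in the producer's language: over an affine open, `L` admits a finite partition of
unity against `L⁻¹`. -/
theorem exists_partition_of_isAffineOpen (L : LB Y) {W : Y.Opens} (hW : IsAffineOpen W) :
    ∃ (n : ℕ) (m : Fin n → L.SecOn W) (t : Fin n → L.inv.SecOn W),
      ∑ k, CP.pair (t k) (m k) = 1 := by
  obtain ⟨β, hβ, m, τ, h⟩ := L.exists_partition_of_unity hW
  refine ⟨Fintype.card β, fun k => m ((Fintype.equivFin β).symm k),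
    fun k => τ ((Fintype.equivFin β).symm k), ?_⟩
  rw [← h]
  simp only [pair_eq_pairing]
  exact Fintype.sum_equiv (Fintype.equivFin β).symm _ _ (fun _ => rfl)

end

end Fermat.Agent.AV.CP
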