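/-
PROJECT AV — producer side (helper8).

`CP_helper8_Main`: the end products of the producer side.
* `hasH0UnivPresentations_of_poleSystem'`: a `PoleSystem K X` gives universal `H⁰`-presentations
  (`HasH0UnivPresentations`), the partition-of-unity input (QC) being helper1's
  `exists_partition_of_isAffineOpen`;
* `H0UnivPresentation.toH0Presentation`, `hasH0Presentations_of_univ`: the universal version (v2)
  implies the `K`-point version (v1) consumed by the seesaw theorem.
-/
import Mathlib
import Fermat.Agent.AV.CP_helper8_Present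
import Fermat.Agent.AV.LBS_helper1_QCBridge

set_option autoImplicit false

open AlgebraicGeometry CategoryTheory

universe u

namespace Fermat.Agent.AV.CP

noncomputable section

variable {K : Type u} [Field K]

/-- an endomorphism `σ` of `Spec K` with `iX ≫ σ = iX` is the identity, when `X` is non-empty. -/
theorem eq_id_of_comp_eq {X : Scheme.{u}} [Nonempty X] (iX : X ⟶ Spec (CommRingCat.of K))
    (σ : Spec (CommRingCat.of K) ⟶ Spec (CommRingCat.of K)) (h : iX ≫ σ = iX) : σ = 𝟙 _ := by
  obtain ⟨f, rfl⟩ := Spec.map_surjective σ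
  have hinj : Function.Injective (constMap iX) := by
    have : Nontrivial Γ(X, ⊤) :=
      @Scheme.component_nontrivial X ⊤ ⟨⟨Classical.arbitrary X, trivial⟩⟩
    exact (constMap iX).injective
  have hf : ∀ c : K, f.hom c = c := by
    intro c
    apply hinj
    have h1 := congrArg (fun g => (Scheme.Hom.appTop g).hom ((Scheme.ΓSpecIso (CommRingCat.of K)).inv.hom c)) h
    simp only [Scheme.Hom.comp_appTop, CommRingCat.hom_comp, RingHom.comp_apply] at h1
    have h2 : (Spec.map f).appTop.hom ((Scheme.ΓSpecIso (CommRingCat.of K)).inv.hom c) =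
        (Scheme.ΓSpecIso (CommRingCat.of K)).inv.hom (f.hom c) := by
      have := Scheme.ΓSpecIso_inv_naturality f
      have h3 := congrArg (fun g => g.hom c) this
      simp only [CommRingCat.hom_comp, RingHom.comp_apply] at h3
      exact h3.symm
    rw [h2] at h1
    exact h1
  have : f = 𝟙 _ := by
    ext c
    exact hf c
  rw [this, Spec.map_id]

/-- transport of kernels along an equality of matrices. -/
def kerCongr {R : Type u} [CommRing R] {n₀ n₁ : ℕ} {d d' : Matrix (Fin n₁) (Fin n₀) R}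
    (h : d = d') : LinearMap.ker d.mulVecLin ≃+ LinearMap.ker d'.mulVecLin where
  toFun v := ⟨v.1, by subst h; exact v.2⟩
  invFun v := ⟨v.1, by subst h; exact v.2⟩
  left_inv _ := rfl
  right_inv _ := rfl
  map_add' _ _ := rfl

@[simp] theorem kerCongr_apply {R : Type u} [CommRing R] {n₀ n₁ : ℕ}
    {d d' : Matrix (Fin n₁) (Fin n₀) R} (h : d = d') (v : LinearMap.ker d.mulVecLin) :
    ((kerCongr h v : LinearMap.ker d'.mulVecLin) : Fin n₀ → R) = v.1 := rfl

/-- transport of kernels along a ring isomorphism. -/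
def kerMapEquiv {R R' : Type u} [CommRing R] [CommRing R'] (ρ : R ≃+* R') {n₀ n₁ : ℕ}
    (d : Matrix (Fin n₁) (Fin n₀) R) :
    LinearMap.ker d.mulVecLin ≃+ LinearMap.ker (d.map ρ).mulVecLin where
  toFun v := ⟨fun a => ρ (v.1 a), by
    rw [LinearMap.mem_ker, Matrix.mulVecLin_apply]
    funext i
    have h := RingHom.map_mulVec (ρ : R →+* R') d v.1 i
    have hv := v.2
    rw [LinearMap.mem_ker, Matrix.mulVecLin_apply] at hv
    rw [hv] at h
    simp only [Pi.zero_apply, map_zero] at h
    exact h.symm⟩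
  invFun v := ⟨fun a => ρ.symm (v.1 a), by
    rw [LinearMap.mem_ker, Matrix.mulVecLin_apply]
    funext i
    have h := RingHom.map_mulVec (ρ.symm : R' →+* R) (d.map ρ) v.1 i
    have hv := v.2
    rw [LinearMap.mem_ker, Matrix.mulVecLin_apply] at hv
    rw [hv] at h
    simp only [Pi.zero_apply, map_zero] at h
    have hd : (d.map ρ).map (ρ.symm : R' →+* R) = d := by
      ext i j
      simp
    rw [hd] at h
    exact h.symm⟩
  left_inv v := by
    apply Subtype.ext
    funext a
    simp
  right_inv v := by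
    apply Subtype.ext
    funext a
    simp
  map_add' v w := by
    apply Subtype.ext
    funext a
    simp

@[simp] theorem kerMapEquiv_apply {R R' : Type u} [CommRing R] [CommRing R'] (ρ : R ≃+* R')
    {n₀ n₁ : ℕ} (d : Matrix (Fin n₁) (Fin n₀) R) (v : LinearMap.ker d.mulVecLin) (a : Fin n₀) :
    ((kerMapEquiv ρ d v : LinearMap.ker (d.map ρ).mulVecLin) : Fin n₀ → R') a = ρ (v.1 a) := rfl

variable {X T Y : Scheme.{u}} {iX : X ⟶ Spec (CommRingCat.of K)} {p₁ : Y ⟶ X} {p₂ : Y ⟶ T}
  {L : LB Y}

/-- `e` only depends on the morphisms up to propositional equality. -/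
theorem H0UnivPresentation.e_congr (PU : H0UnivPresentation p₂ L) {T' Y' : Scheme.{u}}
    {φ φ₂ : T' ⟶ T} {p₂' : Y' ⟶ T'} {ψ ψ₂ : Y' ⟶ Y} (hT' : IsAffine T')
    (H' : IsPullback ψ p₂' p₂ φ) (H₂ : IsPullback ψ₂ p₂' p₂ φ₂) (hφ : φ = φ₂) (hψ : ψ = ψ₂)
    (s : L.H0) (a : Fin PU.n₀) :
    (PU.e φ p₂' ψ hT' H' (L.pullbackSection ψ s) : Fin PU.n₀ → Γ(T', ⊤)) a =
      (PU.e φ₂ p₂' ψ₂ hT' H₂ (L.pullbackSection ψ₂ s) : Fin PU.n₀ → Γ(T', ⊤)) a := by
  subst hφ
  subst hψ
  rfl

/-- the fibre square over a `K`-point. -/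
theorem isPullback_fibre [Nonempty X] {iT : T ⟶ Spec (CommRingCat.of K)}
    (H : IsPullback p₁ p₂ iX iT) (t : Spec (CommRingCat.of K) ⟶ T) (j : X ⟶ Y)
    (h1 : j ≫ p₁ = 𝟙 X) (h2 : j ≫ p₂ = iX ≫ t) : IsPullback j iX p₂ t := by
  have hσ : t ≫ iT = 𝟙 _ := by
    apply eq_id_of_comp_eq iX
    rw [← Category.assoc, ← h2, Category.assoc, ← H.w, ← Category.assoc, h1, Category.id_comp]
  refine IsPullback.of_right ?_ h2 H
  rw [h1, hσ]
  exact IsPullback.id_horiz iX

/-- the ring isomorphism `Γ(Spec K, ⊤) ≃+* K`. -/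
def ΓSpecEquiv (K : Type u) [Field K] : Γ(Spec (CommRingCat.of K), ⊤) ≃+* K :=
  (Scheme.ΓSpecIso (CommRingCat.of K)).commRingCatIsoToRingEquiv

theorem evalAt_eq (t : Spec (CommRingCat.of K) ⟶ T) (b : Γ(T, ⊤)) :
    evalAt t b = ΓSpecEquiv K (t.appTop.hom b) := rfl

/-- **v2 ⇒ v1**: a universal presentation gives a presentation at all `K`-points. -/
def H0UnivPresentation.toH0Presentation [Nonempty X] (PU : H0UnivPresentation p₂ L)
    {iT : T ⟶ Spec (CommRingCat.of K)} (H : IsPullback p₁ p₂ iX iT) (hT : IsAffine T) :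
    H0Presentation iX p₁ p₂ L where
  n₀ := PU.n₀
  n₁ := PU.n₁
  d := PU.d
  e := (show L.H0 ≃+ _ from PU.e (𝟙 T) p₂ (𝟙 Y) hT (IsPullback.id_horiz p₂)).trans
    (kerCongr (by ext i j; simp))
  e_smul := fun b s => by
    apply Subtype.ext
    have h := PU.e_smul (𝟙 T) p₂ (𝟙 Y) hT (IsPullback.id_horiz p₂) b s
    exact h
  eFib := fun t j h1 h2 =>
    (PU.e t iX j inferInstance (isPullback_fibre H t j h1 h2)).trans
      ((kerMapEquiv (ΓSpecEquiv K) _).trans (kerCongr (by ext i j; rfl)))
  eFib_smul := fun t j h1 h2 c s => by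
    apply Subtype.ext
    funext a
    have h := PU.e_smul t iX j inferInstance (isPullback_fibre H t j h1 h2)
      ((Scheme.ΓSpecIso (CommRingCat.of K)).inv.hom c) s
    have h' := congrFun h a
    simp only [AddEquiv.trans_apply, kerCongr_apply, kerMapEquiv_apply]
    show ΓSpecEquiv K ((PU.e t iX j inferInstance (isPullback_fibre H t j h1 h2)
      (iX.appTop.hom ((Scheme.ΓSpecIso (CommRingCat.of K)).inv.hom c) • s) :
        Fin PU.n₀ → Γ(Spec (CommRingCat.of K), ⊤)) a) = _
    rw [h']
    simp only [Pi.smul_apply, smul_eq_mul, map_mul]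
    congr 1
    exact (ΓSpecEquiv K).apply_symm_apply c
  compat := fun t j h1 h2 s a => by
    have h := PU.e_comp (𝟙 T) p₂ (𝟙 Y) hT (IsPullback.id_horiz p₂) t iX j inferInstance
      (isPullback_fibre H t j h1 h2) s a
    have h2' := PU.e_congr inferInstance
      ((isPullback_fibre H t j h1 h2).paste_horiz (IsPullback.id_horiz p₂))
      (isPullback_fibre H t j h1 h2) (Category.comp_id t) (Category.comp_id j) s a
    simp only [AddEquiv.trans_apply, kerCongr_apply, kerMapEquiv_apply]
    rw [evalAt_eq]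
    exact congrArg (ΓSpecEquiv K) (h2'.symm.trans h)

/-- **v2 ⇒ v1** for all products. -/
theorem hasH0Presentations_of_univ [Nonempty X] (h : HasH0UnivPresentations iX) :
    HasH0Presentations iX := by
  intro T Y iT p₁ p₂ H hT L
  obtain ⟨PU⟩ := h iT p₁ p₂ H hT L
  exact ⟨PU.toH0Presentation H hT⟩

/-- The producer's main theorem with (QC) discharged (helper1's partition of unity). -/
theorem hasH0UnivPresentations_of_poleSystem' {X : Scheme.{u}} [KScheme K X]
    (PS : PoleSystem K X) : HasH0UnivPresentations (KScheme.str (K := K) (X := X)) :=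
  hasH0UnivPresentations_of_poleSystem PS (fun L _ hW => exists_partition_of_isAffineOpen L hW)

/-- The `K`-point version (the interface of the seesaw theorem). -/
theorem hasH0Presentations_of_poleSystem {X : Scheme.{u}} [KScheme K X] [Nonempty X]
    (PS : PoleSystem K X) : HasH0Presentations (KScheme.str (K := K) (X := X)) :=
  hasH0Presentations_of_univ (hasH0UnivPresentations_of_poleSystem' PS)

end

end Fermat.Agent.AV.CP
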