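/-
PROJECT AV — producer side (helper8).

`CP_helper8_Smooth`: for `X` smooth, proper and integral over an algebraically closed field `K`
(e.g. `A`, `A × A`), a `PoleSystem K X` exists and hence `HasH0UnivPresentations` /
`HasH0Presentations` hold — given the finite-dimensionality (FIN) of helper5's spaces
`LB.ratioSubmodule m s = {σ / s^m}` for the pairs `(M, s)` cutting out the complement of an
affine open.  Inputs: helper7's `stalk_ufm` (local factoriality), helper5's (7d)
`exists_LB_of_isAffineOpen_of_closedPoints`, helper1's (QC).
-/
import Mathlib
import Fermat.Agent.AV.CP_helper8_CartierFin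
import Fermat.Agent.AV.CP_helper8_Main
import Fermat.Agent.AV.AV7_helper7_Main

set_option autoImplicit false
set_option linter.style.haveILetI false

open AlgebraicGeometry CategoryTheory Opposite TopologicalSpace

universe u

namespace Fermat.Agent.AV.CP

open Fermat.Agent.AV

noncomputable section

variable {K : Type u} [Field K] [IsAlgClosed K] {X : Scheme.{u}} [KScheme K X] [IsIntegral X]
  [Algebra K X.functionField]

/-- **Pole systems on smooth proper varieties** over an algebraically closed field, given the
finite-dimensionality of the spaces `{σ / s^m}`. -/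
theorem nonempty_poleSystem_of_smooth_proper
    [Smooth (KScheme.str (K := K) (X := X))] [IsProper (KScheme.str (K := K) (X := X))]
    (halg : ∀ c : K, algebraMap K X.functionField c =
      (functionFieldStrMap (KScheme.str (K := K) (X := X))).hom c)
    (hfin : ∀ (M : LB X) (s : M.H0) (U : X.Opens), IsAffineOpen U → Nonempty U →
      (∀ c, X.basicOpen (s.1 c) = M.U c ⊓ U) → ∀ m : ℕ,
        FiniteDimensional K (M.ratioSubmodule KScheme.str halg m s)) :
    Nonempty (PoleSystem K X) := by
  have hlft : LocallyOfFiniteType (KScheme.str (K := K) (X := X)) := inferInstance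
  haveI : IsLocallyNoetherian X := LocallyOfFiniteType.isLocallyNoetherian (KScheme.str (K := K))
  haveI : CompactSpace X := by
    have : QuasiCompact (KScheme.str (K := K) (X := X)) := inferInstance
    exact QuasiCompact.compactSpace_of_compactSpace (KScheme.str (K := K) (X := X))
  haveI : IsNoetherian X := { }
  haveI : X.IsSeparated := by
    constructor
    rw [← Limits.terminal.comp_from (KScheme.str (K := K) (X := X))]
    infer_instance
  have hcompact : ∀ W : X.Opens, IsCompact (W : Set X) := fun W =>
    TopologicalSpace.NoetherianSpace.isCompact _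
  refine nonempty_poleSystem_of_ratio_finite halg (fun U V hU hV => hU.inf hV) hcompact ?_ hfin
  intro U hU hne
  haveI := hne
  exact exists_LB_of_isAffineOpen_of_closedPoints hU
    (fun y hy => (stalk_ufm (KScheme.str (K := K) (X := X)) y hy).2)

/-- universal `H⁰`-presentations on smooth proper varieties. -/
theorem hasH0UnivPresentations_of_smooth_proper
    [Smooth (KScheme.str (K := K) (X := X))] [IsProper (KScheme.str (K := K) (X := X))]
    (halg : ∀ c : K, algebraMap K X.functionField c =
      (functionFieldStrMap (KScheme.str (K := K) (X := X))).hom c)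
    (hfin : ∀ (M : LB X) (s : M.H0) (U : X.Opens), IsAffineOpen U → Nonempty U →
      (∀ c, X.basicOpen (s.1 c) = M.U c ⊓ U) → ∀ m : ℕ,
        FiniteDimensional K (M.ratioSubmodule KScheme.str halg m s)) :
    HasH0UnivPresentations (KScheme.str (K := K) (X := X)) := by
  obtain ⟨PS⟩ := nonempty_poleSystem_of_smooth_proper halg hfin
  exact hasH0UnivPresentations_of_poleSystem' PS

/-- `H⁰`-presentations at `K`-points on smooth proper varieties. -/
theorem hasH0Presentations_of_smooth_proper
    [Smooth (KScheme.str (K := K) (X := X))] [IsProper (KScheme.str (K := K) (X := X))]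
    (halg : ∀ c : K, algebraMap K X.functionField c =
      (functionFieldStrMap (KScheme.str (K := K) (X := X))).hom c)
    (hfin : ∀ (M : LB X) (s : M.H0) (U : X.Opens), IsAffineOpen U → Nonempty U →
      (∀ c, X.basicOpen (s.1 c) = M.U c ⊓ U) → ∀ m : ℕ,
        FiniteDimensional K (M.ratioSubmodule KScheme.str halg m s)) :
    HasH0Presentations (KScheme.str (K := K) (X := X)) :=
  hasH0Presentations_of_univ (hasH0UnivPresentations_of_smooth_proper halg hfin)

end
end Fermat.Agent.AV.CP
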