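/-
PROJECT AV — producer side (helper8).

`CP_helper8_Final`: **the unconditional end product of the producer side.**  For `X` smooth, proper
and integral over an algebraically closed field `K` (e.g. `A`, `A × A`):
* `nonempty_poleSystem_of_isProper_of_smooth : Nonempty (PoleSystem K X)`;
* `hasH0UnivPresentations_of_isProper_of_smooth (iX) : HasH0UnivPresentations iX`;
* `hasH0Presentations_of_isProper_of_smooth (iX) : HasH0Presentations iX`.
Inputs: helper5's FIN-final `LB.exists_upper_bound` (finite-dimensionality of `{σ / s^m}`),
helper5's (7d), helper7's `stalk_ufm`, helper1's (QC), helper2's upper bound.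
-/
import Mathlib
import Fermat.Agent.AV.CP_helper8_Smooth
import Fermat.Agent.AV.AV4_helper5_FinDim

set_option autoImplicit false
set_option linter.style.haveILetI false

open AlgebraicGeometry CategoryTheory Opposite TopologicalSpace

universe u

namespace Fermat.Agent.AV.CP

open Fermat.Agent.AV

noncomputable section

variable {K : Type u} [Field K] [IsAlgClosed K] {X : Scheme.{u}}

/-- **Pole systems exist on smooth proper integral `K`-schemes.** -/
theorem nonempty_poleSystem_of_isProper_of_smooth [KScheme K X] [IsIntegral X]
    [Smooth (KScheme.str (K := K) (X := X))] [IsProper (KScheme.str (K := K) (X := X))] :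
    Nonempty (PoleSystem K X) := by
  letI : Algebra K X.functionField :=
    (functionFieldStrMap (KScheme.str (K := K) (X := X))).hom.toAlgebra
  have halg : ∀ c : K, algebraMap K X.functionField c =
      (functionFieldStrMap (KScheme.str (K := K) (X := X))).hom c := fun _ => rfl
  haveI : CompactSpace X :=
    QuasiCompact.compactSpace_of_compactSpace (KScheme.str (K := K) (X := X))
  refine nonempty_poleSystem_of_smooth_proper halg ?_
  intro M s U hUaff hne hU m
  haveI := hne
  obtain ⟨g, x, -, c₂, h⟩ := M.exists_upper_bound (KScheme.str (K := K) (X := X)) halg s U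
    hUaff hU
  exact (h m).1

/-- **Universal `H⁰`-presentations** for all line bundles on all products `X ×_K T` (`T` affine),
`X` smooth proper integral over an algebraically closed field. -/
theorem hasH0UnivPresentations_of_isProper_of_smooth (iX : X ⟶ Spec (CommRingCat.of K))
    [Smooth iX] [IsProper iX] [IsIntegral X] : HasH0UnivPresentations iX := by
  letI : KScheme K X := ⟨iX⟩
  obtain ⟨PS⟩ := nonempty_poleSystem_of_isProper_of_smooth (K := K) (X := X)
  have h : HasH0UnivPresentations (KScheme.str (K := K) (X := X)) :=
    hasH0UnivPresentations_of_poleSystem' PS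
  intro T Y iT p₁ p₂ H hT L
  exact h iT p₁ p₂ H hT L

/-- **`H⁰`-presentations at `K`-points** (the input of the seesaw theorem). -/
theorem hasH0Presentations_of_isProper_of_smooth (iX : X ⟶ Spec (CommRingCat.of K))
    [Smooth iX] [IsProper iX] [IsIntegral X] : HasH0Presentations iX :=
  hasH0Presentations_of_univ (hasH0UnivPresentations_of_isProper_of_smooth iX)

end
end Fermat.Agent.AV.CP
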