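/-
PROJECT AV (S26 long shot) — cohomological primitives, producer side (helper8).

`CP_helper8_Iface`: the MEETING INTERFACE between the producer of the universal `H⁰`-complex
(helper8) and its consumers (helper7: semicontinuity / Grauert-`H⁰`; helper1: seesaw; helper3: cube).

For `Y = X ×_K T` with `T` affine, and a line bundle `L : LB Y` (helper5's cocycle model),
an `H0Presentation` is a matrix `d` over `B = Γ(T, ⊤)` together with
* an additive isomorphism `e : L.H0 ≃+ ker d`, semilinear over `p₂^* : B → Γ(Y, ⊤)`;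
* for every `K`-point `t` of `T` (with fibre inclusion `j : X ⟶ Y`, `j ≫ p₁ = 𝟙`, `j ≫ p₂ = iX ≫ t`)
  an additive isomorphism `eFib : (L.pullback j).H0 ≃+ ker d(t)`, `K`-semilinear;
* compatibility: the restriction of a global section to the fibre over `t` corresponds to the
  evaluation of the kernel vector at `t`.
-/
import Mathlib
import Fermat.Agent.AV.LB_helper5_Core

set_option autoImplicit false

open AlgebraicGeometry CategoryTheory

universe u

namespace Fermat.Agent.AV.CP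

noncomputable section

/-- Evaluation of global functions of `T` at a `K`-point `t : Spec K ⟶ T`. -/
def evalAt {K : Type u} [Field K] {T : Scheme.{u}} (t : Spec (CommRingCat.of K) ⟶ T) :
    Γ(T, ⊤) →+* K :=
  ((Scheme.ΓSpecIso (CommRingCat.of K)).hom.hom).comp t.appTop.hom

/-- The constants `K → Γ(X, ⊤)` of a `K`-scheme. -/
def constMap {K : Type u} [Field K] {X : Scheme.{u}} (iX : X ⟶ Spec (CommRingCat.of K)) :
    K →+* Γ(X, ⊤) :=
  iX.appTop.hom.comp (Scheme.ΓSpecIso (CommRingCat.of K)).inv.hom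

/-- A universal (at closed points) presentation of `H⁰(X × T, L)` as the kernel of a matrix over
`Γ(T, ⊤)`. -/
structure H0Presentation {K : Type u} [Field K] {X T Y : Scheme.{u}}
    (iX : X ⟶ Spec (CommRingCat.of K)) (p₁ : Y ⟶ X) (p₂ : Y ⟶ T) (L : LB Y) where
  /-- number of columns (rank of `K⁰`) -/
  n₀ : ℕ
  /-- number of rows (rank of `K¹`) -/
  n₁ : ℕ
  /-- the differential `K⁰ → K¹` -/
  d : Matrix (Fin n₁) (Fin n₀) Γ(T, ⊤)
  /-- global sections are the kernel of `d` -/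
  e : L.H0 ≃+ LinearMap.ker d.mulVecLin
  e_smul : ∀ (b : Γ(T, ⊤)) (s : L.H0), e (p₂.appTop.hom b • s) = b • e s
  /-- sections on the fibre over `t` are the kernel of `d(t)` -/
  eFib : ∀ (t : Spec (CommRingCat.of K) ⟶ T) (j : X ⟶ Y), j ≫ p₁ = 𝟙 X → j ≫ p₂ = iX ≫ t →
    ((L.pullback j).H0 ≃+ LinearMap.ker (d.map (evalAt t)).mulVecLin)
  eFib_smul : ∀ (t : Spec (CommRingCat.of K) ⟶ T) (j : X ⟶ Y) (h1 : j ≫ p₁ = 𝟙 X)
    (h2 : j ≫ p₂ = iX ≫ t) (c : K) (s : (L.pullback j).H0),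
    eFib t j h1 h2 (constMap iX c • s) = c • eFib t j h1 h2 s
  /-- restriction to the fibre = evaluation at `t` -/
  compat : ∀ (t : Spec (CommRingCat.of K) ⟶ T) (j : X ⟶ Y) (h1 : j ≫ p₁ = 𝟙 X)
    (h2 : j ≫ p₂ = iX ≫ t) (s : L.H0) (a : Fin n₀),
    (eFib t j h1 h2 (L.pullbackSection j s) : Fin n₀ → K) a =
      evalAt t ((e s : Fin n₀ → Γ(T, ⊤)) a)

/-- The statement the producer side delivers for a fixed `X`: every line bundle on every product
`X ×_K T` with `T` affine has an `H⁰`-presentation. -/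
def HasH0Presentations {K : Type u} [Field K] {X : Scheme.{u}}
    (iX : X ⟶ Spec (CommRingCat.of K)) : Prop :=
  ∀ {T Y : Scheme.{u}} (iT : T ⟶ Spec (CommRingCat.of K)) (p₁ : Y ⟶ X) (p₂ : Y ⟶ T),
    IsPullback p₁ p₂ iX iT → IsAffine T → ∀ L : LB Y, Nonempty (H0Presentation iX p₁ p₂ L)

/-! ### First consequences (sanity checks of the interface) -/

variable {K : Type u} [Field K] {X T Y : Scheme.{u}}
  {iX : X ⟶ Spec (CommRingCat.of K)} {p₁ : Y ⟶ X} {p₂ : Y ⟶ T} {L : LB Y}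

/-- The fibre over `t` has a non-zero section iff `d(t)` has a non-trivial kernel. -/
theorem H0Presentation.exists_ne_zero_iff (P : H0Presentation iX p₁ p₂ L)
    (t : Spec (CommRingCat.of K) ⟶ T) (j : X ⟶ Y) (h1 : j ≫ p₁ = 𝟙 X) (h2 : j ≫ p₂ = iX ≫ t) :
    (∃ s : (L.pullback j).H0, s ≠ 0) ↔
      ∃ v : Fin P.n₀ → K, v ≠ 0 ∧ (P.d.map (evalAt t)).mulVec v = 0 := by
  constructor
  · rintro ⟨s, hs⟩
    refine ⟨(P.eFib t j h1 h2 s : Fin P.n₀ → K), ?_, ?_⟩
    · intro h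
      apply hs
      apply (P.eFib t j h1 h2).injective
      rw [map_zero]
      exact Subtype.ext h
    · have h := (P.eFib t j h1 h2 s).2
      rw [LinearMap.mem_ker, Matrix.mulVecLin_apply] at h
      exact h
  · rintro ⟨v, hv, hdv⟩
    have hmem : v ∈ LinearMap.ker (P.d.map (evalAt t)).mulVecLin := by
      rw [LinearMap.mem_ker, Matrix.mulVecLin_apply]
      exact hdv
    refine ⟨(P.eFib t j h1 h2).symm ⟨v, hmem⟩, ?_⟩
    intro h
    apply hv
    have := congrArg (P.eFib t j h1 h2) h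
    rw [AddEquiv.apply_symm_apply, map_zero] at this
    exact congrArg Subtype.val this

/-- A global kernel vector `v` gives a global section whose restriction to the fibre over `t`
is non-zero as soon as `v(t) ≠ 0`. -/
theorem H0Presentation.exists_section_of_ker (P : H0Presentation iX p₁ p₂ L)
    (v : Fin P.n₀ → Γ(T, ⊤)) (hv : P.d.mulVec v = 0) :
    ∃ σ : L.H0, ∀ (t : Spec (CommRingCat.of K) ⟶ T) (j : X ⟶ Y) (_ : j ≫ p₁ = 𝟙 X)
      (_ : j ≫ p₂ = iX ≫ t), (∃ a, evalAt t (v a) ≠ 0) → L.pullbackSection j σ ≠ 0 := by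
  have hmem : v ∈ LinearMap.ker P.d.mulVecLin := by
    rw [LinearMap.mem_ker, Matrix.mulVecLin_apply]
    exact hv
  refine ⟨P.e.symm ⟨v, hmem⟩, ?_⟩
  rintro t j h1 h2 ⟨a, ha⟩ h0
  apply ha
  have := P.compat t j h1 h2 (P.e.symm ⟨v, hmem⟩) a
  rw [AddEquiv.apply_symm_apply, h0, map_zero] at this
  exact this.symm

/-! ### The universal version (all affine base changes, e.g. Artinian thickenings) -/

/-- A universal presentation of `p₂_* L` for `p₂ : Y ⟶ T`: a matrix `d` over `Γ(T, ⊤)` such that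
for EVERY cartesian square `Y' = Y ×_T T'` with `T'` affine, the global sections of the pull-back
of `L` to `Y'` are the kernel of the base-changed matrix, semilinearly and compatibly with further
base change. -/
structure H0UnivPresentation {T Y : Scheme.{u}} (p₂ : Y ⟶ T) (L : LB Y) where
  /-- number of columns (rank of `K⁰`) -/
  n₀ : ℕ
  /-- number of rows (rank of `K¹`) -/
  n₁ : ℕ
  /-- the differential `K⁰ → K¹` -/
  d : Matrix (Fin n₁) (Fin n₀) Γ(T, ⊤)
  /-- sections over `Y' = Y ×_T T'` are the kernel of `d ⊗ Γ(T', ⊤)` -/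
  e : ∀ {T' Y' : Scheme.{u}} (φ : T' ⟶ T) (p₂' : Y' ⟶ T') (ψ : Y' ⟶ Y), IsAffine T' →
    IsPullback ψ p₂' p₂ φ →
    ((L.pullback ψ).H0 ≃+ LinearMap.ker (d.map φ.appTop.hom).mulVecLin)
  e_smul : ∀ {T' Y' : Scheme.{u}} (φ : T' ⟶ T) (p₂' : Y' ⟶ T') (ψ : Y' ⟶ Y) (hT' : IsAffine T')
    (H' : IsPullback ψ p₂' p₂ φ) (b : Γ(T', ⊤)) (s : (L.pullback ψ).H0),
    (e φ p₂' ψ hT' H' (p₂'.appTop.hom b • s) : Fin n₀ → Γ(T', ⊤)) =
      b • (e φ p₂' ψ hT' H' s : Fin n₀ → Γ(T', ⊤))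
  /-- compatibility with a further base change `T'' ⟶ T'` -/
  e_comp : ∀ {T' Y' T'' Y'' : Scheme.{u}} (φ : T' ⟶ T) (p₂' : Y' ⟶ T') (ψ : Y' ⟶ Y)
    (hT' : IsAffine T') (H' : IsPullback ψ p₂' p₂ φ)
    (φ' : T'' ⟶ T') (p₂'' : Y'' ⟶ T'') (χ : Y'' ⟶ Y') (hT'' : IsAffine T'')
    (H'' : IsPullback χ p₂'' p₂' φ') (s : (L.pullback ψ).H0) (a : Fin n₀),
    (e (φ' ≫ φ) p₂'' (χ ≫ ψ) hT'' (H''.paste_horiz H')
        ((L.pullback ψ).pullbackSection χ s) : Fin n₀ → Γ(T'', ⊤)) a =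
      φ'.appTop.hom ((e φ p₂' ψ hT' H' s : Fin n₀ → Γ(T', ⊤)) a)

/-- The statement the producer side delivers for a fixed `X` (universal version). -/
def HasH0UnivPresentations {K : Type u} [Field K] {X : Scheme.{u}}
    (iX : X ⟶ Spec (CommRingCat.of K)) : Prop :=
  ∀ {T Y : Scheme.{u}} (iT : T ⟶ Spec (CommRingCat.of K)) (p₁ : Y ⟶ X) (p₂ : Y ⟶ T),
    IsPullback p₁ p₂ iX iT → IsAffine T → ∀ L : LB Y, Nonempty (H0UnivPresentation p₂ L)

end

end Fermat.Agent.AV.CP
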