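/-
PROJECT AV (S26) — helper3 — [AV3c] **additive Čech 1-cocycles of the structure sheaf** (`AC X`),
coboundaries, pull-back, and the definition of the obstruction cocycle of a first-order
deformation of the trivial line bundle (`IsObstruction`).

Conventions as in helper5's `LB`: `a i j ∈ Γ(X, U i ⊓ U j)`, cocycle `a i j + a j k = a i k`.
-/
import Mathlib
import Fermat.Agent.AV.LB_helper5_Core
import Fermat.Agent.AV.LBS_helper1_SecOn

set_option autoImplicit false

open AlgebraicGeometry CategoryTheory Limits Opposite TopologicalSpace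

universe u

namespace Fermat.Agent.AV

noncomputable section

/-- an additive Čech 1-cocycle of the structure sheaf. -/
structure AC (X : Scheme.{u}) where
  ι : Type u
  U : ι → X.Opens
  iSup_U : ⨆ i, U i = ⊤
  a : ∀ i j, Γ(X, U i ⊓ U j)
  cocycle : ∀ i j k,
    res (U i ⊓ U j ⊓ U k) inf_le_left (a i j) +
      res (U i ⊓ U j ⊓ U k) (le_inf (inf_le_left.trans inf_le_right) inf_le_right) (a j k) =
    res (U i ⊓ U j ⊓ U k) (le_inf (inf_le_left.trans inf_le_left) inf_le_right) (a i k)

namespace AC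

variable {X : Scheme.{u}} (c : AC X)

/-- the cocycle relation on any open contained in the triple intersection. -/
theorem cocycle' (i j k : c.ι) (W : X.Opens) (hi : W ≤ c.U i) (hj : W ≤ c.U j) (hk : W ≤ c.U k) :
    res W (le_inf hi hj) (c.a i j) + res W (le_inf hj hk) (c.a j k) =
      res W (le_inf hi hk) (c.a i k) := by
  have h := congrArg (res W (le_inf (le_inf hi hj) hk)) (c.cocycle i j k)
  rw [map_add, res_res, res_res, res_res] at h
  exact h

theorem a_self (i : c.ι) : c.a i i = 0 := by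
  have h := c.cocycle' i i i (c.U i ⊓ c.U i) inf_le_left inf_le_left inf_le_left
  rw [res_self] at h
  exact add_eq_left.mp h |>.symm ▸ rfl

/-- `c` is a coboundary. -/
def IsCobdry : Prop :=
  ∃ b : ∀ i, Γ(X, c.U i), ∀ i j,
    c.a i j = res (c.U i ⊓ c.U j) inf_le_left (b i) - res (c.U i ⊓ c.U j) inf_le_right (b j)

/-- pull-back of an additive cocycle along an arbitrary morphism. -/
def pullback {Y : Scheme.{u}} (φ : Y ⟶ X) : AC Y where
  ι := c.ι
  U := fun i => φ ⁻¹ᵁ c.U i
  iSup_U := by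
    have h := congrArg (fun W => φ ⁻¹ᵁ W) c.iSup_U
    simp only [Opens.map_iSup] at h
    exact h
  a := fun i j => (φ.app (c.U i ⊓ c.U j)).hom (c.a i j)
  cocycle := fun i j k => by
    have h := congrArg (φ.app (c.U i ⊓ c.U j ⊓ c.U k)).hom (c.cocycle i j k)
    rw [map_add, app_res, app_res, app_res] at h
    exact h

theorem IsCobdry.pullback {Y : Scheme.{u}} (φ : Y ⟶ X) (h : c.IsCobdry) :
    (c.pullback φ).IsCobdry := by
  obtain ⟨b, hb⟩ := h
  refine ⟨fun i => (φ.app (c.U i)).hom (b i), fun i j => ?_⟩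
  have h := congrArg (φ.app (c.U i ⊓ c.U j)).hom (hb i j)
  rw [map_sub, app_res, app_res] at h
  exact h

end AC

/-! ### first-order thickenings -/

section thick

variable {W WR : Scheme.{u}}

/-- `a ↦ e · qW^*(a)`: for `WR = W ×_K Spec R` and `e` the image of `ε ∈ R` this is the
identification of `Γ(W, U)` with the kernel of `Γ(WR, U_R) → Γ(W_{R/ε}, U_{R/ε})`. -/
def epsT (qW : WR ⟶ W) (e : Γ(WR, ⊤)) (U : W.Opens) : Γ(W, U) →+ Γ(WR, qW ⁻¹ᵁ U) :=
  (AddMonoidHom.mulLeft (res (qW ⁻¹ᵁ U) le_top e)).comp (qW.app U).hom.toAddMonoidHom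

theorem epsT_apply (qW : WR ⟶ W) (e : Γ(WR, ⊤)) (U : W.Opens) (a : Γ(W, U)) :
    epsT qW e U a = res (qW ⁻¹ᵁ U) le_top e * (qW.app U).hom a := rfl

/-- `c` is an obstruction cocycle of `N` (w.r.t. `e`): there are local frames `t k` of `N` over
the opens `qW⁻¹(U k)` whose transition functions are `1 + e · qW^*(c.a k l)`. -/
def IsObstruction (qW : WR ⟶ W) (e : Γ(WR, ⊤)) (N : LB WR) (c : AC W) : Prop :=
  ∃ t : ∀ k, N.SecOn (qW ⁻¹ᵁ c.U k), (∀ k i, IsUnit ((t k).s i)) ∧
    ∀ k l, (t k).restrict (W' := qW ⁻¹ᵁ (c.U k ⊓ c.U l))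
        ((Opens.map qW.base).monotone inf_le_left) =
      ((t l).restrict (W' := qW ⁻¹ᵁ (c.U k ⊓ c.U l))
        ((Opens.map qW.base).monotone inf_le_right)).smul
          (1 + epsT qW e (c.U k ⊓ c.U l) (c.a k l))

end thick

end

end Fermat.Agent.AV
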