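/-
AV (helper1): model-independent facts about *functions* on `X ×_K T`, `X` proper integral over an
algebraically closed field `K`.  Used by the seesaw principle (AV3).

* `bijective_appTop_of_isProper` : `Γ(X, ⊤) = K`.
* `bijective_app_of_isPullback_of_isAffineOpen`, `bijective_app_of_isPullback` :
  `Γ(X ×_K T, pr₂⁻¹ V) = Γ(T, V)` for every open `V ⊆ T` (flat base change for `H⁰(O)`).
* `app_appLE_of_isPullback` : explicit inverse `s^*` for any section `s` of `pr₂`.
* `exists_point_of_isProper` : existence of a rational point.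
-/
import Mathlib

set_option autoImplicit false

open CategoryTheory Limits AlgebraicGeometry

universe u

namespace Fermat.Agent.AV

variable {K : Type u} [Field K]

/-- Global functions on a proper integral scheme over an algebraically closed field are constant. -/
theorem bijective_appTop_of_isProper [IsAlgClosed K] {X : Scheme.{u}}
    (iX : X ⟶ Spec (CommRingCat.of K)) [IsProper iX] [IsIntegral X] :
    Function.Bijective iX.appTop.hom := by
  let F := (Scheme.ΓSpecIso (CommRingCat.of K)).inv ≫ iX.appTop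
  have hfin : iX.appTop.hom.Finite := finite_appTop_of_universallyClosed K iX
  have hF : F.hom.Finite := by
    apply RingHom.finite_respectsIso.2 (e := (Scheme.ΓSpecIso _).symm.commRingCatIsoToRingEquiv)
    exact hfin
  suffices Function.Bijective F.hom by
    have h2 : iX.appTop = (Scheme.ΓSpecIso (CommRingCat.of K)).hom ≫ F := by simp [F]
    rw [h2]
    exact this.comp (ConcreteCategory.bijective_of_isIso (Scheme.ΓSpecIso (CommRingCat.of K)).hom)
  algebraize [F.hom]
  have : Algebra.IsIntegral K Γ(X, ⊤) := Algebra.IsIntegral.of_finite K _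
  exact IsAlgClosed.algebraMap_bijective_of_isIntegral

/-- Flat base change for functions along `X ×_K T → T`, `X` proper integral over the algebraically
closed field `K`: on an affine open `V ⊆ T`, every function on `X × V` comes from `V`. -/
theorem bijective_app_of_isPullback_of_isAffineOpen [IsAlgClosed K] {X T Y : Scheme.{u}}
    {iX : X ⟶ Spec (CommRingCat.of K)} {f : T ⟶ Spec (CommRingCat.of K)} {g : Y ⟶ X} {iY : Y ⟶ T}
    (H : IsPullback g iY iX f) [IsProper iX] [IsIntegral X] {V : T.Opens} (hV : IsAffineOpen V) :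
    Function.Bijective (iY.app V).hom := by
  have hflat : Flat f := inferInstance
  have hUST : V ≤ f ⁻¹ᵁ ⊤ := le_top
  have hUSX : (⊤ : X.Opens) ≤ iX ⁻¹ᵁ ⊤ := le_top
  have hUY : iY ⁻¹ᵁ V = g ⁻¹ᵁ ⊤ ⊓ iY ⁻¹ᵁ V := by simp
  have : CompactSpace X := (quasiCompact_iff_compactSpace iX).mp inferInstance
  have : QuasiSeparatedSpace X := quasiSeparatedSpace_of_quasiSeparated iX
  have hiso := isIso_pushoutSection_of_isQuasiSeparated_of_flat_right H hUST hUSX hUY
    (isAffineOpen_top _) hV (isCompact_univ) (by exact isQuasiSeparated_univ)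
  have h1 : IsIso (iX.appLE ⊤ ⊤ hUSX) := by
    have : iX.appLE ⊤ ⊤ hUSX = iX.appTop := by
      rw [Scheme.Hom.appLE, Scheme.Hom.appTop]
      have : X.presheaf.map (homOfLE hUSX).op = 𝟙 _ := X.presheaf.map_id _
      rw [this]
      exact Category.comp_id _
    rw [this]
    exact (ConcreteCategory.isIso_iff_bijective _).mpr (bijective_appTop_of_isProper iX)
  have h2 : iY.app V = pushout.inr (iX.appLE ⊤ ⊤ hUSX) (f.appLE ⊤ V hUST) ≫
      pushoutSection H hUST hUSX hUY := by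
    dsimp only [pushoutSection]
    rw [pushout.inr_desc, Scheme.Hom.appLE_eq_app]
  have h3 : IsIso (iY.app V) := by rw [h2]; infer_instance
  exact ConcreteCategory.bijective_of_isIso (iY.app V)

theorem id_appLE' {T : Scheme.{u}} (W : T.Opens) (e : W ≤ (𝟙 T) ⁻¹ᵁ W) :
    (𝟙 T : T ⟶ T).appLE W W e = 𝟙 _ := by
  rw [Scheme.Hom.appLE, Scheme.Hom.id_app]
  exact T.presheaf.map_id _

theorem appLE_of_comp_eq_id {T Y : Scheme.{u}} (iY : Y ⟶ T) (s : T ⟶ Y) (hs : s ≫ iY = 𝟙 T)
    (W : T.Opens) (e : W ≤ s ⁻¹ᵁ (iY ⁻¹ᵁ W)) (b : Γ(T, W)) :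
    (s.appLE (iY ⁻¹ᵁ W) W e).hom ((iY.app W).hom b) = b := by
  have h1 : iY.app W ≫ s.appLE (iY ⁻¹ᵁ W) W e = (s ≫ iY).appLE W W e :=
    (Scheme.Hom.comp_appLE s iY W W e).symm
  have h2 : (s ≫ iY).appLE W W e = 𝟙 _ := by
    have : ∀ (φ : T ⟶ T) (hφ : φ = 𝟙 T) (e' : W ≤ φ ⁻¹ᵁ W), φ.appLE W W e' = 𝟙 _ := by
      intro φ hφ e'
      subst hφ
      exact id_appLE' W e'
    exact this _ hs e
  have := congrArg (fun φ => φ.hom b) (h1.trans h2)
  simpa using this

/-- If `s` is a section of `iY : Y ⟶ T` and `iY^*` is surjective on functions over every affine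
open, then every function `h` on `iY⁻¹ V` is the pull-back of its restriction `s^* h`. -/
theorem app_appLE_of_section {T Y : Scheme.{u}} (iY : Y ⟶ T) (s : T ⟶ Y) (hs : s ≫ iY = 𝟙 T)
    (haff : ∀ W : T.Opens, IsAffineOpen W → Function.Surjective (iY.app W).hom)
    (V : T.Opens) (hle : V ≤ s ⁻¹ᵁ (iY ⁻¹ᵁ V)) (h : Γ(Y, iY ⁻¹ᵁ V)) :
    (iY.app V).hom ((s.appLE (iY ⁻¹ᵁ V) V hle).hom h) = h := by
  -- check the equality locally on the cover `iY⁻¹ W`, `W ≤ V` affine
  refine (Y.IsSheaf).section_ext ?_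
  intro y hy
  obtain ⟨_, ⟨W, hW, rfl⟩, hyW, hWV⟩ :=
    T.isBasis_affineOpens.exists_subset_of_mem_open (show iY y ∈ (V : Set T) from hy) V.2
  have hWV' : W ≤ V := hWV
  refine ⟨iY ⁻¹ᵁ W, iY.preimage_mono hWV', hyW, ?_⟩
  obtain ⟨b, hb⟩ := haff W hW (Y.presheaf.map (homOfLE (iY.preimage_mono hWV')).op h)
  rw [← hb]
  have hnat := iY.naturality (homOfLE hWV').op
  have e1 : Y.presheaf.map (homOfLE (iY.preimage_mono hWV')).op
      ((iY.app V).hom ((s.appLE (iY ⁻¹ᵁ V) V hle).hom h)) =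
      (iY.app W).hom (T.presheaf.map (homOfLE hWV').op ((s.appLE (iY ⁻¹ᵁ V) V hle).hom h)) := by
    calc _ = (iY.app V ≫ Y.presheaf.map (homOfLE (iY.preimage_mono hWV')).op).hom
            ((s.appLE (iY ⁻¹ᵁ V) V hle).hom h) := rfl
      _ = (T.presheaf.map (homOfLE hWV').op ≫ iY.app W).hom
            ((s.appLE (iY ⁻¹ᵁ V) V hle).hom h) := by rw [hnat]; rfl
      _ = _ := rfl
  rw [e1]
  congr 1
  -- `(s^* h)|_W = s^*(h|_{iY⁻¹W}) = s^* iY^* b = b`
  have hleW : W ≤ s ⁻¹ᵁ (iY ⁻¹ᵁ W) := by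
    rw [← Scheme.Hom.comp_preimage, hs, Scheme.Hom.id_preimage]
  have e2 : T.presheaf.map (homOfLE hWV').op ((s.appLE (iY ⁻¹ᵁ V) V hle).hom h) =
      (s.appLE (iY ⁻¹ᵁ W) W hleW).hom
        (Y.presheaf.map (homOfLE (iY.preimage_mono hWV')).op h) := by
    have h1 := s.appLE_map hle (homOfLE hWV').op
    have h2 := s.map_appLE hleW (homOfLE (iY.preimage_mono hWV')).op
    calc _ = (s.appLE (iY ⁻¹ᵁ V) V hle ≫ T.presheaf.map (homOfLE hWV').op).hom h := rfl
      _ = (Y.presheaf.map (homOfLE (iY.preimage_mono hWV')).op ≫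
            s.appLE (iY ⁻¹ᵁ W) W hleW).hom h := by rw [h1, h2]
      _ = _ := rfl
  rw [e2, ← hb]
  exact appLE_of_comp_eq_id iY s hs W hleW b

/-- A proper integral scheme over an algebraically closed field has a rational point. -/
theorem exists_point_of_isProper [IsAlgClosed K] {X : Scheme.{u}}
    (iX : X ⟶ Spec (CommRingCat.of K)) [LocallyOfFiniteType iX] [Nonempty X] :
    ∃ x₀ : Spec (CommRingCat.of K) ⟶ X, x₀ ≫ iX = 𝟙 _ := by
  have : JacobsonSpace X := LocallyOfFiniteType.jacobsonSpace iX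
  obtain ⟨x, -, hx⟩ := nonempty_inter_closedPoints (X := X) Set.univ_nonempty
    isOpen_univ.isLocallyClosed
  exact ⟨pointOfClosedPoint iX x hx, pointOfClosedPoint_comp iX x hx⟩

/-- Every section `s` of the projection `X ×_K T → T` induces, for *every* open `V ⊆ T`, an inverse
of the pull-back of functions `Γ(T, V) → Γ(X ×_K T, pr₂⁻¹ V)`. -/
theorem app_appLE_of_isPullback [IsAlgClosed K] {X T Y : Scheme.{u}}
    {iX : X ⟶ Spec (CommRingCat.of K)} {f : T ⟶ Spec (CommRingCat.of K)} {g : Y ⟶ X} {iY : Y ⟶ T}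
    (H : IsPullback g iY iX f) [IsProper iX] [IsIntegral X] (s : T ⟶ Y) (hs : s ≫ iY = 𝟙 T)
    (V : T.Opens) (hle : V ≤ s ⁻¹ᵁ (iY ⁻¹ᵁ V)) (h : Γ(Y, iY ⁻¹ᵁ V)) :
    (iY.app V).hom ((s.appLE (iY ⁻¹ᵁ V) V hle).hom h) = h :=
  app_appLE_of_section iY s hs
    (fun _ hW => (bijective_app_of_isPullback_of_isAffineOpen H hW).2) V hle h

/-- **Functions on `X ×_K T` come from `T`** (`X` proper integral over `K` algebraically closed),
over every open `V ⊆ T`. -/
theorem bijective_app_of_isPullback [IsAlgClosed K] {X T Y : Scheme.{u}}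
    {iX : X ⟶ Spec (CommRingCat.of K)} {f : T ⟶ Spec (CommRingCat.of K)} {g : Y ⟶ X} {iY : Y ⟶ T}
    (H : IsPullback g iY iX f) [IsProper iX] [IsIntegral X] (V : T.Opens) :
    Function.Bijective (iY.app V).hom := by
  obtain ⟨x₀, hx₀⟩ := exists_point_of_isProper iX
  let s : T ⟶ Y := H.lift (f ≫ x₀) (𝟙 T) (by rw [Category.assoc, hx₀, Category.comp_id,
    Category.id_comp])
  have hs : s ≫ iY = 𝟙 T := H.lift_snd _ _ _
  have hle : V ≤ s ⁻¹ᵁ (iY ⁻¹ᵁ V) := by
    rw [← Scheme.Hom.comp_preimage, hs, Scheme.Hom.id_preimage]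
  refine ⟨?_, fun h => ⟨_, app_appLE_of_isPullback H s hs V hle h⟩⟩
  intro a b hab
  rw [← appLE_of_comp_eq_id iY s hs V hle a, ← appLE_of_comp_eq_id iY s hs V hle b, hab]

end Fermat.Agent.AV
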