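/-
AV3 / SEESAW (helper1): the gluing step of the seesaw principle, in the cocycle model.

Setting: `iY : Y ⟶ T` with a section `s` (`Y = X ×_K T`, `s = (x₀, id)`), such that functions on
`iY⁻¹ V` are pulled back from `V` for every open `V ⊆ T` (`SCH_helper1_Functions`).

* `LB.sPull` : restriction along `s` of a section of `L` over `iY⁻¹ V`.
* `LB.exists_normalised`, `LB.eq_of_sPull_eq` : normalisation and rigidity of local trivialisations.
* `LB.isTrivial_of_locally_trivial` : if `L` is trivial over `iY⁻¹ V_x` for a cover `V_x` of `T` and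
  `s^* L` is trivial, then `L` is trivial.
-/
import Mathlib
import Fermat.Agent.AV.LBS_helper1_SecOn
import Fermat.Agent.AV.SCH_helper1_Functions

set_option autoImplicit false

open AlgebraicGeometry CategoryTheory Opposite TopologicalSpace

universe u

namespace Fermat.Agent.AV

noncomputable section

namespace LB

section Glue

variable {T Y : Scheme.{u}} (iY : Y ⟶ T) (s : T ⟶ Y) (hs : s ≫ iY = 𝟙 T)

include hs in
theorem le_preimage_section (V : T.Opens) : V ≤ s ⁻¹ᵁ (iY ⁻¹ᵁ V) := by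
  rw [← Scheme.Hom.comp_preimage, hs, Scheme.Hom.id_preimage]

variable {L : LB Y}

/-- restriction of a section over `iY⁻¹ V` along the section `s` of `iY`: a section of `s^* L`
over `V`. -/
def sPull (V : T.Opens) (σ : L.SecOn (iY ⁻¹ᵁ V)) : (L.pullback s).SecOn V :=
  (σ.pullback s).restrict (le_preimage_section iY s hs V)

theorem sPull_restrict {V V' : T.Opens} (h : V' ≤ V) (σ : L.SecOn (iY ⁻¹ᵁ V)) :
    sPull iY s hs V' (σ.restrict (iY.preimage_mono h)) = (sPull iY s hs V σ).restrict h := by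
  unfold sPull
  rw [SecOn.pullback_restrict, SecOn.restrict_restrict, SecOn.restrict_restrict]

theorem sPull_smul (V : T.Opens) (c : Γ(Y, iY ⁻¹ᵁ V)) (σ : L.SecOn (iY ⁻¹ᵁ V)) :
    sPull iY s hs V (σ.smul c) =
      (sPull iY s hs V σ).smul ((s.appLE (iY ⁻¹ᵁ V) V (le_preimage_section iY s hs V)).hom c) := by
  unfold sPull
  rw [SecOn.pullback_smul, SecOn.restrict_smul]
  rfl

theorem isUnit_sPull (V : T.Opens) (σ : L.SecOn (iY ⁻¹ᵁ V)) (hσ : ∀ i, IsUnit (σ.s i))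
    (i : (L.pullback s).ι) : IsUnit ((sPull iY s hs V σ).s i) := by
  have h : IsUnit (appInf s (L.U i) (iY ⁻¹ᵁ V) (σ.s i)) := (hσ i).map _
  exact isUnit_res _ h

end Glue


/-- the unit ratio between two trivialising sections. -/
theorem SecOn.isUnit_ratio {X : Scheme.{u}} {M : LB X} {W : X.Opens} (σ σ' : M.SecOn W)
    (hσ' : ∀ i, IsUnit (σ'.s i)) (c : Γ(X, W)) (hc : σ' = σ.smul c) :
    IsUnit c := by
  obtain ⟨c', hc', -⟩ := SecOn.exists_ratio σ' hσ' σ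
  have h1 : σ'.smul (c * c') = σ'.smul 1 := by
    rw [SecOn.smul_one, ← SecOn.smul_smul, ← hc', ← hc]
  obtain ⟨c₀, -, huniq⟩ := SecOn.exists_ratio σ' hσ' σ'
  have e1 : c * c' = c₀ := huniq _ (by beta_reduce; rw [h1, SecOn.smul_one])
  have e2 : (1 : Γ(X, W)) = c₀ := huniq _ (by beta_reduce; rw [SecOn.smul_one])
  exact IsUnit.of_mul_eq_one c' (e1.trans e2.symm)

theorem SecOn.isUnit_smul {X : Scheme.{u}} {M : LB X} {W : X.Opens} (σ : M.SecOn W)
    (hσ : ∀ i, IsUnit (σ.s i)) (c : Γ(X, W)) (hc : IsUnit c) (i : M.ι) :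
    IsUnit ((σ.smul c).s i) := by
  rw [SecOn.smul_s]
  exact (isUnit_res _ hc).mul (hσ i)

section Glue2

variable {T Y : Scheme.{u}} (iY : Y ⟶ T) (s : T ⟶ Y) (hs : s ≫ iY = 𝟙 T) {L : LB Y}

/-- normalisation of a local trivialisation over `iY⁻¹ V` against a trivialisation `τ` of
`s^* L`. -/
theorem exists_normalised (τ : (L.pullback s).SecOn ⊤) (hτ : ∀ i, IsUnit (τ.s i))
    (V : T.Opens) (σ : L.SecOn (iY ⁻¹ᵁ V)) (hσ : ∀ i, IsUnit (σ.s i)) :
    ∃ σ' : L.SecOn (iY ⁻¹ᵁ V), (∀ i, IsUnit (σ'.s i)) ∧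
      sPull iY s hs V σ' = τ.restrict le_top := by
  have hτV : ∀ i, IsUnit ((τ.restrict (le_top : V ≤ ⊤)).s i) := fun i => isUnit_res _ (hτ i)
  obtain ⟨u', hu', -⟩ := SecOn.exists_ratio (sPull iY s hs V σ) (isUnit_sPull iY s hs V σ hσ)
    (τ.restrict le_top)
  have hu'unit : IsUnit u' := SecOn.isUnit_ratio _ _ hτV u' hu'
  refine ⟨σ.smul ((iY.app V).hom u'), SecOn.isUnit_smul σ hσ _ (hu'unit.map _), ?_⟩
  rw [sPull_smul, appLE_of_comp_eq_id iY s hs V _ u', ← hu']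

include hs in
/-- a section over `iY⁻¹ V` of a bundle trivial there is determined by its restriction along
`s`, as soon as functions on `iY⁻¹ V` are pulled back from `V`. -/
theorem eq_of_sPull_eq
    (hfun : ∀ (V : T.Opens) (hle : V ≤ s ⁻¹ᵁ (iY ⁻¹ᵁ V)) (h : Γ(Y, iY ⁻¹ᵁ V)),
      (iY.app V).hom ((s.appLE (iY ⁻¹ᵁ V) V hle).hom h) = h)
    (V : T.Opens) (σ₁ σ₂ : L.SecOn (iY ⁻¹ᵁ V)) (hσ₂ : ∀ i, IsUnit (σ₂.s i))
    (h : sPull iY s hs V σ₁ = sPull iY s hs V σ₂) : σ₁ = σ₂ := by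
  obtain ⟨c, hc, -⟩ := SecOn.exists_ratio σ₂ hσ₂ σ₁
  have h1 : (sPull iY s hs V σ₂).smul
      ((s.appLE (iY ⁻¹ᵁ V) V (le_preimage_section iY s hs V)).hom c) =
      (sPull iY s hs V σ₂).smul 1 := by
    rw [← sPull_smul, ← hc, h, SecOn.smul_one]
  obtain ⟨c₀, -, huniq⟩ := SecOn.exists_ratio (sPull iY s hs V σ₂)
    (isUnit_sPull iY s hs V σ₂ hσ₂) (sPull iY s hs V σ₂)
  have e1 := huniq ((s.appLE (iY ⁻¹ᵁ V) V (le_preimage_section iY s hs V)).hom c)
    (by beta_reduce; rw [h1, SecOn.smul_one])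
  have e2 := huniq (1 : Γ(T, V)) (by beta_reduce; rw [SecOn.smul_one])
  have e3 : (s.appLE (iY ⁻¹ᵁ V) V (le_preimage_section iY s hs V)).hom c = 1 := e1.trans e2.symm
  have e4 : c = 1 := by
    rw [← hfun V (le_preimage_section iY s hs V) c, e3, map_one]
  rw [hc, e4, SecOn.smul_one]

include hs in
/-- **Gluing step of the seesaw principle.** Let `iY : Y ⟶ T` have a section `s` and assume that
functions on `iY⁻¹ V` come from `V` for every open `V ⊆ T`.  A line bundle on `Y` which is trivial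
over `iY⁻¹ V_x` for opens `V_x ∋ x` covering `T`, and whose restriction along `s` is trivial, is
trivial. -/
theorem isTrivial_of_locally_trivial
    (hfun : ∀ (V : T.Opens) (hle : V ≤ s ⁻¹ᵁ (iY ⁻¹ᵁ V)) (h : Γ(Y, iY ⁻¹ᵁ V)),
      (iY.app V).hom ((s.appLE (iY ⁻¹ᵁ V) V hle).hom h) = h)
    (hsL : (L.pullback s).IsTrivial)
    (hloc : ∀ x : T, ∃ V : T.Opens, x ∈ V ∧ L.IsTrivialOn (iY ⁻¹ᵁ V)) : L.IsTrivial := by
  obtain ⟨τ, hτ⟩ := (isTrivialOn_top_iff _).mpr hsL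
  choose V hxV hV using hloc
  have hnorm : ∀ x, ∃ σ' : L.SecOn (iY ⁻¹ᵁ V x), (∀ i, IsUnit (σ'.s i)) ∧
      sPull iY s hs (V x) σ' = τ.restrict le_top := by
    intro x
    obtain ⟨σ, hσ⟩ := hV x
    exact exists_normalised iY s hs τ hτ (V x) σ hσ
  choose σ hσu hσn using hnorm
  -- the normalised local trivialisations agree on the overlaps
  have hagree : ∀ a b, (σ a).restrict (inf_le_left : iY ⁻¹ᵁ V a ⊓ iY ⁻¹ᵁ V b ≤ iY ⁻¹ᵁ V a) =
      (σ b).restrict (inf_le_right : iY ⁻¹ᵁ V a ⊓ iY ⁻¹ᵁ V b ≤ iY ⁻¹ᵁ V b) := by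
    intro a b
    have hab1 : V a ⊓ V b ≤ V a := inf_le_left
    have hab2 : V a ⊓ V b ≤ V b := inf_le_right
    refine eq_of_sPull_eq iY s hs hfun (V a ⊓ V b) ((σ a).restrict (iY.preimage_mono hab1))
      ((σ b).restrict (iY.preimage_mono hab2)) (fun i => isUnit_res _ (hσu b i)) ?_
    rw [sPull_restrict iY s hs hab1, sPull_restrict iY s hs hab2, hσn, hσn,
      SecOn.restrict_restrict, SecOn.restrict_restrict]
  obtain ⟨σ₀, hσ₀⟩ := SecOn.exists_glue (M := L) (W := ⊤) (fun x : T => iY ⁻¹ᵁ V x)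
    (fun _ => le_top)
    (fun y _ => Opens.mem_iSup.mpr ⟨iY y, hxV (iY y)⟩) σ hagree
  refine (isTrivialOn_top_iff _).mp ⟨σ₀, ?_⟩
  refine SecOn.isUnit_of_restrict (fun x : T => iY ⁻¹ᵁ V x) (fun _ => le_top)
    (fun y _ => Opens.mem_iSup.mpr ⟨iY y, hxV (iY y)⟩) σ₀ ?_
  intro a i
  rw [hσ₀ a]
  exact hσu a i

end Glue2

end LB

end

end Fermat.Agent.AV
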