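/-
AV (helper1): the abstract thickening bricks of Mumford §10 (theorem of the cube), on top of
helper3's additive cocycles `AC`, `epsT`, `IsObstruction` (file `CUBE_helper3_AC`).

* `epsT_res`, `epsT_mul_epsT`, `isUnit_one_add_epsT`.
* `IsObstruction.isTrivial_of_isCobdry` (⇐): an obstruction cocycle which is a coboundary
  ⇒ the bundle is trivial.
* `IsObstruction.pullback` (P): functoriality of obstruction cocycles.
* `IsObstruction.isCobdry_of_isTrivial` (⇒): trivial bundle ⇒ the obstruction cocycle is a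
  coboundary (given the exactness facts `hinj`, `hker` and lifting of global units `hlift`).
* `exists_isObstruction` (E): trivial on the smaller thickening ⇒ an obstruction cocycle on an
  affine cover exists (given `hinj`, `hker`, `hsurjj`, a surjective section `s` of `qW`).
-/
import Mathlib
import Fermat.Agent.AV.CUBE_helper3_AC
import Fermat.Agent.AV.SEESAW_helper1_Glue

set_option autoImplicit false

open AlgebraicGeometry CategoryTheory Limits Opposite TopologicalSpace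

universe u

namespace Fermat.Agent.AV

noncomputable section

section basics

variable {W WR : Scheme.{u}} (qW : WR ⟶ W) (e : Γ(WR, ⊤))

theorem epsT_res {U U' : W.Opens} (h : U' ≤ U) (a : Γ(W, U)) :
    epsT qW e U' (res U' h a) =
      res (qW ⁻¹ᵁ U') ((Opens.map qW.base).monotone h) (epsT qW e U a) := by
  rw [epsT_apply, epsT_apply, map_mul, res_res, app_res]

theorem epsT_mul_epsT (he : e * e = 0) (U : W.Opens) (a a' : Γ(W, U)) :
    epsT qW e U a * epsT qW e U a' = 0 := by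
  rw [epsT_apply, epsT_apply]
  have h : res (qW ⁻¹ᵁ U) le_top e * res (qW ⁻¹ᵁ U) le_top e = 0 := by
    rw [← map_mul, he, map_zero]
  calc _ = (res (qW ⁻¹ᵁ U) le_top e * res (qW ⁻¹ᵁ U) le_top e) *
        ((qW.app U).hom a * (qW.app U).hom a') := by ring
    _ = 0 := by rw [h, zero_mul]

theorem isUnit_one_add_epsT (he : e * e = 0) (U : W.Opens) (a : Γ(W, U)) :
    IsUnit (1 + epsT qW e U a) := by
  refine IsUnit.of_mul_eq_one (1 - epsT qW e U a) ?_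
  have h := epsT_mul_epsT qW e he U a a
  linear_combination -h

theorem isUnit_one_sub_epsT (he : e * e = 0) (U : W.Opens) (a : Γ(W, U)) :
    IsUnit (1 - epsT qW e U a) := by
  refine IsUnit.of_mul_eq_one (1 + epsT qW e U a) ?_
  have h := epsT_mul_epsT qW e he U a a
  linear_combination -h

end basics

/-! ### (⇐) -/

theorem thick_ring_identity {A : Type*} [CommRing A] (x y : A) (hxx : x * x = 0) (hxy : x * y = 0) :
    (1 - x) * (1 + (x - y)) = 1 - y := by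
  linear_combination -hxx + hxy

theorem IsObstruction.isTrivial_of_isCobdry {W WR : Scheme.{u}} {qW : WR ⟶ W} {e : Γ(WR, ⊤)}
    (he : e * e = 0) {N : LB WR} {c : AC W} (h : IsObstruction qW e N c) (hc : c.IsCobdry) :
    N.IsTrivial := by
  obtain ⟨t, htu, htr⟩ := h
  obtain ⟨b, hb⟩ := hc
  have hcover : (⊤ : WR.Opens) ≤ ⨆ k, qW ⁻¹ᵁ c.U k := by
    have h : ⨆ k, qW ⁻¹ᵁ c.U k = qW ⁻¹ᵁ ⊤ := by
      have h := congrArg (fun O => qW ⁻¹ᵁ O) c.iSup_U
      simp only [Opens.map_iSup] at h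
      exact h
    rw [h]
    exact le_rfl
  let t' : ∀ k, N.SecOn (qW ⁻¹ᵁ c.U k) := fun k => (t k).smul (1 - epsT qW e (c.U k) (b k))
  have ht'u : ∀ k i, IsUnit ((t' k).s i) := fun k i =>
    LB.SecOn.isUnit_smul (t k) (htu k) _ (isUnit_one_sub_epsT qW e he _ _) i
  have hglue : ∀ k l, (t' k).restrict (inf_le_left : qW ⁻¹ᵁ c.U k ⊓ qW ⁻¹ᵁ c.U l ≤ qW ⁻¹ᵁ c.U k) =
      (t' l).restrict (inf_le_right : qW ⁻¹ᵁ c.U k ⊓ qW ⁻¹ᵁ c.U l ≤ qW ⁻¹ᵁ c.U l) := by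
    intro k l
    have h1 : (t k).restrict (inf_le_left : qW ⁻¹ᵁ c.U k ⊓ qW ⁻¹ᵁ c.U l ≤ qW ⁻¹ᵁ c.U k) =
        ((t l).restrict (inf_le_right : qW ⁻¹ᵁ c.U k ⊓ qW ⁻¹ᵁ c.U l ≤ qW ⁻¹ᵁ c.U l)).smul
          (1 + epsT qW e (c.U k ⊓ c.U l) (c.a k l)) := htr k l
    simp only [t']
    rw [LB.SecOn.restrict_smul, LB.SecOn.restrict_smul, h1, LB.SecOn.smul_smul]
    congr 1
    -- the identity of functions
    have e1 : res (qW ⁻¹ᵁ c.U k ⊓ qW ⁻¹ᵁ c.U l) inf_le_left (epsT qW e (c.U k) (b k)) =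
        epsT qW e (c.U k ⊓ c.U l) (res (c.U k ⊓ c.U l) inf_le_left (b k)) :=
      (epsT_res qW e inf_le_left (b k)).symm
    have e2 : res (qW ⁻¹ᵁ c.U k ⊓ qW ⁻¹ᵁ c.U l) inf_le_right (epsT qW e (c.U l) (b l)) =
        epsT qW e (c.U k ⊓ c.U l) (res (c.U k ⊓ c.U l) inf_le_right (b l)) :=
      (epsT_res qW e inf_le_right (b l)).symm
    rw [map_sub, map_sub, map_one, map_one, e1, e2, hb k l, map_sub]
    set x := epsT qW e (c.U k ⊓ c.U l) (res (c.U k ⊓ c.U l) inf_le_left (b k)) with hx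
    set y := epsT qW e (c.U k ⊓ c.U l) (res (c.U k ⊓ c.U l) inf_le_right (b l)) with hy
    have hxx : x * x = 0 := epsT_mul_epsT qW e he _ _ _
    have hxy : x * y = 0 := epsT_mul_epsT qW e he _ _ _
    exact thick_ring_identity x y hxx hxy
  obtain ⟨τ, hτ⟩ := LB.SecOn.exists_glue (fun k => qW ⁻¹ᵁ c.U k) (fun _ => le_top) hcover t' hglue
  rw [← LB.isTrivialOn_top_iff]
  refine ⟨τ, LB.SecOn.isUnit_of_restrict (fun k => qW ⁻¹ᵁ c.U k) (fun _ => le_top) hcover τ ?_⟩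
  intro k i
  rw [hτ k]
  exact ht'u k i

/-! ### (P) -/

theorem res_app_of_eq {X Y : Scheme.{u}} {f g : Y ⟶ X} (hfg : f = g) (O : X.Opens)
    (hle : g ⁻¹ᵁ O ≤ f ⁻¹ᵁ O) (a : Γ(X, O)) :
    res (g ⁻¹ᵁ O) hle ((f.app O).hom a) = (g.app O).hom a := by
  subst hfg
  exact res_self _

theorem comp_app_apply {X Y Z : Scheme.{u}} (f : X ⟶ Y) (g : Y ⟶ Z) (O : Z.Opens) (a : Γ(Z, O)) :
    ((f ≫ g).app O).hom a = (f.app (g ⁻¹ᵁ O)).hom ((g.app O).hom a) := by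
  rw [Scheme.Hom.comp_app]
  rfl

section P

variable {W WR W' WR' : Scheme.{u}} {qW : WR ⟶ W} (e : Γ(WR, ⊤))
  (φ : W' ⟶ W) (φR : WR' ⟶ WR) (qW' : WR' ⟶ W') (hcomm : φR ≫ qW = qW' ≫ φ)

include hcomm in
theorem preimage_preimage_eq (O : W.Opens) : qW' ⁻¹ᵁ (φ ⁻¹ᵁ O) = φR ⁻¹ᵁ (qW ⁻¹ᵁ O) := by
  rw [← Scheme.Hom.comp_preimage, ← Scheme.Hom.comp_preimage, hcomm]

theorem epsT_comm (O : W.Opens) (a : Γ(W, O)) :
    res (qW' ⁻¹ᵁ (φ ⁻¹ᵁ O)) (preimage_preimage_eq φ φR qW' hcomm O).le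
        ((φR.app (qW ⁻¹ᵁ O)).hom (epsT qW e O a)) =
      epsT qW' (φR.appTop.hom e) (φ ⁻¹ᵁ O) ((φ.app O).hom a) := by
  rw [epsT_apply, epsT_apply, map_mul, map_mul, app_res, res_res]
  congr 1
  rw [← comp_app_apply, ← comp_app_apply]
  exact res_app_of_eq hcomm O _ a

end P

theorem IsObstruction.pullback {W WR W' WR' : Scheme.{u}} {qW : WR ⟶ W} {e : Γ(WR, ⊤)}
    {N : LB WR} {c : AC W} (h : IsObstruction qW e N c) (φ : W' ⟶ W) (φR : WR' ⟶ WR)
    (qW' : WR' ⟶ W') (hcomm : φR ≫ qW = qW' ≫ φ) :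
    IsObstruction qW' (φR.appTop.hom e) (N.pullback φR) (c.pullback φ) := by
  obtain ⟨t, htu, htr⟩ := h
  have hO := preimage_preimage_eq φ φR qW' hcomm
  refine ⟨fun k => ((t k).pullback φR).restrict (hO (c.U k)).le, ?_, ?_⟩
  · intro k i
    have h : IsUnit (appInf φR (N.U i) (qW ⁻¹ᵁ c.U k) ((t k).s i)) := (htu k i).map _
    exact isUnit_res _ h
  · intro (k : c.ι) (l : c.ι)
    have h1 := congrArg (fun σ => (LB.SecOn.pullback φR σ).restrict (hO (c.U k ⊓ c.U l)).le)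
      (htr k l)
    simp only [LB.SecOn.pullback_restrict, LB.SecOn.pullback_smul, LB.SecOn.restrict_restrict,
      LB.SecOn.restrict_smul] at h1
    have h2 : res (qW' ⁻¹ᵁ (φ ⁻¹ᵁ (c.U k ⊓ c.U l))) (hO (c.U k ⊓ c.U l)).le
        ((φR.app (qW ⁻¹ᵁ (c.U k ⊓ c.U l))).hom (1 + epsT qW e (c.U k ⊓ c.U l) (c.a k l))) =
        1 + epsT qW' (φR.appTop.hom e) (φ ⁻¹ᵁ (c.U k ⊓ c.U l))
          ((φ.app (c.U k ⊓ c.U l)).hom (c.a k l)) := by
      rw [map_add, map_add, map_one, map_one, epsT_comm e φ φR qW' hcomm]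
    rw [h2] at h1
    refine (LB.SecOn.restrict_restrict _ _ _).trans (h1.trans ?_)
    exact congrArg (LB.SecOn.smul _) (LB.SecOn.restrict_restrict _ _ _).symm

/-! ### (⇒) -/

theorem LB.SecOn.smul_left_injective {X : Scheme.{u}} {M : LB X} {O : X.Opens} (σ : M.SecOn O)
    (hσ : ∀ i, IsUnit (σ.s i)) {c c' : Γ(X, O)} (h : σ.smul c = σ.smul c') : c = c' := by
  obtain ⟨c₀, -, huniq⟩ := LB.SecOn.exists_ratio σ hσ (σ.smul c)
  rw [huniq c rfl, huniq c' h]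

theorem app_epsT_eq_zero {W WR WR₁ : Scheme.{u}} (qW : WR ⟶ W) (e : Γ(WR, ⊤)) (j : WR₁ ⟶ WR)
    (hje : j.appTop.hom e = 0) (U : W.Opens) (a : Γ(W, U)) :
    (j.app (qW ⁻¹ᵁ U)).hom (epsT qW e U a) = 0 := by
  rw [epsT_apply, map_mul, app_res]
  have : (j.app ⊤).hom e = 0 := hje
  rw [this, map_zero, zero_mul]

theorem thick_ring_identity' {A : Type*} [CommRing A] (x y z : A) (hzy : z * y = 0)
    (h : 1 + x = (1 + z) * (1 + y)) : z = x - y := by
  linear_combination -hzy - h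

theorem IsObstruction.isCobdry_of_isTrivial {W WR WR₁ : Scheme.{u}} {qW : WR ⟶ W} {e : Γ(WR, ⊤)}
    (he : e * e = 0) (j : WR₁ ⟶ WR) (hje : j.appTop.hom e = 0)
    {N : LB WR} {c : AC W} (h : IsObstruction qW e N c) (hN : N.IsTrivial)
    (hinj : ∀ k l, Function.Injective (epsT qW e (c.U k ⊓ c.U l)))
    (hker : ∀ k (g : Γ(WR, qW ⁻¹ᵁ c.U k)), (j.app (qW ⁻¹ᵁ c.U k)).hom g = 0 →
      ∃ b, g = epsT qW e (c.U k) b)
    (hlift : ∀ ub : Γ(WR₁, ⊤), IsUnit ub → ∃ r : Γ(WR, ⊤), IsUnit r ∧ j.appTop.hom r = ub) :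
    c.IsCobdry := by
  obtain ⟨t, htu, htr⟩ := h
  obtain ⟨σ, hσ⟩ := (LB.isTrivialOn_top_iff _).mpr hN
  -- the ratios
  have hσk : ∀ (O : WR.Opens) (i : N.ι), IsUnit ((σ.restrict (le_top : O ≤ ⊤)).s i) :=
    fun O i => isUnit_res _ (hσ i)
  have hu : ∀ k, ∃ u : Γ(WR, qW ⁻¹ᵁ c.U k), t k = (σ.restrict le_top).smul u := fun k =>
    (LB.SecOn.exists_ratio (σ.restrict le_top) (hσk _) (t k)).exists
  choose u hu using hu
  have huu : ∀ k, IsUnit (u k) := fun k =>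
    LB.SecOn.isUnit_ratio (σ.restrict le_top) (t k) (htu k) (u k) (hu k)
  -- relation between the ratios on overlaps
  have hrel : ∀ k l, res (qW ⁻¹ᵁ (c.U k ⊓ c.U l)) ((Opens.map qW.base).monotone inf_le_left) (u k) =
      (1 + epsT qW e (c.U k ⊓ c.U l) (c.a k l)) *
        res (qW ⁻¹ᵁ (c.U k ⊓ c.U l)) ((Opens.map qW.base).monotone inf_le_right) (u l) := by
    intro k l
    have h1 := htr k l
    rw [hu k, hu l, LB.SecOn.restrict_smul, LB.SecOn.restrict_smul, LB.SecOn.restrict_restrict,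
      LB.SecOn.restrict_restrict, LB.SecOn.smul_smul] at h1
    exact LB.SecOn.smul_left_injective _ (hσk _) h1
  -- reduce the ratios to `WR₁`
  let ub : ∀ k, Γ(WR₁, j ⁻¹ᵁ (qW ⁻¹ᵁ c.U k)) := fun k => (j.app (qW ⁻¹ᵁ c.U k)).hom (u k)
  have hcover : (⊤ : WR₁.Opens) ≤ ⨆ k, j ⁻¹ᵁ (qW ⁻¹ᵁ c.U k) := by
    have h : ⨆ k, j ⁻¹ᵁ (qW ⁻¹ᵁ c.U k) = j ⁻¹ᵁ (qW ⁻¹ᵁ ⊤) := by
      have h := congrArg (fun O => j ⁻¹ᵁ (qW ⁻¹ᵁ O)) c.iSup_U
      simp only [Opens.map_iSup] at h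
      exact h
    rw [h]
    exact le_rfl
  have hubrel : ∀ k l, res (j ⁻¹ᵁ (qW ⁻¹ᵁ c.U k) ⊓ j ⁻¹ᵁ (qW ⁻¹ᵁ c.U l)) inf_le_left (ub k) =
      res (j ⁻¹ᵁ (qW ⁻¹ᵁ c.U k) ⊓ j ⁻¹ᵁ (qW ⁻¹ᵁ c.U l)) inf_le_right (ub l) := by
    intro k l
    have h1 := congrArg (j.app (qW ⁻¹ᵁ (c.U k ⊓ c.U l))).hom (hrel k l)
    rw [map_mul, map_add, map_one, app_epsT_eq_zero qW e j hje, add_zero, one_mul, app_res,
      app_res] at h1
    exact h1
  obtain ⟨ubar, hubar, -⟩ := exists_glue (V := (⊤ : WR₁.Opens)) (fun k => j ⁻¹ᵁ (qW ⁻¹ᵁ c.U k))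
    (fun _ => le_top) hcover ub hubrel
  have hubar_unit : IsUnit ubar := by
    refine isUnit_of_cover (fun k => j ⁻¹ᵁ (qW ⁻¹ᵁ c.U k)) (fun _ => le_top) hcover ubar ?_
    intro k
    rw [hubar k]
    exact (huu k).map _
  obtain ⟨r, hr, hjr⟩ := hlift ubar hubar_unit
  obtain ⟨v, hv⟩ := hr.exists_right_inv
  -- normalised ratios
  let u' : ∀ k, Γ(WR, qW ⁻¹ᵁ c.U k) := fun k => u k * res (qW ⁻¹ᵁ c.U k) le_top v
  have hju' : ∀ k, (j.app (qW ⁻¹ᵁ c.U k)).hom (u' k - 1) = 0 := by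
    intro k
    have h1 : (j.app (qW ⁻¹ᵁ c.U k)).hom (u k) =
        res (j ⁻¹ᵁ (qW ⁻¹ᵁ c.U k)) le_top (j.appTop.hom r) := by
      rw [hjr]
      exact (hubar k).symm
    have h2 : (j.app (qW ⁻¹ᵁ c.U k)).hom (res (qW ⁻¹ᵁ c.U k) le_top v) =
        res (j ⁻¹ᵁ (qW ⁻¹ᵁ c.U k)) le_top (j.appTop.hom v) := app_res j le_top v
    simp only [u']
    rw [map_sub, map_mul, map_one, h1, h2, ← map_mul, ← map_mul, hv, map_one, map_one, sub_self]
  have hb : ∀ k, ∃ b : Γ(W, c.U k), u' k - 1 = epsT qW e (c.U k) b := fun k =>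
    hker k _ (hju' k)
  choose b hb using hb
  refine ⟨b, fun k l => ?_⟩
  apply hinj k l
  rw [map_sub, epsT_res qW e inf_le_left (b k), epsT_res qW e inf_le_right (b l), ← hb k, ← hb l]
  -- the relation for `u'`
  have h1 : res (qW ⁻¹ᵁ (c.U k ⊓ c.U l)) ((Opens.map qW.base).monotone inf_le_left) (u' k) =
      (1 + epsT qW e (c.U k ⊓ c.U l) (c.a k l)) *
        res (qW ⁻¹ᵁ (c.U k ⊓ c.U l)) ((Opens.map qW.base).monotone inf_le_right) (u' l) := by
    simp only [u']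
    rw [map_mul, map_mul, res_res, res_res, hrel k l]
    ring
  have hx : res (qW ⁻¹ᵁ (c.U k ⊓ c.U l)) ((Opens.map qW.base).monotone inf_le_left) (u' k) =
      1 + res (qW ⁻¹ᵁ (c.U k ⊓ c.U l)) ((Opens.map qW.base).monotone inf_le_left) (u' k - 1) := by
    rw [map_sub, map_one]; ring
  have hy : res (qW ⁻¹ᵁ (c.U k ⊓ c.U l)) ((Opens.map qW.base).monotone inf_le_right) (u' l) =
      1 + res (qW ⁻¹ᵁ (c.U k ⊓ c.U l)) ((Opens.map qW.base).monotone inf_le_right) (u' l - 1) := by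
    rw [map_sub, map_one]; ring
  rw [hx, hy] at h1
  refine thick_ring_identity' _ _ _ ?_ h1
  rw [hb l, ← epsT_res qW e inf_le_right (b l)]
  exact epsT_mul_epsT qW e he _ _ _

/-! ### (E) -/

/-- the tautological frame of `M` over an open contained in a chart. -/
def LB.chartFrame {X : Scheme.{u}} (M : LB X) (i₀ : M.ι) {O : X.Opens} (hO : O ≤ M.U i₀) :
    M.SecOn O where
  s i := res (M.U i ⊓ O) (le_inf inf_le_left (inf_le_right.trans hO)) (M.g i i₀)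
  compat i j := by
    rw [res_res, res_res]
    exact (M.cocycle' i j i₀ _ (inf_le_left.trans inf_le_left) (inf_le_left.trans inf_le_right)
      (inf_le_right.trans hO)).symm

theorem LB.isUnit_chartFrame {X : Scheme.{u}} (M : LB X) (i₀ : M.ι) {O : X.Opens}
    (hO : O ≤ M.U i₀) (i : M.ι) : IsUnit ((M.chartFrame i₀ hO).s i) :=
  isUnit_res _ (M.isUnit_g i i₀)

section E

variable {W WR WR₁ : Scheme.{u}} (qW : WR ⟶ W) (e : Γ(WR, ⊤)) (he : e * e = 0)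
  (j : WR₁ ⟶ WR) (hje : j.appTop.hom e = 0)
  (s : W ⟶ WR) (hs : s ≫ qW = 𝟙 W) (hsurj : Function.Surjective s.base)
  (hker : ∀ U : W.Opens, IsAffineOpen U → ∀ g : Γ(WR, qW ⁻¹ᵁ U),
    (j.app (qW ⁻¹ᵁ U)).hom g = 0 → ∃ a, g = epsT qW e U a)
  (hsurjj : ∀ U : W.Opens, IsAffineOpen U → Function.Surjective (j.app (qW ⁻¹ᵁ U)).hom)
  (N : LB WR)

include hs hsurj in
theorem preimage_le_of_le_preimage_section (U : W.Opens) (V : WR.Opens) (h : U ≤ s ⁻¹ᵁ V) :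
    qW ⁻¹ᵁ U ≤ V := by
  intro x hx
  obtain ⟨w, rfl⟩ := hsurj x
  have h1 : qW (s w) = w := by
    have := congrArg (fun φ : W ⟶ W => φ w) hs
    simpa using this
  have h2 : w ∈ U := by
    have : qW (s w) ∈ U := hx
    rwa [h1] at this
  exact h h2

include he hs hsurj hker hsurjj in
theorem exists_lifted_frame (σb : (N.pullback j).SecOn ⊤) (hσb : ∀ i, IsUnit (σb.s i)) (w : W) :
    ∃ U : W.Opens, IsAffineOpen U ∧ w ∈ U ∧ ∃ t : N.SecOn (qW ⁻¹ᵁ U), (∀ i, IsUnit (t.s i)) ∧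
      t.pullback j = σb.restrict le_top := by
  -- a chart containing `s w`
  have hmem : s w ∈ (⊤ : WR.Opens) := True.intro
  rw [← N.iSup_U] at hmem
  obtain ⟨i, hi⟩ := Opens.mem_iSup.mp hmem
  obtain ⟨_, ⟨U, hU, rfl⟩, hwU, hUsub⟩ :=
    W.isBasis_affineOpens.exists_subset_of_mem_open (show w ∈ (s ⁻¹ᵁ N.U i : Set W) from hi)
      (s ⁻¹ᵁ N.U i).2
  have hUsub' : U ≤ s ⁻¹ᵁ N.U i := hUsub
  have hle : qW ⁻¹ᵁ U ≤ N.U i := preimage_le_of_le_preimage_section qW s hs hsurj U _ hUsub'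
  refine ⟨U, hU, hwU, ?_⟩
  let t0 := N.chartFrame i hle
  have ht0 : ∀ i', IsUnit (t0.s i') := N.isUnit_chartFrame i hle
  have ht0b : ∀ i', IsUnit ((t0.pullback j).s i') := fun i' => (ht0 i').map _
  obtain ⟨ub, hub, -⟩ := LB.SecOn.exists_ratio (t0.pullback j) ht0b (σb.restrict le_top)
  have hubu : IsUnit ub := LB.SecOn.isUnit_ratio (t0.pullback j) (σb.restrict le_top)
    (fun i' => isUnit_res _ (hσb i')) ub hub
  obtain ⟨u, hu⟩ := hsurjj U hU ub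
  obtain ⟨vb, hvb⟩ := hubu.exists_right_inv
  obtain ⟨v, hv⟩ := hsurjj U hU vb
  have huv : (j.app (qW ⁻¹ᵁ U)).hom (u * v - 1) = 0 := by
    rw [map_sub, map_mul, map_one, hu, hv, hvb, sub_self]
  obtain ⟨a, ha⟩ := hker U hU _ huv
  have huu : IsUnit u := by
    have h1 : IsUnit (u * v) := by
      have : u * v = 1 + epsT qW e U a := by rw [← ha]; ring
      rw [this]
      exact isUnit_one_add_epsT qW e he U a
    exact isUnit_of_mul_isUnit_left h1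
  refine ⟨t0.smul u, LB.SecOn.isUnit_smul t0 ht0 u huu, ?_⟩
  rw [LB.SecOn.pullback_smul, hu, hub]

include hker in
theorem exists_transition (σb : (N.pullback j).SecOn ⊤) (hσb : ∀ i, IsUnit (σb.s i))
    {U U' : W.Opens} (hO : IsAffineOpen (U ⊓ U'))
    (t : N.SecOn (qW ⁻¹ᵁ U)) (t' : N.SecOn (qW ⁻¹ᵁ U')) (ht' : ∀ i, IsUnit (t'.s i))
    (htb : t.pullback j = σb.restrict le_top) (ht'b : t'.pullback j = σb.restrict le_top) :
    ∃ a : Γ(W, U ⊓ U'),
      t.restrict (W' := qW ⁻¹ᵁ (U ⊓ U')) ((Opens.map qW.base).monotone inf_le_left) =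
        (t'.restrict (W' := qW ⁻¹ᵁ (U ⊓ U')) ((Opens.map qW.base).monotone inf_le_right)).smul
          (1 + epsT qW e (U ⊓ U') a) := by
  have hu' : ∀ i, IsUnit ((t'.restrict (W' := qW ⁻¹ᵁ (U ⊓ U'))
      ((Opens.map qW.base).monotone inf_le_right)).s i) := fun i => isUnit_res _ (ht' i)
  obtain ⟨g, hg, -⟩ := LB.SecOn.exists_ratio _ hu'
    (t.restrict (W' := qW ⁻¹ᵁ (U ⊓ U')) ((Opens.map qW.base).monotone inf_le_left))
  have h1 := congrArg (LB.SecOn.pullback j) hg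
  rw [LB.SecOn.pullback_smul, LB.SecOn.pullback_restrict, LB.SecOn.pullback_restrict, htb, ht'b,
    LB.SecOn.restrict_restrict, LB.SecOn.restrict_restrict] at h1
  have h2 : (j.app (qW ⁻¹ᵁ (U ⊓ U'))).hom g = 1 := by
    refine (LB.SecOn.smul_left_injective (σb.restrict le_top) (fun i => isUnit_res _ (hσb i))
      ?_).symm
    rw [LB.SecOn.smul_one]
    exact h1
  have h3 : (j.app (qW ⁻¹ᵁ (U ⊓ U'))).hom (g - 1) = 0 := by
    rw [map_sub, map_one, h2, sub_self]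
  obtain ⟨a, ha⟩ := hker (U ⊓ U') hO _ h3
  refine ⟨a, ?_⟩
  rw [← ha, hg]
  congr 1
  ring

theorem thick_ring_identity'' {A : Type*} [CommRing A] (x y z : A) (hxy : x * y = 0)
    (h : (1 + x) * (1 + y) = 1 + z) : x + y = z := by
  linear_combination -hxy + h

include he hs hsurj hker hsurjj in
/-- **(E)**: if `N` becomes trivial on `WR₁`, it has an obstruction cocycle on an affine cover. -/
theorem exists_isObstruction
    (haff : ∀ U U' : W.Opens, IsAffineOpen U → IsAffineOpen U' → IsAffineOpen (U ⊓ U'))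
    (hinj : ∀ U : W.Opens, Function.Injective (epsT qW e U))
    (hN : (N.pullback j).IsTrivial) :
    ∃ c : AC W, (∀ k, IsAffineOpen (c.U k)) ∧ IsObstruction qW e N c := by
  obtain ⟨σb, hσb⟩ := (LB.isTrivialOn_top_iff _).mpr hN
  choose U hU hwU t htu htb using
    exists_lifted_frame qW e he j s hs hsurj hker hsurjj N σb hσb
  have htrans := fun k l => exists_transition qW e j hker N σb hσb (haff _ _ (hU k) (hU l))
    (t k) (t l) (htu l) (htb k) (htb l)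
  choose a ha using htrans
  have hcoc : ∀ k l m, res (U k ⊓ U l ⊓ U m) inf_le_left (a k l) +
      res (U k ⊓ U l ⊓ U m) (le_inf (inf_le_left.trans inf_le_right) inf_le_right) (a l m) =
      res (U k ⊓ U l ⊓ U m) (le_inf (inf_le_left.trans inf_le_left) inf_le_right) (a k m) := by
    intro k l m
    apply hinj
    rw [map_add]
    have hkl : U k ⊓ U l ⊓ U m ≤ U k ⊓ U l := inf_le_left
    have hlm : U k ⊓ U l ⊓ U m ≤ U l ⊓ U m := le_inf (inf_le_left.trans inf_le_right) inf_le_right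
    have hkm : U k ⊓ U l ⊓ U m ≤ U k ⊓ U m := le_inf (inf_le_left.trans inf_le_left) inf_le_right
    have h1 := congrArg (LB.SecOn.restrict (W' := qW ⁻¹ᵁ (U k ⊓ U l ⊓ U m))
      ((Opens.map qW.base).monotone hkl)) (ha k l)
    have h2 := congrArg (LB.SecOn.restrict (W' := qW ⁻¹ᵁ (U k ⊓ U l ⊓ U m))
      ((Opens.map qW.base).monotone hlm)) (ha l m)
    have h3 := congrArg (LB.SecOn.restrict (W' := qW ⁻¹ᵁ (U k ⊓ U l ⊓ U m))
      ((Opens.map qW.base).monotone hkm)) (ha k m)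
    rw [LB.SecOn.restrict_smul, LB.SecOn.restrict_restrict, LB.SecOn.restrict_restrict] at h1 h2 h3
    rw [h2, LB.SecOn.smul_smul] at h1
    rw [h1] at h3
    have h4 := LB.SecOn.smul_left_injective _ (fun i => isUnit_res _ (htu m i)) h3
    rw [map_add, map_add, map_add, map_one, map_one, map_one,
      ← epsT_res qW e hkl (a k l), ← epsT_res qW e hlm (a l m), ← epsT_res qW e hkm (a k m)] at h4
    exact thick_ring_identity'' _ _ _ (epsT_mul_epsT qW e he _ _ _) h4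
  have hcov : ⨆ w, U w = ⊤ := eq_top_iff.mpr fun w _ => Opens.mem_iSup.mpr ⟨w, hwU w⟩
  exact ⟨⟨W, U, hcov, a, hcoc⟩, hU, t, htu, ha⟩

end E

end

end Fermat.Agent.AV
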