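/-
AV (helper1): the thickening step (**) of Mumford §10 in abstract form: assembling the bricks
(E), (P), (⇒), (⇐) of `CUBE_helper1_Thick` with the Künneth injectivity (KI) as a hypothesis.

* `ThickExact qW e j` : the exactness facts of a first order thickening (`e² = 0`, `j^♯ e = 0`,
  injectivity of `epsT`, kernel and surjectivity of `j^♯` over affine opens).
* `isTrivial_of_thickExact` : (**).
-/
import Mathlib
import Fermat.Agent.AV.CUBE_helper1_Thick

set_option autoImplicit false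

open AlgebraicGeometry CategoryTheory Limits Opposite TopologicalSpace

universe u

namespace Fermat.Agent.AV

noncomputable section

/-- the exactness facts of a first order thickening `WR₁ ⟶ WR` of `W`-schemes with ideal
`e · O_W`. -/
structure ThickExact {W WR WR₁ : Scheme.{u}} (qW : WR ⟶ W) (e : Γ(WR, ⊤)) (j : WR₁ ⟶ WR) :
    Prop where
  e_sq : e * e = 0
  j_e : j.appTop.hom e = 0
  inj : ∀ U : W.Opens, Function.Injective (epsT qW e U)
  ker : ∀ U : W.Opens, IsAffineOpen U → ∀ g : Γ(WR, qW ⁻¹ᵁ U),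
    (j.app (qW ⁻¹ᵁ U)).hom g = 0 → ∃ a, g = epsT qW e U a
  surj : ∀ U : W.Opens, IsAffineOpen U → Function.Surjective (j.app (qW ⁻¹ᵁ U)).hom

/-- **(**)** the thickening step: a line bundle on `WR` which is trivial on `WR₁` and on the two
axes is trivial, provided additive cocycles on `W` are detected on the axes (Künneth). -/
theorem isTrivial_of_thickExact {W WR WR₁ X XR XR₁ Y YR YR₁ : Scheme.{u}}
    {qW : WR ⟶ W} {e : Γ(WR, ⊤)} {j : WR₁ ⟶ WR} (TW : ThickExact qW e j)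
    (s : W ⟶ WR) (hs : s ≫ qW = 𝟙 W) (hsurj : Function.Surjective s.base)
    (haff : ∀ U U' : W.Opens, IsAffineOpen U → IsAffineOpen U' → IsAffineOpen (U ⊓ U'))
    -- the `X`-axis
    {qX : XR ⟶ X} {jX : XR₁ ⟶ XR} (sX : X ⟶ W) (sXR : XR ⟶ WR) (hcommX : sXR ≫ qW = qX ≫ sX)
    (TX : ThickExact qX (sXR.appTop.hom e) jX)
    (haffX : ∀ U : W.Opens, IsAffineOpen U → IsAffineOpen (sX ⁻¹ᵁ U))
    (hliftX : ∀ ub : Γ(XR₁, ⊤), IsUnit ub → ∃ r : Γ(XR, ⊤), IsUnit r ∧ jX.appTop.hom r = ub)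
    -- the `Y`-axis
    {qY : YR ⟶ Y} {jY : YR₁ ⟶ YR} (sY : Y ⟶ W) (sYR : YR ⟶ WR) (hcommY : sYR ≫ qW = qY ≫ sY)
    (TY : ThickExact qY (sYR.appTop.hom e) jY)
    (haffY : ∀ U : W.Opens, IsAffineOpen U → IsAffineOpen (sY ⁻¹ᵁ U))
    (hliftY : ∀ ub : Γ(YR₁, ⊤), IsUnit ub → ∃ r : Γ(YR, ⊤), IsUnit r ∧ jY.appTop.hom r = ub)
    -- Künneth
    (hKI : ∀ c : AC W, (∀ k, IsAffineOpen (c.U k)) → (c.pullback sX).IsCobdry →
      (c.pullback sY).IsCobdry → c.IsCobdry)
    (N : LB WR) (hN : (N.pullback j).IsTrivial) (hNX : (N.pullback sXR).IsTrivial)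
    (hNY : (N.pullback sYR).IsTrivial) : N.IsTrivial := by
  obtain ⟨c, hcaff, hc⟩ := exists_isObstruction qW e TW.e_sq j s hs hsurj TW.ker TW.surj N
    haff TW.inj hN
  have hcX : (c.pullback sX).IsCobdry :=
    (hc.pullback sX sXR qX hcommX).isCobdry_of_isTrivial TX.e_sq jX TX.j_e hNX
      (fun k l => TX.inj _) (fun k => TX.ker _ (haffX _ (hcaff k))) hliftX
  have hcY : (c.pullback sY).IsCobdry :=
    (hc.pullback sY sYR qY hcommY).isCobdry_of_isTrivial TY.e_sq jY TY.j_e hNY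
      (fun k l => TY.inj _) (fun k => TY.ker _ (haffY _ (hcaff k))) hliftY
  exact hc.isTrivial_of_isCobdry TW.e_sq (hKI c hcaff hcX hcY)

end

end Fermat.Agent.AV
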