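/-
AV (helper1): the thickening step (**) of Mumford §10 in concrete form: `W = X ×_K Y` with `X`, `Y`
proper integral over the algebraically closed field `K`, `S₁ ⟶ S` a small extension of affine
`K`-schemes.  The exactness facts (EX) and the Künneth injectivity (KI) enter as hypotheses
(`ExactProp`, `hKI`).

* `exists_unit_lift` : global units of `X ×_K S₁` lift to global units of `X ×_K S`.
* `exists_surjective_section` : a surjective `K`-point of `S` gives a surjective section of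
  `W ×_K S ⟶ W`.
* `isAffineOpen_inf_of_isSeparated`, `isAffineOpen_preimage_of_section`.
* `ExactProp`, `isTrivial_of_smallExt` : (**).
-/
import Mathlib
import Fermat.Agent.AV.CUBE_helper1_Step
import Fermat.Agent.AV.SCH_helper1_Functions

set_option autoImplicit false

open AlgebraicGeometry CategoryTheory Limits Opposite TopologicalSpace

universe u

namespace Fermat.Agent.AV

noncomputable section

variable {K : Type u} [Field K]

theorem comp_appTop_apply {X Y Z : Scheme.{u}} (f : X ⟶ Y) (g : Y ⟶ Z) (a : Γ(Z, ⊤)) :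
    (f ≫ g).appTop.hom a = f.appTop.hom (g.appTop.hom a) := by
  rw [Scheme.Hom.comp_appTop]
  rfl

/-- global units of `X ×_K S₁` lift to global units of `X ×_K S` (`X` proper integral). -/
theorem exists_unit_lift [IsAlgClosed K] {X XR XR₁ S S₁ : Scheme.{u}}
    {iX : X ⟶ Spec (CommRingCat.of K)} [IsProper iX] [IsIntegral X]
    {iS₁ : S₁ ⟶ Spec (CommRingCat.of K)} {qX₁ : XR₁ ⟶ X} {qS₁ : XR₁ ⟶ S₁}
    (H₁ : IsPullback qX₁ qS₁ iX iS₁) {qS : XR ⟶ S} (π : S₁ ⟶ S) (jX : XR₁ ⟶ XR)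
    (hj2 : jX ≫ qS = qS₁ ≫ π) (hπsurj : Function.Surjective π.appTop.hom)
    (hunit : ∀ r : Γ(S, ⊤), IsUnit (π.appTop.hom r) → IsUnit r)
    (ub : Γ(XR₁, ⊤)) (hub : IsUnit ub) :
    ∃ r : Γ(XR, ⊤), IsUnit r ∧ jX.appTop.hom r = ub := by
  have hbij : Function.Bijective qS₁.appTop.hom := bijective_app_of_isPullback H₁ ⊤
  obtain ⟨ub', hub'⟩ := hbij.2 ub
  have hub'u : IsUnit ub' := by
    let g := RingEquiv.ofBijective qS₁.appTop.hom hbij
    have : IsUnit (g ub') := by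
      show IsUnit (qS₁.appTop.hom ub')
      rw [hub']; exact hub
    exact (isUnit_map_iff g ub').mp this
  obtain ⟨r', hr'⟩ := hπsurj ub'
  refine ⟨qS.appTop.hom r', (hunit r' (by rw [hr']; exact hub'u)).map _, ?_⟩
  rw [← comp_appTop_apply, hj2, comp_appTop_apply, hr', hub']

/-- a surjective `K`-point of `S` induces a surjective section of `W ×_K S ⟶ W`. -/
theorem exists_surjective_section {W WR S : Scheme.{u}} {iW : W ⟶ Spec (CommRingCat.of K)}
    {iS : S ⟶ Spec (CommRingCat.of K)} {qW : WR ⟶ W} {qS : WR ⟶ S}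
    (HR : IsPullback qW qS iW iS) (σ : Spec (CommRingCat.of K) ⟶ S) (hσ : σ ≫ iS = 𝟙 _)
    (hσsurj : Function.Surjective σ.base) :
    ∃ s : W ⟶ WR, s ≫ qW = 𝟙 W ∧ s ≫ qS = iW ≫ σ ∧ Function.Surjective s.base := by
  let s : W ⟶ WR := HR.lift (𝟙 W) (iW ≫ σ)
    (by rw [Category.id_comp, Category.assoc, hσ, Category.comp_id])
  have hs1 : s ≫ qW = 𝟙 W := HR.lift_fst _ _ _
  have hs2 : s ≫ qS = iW ≫ σ := HR.lift_snd _ _ _
  refine ⟨s, hs1, hs2, ?_⟩
  have hout : IsPullback (s ≫ qW) iW iW (σ ≫ iS) := by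
    rw [hs1, hσ]
    exact IsPullback.id_horiz iW
  have hsq : IsPullback s iW qS σ := IsPullback.of_right hout hs2 HR
  have : Surjective σ := ⟨hσsurj⟩
  have : Surjective s := MorphismProperty.of_isPullback (P := @Surjective) hsq.flip inferInstance
  exact this.surj

theorem isAffineOpen_inf_of_isSeparated {W B : Scheme.{u}} [IsAffine B] (iW : W ⟶ B)
    [IsSeparated iW] (U U' : W.Opens) (hU : IsAffineOpen U) (hU' : IsAffineOpen U') :
    IsAffineOpen (U ⊓ U') :=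
  isAffineHom_diagonal_iff.mp (inferInstance : IsAffineHom (pullback.diagonal iW)) ⊤
    (isAffineOpen_top _) U le_top U' le_top hU hU'

theorem isAffineOpen_preimage_of_section {X W : Scheme.{u}} (sX : X ⟶ W) (pX : W ⟶ X)
    [IsSeparated pX] (h : sX ≫ pX = 𝟙 X) (U : W.Opens) (hU : IsAffineOpen U) :
    IsAffineOpen (sX ⁻¹ᵁ U) := by
  have h1 : IsClosedImmersion (sX ≫ pX) := by rw [h]; infer_instance
  have : IsClosedImmersion sX := IsClosedImmersion.of_comp sX pX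
  exact hU.preimage sX

/-- the exactness statement (EX) for the small extension `(π : S₁ ⟶ S, ε)`: for every `K`-scheme
`V`, the thickening `V ×_K S₁ ⟶ V ×_K S` satisfies `ThickExact`. -/
def ExactProp {S S₁ : Scheme.{u}} (iS : S ⟶ Spec (CommRingCat.of K))
    (iS₁ : S₁ ⟶ Spec (CommRingCat.of K)) (π : S₁ ⟶ S) (ε : Γ(S, ⊤)) : Prop :=
  ∀ {V VR VR₁ : Scheme.{u}} (iV : V ⟶ Spec (CommRingCat.of K)) {qV : VR ⟶ V} {qS : VR ⟶ S}
    (_ : IsPullback qV qS iV iS) {qV₁ : VR₁ ⟶ V} {qS₁ : VR₁ ⟶ S₁}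
    (_ : IsPullback qV₁ qS₁ iV iS₁) (jV : VR₁ ⟶ VR) (_ : jV ≫ qV = qV₁)
    (_ : jV ≫ qS = qS₁ ≫ π), ThickExact qV (qS.appTop.hom ε) jV

/-- **(**)**, concrete form. -/
theorem isTrivial_of_smallExt [IsAlgClosed K] {X Y W : Scheme.{u}}
    (iX : X ⟶ Spec (CommRingCat.of K)) (iY : Y ⟶ Spec (CommRingCat.of K))
    [IsProper iX] [IsIntegral X] [IsProper iY] [IsIntegral Y]
    {pX : W ⟶ X} {pY : W ⟶ Y} (HW : IsPullback pX pY iX iY)
    (x₀ : Spec (CommRingCat.of K) ⟶ X) (hx₀ : x₀ ≫ iX = 𝟙 _)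
    (y₀ : Spec (CommRingCat.of K) ⟶ Y) (hy₀ : y₀ ≫ iY = 𝟙 _)
    {S S₁ : Scheme.{u}} (iS : S ⟶ Spec (CommRingCat.of K)) (iS₁ : S₁ ⟶ Spec (CommRingCat.of K))
    (π : S₁ ⟶ S) (hπ : π ≫ iS = iS₁) (ε : Γ(S, ⊤)) (hEX : ExactProp iS iS₁ π ε)
    (hπsurj : Function.Surjective π.appTop.hom)
    (hunit : ∀ r : Γ(S, ⊤), IsUnit (π.appTop.hom r) → IsUnit r)
    (σ : Spec (CommRingCat.of K) ⟶ S) (hσ : σ ≫ iS = 𝟙 _) (hσsurj : Function.Surjective σ.base)
    {WR WR₁ : Scheme.{u}} {qW : WR ⟶ W} {qS : WR ⟶ S} (HR : IsPullback qW qS (pX ≫ iX) iS)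
    {qW₁ : WR₁ ⟶ W} {qS₁ : WR₁ ⟶ S₁} (H₁ : IsPullback qW₁ qS₁ (pX ≫ iX) iS₁)
    (j : WR₁ ⟶ WR) (hj1 : j ≫ qW = qW₁) (hj2 : j ≫ qS = qS₁ ≫ π)
    (hKI : ∀ (sX : X ⟶ W) (_ : sX ≫ pX = 𝟙 X) (_ : sX ≫ pY = iX ≫ y₀) (sY : Y ⟶ W)
      (_ : sY ≫ pY = 𝟙 Y) (_ : sY ≫ pX = iY ≫ x₀) (c : AC W), (c.pullback sX).IsCobdry →
      (c.pullback sY).IsCobdry → c.IsCobdry)
    (N : LB WR) (hN : (N.pullback j).IsTrivial)
    (hNX : ∀ {Z : Scheme.{u}} (f : Z ⟶ WR), f ≫ qW ≫ pY = (f ≫ qW ≫ pX ≫ iX) ≫ y₀ →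
      (N.pullback f).IsTrivial)
    (hNY : ∀ {Z : Scheme.{u}} (f : Z ⟶ WR), f ≫ qW ≫ pX = (f ≫ qW ≫ pY ≫ iY) ≫ x₀ →
      (N.pullback f).IsTrivial) : N.IsTrivial := by
  have hpXY : pX ≫ iX = pY ≫ iY := HW.w
  -- the axes
  let sX : X ⟶ W := HW.lift (𝟙 X) (iX ≫ y₀)
    (by rw [Category.id_comp, Category.assoc, hy₀, Category.comp_id])
  have hsX1 : sX ≫ pX = 𝟙 X := HW.lift_fst _ _ _
  have hsX2 : sX ≫ pY = iX ≫ y₀ := HW.lift_snd _ _ _
  let sY : Y ⟶ W := HW.lift (iY ≫ x₀) (𝟙 Y)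
    (by rw [Category.id_comp, Category.assoc, hx₀, Category.comp_id])
  have hsY1 : sY ≫ pY = 𝟙 Y := HW.lift_snd _ _ _
  have hsY2 : sY ≫ pX = iY ≫ x₀ := HW.lift_fst _ _ _
  have : IsSeparated pX := MorphismProperty.of_isPullback (P := @IsSeparated) HW.flip inferInstance
  have : IsSeparated pY := MorphismProperty.of_isPullback (P := @IsSeparated) HW inferInstance
  -- thickenings of the axes
  have HXR := IsPullback.of_hasPullback iX iS
  have HXR₁ := IsPullback.of_hasPullback iX iS₁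
  have HYR := IsPullback.of_hasPullback iY iS
  have HYR₁ := IsPullback.of_hasPullback iY iS₁
  let jX : pullback iX iS₁ ⟶ pullback iX iS :=
    pullback.lift (pullback.fst iX iS₁) (pullback.snd iX iS₁ ≫ π)
      (by rw [pullback.condition, Category.assoc, hπ])
  have hjX1 : jX ≫ pullback.fst iX iS = pullback.fst iX iS₁ := pullback.lift_fst _ _ _
  have hjX2 : jX ≫ pullback.snd iX iS = pullback.snd iX iS₁ ≫ π := pullback.lift_snd _ _ _
  let jY : pullback iY iS₁ ⟶ pullback iY iS :=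
    pullback.lift (pullback.fst iY iS₁) (pullback.snd iY iS₁ ≫ π)
      (by rw [pullback.condition, Category.assoc, hπ])
  have hjY1 : jY ≫ pullback.fst iY iS = pullback.fst iY iS₁ := pullback.lift_fst _ _ _
  have hjY2 : jY ≫ pullback.snd iY iS = pullback.snd iY iS₁ ≫ π := pullback.lift_snd _ _ _
  let sXR : pullback iX iS ⟶ WR := HR.lift (pullback.fst iX iS ≫ sX) (pullback.snd iX iS)
    (by rw [Category.assoc, ← Category.assoc sX, hsX1, Category.id_comp, pullback.condition])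
  have hsXR1 : sXR ≫ qW = pullback.fst iX iS ≫ sX := HR.lift_fst _ _ _
  have hsXR2 : sXR ≫ qS = pullback.snd iX iS := HR.lift_snd _ _ _
  let sYR : pullback iY iS ⟶ WR := HR.lift (pullback.fst iY iS ≫ sY) (pullback.snd iY iS)
    (by rw [Category.assoc, hpXY, ← Category.assoc sY, hsY1, Category.id_comp, pullback.condition])
  have hsYR1 : sYR ≫ qW = pullback.fst iY iS ≫ sY := HR.lift_fst _ _ _
  have hsYR2 : sYR ≫ qS = pullback.snd iY iS := HR.lift_snd _ _ _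
  -- exactness
  have TW : ThickExact qW (qS.appTop.hom ε) j := hEX (pX ≫ iX) HR H₁ j hj1 hj2
  have TX : ThickExact (pullback.fst iX iS) (sXR.appTop.hom (qS.appTop.hom ε)) jX := by
    rw [← comp_appTop_apply, hsXR2]
    exact hEX iX HXR HXR₁ jX hjX1 hjX2
  have TY : ThickExact (pullback.fst iY iS) (sYR.appTop.hom (qS.appTop.hom ε)) jY := by
    rw [← comp_appTop_apply, hsYR2]
    exact hEX iY HYR HYR₁ jY hjY1 hjY2
  obtain ⟨s, hs1, -, hssurj⟩ := exists_surjective_section HR σ hσ hσsurj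
  refine isTrivial_of_thickExact TW s hs1 hssurj
    (isAffineOpen_inf_of_isSeparated (pX ≫ iX)) sX sXR hsXR1 TX
    (isAffineOpen_preimage_of_section sX pX hsX1)
    (exists_unit_lift HXR₁ π jX hjX2 hπsurj hunit)
    sY sYR hsYR1 TY
    (isAffineOpen_preimage_of_section sY pY hsY1)
    (exists_unit_lift HYR₁ π jY hjY2 hπsurj hunit)
    (fun c _ => hKI sX hsX1 hsX2 sY hsY1 hsY2 c) N hN ?_ ?_
  · apply hNX
    rw [← Category.assoc, hsXR1, Category.assoc, hsX2, ← Category.assoc sXR, hsXR1]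
    simp only [Category.assoc]
    rw [← Category.assoc sX, hsX1, Category.id_comp]
  · apply hNY
    rw [← Category.assoc, hsYR1, Category.assoc, hsY2, ← Category.assoc sYR, hsYR1]
    simp only [Category.assoc]
    rw [← Category.assoc sY, hsY1, Category.id_comp]

end

end Fermat.Agent.AV
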