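/-
AV (helper1): step 2b of Mumford §10 — the Artinian induction.  A line bundle `L` on
`(X ×_K Y) ×_K T` (`T` affine noetherian) which is trivial on the fibre over a `K`-point `z` of `T`
and along the two axes is trivial on every infinitesimal neighbourhood of the fibre.

* `affMap f : Spec A ⟶ S` for `S` affine and `f : Γ(S, ⊤) ⟶ A`; `affMap_appTop`,
  `surjective_affMap_base`.
* `exists_socle_element` : pure algebra.
* `cutMap εb : Spec (Γ(S,⊤) ⧸ (εb)) ⟶ S` with its properties.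
* `isTrivial_of_infinitesimal` : 2b.
-/
import Mathlib
import Fermat.Agent.AV.CUBE_helper1_Small
import Fermat.Agent.AV.CP_helper8_Iface

set_option autoImplicit false

open AlgebraicGeometry CategoryTheory Limits Opposite TopologicalSpace

universe u

namespace Fermat.Agent.AV

noncomputable section

/-! ### morphisms from affine schemes into affine schemes -/

/-- the morphism `Spec A ⟶ S` into an affine scheme attached to a ring map `Γ(S, ⊤) ⟶ A`. -/
def affMap {S : Scheme.{u}} [IsAffine S] {A : CommRingCat.{u}} (f : Γ(S, ⊤) ⟶ A) : Spec A ⟶ S :=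
  Spec.map f ≫ S.isoSpec.inv

theorem isoSpec_inv_appTop' (S : Scheme.{u}) [IsAffine S] :
    S.isoSpec.inv.appTop = (Scheme.ΓSpecIso Γ(S, ⊤)).inv := by
  have h1 : S.isoSpec.hom.appTop = (Scheme.ΓSpecIso Γ(S, ⊤)).hom := by
    simp [Scheme.isoSpec]
  have h2 : S.isoSpec.hom.appTop ≫ S.isoSpec.inv.appTop = 𝟙 _ := by
    rw [← Scheme.Hom.comp_appTop, Iso.inv_hom_id]
    rfl
  rw [h1] at h2
  exact (Iso.eq_inv_comp _).mpr h2 |>.trans (Category.comp_id _)

theorem affMap_appTop {S : Scheme.{u}} [IsAffine S] {A : CommRingCat.{u}} (f : Γ(S, ⊤) ⟶ A) :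
    (affMap f).appTop ≫ (Scheme.ΓSpecIso A).hom = f := by
  unfold affMap
  rw [Scheme.Hom.comp_appTop, Category.assoc, Scheme.ΓSpecIso_naturality, isoSpec_inv_appTop',
    Iso.inv_hom_id_assoc]

theorem affMap_appTop_apply {S : Scheme.{u}} [IsAffine S] {A : CommRingCat.{u}} (f : Γ(S, ⊤) ⟶ A)
    (a : Γ(S, ⊤)) : (Scheme.ΓSpecIso A).hom.hom ((affMap f).appTop.hom a) = f.hom a := by
  have := congrArg (fun g => g.hom a) (affMap_appTop f)
  simpa using this

theorem surjective_affMap_base {S : Scheme.{u}} [IsAffine S] {A : CommRingCat.{u}}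
    (f : Γ(S, ⊤) ⟶ A) (hf : Function.Surjective f.hom)
    (hnil : ∀ a : Γ(S, ⊤), f.hom a = 0 → IsNilpotent a) :
    Function.Surjective (affMap f).base := by
  have h1 : Function.Surjective (Spec.map f).base := by
    have : Set.range (PrimeSpectrum.comap f.hom) = Set.univ := by
      rw [_root_.range_comap_of_surjective _ _ hf, PrimeSpectrum.zeroLocus_eq_univ_iff]
      intro a ha
      exact hnil a ha
    exact Set.range_eq_univ.mp this
  have h2 : Function.Surjective S.isoSpec.inv.base := S.isoSpec.inv.homeomorph.surjective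
  unfold affMap
  exact h2.comp h1

theorem ΓSpecIso_hom_injective (A : CommRingCat.{u}) :
    Function.Injective (Scheme.ΓSpecIso A).hom.hom :=
  (ConcreteCategory.bijective_of_isIso (Scheme.ΓSpecIso A).hom).1

/-! ### pure algebra -/

theorem exists_socle_element {B : Type*} [CommRing B] (m q : Ideal B) (n : ℕ) (hn : m ^ n ≤ q)
    (hq : q < m) : ∃ ε ∈ m, ε ∉ q ∧ ∀ x ∈ m, x * ε ∈ q := by
  classical
  have hex : ∃ k, m ^ k ≤ q := ⟨n, hn⟩
  have hk := Nat.find_spec hex
  have hmin : ∀ k', k' < Nat.find hex → ¬ m ^ k' ≤ q := fun k' h => Nat.find_min hex h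
  have hqtop : q ≠ ⊤ := fun h => by
    rw [h] at hq
    exact (lt_of_lt_of_le hq le_top).false
  have h0 : Nat.find hex ≠ 0 := by
    intro h
    rw [h, pow_zero, Ideal.one_eq_top, top_le_iff] at hk
    exact hqtop hk
  have h1 : Nat.find hex ≠ 1 := by
    intro h
    rw [h, pow_one] at hk
    exact (lt_of_lt_of_le hq hk).false
  obtain ⟨k', hk'⟩ : ∃ k', Nat.find hex = k' + 1 := Nat.exists_eq_succ_of_ne_zero h0
  have hk'0 : k' ≠ 0 := by
    intro h
    rw [h] at hk'
    exact h1 hk'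
  have hnot := hmin k' (by omega)
  obtain ⟨ε, hε, hεq⟩ := SetLike.not_le_iff_exists.mp hnot
  refine ⟨ε, Ideal.pow_le_self hk'0 hε, hεq, fun x hx => ?_⟩
  apply hk
  rw [hk', pow_succ']
  exact Ideal.mul_mem_mul hx hε

/-! ### cutting an affine scheme by one equation -/

section cut

variable {S : Scheme.{u}} [IsAffine S] (εb : Γ(S, ⊤))

/-- the closed immersion `V(εb) ⟶ S`. -/
def cutMap : Spec (CommRingCat.of (Γ(S, ⊤) ⧸ Ideal.span {εb})) ⟶ S :=
  affMap (CommRingCat.ofHom (Ideal.Quotient.mk (Ideal.span {εb})))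

theorem cutMap_appTop_apply (r : Γ(S, ⊤)) :
    (Scheme.ΓSpecIso _).hom.hom ((cutMap εb).appTop.hom r) =
      Ideal.Quotient.mk (Ideal.span {εb}) r :=
  affMap_appTop_apply _ r

theorem cutMap_appTop_eq_zero_iff (r : Γ(S, ⊤)) :
    (cutMap εb).appTop.hom r = 0 ↔ r ∈ Ideal.span {εb} := by
  rw [← Ideal.Quotient.eq_zero_iff_mem, ← cutMap_appTop_apply]
  constructor
  · intro h
    rw [h, map_zero]
  · intro h
    apply ΓSpecIso_hom_injective
    rw [h, map_zero]

theorem cutMap_appTop_surjective : Function.Surjective (cutMap εb).appTop.hom := by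
  intro y
  obtain ⟨r, hr⟩ := Ideal.Quotient.mk_surjective ((Scheme.ΓSpecIso _).hom.hom y)
  refine ⟨r, ?_⟩
  apply ΓSpecIso_hom_injective
  rw [cutMap_appTop_apply, hr]

theorem cutMap_isUnit (hε2 : εb * εb = 0) (r : Γ(S, ⊤))
    (hr : IsUnit ((cutMap εb).appTop.hom r)) : IsUnit r := by
  obtain ⟨y, hy⟩ := hr.exists_right_inv
  obtain ⟨r', rfl⟩ := cutMap_appTop_surjective εb y
  have h1 : (cutMap εb).appTop.hom (r * r' - 1) = 0 := by
    rw [map_sub, map_mul, hy, map_one, sub_self]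
  rw [cutMap_appTop_eq_zero_iff, Ideal.mem_span_singleton'] at h1
  obtain ⟨a, ha⟩ := h1
  have h2 : IsUnit (r * r') := by
    refine IsUnit.of_mul_eq_one (1 - a * εb) ?_
    have : r * r' = 1 + a * εb := by rw [ha]; ring
    rw [this]
    linear_combination (-a * a) * hε2
  exact isUnit_of_mul_isUnit_left h2

end cut

/-! ### evaluation and constants -/

section evalconst

variable {K : Type u} [Field K]

theorem constMap_comp {S T : Scheme.{u}} (φ : S ⟶ T) (iT : T ⟶ Spec (CommRingCat.of K)) (c : K) :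
    CP.constMap (φ ≫ iT) c = φ.appTop.hom (CP.constMap iT c) :=
  comp_appTop_apply φ iT _

theorem evalAt_constMap {T : Scheme.{u}} (iT : T ⟶ Spec (CommRingCat.of K))
    (z : Spec (CommRingCat.of K) ⟶ T) (hz : z ≫ iT = 𝟙 _) (c : K) :
    CP.evalAt z (CP.constMap iT c) = c := by
  show (Scheme.ΓSpecIso (CommRingCat.of K)).hom.hom (z.appTop.hom (iT.appTop.hom
    ((Scheme.ΓSpecIso (CommRingCat.of K)).inv.hom c))) = c
  rw [← comp_appTop_apply, hz]
  have h1 : (𝟙 (Spec (CommRingCat.of K)) : _ ⟶ _).appTop.hom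
      ((Scheme.ΓSpecIso (CommRingCat.of K)).inv.hom c) =
      (Scheme.ΓSpecIso (CommRingCat.of K)).inv.hom c := rfl
  rw [h1]
  simp

theorem sub_constMap_mem_ker {T : Scheme.{u}} (iT : T ⟶ Spec (CommRingCat.of K))
    (z : Spec (CommRingCat.of K) ⟶ T) (hz : z ≫ iT = 𝟙 _) (b : Γ(T, ⊤)) :
    b - CP.constMap iT (CP.evalAt z b) ∈ RingHom.ker (CP.evalAt z) := by
  rw [RingHom.mem_ker, map_sub, evalAt_constMap iT z hz, sub_self]

end evalconst

/-! ### the induction -/

section induction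

variable {K : Type u} [Field K] [IsAlgClosed K]

/-- **2b**: `L` is trivial on every infinitesimal neighbourhood of the fibre over `z`. -/
theorem isTrivial_of_infinitesimal {X Y W : Scheme.{u}}
    (iX : X ⟶ Spec (CommRingCat.of K)) (iY : Y ⟶ Spec (CommRingCat.of K))
    [IsProper iX] [IsIntegral X] [IsProper iY] [IsIntegral Y]
    {pX : W ⟶ X} {pY : W ⟶ Y} (HW : IsPullback pX pY iX iY)
    (x₀ : Spec (CommRingCat.of K) ⟶ X) (hx₀ : x₀ ≫ iX = 𝟙 _)
    (y₀ : Spec (CommRingCat.of K) ⟶ Y) (hy₀ : y₀ ≫ iY = 𝟙 _)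
    {T P : Scheme.{u}} [IsAffine T] (iT : T ⟶ Spec (CommRingCat.of K))
    [IsNoetherianRing Γ(T, ⊤)]
    {p₁ : P ⟶ W} {p₂ : P ⟶ T} (H : IsPullback p₁ p₂ (pX ≫ iX) iT)
    (z : Spec (CommRingCat.of K) ⟶ T) (hz : z ≫ iT = 𝟙 _)
    (hEX : ∀ {S S₁ : Scheme.{u}} [IsAffine S] [IsAffine S₁]
      (iS : S ⟶ Spec (CommRingCat.of K)) (iS₁ : S₁ ⟶ Spec (CommRingCat.of K)) (π : S₁ ⟶ S)
      (_ : π ≫ iS = iS₁) (ε : Γ(S, ⊤)), ε ≠ 0 → ε * ε = 0 → π.appTop.hom ε = 0 →
      Function.Surjective π.appTop.hom →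
      (∀ r : Γ(S, ⊤), π.appTop.hom r = 0 → ∃ c : K, r = CP.constMap iS c * ε) →
      ExactProp iS iS₁ π ε)
    (hKI : ∀ (sX : X ⟶ W) (_ : sX ≫ pX = 𝟙 X) (_ : sX ≫ pY = iX ≫ y₀) (sY : Y ⟶ W)
      (_ : sY ≫ pY = 𝟙 Y) (_ : sY ≫ pX = iY ≫ x₀) (c : AC W), (c.pullback sX).IsCobdry →
      (c.pullback sY).IsCobdry → c.IsCobdry)
    (L : LB P)
    (hLz : ∀ {Z : Scheme.{u}} (f : Z ⟶ P), f ≫ p₂ = (f ≫ p₂ ≫ iT) ≫ z →
      (L.pullback f).IsTrivial)
    (hLX : ∀ {Z : Scheme.{u}} (f : Z ⟶ P), f ≫ p₁ ≫ pY = (f ≫ p₁ ≫ pX ≫ iX) ≫ y₀ →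
      (L.pullback f).IsTrivial)
    (hLY : ∀ {Z : Scheme.{u}} (f : Z ⟶ P), f ≫ p₁ ≫ pX = (f ≫ p₁ ≫ pY ≫ iY) ≫ x₀ →
      (L.pullback f).IsTrivial)
    (n : ℕ) {T' Y' : Scheme.{u}} [IsAffine T'] (φ : T' ⟶ T) (p₂' : Y' ⟶ T') (ψ : Y' ⟶ P)
    (H' : IsPullback ψ p₂' p₂ φ) (hφsurj : Function.Surjective φ.appTop.hom)
    (hn : (RingHom.ker (CP.evalAt z)) ^ n ≤ RingHom.ker φ.appTop.hom)
    (hle : RingHom.ker φ.appTop.hom ≤ RingHom.ker (CP.evalAt z)) :
    (L.pullback ψ).IsTrivial := by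
  set m : Ideal Γ(T, ⊤) := RingHom.ker (CP.evalAt z) with hm
  -- generalise for the induction
  suffices hmain : ∀ q : Ideal Γ(T, ⊤), m ^ n ≤ q → q ≤ m →
      ∀ {T' Y' : Scheme.{u}} [IsAffine T'] (φ : T' ⟶ T) (p₂' : Y' ⟶ T') (ψ : Y' ⟶ P),
        IsPullback ψ p₂' p₂ φ → Function.Surjective φ.appTop.hom →
        RingHom.ker φ.appTop.hom = q → (L.pullback ψ).IsTrivial from
    hmain _ hn hle φ p₂' ψ H' hφsurj rfl
  intro q
  induction q using WellFoundedGT.induction with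
  | ind q IH =>
  intro hnq hqm T' Y' _ φ p₂' ψ H' hφsurj hker
  by_cases hq : q = m
  · -- base case: `T'` is the point `z`
    apply hLz
    have hφ : φ = (φ ≫ iT) ≫ z := by
      apply ext_of_isAffine
      ext b
      rw [comp_appTop_apply, comp_appTop_apply]
      have h1 := sub_constMap_mem_ker iT z hz b
      rw [← hm, ← hq, ← hker, RingHom.mem_ker, map_sub, sub_eq_zero] at h1
      have h2 : CP.constMap iT (CP.evalAt z b) = iT.appTop.hom (z.appTop.hom b) := by
        show iT.appTop.hom ((Scheme.ΓSpecIso (CommRingCat.of K)).inv.hom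
          ((Scheme.ΓSpecIso (CommRingCat.of K)).hom.hom (z.appTop.hom b))) = _
        simp
      rw [h2] at h1
      exact h1
    have hw : ψ ≫ p₂ = p₂' ≫ φ := H'.w
    calc ψ ≫ p₂ = p₂' ≫ φ := hw
      _ = p₂' ≫ (φ ≫ iT) ≫ z := by rw [← hφ]
      _ = (ψ ≫ p₂ ≫ iT) ≫ z := by
        rw [← Category.assoc ψ, hw]
        simp only [Category.assoc]
  · have hlt : q < m := lt_of_le_of_ne hqm hq
    obtain ⟨ε, hεm, hεq, hεann⟩ := exists_socle_element m q n hnq hlt
    set εb : Γ(T', ⊤) := φ.appTop.hom ε with hεb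
    have hεb0 : εb ≠ 0 := fun h => hεq (by rw [← hker, RingHom.mem_ker]; exact h)
    have hεb2 : εb * εb = 0 := by
      rw [hεb, ← map_mul, ← RingHom.mem_ker, hker]
      exact hεann ε hεm
    have hann : ∀ r : Γ(T', ⊤), ∃ c : K, r * εb = CP.constMap (φ ≫ iT) c * εb := by
      intro r
      obtain ⟨b, rfl⟩ := hφsurj r
      refine ⟨CP.evalAt z b, ?_⟩
      have h1 := hεann _ (sub_constMap_mem_ker iT z hz b)
      rw [← hker, RingHom.mem_ker, map_mul, map_sub, sub_mul, sub_eq_zero] at h1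
      rw [constMap_comp]
      exact h1
    -- the small extension
    have hπsurj := cutMap_appTop_surjective εb
    have hπε : (cutMap εb).appTop.hom εb = 0 :=
      (cutMap_appTop_eq_zero_iff εb εb).mpr (Ideal.mem_span_singleton_self _)
    have hπker : ∀ r : Γ(T', ⊤), (cutMap εb).appTop.hom r = 0 →
        ∃ c : K, r = CP.constMap (φ ≫ iT) c * εb := by
      intro r hr
      rw [cutMap_appTop_eq_zero_iff, Ideal.mem_span_singleton'] at hr
      obtain ⟨a, rfl⟩ := hr
      exact hann a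
    have hunit := cutMap_isUnit εb hεb2
    have hEX' : ExactProp (φ ≫ iT) (cutMap εb ≫ φ ≫ iT) (cutMap εb) εb :=
      hEX (φ ≫ iT) (cutMap εb ≫ φ ≫ iT) (cutMap εb) rfl εb hεb0 hεb2 hπε hπsurj hπker
    -- the `K`-point of `T'`
    have hkerle : RingHom.ker φ.appTop.hom ≤ RingHom.ker (CP.evalAt z) := by rw [hker]; exact hqm
    let χ : Γ(T', ⊤) →+* K := RingHom.liftOfSurjective φ.appTop.hom hφsurj ⟨CP.evalAt z, hkerle⟩
    have hχ : ∀ b, χ (φ.appTop.hom b) = CP.evalAt z b := fun b =>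
      RingHom.liftOfSurjective_comp_apply φ.appTop.hom hφsurj ⟨CP.evalAt z, hkerle⟩ b
    let σ : Spec (CommRingCat.of K) ⟶ T' := affMap (CommRingCat.ofHom χ)
    have hχconst : ∀ c : K, χ (CP.constMap (φ ≫ iT) c) = c := fun c => by
      rw [constMap_comp, hχ, evalAt_constMap iT z hz]
    have hσ : σ ≫ φ ≫ iT = 𝟙 _ := by
      apply ext_of_isAffine
      rw [← cancel_mono (Scheme.ΓSpecIso (CommRingCat.of K)).hom]
      ext a
      have h1 : a = (Scheme.ΓSpecIso (CommRingCat.of K)).inv.hom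
          ((Scheme.ΓSpecIso (CommRingCat.of K)).hom.hom a) := by simp
      have h2 := affMap_appTop_apply (CommRingCat.ofHom χ) ((φ ≫ iT).appTop.hom a)
      have h3 := hχconst ((Scheme.ΓSpecIso (CommRingCat.of K)).hom.hom a)
      have h4 : CP.constMap (φ ≫ iT) ((Scheme.ΓSpecIso (CommRingCat.of K)).hom.hom a) =
          (φ ≫ iT).appTop.hom a := by
        show (φ ≫ iT).appTop.hom ((Scheme.ΓSpecIso (CommRingCat.of K)).inv.hom
          ((Scheme.ΓSpecIso (CommRingCat.of K)).hom.hom a)) = _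
        rw [← h1]
      rw [h4] at h3
      show (Scheme.ΓSpecIso (CommRingCat.of K)).hom.hom ((σ ≫ φ ≫ iT).appTop.hom a) =
        (Scheme.ΓSpecIso (CommRingCat.of K)).hom.hom
          ((𝟙 (Spec (CommRingCat.of K)) : _ ⟶ _).appTop.hom a)
      rw [comp_appTop_apply σ (φ ≫ iT)]
      exact h2.trans h3
    have hσsurj : Function.Surjective σ.base := by
      refine surjective_affMap_base _ ?_ ?_
      · intro c
        exact ⟨CP.constMap (φ ≫ iT) c, hχconst c⟩
      · intro r hr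
        obtain ⟨b, rfl⟩ := hφsurj r
        have hb : b ∈ m := by
          rw [hm, RingHom.mem_ker, ← hχ]
          exact hr
        refine ⟨n, ?_⟩
        rw [← map_pow, ← RingHom.mem_ker, hker]
        exact hnq (Ideal.pow_mem_pow hb n)
    -- the smaller thickening
    have HJ := IsPullback.of_hasPullback p₂' (cutMap εb)
    have hq'surj : Function.Surjective (cutMap εb ≫ φ).appTop.hom := by
      intro y
      obtain ⟨r, rfl⟩ := hπsurj y
      obtain ⟨b, rfl⟩ := hφsurj r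
      exact ⟨b, comp_appTop_apply _ _ _⟩
    have hq'mem : ∀ b, b ∈ RingHom.ker (cutMap εb ≫ φ).appTop.hom ↔
        φ.appTop.hom b ∈ Ideal.span {εb} := by
      intro b
      rw [RingHom.mem_ker, comp_appTop_apply, cutMap_appTop_eq_zero_iff]
    have hqq' : q < RingHom.ker (cutMap εb ≫ φ).appTop.hom := by
      refine lt_of_le_of_ne ?_ ?_
      · intro b hb
        rw [hq'mem]
        rw [← hker, RingHom.mem_ker] at hb
        rw [hb]
        exact Ideal.zero_mem _
      · intro h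
        apply hεq
        rw [h, hq'mem]
        exact Ideal.mem_span_singleton_self _
    have hq'm : RingHom.ker (cutMap εb ≫ φ).appTop.hom ≤ m := by
      intro b hb
      rw [hq'mem, Ideal.mem_span_singleton'] at hb
      obtain ⟨a, ha⟩ := hb
      obtain ⟨a', rfl⟩ := hφsurj a
      have h1 : b - a' * ε ∈ q := by
        rw [← hker, RingHom.mem_ker, map_sub, map_mul, ha, sub_self]
      have h2 : b = (b - a' * ε) + a' * ε := by ring
      rw [h2]
      exact m.add_mem (hqm h1) (m.mul_mem_left _ hεm)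
    have hIH : (L.pullback (pullback.fst p₂' (cutMap εb) ≫ ψ)).IsTrivial :=
      IH _ hqq' (hnq.trans hqq'.le) hq'm (cutMap εb ≫ φ) (pullback.snd p₂' (cutMap εb))
        (pullback.fst p₂' (cutMap εb) ≫ ψ) (HJ.paste_horiz H') hq'surj rfl
    -- apply the thickening step
    have HR : IsPullback (ψ ≫ p₁) p₂' (pX ≫ iX) (φ ≫ iT) := H'.paste_horiz H
    have H₁ : IsPullback (pullback.fst p₂' (cutMap εb) ≫ ψ ≫ p₁) (pullback.snd p₂' (cutMap εb))
        (pX ≫ iX) (cutMap εb ≫ φ ≫ iT) := HJ.paste_horiz HR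
    refine isTrivial_of_smallExt iX iY HW x₀ hx₀ y₀ hy₀ (φ ≫ iT) (cutMap εb ≫ φ ≫ iT) (cutMap εb)
      rfl εb hEX' hπsurj hunit σ hσ hσsurj HR H₁ (pullback.fst p₂' (cutMap εb)) rfl HJ.w hKI
      (L.pullback ψ) hIH ?_ ?_
    · intro Z f hf
      apply hLX (f ≫ ψ)
      simpa only [Category.assoc] using hf
    · intro Z f hf
      apply hLY (f ≫ ψ)
      simpa only [Category.assoc] using hf

end induction

end

end Fermat.Agent.AV
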