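import Mathlib

/-!
# AV / cohomological primitives, consumer side (helper7)

Pure linear algebra over a commutative ring `B`: a matrix `d : Matrix (Fin n₁) (Fin n₀) B`
("universal two-term complex computing `H⁰`"), its fibre kernels `fibKer d φ` along ring
homomorphisms `φ : B →+* k` into fields, semicontinuity of `dim fibKer` through minors (O1), and the
rank-one Grauert statement (O2).
-/

set_option linter.unusedSectionVars false

namespace Fermat.Agent.AV

open Matrix

section Minors

variable {k : Type*} [Field k] {m n : Type*} [Fintype m] [Fintype n]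

/-- Over a field: if some `s × s` minor is nonzero, the rank is at least `s`. -/
theorem le_rank_of_minor_ne_zero (M : Matrix m n k) {s : ℕ} (f : Fin s → m) (g : Fin s → n)
    (h : (M.submatrix f g).det ≠ 0) : s ≤ M.rank := by
  have h1 : (M.submatrix f g).rank = s := by
    rw [rank_of_isUnit _ ((isUnit_iff_isUnit_det _).mpr (isUnit_iff_ne_zero.mpr h))]
    simp
  calc s = (M.submatrix f g).rank := h1.symm
    _ ≤ M.rank := rank_submatrix_le M f g


/-- From `s ≤ rank`, extract `s` linearly independent columns. -/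
theorem exists_linearIndependent_cols (M : Matrix m n k) {s : ℕ} (h : s ≤ M.rank) :
    ∃ g : Fin s → n, LinearIndependent k (fun i => M.col (g i)) := by
  rw [rank_eq_finrank_span_cols] at h
  obtain ⟨f, hf, -, hli⟩ := Submodule.exists_fun_fin_finrank_span_eq k (Set.range M.col)
  choose g' hg' using hf
  refine ⟨fun i => g' (Fin.castLE h i), ?_⟩
  have : (fun i : Fin s => M.col (g' (Fin.castLE h i))) = f ∘ Fin.castLE h := by
    funext i; simp [hg']
  rw [this]
  exact hli.comp _ (Fin.castLE_injective h)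

/-- Over a field: if the rank is at least `s`, some `s × s` minor is nonzero. -/
theorem exists_minor_ne_zero_of_le_rank (M : Matrix m n k) {s : ℕ} (h : s ≤ M.rank) :
    ∃ (f : Fin s → m) (g : Fin s → n), (M.submatrix f g).det ≠ 0 := by
  obtain ⟨g, hg⟩ := exists_linearIndependent_cols M h
  set N : Matrix m (Fin s) k := M.submatrix id g with hN
  have hNcol : N.col = fun i => M.col (g i) := by
    funext i; ext j; simp [hN, Matrix.col]
  have hNrank : N.rank = s := by
    rw [rank_eq_finrank_span_cols, hNcol, finrank_span_eq_card hg]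
    simp
  have hNt : s ≤ Nᵀ.rank := by rw [rank_transpose, hNrank]
  obtain ⟨f, hf⟩ := exists_linearIndependent_cols Nᵀ hNt
  refine ⟨f, g, ?_⟩
  set Q : Matrix (Fin s) (Fin s) k := Nᵀ.submatrix id f with hQ
  have hQcol : Q.col = fun i => Nᵀ.col (f i) := by
    funext i; ext j; simp [hQ, Matrix.col]
  have hunit : IsUnit Q := by
    rw [← linearIndependent_cols_iff_isUnit, hQcol]
    exact hf
  have hdet : Q.det ≠ 0 := by
    have := (isUnit_iff_isUnit_det Q).mp hunit
    exact isUnit_iff_ne_zero.mp this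
  have hQ' : Q = (M.submatrix f g)ᵀ := by
    ext i j; simp [hQ, hN]
  rwa [hQ', det_transpose] at hdet

/-- Over a field: `rank < s` iff all `s × s` minors vanish. -/
theorem rank_lt_iff_minors_eq_zero (M : Matrix m n k) (s : ℕ) :
    M.rank < s ↔ ∀ (f : Fin s → m) (g : Fin s → n), (M.submatrix f g).det = 0 := by
  constructor
  · intro h f g
    by_contra hne
    exact absurd (le_rank_of_minor_ne_zero M f g hne) (not_le.mpr h)
  · intro h
    by_contra hle
    obtain ⟨f, g, hfg⟩ := exists_minor_ne_zero_of_le_rank M (not_lt.mp hle)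
    exact hfg (h f g)

end Minors

section Fibre

variable {B : Type*} [CommRing B] {n₀ n₁ : ℕ} {k : Type*} [Field k]

/-- The fibre kernel of `d` along `φ : B →+* k`: the kernel of the matrix `φ(d)` acting on `k^{n₀}`. -/
def fibKer (d : Matrix (Fin n₁) (Fin n₀) B) (φ : B →+* k) : Submodule k (Fin n₀ → k) :=
  LinearMap.ker (Matrix.mulVecLin (d.map φ))

theorem mem_fibKer {d : Matrix (Fin n₁) (Fin n₀) B} {φ : B →+* k} {x : Fin n₀ → k} :
    x ∈ fibKer d φ ↔ (d.map φ) *ᵥ x = 0 := by
  simp [fibKer, LinearMap.mem_ker]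

/-- Rank–nullity for the fibre kernel. -/
theorem finrank_fibKer_add_rank (d : Matrix (Fin n₁) (Fin n₀) B) (φ : B →+* k) :
    Module.finrank k (fibKer d φ) + (d.map φ).rank = n₀ := by
  have h := LinearMap.finrank_range_add_finrank_ker (Matrix.mulVecLin (d.map φ))
  simp only [Module.finrank_fintype_fun_eq_card, Fintype.card_fin] at h
  rw [fibKer, Matrix.rank]
  omega

theorem finrank_fibKer (d : Matrix (Fin n₁) (Fin n₀) B) (φ : B →+* k) :
    Module.finrank k (fibKer d φ) = n₀ - (d.map φ).rank := by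
  have := finrank_fibKer_add_rank d φ
  omega

/-- The ideal of `B` generated by all `s × s` minors of `d`. -/
def minorsIdeal (d : Matrix (Fin n₁) (Fin n₀) B) (s : ℕ) : Ideal B :=
  Ideal.span {x | ∃ (f : Fin s → Fin n₁) (g : Fin s → Fin n₀), x = (d.submatrix f g).det}

theorem minor_mem_minorsIdeal (d : Matrix (Fin n₁) (Fin n₀) B) {s : ℕ} (f : Fin s → Fin n₁)
    (g : Fin s → Fin n₀) : (d.submatrix f g).det ∈ minorsIdeal d s :=
  Ideal.subset_span ⟨f, g, rfl⟩

theorem map_minor (d : Matrix (Fin n₁) (Fin n₀) B) (φ : B →+* k) {s : ℕ} (f : Fin s → Fin n₁)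
    (g : Fin s → Fin n₀) : ((d.map φ).submatrix f g).det = φ ((d.submatrix f g).det) := by
  rw [RingHom.map_det]
  rfl

/-- (O1), matrix form: the rank of the fibre matrix is `< s` iff `φ` kills all `s × s` minors. -/
theorem rank_map_lt_iff (d : Matrix (Fin n₁) (Fin n₀) B) (φ : B →+* k) (s : ℕ) :
    (d.map φ).rank < s ↔ minorsIdeal d s ≤ RingHom.ker φ := by
  rw [rank_lt_iff_minors_eq_zero]
  constructor
  · intro h
    refine Ideal.span_le.mpr ?_
    rintro x ⟨f, g, rfl⟩
    rw [SetLike.mem_coe, RingHom.mem_ker, ← map_minor]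
    exact h f g
  · intro h f g
    rw [map_minor, ← RingHom.mem_ker]
    exact h (minor_mem_minorsIdeal d f g)

/-- (O1): `r ≤ dim fibKer` iff `φ` kills all `(n₀ - r + 1)`-minors (for `r ≤ n₀`). -/
theorem le_finrank_fibKer_iff (d : Matrix (Fin n₁) (Fin n₀) B) (φ : B →+* k) {r : ℕ}
    (hr : r ≤ n₀) :
    r ≤ Module.finrank k (fibKer d φ) ↔ minorsIdeal d (n₀ - r + 1) ≤ RingHom.ker φ := by
  rw [← rank_map_lt_iff, finrank_fibKer]
  have := finrank_fibKer_add_rank d φ
  omega

/-- (O1) for `r = 1`: the fibre kernel is nonzero iff `φ` kills all maximal (`n₀ × n₀`) minors. -/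
theorem one_le_finrank_fibKer_iff (d : Matrix (Fin n₁) (Fin n₀) B) (φ : B →+* k) (hn : 1 ≤ n₀) :
    1 ≤ Module.finrank k (fibKer d φ) ↔ minorsIdeal d n₀ ≤ RingHom.ker φ := by
  rw [le_finrank_fibKer_iff d φ hn]
  have : n₀ - 1 + 1 = n₀ := by omega
  rw [this]

/-- (O1), topological form: the locus in `Spec B` where the fibre kernel (over the residue field)
has dimension `≥ r` is the closed set `V(minorsIdeal d (n₀ - r + 1))`. -/
theorem setOf_le_finrank_fibKer_eq_zeroLocus (d : Matrix (Fin n₁) (Fin n₀) B) {r : ℕ}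
    (hr : r ≤ n₀) :
    {p : PrimeSpectrum B |
        r ≤ Module.finrank p.asIdeal.ResidueField
          (fibKer d (algebraMap B p.asIdeal.ResidueField))} =
      PrimeSpectrum.zeroLocus (minorsIdeal d (n₀ - r + 1) : Set B) := by
  ext p
  rw [Set.mem_ofPred_eq, le_finrank_fibKer_iff d _ hr, PrimeSpectrum.mem_zeroLocus,
    Ideal.ker_algebraMap_residueField]
  rfl

theorem isClosed_setOf_le_finrank_fibKer (d : Matrix (Fin n₁) (Fin n₀) B) (r : ℕ) :
    IsClosed {p : PrimeSpectrum B |
        r ≤ Module.finrank p.asIdeal.ResidueField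
          (fibKer d (algebraMap B p.asIdeal.ResidueField))} := by
  by_cases hr : r ≤ n₀
  · rw [setOf_le_finrank_fibKer_eq_zeroLocus d hr]
    exact PrimeSpectrum.isClosed_zeroLocus _
  · have : {p : PrimeSpectrum B |
        r ≤ Module.finrank p.asIdeal.ResidueField
          (fibKer d (algebraMap B p.asIdeal.ResidueField))} = ∅ := by
      ext p
      simp only [Set.mem_ofPred_eq, Set.mem_empty_iff_false, iff_false, not_le]
      have := finrank_fibKer_add_rank d (algebraMap B p.asIdeal.ResidueField)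
      omega
    rw [this]
    exact isClosed_empty

end Fibre

section Grauert

variable {B : Type*} [CommRing B] {n₁ s : ℕ} {k : Type*} [Field k]

/-- Laplace expansion along row `i`, written with the adjugate. -/
theorem sum_mul_adjugate_eq_det_updateRow {R : Type*} [CommRing R] {n : Type*} [Fintype n]
    [DecidableEq n] (A : Matrix n n R) (w : n → R) (i : n) :
    ∑ j, w j * (adjugate A) j i = (A.updateRow i w).det := by
  rw [← cramer_transpose_apply, cramer_eq_adjugate_mulVec, ← adjugate_transpose]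
  simp only [mulVec, dotProduct, transpose_apply]
  exact Finset.sum_congr rfl fun j _ => mul_comm _ _

/-- The cofactor ("cross product") vector of the rows `d (f i)`; only the rows `f i` with
`i ≠ Fin.last s` matter. -/
def crossVec (d : Matrix (Fin n₁) (Fin (s + 1)) B) (f : Fin (s + 1) → Fin n₁) : Fin (s + 1) → B :=
  fun j => (adjugate (d.submatrix f id)) j (Fin.last s)

/-- Each coordinate of `d *ᵥ crossVec d f` is a maximal minor of `d`. -/
theorem mulVec_crossVec_apply (d : Matrix (Fin n₁) (Fin (s + 1)) B) (f : Fin (s + 1) → Fin n₁)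
    (i : Fin n₁) :
    (d *ᵥ crossVec d f) i = (d.submatrix (Function.update f (Fin.last s) i) id).det := by
  have h := sum_mul_adjugate_eq_det_updateRow (d.submatrix f id) (d i) (Fin.last s)
  have h2 : (d.submatrix f id).updateRow (Fin.last s) (d i) =
      d.submatrix (Function.update f (Fin.last s) i) id := by
    ext a b
    by_cases ha : a = Fin.last s
    · subst ha; simp [updateRow_self]
    · simp [updateRow_ne ha, Function.update_of_ne ha]
  rw [h2] at h
  rw [← h]
  simp [mulVec, dotProduct, crossVec]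

/-- `crossVec` commutes with ring homomorphisms. -/
theorem map_crossVec {C : Type*} [CommRing C] (φ : B →+* C) (d : Matrix (Fin n₁) (Fin (s + 1)) B)
    (f : Fin (s + 1) → Fin n₁) (j : Fin (s + 1)) :
    φ (crossVec d f j) = crossVec (d.map φ) f j := by
  simp only [crossVec]
  have h := RingHom.map_adjugate φ (d.submatrix f id)
  have h2 := congrFun (congrFun h j) (Fin.last s)
  exact h2

/-- If all maximal minors of `d` are killed by a "dense" family `S` of field-valued points, then the
cross vector of any `s + 1` rows is a global kernel vector. -/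
theorem mulVec_crossVec_eq_zero (d : Matrix (Fin n₁) (Fin (s + 1)) B) (S : Set (B →+* k))
    (hdense : ∀ b : B, (∀ t ∈ S, t b = 0) → b = 0)
    (hrank : ∀ t ∈ S, (d.map t).rank < s + 1) (f : Fin (s + 1) → Fin n₁) :
    d *ᵥ crossVec d f = 0 := by
  funext i
  rw [mulVec_crossVec_apply, Pi.zero_apply]
  apply hdense
  intro t ht
  have := (rank_map_lt_iff d t (s + 1)).mp (hrank t ht)
  exact this (minor_mem_minorsIdeal d _ _)

/-- Over a field, if the rank of an `n₁ × (s+1)` matrix is at least `s`, some cross vector is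
nonzero. -/
theorem exists_crossVec_ne_zero (M : Matrix (Fin n₁) (Fin (s + 1)) k) (h : s ≤ M.rank)
    (hn : 0 < n₁) : ∃ (f : Fin (s + 1) → Fin n₁) (j : Fin (s + 1)), crossVec M f j ≠ 0 := by
  have hT : s ≤ Mᵀ.rank := by rw [rank_transpose]; exact h
  obtain ⟨f₀, hf₀⟩ := exists_linearIndependent_cols Mᵀ hT
  -- the rows `M (f₀ i)` are linearly independent
  have hrows : LinearIndependent k (fun i : Fin s => M (f₀ i)) := by
    have : (fun i : Fin s => Mᵀ.col (f₀ i)) = fun i : Fin s => M (f₀ i) := by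
      funext i; ext j; simp [Matrix.col]
    rwa [this] at hf₀
  -- pick a vector outside the span
  have hlt : Submodule.span k (Set.range fun i : Fin s => M (f₀ i)) < ⊤ := by
    rw [lt_top_iff_ne_top]
    intro htop
    have h1 := finrank_span_eq_card hrows
    rw [htop, finrank_top] at h1
    simp at h1
  obtain ⟨w, -, hw⟩ := SetLike.exists_of_lt hlt
  have hli : LinearIndependent k (Fin.snoc (fun i : Fin s => M (f₀ i)) w : Fin (s + 1) → _) :=
    hrows.finSnoc hw
  set f : Fin (s + 1) → Fin n₁ := Fin.snoc f₀ ⟨0, hn⟩ with hf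
  set A : Matrix (Fin (s + 1)) (Fin (s + 1)) k := (M.submatrix f id).updateRow (Fin.last s) w
    with hA
  have hArow : A.row = (Fin.snoc (fun i : Fin s => M (f₀ i)) w : Fin (s + 1) → _) := by
    funext a
    refine Fin.lastCases ?_ (fun a' => ?_) a
    · ext b; simp [hA, Matrix.row, updateRow_self]
    · ext b
      have hne : (Fin.castSucc a') ≠ Fin.last s := (Fin.castSucc_lt_last a').ne
      simp [hA, Matrix.row, hf]
  have hunit : IsUnit A := by
    rw [← linearIndependent_rows_iff_isUnit, hArow]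
    exact hli
  have hdet : A.det ≠ 0 := isUnit_iff_ne_zero.mp ((isUnit_iff_isUnit_det A).mp hunit)
  rw [hA, ← sum_mul_adjugate_eq_det_updateRow] at hdet
  obtain ⟨j, -, hj⟩ := Finset.exists_ne_zero_of_sum_ne_zero hdet
  exact ⟨f, j, right_ne_zero_of_mul hj⟩

/-- **(O2), rank-one Grauert, matrix form.** Let `S` be a dense family of `k`-valued points of `B`
(e.g. all `K`-points of a reduced finitely generated algebra over an algebraically closed field).
If the fibre rank of `d` is `s = n₀ - 1` at every point of `S` (i.e. every fibre kernel is a line),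
then for every `t₀ ∈ S` there is a GLOBAL kernel vector `v` of `d` and a coordinate `j` with
`t₀ (v j) ≠ 0`. -/
theorem exists_global_kernel_vector (d : Matrix (Fin n₁) (Fin (s + 1)) B) (S : Set (B →+* k))
    (hdense : ∀ b : B, (∀ t ∈ S, t b = 0) → b = 0)
    (hrank : ∀ t ∈ S, (d.map t).rank = s) {t₀ : B →+* k} (ht₀ : t₀ ∈ S) :
    ∃ (v : Fin (s + 1) → B) (j : Fin (s + 1)), d *ᵥ v = 0 ∧ t₀ (v j) ≠ 0 := by
  rcases Nat.eq_zero_or_pos n₁ with hn | hn
  · subst hn
    refine ⟨fun _ => 1, 0, ?_, by simp⟩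
    funext i
    exact i.elim0
  · obtain ⟨f, j, hj⟩ := exists_crossVec_ne_zero (d.map t₀) (hrank t₀ ht₀).ge hn
    refine ⟨crossVec d f, j, ?_, ?_⟩
    · exact mulVec_crossVec_eq_zero d S hdense (fun t ht => by rw [hrank t ht]; omega) f
    · rwa [map_crossVec]

/-- A global kernel vector of `d` maps into every fibre kernel. -/
theorem map_mem_fibKer {n₀ : ℕ} {k' : Type*} [Field k'] (d : Matrix (Fin n₁) (Fin n₀) B)
    {v : Fin n₀ → B} (hv : d *ᵥ v = 0) (φ : B →+* k') : (fun j => φ (v j)) ∈ fibKer d φ := by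
  rw [mem_fibKer]
  have h := congrArg (fun x : Fin n₁ → B => fun i => φ (x i)) hv
  simp only [Pi.zero_apply, map_zero] at h
  funext i
  have hi := congrFun h i
  simp only [mulVec, dotProduct, map_sum, map_mul] at hi
  simpa [mulVec, dotProduct] using hi

/-- If the fibre kernel at `φ` is a line and the global kernel vector `v` does not vanish at `φ`,
then the fibre kernel is spanned by the image of `v`: "`ker d` commutes with base change". -/
theorem fibKer_eq_span_of_finrank_eq_one {n₀ : ℕ} {k' : Type*} [Field k']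
    (d : Matrix (Fin n₁) (Fin n₀) B) {v : Fin n₀ → B} (hv : d *ᵥ v = 0) (φ : B →+* k')
    (h1 : Module.finrank k' (fibKer d φ) = 1) {j : Fin n₀} (hj : φ (v j) ≠ 0) :
    fibKer d φ = Submodule.span k' {fun j => φ (v j)} := by
  have hmem := map_mem_fibKer d hv φ
  have hne : (⟨fun j => φ (v j), hmem⟩ : fibKer d φ) ≠ 0 := by
    intro h0
    apply hj
    have := congrArg (fun x : fibKer d φ => (x : Fin n₀ → k') j) h0
    simpa using this
  have hspan := (finrank_eq_one_iff_of_nonzero' _ hne).mp h1
  apply le_antisymm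
  · intro x hx
    obtain ⟨c, hc⟩ := hspan ⟨x, hx⟩
    rw [Submodule.mem_span_singleton]
    exact ⟨c, by simpa using congrArg Subtype.val hc⟩
  · rw [Submodule.span_singleton_le_iff_mem]
    exact hmem

end Grauert

section KPoints

variable {K : Type*} [Field K] [IsAlgClosed K] {B : Type*} [CommRing B] [Algebra K B]
  [Algebra.FiniteType K B]

/-- Nullstellensatz: every maximal ideal of a finitely generated algebra over an algebraically
closed field `K` is the kernel of a `K`-point. -/
theorem exists_kpoint_ker_eq (𝔪 : Ideal B) [𝔪.IsMaximal] :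
    ∃ t : B →ₐ[K] K, RingHom.ker (t : B →+* K) = 𝔪 := by
  let _ := Ideal.Quotient.field 𝔪
  have hfin : Module.Finite K (B ⧸ 𝔪) := finite_of_finite_type_of_isJacobsonRing K (B ⧸ 𝔪)
  have hint : Algebra.IsIntegral K (B ⧸ 𝔪) := Algebra.IsIntegral.of_finite K (B ⧸ 𝔪)
  have hbij : Function.Bijective (algebraMap K (B ⧸ 𝔪)) :=
    IsAlgClosed.algebraMap_bijective_of_isIntegral
  let e : K ≃ₐ[K] (B ⧸ 𝔪) := AlgEquiv.ofBijective (Algebra.ofId K (B ⧸ 𝔪)) hbij
  refine ⟨(e.symm : (B ⧸ 𝔪) →ₐ[K] K).comp (Ideal.Quotient.mkₐ K 𝔪), ?_⟩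
  ext b
  simp only [RingHom.mem_ker, AlgHom.coe_toRingHom, AlgHom.comp_apply, Ideal.Quotient.mkₐ_eq_mk,
    AlgEquiv.coe_toAlgHom]
  rw [map_eq_zero_iff _ e.symm.injective, Ideal.Quotient.eq_zero_iff_mem]

/-- `K`-points of a reduced finitely generated algebra over an algebraically closed field are dense:
an element killed by all `K`-points is zero. -/
theorem eq_zero_of_forall_kpoint [IsReduced B] (b : B) (h : ∀ t : B →ₐ[K] K, t b = 0) : b = 0 := by
  have hJ : IsJacobsonRing B := isJacobsonRing_of_finiteType (A := K)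
  have hjac : b ∈ (⊥ : Ideal B).jacobson := by
    rw [Ideal.jacobson, Ideal.mem_sInf]
    rintro 𝔪 ⟨-, h𝔪⟩
    obtain ⟨t, ht⟩ := exists_kpoint_ker_eq (K := K) 𝔪
    rw [← ht, RingHom.mem_ker]
    exact h t
  rw [← Ideal.radical_eq_jacobson] at hjac
  have hrad : (⊥ : Ideal B).radical = ⊥ := Ideal.radical_bot_of_isReduced
  rw [hrad] at hjac
  exact hjac

/-- **(O1) for `K`-points**: `r ≤ dim ker (d ⊗ t)` iff the `K`-point `t` lies on the closed subscheme
cut out by the minors of size `n₀ + 1 - r`. -/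
theorem le_finrank_fibKer_kpoint_iff {n₁ n₀ : ℕ} (d : Matrix (Fin n₁) (Fin n₀) B) (t : B →ₐ[K] K)
    {r : ℕ} (hr : r ≤ n₀) :
    r ≤ Module.finrank K (fibKer d (t : B →+* K)) ↔
      minorsIdeal d (n₀ - r + 1) ≤ RingHom.ker (t : B →+* K) :=
  le_finrank_fibKer_iff d (t : B →+* K) hr

/-- **(O2) for `K`-points of a reduced finitely generated algebra**: if every fibre kernel at a
`K`-point is a line, then for every `K`-point `t₀` there is a global kernel vector not vanishing
at `t₀`. -/
theorem exists_global_kernel_vector_kpoints [IsReduced B] {n₁ s : ℕ}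
    (d : Matrix (Fin n₁) (Fin (s + 1)) B)
    (hrank : ∀ t : B →ₐ[K] K, (d.map (t : B →+* K)).rank = s) (t₀ : B →ₐ[K] K) :
    ∃ (v : Fin (s + 1) → B) (j : Fin (s + 1)), d *ᵥ v = 0 ∧ t₀ (v j) ≠ 0 := by
  obtain ⟨v, j, hv, hj⟩ := exists_global_kernel_vector d
    (Set.range fun t : B →ₐ[K] K => (t : B →+* K))
    (fun b hb => eq_zero_of_forall_kpoint (K := K) b fun t => hb _ ⟨t, rfl⟩)
    (by rintro _ ⟨t, rfl⟩; exact hrank t) (t₀ := (t₀ : B →+* K)) ⟨t₀, rfl⟩
  exact ⟨v, j, hv, hj⟩

/-- Same, with the hypothesis phrased through `finrank (fibKer) = 1`. -/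
theorem exists_global_kernel_vector_kpoints' [IsReduced B] {n₁ s : ℕ}
    (d : Matrix (Fin n₁) (Fin (s + 1)) B)
    (h1 : ∀ t : B →ₐ[K] K, Module.finrank K (fibKer d (t : B →+* K)) = 1) (t₀ : B →ₐ[K] K) :
    ∃ (v : Fin (s + 1) → B) (j : Fin (s + 1)), d *ᵥ v = 0 ∧ t₀ (v j) ≠ 0 := by
  refine exists_global_kernel_vector_kpoints d (fun t => ?_) t₀
  have h := finrank_fibKer_add_rank d (t : B →+* K)
  rw [h1 t] at h
  omega

end KPoints

section Local

variable {R : Type*} [CommRing R] {n₁ s : ℕ}

/-- Uniqueness of the kernel line: if `x` is killed by the rows `f i`, `i ≠ last`, of `d` and some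
coordinate of the cross vector of these rows is a unit, then `x` is a multiple of the cross
vector. -/
theorem eq_smul_crossVec (d : Matrix (Fin n₁) (Fin (s + 1)) R) (f : Fin (s + 1) → Fin n₁)
    {x : Fin (s + 1) → R} (hx : ∀ i, i ≠ Fin.last s → (d *ᵥ x) (f i) = 0)
    {j : Fin (s + 1)} (hj : IsUnit (crossVec d f j)) :
    ∃ c : R, x = c • crossVec d f := by
  classical
  set A : Matrix (Fin (s + 1)) (Fin (s + 1)) R := d.submatrix f id with hA
  set v := crossVec d f with hv
  set A' : Matrix (Fin (s + 1)) (Fin (s + 1)) R := A.updateRow (Fin.last s) (Pi.single j 1)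
    with hA'
  have hdet : A'.det = v j := by
    rw [hA', ← adjugate_apply]
    rfl
  have hunit : IsUnit A'.det := hdet ▸ hj
  -- `A' *ᵥ y = y j • e_last` for every `y` killed by the first `s` rows of `A`
  have key : ∀ y : Fin (s + 1) → R, (∀ i, i ≠ Fin.last s → (A *ᵥ y) i = 0) →
      A' *ᵥ y = fun i => if i = Fin.last s then y j else 0 := by
    intro y hy
    funext i
    by_cases hi : i = Fin.last s
    · subst hi
      simp [hA', mulVec, updateRow_self, dotProduct, Pi.single_apply]
    · rw [if_neg hi]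
      have := hy i hi
      simpa [hA', mulVec, updateRow_ne hi] using this
  have hAx : ∀ i, i ≠ Fin.last s → (A *ᵥ x) i = 0 := by
    intro i hi
    have := hx i hi
    simpa [hA, mulVec, dotProduct] using this
  have hAv : ∀ i, i ≠ Fin.last s → (A *ᵥ v) i = 0 := by
    intro i hi
    have h1 : A *ᵥ v = fun i => (A * adjugate A) i (Fin.last s) := by
      funext i
      simp [hv, crossVec, mulVec, dotProduct, Matrix.mul_apply, hA]
    rw [h1, mul_adjugate]
    simp [Matrix.smul_apply, Matrix.one_apply_ne hi]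
  have h0 : A' *ᵥ (v j • x - x j • v) = 0 := by
    rw [mulVec_sub, mulVec_smul, mulVec_smul, key x hAx, key v hAv]
    funext i
    by_cases hi : i = Fin.last s
    · simp [hi, mul_comm]
    · simp [hi]
  have hinj : v j • x - x j • v = 0 := by
    have hinv := (isUnit_iff_isUnit_det A').mpr hunit
    have := congrArg (fun w => A'⁻¹ *ᵥ w) h0
    simpa [mulVec_mulVec, nonsing_inv_mul _ hunit] using this
  obtain ⟨u, hu⟩ := hj
  refine ⟨x j * ↑u⁻¹, ?_⟩
  have h2 : v j • x = x j • v := sub_eq_zero.mp hinj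
  have h3 : x = (↑u⁻¹ : R) • (v j • x) := by
    rw [smul_smul, ← hu, Units.inv_mul, one_smul]
  calc x = (↑u⁻¹ : R) • (v j • x) := h3
    _ = (↑u⁻¹ : R) • (x j • v) := by rw [h2]
    _ = (x j * ↑u⁻¹) • v := by rw [smul_smul, mul_comm]

/-- If moreover `x` is a kernel vector of all of `d` with a unit coordinate, then the cross vector is
itself a kernel vector of `d`. -/
theorem mulVec_crossVec_eq_zero_of_kernel_vector (d : Matrix (Fin n₁) (Fin (s + 1)) R)
    (f : Fin (s + 1) → Fin n₁) {x : Fin (s + 1) → R} (hx : d *ᵥ x = 0)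
    {i : Fin (s + 1)} (hi : IsUnit (x i)) {j : Fin (s + 1)} (hj : IsUnit (crossVec d f j)) :
    d *ᵥ crossVec d f = 0 := by
  obtain ⟨c, hc⟩ := eq_smul_crossVec d f (x := x) (fun a _ => by rw [hx]; rfl) hj
  have hci : x i = c * crossVec d f i := by
    have := congrFun hc i
    simpa using this
  have hcu : IsUnit c := by
    rw [hci] at hi
    exact isUnit_of_mul_isUnit_left hi
  obtain ⟨u, rfl⟩ := hcu
  have : crossVec d f = (↑u⁻¹ : R) • x := by
    rw [hc, smul_smul, Units.inv_mul, one_smul]
  rw [this, mulVec_smul, hx, smul_zero]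

/-- Krull intersection, in the form used to spread out from all infinitesimal neighbourhoods of a
point to an open neighbourhood: an element of `⋂ 𝔪ⁿ` is killed by some `g ∉ 𝔪`. -/
theorem exists_notMem_mul_eq_zero_of_mem_iInf_pow [IsNoetherianRing R] (𝔪 : Ideal R)
    (h𝔪 : 𝔪 ≠ ⊤) {b : R} (hb : ∀ n : ℕ, b ∈ 𝔪 ^ n) : ∃ g : R, g ∉ 𝔪 ∧ g * b = 0 := by
  have hmem : b ∈ (⨅ i : ℕ, 𝔪 ^ i • ⊤ : Submodule R R) := by
    rw [Submodule.mem_iInf]
    intro n
    have := hb n
    simpa using this
  obtain ⟨r, hr⟩ := (Ideal.mem_iInf_smul_pow_eq_bot_iff 𝔪 b).mp hmem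
  refine ⟨1 - r, ?_, ?_⟩
  · intro h1
    apply h𝔪
    rw [Ideal.eq_top_iff_one]
    have := 𝔪.add_mem h1 r.2
    simpa using this
  · have : (r : R) * b = b := by simpa using hr
    rw [sub_mul, one_mul, this, sub_self]

end Local

end Fermat.Agent.AV
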