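/-
AV3 / SEESAW (helper1): non-vanishing loci of sections and fibres of `X ×_K T → T`.

* `LB.nonvanishing σ` : the open set where the global section `σ` does not vanish;
  `LB.inf_nonvanishing`, `LB.isTrivialOn_of_le_nonvanishing`, `LB.nonvanishing_pullbackSection`.
* `LB.nonvanishing_eq_top_of_isTrivial` : a non-zero section of a trivial bundle on a scheme with
  `Γ(X, ⊤)` a field vanishes nowhere.
* `isPullback_fibre`, `range_fibreIncl` : the fibre of `pr₂` over a `K`-point is `X`.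
* `LB.isTrivialOn_of_fibre` : non-vanishing on one fibre ⇒ trivial over a neighbourhood
  (uses that `pr₂` is a closed map).
-/
import Mathlib
import Fermat.Agent.AV.LBS_helper1_SecOn

set_option autoImplicit false

open AlgebraicGeometry CategoryTheory Limits Opposite TopologicalSpace

universe u

namespace Fermat.Agent.AV

noncomputable section

namespace LB

variable {X : Scheme.{u}} (M : LB X)

/-- the open set where a global section does not vanish. -/
def nonvanishing (σ : M.H0) : X.Opens := ⨆ i, X.basicOpen (σ.1 i)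

variable {M}

theorem inf_nonvanishing (σ : M.H0) (i : M.ι) :
    M.U i ⊓ M.nonvanishing σ = X.basicOpen (σ.1 i) := by
  apply le_antisymm
  · rintro y ⟨hyi, hy⟩
    obtain ⟨k, hk⟩ := Opens.mem_iSup.mp hy
    have hyk : y ∈ M.U k := X.basicOpen_le _ hk
    -- on `U i ⊓ U k`, `σ i = g i k * σ k`
    have h := σ.2 i k
    have hb := congrArg (fun a => X.basicOpen a) h
    simp only [X.basicOpen_mul, basicOpen_res'] at hb
    have hg : X.basicOpen (M.g i k) = M.U i ⊓ M.U k := X.basicOpen_of_isUnit (M.isUnit_g i k)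
    rw [hg] at hb
    have hy' : y ∈ (M.U i ⊓ M.U k) ⊓ ((M.U i ⊓ M.U k) ⊓ X.basicOpen (σ.1 k)) :=
      ⟨⟨hyi, hyk⟩, ⟨⟨hyi, hyk⟩, hk⟩⟩
    rw [← hb] at hy'
    exact hy'.2
  · exact le_inf (X.basicOpen_le _) (le_iSup (fun i => X.basicOpen (σ.1 i)) i)

/-- a line bundle is trivial over any open on which some global section does not vanish. -/
theorem isTrivialOn_of_le_nonvanishing (σ : M.H0) {W : X.Opens} (hW : W ≤ M.nonvanishing σ) :
    M.IsTrivialOn W := by
  refine ⟨(SecOn.ofH0 σ).restrict le_top, fun i => ?_⟩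
  rw [SecOn.restrict_s]
  show IsUnit (res (M.U i ⊓ W) _ (res (M.U i ⊓ ⊤) inf_le_left (σ.1 i)))
  rw [res_res, isUnit_iff_le_basicOpen, basicOpen_res', ← inf_nonvanishing σ i]
  exact le_inf le_rfl (le_inf inf_le_left (inf_le_right.trans hW))

theorem nonvanishing_pullbackSection {Y : Scheme.{u}} (φ : Y ⟶ X) (σ : M.H0) :
    (M.pullback φ).nonvanishing (M.pullbackSection φ σ) = φ ⁻¹ᵁ M.nonvanishing σ := by
  unfold nonvanishing
  rw [Opens.map_iSup]
  congr 1
  funext i
  exact (Scheme.preimage_basicOpen φ (σ.1 i)).symm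

/-- On a scheme whose global functions form a field, a non-zero section of a trivial line bundle
vanishes nowhere. -/
theorem nonvanishing_eq_top_of_isTrivial (hF : IsField Γ(X, ⊤)) (hM : M.IsTrivial) (σ : M.H0)
    (hσ : σ ≠ 0) : M.nonvanishing σ = ⊤ := by
  obtain ⟨τ, hτ⟩ := (isTrivialOn_top_iff M).mpr hM
  obtain ⟨c, hc, -⟩ := SecOn.exists_ratio τ hτ (SecOn.ofH0 σ)
  have hc0 : c ≠ 0 := by
    rintro rfl
    apply hσ
    apply Subtype.ext
    funext i
    have h := congrArg (fun ρ => ρ.s i) hc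
    simp only [SecOn.smul_s, map_zero, zero_mul] at h
    -- `σ i` restricted to `U i ⊓ ⊤` is zero
    have h2 : res (M.U i ⊓ ⊤) inf_le_left (σ.1 i) = 0 := h
    have h3 := congrArg (res (M.U i) (le_inf le_rfl le_top)) h2
    rw [res_res, map_zero, res_self] at h3
    exact h3
  have hcu : IsUnit c := by
    let _ := hF.toField
    exact IsUnit.mk0 c hc0
  rw [eq_top_iff]
  intro y _
  have hy : y ∈ (⊤ : X.Opens) := True.intro
  rw [← M.iSup_U] at hy
  obtain ⟨i, hi⟩ := Opens.mem_iSup.mp hy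
  have hu : IsUnit (σ.1 i) := by
    have h := congrArg (fun ρ => ρ.s i) hc
    simp only [SecOn.smul_s] at h
    have h2 : res (M.U i ⊓ ⊤) inf_le_left (σ.1 i) =
        res (M.U i ⊓ ⊤) inf_le_right c * τ.s i := h
    have h3 : IsUnit (res (M.U i ⊓ ⊤) inf_le_left (σ.1 i)) := by
      rw [h2]
      exact (isUnit_res _ hcu).mul (hτ i)
    have h4 := isUnit_res (le_inf le_rfl le_top : M.U i ≤ M.U i ⊓ ⊤) h3
    rw [res_res, res_self] at h4
    exact h4
  have := (isUnit_iff_le_basicOpen _).mp hu hi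
  exact Opens.mem_iSup.mpr ⟨i, this⟩

end LB

section Fibre

variable {K : Type u} [Field K] {X T Y : Scheme.{u}}
  {iX : X ⟶ Spec (CommRingCat.of K)} {f : T ⟶ Spec (CommRingCat.of K)} {g : Y ⟶ X} {iY : Y ⟶ T}

/-- The fibre square: `X` is the fibre of `pr₂ : X ×_K T ⟶ T` over a `K`-point `t`. -/
theorem isPullback_fibre (H : IsPullback g iY iX f) (t : Spec (CommRingCat.of K) ⟶ T)
    (ht : t ≫ f = 𝟙 _) (j : X ⟶ Y) (hj1 : j ≫ g = 𝟙 X) (hj2 : j ≫ iY = iX ≫ t) :
    IsPullback j iX iY t := by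
  have hbig : IsPullback (j ≫ g) iX iX (t ≫ f) := by
    rw [hj1, ht]
    exact IsPullback.of_horiz_isIso ⟨by simp⟩
  exact IsPullback.of_right hbig hj2 H

/-- the fibre of `pr₂` over the `K`-point `t` is the image of the fibre inclusion. -/
theorem range_fibreIncl (H : IsPullback g iY iX f) (t : Spec (CommRingCat.of K) ⟶ T)
    (ht : t ≫ f = 𝟙 _) (j : X ⟶ Y) (hj1 : j ≫ g = 𝟙 X) (hj2 : j ≫ iY = iX ≫ t) :
    Set.range j = iY ⁻¹' (Set.range t) := by
  have h := Scheme.image_preimage_eq_of_isPullback (isPullback_fibre H t ht j hj1 hj2).flip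
    Set.univ
  simpa using h


/-- **Non-vanishing on a fibre spreads out** (properness of `X`).  Let `Y = X ×_K T` with `X` proper
and integral over `K`, `σ` a global section of `L` on `Y` and `t` a `K`-point of `T` such that
`L` restricted to the fibre `X_t` is trivial and `σ|X_t ≠ 0`.  Then `L` is trivial over `pr₂⁻¹ V`
for an open neighbourhood `V` of `t`. -/
theorem LB.isTrivialOn_of_fibre (H : IsPullback g iY iX f) [IsProper iX] [IsIntegral X]
    (L : LB Y) (σ : L.H0) (t : Spec (CommRingCat.of K) ⟶ T) (ht : t ≫ f = 𝟙 _) (j : X ⟶ Y)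
    (hj1 : j ≫ g = 𝟙 X) (hj2 : j ≫ iY = iX ≫ t) (htriv : (L.pullback j).IsTrivial)
    (hσ : L.pullbackSection j σ ≠ 0) :
    ∃ V : T.Opens, Set.range t ⊆ (V : Set T) ∧ iY ⁻¹ᵁ V ≤ L.nonvanishing σ ∧
      L.IsTrivialOn (iY ⁻¹ᵁ V) := by
  have hF : IsField Γ(X, ⊤) := isField_of_universallyClosed K iX
  have h1 := LB.nonvanishing_eq_top_of_isTrivial hF htriv _ hσ
  rw [LB.nonvanishing_pullbackSection] at h1
  have hrange : Set.range j ⊆ (L.nonvanishing σ : Set Y) := by
    rintro _ ⟨x, rfl⟩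
    have : x ∈ j ⁻¹ᵁ L.nonvanishing σ := by rw [h1]; trivial
    exact this
  rw [range_fibreIncl H t ht j hj1 hj2] at hrange
  have hUC : UniversallyClosed iY := MorphismProperty.of_isPullback H inferInstance
  have hclosed : IsClosed (iY '' ((L.nonvanishing σ : Set Y)ᶜ)) :=
    iY.isClosedMap _ (L.nonvanishing σ).2.isClosed_compl
  let V : T.Opens := ⟨(iY '' ((L.nonvanishing σ : Set Y)ᶜ))ᶜ, hclosed.isOpen_compl⟩
  have hV : iY ⁻¹ᵁ V ≤ L.nonvanishing σ := by
    intro y hy
    by_contra hne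
    exact hy ⟨y, hne, rfl⟩
  refine ⟨V, ?_, hV, LB.isTrivialOn_of_le_nonvanishing σ hV⟩
  rintro p hp ⟨z, hz, rfl⟩
  exact hz (hrange hp)

end Fibre

end

end Fermat.Agent.AV
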