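/-
AV3 / SEESAW (helper1): the seesaw principle over an AFFINE base `T`, against helper8's universal
`H⁰`-presentations (`CP.HasH0Presentations iX`), helper7's matrix lemmas and helper5's triviality
criterion.  `Y = X ×_K T`, `X` proper integral over `K`.

* `ptK`, `range_kpoint`, `evalAt_ne_zero_iff` : `K`-points and evaluation.
* `minorSet`, `exists_ne_zero_mulVec_eq_zero_iff`, `exists_global_kernel_vector'` : linear algebra.
* `LB.inv_pullback`, `LB.exists_smul_eq_of_isUnit`, `LB.ne_zero_of_isUnit`.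
* `fibreIncl H t ht : X ⟶ Y` : the fibre inclusion over a `K`-point `t`.
* `exists_isClosed_isTrivial_of_isAffine` : **(S-closed)**, `{t | L_t trivial}` is closed.
* `finrank_fibKer_eq_one_of_isTrivial` : trivial fibre ⇒ the fibre kernel is a line.
* `exists_isTrivialOn_of_isAffine` : **(S-triv), local form**: all fibres trivial, `T` reduced of
  finite type ⇒ `L` trivial over `pr₂⁻¹ V` for a neighbourhood `V` of any `K`-point.
-/
import Mathlib
import Fermat.Agent.AV.CP_helper8_Iface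
import Fermat.Agent.AV.COH_helper7_Matrix
import Fermat.Agent.AV.AV2_helper5_Main
import Fermat.Agent.AV.SEESAW_helper1_Fibre
import Fermat.Agent.AV.SCH_helper1_Functions

set_option autoImplicit false

open AlgebraicGeometry CategoryTheory Limits Opposite TopologicalSpace

universe u

namespace Fermat.Agent.AV

noncomputable section

variable {K : Type u} [Field K]

/-- the unique point of `Spec K`. -/
abbrev ptK (K : Type u) [Field K] : Spec (CommRingCat.of K) := IsLocalRing.closedPoint K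

theorem range_kpoint {T : Scheme.{u}} (t : Spec (CommRingCat.of K) ⟶ T) :
    Set.range t = {t (ptK K)} := by
  ext x
  constructor
  · rintro ⟨p, rfl⟩
    have : p = ptK K := Subsingleton.elim _ _
    rw [this]
    rfl
  · rintro rfl
    exact ⟨_, rfl⟩

/-- a global function vanishes at a `K`-point iff the point is outside its basic open. -/
theorem evalAt_ne_zero_iff {T : Scheme.{u}} (t : Spec (CommRingCat.of K) ⟶ T) (b : Γ(T, ⊤)) :
    CP.evalAt t b ≠ 0 ↔ t (ptK K) ∈ T.basicOpen b := by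
  have h1 : t (ptK K) ∈ T.basicOpen b ↔ ptK K ∈ t ⁻¹ᵁ T.basicOpen b := Iff.rfl
  rw [h1, Scheme.preimage_basicOpen_top, basicOpen_eq_of_affine']
  show _ ↔ (Scheme.ΓSpecIso (CommRingCat.of K)).hom.hom (t.appTop.hom b) ∉
    (ptK K : PrimeSpectrum K).asIdeal
  have h2 : (ptK K : PrimeSpectrum K).asIdeal = ⊥ := by
    show IsLocalRing.maximalIdeal K = ⊥
    exact IsLocalRing.maximalIdeal_eq_bot
  rw [h2, Ideal.mem_bot]
  rfl

/-! ### Linear algebra wrappers -/

/-- the set of `s × s` minors of a matrix. -/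
def minorSet {B : Type*} [CommRing B] {n₁ n₀ : ℕ} (d : Matrix (Fin n₁) (Fin n₀) B) (s : ℕ) :
    Set B :=
  {x | ∃ (f : Fin s → Fin n₁) (g : Fin s → Fin n₀), x = (d.submatrix f g).det}

theorem exists_ne_zero_mulVec_eq_zero_iff {B : Type*} [CommRing B] {k : Type*} [Field k]
    {n₁ n₀ : ℕ} (d : Matrix (Fin n₁) (Fin n₀) B) (φ : B →+* k) :
    (∃ v : Fin n₀ → k, v ≠ 0 ∧ (d.map φ).mulVec v = 0) ↔ ∀ m ∈ minorSet d n₀, φ m = 0 := by
  have h1 : (∃ v : Fin n₀ → k, v ≠ 0 ∧ (d.map φ).mulVec v = 0) ↔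
      0 < Module.finrank k (fibKer d φ) := by
    rw [Module.finrank_pos_iff_exists_ne_zero]
    constructor
    · rintro ⟨v, hv, hdv⟩
      exact ⟨⟨v, mem_fibKer.mpr hdv⟩, fun h => hv (congrArg Subtype.val h)⟩
    · rintro ⟨⟨v, hv⟩, hne⟩
      exact ⟨v, fun h => hne (Subtype.ext h), mem_fibKer.mp hv⟩
  have h2 : 0 < Module.finrank k (fibKer d φ) ↔ (d.map φ).rank < n₀ := by
    have := finrank_fibKer_add_rank d φ
    omega
  rw [h1, h2, rank_map_lt_iff]
  constructor
  · rintro h m ⟨f, g, rfl⟩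
    exact h (minor_mem_minorsIdeal d f g)
  · intro h
    unfold minorsIdeal
    rw [Ideal.span_le]
    rintro m ⟨f, g, rfl⟩
    exact h _ ⟨f, g, rfl⟩

theorem exists_global_kernel_vector' {B : Type*} [CommRing B] {k : Type*} [Field k]
    {n₁ n₀ : ℕ} (d : Matrix (Fin n₁) (Fin n₀) B) (S : Set (B →+* k))
    (hdense : ∀ b : B, (∀ t ∈ S, t b = 0) → b = 0)
    (h1 : ∀ t ∈ S, Module.finrank k (fibKer d t) = 1) {t₀ : B →+* k} (ht₀ : t₀ ∈ S) :
    ∃ (v : Fin n₀ → B) (j : Fin n₀), d.mulVec v = 0 ∧ t₀ (v j) ≠ 0 := by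
  cases n₀ with
  | zero =>
    exfalso
    have h := finrank_fibKer_add_rank d t₀
    rw [h1 t₀ ht₀] at h
    omega
  | succ s =>
    refine exists_global_kernel_vector d S hdense (fun t ht => ?_) ht₀
    have h := finrank_fibKer_add_rank d t
    rw [h1 t ht] at h
    omega

namespace LB

variable {X : Scheme.{u}} (M : LB X)

theorem ext_g {ι : Type u} {U : ι → X.Opens} {h : ⨆ i, U i = ⊤}
    {g g' : ∀ i j, Γ(X, U i ⊓ U j)} {gs gs' c c'} (hg : g = g') :
    (LB.mk ι U h g gs c : LB X) = LB.mk ι U h g' gs' c' := by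
  subst hg
  rfl

theorem inv_pullback {Y : Scheme.{u}} (φ : Y ⟶ X) : (M.pullback φ).inv = M.inv.pullback φ := by
  unfold inv pullback
  apply ext_g
  funext i j
  show res (φ ⁻¹ᵁ M.U i ⊓ φ ⁻¹ᵁ M.U j) (le_inf inf_le_right inf_le_left)
      ((φ.app (M.U j ⊓ M.U i)).hom (M.g j i)) =
    (φ.app (M.U i ⊓ M.U j)).hom (res (M.U i ⊓ M.U j) (le_inf inf_le_right inf_le_left) (M.g j i))
  exact (app_res φ (le_inf inf_le_right inf_le_left : M.U i ⊓ M.U j ≤ M.U j ⊓ M.U i)
    (M.g j i)).symm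

end LB


/-! ### `H⁰` of a trivial bundle on a proper integral scheme is a line -/

namespace LB

variable {X : Scheme.{u}} {M : LB X}

/-- every global section is a function multiple of a trivialising section. -/
theorem exists_smul_eq_of_isUnit (τ : M.H0) (hτ : ∀ i, IsUnit (τ.1 i)) (s : M.H0) :
    ∃ r : Γ(X, ⊤), s = r • τ := by
  obtain ⟨c, hc, -⟩ := SecOn.exists_ratio (SecOn.ofH0 τ) (fun i => isUnit_res _ (hτ i))
    (SecOn.ofH0 s)
  refine ⟨c, Subtype.ext (funext fun i => ?_)⟩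
  have h := congrArg (fun ρ => ρ.s i) hc
  have h2 : res (M.U i ⊓ ⊤) inf_le_left (s.1 i) =
      res (M.U i ⊓ ⊤) inf_le_right c * res (M.U i ⊓ ⊤) inf_le_left (τ.1 i) := h
  have h3 := congrArg (res (M.U i) (le_inf le_rfl le_top)) h2
  rw [map_mul, res_res, res_res, res_res, res_self, res_self] at h3
  rw [smul_apply]
  exact h3

theorem ne_zero_of_isUnit [Nonempty X] (τ : M.H0) (hτ : ∀ i, IsUnit (τ.1 i)) : τ ≠ 0 := by
  intro h0
  obtain ⟨i, ⟨⟨x, hx⟩⟩⟩ := M.exists_nonempty_chart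
  have hu := hτ i
  rw [h0] at hu
  have h1 : X.basicOpen (0 : Γ(X, M.U i)) = M.U i := X.basicOpen_of_isUnit hu
  rw [Scheme.basicOpen_zero] at h1
  rw [← h1] at hx
  exact hx

end LB

section Affine

variable {X : Scheme.{u}} {iX : X ⟶ Spec (CommRingCat.of K)}
  {T Y : Scheme.{u}} {f : T ⟶ Spec (CommRingCat.of K)} {g : Y ⟶ X} {iY : Y ⟶ T}

/-- the inclusion of the fibre of `pr₂ : X ×_K T ⟶ T` over the `K`-point `t`. -/
def fibreIncl (H : IsPullback g iY iX f) (t : Spec (CommRingCat.of K) ⟶ T) (ht : t ≫ f = 𝟙 _) :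
    X ⟶ Y :=
  H.lift (𝟙 X) (iX ≫ t) (by rw [Category.id_comp, Category.assoc, ht, Category.comp_id])

@[reassoc (attr := simp)]
theorem fibreIncl_fst (H : IsPullback g iY iX f) (t : Spec (CommRingCat.of K) ⟶ T)
    (ht : t ≫ f = 𝟙 _) : fibreIncl H t ht ≫ g = 𝟙 X := H.lift_fst _ _ _

@[reassoc (attr := simp)]
theorem fibreIncl_snd (H : IsPullback g iY iX f) (t : Spec (CommRingCat.of K) ⟶ T)
    (ht : t ≫ f = 𝟙 _) : fibreIncl H t ht ≫ iY = iX ≫ t := H.lift_snd _ _ _

/-- the constants of a proper integral scheme over an algebraically closed field. -/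
theorem constMap_surjective [IsAlgClosed K] [IsProper iX] [IsIntegral X] :
    Function.Surjective (CP.constMap iX) := by
  intro r
  obtain ⟨a, ha⟩ := (bijective_appTop_of_isProper iX).2 r
  refine ⟨(Scheme.ΓSpecIso (CommRingCat.of K)).hom.hom a, ?_⟩
  show iX.appTop.hom ((Scheme.ΓSpecIso (CommRingCat.of K)).inv.hom
    ((Scheme.ΓSpecIso (CommRingCat.of K)).hom.hom a)) = r
  rw [← ha]
  congr 1
  exact Iso.hom_inv_id_apply (Scheme.ΓSpecIso (CommRingCat.of K)) a

/-- **`h⁰ ≥ 1` is a closed condition** (for one line bundle): the `K`-points `t` such that the fibre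
`L_t` has a non-zero section are those of a closed subset. -/
theorem exists_isClosed_exists_ne_zero (H : IsPullback g iY iX f) {N : LB Y}
    (P : CP.H0Presentation iX g iY N) :
    ∃ Z : Set T, IsClosed Z ∧ ∀ (t : Spec (CommRingCat.of K) ⟶ T) (ht : t ≫ f = 𝟙 _),
      (∃ s : (N.pullback (fibreIncl H t ht)).H0, s ≠ 0) ↔ t (ptK K) ∈ Z := by
  refine ⟨T.zeroLocus (minorSet P.d P.n₀), T.zeroLocus_isClosed _, fun t ht => ?_⟩
  rw [P.exists_ne_zero_iff t (fibreIncl H t ht) (fibreIncl_fst H t ht) (fibreIncl_snd H t ht),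
    exists_ne_zero_mulVec_eq_zero_iff, Scheme.mem_zeroLocus_iff]
  refine forall₂_congr fun m _ => ?_
  rw [← not_iff_not, not_not]
  exact evalAt_ne_zero_iff t m

/-- **Seesaw, closedness, affine base.** -/
theorem exists_isClosed_isTrivial_of_isAffine [IsProper iX] [IsIntegral X]
    (hX : CP.HasH0Presentations iX) (H : IsPullback g iY iX f) [IsAffine T] (L : LB Y) :
    ∃ Z : Set T, IsClosed Z ∧ ∀ (t : Spec (CommRingCat.of K) ⟶ T) (ht : t ≫ f = 𝟙 _),
      (L.pullback (fibreIncl H t ht)).IsTrivial ↔ t (ptK K) ∈ Z := by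
  obtain ⟨P⟩ := hX f g iY H inferInstance L
  obtain ⟨P'⟩ := hX f g iY H inferInstance L.inv
  obtain ⟨Z₁, hZ₁, h₁⟩ := exists_isClosed_exists_ne_zero H P
  obtain ⟨Z₂, hZ₂, h₂⟩ := exists_isClosed_exists_ne_zero H P'
  refine ⟨Z₁ ∩ Z₂, hZ₁.inter hZ₂, fun t ht => ?_⟩
  rw [LB.isTrivial_iff_of_universallyClosed _ iX, LB.inv_pullback, h₁ t ht, h₂ t ht]
  rfl

/-- the fibre kernel of a presentation at a point with trivial fibre is a line. -/
theorem finrank_fibKer_eq_one_of_isTrivial [IsAlgClosed K] [IsProper iX] [IsIntegral X]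
    (H : IsPullback g iY iX f) {L : LB Y} (P : CP.H0Presentation iX g iY L)
    (t : Spec (CommRingCat.of K) ⟶ T) (ht : t ≫ f = 𝟙 _)
    (htriv : (L.pullback (fibreIncl H t ht)).IsTrivial) :
    Module.finrank K (fibKer P.d (CP.evalAt t)) = 1 := by
  show Module.finrank K (LinearMap.ker (P.d.map (CP.evalAt t)).mulVecLin) = 1
  set j := fibreIncl H t ht with hj
  obtain ⟨τ, hτ⟩ := htriv
  set E := P.eFib t j (fibreIncl_fst H t ht) (fibreIncl_snd H t ht) with hE
  have hτ0 : τ ≠ 0 := LB.ne_zero_of_isUnit τ hτ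
  have hv0 : E τ ≠ 0 := fun h => hτ0 (E.injective (by rw [h, map_zero]))
  have hspan : ∀ w : LinearMap.ker (P.d.map (CP.evalAt t)).mulVecLin, ∃ c : K, w = c • E τ := by
    intro w
    obtain ⟨r, hr⟩ := LB.exists_smul_eq_of_isUnit τ hτ (E.symm w)
    obtain ⟨c, rfl⟩ := constMap_surjective (iX := iX) r
    refine ⟨c, ?_⟩
    have := congrArg E hr
    rw [AddEquiv.apply_symm_apply] at this
    rw [this]
    exact P.eFib_smul t j _ _ c τ
  have htop : (⊤ : Submodule K (LinearMap.ker (P.d.map (CP.evalAt t)).mulVecLin)) = K ∙ (E τ) := by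
    rw [eq_comm, eq_top_iff]
    intro w _
    obtain ⟨c, hc⟩ := hspan w
    rw [Submodule.mem_span_singleton]
    exact ⟨c, hc.symm⟩
  rw [← finrank_top (R := K), htop]
  exact finrank_span_singleton hv0

/-- **Seesaw, local triviality, affine reduced base.** If all fibres `L_t` are trivial then every
`K`-point of `T` has an open neighbourhood `V` with `L` trivial over `pr₂⁻¹ V`. -/
theorem exists_isTrivialOn_of_isAffine [IsAlgClosed K] [IsProper iX] [IsIntegral X]
    (hX : CP.HasH0Presentations iX) (H : IsPullback g iY iX f) [IsAffine T] [IsReduced T]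
    [LocallyOfFiniteType f] (L : LB Y)
    (hall : ∀ (t : Spec (CommRingCat.of K) ⟶ T) (ht : t ≫ f = 𝟙 _),
      (L.pullback (fibreIncl H t ht)).IsTrivial)
    (t₀ : Spec (CommRingCat.of K) ⟶ T) (ht₀ : t₀ ≫ f = 𝟙 _) :
    ∃ V : T.Opens, t₀ (ptK K) ∈ V ∧ L.IsTrivialOn (iY ⁻¹ᵁ V) := by
  obtain ⟨P⟩ := hX f g iY H inferInstance L
  let S : Set (Γ(T, ⊤) →+* K) := {φ | ∃ (t : Spec (CommRingCat.of K) ⟶ T) (_ : t ≫ f = 𝟙 _),
    φ = CP.evalAt t}
  have hdense : ∀ b : Γ(T, ⊤), (∀ φ ∈ S, φ b = 0) → b = 0 := by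
    intro b hb
    rw [← basicOpen_eq_bot_iff]
    by_contra hne
    have hne' : (T.basicOpen b : Set T).Nonempty := by
      rw [Set.nonempty_iff_ne_empty]
      intro h
      exact hne (Opens.ext h)
    have : JacobsonSpace T := LocallyOfFiniteType.jacobsonSpace f
    obtain ⟨x, hxb, hx⟩ := nonempty_inter_closedPoints hne' (T.basicOpen b).2.isLocallyClosed
    have h1 := hb _ ⟨pointOfClosedPoint f x hx, pointOfClosedPoint_comp f x hx, rfl⟩
    have h2 := (evalAt_ne_zero_iff (pointOfClosedPoint f x hx) b).mpr (by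
      have h3 := pointOfClosedPoint_apply f x hx (ptK K)
      rw [h3]; exact hxb)
    exact h2 h1
  have h1 : ∀ φ ∈ S, Module.finrank K (fibKer P.d φ) = 1 := by
    rintro _ ⟨t, ht, rfl⟩
    exact finrank_fibKer_eq_one_of_isTrivial H P t ht (hall t ht)
  obtain ⟨v, a, hv, hva⟩ := exists_global_kernel_vector' P.d S hdense h1
    (t₀ := CP.evalAt t₀) ⟨t₀, ht₀, rfl⟩
  obtain ⟨σ, hσ⟩ := P.exists_section_of_ker v hv
  have hσ0 := hσ t₀ (fibreIncl H t₀ ht₀) (fibreIncl_fst H t₀ ht₀) (fibreIncl_snd H t₀ ht₀)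
    ⟨a, hva⟩
  obtain ⟨V, hV1, -, hV3⟩ := LB.isTrivialOn_of_fibre H L σ t₀ ht₀ (fibreIncl H t₀ ht₀)
    (fibreIncl_fst H t₀ ht₀) (fibreIncl_snd H t₀ ht₀) (hall t₀ ht₀) hσ0
  exact ⟨V, hV1 ⟨_, rfl⟩, hV3⟩

end Affine

end

end Fermat.Agent.AV
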