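/-
AV3 / SEESAW (helper1): **the seesaw principle** over an arbitrary base `T` locally of finite type
over the algebraically closed field `K`, for `X` proper integral over `K` admitting universal
`H⁰`-presentations (`CP.HasH0Presentations iX`, helper8).

* `LB.pullback_comp`, `LB.isTrivialOn_of_isOpenImmersion` : transport along open immersions.
* `isPullback_restrict`, `exists_kpoint_lift`, `fibreIncl_restrict` : restriction of the product
  square to an open of the base.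
* `exists_isTrivialOn` : local triviality.
* `seesaw_isTrivial` : **(S-triv)**.
* `seesaw_isClosed` : **(S-closed)**.
-/
import Mathlib
import Fermat.Agent.AV.SEESAW_helper1_Affine
import Fermat.Agent.AV.SEESAW_helper1_Glue

set_option autoImplicit false

open AlgebraicGeometry CategoryTheory Limits Opposite TopologicalSpace

universe u

namespace Fermat.Agent.AV

noncomputable section

namespace LB

variable {X : Scheme.{u}} (M : LB X)

theorem pullback_comp {Y Z : Scheme.{u}} (φ : Y ⟶ X) (ψ : Z ⟶ Y) :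
    (M.pullback φ).pullback ψ = M.pullback (ψ ≫ φ) := rfl

theorem pullback_congr {Y : Scheme.{u}} {φ φ' : Y ⟶ X} (h : φ = φ') :
    M.pullback φ = M.pullback φ' := by rw [h]

variable {M}

/-- Transport of triviality along an open immersion: if `φ^* M` is trivial over `φ⁻¹ W` and
`W` lies in the image of `φ`, then `M` is trivial over `W`. -/
theorem isTrivialOn_of_isOpenImmersion {Y : Scheme.{u}} (φ : Y ⟶ X) [IsOpenImmersion φ]
    (W : X.Opens) (hW : W ≤ φ.opensRange) (h : (M.pullback φ).IsTrivialOn (φ ⁻¹ᵁ W)) :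
    M.IsTrivialOn W := by
  obtain ⟨σ', hσ'⟩ := h
  have hbij : ∀ O : X.Opens, O ≤ W → Function.Bijective (φ.app O).hom := fun O hO => by
    have := Scheme.Hom.isIso_app φ O (hO.trans hW)
    exact ConcreteCategory.bijective_of_isIso (φ.app O)
  have hb : ∀ i, Function.Bijective (appInf φ (M.U i) W) := fun i => hbij _ inf_le_right
  choose s hs using fun i => (hb i).2 (σ'.s i)
  refine ⟨⟨s, fun i j => ?_⟩, fun i => ?_⟩
  · apply (hbij (M.U i ⊓ M.U j ⊓ W) inf_le_right).1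
    rw [map_mul]
    have e1 := app_res φ (le_inf (inf_le_left.trans inf_le_left) inf_le_right :
      M.U i ⊓ M.U j ⊓ W ≤ M.U i ⊓ W) (s i)
    have e2 := app_res φ (le_inf (inf_le_left.trans inf_le_right) inf_le_right :
      M.U i ⊓ M.U j ⊓ W ≤ M.U j ⊓ W) (s j)
    have e3 := app_res φ (inf_le_left : M.U i ⊓ M.U j ⊓ W ≤ M.U i ⊓ M.U j) (M.g i j)
    rw [e1, e2, e3]
    have h1 : (φ.app (M.U i ⊓ W)).hom (s i) = σ'.s i := hs i
    have h2 : (φ.app (M.U j ⊓ W)).hom (s j) = σ'.s j := hs j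
    rw [h1, h2]
    exact σ'.compat i j
  · have h1 : IsUnit (appInf φ (M.U i) W (s i)) := by rw [hs i]; exact hσ' i
    exact (isUnit_map_iff (RingEquiv.ofBijective _ (hb i)) (s i)).mp h1

end LB

section Restrict

variable {K : Type u} [Field K] {X T Y : Scheme.{u}}
  {iX : X ⟶ Spec (CommRingCat.of K)} {f : T ⟶ Spec (CommRingCat.of K)} {g : Y ⟶ X} {iY : Y ⟶ T}

/-- the product square restricted to an open `V₀ ⊆ T`. -/
theorem isPullback_restrict (H : IsPullback g iY iX f) (V₀ : T.Opens) :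
    IsPullback ((iY ⁻¹ᵁ V₀).ι ≫ g) (iY ∣_ V₀) iX (V₀.ι ≫ f) :=
  (isPullback_morphismRestrict iY V₀).flip.paste_horiz H

/-- `K`-points of `T` lying in an open `V₀` are `K`-points of `V₀`. -/
theorem exists_kpoint_lift (V₀ : T.Opens) (t : Spec (CommRingCat.of K) ⟶ T)
    (ht : t (ptK K) ∈ V₀) : ∃ t' : Spec (CommRingCat.of K) ⟶ V₀.toScheme, t' ≫ V₀.ι = t := by
  refine ⟨IsOpenImmersion.lift V₀.ι t ?_, IsOpenImmersion.lift_fac _ _ _⟩
  rw [range_kpoint, Scheme.Opens.range_ι]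
  exact Set.singleton_subset_iff.mpr ht

theorem fibreIncl_restrict (H : IsPullback g iY iX f) (V₀ : T.Opens)
    (t' : Spec (CommRingCat.of K) ⟶ V₀.toScheme) (ht' : t' ≫ V₀.ι ≫ f = 𝟙 _) :
    fibreIncl (isPullback_restrict H V₀) t' ht' ≫ (iY ⁻¹ᵁ V₀).ι =
      fibreIncl H (t' ≫ V₀.ι) (by rw [Category.assoc]; exact ht') := by
  apply H.hom_ext
  · rw [Category.assoc, fibreIncl_fst, fibreIncl_fst]
  · rw [Category.assoc, ← morphismRestrict_ι, fibreIncl_snd_assoc, fibreIncl_snd]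


theorem exists_isAffineOpen_mem (T : Scheme.{u}) (x : T) :
    ∃ V₀ : T.Opens, IsAffineOpen V₀ ∧ x ∈ V₀ := by
  obtain ⟨_, ⟨V₀, hV₀, rfl⟩, hxV₀, -⟩ :=
    T.isBasis_affineOpens.exists_subset_of_mem_open (Set.mem_univ x) isOpen_univ
  exact ⟨V₀, hV₀, hxV₀⟩

/-- local triviality over an arbitrary (reduced, locally of finite type) base. -/
theorem exists_isTrivialOn [IsAlgClosed K] [IsProper iX] [IsIntegral X]
    (hX : CP.HasH0Presentations iX) (H : IsPullback g iY iX f) [IsReduced T]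
    [LocallyOfFiniteType f] (L : LB Y)
    (hall : ∀ (t : Spec (CommRingCat.of K) ⟶ T) (ht : t ≫ f = 𝟙 _),
      (L.pullback (fibreIncl H t ht)).IsTrivial) (x : T) :
    ∃ V : T.Opens, x ∈ V ∧ L.IsTrivialOn (iY ⁻¹ᵁ V) := by
  obtain ⟨V₀, hV₀, hxV₀'⟩ := exists_isAffineOpen_mem T x
  have : IsAffine V₀.toScheme := hV₀
  set H' := isPullback_restrict H V₀ with hH'
  have : JacobsonSpace V₀.toScheme := LocallyOfFiniteType.jacobsonSpace (V₀.ι ≫ f)
  -- a closed point `z'` of `V₀` in the closure of `x`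
  let x' : V₀.toScheme := ⟨x, hxV₀'⟩
  obtain ⟨z', hz'x, hz'⟩ := nonempty_inter_closedPoints (X := V₀.toScheme)
    (Z := closure {x'}) ⟨x', subset_closure rfl⟩ isClosed_closure.isLocallyClosed
  let t₀' := pointOfClosedPoint (V₀.ι ≫ f) z' hz'
  have ht₀' : t₀' ≫ V₀.ι ≫ f = 𝟙 _ := pointOfClosedPoint_comp (V₀.ι ≫ f) z' hz'
  have hall' : ∀ (t' : Spec (CommRingCat.of K) ⟶ V₀.toScheme) (ht' : t' ≫ V₀.ι ≫ f = 𝟙 _),
      ((L.pullback (iY ⁻¹ᵁ V₀).ι).pullback (fibreIncl H' t' ht')).IsTrivial := by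
    intro t' ht'
    rw [LB.pullback_comp, LB.pullback_congr L (fibreIncl_restrict H V₀ t' ht')]
    exact hall _ _
  obtain ⟨V', hz'V', hV'⟩ := exists_isTrivialOn_of_isAffine hX H' (L.pullback (iY ⁻¹ᵁ V₀).ι)
    hall' t₀' ht₀'
  have hz'V'' : z' ∈ V' := by
    have h3 := pointOfClosedPoint_apply (V₀.ι ≫ f) z' hz' (ptK K)
    rw [← h3]; exact hz'V'
  have hx'V' : x' ∈ V' := by
    obtain ⟨y, hy1, hy2⟩ := mem_closure_iff.mp hz'x V' V'.2 hz'V''
    rw [Set.mem_singleton_iff] at hy2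
    rw [← hy2]; exact hy1
  refine ⟨V₀.ι ''ᵁ V', ⟨x', hx'V', rfl⟩, ?_⟩
  have hle : V₀.ι ''ᵁ V' ≤ V₀ := by
    have := V₀.ι.image_le_opensRange V'
    rwa [Scheme.Opens.opensRange_ι] at this
  refine LB.isTrivialOn_of_isOpenImmersion (iY ⁻¹ᵁ V₀).ι (iY ⁻¹ᵁ (V₀.ι ''ᵁ V')) ?_ ?_
  · rw [Scheme.Opens.opensRange_ι]
    exact iY.preimage_mono hle
  · have e : (iY ⁻¹ᵁ V₀).ι ⁻¹ᵁ (iY ⁻¹ᵁ (V₀.ι ''ᵁ V')) = (iY ∣_ V₀) ⁻¹ᵁ V' := by
      rw [← Scheme.Hom.comp_preimage, ← morphismRestrict_ι, Scheme.Hom.comp_preimage,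
        V₀.ι.preimage_image_eq]
    rw [e]
    exact hV'

/-- **SEESAW PRINCIPLE, triviality part.**  `X` proper integral over the algebraically closed field
`K` with universal `H⁰`-presentations, `T` reduced and locally of finite type over `K`,
`Y = X ×_K T`, `L` a line bundle on `Y` such that
* the restriction of `L` to every fibre `X × {t}` (`t` a `K`-point of `T`) is trivial, and
* the restriction of `L` along the section `x₀ × id_T` (`x₀` a `K`-point of `X`) is trivial.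
Then `L` is trivial. -/
theorem seesaw_isTrivial [IsAlgClosed K] [IsProper iX] [IsIntegral X]
    (hX : CP.HasH0Presentations iX) (H : IsPullback g iY iX f) [IsReduced T]
    [LocallyOfFiniteType f] (L : LB Y)
    (hall : ∀ (t : Spec (CommRingCat.of K) ⟶ T) (ht : t ≫ f = 𝟙 _),
      (L.pullback (fibreIncl H t ht)).IsTrivial)
    (s : T ⟶ Y) (hs : s ≫ iY = 𝟙 T) (hsL : (L.pullback s).IsTrivial) : L.IsTrivial :=
  LB.isTrivial_of_locally_trivial iY s hs
    (fun V hle h => app_appLE_of_isPullback H s hs V hle h) hsL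
    (fun x => exists_isTrivialOn hX H L hall x)

/-- **SEESAW PRINCIPLE, closedness part.**  The `K`-points `t` of `T` such that `L` is trivial on the
fibre `X × {t}` are the `K`-points of a closed subset of `T`. -/
theorem seesaw_isClosed [IsAlgClosed K] [IsProper iX] [IsIntegral X]
    (hX : CP.HasH0Presentations iX) (H : IsPullback g iY iX f) [LocallyOfFiniteType f]
    (L : LB Y) :
    ∃ Z : Set T, IsClosed Z ∧ ∀ (t : Spec (CommRingCat.of K) ⟶ T) (ht : t ≫ f = 𝟙 _),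
      (L.pullback (fibreIncl H t ht)).IsTrivial ↔ t (ptK K) ∈ Z := by
  let S : Set T := {x | ∃ (t : Spec (CommRingCat.of K) ⟶ T) (ht : t ≫ f = 𝟙 _),
    t (ptK K) = x ∧ (L.pullback (fibreIncl H t ht)).IsTrivial}
  refine ⟨closure S, isClosed_closure, fun t ht => ⟨fun h => subset_closure ⟨t, ht, rfl, h⟩, ?_⟩⟩
  intro hmem
  -- work in an affine open neighbourhood `V₀` of `t`
  obtain ⟨V₀, hV₀, hxV₀'⟩ := exists_isAffineOpen_mem T (t (ptK K))
  have : IsAffine V₀.toScheme := hV₀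
  set H' := isPullback_restrict H V₀ with hH'
  obtain ⟨Z', hZ', hiff⟩ := exists_isClosed_isTrivial_of_isAffine hX H'
    (L.pullback (iY ⁻¹ᵁ V₀).ι)
  have hiff' : ∀ (t' : Spec (CommRingCat.of K) ⟶ V₀.toScheme) (ht' : t' ≫ V₀.ι ≫ f = 𝟙 _),
      (L.pullback (fibreIncl H (t' ≫ V₀.ι) (by rw [Category.assoc]; exact ht'))).IsTrivial ↔
        t' (ptK K) ∈ Z' := by
    intro t' ht'
    rw [← hiff t' ht', LB.pullback_comp, LB.pullback_congr L (fibreIncl_restrict H V₀ t' ht')]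
  obtain ⟨t', rfl⟩ := exists_kpoint_lift V₀ t hxV₀'
  have ht' : t' ≫ V₀.ι ≫ f = 𝟙 _ := by rw [← Category.assoc]; exact ht
  rw [hiff' t' ht']
  -- `S ∩ V₀ ⊆ ι '' Z'`, and `ι '' Z'` is closed in `V₀`
  have hSsub : S ∩ (V₀ : Set T) ⊆ V₀.ι '' Z' := by
    rintro _ ⟨⟨t₁, ht₁, rfl, htriv⟩, hV⟩
    obtain ⟨t₁', rfl⟩ := exists_kpoint_lift V₀ t₁ hV
    have ht₁' : t₁' ≫ V₀.ι ≫ f = 𝟙 _ := by rw [← Category.assoc]; exact ht₁
    exact ⟨t₁' (ptK K), (hiff' t₁' ht₁').mp htriv, rfl⟩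
  have hcl : (t' ≫ V₀.ι) (ptK K) ∈ closure (S ∩ (V₀ : Set T)) := by
    rw [mem_closure_iff] at hmem ⊢
    intro O hO hxO
    obtain ⟨y, ⟨hyO, hyV⟩, hyS⟩ := hmem (O ∩ V₀) (hO.inter V₀.2) ⟨hxO, hxV₀'⟩
    exact ⟨y, hyO, hyS, hyV⟩
  have hcl2 := closure_mono hSsub hcl
  -- closure of `ι '' Z'` meets `V₀` in `ι '' Z'`
  have hemb : Topology.IsEmbedding V₀.ι := V₀.ι.isOpenEmbedding.isEmbedding
  have h5 : t' (ptK K) ∈ closure Z' := by
    rw [hemb.closure_eq_preimage_closure_image Z']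
    exact hcl2
  rwa [hZ'.closure_eq] at h5

end Restrict

end

end Fermat.Agent.AV
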