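/-
AV3 (helper1): skeleton of the theorem of the cube on top of the seesaw principle.

* `forall_isTrivial_of_open_locus` : closed (seesaw) + open (hypothesis) + connected base ⇒ all
  fibres of `L` over `K`-points are trivial.
* `isTrivial_of_open_locus` : hence `L` is trivial, if moreover `s^* L` is trivial for a section `s`.
The hypothesis `hopen` is what Mumford §10 (helper3's steps 2a–2c) provides.
-/
import Mathlib
import Fermat.Agent.AV.SEESAW_helper1_Main

set_option autoImplicit false

open AlgebraicGeometry CategoryTheory Limits Opposite TopologicalSpace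

universe u

namespace Fermat.Agent.AV

noncomputable section

variable {K : Type u} [Field K] {X T Y : Scheme.{u}}
  {iX : X ⟶ Spec (CommRingCat.of K)} {f : T ⟶ Spec (CommRingCat.of K)} {g : Y ⟶ X} {iY : Y ⟶ T}

/-- **Closed + open + connected.**  If the locus of `K`-points `t` with `L_t` trivial is non-empty
and stable under small moves (each such `t` has an open neighbourhood all of whose `K`-points are
again in the locus), then on a connected base every fibre is trivial. -/
theorem forall_isTrivial_of_open_locus [IsAlgClosed K] [IsProper iX] [IsIntegral X]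
    (hX : CP.HasH0Presentations iX) (H : IsPullback g iY iX f) [LocallyOfFiniteType f]
    [ConnectedSpace T] (L : LB Y)
    (t₀ : Spec (CommRingCat.of K) ⟶ T) (ht₀ : t₀ ≫ f = 𝟙 _)
    (h₀ : (L.pullback (fibreIncl H t₀ ht₀)).IsTrivial)
    (hopen : ∀ (t : Spec (CommRingCat.of K) ⟶ T) (ht : t ≫ f = 𝟙 _),
      (L.pullback (fibreIncl H t ht)).IsTrivial → ∃ V : T.Opens, t (ptK K) ∈ V ∧
        ∀ (t' : Spec (CommRingCat.of K) ⟶ T) (ht' : t' ≫ f = 𝟙 _), t' (ptK K) ∈ V →
          (L.pullback (fibreIncl H t' ht')).IsTrivial)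
    (t : Spec (CommRingCat.of K) ⟶ T) (ht : t ≫ f = 𝟙 _) :
    (L.pullback (fibreIncl H t ht)).IsTrivial := by
  obtain ⟨Z, hZ, hiff⟩ := seesaw_isClosed hX H L
  have : JacobsonSpace T := LocallyOfFiniteType.jacobsonSpace f
  -- `Z` is open: its complement has no closed point in the closure ... we show `Z` is a
  -- neighbourhood of each of its points
  have hZopen : IsOpen Z := by
    rw [isOpen_iff_forall_mem_open]
    intro x hx
    -- a closed point `z` in the closure of `x`, inside `Z`
    obtain ⟨z, hzx, hz⟩ := nonempty_inter_closedPoints (X := T) (Z := closure {x})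
      ⟨x, subset_closure rfl⟩ isClosed_closure.isLocallyClosed
    have hzZ : z ∈ Z := (hZ.closure_subset_iff.mpr (Set.singleton_subset_iff.mpr hx)) hzx
    let tz := pointOfClosedPoint f z hz
    have htz : tz ≫ f = 𝟙 _ := pointOfClosedPoint_comp f z hz
    have htzpt : tz (ptK K) = z := pointOfClosedPoint_apply f z hz (ptK K)
    obtain ⟨V, hzV, hV⟩ := hopen tz htz ((hiff tz htz).mpr (by rw [htzpt]; exact hzZ))
    rw [htzpt] at hzV
    -- `V ⊆ Z`: otherwise `V \ Z` is a non-empty locally closed set, hence has a closed point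
    have hVZ : (V : Set T) ⊆ Z := by
      by_contra hne
      rw [Set.not_subset] at hne
      obtain ⟨y, hyV, hyZ⟩ := hne
      obtain ⟨w, ⟨hwV, hwZ⟩, hw⟩ := nonempty_inter_closedPoints (X := T) (Z := (V : Set T) ∩ Zᶜ)
        ⟨y, hyV, hyZ⟩ (V.2.isLocallyClosed.inter hZ.isOpen_compl.isLocallyClosed)
      let tw := pointOfClosedPoint f w hw
      have htw : tw ≫ f = 𝟙 _ := pointOfClosedPoint_comp f w hw
      have htwpt : tw (ptK K) = w := pointOfClosedPoint_apply f w hw (ptK K)
      have := (hiff tw htw).mp (hV tw htw (by rw [htwpt]; exact hwV))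
      rw [htwpt] at this
      exact hwZ this
    refine ⟨V, hVZ, V.2, ?_⟩
    -- `x ∈ V` since `z ∈ closure {x}` and `V` is an open neighbourhood of `z`
    obtain ⟨y, hy1, hy2⟩ := mem_closure_iff.mp hzx V V.2 hzV
    rw [Set.mem_singleton_iff] at hy2
    rw [← hy2]; exact hy1
  have hclopen : IsClopen Z := ⟨hZ, hZopen⟩
  have hne : Z.Nonempty := ⟨_, (hiff t₀ ht₀).mp h₀⟩
  have huniv : Z = Set.univ := hclopen.eq_univ hne
  rw [hiff t ht, huniv]
  trivial

/-- **Theorem-of-the-cube skeleton**: seesaw + openness of the triviality locus + connectedness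
of the base ⇒ triviality. -/
theorem isTrivial_of_open_locus [IsAlgClosed K] [IsProper iX] [IsIntegral X]
    (hX : CP.HasH0Presentations iX) (H : IsPullback g iY iX f) [LocallyOfFiniteType f]
    [ConnectedSpace T] [IsReduced T] (L : LB Y)
    (t₀ : Spec (CommRingCat.of K) ⟶ T) (ht₀ : t₀ ≫ f = 𝟙 _)
    (h₀ : (L.pullback (fibreIncl H t₀ ht₀)).IsTrivial)
    (hopen : ∀ (t : Spec (CommRingCat.of K) ⟶ T) (ht : t ≫ f = 𝟙 _),
      (L.pullback (fibreIncl H t ht)).IsTrivial → ∃ V : T.Opens, t (ptK K) ∈ V ∧
        ∀ (t' : Spec (CommRingCat.of K) ⟶ T) (ht' : t' ≫ f = 𝟙 _), t' (ptK K) ∈ V →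
          (L.pullback (fibreIncl H t' ht')).IsTrivial)
    (s : T ⟶ Y) (hs : s ≫ iY = 𝟙 T) (hsL : (L.pullback s).IsTrivial) : L.IsTrivial :=
  seesaw_isTrivial hX H L (forall_isTrivial_of_open_locus hX H L t₀ ht₀ h₀ hopen) s hs hsL

end

end Fermat.Agent.AV
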