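/-
PROJECT AV (S26) — helper3 — [AV3e] **sections of a product**: for `K`-schemes `X`, `Y` and
`W = X ×_K Y`, the `K`-algebra structures on sections, restriction as `K`-algebra maps, and the
Künneth map `ψ : Γ(X, UX) ⊗[K] Γ(Y, UT) → Γ(W, UY)` (`UY = pX⁻¹ UX ⊓ pY⁻¹ UT`), bijective for
affine `UX`, `UT` (Mathlib `isIso_pushoutSection_of_isAffineOpen`), natural in restrictions.
-/
import Mathlib
import Fermat.Agent.AV.LB_helper5_Core
import Fermat.Agent.AV.CUBE_helper3_Kunneth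

set_option autoImplicit false

open AlgebraicGeometry CategoryTheory Limits Opposite TopologicalSpace TensorProduct

universe u

namespace Fermat.Agent.AV.ProdSec

noncomputable section

variable {K : Type u} [Field K]

theorem le_pre_top {X S : Scheme.{u}} (f : X ⟶ S) (U : X.Opens) : U ≤ f ⁻¹ᵁ ⊤ :=
  fun _ _ => trivial

/-- the structure map `K → Γ(X, U)` of a `K`-scheme. -/
def algMap {X : Scheme.{u}} (iX : X ⟶ Spec (CommRingCat.of K)) (U : X.Opens) : K →+* Γ(X, U) :=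
  (iX.appLE ⊤ U (le_pre_top iX U)).hom.comp (Scheme.ΓSpecIso (CommRingCat.of K)).inv.hom

/-- sections of a `K`-scheme form a `K`-algebra. -/
@[instance_reducible]
def algΓ (Z : Over (Spec (CommRingCat.of K))) (U : Z.left.Opens) : Algebra K Γ(Z.left, U) :=
  (algMap Z.hom U).toAlgebra

attribute [local instance] algΓ

theorem algebraMap_eq (Z : Over (Spec (CommRingCat.of K))) (U : Z.left.Opens) (κ : K) :
    algebraMap K Γ(Z.left, U) κ = algMap Z.hom U κ := rfl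

theorem res_algMap {X : Scheme.{u}} (iX : X ⟶ Spec (CommRingCat.of K)) {U U' : X.Opens}
    (h : U' ≤ U) (κ : K) : res U' h (algMap iX U κ) = algMap iX U' κ := by
  simp only [algMap, res, RingHom.comp_apply]
  rw [← CommRingCat.comp_apply, Scheme.Hom.appLE_map]

/-- restriction as a `K`-algebra homomorphism. -/
def resₐ (Z : Over (Spec (CommRingCat.of K))) {U U' : Z.left.Opens} (h : U' ≤ U) :
    Γ(Z.left, U) →ₐ[K] Γ(Z.left, U') :=
  { res U' h with commutes' := fun κ => res_algMap Z.hom h κ }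

@[simp] theorem resₐ_apply (Z : Over (Spec (CommRingCat.of K))) {U U' : Z.left.Opens} (h : U' ≤ U)
    (a : Γ(Z.left, U)) : resₐ Z h a = res U' h a := rfl

theorem appLE_algMap {X Y : Scheme.{u}} (iX : X ⟶ Spec (CommRingCat.of K))
    (iY : Y ⟶ Spec (CommRingCat.of K)) (φ : Y ⟶ X) (hφ : φ ≫ iX = iY) (U : X.Opens) (V : Y.Opens)
    (e : V ≤ φ ⁻¹ᵁ U) (κ : K) : (φ.appLE U V e).hom (algMap iX U κ) = algMap iY V κ := by
  simp only [algMap, RingHom.comp_apply]
  rw [← CommRingCat.comp_apply, Scheme.Hom.appLE_comp_appLE]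
  subst hφ
  rfl

/-- pull-back of sections along a morphism of `K`-schemes, as a `K`-algebra homomorphism. -/
def appLEₐ {Z Z' : Over (Spec (CommRingCat.of K))} (φ : Z' ⟶ Z) (U : Z.left.Opens)
    (V : Z'.left.Opens) (e : V ≤ φ.left ⁻¹ᵁ U) : Γ(Z.left, U) →ₐ[K] Γ(Z'.left, V) :=
  { (φ.left.appLE U V e).hom with
    commutes' := fun κ => appLE_algMap Z.hom Z'.hom φ.left (Over.w φ) U V e κ }

@[simp] theorem appLEₐ_apply {Z Z' : Over (Spec (CommRingCat.of K))} (φ : Z' ⟶ Z)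
    (U : Z.left.Opens) (V : Z'.left.Opens) (e : V ≤ φ.left ⁻¹ᵁ U) (a : Γ(Z.left, U)) :
    appLEₐ φ U V e a = (φ.left.appLE U V e).hom a := rfl

section psi

variable {ZX ZY ZW : Over (Spec (CommRingCat.of K))} (pX : ZW ⟶ ZX) (pY : ZW ⟶ ZY)

/-- the Künneth map `Γ(X, UX) ⊗[K] Γ(Y, UT) → Γ(W, UY)`. -/
def ψ (UX : ZX.left.Opens) (UT : ZY.left.Opens) (UY : ZW.left.Opens)
    (hX : UY ≤ pX.left ⁻¹ᵁ UX) (hY : UY ≤ pY.left ⁻¹ᵁ UT) :
    Γ(ZX.left, UX) ⊗[K] Γ(ZY.left, UT) →ₐ[K] Γ(ZW.left, UY) :=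
  Algebra.TensorProduct.productMap (appLEₐ pX UX UY hX) (appLEₐ pY UT UY hY)

theorem ψ_tmul (UX : ZX.left.Opens) (UT : ZY.left.Opens) (UY : ZW.left.Opens)
    (hX : UY ≤ pX.left ⁻¹ᵁ UX) (hY : UY ≤ pY.left ⁻¹ᵁ UT) (a : Γ(ZX.left, UX))
    (b : Γ(ZY.left, UT)) :
    ψ pX pY UX UT UY hX hY (a ⊗ₜ[K] b) =
      (pX.left.appLE UX UY hX).hom a * (pY.left.appLE UT UY hY).hom b := by
  simp [ψ, Algebra.TensorProduct.productMap_apply_tmul]

theorem res_appLE {X Y : Scheme.{u}} (φ : Y ⟶ X) {U : X.Opens} {V V' : Y.Opens}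
    (e : V ≤ φ ⁻¹ᵁ U) (h : V' ≤ V) (a : Γ(X, U)) :
    res V' h ((φ.appLE U V e).hom a) = (φ.appLE U V' (h.trans e)).hom a := by
  simp only [res]
  rw [← CommRingCat.comp_apply, Scheme.Hom.appLE_map]

theorem appLE_res {X Y : Scheme.{u}} (φ : Y ⟶ X) {U U' : X.Opens} {V : Y.Opens}
    (h : U' ≤ U) (e : V ≤ φ ⁻¹ᵁ U') (a : Γ(X, U)) :
    (φ.appLE U' V e).hom (res U' h a) =
      (φ.appLE U V (e.trans ((Opens.map φ.base).monotone h))).hom a := by
  simp only [res]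
  rw [← CommRingCat.comp_apply, Scheme.Hom.map_appLE]

/-- naturality of `ψ` with respect to restrictions. -/
theorem res_ψ {UX UX' : ZX.left.Opens} {UT UT' : ZY.left.Opens} {UY UY' : ZW.left.Opens}
    (hX : UY ≤ pX.left ⁻¹ᵁ UX) (hY : UY ≤ pY.left ⁻¹ᵁ UT)
    (hX' : UY' ≤ pX.left ⁻¹ᵁ UX') (hY' : UY' ≤ pY.left ⁻¹ᵁ UT')
    (hUX : UX' ≤ UX) (hUT : UT' ≤ UT) (hUY : UY' ≤ UY)
    (z : Γ(ZX.left, UX) ⊗[K] Γ(ZY.left, UT)) :
    res UY' hUY (ψ pX pY UX UT UY hX hY z) =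
      ψ pX pY UX' UT' UY' hX' hY'
        (TensorProduct.map (resₐ ZX hUX).toLinearMap (resₐ ZY hUT).toLinearMap z) := by
  induction z using TensorProduct.induction_on with
  | zero => simp
  | tmul a b =>
    rw [ψ_tmul, map_mul, res_appLE, res_appLE, TensorProduct.map_tmul, ψ_tmul]
    simp only [AlgHom.toLinearMap_apply, resₐ_apply]
    rw [appLE_res, appLE_res]
  | add x y hx hy => simp only [map_add, hx, hy]

/-- `ψ` is bijective on products of affine opens. -/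
theorem ψ_bijective (H : IsPullback pX.left pY.left ZX.hom ZY.hom)
    {UX : ZX.left.Opens} {UT : ZY.left.Opens} {UY : ZW.left.Opens}
    (hX : UY ≤ pX.left ⁻¹ᵁ UX) (hY : UY ≤ pY.left ⁻¹ᵁ UT)
    (hUY : UY = pX.left ⁻¹ᵁ UX ⊓ pY.left ⁻¹ᵁ UT)
    (hUX : IsAffineOpen UX) (hUT : IsAffineOpen UT) :
    Function.Bijective (ψ pX pY UX UT UY hX hY) := by
  have hUST : UT ≤ ZY.hom ⁻¹ᵁ ⊤ := le_pre_top _ _
  have hUSX : UX ≤ ZX.hom ⁻¹ᵁ ⊤ := le_pre_top _ _
  have hiso := isIso_pushoutSection_of_isAffineOpen H hUST hUSX hUY (isAffineOpen_top _) hUT hUX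
  have hpo := (isIso_pushoutSection_iff H hUST hUSX hUY).mp hiso
  -- change the base ring from `Γ(Spec K, ⊤)` to `K`
  let e : CommRingCat.of K ≅ Γ(Spec (CommRingCat.of K), ⊤) :=
    (Scheme.ΓSpecIso (CommRingCat.of K)).symm
  have hleft : IsPushout e.hom (e.hom ≫ ZY.hom.appLE ⊤ UT hUST) (ZY.hom.appLE ⊤ UT hUST) (𝟙 _) :=
    IsPushout.of_horiz_isIso ⟨by simp⟩
  have hpo' := hleft.paste_horiz hpo
  rw [Category.id_comp] at hpo'
  have e1 : e.hom ≫ ZX.hom.appLE ⊤ UX hUSX =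
      CommRingCat.ofHom (algebraMap K Γ(ZX.left, UX)) := by
    ext x; rfl
  have e2 : e.hom ≫ ZY.hom.appLE ⊤ UT hUST =
      CommRingCat.ofHom (algebraMap K Γ(ZY.left, UT)) := by
    ext x; rfl
  rw [e1, e2] at hpo'
  let E := (CommRingCat.isPushout_tensorProduct K Γ(ZX.left, UX) Γ(ZY.left, UT)).isoIsPushout _ _
    hpo'
  have hE : ∀ z, E.hom.hom z = ψ pX pY UX UT UY hX hY z := by
    intro z
    induction z using TensorProduct.induction_on with
    | zero => simp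
    | tmul a b =>
      have h1 : a ⊗ₜ[K] b = (a ⊗ₜ[K] (1 : Γ(ZY.left, UT))) * ((1 : Γ(ZX.left, UX)) ⊗ₜ[K] b) := by
        rw [Algebra.TensorProduct.tmul_mul_tmul, mul_one, one_mul]
      rw [h1, map_mul, map_mul]
      congr 1
      · have := congrArg (fun f => f.hom a)
          ((CommRingCat.isPushout_tensorProduct K Γ(ZX.left, UX) Γ(ZY.left, UT)).inl_isoIsPushout_hom
            _ _ hpo')
        simp only [CommRingCat.hom_comp, RingHom.comp_apply, CommRingCat.hom_ofHom] at this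
        rw [ψ_tmul, map_one, mul_one]
        exact this
      · have := congrArg (fun f => f.hom b)
          ((CommRingCat.isPushout_tensorProduct K Γ(ZX.left, UX) Γ(ZY.left, UT)).inr_isoIsPushout_hom
            _ _ hpo')
        simp only [CommRingCat.hom_comp, RingHom.comp_apply, CommRingCat.hom_ofHom] at this
        rw [ψ_tmul, map_one, one_mul]
        exact this
    | add x y hx hy => simp only [map_add, hx, hy]
  have hb : Function.Bijective E.hom.hom := ConcreteCategory.bijective_of_isIso E.hom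
  have : (ψ pX pY UX UT UY hX hY : _ → _) = E.hom.hom := funext fun z => (hE z).symm
  rw [this]
  exact hb

end psi

section side

open CubeKunneth

/-- evaluation of functions at a `K`-point, as a `K`-algebra map. -/
def evₐ (Z : Over (Spec (CommRingCat.of K))) (x₀ : Spec (CommRingCat.of K) ⟶ Z.left)
    (hx₀ : x₀ ≫ Z.hom = 𝟙 _) (U : Z.left.Opens) (hU : ⊤ ≤ x₀ ⁻¹ᵁ U) : Γ(Z.left, U) →ₐ[K] K :=
  { (Scheme.ΓSpecIso (CommRingCat.of K)).hom.hom.comp (x₀.appLE U ⊤ hU).hom with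
    commutes' := fun κ => by
      show (Scheme.ΓSpecIso (CommRingCat.of K)).hom.hom ((x₀.appLE U ⊤ hU).hom (algMap Z.hom U κ)) = κ
      have hid : ∀ (φ : Spec (CommRingCat.of K) ⟶ Spec (CommRingCat.of K)) (hφ : φ = 𝟙 _)
          (e' : (⊤ : (Spec (CommRingCat.of K)).Opens) ≤ φ ⁻¹ᵁ ⊤), φ.appLE ⊤ ⊤ e' = 𝟙 _ := by
        intro φ hφ e'
        subst hφ
        rw [Scheme.Hom.appLE, Scheme.Hom.id_app]
        exact (Spec (CommRingCat.of K)).presheaf.map_id _
      have hy : ∀ y, (x₀.appLE U ⊤ hU).hom ((Z.hom.appLE ⊤ U (le_pre_top _ _)).hom y) = y := by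
        intro y
        have h1 := Scheme.Hom.appLE_comp_appLE x₀ Z.hom ⊤ U ⊤ (le_pre_top _ _) hU
        rw [hid _ hx₀] at h1
        have := congrArg (fun f => f.hom y) h1
        simpa using this
      simp only [algMap, RingHom.comp_apply]
      rw [hy]
      simp }

theorem evₐ_apply (Z : Over (Spec (CommRingCat.of K))) (x₀ : Spec (CommRingCat.of K) ⟶ Z.left)
    (hx₀ : x₀ ≫ Z.hom = 𝟙 _) (U : Z.left.Opens) (hU : ⊤ ≤ x₀ ⁻¹ᵁ U) (a : Γ(Z.left, U)) :
    evₐ Z x₀ hx₀ U hU a =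
      (Scheme.ΓSpecIso (CommRingCat.of K)).hom.hom ((x₀.appLE U ⊤ hU).hom a) := rfl

/-- the Čech side of a `K`-scheme with `Γ(X, O) = K`, for a cover and a rational point. -/
def famSide (Z : Over (Spec (CommRingCat.of K))) {I : Type u} (U : I → Z.left.Opens)
    (hcov : ⨆ i, U i = ⊤) (hΓ : Function.Surjective (algebraMap K Γ(Z.left, ⊤)))
    (x₀ : Spec (CommRingCat.of K) ⟶ Z.left) (hx₀ : x₀ ≫ Z.hom = 𝟙 _) (i₀ : I)
    (hi₀ : ⊤ ≤ x₀ ⁻¹ᵁ U i₀) :
    FamSide K I (fun i => Γ(Z.left, U i)) (fun i i' => Γ(Z.left, U i ⊓ U i')) where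
  rl i i' := (resₐ Z (inf_le_left : U i ⊓ U i' ≤ U i)).toLinearMap
  rr i i' := (resₐ Z (inf_le_right : U i ⊓ U i' ≤ U i')).toLinearMap
  dg i := (resₐ Z (le_inf le_rfl le_rfl : U i ≤ U i ⊓ U i)).toLinearMap
  dg_rl i x := by
    simp only [AlgHom.toLinearMap_apply, resₐ_apply, res_res, res_self]
  dg_rr i x := by
    simp only [AlgHom.toLinearMap_apply, resₐ_apply, res_res, res_self]
  u i := 1
  u_compat i i' := by simp
  exact s hs := by
    obtain ⟨s₀, hs₀, -⟩ := exists_glue U (fun i => le_top) (by rw [hcov]) s (fun i j => by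
      have := hs i j
      simpa using this)
    obtain ⟨κ, hκ⟩ := hΓ s₀
    refine ⟨κ, fun i => ?_⟩
    rw [← hs₀ i, ← hκ, Algebra.smul_def, mul_one]
    exact res_algMap Z.hom le_top κ
  i₀ := i₀
  ev := (evₐ Z x₀ hx₀ (U i₀) hi₀).toLinearMap
  ev_u := by simp

theorem appLE_congr_hom {X Y : Scheme.{u}} {f g : Y ⟶ X} (h : f = g) (U : X.Opens)
    (V : Y.Opens) (e : V ≤ f ⁻¹ᵁ U) (a : Γ(X, U)) :
    (f.appLE U V e).hom a = (g.appLE U V (h ▸ e)).hom a := by
  subst h; rfl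

theorem id_appLE_apply {X : Scheme.{u}} (U V : X.Opens) (e : V ≤ (𝟙 X) ⁻¹ᵁ U) (a : Γ(X, U)) :
    ((𝟙 X : X ⟶ X).appLE U V e).hom a = res V (show V ≤ U from e) a := by
  rw [Scheme.Hom.appLE, Scheme.Hom.id_app]
  rfl

theorem resₐ_comp (Z : Over (Spec (CommRingCat.of K))) {U U' U'' : Z.left.Opens} (h : U' ≤ U)
    (h' : U'' ≤ U') :
    (resₐ Z h').toLinearMap ∘ₗ (resₐ Z h).toLinearMap = (resₐ Z (h'.trans h)).toLinearMap := by
  ext a
  simp only [LinearMap.comp_apply, AlgHom.toLinearMap_apply, resₐ_apply, res_res]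

theorem resₐ_self (Z : Over (Spec (CommRingCat.of K))) (U : Z.left.Opens) :
    (resₐ Z (le_refl U)).toLinearMap = LinearMap.id := by
  ext a
  simp only [AlgHom.toLinearMap_apply, resₐ_apply, res_self, LinearMap.id_apply]

section axes

variable {ZX ZY ZW : Over (Spec (CommRingCat.of K))} (pX : ZW ⟶ ZX) (pY : ZW ⟶ ZY)

/-- restriction of `ψ z` to the `Y`-axis `{x₀} × Y`. -/
theorem appLE_ψ_right (x₀ : Spec (CommRingCat.of K) ⟶ ZX.left) (hx₀ : x₀ ≫ ZX.hom = 𝟙 _)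
    (sY : ZY.left ⟶ ZW.left) (hsY1 : sY ≫ pY.left = 𝟙 _) (hsY2 : sY ≫ pX.left = ZY.hom ≫ x₀)
    {UX : ZX.left.Opens} {UT : ZY.left.Opens} {UY : ZW.left.Opens}
    (hX : UY ≤ pX.left ⁻¹ᵁ UX) (hY : UY ≤ pY.left ⁻¹ᵁ UT) (hx : ⊤ ≤ x₀ ⁻¹ᵁ UX)
    (hle : UT ≤ sY ⁻¹ᵁ UY) (z : Γ(ZX.left, UX) ⊗[K] Γ(ZY.left, UT)) :
    (sY.appLE UY UT hle).hom (ψ pX pY UX UT UY hX hY z) =
      TensorProduct.lid K _
        (TensorProduct.map (evₐ ZX x₀ hx₀ UX hx).toLinearMap LinearMap.id z) := by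
  induction z using TensorProduct.induction_on with
  | zero => simp
  | tmul a b =>
    rw [ψ_tmul, map_mul, TensorProduct.map_tmul, TensorProduct.lid_tmul, LinearMap.id_apply,
      Algebra.smul_def]
    congr 1
    · -- first factor
      have h1 : (sY.appLE UY UT hle).hom ((pX.left.appLE UX UY hX).hom a) =
          ((sY ≫ pX.left).appLE UX UT (hle.trans ((Opens.map sY.base).monotone hX))).hom a := by
        rw [← Scheme.Hom.appLE_comp_appLE]
        rfl
      rw [h1, appLE_congr_hom hsY2]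
      have h2 := Scheme.Hom.appLE_comp_appLE ZY.hom x₀ UX ⊤ UT hx (le_pre_top _ _)
      have h3 := congrArg (fun f => f.hom a) h2
      simp only [CommRingCat.hom_comp, RingHom.comp_apply] at h3
      rw [← h3]
      show _ = algMap ZY.hom UT _
      simp only [algMap, RingHom.comp_apply, AlgHom.toLinearMap_apply, evₐ_apply]
      congr 1
      have := congrArg (fun f => f.hom ((x₀.appLE UX ⊤ hx).hom a))
        (Scheme.ΓSpecIso (CommRingCat.of K)).hom_inv_id
      simp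
    · -- second factor
      have h1 : (sY.appLE UY UT hle).hom ((pY.left.appLE UT UY hY).hom b) =
          ((sY ≫ pY.left).appLE UT UT (hle.trans ((Opens.map sY.base).monotone hY))).hom b := by
        rw [← Scheme.Hom.appLE_comp_appLE]
        rfl
      rw [h1, appLE_congr_hom hsY1, id_appLE_apply, res_self]
  | add x y hx' hy' => simp only [map_add, hx', hy']

/-- restriction of `ψ z` to the `X`-axis `X × {y₀}`. -/
theorem appLE_ψ_left (y₀ : Spec (CommRingCat.of K) ⟶ ZY.left) (hy₀ : y₀ ≫ ZY.hom = 𝟙 _)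
    (sX : ZX.left ⟶ ZW.left) (hsX1 : sX ≫ pX.left = 𝟙 _) (hsX2 : sX ≫ pY.left = ZX.hom ≫ y₀)
    {UX : ZX.left.Opens} {UT : ZY.left.Opens} {UY : ZW.left.Opens}
    (hX : UY ≤ pX.left ⁻¹ᵁ UX) (hY : UY ≤ pY.left ⁻¹ᵁ UT) (hy : ⊤ ≤ y₀ ⁻¹ᵁ UT)
    (hle : UX ≤ sX ⁻¹ᵁ UY) (z : Γ(ZX.left, UX) ⊗[K] Γ(ZY.left, UT)) :
    (sX.appLE UY UX hle).hom (ψ pX pY UX UT UY hX hY z) =
      TensorProduct.rid K _
        (TensorProduct.map LinearMap.id (evₐ ZY y₀ hy₀ UT hy).toLinearMap z) := by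
  induction z using TensorProduct.induction_on with
  | zero => simp
  | tmul a b =>
    rw [ψ_tmul, map_mul, TensorProduct.map_tmul, TensorProduct.rid_tmul, LinearMap.id_apply,
      Algebra.smul_def, mul_comm]
    congr 1
    · -- the factor coming from `Y`
      have h1 : (sX.appLE UY UX hle).hom ((pY.left.appLE UT UY hY).hom b) =
          ((sX ≫ pY.left).appLE UT UX (hle.trans ((Opens.map sX.base).monotone hY))).hom b := by
        rw [← Scheme.Hom.appLE_comp_appLE]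
        rfl
      rw [h1, appLE_congr_hom hsX2]
      have h2 := Scheme.Hom.appLE_comp_appLE ZX.hom y₀ UT ⊤ UX hy (le_pre_top _ _)
      have h3 := congrArg (fun f => f.hom b) h2
      simp only [CommRingCat.hom_comp, RingHom.comp_apply] at h3
      rw [← h3]
      show _ = algMap ZX.hom UX _
      simp only [algMap, RingHom.comp_apply, AlgHom.toLinearMap_apply, evₐ_apply]
      congr 1
      simp
    · -- the factor coming from `X`
      have h1 : (sX.appLE UY UX hle).hom ((pX.left.appLE UX UY hX).hom a) =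
          ((sX ≫ pX.left).appLE UX UX (hle.trans ((Opens.map sX.base).monotone hX))).hom a := by
        rw [← Scheme.Hom.appLE_comp_appLE]
        rfl
      rw [h1, appLE_congr_hom hsX1, id_appLE_apply, res_self]
  | add x y hx' hy' => simp only [map_add, hx', hy']

end axes

end side

end

end Fermat.Agent.AV.ProdSec
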