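/-
PROJECT AV (S26) — helper3 — [AV3 / 2a] **(EX) concrete exactness of a first order thickening**:
for `WR = W ×_K S`, `WR₁ = W ×_K S₁` with `S₁ ⟶ S` a closed immersion of affine `K`-schemes whose
ideal is `K · ε` (`ε ≠ 0`), the facts `ThickExact qW (qS^♯ ε) j` of `CUBE_helper1_Step`:
`a ↦ e · qW^♯ a` is injective, its image is the kernel of `j^♯` over affine opens, and `j^♯` is
surjective over affine opens.  Flat base change `Γ(WR, qW⁻¹U) = Γ(W, U) ⊗_K Γ(S, ⊤)`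
(`ProdSec.ψ_bijective`) plus exactness of `Γ(W, U) ⊗_K -`.
-/
import Mathlib
import Fermat.Agent.AV.CUBE_helper3_ProdSec
import Fermat.Agent.AV.CUBE_helper1_Step
import Fermat.Agent.AV.CP_helper8_Iface

set_option autoImplicit false

open AlgebraicGeometry CategoryTheory Limits Opposite TopologicalSpace TensorProduct

universe u

namespace Fermat.Agent.AV

noncomputable section

/-! ### the algebra -/

namespace ThickAlg

variable {K A R R₁ : Type*} [Field K] [CommRing A] [Algebra K A] [CommRing R] [Algebra K R]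
  [CommRing R₁] [Algebra K R₁]

/-- `a ↦ a ⊗ ε` is injective when `ε ≠ 0`. -/
theorem tmul_eq_zero_imp (ε : R) (hε : ε ≠ 0) (a : A) (h : a ⊗ₜ[K] ε = 0) : a = 0 := by
  obtain ⟨φ, hφ⟩ : ∃ φ : Module.Dual K R, φ ε ≠ 0 := by
    by_contra hcon
    exact hε ((Module.forall_dual_apply_eq_zero_iff K ε).mp
      (fun φ => not_not.mp fun hne => hcon ⟨φ, hne⟩))
  have h1 := congrArg (fun z => TensorProduct.rid K A (LinearMap.lTensor A φ z)) h
  simp only [LinearMap.lTensor_tmul, TensorProduct.rid_tmul, map_zero] at h1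
  exact (smul_eq_zero.mp h1).resolve_left hφ

/-- `A ⊗ -` preserves surjectivity. -/
theorem map_id_surjective (π : R →ₐ[K] R₁) (hπ : Function.Surjective π) :
    Function.Surjective (Algebra.TensorProduct.map (AlgHom.id K A) π) := by
  intro z
  induction z using TensorProduct.induction_on with
  | zero => exact ⟨0, map_zero _⟩
  | tmul a b =>
    obtain ⟨r, rfl⟩ := hπ b
    exact ⟨a ⊗ₜ r, by simp⟩
  | add x y hx hy =>
    obtain ⟨x', rfl⟩ := hx
    obtain ⟨y', rfl⟩ := hy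
    exact ⟨x' + y', map_add _ _ _⟩

/-- `A ⊗ -` preserves the exactness of `K --ε--> R --π--> R₁`. -/
theorem exists_tmul_of_map_eq_zero (π : R →ₐ[K] R₁) (hπ : Function.Surjective π) (ε : R)
    (hπε : π ε = 0) (hker : ∀ r : R, π r = 0 → ∃ c : K, r = c • ε)
    (z : A ⊗[K] R) (hz : Algebra.TensorProduct.map (AlgHom.id K A) π z = 0) :
    ∃ a : A, z = a ⊗ₜ[K] ε := by
  have hex : Function.Exact (LinearMap.toSpanSingleton K R ε) π.toLinearMap := by
    intro r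
    constructor
    · intro hr
      obtain ⟨c, rfl⟩ := hker r hr
      exact ⟨c, by simp [LinearMap.toSpanSingleton_apply]⟩
    · rintro ⟨c, rfl⟩
      simp [LinearMap.toSpanSingleton_apply, hπε]
  have hex' := lTensor_exact A hex hπ
  have hmap : ∀ z : A ⊗[K] R, LinearMap.lTensor A π.toLinearMap z =
      Algebra.TensorProduct.map (AlgHom.id K A) π z := by
    intro z
    induction z using TensorProduct.induction_on with
    | zero => simp
    | tmul a b => simp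
    | add x y hx hy => simp only [map_add, hx, hy]
  have hw : ∀ w : A ⊗[K] K, LinearMap.lTensor A (LinearMap.toSpanSingleton K R ε) w =
      (TensorProduct.rid K A w) ⊗ₜ[K] ε := by
    intro w
    induction w using TensorProduct.induction_on with
    | zero => simp
    | tmul a c => simp [LinearMap.toSpanSingleton_apply, TensorProduct.smul_tmul]
    | add x y hx hy => simp only [map_add, hx, hy, TensorProduct.add_tmul]
  have hz' : LinearMap.lTensor A π.toLinearMap z = 0 := by rw [hmap, hz]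
  obtain ⟨w, rfl⟩ := (hex' z).mp hz'
  exact ⟨TensorProduct.rid K A w, hw w⟩

end ThickAlg

/-! ### the geometry, in `Over (Spec K)` form -/

namespace ThickEx

open ProdSec

attribute [local instance] ProdSec.algΓ

variable {K : Type u} [Field K]

theorem appLE_top_top {X Y : Scheme.{u}} (f : X ⟶ Y) (e : (⊤ : X.Opens) ≤ f ⁻¹ᵁ ⊤)
    (r : Γ(Y, ⊤)) : (f.appLE ⊤ ⊤ e).hom r = f.appTop.hom r := by
  show res (⊤ : X.Opens) (le_refl _) (f.appTop.hom r) = _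
  exact res_self _

theorem appLE_top {X Y : Scheme.{u}} (f : X ⟶ Y) (V : X.Opens) (e : V ≤ f ⁻¹ᵁ ⊤)
    (r : Γ(Y, ⊤)) : (f.appLE ⊤ V e).hom r = res V le_top (f.appTop.hom r) := rfl

theorem appLE_self {X Y : Scheme.{u}} (f : X ⟶ Y) (U : Y.Opens) (a : Γ(Y, U)) :
    (f.appLE U (f ⁻¹ᵁ U) le_rfl).hom a = (f.app U).hom a := by
  rw [← Scheme.Hom.app_eq_appLE]

variable {ZW ZS ZS₁ ZWR ZWR₁ : Over (Spec (CommRingCat.of K))}
  (qW : ZWR ⟶ ZW) (qS : ZWR ⟶ ZS) (qS₁ : ZWR₁ ⟶ ZS₁) (π : ZS₁ ⟶ ZS) (j : ZWR₁ ⟶ ZWR)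

/-- the Künneth map of `WR = W ×_K S` over `qW⁻¹ U`. -/
def ψR (U : ZW.left.Opens) :
    Γ(ZW.left, U) ⊗[K] Γ(ZS.left, ⊤) →ₐ[K] Γ(ZWR.left, qW.left ⁻¹ᵁ U) :=
  ψ qW qS U ⊤ (qW.left ⁻¹ᵁ U) le_rfl (le_pre_top _ _)

/-- the Künneth map of `WR₁ = W ×_K S₁` over `j⁻¹ qW⁻¹ U`. -/
def ψ₁ (U : ZW.left.Opens) :
    Γ(ZW.left, U) ⊗[K] Γ(ZS₁.left, ⊤) →ₐ[K] Γ(ZWR₁.left, j.left ⁻¹ᵁ (qW.left ⁻¹ᵁ U)) :=
  ψ (j ≫ qW) qS₁ U ⊤ (j.left ⁻¹ᵁ (qW.left ⁻¹ᵁ U)) (le_of_eq rfl) (le_pre_top _ _)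

/-- `π^♯` on global sections as a `K`-algebra map. -/
def πₐ : Γ(ZS.left, ⊤) →ₐ[K] Γ(ZS₁.left, ⊤) := appLEₐ π ⊤ ⊤ (le_pre_top _ _)

theorem πₐ_apply (r : Γ(ZS.left, ⊤)) : πₐ π r = π.left.appTop.hom r :=
  appLE_top_top _ _ _

theorem epsT_eq_ψR (ε : Γ(ZS.left, ⊤)) (U : ZW.left.Opens) (a : Γ(ZW.left, U)) :
    epsT qW.left (qS.left.appTop.hom ε) U a = ψR qW qS U (a ⊗ₜ[K] ε) := by
  rw [ψR, ψ_tmul, epsT_apply, appLE_self, appLE_top, mul_comm]

theorem app_ψR (hj2 : j ≫ qS = qS₁ ≫ π) (U : ZW.left.Opens)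
    (z : Γ(ZW.left, U) ⊗[K] Γ(ZS.left, ⊤)) :
    (j.left.app (qW.left ⁻¹ᵁ U)).hom (ψR qW qS U z) =
      ψ₁ qW qS₁ j U (Algebra.TensorProduct.map (AlgHom.id K _) (πₐ π) z) := by
  induction z using TensorProduct.induction_on with
  | zero => simp
  | tmul a b =>
    rw [ψR, ψ_tmul, map_mul, Algebra.TensorProduct.map_tmul, ψ₁, ψ_tmul]
    congr 1
    · rw [← appLE_self, ← CommRingCat.comp_apply, Scheme.Hom.appLE_comp_appLE]
      rfl
    · rw [← appLE_self, ← CommRingCat.comp_apply, Scheme.Hom.appLE_comp_appLE]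
      have h2 : j.left ≫ qS.left = qS₁.left ≫ π.left := by
        rw [← Over.comp_left, hj2, Over.comp_left]
      rw [appLE_congr_hom h2]
      rw [← Scheme.Hom.appLE_comp_appLE (e₁ := le_pre_top _ _) (e₂ := le_pre_top _ _)]
      rfl
  | add x y hx hy => simp only [map_add, hx, hy]

theorem ψR_bijective [IsAffine ZS.left] (HR : IsPullback qW.left qS.left ZW.hom ZS.hom)
    {U : ZW.left.Opens} (hU : IsAffineOpen U) : Function.Bijective (ψR qW qS U) :=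
  ψ_bijective qW qS HR le_rfl (le_pre_top _ _) (by simp) hU (isAffineOpen_top _)

theorem ψ₁_bijective [IsAffine ZS₁.left]
    (H₁ : IsPullback (j ≫ qW).left qS₁.left ZW.hom ZS₁.hom)
    {U : ZW.left.Opens} (hU : IsAffineOpen U) : Function.Bijective (ψ₁ qW qS₁ j U) :=
  ψ_bijective (j ≫ qW) qS₁ H₁ (le_of_eq rfl) (le_pre_top _ _)
    (by simp only [Opens.map_top, le_top, inf_of_le_left]) hU (isAffineOpen_top _)

/-- (EX1) on affine opens. -/
theorem inj_of_isAffineOpen [IsAffine ZS.left]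
    (HR : IsPullback qW.left qS.left ZW.hom ZS.hom) (ε : Γ(ZS.left, ⊤)) (hε : ε ≠ 0)
    {U : ZW.left.Opens} (hU : IsAffineOpen U) :
    Function.Injective (epsT qW.left (qS.left.appTop.hom ε) U) := by
  rw [injective_iff_map_eq_zero]
  intro a ha
  rw [epsT_eq_ψR] at ha
  exact ThickAlg.tmul_eq_zero_imp ε hε a
    ((ψR_bijective qW qS HR hU).1 (ha.trans (map_zero _).symm))

/-- (EX1) `a ↦ e · qW^♯ a` is injective on all opens. -/
theorem inj [IsAffine ZS.left]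
    (HR : IsPullback qW.left qS.left ZW.hom ZS.hom) (ε : Γ(ZS.left, ⊤)) (hε : ε ≠ 0)
    (U : ZW.left.Opens) :
    Function.Injective (epsT qW.left (qS.left.appTop.hom ε) U) := by
  rw [injective_iff_map_eq_zero]
  intro a ha
  refine eq_of_res_eq (fun V : {V : ZW.left.Opens // IsAffineOpen V ∧ V ≤ U} => V.1)
    (fun V => V.2.2) ?_ a 0 ?_
  · intro x hx
    obtain ⟨V, hV, hxV, hVU⟩ :=
      (Opens.isBasis_iff_nbhd.mp ZW.left.isBasis_affineOpens) hx
    exact Opens.mem_iSup.mpr ⟨⟨V, hV, hVU⟩, hxV⟩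
  · intro V
    rw [map_zero]
    apply inj_of_isAffineOpen qW qS HR ε hε V.2.1
    rw [epsT_res, ha, map_zero, map_zero]

/-- (EX3) `j^♯` is surjective over affine opens. -/
theorem surj [IsAffine ZS₁.left]
    (H₁ : IsPullback (j ≫ qW).left qS₁.left ZW.hom ZS₁.hom) (hj2 : j ≫ qS = qS₁ ≫ π)
    (hsurj : Function.Surjective π.left.appTop.hom)
    {U : ZW.left.Opens} (hU : IsAffineOpen U) :
    Function.Surjective (j.left.app (qW.left ⁻¹ᵁ U)).hom := by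
  intro g₁
  obtain ⟨z₁, rfl⟩ := (ψ₁_bijective qW qS₁ j H₁ hU).2 g₁
  obtain ⟨z, rfl⟩ := ThickAlg.map_id_surjective (A := Γ(ZW.left, U)) (πₐ π)
    (fun r₁ => by
      obtain ⟨r, hr⟩ := hsurj r₁
      exact ⟨r, (πₐ_apply π r).trans hr⟩) z₁
  exact ⟨ψR qW qS U z, app_ψR qW qS qS₁ π j hj2 U z⟩

/-- (EX2) the kernel of `j^♯` over affine opens is the image of `a ↦ e · qW^♯ a`. -/
theorem ker [IsAffine ZS.left] [IsAffine ZS₁.left]
    (HR : IsPullback qW.left qS.left ZW.hom ZS.hom)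
    (H₁ : IsPullback (j ≫ qW).left qS₁.left ZW.hom ZS₁.hom) (hj2 : j ≫ qS = qS₁ ≫ π)
    (ε : Γ(ZS.left, ⊤)) (hπε : π.left.appTop.hom ε = 0)
    (hsurj : Function.Surjective π.left.appTop.hom)
    (hker : ∀ r : Γ(ZS.left, ⊤), π.left.appTop.hom r = 0 → ∃ c : K, r = c • ε)
    {U : ZW.left.Opens} (hU : IsAffineOpen U) (g : Γ(ZWR.left, qW.left ⁻¹ᵁ U))
    (hg : (j.left.app (qW.left ⁻¹ᵁ U)).hom g = 0) :
    ∃ a, g = epsT qW.left (qS.left.appTop.hom ε) U a := by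
  obtain ⟨z, rfl⟩ := (ψR_bijective qW qS HR hU).2 g
  rw [app_ψR qW qS qS₁ π j hj2 U z] at hg
  have hz := (ψ₁_bijective qW qS₁ j H₁ hU).1 (hg.trans (map_zero _).symm)
  obtain ⟨a, rfl⟩ := ThickAlg.exists_tmul_of_map_eq_zero (A := Γ(ZW.left, U)) (πₐ π)
    (fun r₁ => by
      obtain ⟨r, hr⟩ := hsurj r₁
      exact ⟨r, (πₐ_apply π r).trans hr⟩) ε ((πₐ_apply π ε).trans hπε)
    (fun r hr => hker r ((πₐ_apply π r).symm.trans hr)) z hz
  exact ⟨a, (epsT_eq_ψR qW qS ε U a).symm⟩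

end ThickEx

/-- **(EX)** the exactness facts of the first order thickening `W ×_K S₁ ⟶ W ×_K S`, for
`π : S₁ ⟶ S` a morphism of affine `K`-schemes with `π^♯` surjective with kernel `K · ε`. -/
theorem thickExact_of_isPullback {K : Type u} [Field K] {W WR WR₁ S S₁ : Scheme.{u}}
    [IsAffine S] [IsAffine S₁]
    (iW : W ⟶ Spec (CommRingCat.of K)) (iS : S ⟶ Spec (CommRingCat.of K))
    (iS₁ : S₁ ⟶ Spec (CommRingCat.of K)) (π : S₁ ⟶ S) (hπ : π ≫ iS = iS₁)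
    {qW : WR ⟶ W} {qS : WR ⟶ S} (HR : IsPullback qW qS iW iS)
    {qW₁ : WR₁ ⟶ W} {qS₁ : WR₁ ⟶ S₁} (H₁ : IsPullback qW₁ qS₁ iW iS₁)
    (j : WR₁ ⟶ WR) (hj1 : j ≫ qW = qW₁) (hj2 : j ≫ qS = qS₁ ≫ π)
    (ε : Γ(S, ⊤)) (hε : ε ≠ 0) (hε2 : ε * ε = 0) (hπε : π.appTop.hom ε = 0)
    (hsurj : Function.Surjective π.appTop.hom)
    (hker : ∀ r : Γ(S, ⊤), π.appTop.hom r = 0 → ∃ c : K, r = CP.constMap iS c * ε) :
    ThickExact qW (qS.appTop.hom ε) j := by
  subst hj1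
  subst hπ
  let ZW : Over (Spec (CommRingCat.of K)) := Over.mk iW
  let ZS : Over (Spec (CommRingCat.of K)) := Over.mk iS
  let ZS₁ : Over (Spec (CommRingCat.of K)) := Over.mk (π ≫ iS)
  let ZWR : Over (Spec (CommRingCat.of K)) := Over.mk (qW ≫ iW)
  let ZWR₁ : Over (Spec (CommRingCat.of K)) := Over.mk ((j ≫ qW) ≫ iW)
  let qW' : ZWR ⟶ ZW := Over.homMk qW rfl
  let qS' : ZWR ⟶ ZS := Over.homMk qS HR.w.symm
  let qS₁' : ZWR₁ ⟶ ZS₁ := Over.homMk qS₁ H₁.w.symm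
  let π' : ZS₁ ⟶ ZS := Over.homMk π rfl
  let j' : ZWR₁ ⟶ ZWR := Over.homMk j (Category.assoc _ _ _).symm
  have hj2' : j' ≫ qS' = qS₁' ≫ π' := Over.OverMorphism.ext hj2
  have : IsAffine ZS.left := ‹IsAffine S›
  have : IsAffine ZS₁.left := ‹IsAffine S₁›
  have hker' : ∀ r : Γ(ZS.left, ⊤), π'.left.appTop.hom r = 0 →
      ∃ c : K, r = (ProdSec.algΓ ZS ⊤).toSMul.smul c ε := by
    intro r hr
    obtain ⟨c, hc⟩ := hker r hr
    refine ⟨c, hc.trans ?_⟩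
    show _ = ProdSec.algMap iS ⊤ c * ε
    congr 1
    exact (ThickEx.appLE_top_top iS _ _).symm
  exact
    { e_sq := by rw [← map_mul, hε2, map_zero]
      j_e := by
        have h := congrArg (fun f => f.appTop.hom ε) hj2
        simp only [Scheme.Hom.comp_appTop, CommRingCat.hom_comp, RingHom.comp_apply] at h
        rw [h, hπε, map_zero]
      inj := ThickEx.inj qW' qS' HR ε hε
      ker := fun U hU g hg => ThickEx.ker qW' qS' qS₁' π' j' HR H₁ hj2' ε hπε hsurj hker' hU g hg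
      surj := fun U hU => ThickEx.surj qW' qS' qS₁' π' j' H₁ hj2' hsurj hU }

end

end Fermat.Agent.AV
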