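/-
PROJECT AV (S26) — helper3 — [AV3d] **cohomologous additive cocycles** (common refinement):
`AC.Cohom c c'`, symmetry, pull-back, and `Cohom c c' → c'.IsCobdry → c.IsCobdry`.
-/
import Mathlib
import Fermat.Agent.AV.CUBE_helper3_AC

set_option autoImplicit false

open AlgebraicGeometry CategoryTheory Limits Opposite TopologicalSpace

universe u

namespace Fermat.Agent.AV

noncomputable section

namespace AC

variable {X : Scheme.{u}}

/-- two additive cocycles (on possibly different covers) are cohomologous. -/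
def Cohom (c c' : AC X) : Prop :=
  ∃ b : ∀ (α : c.ι) (l : c'.ι), Γ(X, c.U α ⊓ c'.U l), ∀ (α β : c.ι) (l m : c'.ι),
    res (c.U α ⊓ c.U β ⊓ (c'.U l ⊓ c'.U m)) inf_le_left (c.a α β) -
      res (c.U α ⊓ c.U β ⊓ (c'.U l ⊓ c'.U m)) inf_le_right (c'.a l m) =
    res (c.U α ⊓ c.U β ⊓ (c'.U l ⊓ c'.U m))
        (le_inf (inf_le_left.trans inf_le_left) (inf_le_right.trans inf_le_left)) (b α l) -
      res (c.U α ⊓ c.U β ⊓ (c'.U l ⊓ c'.U m))
        (le_inf (inf_le_left.trans inf_le_right) (inf_le_right.trans inf_le_right)) (b β m)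

/-- the defining relation of `Cohom` on any open inside the quadruple intersection. -/
theorem Cohom.rel {c c' : AC X} {b : ∀ (α : c.ι) (l : c'.ι), Γ(X, c.U α ⊓ c'.U l)}
    (hb : ∀ (α β : c.ι) (l m : c'.ι),
      res (c.U α ⊓ c.U β ⊓ (c'.U l ⊓ c'.U m)) inf_le_left (c.a α β) -
        res (c.U α ⊓ c.U β ⊓ (c'.U l ⊓ c'.U m)) inf_le_right (c'.a l m) =
      res (c.U α ⊓ c.U β ⊓ (c'.U l ⊓ c'.U m))
          (le_inf (inf_le_left.trans inf_le_left) (inf_le_right.trans inf_le_left)) (b α l) -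
        res (c.U α ⊓ c.U β ⊓ (c'.U l ⊓ c'.U m))
          (le_inf (inf_le_left.trans inf_le_right) (inf_le_right.trans inf_le_right)) (b β m))
    (α β : c.ι) (l m : c'.ι) (O : X.Opens) (hα : O ≤ c.U α) (hβ : O ≤ c.U β) (hl : O ≤ c'.U l)
    (hm : O ≤ c'.U m) :
    res O (le_inf hα hβ) (c.a α β) - res O (le_inf hl hm) (c'.a l m) =
      res O (le_inf hα hl) (b α l) - res O (le_inf hβ hm) (b β m) := by
  have h := congrArg (res O (le_inf (le_inf hα hβ) (le_inf hl hm))) (hb α β l m)
  rw [map_sub, map_sub, res_res, res_res, res_res, res_res] at h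
  exact h

theorem Cohom.symm {c c' : AC X} (h : Cohom c c') : Cohom c' c := by
  obtain ⟨b, hb⟩ := h
  refine ⟨fun l α => - res (c'.U l ⊓ c.U α) (le_inf inf_le_right inf_le_left) (b α l), ?_⟩
  intro l m α β
  have h := Cohom.rel hb α β l m (c'.U l ⊓ c'.U m ⊓ (c.U α ⊓ c.U β))
    (inf_le_right.trans inf_le_left) (inf_le_right.trans inf_le_right)
    (inf_le_left.trans inf_le_left) (inf_le_left.trans inf_le_right)
  simp only [map_neg, res_res]
  rw [sub_neg_eq_add, neg_add_eq_sub]
  have h' := congrArg Neg.neg h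
  rw [neg_sub, neg_sub] at h'
  exact h'

theorem Cohom.pullback {Y : Scheme.{u}} (φ : Y ⟶ X) {c c' : AC X} (h : Cohom c c') :
    Cohom (c.pullback φ) (c'.pullback φ) := by
  obtain ⟨b, hb⟩ := h
  refine ⟨fun α l => (φ.app (c.U α ⊓ c'.U l)).hom (b α l), ?_⟩
  intro α β l m
  have h := congrArg (φ.app (c.U α ⊓ c.U β ⊓ (c'.U l ⊓ c'.U m))).hom (hb α β l m)
  rw [map_sub, map_sub, app_res, app_res, app_res, app_res] at h
  exact h

/-- a cocycle cohomologous to a coboundary is a coboundary. -/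
theorem Cohom.isCobdry {c c' : AC X} (h : Cohom c c') (h' : c'.IsCobdry) : c.IsCobdry := by
  obtain ⟨b, hb⟩ := h
  obtain ⟨e, he⟩ := h'
  -- glue `b α l + e l` over `l`
  have hglue : ∀ α, ∃! s : Γ(X, c.U α), ∀ l,
      res (c.U α ⊓ c'.U l) inf_le_left s =
        b α l + res (c.U α ⊓ c'.U l) inf_le_right (e l) := by
    intro α
    refine exists_glue (fun l => c.U α ⊓ c'.U l) (fun l => inf_le_left) ?_ _ ?_
    · rw [← inf_iSup_eq, c'.iSup_U, inf_top_eq]
    · intro l m
      have h := Cohom.rel hb α α l m ((c.U α ⊓ c'.U l) ⊓ (c.U α ⊓ c'.U m))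
        (inf_le_left.trans inf_le_left) (inf_le_left.trans inf_le_left)
        (inf_le_left.trans inf_le_right) (inf_le_right.trans inf_le_right)
      rw [c.a_self, map_zero, zero_sub, he l m, map_sub, res_res, res_res] at h
      simp only [map_add, res_res]
      -- h : -(e l - e m) = b α l - b α m
      linear_combination -h
  choose s hs _ using hglue
  refine ⟨s, fun α β => ?_⟩
  refine eq_of_res_eq (fun l => c.U α ⊓ c.U β ⊓ c'.U l) (fun l => inf_le_left) ?_ _ _ ?_
  · rw [← inf_iSup_eq, c'.iSup_U, inf_top_eq]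
  · intro l
    have h := Cohom.rel hb α β l l (c.U α ⊓ c.U β ⊓ c'.U l)
      (inf_le_left.trans inf_le_left) (inf_le_left.trans inf_le_right) inf_le_right inf_le_right
    rw [c'.a_self, map_zero, sub_zero] at h
    have h1 := congrArg (res (c.U α ⊓ c.U β ⊓ c'.U l)
      (le_inf (inf_le_left.trans inf_le_left) inf_le_right)) (hs α l)
    have h2 := congrArg (res (c.U α ⊓ c.U β ⊓ c'.U l)
      (le_inf (inf_le_left.trans inf_le_right) inf_le_right)) (hs β l)
    simp only [map_add, res_res] at h1 h2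
    simp only [map_sub, res_res]
    rw [h1, h2, h]
    ring

/-- `c` is a coboundary locally on the open `V`. -/
def IsCobdryOn (c : AC X) (V : X.Opens) : Prop :=
  ∃ b : ∀ α, Γ(X, c.U α ⊓ V), ∀ α β,
    res (c.U α ⊓ c.U β ⊓ V) inf_le_left (c.a α β) =
      res (c.U α ⊓ c.U β ⊓ V) (le_inf (inf_le_left.trans inf_le_left) inf_le_right) (b α) -
        res (c.U α ⊓ c.U β ⊓ V) (le_inf (inf_le_left.trans inf_le_right) inf_le_right) (b β)

/-- transport of a cocycle to a cover on whose members it is locally a coboundary. -/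
theorem exists_cohom_of_cover (c : AC X) (P : Type u) (Wo : P → X.Opens)
    (hcov : ⨆ p, Wo p = ⊤) (hloc : ∀ p, c.IsCobdryOn (Wo p)) :
    ∃ (a' : ∀ p q, Γ(X, Wo p ⊓ Wo q)) (hcoc : ∀ p q r,
      res (Wo p ⊓ Wo q ⊓ Wo r) inf_le_left (a' p q) +
        res (Wo p ⊓ Wo q ⊓ Wo r) (le_inf (inf_le_left.trans inf_le_right) inf_le_right) (a' q r) =
      res (Wo p ⊓ Wo q ⊓ Wo r) (le_inf (inf_le_left.trans inf_le_left) inf_le_right) (a' p r)),
      Cohom c ⟨P, Wo, hcov, a', hcoc⟩ := by
  choose b hb using hloc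
  -- relation on smaller opens
  have hb' : ∀ p α β (O : X.Opens) (hα : O ≤ c.U α) (hβ : O ≤ c.U β) (hp : O ≤ Wo p),
      res O (le_inf hα hβ) (c.a α β) = res O (le_inf hα hp) (b p α) - res O (le_inf hβ hp) (b p β) := by
    intro p α β O hα hβ hp
    have h := congrArg (res O (le_inf (le_inf hα hβ) hp)) (hb p α β)
    rw [map_sub, res_res, res_res, res_res] at h
    exact h
  -- the new cocycle, glued over the charts of `c`
  have hglue : ∀ p q, ∃! s : Γ(X, Wo p ⊓ Wo q), ∀ α,
      res (Wo p ⊓ Wo q ⊓ c.U α) inf_le_left s =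
        res (Wo p ⊓ Wo q ⊓ c.U α) (le_inf inf_le_right (inf_le_left.trans inf_le_right)) (b q α) -
          res (Wo p ⊓ Wo q ⊓ c.U α) (le_inf inf_le_right (inf_le_left.trans inf_le_left)) (b p α) := by
    intro p q
    refine exists_glue (fun α => Wo p ⊓ Wo q ⊓ c.U α) (fun α => inf_le_left) ?_ _ ?_
    · rw [← inf_iSup_eq, c.iSup_U, inf_top_eq]
    · intro α β
      simp only [map_sub, res_res]
      have h1 := hb' p α β ((Wo p ⊓ Wo q ⊓ c.U α) ⊓ (Wo p ⊓ Wo q ⊓ c.U β))
        (inf_le_left.trans inf_le_right) (inf_le_right.trans inf_le_right)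
        ((inf_le_left.trans inf_le_left).trans inf_le_left)
      have h2 := hb' q α β ((Wo p ⊓ Wo q ⊓ c.U α) ⊓ (Wo p ⊓ Wo q ⊓ c.U β))
        (inf_le_left.trans inf_le_right) (inf_le_right.trans inf_le_right)
        ((inf_le_left.trans inf_le_left).trans inf_le_right)
      linear_combination h1 - h2
  choose a' ha' _ using hglue
  have ha'' : ∀ p q α (O : X.Opens) (hp : O ≤ Wo p) (hq : O ≤ Wo q) (hα : O ≤ c.U α),
      res O (le_inf hp hq) (a' p q) = res O (le_inf hα hq) (b q α) - res O (le_inf hα hp) (b p α) := by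
    intro p q α O hp hq hα
    have h := congrArg (res O (le_inf (le_inf hp hq) hα)) (ha' p q α)
    rw [map_sub, res_res, res_res, res_res] at h
    exact h
  refine ⟨a', ?_, ?_⟩
  · intro p q r
    refine eq_of_res_eq (fun α => Wo p ⊓ Wo q ⊓ Wo r ⊓ c.U α) (fun α => inf_le_left) ?_ _ _ ?_
    · rw [← inf_iSup_eq, c.iSup_U, inf_top_eq]
    · intro α
      simp only [map_add, res_res]
      rw [ha'' p q α _ ((inf_le_left.trans inf_le_left).trans inf_le_left)
          ((inf_le_left.trans inf_le_left).trans inf_le_right) inf_le_right,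
        ha'' q r α _ ((inf_le_left.trans inf_le_left).trans inf_le_right)
          ((inf_le_left.trans inf_le_right)) inf_le_right,
        ha'' p r α _ ((inf_le_left.trans inf_le_left).trans inf_le_left)
          ((inf_le_left.trans inf_le_right)) inf_le_right]
      ring
  · refine ⟨fun α p => b p α, ?_⟩
    intro α β p q
    show res (c.U α ⊓ c.U β ⊓ (Wo p ⊓ Wo q)) inf_le_left (c.a α β) -
        res (c.U α ⊓ c.U β ⊓ (Wo p ⊓ Wo q)) inf_le_right (a' p q) =
      res (c.U α ⊓ c.U β ⊓ (Wo p ⊓ Wo q))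
          (le_inf (inf_le_left.trans inf_le_left) (inf_le_right.trans inf_le_left)) (b p α) -
        res (c.U α ⊓ c.U β ⊓ (Wo p ⊓ Wo q))
          (le_inf (inf_le_left.trans inf_le_right) (inf_le_right.trans inf_le_right)) (b q β)
    rw [hb' p α β _ (inf_le_left.trans inf_le_left) (inf_le_left.trans inf_le_right)
        (inf_le_right.trans inf_le_left),
      ha'' p q β _ (inf_le_right.trans inf_le_left) (inf_le_right.trans inf_le_right)
        (inf_le_left.trans inf_le_right)]
    ring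

end AC

end

end Fermat.Agent.AV
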