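/-
PROJECT AV (S26) — lead — **Čech H¹ of the structure sheaf of an affine scheme vanishes**, for an
arbitrary open cover: `AC.isCobdry_of_isAffine`.
-/
import Mathlib
import Fermat.Agent.AV.LB_helper5_Core
import Fermat.Agent.AV.LBS_helper1_SecOn
import Fermat.Agent.AV.CUBE_helper3_AC
import Fermat.Agent.AV.CUBE_helper3_Cohom

set_option autoImplicit false

open AlgebraicGeometry CategoryTheory Limits Opposite TopologicalSpace

universe u

namespace Fermat.Agent.AV

noncomputable section

namespace CechAffine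

variable {X : Scheme.{u}}

/-- On an affine open, a section over a basic open becomes a section over the affine open after
multiplication by a power of the equation. -/
theorem exists_numerator {V : X.Opens} (hV : IsAffineOpen V) (f : Γ(X, V)) (E : X.Opens)
    (hE : E = X.basicOpen f) (hEV : E ≤ V) (x : Γ(X, E)) :
    ∃ (n : ℕ) (y : Γ(X, V)), res E hEV y = (res E hEV f) ^ n * x := by
  subst hE
  obtain ⟨n, y, hy⟩ := exists_eq_pow_mul_of_isAffineOpen X V hV f x
  exact ⟨n, y, hy⟩

/-- On an affine open, a section vanishing on a basic open is killed by a power of the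
equation. -/
theorem exists_pow_mul_eq_zero {V : X.Opens} (hV : IsAffineOpen V) (f x : Γ(X, V)) (E : X.Opens)
    (hE : E = X.basicOpen f) (hEV : E ≤ V)
    (h : res E hEV x = 0) : ∃ n : ℕ, f ^ n * x = 0 := by
  subst hE
  exact exists_pow_mul_eq_zero_of_res_basicOpen_eq_zero_of_isAffineOpen X hV x f h

/-- the equation of a basic open is a unit there. -/
theorem isUnit_res_basicOpen {V : X.Opens} (f : Γ(X, V)) (E : X.Opens) (hE : E ≤ X.basicOpen f)
    (hEV : E ≤ V) :
    IsUnit (res E hEV f) := by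
  have h1 : IsUnit (res (X.basicOpen f) (X.basicOpen_le f) f) :=
    RingedSpace.isUnit_res_basicOpen _ f
  have h2 : res E hEV f = res E hE (res (X.basicOpen f) (X.basicOpen_le f) f) := by
    rw [res_res]
  rw [h2]
  exact h1.map _

theorem cech_algebra {S κ : Type*} [CommRing S] [Fintype κ] (F C : κ → S) (Y : κ → κ → S) (k l : κ)
    (Uk Ul α : S) (n p : ℕ) (hUk : Uk * F k = 1) (hUl : Ul * F l = 1)
    (H1 : ∀ m, (F k * F l * F m) ^ p * (F m ^ n * Y k l + F k ^ n * Y l m - F l ^ n * Y k m) = 0)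
    (H2 : ∑ m, C m * F m ^ (n + p) = 1)
    (H3 : Y k l = (F k * F l) ^ n * α) :
    α = (∑ m, C m * F m ^ p * Y k m) * Uk ^ n - (∑ m, C m * F m ^ p * Y l m) * Ul ^ n := by
  have hUkn : (Uk * F k) ^ n = 1 := by rw [hUk, one_pow]
  have hUln : (Ul * F l) ^ n = 1 := by rw [hUl, one_pow]
  have H1' : ∀ m, F m ^ p * (F l ^ n * Y k m - F k ^ n * Y l m) = F m ^ (n + p) * Y k l := by
    intro m
    have e0 : Uk * Ul * (F k * F l * F m) = F m := by
      linear_combination (F m * Ul * F l) * hUk + F m * hUl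
    have e1 : (Uk * Ul) ^ p * (F k * F l * F m) ^ p = F m ^ p := by
      rw [← mul_pow, e0]
    have h := congrArg (fun z => (Uk * Ul) ^ p * z) (H1 m)
    simp only [mul_zero] at h
    rw [← mul_assoc, e1] at h
    rw [pow_add]
    linear_combination (-1 : S) * h
  have hsum : (∑ m, C m * F m ^ p * Y k m) * F l ^ n - (∑ m, C m * F m ^ p * Y l m) * F k ^ n
      = Y k l := by
    rw [Finset.sum_mul, Finset.sum_mul, ← Finset.sum_sub_distrib]
    have : ∀ m ∈ (Finset.univ : Finset κ),
        C m * F m ^ p * Y k m * F l ^ n - C m * F m ^ p * Y l m * F k ^ n =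
          C m * F m ^ (n + p) * Y k l := by
      intro m _
      linear_combination C m * H1' m
    rw [Finset.sum_congr rfl this, ← Finset.sum_mul, H2, one_mul]
  have hα : α = (Uk * Ul) ^ n * Y k l := by
    rw [H3, ← mul_assoc, ← mul_pow]
    have : Uk * Ul * (F k * F l) = 1 := by
      linear_combination (Ul * F l) * hUk + hUl
    rw [this, one_pow, one_mul]
  rw [hα, ← hsum]
  have e2 : Uk ^ n = (Uk * Ul) ^ n * F l ^ n := by
    rw [mul_pow, mul_assoc, ← mul_pow, hUl, one_pow, mul_one]
  have e3 : Ul ^ n = (Uk * Ul) ^ n * F k ^ n := by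
    rw [mul_pow, mul_comm (Uk ^ n), mul_assoc, ← mul_pow, hUk, one_pow, mul_one]
  rw [e2, e3]
  ring

/-- **Core**: `H¹` of a finite cover of an affine open by basic opens vanishes. -/
theorem exists_cobdry_basicOpen {V : X.Opens} (hV : IsAffineOpen V) {κ : Type*} [Fintype κ]
    (f : κ → Γ(X, V)) (hspan : Ideal.span (Set.range f) = ⊤)
    (α : ∀ k l, Γ(X, X.basicOpen (f k) ⊓ X.basicOpen (f l)))
    (hα : ∀ k l m (W : X.Opens) (hk : W ≤ X.basicOpen (f k)) (hl : W ≤ X.basicOpen (f l))
      (hm : W ≤ X.basicOpen (f m)),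
      res W (le_inf hk hl) (α k l) + res W (le_inf hl hm) (α l m) = res W (le_inf hk hm) (α k m)) :
    ∃ β : ∀ k, Γ(X, X.basicOpen (f k)), ∀ k l,
      α k l = res (X.basicOpen (f k) ⊓ X.basicOpen (f l)) inf_le_left (β k) -
        res (X.basicOpen (f k) ⊓ X.basicOpen (f l)) inf_le_right (β l) := by
  classical
  have hkV : ∀ k, X.basicOpen (f k) ≤ V := fun k => X.basicOpen_le (f k)
  have hklV : ∀ k l, X.basicOpen (f k) ⊓ X.basicOpen (f l) ≤ V := fun k l =>
    inf_le_left.trans (hkV k)
  -- Step 1: numerators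
  have h1 : ∀ k l, ∃ (n : ℕ) (y : Γ(X, V)),
      res (X.basicOpen (f k) ⊓ X.basicOpen (f l)) (hklV k l) y =
        (res (X.basicOpen (f k) ⊓ X.basicOpen (f l)) (hklV k l) (f k * f l)) ^ n * α k l :=
    fun k l => exists_numerator hV (f k * f l) _ (X.basicOpen_mul _ _).symm (hklV k l) (α k l)
  choose n0 y0 hy0 using h1
  -- Step 2: uniform exponent
  obtain ⟨n, hn0⟩ : ∃ n : ℕ, ∀ k l, n0 k l ≤ n :=
    ⟨Finset.univ.sup (fun q : κ × κ => n0 q.1 q.2), fun k l =>
      Finset.le_sup (f := fun q : κ × κ => n0 q.1 q.2) (Finset.mem_univ (k, l))⟩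
  obtain ⟨y, hyn⟩ : ∃ y : κ → κ → Γ(X, V), ∀ k l,
      res (X.basicOpen (f k) ⊓ X.basicOpen (f l)) (hklV k l) (y k l) =
      (res (X.basicOpen (f k) ⊓ X.basicOpen (f l)) (hklV k l) (f k * f l)) ^ n * α k l := by
    refine ⟨fun k l => y0 k l * (f k * f l) ^ (n - n0 k l), fun k l => ?_⟩
    simp only [map_mul, map_pow, hy0 k l]
    rw [mul_right_comm, ← pow_add, Nat.add_sub_cancel' (hn0 k l)]
  -- Step 3: the cocycle relation for the numerators, up to a power of `f k * f l * f m`
  have h3 : ∀ k l m, ∃ p : ℕ, (f k * f l * f m) ^ p *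
      (f m ^ n * y k l + f k ^ n * y l m - f l ^ n * y k m) = 0 := by
    intro k l m
    set T : X.Opens := X.basicOpen (f k * f l * f m) with hT
    have hTk : T ≤ X.basicOpen (f k) := by
      rw [hT, X.basicOpen_mul, X.basicOpen_mul]; exact inf_le_left.trans inf_le_left
    have hTl : T ≤ X.basicOpen (f l) := by
      rw [hT, X.basicOpen_mul, X.basicOpen_mul]; exact inf_le_left.trans inf_le_right
    have hTm : T ≤ X.basicOpen (f m) := by
      rw [hT, X.basicOpen_mul]; exact inf_le_right
    have hTV : T ≤ V := hTk.trans (hkV k)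
    refine exists_pow_mul_eq_zero hV (f k * f l * f m) _ T rfl hTV ?_
    have e : ∀ a b (ha : T ≤ X.basicOpen (f a)) (hb : T ≤ X.basicOpen (f b)),
        res T hTV (y a b) = (res T hTV (f a * f b)) ^ n * res T (le_inf ha hb) (α a b) := by
      intro a b ha hb
      have := congrArg (res T (le_inf ha hb)) (hyn a b)
      rw [res_res, map_mul, map_pow, res_res] at this
      exact this
    simp only [map_sub, map_add, map_mul, map_pow, e k l hTk hTl, e l m hTl hTm, e k m hTk hTm]
    have hc := hα k l m T hTk hTl hTm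
    linear_combination ((res T hTV (f k)) * (res T hTV (f l)) * (res T hTV (f m))) ^ n * hc
  choose p0 hp0 using h3
  obtain ⟨p, hp0le⟩ : ∃ p : ℕ, ∀ k l m, p0 k l m ≤ p :=
    ⟨Finset.univ.sup (fun q : κ × κ × κ => p0 q.1 q.2.1 q.2.2), fun k l m =>
      Finset.le_sup (f := fun q : κ × κ × κ => p0 q.1 q.2.1 q.2.2) (Finset.mem_univ (k, l, m))⟩
  have hpz : ∀ k l m, (f k * f l * f m) ^ p *
      (f m ^ n * y k l + f k ^ n * y l m - f l ^ n * y k m) = 0 := by
    intro k l m
    rw [← Nat.sub_add_cancel (hp0le k l m), pow_add, mul_assoc, hp0 k l m, mul_zero]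
  -- Step 4: partition of unity
  have hspanN : Ideal.span (Set.range fun m => f m ^ (n + p)) = ⊤ := by
    have := Ideal.span_pow_eq_top (Set.range f) hspan (n + p)
    rwa [← Set.range_comp] at this
  obtain ⟨c, hc⟩ : ∃ c : κ → Γ(X, V), ∑ m, c m * f m ^ (n + p) = 1 := by
    have h1mem : (1 : Γ(X, V)) ∈ Ideal.span (Set.range fun m => f m ^ (n + p)) := by
      rw [hspanN]; trivial
    exact (Ideal.mem_span_range_iff_exists_fun).1 h1mem
  -- Step 5: the solution
  have hunit : ∀ k, IsUnit (res (X.basicOpen (f k)) (hkV k) (f k)) := fun k =>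
    isUnit_res_basicOpen (f k) _ le_rfl (hkV k)
  let u : ∀ k, Γ(X, X.basicOpen (f k)) := fun k => ((hunit k).unit⁻¹ : (Γ(X, X.basicOpen (f k)))ˣ)
  have hu : ∀ k, u k * res (X.basicOpen (f k)) (hkV k) (f k) = 1 := fun k =>
    (hunit k).val_inv_mul
  refine ⟨fun k => res (X.basicOpen (f k)) (hkV k) (∑ m, c m * f m ^ p * y k m) * (u k) ^ n,
    fun k l => ?_⟩
  set E : X.Opens := X.basicOpen (f k) ⊓ X.basicOpen (f l) with hE
  have hEV : E ≤ V := hklV k l
  simp only [map_mul, map_pow, res_res, map_sum]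
  refine cech_algebra (fun m => res E hEV (f m)) (fun m => res E hEV (c m))
    (fun a b => res E hEV (y a b)) k l (res E inf_le_left (u k)) (res E inf_le_right (u l))
    (α k l) n p ?_ ?_ ?_ ?_ ?_
  · have := congrArg (res E inf_le_left) (hu k)
    rw [map_mul, res_res, map_one] at this
    exact this
  · have := congrArg (res E inf_le_right) (hu l)
    rw [map_mul, res_res, map_one] at this
    exact this
  · intro m
    have := congrArg (res E hEV) (hpz k l m)
    simpa only [map_mul, map_pow, map_add, map_sub, map_zero] using this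
  · have := congrArg (res E hEV) hc
    simpa only [map_sum, map_mul, map_pow, map_one] using this
  · have := hyn k l
    rw [map_mul] at this
    exact this

/-- finite refinement of an open cover of an affine open by basic opens. -/
theorem exists_finite_basicOpen_refinement {V : X.Opens} (hV : IsAffineOpen V) {ι : Type u}
    (U : ι → X.Opens) (hU : V ≤ ⨆ i, U i) :
    ∃ t : Finset (Γ(X, V) × ι), (∀ q ∈ t, X.basicOpen q.1 ≤ U q.2) ∧
      (∀ x ∈ V, ∃ q ∈ t, x ∈ X.basicOpen q.1) := by
  classical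
  -- the index type of all admissible pairs
  let P := {q : Γ(X, V) × ι // X.basicOpen q.1 ≤ U q.2}
  have hcov : (V : Set X) ⊆ ⋃ q : P, (X.basicOpen q.1.1 : Set X) := by
    intro x hxV
    have hx : x ∈ (⨆ i, U i : X.Opens) := hU hxV
    obtain ⟨i, hi⟩ := Opens.mem_iSup.1 hx
    obtain ⟨f, hfU, hxf⟩ := hV.exists_basicOpen_le (V := U i) ⟨x, hi⟩ hxV
    exact Set.mem_iUnion.2 ⟨⟨(f, i), hfU⟩, hxf⟩
  obtain ⟨t0, ht0⟩ := hV.isCompact.elim_finite_subcover
    (fun q : P => (X.basicOpen q.1.1 : Set X)) (fun q => (X.basicOpen q.1.1).2) hcov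
  refine ⟨t0.image Subtype.val, ?_, ?_⟩
  · intro q hq
    obtain ⟨q', -, rfl⟩ := Finset.mem_image.1 hq
    exact q'.2
  · intro x hxV
    obtain ⟨q', hq', hx⟩ := Set.mem_iUnion₂.1 (ht0 hxV)
    exact ⟨q'.1, Finset.mem_image.2 ⟨q', hq', rfl⟩, hx⟩

end CechAffine

open CechAffine in
/-- **Čech `H¹` of the structure sheaf vanishes on affine opens**: every additive cocycle is a
coboundary on every affine open (local form). -/
theorem AC.isCobdryOn_of_isAffineOpen {X : Scheme.{u}} (c : AC X) (V : X.Opens)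
    (hV : IsAffineOpen V) : c.IsCobdryOn V := by
  classical
  obtain ⟨t, ht1, ht2⟩ := exists_finite_basicOpen_refinement hV c.U
    (by rw [c.iSup_U]; exact le_top)
  -- the finite index type
  let κ : Type u := ↥t
  let f : κ → Γ(X, V) := fun k => k.1.1
  let idx : κ → c.ι := fun k => k.1.2
  have hD : ∀ k : κ, X.basicOpen (f k) ≤ c.U (idx k) := fun k => ht1 k.1 k.2
  have hDV : ∀ k : κ, X.basicOpen (f k) ≤ V := fun k => X.basicOpen_le (f k)
  have hcovV : V ≤ ⨆ k : κ, X.basicOpen (f k) := by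
    intro x hx
    obtain ⟨q, hq, hxq⟩ := ht2 x hx
    exact Opens.mem_iSup.2 ⟨⟨q, hq⟩, hxq⟩
  have hspan : Ideal.span (Set.range f) = ⊤ := by
    rw [← IsAffineOpen.iSup_basicOpen_eq_self_iff hV]
    refine le_antisymm (iSup_le fun g => X.basicOpen_le _) ?_
    refine hcovV.trans (iSup_le fun k => ?_)
    exact le_iSup (fun g : Set.range f => X.basicOpen (g : Γ(X, V))) ⟨f k, k, rfl⟩
  -- the induced cocycle on the basic open cover
  let α : ∀ k l : κ, Γ(X, X.basicOpen (f k) ⊓ X.basicOpen (f l)) := fun k l =>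
    res _ (le_inf (inf_le_left.trans (hD k)) (inf_le_right.trans (hD l))) (c.a (idx k) (idx l))
  have hα : ∀ k l m (W : X.Opens) (hk : W ≤ X.basicOpen (f k)) (hl : W ≤ X.basicOpen (f l))
      (hm : W ≤ X.basicOpen (f m)),
      res W (le_inf hk hl) (α k l) + res W (le_inf hl hm) (α l m) =
        res W (le_inf hk hm) (α k m) := by
    intro k l m W hk hl hm
    simp only [α, res_res]
    exact c.cocycle' (idx k) (idx l) (idx m) W (hk.trans (hD k)) (hl.trans (hD l))
      (hm.trans (hD m))
  obtain ⟨β, hβ⟩ := exists_cobdry_basicOpen hV f hspan α hα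
  -- `β k - β l = a (idx k) (idx l)` on any open inside `D k ⊓ D l`
  have hβ' : ∀ k l (O : X.Opens) (hk : O ≤ X.basicOpen (f k)) (hl : O ≤ X.basicOpen (f l)),
      res O (le_inf (hk.trans (hD k)) (hl.trans (hD l))) (c.a (idx k) (idx l)) =
        res O hk (β k) - res O hl (β l) := by
    intro k l O hk hl
    have h := congrArg (res O (le_inf hk hl)) (hβ k l)
    simp only [α, map_sub, res_res] at h
    exact h
  -- glue `β k + a i (idx k)` over `k`
  have hglue : ∀ i, ∃! s : Γ(X, c.U i ⊓ V), ∀ k : κ,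
      res (c.U i ⊓ X.basicOpen (f k)) (inf_le_inf_left _ (hDV k)) s =
        res (c.U i ⊓ X.basicOpen (f k)) inf_le_right (β k) +
          res (c.U i ⊓ X.basicOpen (f k)) (le_inf inf_le_left (inf_le_right.trans (hD k)))
            (c.a i (idx k)) := by
    intro i
    refine exists_glue (fun k : κ => c.U i ⊓ X.basicOpen (f k))
      (fun k => inf_le_inf_left _ (hDV k)) ?_ _ ?_
    · rw [← inf_iSup_eq]
      exact inf_le_inf_left _ hcovV
    · intro k l
      simp only [map_add, res_res]
      set O : X.Opens := (c.U i ⊓ X.basicOpen (f k)) ⊓ (c.U i ⊓ X.basicOpen (f l)) with hO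
      have hOk : O ≤ X.basicOpen (f k) := inf_le_left.trans inf_le_right
      have hOl : O ≤ X.basicOpen (f l) := inf_le_right.trans inf_le_right
      have hOi : O ≤ c.U i := inf_le_left.trans inf_le_left
      have h1 := hβ' k l O hOk hOl
      have h2 := c.cocycle' i (idx k) (idx l) O hOi (hOk.trans (hD k)) (hOl.trans (hD l))
      linear_combination h2 - h1
  choose b hb _ using hglue
  have hb' : ∀ i (k : κ) (O : X.Opens) (hi : O ≤ c.U i) (hk : O ≤ X.basicOpen (f k)),
      res O (le_inf hi (hk.trans (hDV k))) (b i) =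
        res O hk (β k) + res O (le_inf hi (hk.trans (hD k))) (c.a i (idx k)) := by
    intro i k O hi hk
    have h := congrArg (res O (le_inf hi hk)) (hb i k)
    simp only [map_add, res_res] at h
    exact h
  refine ⟨b, fun i j => ?_⟩
  refine eq_of_res_eq (fun k : κ => c.U i ⊓ c.U j ⊓ X.basicOpen (f k))
    (fun k => inf_le_inf_left _ (hDV k)) ?_ _ _ ?_
  · rw [← inf_iSup_eq]
    exact inf_le_inf_left _ hcovV
  · intro k
    simp only [map_sub, res_res]
    set O : X.Opens := c.U i ⊓ c.U j ⊓ X.basicOpen (f k) with hO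
    have hOi : O ≤ c.U i := inf_le_left.trans inf_le_left
    have hOj : O ≤ c.U j := inf_le_left.trans inf_le_right
    have hOk : O ≤ X.basicOpen (f k) := inf_le_right
    have h1 := hb' i k O hOi hOk
    have h2 := hb' j k O hOj hOk
    have h3 := c.cocycle' i j (idx k) O hOi hOj (hOk.trans (hD k))
    rw [h1, h2]
    linear_combination h3

/-- **Čech `H¹` of the structure sheaf of an affine scheme vanishes** (global form). -/
theorem AC.isCobdry_of_isAffine {X : Scheme.{u}} [IsAffine X] (c : AC X) : c.IsCobdry := by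
  obtain ⟨b, hb⟩ := c.isCobdryOn_of_isAffineOpen ⊤ (isAffineOpen_top X)
  refine ⟨fun i => res (c.U i) (le_inf le_rfl le_top) (b i), fun i j => ?_⟩
  have h := congrArg (res (c.U i ⊓ c.U j) (le_inf le_rfl le_top)) (hb i j)
  simp only [map_sub, res_res] at h
  rw [res_self] at h
  simp only [res_res]
  exact h


end

end Fermat.Agent.AV
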