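/-
PROJECT AV (S26) — helper3 — [AV3f] **Künneth injectivity for a cocycle on a product affine cover**
of `W = X ×_K Y`: if its restrictions to the two axes are coboundaries, it is a coboundary.
-/
import Mathlib
import Fermat.Agent.AV.CUBE_helper3_ProdSec
import Fermat.Agent.AV.CUBE_helper3_Cohom

set_option autoImplicit false

open AlgebraicGeometry CategoryTheory Limits Opposite TopologicalSpace TensorProduct

universe u

namespace Fermat.Agent.AV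

noncomputable section

open ProdSec CubeKunneth

attribute [local instance] ProdSec.algΓ

variable {K : Type u} [Field K] {ZX ZY ZW : Over (Spec (CommRingCat.of K))}
  (pX : ZW ⟶ ZX) (pY : ZW ⟶ ZY)

/-- the product open `UX × UT` of `W`. -/
def prodOpen (UX : ZX.left.Opens) (UT : ZY.left.Opens) : ZW.left.Opens :=
  pX.left ⁻¹ᵁ UX ⊓ pY.left ⁻¹ᵁ UT

theorem prodOpen_inf (UX UX' : ZX.left.Opens) (UT UT' : ZY.left.Opens) :
    prodOpen pX pY UX UT ⊓ prodOpen pX pY UX' UT' = prodOpen pX pY (UX ⊓ UX') (UT ⊓ UT') := by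
  unfold prodOpen
  rw [Scheme.Hom.preimage_inf, Scheme.Hom.preimage_inf]
  exact inf_inf_inf_comm _ _ _ _

theorem prodOpen_mono {UX UX' : ZX.left.Opens} {UT UT' : ZY.left.Opens} (h : UX ≤ UX')
    (h' : UT ≤ UT') : prodOpen pX pY UX UT ≤ prodOpen pX pY UX' UT' :=
  inf_le_inf ((Opens.map pX.left.base).monotone h) ((Opens.map pY.left.base).monotone h')

theorem le_preimage_prodOpen_right (x₀ : Spec (CommRingCat.of K) ⟶ ZX.left)
    (sY : ZY.left ⟶ ZW.left) (hsY1 : sY ≫ pY.left = 𝟙 _) (hsY2 : sY ≫ pX.left = ZY.hom ≫ x₀)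
    (UX : ZX.left.Opens) (UT : ZY.left.Opens) (hx : ⊤ ≤ x₀ ⁻¹ᵁ UX) :
    UT ≤ sY ⁻¹ᵁ prodOpen pX pY UX UT := by
  unfold prodOpen
  rw [Scheme.Hom.preimage_inf, ← Scheme.Hom.comp_preimage, ← Scheme.Hom.comp_preimage, hsY1, hsY2,
    Scheme.Hom.id_preimage, Scheme.Hom.comp_preimage]
  refine le_inf ?_ le_rfl
  exact le_top.trans ((Opens.map ZY.hom.base).monotone hx)

theorem le_preimage_prodOpen_left (y₀ : Spec (CommRingCat.of K) ⟶ ZY.left)
    (sX : ZX.left ⟶ ZW.left) (hsX1 : sX ≫ pX.left = 𝟙 _) (hsX2 : sX ≫ pY.left = ZX.hom ≫ y₀)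
    (UX : ZX.left.Opens) (UT : ZY.left.Opens) (hy : ⊤ ≤ y₀ ⁻¹ᵁ UT) :
    UX ≤ sX ⁻¹ᵁ prodOpen pX pY UX UT := by
  unfold prodOpen
  rw [Scheme.Hom.preimage_inf, ← Scheme.Hom.comp_preimage, ← Scheme.Hom.comp_preimage, hsX1, hsX2,
    Scheme.Hom.id_preimage, Scheme.Hom.comp_preimage]
  refine le_inf le_rfl ?_
  exact le_top.trans ((Opens.map ZX.hom.base).monotone hy)

set_option maxHeartbeats 1600000 in
/-- **Künneth injectivity on a product affine cover.** -/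
theorem prodCover_isCobdry (H : IsPullback pX.left pY.left ZX.hom ZY.hom)
    {I J : Type u} [Finite I] [Finite J] (U : I → ZX.left.Opens) (V : J → ZY.left.Opens)
    (hU₂ : ∀ i i', IsAffineOpen (U i ⊓ U i')) (hV₂ : ∀ j j', IsAffineOpen (V j ⊓ V j'))
    (hUcov : ⨆ i, U i = ⊤) (hVcov : ⨆ j, V j = ⊤)
    (hΓX : Function.Surjective (algebraMap K Γ(ZX.left, ⊤)))
    (hΓY : Function.Surjective (algebraMap K Γ(ZY.left, ⊤)))
    (x₀ : Spec (CommRingCat.of K) ⟶ ZX.left) (hx₀ : x₀ ≫ ZX.hom = 𝟙 _) (i₀ : I)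
    (hi₀ : ⊤ ≤ x₀ ⁻¹ᵁ U i₀)
    (y₀ : Spec (CommRingCat.of K) ⟶ ZY.left) (hy₀ : y₀ ≫ ZY.hom = 𝟙 _) (j₀ : J)
    (hj₀ : ⊤ ≤ y₀ ⁻¹ᵁ V j₀)
    (sX : ZX.left ⟶ ZW.left) (hsX1 : sX ≫ pX.left = 𝟙 _) (hsX2 : sX ≫ pY.left = ZX.hom ≫ y₀)
    (sY : ZY.left ⟶ ZW.left) (hsY1 : sY ≫ pY.left = 𝟙 _) (hsY2 : sY ≫ pX.left = ZY.hom ≫ x₀)
    (hWcov : ⨆ p : I × J, prodOpen pX pY (U p.1) (V p.2) = ⊤)
    (a : ∀ p q : I × J, Γ(ZW.left, prodOpen pX pY (U p.1) (V p.2) ⊓ prodOpen pX pY (U q.1) (V q.2)))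
    (hcoc : ∀ p q r : I × J,
      res (prodOpen pX pY (U p.1) (V p.2) ⊓ prodOpen pX pY (U q.1) (V q.2) ⊓
          prodOpen pX pY (U r.1) (V r.2)) inf_le_left (a p q) +
        res (prodOpen pX pY (U p.1) (V p.2) ⊓ prodOpen pX pY (U q.1) (V q.2) ⊓
          prodOpen pX pY (U r.1) (V r.2))
          (le_inf (inf_le_left.trans inf_le_right) inf_le_right) (a q r) =
      res (prodOpen pX pY (U p.1) (V p.2) ⊓ prodOpen pX pY (U q.1) (V q.2) ⊓
          prodOpen pX pY (U r.1) (V r.2))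
          (le_inf (inf_le_left.trans inf_le_left) inf_le_right) (a p r))
    (hX : ((⟨I × J, fun p => prodOpen pX pY (U p.1) (V p.2), hWcov, a, hcoc⟩ :
      AC ZW.left).pullback sX).IsCobdry)
    (hY : ((⟨I × J, fun p => prodOpen pX pY (U p.1) (V p.2), hWcov, a, hcoc⟩ :
      AC ZW.left).pullback sY).IsCobdry) :
    (⟨I × J, fun p => prodOpen pX pY (U p.1) (V p.2), hWcov, a, hcoc⟩ : AC ZW.left).IsCobdry := by
  classical
  cases nonempty_fintype I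
  cases nonempty_fintype J
  set c : AC ZW.left := ⟨I × J, fun p => prodOpen pX pY (U p.1) (V p.2), hWcov, a, hcoc⟩ with hc
  -- inclusions
  have hXle : ∀ p q : I × J, prodOpen pX pY (U p.1) (V p.2) ⊓ prodOpen pX pY (U q.1) (V q.2) ≤
      pX.left ⁻¹ᵁ (U p.1 ⊓ U q.1) := by
    intro p q; rw [prodOpen_inf]; exact inf_le_left
  have hYle : ∀ p q : I × J, prodOpen pX pY (U p.1) (V p.2) ⊓ prodOpen pX pY (U q.1) (V q.2) ≤
      pY.left ⁻¹ᵁ (V p.2 ⊓ V q.2) := by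
    intro p q; rw [prodOpen_inf]; exact inf_le_right
  have hbij : ∀ p q : I × J, Function.Bijective
      (ψ pX pY (U p.1 ⊓ U q.1) (V p.2 ⊓ V q.2)
        (prodOpen pX pY (U p.1) (V p.2) ⊓ prodOpen pX pY (U q.1) (V q.2)) (hXle p q) (hYle p q)) :=
    fun p q => ψ_bijective pX pY H (hXle p q) (hYle p q) (prodOpen_inf pX pY _ _ _ _)
      (hU₂ _ _) (hV₂ _ _)
  let Ψ : ∀ p q : I × J, (Γ(ZX.left, U p.1 ⊓ U q.1) ⊗[K] Γ(ZY.left, V p.2 ⊓ V q.2)) ≃ₗ[K]
      Γ(ZW.left, prodOpen pX pY (U p.1) (V p.2) ⊓ prodOpen pX pY (U q.1) (V q.2)) :=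
    fun p q => LinearEquiv.ofBijective
      (ψ pX pY (U p.1 ⊓ U q.1) (V p.2 ⊓ V q.2) _ (hXle p q) (hYle p q)).toLinearMap (hbij p q)
  have hΨ : ∀ p q z, Ψ p q z = ψ pX pY (U p.1 ⊓ U q.1) (V p.2 ⊓ V q.2) _ (hXle p q) (hYle p q) z :=
    fun p q z => rfl
  -- naturality of `Ψ`
  have key : ∀ (p q p' q' : I × J) (hUX : U p'.1 ⊓ U q'.1 ≤ U p.1 ⊓ U q.1)
      (hUT : V p'.2 ⊓ V q'.2 ≤ V p.2 ⊓ V q.2)
      (hUY : prodOpen pX pY (U p'.1) (V p'.2) ⊓ prodOpen pX pY (U q'.1) (V q'.2) ≤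
        prodOpen pX pY (U p.1) (V p.2) ⊓ prodOpen pX pY (U q.1) (V q.2))
      (w : Γ(ZW.left, prodOpen pX pY (U p.1) (V p.2) ⊓ prodOpen pX pY (U q.1) (V q.2))),
      Ψ p' q' (TensorProduct.map (resₐ ZX hUX).toLinearMap (resₐ ZY hUT).toLinearMap
        ((Ψ p q).symm w)) = res _ hUY w := by
    intro p q p' q' hUX hUT hUY w
    rw [hΨ, ← res_ψ pX pY (hXle p q) (hYle p q) (hXle p' q') (hYle p' q') hUX hUT hUY, ← hΨ,
      LinearEquiv.apply_symm_apply]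
  let FX := famSide ZX U hUcov hΓX x₀ hx₀ i₀ hi₀
  let FY := famSide ZY V hVcov hΓY y₀ hy₀ j₀ hj₀
  let cT : ∀ i i' j j', Γ(ZX.left, U i ⊓ U i') ⊗[K] Γ(ZY.left, V j ⊓ V j') :=
    fun i i' j j' => (Ψ (i, j) (i', j')).symm (a (i, j) (i', j'))
  have h1 : ∀ i i' j j', TensorProduct.map (FX.rl i i' ∘ₗ FX.dg i) LinearMap.id (cT i i j j') +
      TensorProduct.map LinearMap.id (FY.rr j j' ∘ₗ FY.dg j') (cT i i' j' j') = cT i i' j j' := by
    intro i i' j j'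
    apply (Ψ (i, j) (i', j')).injective
    rw [map_add]
    have e1 : FX.rl i i' ∘ₗ FX.dg i =
        (resₐ ZX (le_inf inf_le_left inf_le_left : U i ⊓ U i' ≤ U i ⊓ U i)).toLinearMap :=
      resₐ_comp ZX _ _
    have e2 : (LinearMap.id : Γ(ZY.left, V j ⊓ V j') →ₗ[K] _) =
        (resₐ ZY (le_refl (V j ⊓ V j'))).toLinearMap := (resₐ_self ZY _).symm
    have e3 : FY.rr j j' ∘ₗ FY.dg j' =
        (resₐ ZY (le_inf inf_le_right inf_le_right : V j ⊓ V j' ≤ V j' ⊓ V j')).toLinearMap :=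
      resₐ_comp ZY _ _
    have e4 : (LinearMap.id : Γ(ZX.left, U i ⊓ U i') →ₗ[K] _) =
        (resₐ ZX (le_refl (U i ⊓ U i'))).toLinearMap := (resₐ_self ZX _).symm
    rw [e1, e2, e3, e4]
    have k1 := key (i, j) (i, j') (i, j) (i', j') (le_inf inf_le_left inf_le_left) le_rfl
      (le_inf inf_le_left (by
        rw [prodOpen_inf]
        exact prodOpen_mono pX pY inf_le_left inf_le_right)) (a (i, j) (i, j'))
    have k2 := key (i, j') (i', j') (i, j) (i', j') le_rfl (le_inf inf_le_right inf_le_right)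
      (le_inf (by
        rw [prodOpen_inf]
        exact prodOpen_mono pX pY inf_le_left inf_le_right) inf_le_right) (a (i, j') (i', j'))
    rw [k1, k2, LinearEquiv.apply_symm_apply]
    have hco := c.cocycle' (i, j) (i, j') (i', j')
      (prodOpen pX pY (U i) (V j) ⊓ prodOpen pX pY (U i') (V j')) inf_le_left
      (by
        show _ ≤ prodOpen pX pY (U i) (V j')
        rw [prodOpen_inf]
        exact prodOpen_mono pX pY inf_le_left inf_le_right) inf_le_right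
    rw [res_self] at hco
    exact hco
  have h2 : ∀ i i' j j', TensorProduct.map LinearMap.id (FY.rl j j' ∘ₗ FY.dg j) (cT i i' j j) +
      TensorProduct.map (FX.rr i i' ∘ₗ FX.dg i') LinearMap.id (cT i' i' j j') = cT i i' j j' := by
    intro i i' j j'
    apply (Ψ (i, j) (i', j')).injective
    rw [map_add]
    have e1 : FY.rl j j' ∘ₗ FY.dg j =
        (resₐ ZY (le_inf inf_le_left inf_le_left : V j ⊓ V j' ≤ V j ⊓ V j)).toLinearMap :=
      resₐ_comp ZY _ _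
    have e2 : (LinearMap.id : Γ(ZY.left, V j ⊓ V j') →ₗ[K] _) =
        (resₐ ZY (le_refl (V j ⊓ V j'))).toLinearMap := (resₐ_self ZY _).symm
    have e3 : FX.rr i i' ∘ₗ FX.dg i' =
        (resₐ ZX (le_inf inf_le_right inf_le_right : U i ⊓ U i' ≤ U i' ⊓ U i')).toLinearMap :=
      resₐ_comp ZX _ _
    have e4 : (LinearMap.id : Γ(ZX.left, U i ⊓ U i') →ₗ[K] _) =
        (resₐ ZX (le_refl (U i ⊓ U i'))).toLinearMap := (resₐ_self ZX _).symm
    rw [e1, e2, e3, e4]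
    have k1 := key (i, j) (i', j) (i, j) (i', j') le_rfl (le_inf inf_le_left inf_le_left)
      (le_inf inf_le_left (by
        rw [prodOpen_inf]
        exact prodOpen_mono pX pY inf_le_right inf_le_left)) (a (i, j) (i', j))
    have k2 := key (i', j) (i', j') (i, j) (i', j') (le_inf inf_le_right inf_le_right) le_rfl
      (le_inf (by
        rw [prodOpen_inf]
        exact prodOpen_mono pX pY inf_le_right inf_le_left) inf_le_right) (a (i', j) (i', j'))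
    rw [k1, k2, LinearEquiv.apply_symm_apply]
    have hco := c.cocycle' (i, j) (i', j) (i', j')
      (prodOpen pX pY (U i) (V j) ⊓ prodOpen pX pY (U i') (V j')) inf_le_left
      (by
        show _ ≤ prodOpen pX pY (U i') (V j)
        rw [prodOpen_inf]
        exact prodOpen_mono pX pY inf_le_right inf_le_left) inf_le_right
    rw [res_self] at hco
    exact hco
  -- the `Y`-axis hypothesis
  have hY' : ∃ β : ∀ j, Γ(ZY.left, V j), ∀ j j',
      TensorProduct.map (FX.ev ∘ₗ FX.dg FX.i₀) LinearMap.id (cT FX.i₀ FX.i₀ j j') =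
        1 ⊗ₜ[K] (FY.rl j j' (β j) - FY.rr j j' (β j')) := by
    obtain ⟨b', hb'⟩ := hY
    have hle : ∀ j, V j ≤ sY ⁻¹ᵁ prodOpen pX pY (U i₀) (V j) := fun j =>
      le_preimage_prodOpen_right pX pY x₀ sY hsY1 hsY2 (U i₀) (V j) hi₀
    refine ⟨fun j => res (V j) (hle j) (b' (i₀, j)), fun j j' => ?_⟩
    apply (TensorProduct.lid K _).injective
    rw [TensorProduct.lid_tmul, one_smul]
    -- the left-hand side
    have hle2 : V j ⊓ V j' ≤ sY ⁻¹ᵁ (prodOpen pX pY (U i₀) (V j) ⊓ prodOpen pX pY (U i₀) (V j')) := by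
      rw [Scheme.Hom.preimage_inf]
      exact inf_le_inf (hle j) (hle j')
    have hXs : prodOpen pX pY (U i₀) (V j) ⊓ prodOpen pX pY (U i₀) (V j') ≤ pX.left ⁻¹ᵁ U i₀ :=
      inf_le_left.trans inf_le_left
    have e0 : (FX.ev ∘ₗ FX.dg FX.i₀) =
        (evₐ ZX x₀ hx₀ (U i₀) hi₀).toLinearMap ∘ₗ
          (resₐ ZX (le_inf le_rfl le_rfl : U i₀ ≤ U i₀ ⊓ U i₀)).toLinearMap := rfl
    have e1 : TensorProduct.map (FX.ev ∘ₗ FX.dg FX.i₀) LinearMap.id (cT FX.i₀ FX.i₀ j j') =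
        TensorProduct.map (evₐ ZX x₀ hx₀ (U i₀) hi₀).toLinearMap LinearMap.id
          (TensorProduct.map (resₐ ZX (le_inf le_rfl le_rfl : U i₀ ≤ U i₀ ⊓ U i₀)).toLinearMap
            (resₐ ZY (le_refl (V j ⊓ V j'))).toLinearMap (cT i₀ i₀ j j')) := by
      rw [e0, tmap_tmap, LinearMap.id_comp, resₐ_self]
      rfl
    rw [e1, ← appLE_ψ_right pX pY x₀ hx₀ sY hsY1 hsY2 hXs (hYle (i₀, j) (i₀, j')) hi₀ hle2,
      ← res_ψ pX pY (hXle (i₀, j) (i₀, j')) (hYle (i₀, j) (i₀, j')) hXs (hYle (i₀, j) (i₀, j'))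
        (le_inf le_rfl le_rfl) le_rfl le_rfl, res_self, ← hΨ, LinearEquiv.apply_symm_apply]
    -- now use the coboundary
    have hb := hb' (i₀, j) (i₀, j')
    have hle2' : V j ⊓ V j' ≤ (c.pullback sY).U (i₀, j) ⊓ (c.pullback sY).U (i₀, j') :=
      inf_le_inf (hle j) (hle j')
    have hb2 := congrArg (res (V j ⊓ V j') hle2') hb
    rw [map_sub, res_res, res_res] at hb2
    have e2 : (sY.appLE (prodOpen pX pY (U i₀) (V j) ⊓ prodOpen pX pY (U i₀) (V j')) (V j ⊓ V j')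
        hle2).hom (a (i₀, j) (i₀, j')) = res (V j ⊓ V j') hle2'
          ((c.pullback sY).a (i₀, j) (i₀, j')) := rfl
    rw [e2]
    refine hb2.trans ?_
    show _ = res (V j ⊓ V j') inf_le_left (res (V j) (hle j) (b' (i₀, j))) -
      res (V j ⊓ V j') inf_le_right (res (V j') (hle j') (b' (i₀, j')))
    congr 1
    · exact (res_res _ _ _).symm
    · exact (res_res _ _ _).symm
  -- the `X`-axis hypothesis
  have hX' : ∃ ψ' : ∀ i, Γ(ZX.left, U i), ∀ i i',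
      TensorProduct.map LinearMap.id (FY.ev ∘ₗ FY.dg FY.i₀) (cT i i' FY.i₀ FY.i₀) =
        (FX.rl i i' (ψ' i) - FX.rr i i' (ψ' i')) ⊗ₜ[K] 1 := by
    obtain ⟨b', hb'⟩ := hX
    have hle : ∀ i, U i ≤ sX ⁻¹ᵁ prodOpen pX pY (U i) (V j₀) := fun i =>
      le_preimage_prodOpen_left pX pY y₀ sX hsX1 hsX2 (U i) (V j₀) hj₀
    refine ⟨fun i => res (U i) (hle i) (b' (i, j₀)), fun i i' => ?_⟩
    apply (TensorProduct.rid K _).injective
    rw [TensorProduct.rid_tmul, one_smul]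
    have hle2 : U i ⊓ U i' ≤ sX ⁻¹ᵁ (prodOpen pX pY (U i) (V j₀) ⊓ prodOpen pX pY (U i') (V j₀)) := by
      rw [Scheme.Hom.preimage_inf]
      exact inf_le_inf (hle i) (hle i')
    have hYs : prodOpen pX pY (U i) (V j₀) ⊓ prodOpen pX pY (U i') (V j₀) ≤ pY.left ⁻¹ᵁ V j₀ :=
      inf_le_left.trans inf_le_right
    have e0 : (FY.ev ∘ₗ FY.dg FY.i₀) =
        (evₐ ZY y₀ hy₀ (V j₀) hj₀).toLinearMap ∘ₗ
          (resₐ ZY (le_inf le_rfl le_rfl : V j₀ ≤ V j₀ ⊓ V j₀)).toLinearMap := rfl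
    have e1 : TensorProduct.map LinearMap.id (FY.ev ∘ₗ FY.dg FY.i₀) (cT i i' FY.i₀ FY.i₀) =
        TensorProduct.map LinearMap.id (evₐ ZY y₀ hy₀ (V j₀) hj₀).toLinearMap
          (TensorProduct.map (resₐ ZX (le_refl (U i ⊓ U i'))).toLinearMap
            (resₐ ZY (le_inf le_rfl le_rfl : V j₀ ≤ V j₀ ⊓ V j₀)).toLinearMap (cT i i' j₀ j₀)) := by
      rw [e0, tmap_tmap, LinearMap.id_comp, resₐ_self]
      rfl
    rw [e1, ← appLE_ψ_left pX pY y₀ hy₀ sX hsX1 hsX2 (hXle (i, j₀) (i', j₀)) hYs hj₀ hle2,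
      ← res_ψ pX pY (hXle (i, j₀) (i', j₀)) (hYle (i, j₀) (i', j₀)) (hXle (i, j₀) (i', j₀)) hYs
        le_rfl (le_inf le_rfl le_rfl) le_rfl, res_self, ← hΨ, LinearEquiv.apply_symm_apply]
    have hb := hb' (i, j₀) (i', j₀)
    have hle2' : U i ⊓ U i' ≤ (c.pullback sX).U (i, j₀) ⊓ (c.pullback sX).U (i', j₀) :=
      inf_le_inf (hle i) (hle i')
    have hb2 := congrArg (res (U i ⊓ U i') hle2') hb
    rw [map_sub, res_res, res_res] at hb2
    have e2 : (sX.appLE (prodOpen pX pY (U i) (V j₀) ⊓ prodOpen pX pY (U i') (V j₀)) (U i ⊓ U i')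
        hle2).hom (a (i, j₀) (i', j₀)) = res (U i ⊓ U i') hle2'
          ((c.pullback sX).a (i, j₀) (i', j₀)) := rfl
    rw [e2]
    refine hb2.trans ?_
    show _ = res (U i ⊓ U i') inf_le_left (res (U i) (hle i) (b' (i, j₀))) -
      res (U i ⊓ U i') inf_le_right (res (U i') (hle i') (b' (i', j₀)))
    congr 1
    · exact (res_res _ _ _).symm
    · exact (res_res _ _ _).symm
  -- apply the abstract Künneth lemma
  obtain ⟨e, he⟩ := kunneth_family FX FY cT h1 h2 hY' hX'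
  have hXle₀ : ∀ p : I × J, prodOpen pX pY (U p.1) (V p.2) ≤ pX.left ⁻¹ᵁ U p.1 :=
    fun p => inf_le_left
  have hYle₀ : ∀ p : I × J, prodOpen pX pY (U p.1) (V p.2) ≤ pY.left ⁻¹ᵁ V p.2 :=
    fun p => inf_le_right
  refine ⟨fun p => ψ pX pY (U p.1) (V p.2) _ (hXle₀ p) (hYle₀ p) (e p.1 p.2), fun p q => ?_⟩
  show a p q = _
  have h := congrArg (Ψ p q) (he p.1 q.1 p.2 q.2)
  rw [LinearEquiv.apply_symm_apply, map_sub, hΨ, hΨ] at h
  rw [h]
  congr 1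
  · exact (res_ψ pX pY (hXle₀ p) (hYle₀ p) (hXle p q) (hYle p q) inf_le_left inf_le_left
      inf_le_left (e p.1 p.2)).symm
  · exact (res_ψ pX pY (hXle₀ q) (hYle₀ q) (hXle p q) (hYle p q) inf_le_right inf_le_right
      inf_le_right (e q.1 q.2)).symm

end

end Fermat.Agent.AV
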