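/-
PROJECT AV (S26) — helper3 — [AV3g] **(KI) Künneth injectivity for `Ȟ¹(X ×_K Y, O)`**:
an additive cocycle on `W = X ×_K Y` (`X`, `Y` quasi-compact separated over the field `K`,
`Γ(X, O) = Γ(Y, O) = K`, with rational points) whose pull-backs to the two axes are coboundaries
is a coboundary.  The vanishing of `Ȟ¹` on affine opens enters as the hypothesis `haff`.
-/
import Mathlib
import Fermat.Agent.AV.CUBE_helper3_ProdCover
import Fermat.Agent.AV.CECH_lead_Affine

set_option autoImplicit false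

open AlgebraicGeometry CategoryTheory Limits Opposite TopologicalSpace TensorProduct

universe u

namespace Fermat.Agent.AV

noncomputable section

open ProdSec CubeKunneth

attribute [local instance] ProdSec.algΓ

variable {K : Type u} [Field K]

/-- a product of affine opens is affine. -/
theorem isAffineOpen_prodOpen {ZX ZY ZW : Over (Spec (CommRingCat.of K))}
    (pX : ZW ⟶ ZX) (pY : ZW ⟶ ZY) (H : IsPullback pX.left pY.left ZX.hom ZY.hom)
    {UX : ZX.left.Opens} {UT : ZY.left.Opens} (hUX : IsAffineOpen UX) (hUT : IsAffineOpen UT) :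
    IsAffineOpen (prodOpen pX pY UX UT) := by
  have hUST : UT ≤ ZY.hom ⁻¹ᵁ ⊤ := le_pre_top _ _
  have hUSX : UX ≤ ZX.hom ⁻¹ᵁ ⊤ := le_pre_top _ _
  have : IsAffine (⊤ : (Spec (CommRingCat.of K)).Opens).toScheme := isAffineOpen_top _
  have : IsAffine UT.toScheme := hUT
  have : IsAffine UX.toScheme := hUX
  exact .of_isIso (Scheme.Hom.isPullback_resLE H hUST hUSX
    (UY := prodOpen pX pY UX UT) rfl).isoPullback.hom

/-- a quasi-compact scheme has a finite affine open cover (indexed by a type in `Type u`). -/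
theorem exists_finite_affine_cover (X : Scheme.{u}) [CompactSpace X] :
    ∃ (I : Type u) (_ : Finite I) (U : I → X.Opens), (∀ i, IsAffineOpen (U i)) ∧ ⨆ i, U i = ⊤ := by
  obtain ⟨s, hs, e⟩ := (isCompact_iff_finite_and_eq_biUnion_affineOpens (U := (⊤ : X.Opens))).mp
    (by simpa using isCompact_univ)
  refine ⟨s, hs.to_subtype, fun i => i.1.1, fun i => i.1.2, ?_⟩
  rw [e, iSup_subtype]

/-- the unique point of `Spec K`. -/
theorem top_le_preimage_of_mem {X : Scheme.{u}} (x₀ : Spec (CommRingCat.of K) ⟶ X) (U : X.Opens)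
    (s₀ : Spec (CommRingCat.of K)) (h : x₀ s₀ ∈ U) : ⊤ ≤ x₀ ⁻¹ᵁ U := by
  intro s _
  have : s = s₀ := Subsingleton.elim _ _
  subst this
  exact h

/-- **(KI) Künneth injectivity for `Ȟ¹(X ×_K Y, O)`.** -/
theorem AC.isCobdry_of_axes {X Y W : Scheme.{u}}
    (iX : X ⟶ Spec (CommRingCat.of K)) (iY : Y ⟶ Spec (CommRingCat.of K)) (pX : W ⟶ X) (pY : W ⟶ Y)
    (H : IsPullback pX pY iX iY) [IsSeparated iX] [QuasiCompact iX] [IsSeparated iY]
    [QuasiCompact iY] (hΓX : Function.Surjective iX.appTop.hom)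
    (hΓY : Function.Surjective iY.appTop.hom)
    (x₀ : Spec (CommRingCat.of K) ⟶ X) (hx₀ : x₀ ≫ iX = 𝟙 _)
    (y₀ : Spec (CommRingCat.of K) ⟶ Y) (hy₀ : y₀ ≫ iY = 𝟙 _)
    (sX : X ⟶ W) (hsX1 : sX ≫ pX = 𝟙 X) (hsX2 : sX ≫ pY = iX ≫ y₀)
    (sY : Y ⟶ W) (hsY1 : sY ≫ pY = 𝟙 Y) (hsY2 : sY ≫ pX = iY ≫ x₀)
    (c : AC W) (h1 : (c.pullback sX).IsCobdry) (h2 : (c.pullback sY).IsCobdry) : c.IsCobdry := by
  have : CompactSpace X := (quasiCompact_iff_compactSpace iX).mp inferInstance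
  have : CompactSpace Y := (quasiCompact_iff_compactSpace iY).mp inferInstance
  obtain ⟨I, hI, U, hU, hUcov⟩ := exists_finite_affine_cover X
  obtain ⟨J, hJ, V, hV, hVcov⟩ := exists_finite_affine_cover Y
  -- affine intersections
  have hU₂ : ∀ i i', IsAffineOpen (U i ⊓ U i') := fun i i' =>
    isAffineHom_diagonal_iff.mp (inferInstance : IsAffineHom (pullback.diagonal iX)) ⊤
      (isAffineOpen_top _) (U i) (le_pre_top _ _) (U i') (le_pre_top _ _) (hU i) (hU i')
  have hV₂ : ∀ j j', IsAffineOpen (V j ⊓ V j') := fun j j' =>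
    isAffineHom_diagonal_iff.mp (inferInstance : IsAffineHom (pullback.diagonal iY)) ⊤
      (isAffineOpen_top _) (V j) (le_pre_top _ _) (V j') (le_pre_top _ _) (hV j) (hV j')
  -- the rational points lie in some chart
  let s₀ : Spec (CommRingCat.of K) := (Nonempty.some inferInstance)
  obtain ⟨i₀, hi₀'⟩ : ∃ i₀, x₀ s₀ ∈ U i₀ := by
    have : x₀ s₀ ∈ (⨆ i, U i : X.Opens) := by rw [hUcov]; trivial
    simpa [Opens.mem_iSup] using this
  obtain ⟨j₀, hj₀'⟩ : ∃ j₀, y₀ s₀ ∈ V j₀ := by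
    have : y₀ s₀ ∈ (⨆ j, V j : Y.Opens) := by rw [hVcov]; trivial
    simpa [Opens.mem_iSup] using this
  have hi₀ := top_le_preimage_of_mem x₀ (U i₀) s₀ hi₀'
  have hj₀ := top_le_preimage_of_mem y₀ (V j₀) s₀ hj₀'
  -- objects over `Spec K`
  let ZX : Over (Spec (CommRingCat.of K)) := Over.mk iX
  let ZY : Over (Spec (CommRingCat.of K)) := Over.mk iY
  let ZW : Over (Spec (CommRingCat.of K)) := Over.mk (pX ≫ iX)
  let pXo : ZW ⟶ ZX := Over.homMk pX rfl
  let pYo : ZW ⟶ ZY := Over.homMk pY H.w.symm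
  have Ho : IsPullback pXo.left pYo.left ZX.hom ZY.hom := H
  have hΓX' : Function.Surjective (algebraMap K Γ(ZX.left, ⊤)) := by
    intro s
    obtain ⟨y, hy⟩ := hΓX s
    obtain ⟨κ, hκ⟩ := (ConcreteCategory.bijective_of_isIso
      (Scheme.ΓSpecIso (CommRingCat.of K)).inv).2 y
    refine ⟨κ, ?_⟩
    show algMap iX ⊤ κ = s
    simp only [algMap, RingHom.comp_apply]
    rw [← hy]
    have : iX.appLE ⊤ ⊤ (le_pre_top iX ⊤) = iX.appTop := by
      rw [Scheme.Hom.appLE, Scheme.Hom.appTop]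
      have : X.presheaf.map (homOfLE (le_pre_top iX ⊤)).op = 𝟙 _ := X.presheaf.map_id _
      rw [this]
      exact Category.comp_id _
    rw [this]
    exact congrArg _ hκ
  have hΓY' : Function.Surjective (algebraMap K Γ(ZY.left, ⊤)) := by
    intro s
    obtain ⟨y, hy⟩ := hΓY s
    obtain ⟨κ, hκ⟩ := (ConcreteCategory.bijective_of_isIso
      (Scheme.ΓSpecIso (CommRingCat.of K)).inv).2 y
    refine ⟨κ, ?_⟩
    show algMap iY ⊤ κ = s
    simp only [algMap, RingHom.comp_apply]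
    rw [← hy]
    have : iY.appLE ⊤ ⊤ (le_pre_top iY ⊤) = iY.appTop := by
      rw [Scheme.Hom.appLE, Scheme.Hom.appTop]
      have : Y.presheaf.map (homOfLE (le_pre_top iY ⊤)).op = 𝟙 _ := Y.presheaf.map_id _
      rw [this]
      exact Category.comp_id _
    rw [this]
    exact congrArg _ hκ
  -- the product cover
  have hWcov : ⨆ p : I × J, prodOpen pXo pYo (U p.1) (V p.2) = ⊤ := by
    rw [eq_top_iff]
    intro w _
    obtain ⟨i, hi⟩ : ∃ i, pX w ∈ U i := by
      have : pX w ∈ (⨆ i, U i : X.Opens) := by rw [hUcov]; trivial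
      simpa [Opens.mem_iSup] using this
    obtain ⟨j, hj⟩ : ∃ j, pY w ∈ V j := by
      have : pY w ∈ (⨆ j, V j : Y.Opens) := by rw [hVcov]; trivial
      simpa [Opens.mem_iSup] using this
    exact Opens.mem_iSup.mpr ⟨(i, j), ⟨hi, hj⟩⟩
  have haffW : ∀ p : I × J, IsAffineOpen (prodOpen pXo pYo (U p.1) (V p.2)) := fun p =>
    isAffineOpen_prodOpen pXo pYo Ho (hU p.1) (hV p.2)
  obtain ⟨a', hcoc, hcoh⟩ := c.exists_cohom_of_cover (I × J)
    (fun p => prodOpen pXo pYo (U p.1) (V p.2)) hWcov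
    (fun p => c.isCobdryOn_of_isAffineOpen _ (haffW p))
  refine hcoh.isCobdry ?_
  refine prodCover_isCobdry pXo pYo Ho U V hU₂ hV₂ hUcov hVcov hΓX' hΓY' x₀ hx₀ i₀ hi₀ y₀ hy₀ j₀ hj₀
    sX hsX1 hsX2 sY hsY1 hsY2 hWcov a' hcoc ?_ ?_
  · exact (hcoh.symm.pullback sX).isCobdry h1
  · exact (hcoh.symm.pullback sY).isCobdry h2

end

end Fermat.Agent.AV
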