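/-
AV3 / CUBE step 2c (helper7): **openness of the triviality locus** (Mumford §10).
`Y = X ×_K T`, `T` affine, `L : LB Y` with a universal `H⁰`-presentation (helper8).  If `L` is
trivial on all infinitesimal neighbourhoods `X × Spec (B/𝔪ⁿ)` of the fibre over a `K`-point `z`,
then `L` is trivial over `pr₂⁻¹ V` for an open neighbourhood `V` of `z`
(Cramer's rule + Krull's intersection theorem).
-/
import Mathlib
import Fermat.Agent.AV.SEESAW_helper1_Main

set_option autoImplicit false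

open AlgebraicGeometry CategoryTheory Limits Opposite TopologicalSpace

universe u w

namespace Fermat.Agent.AV

noncomputable section

open Matrix

section ThickAlg

variable {B : Type*} [CommRing B]

/-- An element outside a maximal ideal `𝔪` is a unit modulo every power of `𝔪`. -/
theorem isUnit_mk_pow_of_notMem (𝔪 : Ideal B) [h𝔪 : 𝔪.IsMaximal] {c : B} (hc : c ∉ 𝔪) (n : ℕ) :
    IsUnit (Ideal.Quotient.mk (𝔪 ^ n) c) := by
  obtain ⟨y, i, hi, hyi⟩ := h𝔪.exists_inv hc
  have hnil : IsNilpotent (Ideal.Quotient.mk (𝔪 ^ n) i) := by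
    refine ⟨n, ?_⟩
    rw [← map_pow, Ideal.Quotient.eq_zero_iff_mem]
    exact Ideal.pow_mem_pow hi n
  have h1 : Ideal.Quotient.mk (𝔪 ^ n) y * Ideal.Quotient.mk (𝔪 ^ n) c =
      1 - Ideal.Quotient.mk (𝔪 ^ n) i := by
    rw [← map_mul, ← map_one (Ideal.Quotient.mk (𝔪 ^ n)), ← map_sub]
    congr 1
    rw [← hyi]; ring
  have h2 : IsUnit (Ideal.Quotient.mk (𝔪 ^ n) y * Ideal.Quotient.mk (𝔪 ^ n) c) := by
    rw [h1]
    exact hnil.isUnit_one_sub
  exact isUnit_of_mul_isUnit_right h2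

/-- **Cramer + Krull.**  Let `d` be a matrix over a noetherian ring `B`, `𝔪` a maximal ideal with
residue map `t`, such that the fibre kernel of `d` at `𝔪` is a line, and such that for every `n ≥ 1`
the matrix `d` has, over a ring `R n` "between `B` and `B/𝔪ⁿ`", a kernel vector with a unit
coordinate.  Then `d` has a GLOBAL kernel vector which does not vanish at `𝔪`. -/
theorem exists_global_kernel_vector_of_thickenings [IsNoetherianRing B] (𝔪 : Ideal B)
    [h𝔪 : 𝔪.IsMaximal] {k : Type*} [Field k] (t : B →+* k) (ht : RingHom.ker t = 𝔪)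
    {n₁ n₀ : ℕ} (d : Matrix (Fin n₁) (Fin n₀) B)
    (h1 : Module.finrank k (fibKer d t) = 1)
    {R : ℕ → Type w} [∀ n, CommRing (R n)] (π : ∀ n, B →+* R n)
    (hker : ∀ n, 1 ≤ n → ∀ b, π n b = 0 → b ∈ 𝔪 ^ n)
    (hunit : ∀ n, 1 ≤ n → ∀ b, b ∉ 𝔪 → IsUnit (π n b))
    (hx : ∀ n, 1 ≤ n → ∃ x : Fin n₀ → R n, (d.map (π n)) *ᵥ x = 0 ∧ ∃ i, IsUnit (x i)) :
    ∃ (v : Fin n₀ → B) (j : Fin n₀), d *ᵥ v = 0 ∧ t (v j) ≠ 0 := by
  classical
  cases n₀ with
  | zero =>
    exfalso
    have h := finrank_fibKer_add_rank d t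
    rw [h1] at h
    omega
  | succ s =>
    have hrank : (d.map t).rank = s := by
      have h := finrank_fibKer_add_rank d t
      rw [h1] at h
      omega
    rcases Nat.eq_zero_or_pos n₁ with hn | hn
    · subst hn
      refine ⟨fun _ => 1, 0, ?_, by simp⟩
      funext i
      exact i.elim0
    · obtain ⟨f, j, hj⟩ := exists_crossVec_ne_zero (d.map t) hrank.ge hn
      rw [← map_crossVec] at hj
      have hc : crossVec d f j ∉ 𝔪 := by
        rw [← ht, RingHom.mem_ker]
        exact hj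
      -- all coordinates of `d *ᵥ crossVec d f` lie in `⋂ 𝔪ⁿ`
      have hmem : ∀ (i : Fin n₁) (n : ℕ), (d *ᵥ crossVec d f) i ∈ 𝔪 ^ n := by
        intro i n
        rcases Nat.eq_zero_or_pos n with h0 | hpos
        · subst h0; simp
        · apply hker n hpos
          obtain ⟨x, hx0, a, ha⟩ := hx n hpos
          have hcu : IsUnit (crossVec (d.map (π n)) f j) := by
            rw [← map_crossVec]
            exact hunit n hpos _ hc
          have h0 := mulVec_crossVec_eq_zero_of_kernel_vector (d.map (π n)) f hx0 ha hcu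
          have h2 : (π n) ((d *ᵥ crossVec d f) i) =
              ((d.map (π n)) *ᵥ crossVec (d.map (π n)) f) i := by
            have hfun : crossVec (d.map (π n)) f = (π n) ∘ crossVec d f := by
              funext a
              exact (map_crossVec (π n) d f a).symm
            rw [hfun, RingHom.map_mulVec]
          rw [h2, h0]
          rfl
      choose g hg hg0 using fun i =>
        exists_notMem_mul_eq_zero_of_mem_iInf_pow 𝔪 h𝔪.ne_top (hmem i)
      have hprime : 𝔪.IsPrime := h𝔪.isPrime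
      have hh : ∏ i, g i ∉ 𝔪 := by
        intro hmem'
        obtain ⟨i, -, hi⟩ := (hprime.prod_mem_iff).mp hmem'
        exact hg i hi
      refine ⟨(∏ i, g i) • crossVec d f, j, ?_, ?_⟩
      · rw [mulVec_smul]
        funext i
        simp only [Pi.smul_apply, smul_eq_mul, Pi.zero_apply]
        rw [← Finset.mul_prod_erase Finset.univ g (Finset.mem_univ i), mul_comm (g i), mul_assoc,
          hg0 i, mul_zero]
      · simp only [Pi.smul_apply, smul_eq_mul, map_mul]
        refine mul_ne_zero ?_ hj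
        intro h0
        apply hh
        rw [← ht, RingHom.mem_ker]
        exact h0

end ThickAlg

section ThickHom

variable {T : Scheme.{u}} [IsAffine T]

/-- the closed immersion `Spec (Γ(T,⊤)/q) ⟶ T` of an affine scheme. -/
def thickHom (q : Ideal Γ(T, ⊤)) : Spec (CommRingCat.of (Γ(T, ⊤) ⧸ q)) ⟶ T :=
  Spec.map (CommRingCat.ofHom (Ideal.Quotient.mk q)) ≫ T.isoSpec.inv

theorem isoSpec_inv_appTop_eq : T.isoSpec.inv.appTop = (Scheme.ΓSpecIso Γ(T, ⊤)).inv := by
  have h : T.isoSpec.hom.appTop ≫ T.isoSpec.inv.appTop = 𝟙 _ := by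
    rw [← Scheme.Hom.comp_appTop, Iso.inv_hom_id]
    rfl
  rw [Scheme.isoSpec_hom, Scheme.toSpecΓ_appTop] at h
  exact Iso.inv_ext' h

theorem thickHom_appTop (q : Ideal Γ(T, ⊤)) (b : Γ(T, ⊤)) :
    (thickHom q).appTop.hom b =
      (Scheme.ΓSpecIso (CommRingCat.of (Γ(T, ⊤) ⧸ q))).inv.hom (Ideal.Quotient.mk q b) := by
  have h2 : (thickHom q).appTop =
      CommRingCat.ofHom (Ideal.Quotient.mk q) ≫
        (Scheme.ΓSpecIso (CommRingCat.of (Γ(T, ⊤) ⧸ q))).inv := by
    unfold thickHom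
    rw [Scheme.Hom.comp_appTop, isoSpec_inv_appTop_eq, Scheme.ΓSpecIso_inv_naturality]
    rfl
  rw [h2]
  rfl

theorem thickHom_appTop_surjective (q : Ideal Γ(T, ⊤)) :
    Function.Surjective (thickHom q).appTop.hom := by
  intro r
  obtain ⟨b, hb⟩ := Ideal.Quotient.mk_surjective
    ((Scheme.ΓSpecIso (CommRingCat.of (Γ(T, ⊤) ⧸ q))).hom.hom r)
  refine ⟨b, ?_⟩
  rw [thickHom_appTop, hb]
  exact Iso.hom_inv_id_apply (Scheme.ΓSpecIso (CommRingCat.of (Γ(T, ⊤) ⧸ q))) r

theorem thickHom_appTop_eq_zero_iff (q : Ideal Γ(T, ⊤)) (b : Γ(T, ⊤)) :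
    (thickHom q).appTop.hom b = 0 ↔ b ∈ q := by
  rw [thickHom_appTop, ← Ideal.Quotient.eq_zero_iff_mem]
  constructor
  · intro h
    have h2 := congrArg (Scheme.ΓSpecIso (CommRingCat.of (Γ(T, ⊤) ⧸ q))).hom.hom h
    rw [map_zero] at h2
    rw [← h2]
    exact (Iso.inv_hom_id_apply (Scheme.ΓSpecIso (CommRingCat.of (Γ(T, ⊤) ⧸ q))) _).symm
  · intro h
    rw [h, map_zero]

end ThickHom

section KPoint

variable {K : Type u} [Field K] {T : Scheme.{u}} [IsAffine T]

/-- the `K`-point of `Spec (Γ(T,⊤)/q)` lifting a `K`-point `z` of `T` whose maximal ideal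
contains `q`. -/
def thickPt (z : Spec (CommRingCat.of K) ⟶ T) (q : Ideal Γ(T, ⊤))
    (hq : q ≤ RingHom.ker (CP.evalAt z)) :
    Spec (CommRingCat.of K) ⟶ Spec (CommRingCat.of (Γ(T, ⊤) ⧸ q)) :=
  Spec.map (CommRingCat.ofHom (Ideal.Quotient.lift q (CP.evalAt z) (fun _ hb => hq hb)))

theorem thickPt_comp (z : Spec (CommRingCat.of K) ⟶ T) (q : Ideal Γ(T, ⊤))
    (hq : q ≤ RingHom.ker (CP.evalAt z)) : thickPt z q hq ≫ thickHom q = z := by
  unfold thickPt thickHom
  rw [← Category.assoc, ← Spec.map_comp]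
  have h : CommRingCat.ofHom (Ideal.Quotient.mk q) ≫
      CommRingCat.ofHom (Ideal.Quotient.lift q (CP.evalAt z) (fun _ hb => hq hb)) =
      z.appTop ≫ (Scheme.ΓSpecIso (CommRingCat.of K)).hom := by
    ext b
    rfl
  rw [h, Spec.map_comp, Category.assoc, Scheme.isoSpec_inv_naturality, Scheme.isoSpec_Spec_inv,
    ← Category.assoc, ← Spec.map_comp, Iso.inv_hom_id, Spec.map_id, Category.id_comp]

omit [IsAffine T] in
/-- `evalAt z b = 0` iff `z^* b = 0`. -/
theorem evalAt_eq_zero_iff (z : Spec (CommRingCat.of K) ⟶ T) (b : Γ(T, ⊤)) :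
    CP.evalAt z b = 0 ↔ z.appTop.hom b = 0 := by
  constructor
  · intro h
    have h2 := congrArg (Scheme.ΓSpecIso (CommRingCat.of K)).inv.hom h
    rw [map_zero] at h2
    rw [← h2]
    exact (Iso.hom_inv_id_apply (Scheme.ΓSpecIso (CommRingCat.of K)) _).symm
  · intro h
    show (Scheme.ΓSpecIso (CommRingCat.of K)).hom.hom (z.appTop.hom b) = 0
    rw [h, map_zero]

end KPoint

section Geom

variable {K : Type u} [Field K] {X T Y : Scheme.{u}}
  {iX : X ⟶ Spec (CommRingCat.of K)} {f : T ⟶ Spec (CommRingCat.of K)} {g : Y ⟶ X} {iY : Y ⟶ T}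

/-- **(B)** a trivialisation of `L` over the thickening `X × Spec (Γ(T,⊤)/q)` gives a kernel
vector of the base-changed matrix which does not vanish at the `K`-point. -/
theorem exists_kernel_vector_of_isTrivial_thick (H : IsPullback g iY iX f) [IsAffine T]
    [Nonempty X] (L : LB Y) (PU : CP.H0UnivPresentation iY L)
    (z : Spec (CommRingCat.of K) ⟶ T) (hz : z ≫ f = 𝟙 _) (q : Ideal Γ(T, ⊤))
    (hq : q ≤ RingHom.ker (CP.evalAt z))
    (htriv : (L.pullback (pullback.fst iY (thickHom q))).IsTrivial) :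
    ∃ x : Fin PU.n₀ → Γ(Spec (CommRingCat.of (Γ(T, ⊤) ⧸ q)), ⊤),
      (PU.d.map (thickHom q).appTop.hom) *ᵥ x = 0 ∧
        ∃ i, (thickPt z q hq).appTop.hom (x i) ≠ 0 := by
  have H' : IsPullback (pullback.fst iY (thickHom q)) (pullback.snd iY (thickHom q)) iY
      (thickHom q) := IsPullback.of_hasPullback iY (thickHom q)
  obtain ⟨τ, hτ⟩ := htriv
  have hT' : IsAffine (Spec (CommRingCat.of (Γ(T, ⊤) ⧸ q))) := inferInstance
  refine ⟨(PU.e _ _ _ hT' H' τ : Fin PU.n₀ → _), ?_, ?_⟩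
  · have h := (PU.e _ _ _ hT' H' τ).2
    rwa [LinearMap.mem_ker, Matrix.mulVecLin_apply] at h
  · by_contra hcon
    push Not at hcon
    have hzq : thickPt z q hq ≫ thickHom q = z := thickPt_comp z q hq
    have hcond : fibreIncl H z hz ≫ iY = (iX ≫ thickPt z q hq) ≫ thickHom q := by
      rw [fibreIncl_snd, Category.assoc, hzq]
    let χ : X ⟶ pullback iY (thickHom q) :=
      pullback.lift (fibreIncl H z hz) (iX ≫ thickPt z q hq) hcond
    have hχ1 : χ ≫ pullback.fst iY (thickHom q) = fibreIncl H z hz := pullback.lift_fst _ _ _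
    have hχ2 : χ ≫ pullback.snd iY (thickHom q) = iX ≫ thickPt z q hq := pullback.lift_snd _ _ _
    have Hbig : IsPullback (χ ≫ pullback.fst iY (thickHom q)) iX iY
        (thickPt z q hq ≫ thickHom q) := by
      rw [hχ1, hzq]
      exact isPullback_fibre H z hz _ (fibreIncl_fst H z hz) (fibreIncl_snd H z hz)
    have H'' : IsPullback χ iX (pullback.snd iY (thickHom q)) (thickPt z q hq) :=
      IsPullback.of_right Hbig hχ2 H'
    have hK : IsAffine (Spec (CommRingCat.of K)) := inferInstance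
    have hcomp := PU.e_comp _ _ _ hT' H' _ _ _ hK H'' τ
    let σ' : (L.pullback (χ ≫ pullback.fst iY (thickHom q))).H0 :=
      (L.pullback (pullback.fst iY (thickHom q))).pullbackSection χ τ
    have h0 : PU.e _ _ _ hK (H''.paste_horiz H') σ' = 0 := by
      apply Subtype.ext
      funext a
      rw [hcomp a]
      exact hcon a
    have h1 : σ' = 0 :=
      (PU.e _ _ _ hK (H''.paste_horiz H')).injective (by rw [h0, map_zero])
    have hu : ∀ i, IsUnit (σ'.1 i) := fun i => (hτ i).map _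
    exact LB.ne_zero_of_isUnit σ' hu h1

/-- **(C)** if `L` is trivial on the fibre over the `K`-point `z`, the fibre kernel of a universal
presentation at `z` is a line. -/
theorem finrank_fibKer_univ_eq_one_of_isTrivial [IsAlgClosed K] [IsProper iX] [IsIntegral X]
    (H : IsPullback g iY iX f) {L : LB Y} (PU : CP.H0UnivPresentation iY L)
    (z : Spec (CommRingCat.of K) ⟶ T) (hz : z ≫ f = 𝟙 _)
    (htriv : (L.pullback (fibreIncl H z hz)).IsTrivial) :
    Module.finrank K (fibKer PU.d (CP.evalAt z)) = 1 := by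
  show Module.finrank K (LinearMap.ker (PU.d.map (CP.evalAt z)).mulVecLin) = 1
  have Hj : IsPullback (fibreIncl H z hz) iX iY z :=
    isPullback_fibre H z hz _ (fibreIncl_fst H z hz) (fibreIncl_snd H z hz)
  have hK : IsAffine (Spec (CommRingCat.of K)) := inferInstance
  set E := PU.e z iX (fibreIncl H z hz) hK Hj with hE
  obtain ⟨τ, hτ⟩ := htriv
  have hτ0 : τ ≠ 0 := LB.ne_zero_of_isUnit τ hτ
  set γ : Γ(Spec (CommRingCat.of K), ⊤) →+* K := (Scheme.ΓSpecIso (CommRingCat.of K)).hom.hom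
    with hγ
  set γi : K →+* Γ(Spec (CommRingCat.of K), ⊤) := (Scheme.ΓSpecIso (CommRingCat.of K)).inv.hom
    with hγi
  have hγγi : ∀ c, γ (γi c) = c := fun c =>
    Iso.inv_hom_id_apply (Scheme.ΓSpecIso (CommRingCat.of K)) c
  have hγiγ : ∀ r, γi (γ r) = r := fun r =>
    Iso.hom_inv_id_apply (Scheme.ΓSpecIso (CommRingCat.of K)) r
  have hγinj : Function.Injective γ := fun a b hab => by
    rw [← hγiγ a, ← hγiγ b, hab]
  have hmap : PU.d.map (CP.evalAt z) = (PU.d.map z.appTop.hom).map γ := by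
    ext a b
    rfl
  -- transport of kernel vectors
  have hfwd : ∀ x : Fin PU.n₀ → Γ(Spec (CommRingCat.of K), ⊤),
      (PU.d.map z.appTop.hom) *ᵥ x = 0 → (PU.d.map (CP.evalAt z)) *ᵥ (γ ∘ x) = 0 := by
    intro x hx
    funext i
    rw [hmap, ← RingHom.map_mulVec, hx]
    exact map_zero γ
  have hbwd : ∀ x : Fin PU.n₀ → Γ(Spec (CommRingCat.of K), ⊤),
      (PU.d.map (CP.evalAt z)) *ᵥ (γ ∘ x) = 0 → (PU.d.map z.appTop.hom) *ᵥ x = 0 := by
    intro x hx
    funext i
    apply hγinj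
    rw [RingHom.map_mulVec, ← hmap, hx]
    exact (map_zero γ).symm
  have hEτ : (PU.d.map z.appTop.hom) *ᵥ (E τ : Fin PU.n₀ → _) = 0 := by
    have h := (E τ).2
    rwa [LinearMap.mem_ker, Matrix.mulVecLin_apply] at h
  have hv₀mem : γ ∘ (E τ : Fin PU.n₀ → _) ∈
      LinearMap.ker (PU.d.map (CP.evalAt z)).mulVecLin := by
    rw [LinearMap.mem_ker, Matrix.mulVecLin_apply]
    exact hfwd _ hEτ
  have hv0 : (⟨_, hv₀mem⟩ : LinearMap.ker (PU.d.map (CP.evalAt z)).mulVecLin) ≠ 0 := by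
    intro h
    apply hτ0
    apply E.injective
    rw [map_zero]
    apply Subtype.ext
    funext a
    apply hγinj
    have h2 := congrFun (congrArg Subtype.val h) a
    refine h2.trans ?_
    exact (map_zero γ).symm
  have hspan : ∀ w : LinearMap.ker (PU.d.map (CP.evalAt z)).mulVecLin,
      ∃ c : K, w = c • (⟨_, hv₀mem⟩ : LinearMap.ker (PU.d.map (CP.evalAt z)).mulVecLin) := by
    intro w
    have hwx : γ ∘ (γi ∘ (w : Fin PU.n₀ → K)) = (w : Fin PU.n₀ → K) := by
      funext a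
      exact hγγi _
    have hw : (PU.d.map (CP.evalAt z)) *ᵥ (w : Fin PU.n₀ → K) = 0 := by
      have h := w.2
      rwa [LinearMap.mem_ker, Matrix.mulVecLin_apply] at h
    have hx : γi ∘ (w : Fin PU.n₀ → K) ∈ LinearMap.ker (PU.d.map z.appTop.hom).mulVecLin := by
      rw [LinearMap.mem_ker, Matrix.mulVecLin_apply]
      apply hbwd
      rw [hwx]
      exact hw
    obtain ⟨r, hr⟩ := LB.exists_smul_eq_of_isUnit τ hτ (E.symm ⟨_, hx⟩)
    obtain ⟨c, rfl⟩ := constMap_surjective (iX := iX) r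
    refine ⟨c, ?_⟩
    have h1 := congrArg E hr
    rw [AddEquiv.apply_symm_apply] at h1
    have h2 := PU.e_smul z iX (fibreIncl H z hz) hK Hj (γi c) τ
    apply Subtype.ext
    funext a
    have h3 := congrFun (congrArg Subtype.val h1) a
    have h4 : γi ((w : Fin PU.n₀ → K) a) = γi c * (E τ : Fin PU.n₀ → _) a :=
      h3.trans (congrFun h2 a)
    show (w : Fin PU.n₀ → K) a = c * γ ((E τ : Fin PU.n₀ → _) a)
    rw [← hγγi ((w : Fin PU.n₀ → K) a), h4, map_mul, hγγi]
  have htop : (⊤ : Submodule K (LinearMap.ker (PU.d.map (CP.evalAt z)).mulVecLin)) =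
      K ∙ (⟨_, hv₀mem⟩ : LinearMap.ker (PU.d.map (CP.evalAt z)).mulVecLin) := by
    rw [eq_comm, eq_top_iff]
    intro w _
    obtain ⟨c, hc⟩ := hspan w
    rw [Submodule.mem_span_singleton]
    exact ⟨c, hc.symm⟩
  rw [← finrank_top (R := K), htop]
  exact finrank_span_singleton hv0

/-- **(D)** a global kernel vector which does not vanish at the `K`-point `z` trivialises `L` over
`pr₂⁻¹ V` for an open neighbourhood `V` of `z` (if `L` is trivial on the fibre over `z`). -/
theorem exists_isTrivialOn_of_kernel_vector [IsProper iX] [IsIntegral X]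
    (H : IsPullback g iY iX f) [IsAffine T] (L : LB Y) (PU : CP.H0UnivPresentation iY L)
    (z : Spec (CommRingCat.of K) ⟶ T) (hz : z ≫ f = 𝟙 _)
    (htriv : (L.pullback (fibreIncl H z hz)).IsTrivial)
    (v : Fin PU.n₀ → Γ(T, ⊤)) (hv : PU.d *ᵥ v = 0) (j₀ : Fin PU.n₀)
    (hj₀ : CP.evalAt z (v j₀) ≠ 0) :
    ∃ V : T.Opens, z (ptK K) ∈ V ∧ L.IsTrivialOn (iY ⁻¹ᵁ V) := by
  have hT : IsAffine T := inferInstance
  have H1 : IsPullback (𝟙 Y) iY iY (𝟙 T) := IsPullback.id_horiz iY
  have hid : PU.d.map (Scheme.Hom.appTop (𝟙 T)).hom = PU.d := by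
    ext a b
    simp
  have hvmem : v ∈ LinearMap.ker (PU.d.map (Scheme.Hom.appTop (𝟙 T)).hom).mulVecLin := by
    rw [LinearMap.mem_ker, Matrix.mulVecLin_apply, hid]
    exact hv
  set σ := (PU.e (𝟙 T) iY (𝟙 Y) hT H1).symm ⟨v, hvmem⟩ with hσdef
  have Hj : IsPullback (fibreIncl H z hz) iX iY z :=
    isPullback_fibre H z hz _ (fibreIncl_fst H z hz) (fibreIncl_snd H z hz)
  have hK : IsAffine (Spec (CommRingCat.of K)) := inferInstance
  have hcomp := PU.e_comp (𝟙 T) iY (𝟙 Y) hT H1 z iX (fibreIncl H z hz) hK Hj σ j₀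
  let σ' : (L.pullback (fibreIncl H z hz ≫ 𝟙 Y)).H0 :=
    (L.pullback (𝟙 Y)).pullbackSection (fibreIncl H z hz) σ
  have hσ : σ' ≠ 0 := by
    intro h0
    have h1 : PU.e (z ≫ 𝟙 T) iX (fibreIncl H z hz ≫ 𝟙 Y) hK (Hj.paste_horiz H1) σ' = 0 := by
      rw [h0, map_zero]
    have h2 : (PU.e (𝟙 T) iY (𝟙 Y) hT H1) σ = ⟨v, hvmem⟩ := AddEquiv.apply_symm_apply _ _
    have h3 : (0 : Γ(Spec (CommRingCat.of K), ⊤)) = z.appTop.hom (v j₀) := by
      have h4 := hcomp
      rw [h2] at h4
      rw [← h4]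
      exact (congrFun (congrArg Subtype.val h1) j₀).symm
    exact hj₀ ((evalAt_eq_zero_iff z (v j₀)).mpr h3.symm)
  have htriv' : ((L.pullback (𝟙 Y)).pullback (fibreIncl H z hz)).IsTrivial := by
    rw [LB.pullback_comp, LB.pullback_congr L (Category.comp_id _)]
    exact htriv
  obtain ⟨V, hV1, -, hV3⟩ := LB.isTrivialOn_of_fibre H (L.pullback (𝟙 Y)) σ z hz
    (fibreIncl H z hz) (fibreIncl_fst H z hz) (fibreIncl_snd H z hz) htriv' hσ
  refine ⟨V, hV1 ⟨_, rfl⟩, ?_⟩
  refine LB.isTrivialOn_of_isOpenImmersion (𝟙 Y) (iY ⁻¹ᵁ V) ?_ hV3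
  intro y _
  exact ⟨y, rfl⟩

/-- **Openness of the triviality locus (Mumford §10, step 2c).**  `Y = X ×_K T` with `X` proper
integral over the algebraically closed field `K` and `T` affine of finite type; `L` a line bundle
on `Y` with a universal `H⁰`-presentation, `z` a `K`-point of `T` with maximal ideal `𝔪`.  If `L`
becomes trivial on `Y ×_T T'` for every affine `T' ⟶ T` such that `Γ(T, ⊤) → Γ(T', ⊤)` is
surjective with kernel between some power `𝔪ⁿ` (`n ≥ 1`) and `𝔪`, then `L` is trivial over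
`pr₂⁻¹ V` for an open neighbourhood `V` of `z`. -/
theorem exists_isTrivialOn_of_thickenings' [IsAlgClosed K] [IsProper iX] [IsIntegral X]
    (H : IsPullback g iY iX f) [IsAffine T] [LocallyOfFiniteType f] (L : LB Y)
    (PU : CP.H0UnivPresentation iY L) (z : Spec (CommRingCat.of K) ⟶ T) (hz : z ≫ f = 𝟙 _)
    (hthick : ∀ n, 1 ≤ n → ∀ (T' Y' : Scheme.{u}) (φ : T' ⟶ T) (p₂' : Y' ⟶ T') (ψ : Y' ⟶ Y),
      IsAffine T' → IsPullback ψ p₂' iY φ → Function.Surjective φ.appTop.hom →
      (RingHom.ker (CP.evalAt z)) ^ n ≤ RingHom.ker φ.appTop.hom →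
      RingHom.ker φ.appTop.hom ≤ RingHom.ker (CP.evalAt z) → (L.pullback ψ).IsTrivial) :
    ∃ V : T.Opens, z (ptK K) ∈ V ∧ L.IsTrivialOn (iY ⁻¹ᵁ V) := by
  have hN : IsNoetherianRing Γ(T, ⊤) := by
    have : IsLocallyNoetherian T := LocallyOfFiniteType.isLocallyNoetherian f
    exact IsLocallyNoetherian.component_noetherian ⟨⊤, isAffineOpen_top T⟩
  -- `z^*` is surjective, so `𝔪` is maximal
  have hzf : ∀ r : Γ(Spec (CommRingCat.of K), ⊤), z.appTop.hom (f.appTop.hom r) = r := by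
    intro r
    have h := congrArg Scheme.Hom.appTop hz
    rw [Scheme.Hom.comp_appTop] at h
    exact congrArg (fun k => k.hom r) h
  have hzsurj : Function.Surjective z.appTop.hom := fun r => ⟨_, hzf r⟩
  have hsurj : Function.Surjective (CP.evalAt z) := by
    intro c
    refine ⟨f.appTop.hom ((Scheme.ΓSpecIso (CommRingCat.of K)).inv.hom c), ?_⟩
    show (Scheme.ΓSpecIso (CommRingCat.of K)).hom.hom (z.appTop.hom (f.appTop.hom _)) = c
    rw [hzf]
    exact Iso.inv_hom_id_apply (Scheme.ΓSpecIso (CommRingCat.of K)) c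
  have hmax : (RingHom.ker (CP.evalAt z)).IsMaximal :=
    RingHom.ker_isMaximal_of_surjective _ hsurj
  have hkerz : RingHom.ker z.appTop.hom = RingHom.ker (CP.evalAt z) := by
    ext b
    rw [RingHom.mem_ker, RingHom.mem_ker, evalAt_eq_zero_iff]
  -- the fibre over `z` is the first thickening
  have Hj : IsPullback (fibreIncl H z hz) iX iY z :=
    isPullback_fibre H z hz _ (fibreIncl_fst H z hz) (fibreIncl_snd H z hz)
  have htriv : (L.pullback (fibreIncl H z hz)).IsTrivial := by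
    refine hthick 1 le_rfl _ _ z iX (fibreIncl H z hz) inferInstance Hj hzsurj ?_ ?_
    · rw [pow_one, hkerz]
    · rw [hkerz]
  have h1 := finrank_fibKer_univ_eq_one_of_isTrivial H PU z hz htriv
  obtain ⟨v, j₀, hv, hj₀⟩ := exists_global_kernel_vector_of_thickenings
    (RingHom.ker (CP.evalAt z)) (CP.evalAt z) rfl PU.d h1
    (R := fun n => Γ(Spec (CommRingCat.of (Γ(T, ⊤) ⧸ (RingHom.ker (CP.evalAt z)) ^ n)), ⊤))
    (fun n => (thickHom ((RingHom.ker (CP.evalAt z)) ^ n)).appTop.hom)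
    (fun n _ b hb => (thickHom_appTop_eq_zero_iff _ b).mp hb)
    (fun n _ b hb => by
      rw [thickHom_appTop]
      exact (isUnit_mk_pow_of_notMem _ hb n).map _)
    (fun n hn => by
      have hq : (RingHom.ker (CP.evalAt z)) ^ n ≤ RingHom.ker (CP.evalAt z) :=
        Ideal.pow_le_self (by omega)
      have hkern : RingHom.ker (thickHom ((RingHom.ker (CP.evalAt z)) ^ n)).appTop.hom =
          (RingHom.ker (CP.evalAt z)) ^ n := by
        ext b
        rw [RingHom.mem_ker, thickHom_appTop_eq_zero_iff]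
      have htn : (L.pullback (pullback.fst iY
          (thickHom ((RingHom.ker (CP.evalAt z)) ^ n)))).IsTrivial :=
        hthick n hn _ _ (thickHom ((RingHom.ker (CP.evalAt z)) ^ n)) (pullback.snd _ _)
          (pullback.fst _ _) inferInstance (IsPullback.of_hasPullback _ _)
          (thickHom_appTop_surjective _) hkern.ge (hkern.le.trans hq)
      obtain ⟨x, hx0, i, hxi⟩ := exists_kernel_vector_of_isTrivial_thick H L PU z hz _ hq htn
      refine ⟨x, hx0, i, ?_⟩
      obtain ⟨b, hb⟩ := thickHom_appTop_surjective _ (x i)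
      have hbm : b ∉ RingHom.ker (CP.evalAt z) := by
        intro hbm
        apply hxi
        rw [← hb]
        have h2 : (thickPt z _ hq).appTop.hom
            ((thickHom ((RingHom.ker (CP.evalAt z)) ^ n)).appTop.hom b) = z.appTop.hom b := by
          have h3 := congrArg Scheme.Hom.appTop (thickPt_comp z _ hq)
          rw [Scheme.Hom.comp_appTop] at h3
          exact congrArg (fun k => k.hom b) h3
        rw [h2]
        exact (evalAt_eq_zero_iff z b).mp hbm
      rw [← hb, thickHom_appTop]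
      exact (isUnit_mk_pow_of_notMem _ hbm n).map _)
  exact exists_isTrivialOn_of_kernel_vector H L PU z hz htriv v hv j₀ hj₀

/-- Variant of `exists_isTrivialOn_of_thickenings'` with the hypothesis on ALL affine `T' ⟶ T`
whose ring map is surjective and kills a power of `𝔪`. -/
theorem exists_isTrivialOn_of_thickenings [IsAlgClosed K] [IsProper iX] [IsIntegral X]
    (H : IsPullback g iY iX f) [IsAffine T] [LocallyOfFiniteType f] (L : LB Y)
    (PU : CP.H0UnivPresentation iY L) (z : Spec (CommRingCat.of K) ⟶ T) (hz : z ≫ f = 𝟙 _)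
    (hthick : ∀ n, 1 ≤ n → ∀ (T' Y' : Scheme.{u}) (φ : T' ⟶ T) (p₂' : Y' ⟶ T') (ψ : Y' ⟶ Y),
      IsAffine T' → IsPullback ψ p₂' iY φ →
      (∀ b ∈ (RingHom.ker (CP.evalAt z)) ^ n, φ.appTop.hom b = 0) →
      Function.Surjective φ.appTop.hom → (L.pullback ψ).IsTrivial) :
    ∃ V : T.Opens, z (ptK K) ∈ V ∧ L.IsTrivialOn (iY ⁻¹ᵁ V) :=
  exists_isTrivialOn_of_thickenings' H L PU z hz
    (fun n hn T' Y' φ p₂' ψ hT' H' hsurj hle _ =>
      hthick n hn T' Y' φ p₂' ψ hT' H' (fun _ hb => hle hb) hsurj)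

end Geom

end

end Fermat.Agent.AV
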