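/-
AV (helper1): **the theorem of the cube** (Mumford §10) in cocycle form, assembled from
* the seesaw skeleton `isTrivial_of_open_locus` (closed + open + connected),
* 2b `isTrivial_of_infinitesimal` with helper3's (EX) `thickExact_of_isPullback` and (KI)
  `AC.isCobdry_of_axes` plugged in,
* 2c (openness from the infinitesimal neighbourhoods; helper7's
  `exists_isTrivialOn_of_thickenings'`), first as the hypothesis `Open2c`, then plugged in: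
  **`theorem_of_the_cube`**.
-/
import Mathlib
import Fermat.Agent.AV.CUBE_helper1_Artin
import Fermat.Agent.AV.CUBE_helper1_Skeleton
import Fermat.Agent.AV.CUBE_helper3_Exact
import Fermat.Agent.AV.CUBE_helper3_KI
import Fermat.Agent.AV.CUBE_helper7_Open

set_option autoImplicit false

open AlgebraicGeometry CategoryTheory Limits Opposite TopologicalSpace

universe u

namespace Fermat.Agent.AV

noncomputable section

variable {K : Type u} [Field K]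

/-- pull-back of a trivial bundle is trivial. -/
theorem LB.IsTrivial.pullback {X Z : Scheme.{u}} {M : LB X} (h : M.IsTrivial) (f : Z ⟶ X) :
    (M.pullback f).IsTrivial := by
  obtain ⟨s, hs⟩ := h
  exact ⟨M.pullbackSection f s, fun i => (hs i).map _⟩

/-- a bundle trivial over an open `O` pulls back to a trivial bundle along a morphism landing
in `O`. -/
theorem LB.IsTrivialOn.pullback_isTrivial {X Z : Scheme.{u}} {M : LB X} {O : X.Opens}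
    (h : M.IsTrivialOn O) (f : Z ⟶ X) (hf : f ⁻¹ᵁ O = ⊤) : (M.pullback f).IsTrivial := by
  obtain ⟨σ, hσ⟩ := h
  rw [← LB.isTrivialOn_top_iff]
  refine ⟨(σ.pullback f).restrict (by rw [hf]), fun i => ?_⟩
  have h1 : IsUnit (appInf f (M.U i) O (σ.s i)) := (hσ i).map _
  exact isUnit_res _ h1

/-- **2b with (EX) and (KI) plugged in.** -/
theorem isTrivial_of_infinitesimal' [IsAlgClosed K] {X Y W : Scheme.{u}}
    (iX : X ⟶ Spec (CommRingCat.of K)) (iY : Y ⟶ Spec (CommRingCat.of K))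
    [IsProper iX] [IsIntegral X] [IsProper iY] [IsIntegral Y]
    {pX : W ⟶ X} {pY : W ⟶ Y} (HW : IsPullback pX pY iX iY)
    (x₀ : Spec (CommRingCat.of K) ⟶ X) (hx₀ : x₀ ≫ iX = 𝟙 _)
    (y₀ : Spec (CommRingCat.of K) ⟶ Y) (hy₀ : y₀ ≫ iY = 𝟙 _)
    {T P : Scheme.{u}} [IsAffine T] (iT : T ⟶ Spec (CommRingCat.of K))
    [IsNoetherianRing Γ(T, ⊤)]
    {p₁ : P ⟶ W} {p₂ : P ⟶ T} (H : IsPullback p₁ p₂ (pX ≫ iX) iT)
    (z : Spec (CommRingCat.of K) ⟶ T) (hz : z ≫ iT = 𝟙 _) (L : LB P)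
    (hLz : ∀ {Z : Scheme.{u}} (f : Z ⟶ P), f ≫ p₂ = (f ≫ p₂ ≫ iT) ≫ z →
      (L.pullback f).IsTrivial)
    (hLX : ∀ {Z : Scheme.{u}} (f : Z ⟶ P), f ≫ p₁ ≫ pY = (f ≫ p₁ ≫ pX ≫ iX) ≫ y₀ →
      (L.pullback f).IsTrivial)
    (hLY : ∀ {Z : Scheme.{u}} (f : Z ⟶ P), f ≫ p₁ ≫ pX = (f ≫ p₁ ≫ pY ≫ iY) ≫ x₀ →
      (L.pullback f).IsTrivial)
    (n : ℕ) {T' Y' : Scheme.{u}} [IsAffine T'] (φ : T' ⟶ T) (p₂' : Y' ⟶ T') (ψ : Y' ⟶ P)
    (H' : IsPullback ψ p₂' p₂ φ) (hφsurj : Function.Surjective φ.appTop.hom)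
    (hn : (RingHom.ker (CP.evalAt z)) ^ n ≤ RingHom.ker φ.appTop.hom)
    (hle : RingHom.ker φ.appTop.hom ≤ RingHom.ker (CP.evalAt z)) :
    (L.pullback ψ).IsTrivial := by
  refine isTrivial_of_infinitesimal iX iY HW x₀ hx₀ y₀ hy₀ iT H z hz ?_ ?_ L hLz hLX hLY n φ p₂' ψ
    H' hφsurj hn hle
  · intro S S₁ _ _ iS iS₁ π hπ ε hε hε2 hπε hsurj hker V VR VR₁ iV qV qS HV qV₁ qS₁ HV₁ jV h1 h2
    exact thickExact_of_isPullback iV iS iS₁ π hπ HV HV₁ jV h1 h2 ε hε hε2 hπε hsurj hker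
  · intro sX h1 h2 sY h3 h4 c hcX hcY
    exact AC.isCobdry_of_axes iX iY pX pY HW (bijective_appTop_of_isProper iX).2
      (bijective_appTop_of_isProper iY).2 x₀ hx₀ y₀ hy₀ sX h1 h2 sY h3 h4 c hcX hcY

/-- triviality on the fibre over a `K`-point `t` gives triviality of every pull-back along a
morphism landing in that fibre. -/
theorem isTrivial_of_fibre_isTrivial {X T Y : Scheme.{u}} {iX : X ⟶ Spec (CommRingCat.of K)}
    {f : T ⟶ Spec (CommRingCat.of K)} {g : Y ⟶ X} {iY : Y ⟶ T} (H : IsPullback g iY iX f)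
    (t : Spec (CommRingCat.of K) ⟶ T) (ht : t ≫ f = 𝟙 _) (L : LB Y)
    (h : (L.pullback (fibreIncl H t ht)).IsTrivial) {Z : Scheme.{u}} (φ : Z ⟶ Y)
    (hφ : φ ≫ iY = (φ ≫ iY ≫ f) ≫ t) : (L.pullback φ).IsTrivial := by
  have e : φ = (φ ≫ g) ≫ fibreIncl H t ht := by
    apply H.hom_ext
    · rw [Category.assoc, fibreIncl_fst, Category.comp_id]
    · rw [Category.assoc, fibreIncl_snd, hφ, ← H.w]
      simp only [Category.assoc]
  rw [LB.pullback_congr L e, ← LB.pullback_comp]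
  exact h.pullback _

/-- the statement of step 2c (openness of the triviality locus from the infinitesimal
neighbourhoods), for the proper `K`-scheme `W`. -/
def Open2c (K : Type u) [Field K] {W : Scheme.{u}} (iW : W ⟶ Spec (CommRingCat.of K)) : Prop :=
  ∀ {T₀ P₀ : Scheme.{u}} [IsAffine T₀] (iT₀ : T₀ ⟶ Spec (CommRingCat.of K))
    [LocallyOfFiniteType iT₀] {q₁ : P₀ ⟶ W} {q₂ : P₀ ⟶ T₀} (_ : IsPullback q₁ q₂ iW iT₀)
    (L₀ : LB P₀) (_ : CP.H0UnivPresentation q₂ L₀) (z : Spec (CommRingCat.of K) ⟶ T₀)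
    (_ : z ≫ iT₀ = 𝟙 _),
    (∀ n : ℕ, ∀ (T' Y' : Scheme.{u}) (φ : T' ⟶ T₀) (p₂' : Y' ⟶ T') (ψ : Y' ⟶ P₀), IsAffine T' →
      IsPullback ψ p₂' q₂ φ → Function.Surjective φ.appTop.hom →
      (RingHom.ker (CP.evalAt z)) ^ n ≤ RingHom.ker φ.appTop.hom →
      RingHom.ker φ.appTop.hom ≤ RingHom.ker (CP.evalAt z) → (L₀.pullback ψ).IsTrivial) →
    ∃ V : T₀.Opens, z (ptK K) ∈ V ∧ L₀.IsTrivialOn (q₂ ⁻¹ᵁ V)

/-- **THE THEOREM OF THE CUBE** (given step 2c). -/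
theorem theorem_of_the_cube_of_open2c [IsAlgClosed K] {X Y W T P : Scheme.{u}}
    (iX : X ⟶ Spec (CommRingCat.of K)) (iY : Y ⟶ Spec (CommRingCat.of K))
    [IsProper iX] [IsIntegral X] [IsProper iY] [IsIntegral Y]
    {pX : W ⟶ X} {pY : W ⟶ Y} (HW : IsPullback pX pY iX iY) [IsIntegral W]
    (hW1 : CP.HasH0Presentations (pX ≫ iX)) (hW2 : CP.HasH0UnivPresentations (pX ≫ iX))
    (h2c : Open2c K (pX ≫ iX))
    (x₀ : Spec (CommRingCat.of K) ⟶ X) (hx₀ : x₀ ≫ iX = 𝟙 _)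
    (y₀ : Spec (CommRingCat.of K) ⟶ Y) (hy₀ : y₀ ≫ iY = 𝟙 _)
    (iT : T ⟶ Spec (CommRingCat.of K)) [LocallyOfFiniteType iT] [ConnectedSpace T] [IsReduced T]
    {p₁ : P ⟶ W} {p₂ : P ⟶ T} (H : IsPullback p₁ p₂ (pX ≫ iX) iT)
    (z₀ : Spec (CommRingCat.of K) ⟶ T) (hz₀ : z₀ ≫ iT = 𝟙 _) (L : LB P)
    (hLz : ∀ {Z : Scheme.{u}} (f : Z ⟶ P), f ≫ p₂ = (f ≫ p₂ ≫ iT) ≫ z₀ →
      (L.pullback f).IsTrivial)
    (hLX : ∀ {Z : Scheme.{u}} (f : Z ⟶ P), f ≫ p₁ ≫ pY = (f ≫ p₁ ≫ pX ≫ iX) ≫ y₀ →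
      (L.pullback f).IsTrivial)
    (hLY : ∀ {Z : Scheme.{u}} (f : Z ⟶ P), f ≫ p₁ ≫ pX = (f ≫ p₁ ≫ pY ≫ iY) ≫ x₀ →
      (L.pullback f).IsTrivial) : L.IsTrivial := by
  have : IsProper pX := MorphismProperty.of_isPullback (P := @IsProper) HW.flip inferInstance
  have : IsProper (pX ≫ iX) := inferInstance
  -- the section through `(x₀, y₀)`
  let w₀ : Spec (CommRingCat.of K) ⟶ W := HW.lift x₀ y₀ (by rw [hx₀, hy₀])
  have hw₀X : w₀ ≫ pX = x₀ := HW.lift_fst _ _ _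
  have hw₀Y : w₀ ≫ pY = y₀ := HW.lift_snd _ _ _
  let s : T ⟶ P := H.lift (iT ≫ w₀) (𝟙 T)
    (by rw [Category.assoc, ← Category.assoc w₀, hw₀X, hx₀, Category.comp_id, Category.id_comp])
  have hs1 : s ≫ p₁ = iT ≫ w₀ := H.lift_fst _ _ _
  have hs : s ≫ p₂ = 𝟙 T := H.lift_snd _ _ _
  have hsL : (L.pullback s).IsTrivial := by
    apply hLX
    have e1 : s ≫ p₁ ≫ pY = iT ≫ y₀ := by rw [← Category.assoc, hs1, Category.assoc, hw₀Y]
    have e2 : s ≫ p₁ ≫ pX ≫ iX = iT := by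
      rw [← Category.assoc, hs1, Category.assoc, ← Category.assoc w₀, hw₀X, hx₀, Category.comp_id]
    rw [e1, e2]
  have h₀ : (L.pullback (fibreIncl H z₀ hz₀)).IsTrivial := by
    apply hLz
    have e1 : fibreIncl H z₀ hz₀ ≫ p₂ = (pX ≫ iX) ≫ z₀ := fibreIncl_snd H z₀ hz₀
    have e2 : fibreIncl H z₀ hz₀ ≫ p₂ ≫ iT = pX ≫ iX := by
      rw [← Category.assoc, e1, Category.assoc, hz₀, Category.comp_id]
    rw [e1, e2]
  refine isTrivial_of_open_locus hW1 H L z₀ hz₀ h₀ ?_ s hs hsL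
  -- openness of the triviality locus
  intro t ht hLt
  obtain ⟨V₀, hV₀, htV₀⟩ := exists_isAffineOpen_mem T (t (ptK K))
  have : IsAffine V₀.toScheme := hV₀
  have H₀ := isPullback_restrict H V₀
  obtain ⟨t', rfl⟩ := exists_kpoint_lift V₀ t htV₀
  have ht' : t' ≫ V₀.ι ≫ iT = 𝟙 _ := by rw [← Category.assoc]; exact ht
  obtain ⟨PU⟩ := hW2 (V₀.ι ≫ iT) _ _ H₀ inferInstance (L.pullback (p₂ ⁻¹ᵁ V₀).ι)
  have : IsLocallyNoetherian T := LocallyOfFiniteType.isLocallyNoetherian iT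
  have hnoeth : IsNoetherianRing Γ(V₀.toScheme, ⊤) :=
    IsLocallyNoetherian.component_noetherian ⟨⊤, isAffineOpen_top V₀.toScheme⟩
  have hLt' : ((L.pullback (p₂ ⁻¹ᵁ V₀).ι).pullback (fibreIncl H₀ t' ht')).IsTrivial := by
    rw [LB.pullback_comp, LB.pullback_congr L (fibreIncl_restrict H V₀ t' ht')]
    exact hLt
  obtain ⟨V, htV, hV⟩ := h2c (V₀.ι ≫ iT) H₀ (L.pullback (p₂ ⁻¹ᵁ V₀).ι) PU t' ht'
    (fun n T' Y' φ p₂' ψ hT' H' hsurj hn hle => by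
      have := hT'
      refine isTrivial_of_infinitesimal' iX iY HW x₀ hx₀ y₀ hy₀ (V₀.ι ≫ iT) H₀ t' ht'
        (L.pullback (p₂ ⁻¹ᵁ V₀).ι) ?_ ?_ ?_ n φ p₂' ψ H' hsurj hn hle
      · intro Z f hf
        exact isTrivial_of_fibre_isTrivial H₀ t' ht' _ hLt' f hf
      · intro Z f hf
        rw [LB.pullback_comp]
        apply hLX
        simpa only [Category.assoc] using hf
      · intro Z f hf
        rw [LB.pullback_comp]
        apply hLY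
        simpa only [Category.assoc] using hf)
  -- back to `T`
  have hle : V₀.ι ''ᵁ V ≤ V₀ := by
    have := V₀.ι.image_le_opensRange V
    rwa [Scheme.Opens.opensRange_ι] at this
  have hLtriv : L.IsTrivialOn (p₂ ⁻¹ᵁ (V₀.ι ''ᵁ V)) := by
    refine LB.isTrivialOn_of_isOpenImmersion (p₂ ⁻¹ᵁ V₀).ι (p₂ ⁻¹ᵁ (V₀.ι ''ᵁ V)) ?_ ?_
    · rw [Scheme.Opens.opensRange_ι]
      exact p₂.preimage_mono hle
    · have e : (p₂ ⁻¹ᵁ V₀).ι ⁻¹ᵁ (p₂ ⁻¹ᵁ (V₀.ι ''ᵁ V)) = (p₂ ∣_ V₀) ⁻¹ᵁ V := by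
        rw [← Scheme.Hom.comp_preimage, ← morphismRestrict_ι, Scheme.Hom.comp_preimage,
          V₀.ι.preimage_image_eq]
      rw [e]
      exact hV
  refine ⟨V₀.ι ''ᵁ V, ⟨t' (ptK K), htV, rfl⟩, ?_⟩
  intro t'' ht'' hmem
  refine hLtriv.pullback_isTrivial (fibreIncl H t'' ht'') ?_
  rw [← Scheme.Hom.comp_preimage, fibreIncl_snd, Scheme.Hom.comp_preimage]
  have h1 : t'' ⁻¹ᵁ (V₀.ι ''ᵁ V) = ⊤ := by
    apply top_le_iff.mp
    intro x _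
    have hx : t'' x ∈ Set.range t'' := ⟨x, rfl⟩
    rw [range_kpoint, Set.mem_singleton_iff] at hx
    show t'' x ∈ V₀.ι ''ᵁ V
    rw [hx]
    exact hmem
  rw [h1]
  rfl

/-- step 2c holds (helper7). -/
theorem open2c_of_isProper [IsAlgClosed K] {W : Scheme.{u}} (iW : W ⟶ Spec (CommRingCat.of K))
    [IsProper iW] [IsIntegral W] : Open2c K iW := by
  intro T₀ P₀ _ iT₀ _ q₁ q₂ H₀ L₀ PU z hz hthick
  exact exists_isTrivialOn_of_thickenings' H₀ L₀ PU z hz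
    (fun n _ T' Y' φ p₂' ψ hT' H' hs hn hle => hthick n T' Y' φ p₂' ψ hT' H' hs hn hle)

/-- **THE THEOREM OF THE CUBE.**  `K` algebraically closed, `X`, `Y` proper integral `K`-schemes
with `K`-points `x₀`, `y₀`, `W = X ×_K Y` integral (with `H⁰`-presentations), `T` connected reduced
locally of finite type over `K` with a `K`-point `z₀`, `P = W ×_K T`.  A line bundle on `P` whose
restrictions to `{z₀} × W`, `X × {y₀} × T` and `{x₀} × Y × T` are trivial is trivial. -/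
theorem theorem_of_the_cube [IsAlgClosed K] {X Y W T P : Scheme.{u}}
    (iX : X ⟶ Spec (CommRingCat.of K)) (iY : Y ⟶ Spec (CommRingCat.of K))
    [IsProper iX] [IsIntegral X] [IsProper iY] [IsIntegral Y]
    {pX : W ⟶ X} {pY : W ⟶ Y} (HW : IsPullback pX pY iX iY) [IsIntegral W]
    (hW1 : CP.HasH0Presentations (pX ≫ iX)) (hW2 : CP.HasH0UnivPresentations (pX ≫ iX))
    (x₀ : Spec (CommRingCat.of K) ⟶ X) (hx₀ : x₀ ≫ iX = 𝟙 _)
    (y₀ : Spec (CommRingCat.of K) ⟶ Y) (hy₀ : y₀ ≫ iY = 𝟙 _)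
    (iT : T ⟶ Spec (CommRingCat.of K)) [LocallyOfFiniteType iT] [ConnectedSpace T] [IsReduced T]
    {p₁ : P ⟶ W} {p₂ : P ⟶ T} (H : IsPullback p₁ p₂ (pX ≫ iX) iT)
    (z₀ : Spec (CommRingCat.of K) ⟶ T) (hz₀ : z₀ ≫ iT = 𝟙 _) (L : LB P)
    (hLz : ∀ {Z : Scheme.{u}} (f : Z ⟶ P), f ≫ p₂ = (f ≫ p₂ ≫ iT) ≫ z₀ →
      (L.pullback f).IsTrivial)
    (hLX : ∀ {Z : Scheme.{u}} (f : Z ⟶ P), f ≫ p₁ ≫ pY = (f ≫ p₁ ≫ pX ≫ iX) ≫ y₀ →
      (L.pullback f).IsTrivial)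
    (hLY : ∀ {Z : Scheme.{u}} (f : Z ⟶ P), f ≫ p₁ ≫ pX = (f ≫ p₁ ≫ pY ≫ iY) ≫ x₀ →
      (L.pullback f).IsTrivial) : L.IsTrivial := by
  have : IsProper pX := MorphismProperty.of_isPullback (P := @IsProper) HW.flip inferInstance
  have : IsProper (pX ≫ iX) := inferInstance
  exact theorem_of_the_cube_of_open2c iX iY HW hW1 hW2 (open2c_of_isProper (pX ≫ iX)) x₀ hx₀ y₀ hy₀
    iT H z₀ hz₀ L hLz hLX hLY

end

end Fermat.Agent.AV
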