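/-
PROJECT AV (S26) — helper3 — [AV3 → AV3a] **bridge**: the geometric theorem of the cube (in the
shape of helper1's `theorem_of_the_cube`, for `T :=` first factor, `W := A ⊗ A`, `P := A ⊗ (A ⊗ A)`)
gives the formal `CubeFormal.CubeProperty (PicOver (Spec K)) A` used by `CUBE_helper3_Formal`
(`[n]^*L = n² L` for symmetric `L`).
-/
import Mathlib
import Fermat.Agent.AV.LB_helper5_Pic
import Fermat.Agent.AV.CUBE_helper3_Formal

set_option autoImplicit false
set_option linter.unusedSectionVars false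

open AlgebraicGeometry CategoryTheory Limits Opposite MonoidalCategory CartesianMonoidalCategory
  MonObj

universe u

namespace Fermat.Agent.AV

noncomputable section

namespace CubeBridge

/-! ### factorisation through the faces, in any cartesian monoidal category -/

section formal

universe v' u'

variable {C : Type u'} [Category.{v'} C] [CartesianMonoidalCategory C] [BraidedCategory C]
  (A : C) [GrpObj A] [IsCommMonObj A]

open CubeFormal

theorem comp_triple {X Y : C} (k : Y ⟶ X) (f g h : X ⟶ A) :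
    k ≫ triple A f g h = triple A (k ≫ f) (k ≫ g) (k ≫ h) := by
  simp only [triple, comp_lift]

theorem eq_triple {Z : C} (f : Z ⟶ A ⊗ (A ⊗ A)) :
    f = triple A (f ≫ fst A (A ⊗ A)) (f ≫ snd A (A ⊗ A) ≫ fst A A)
      (f ≫ snd A (A ⊗ A) ≫ snd A A) := by
  apply CartesianMonoidalCategory.hom_ext
  · simp [triple]
  · apply CartesianMonoidalCategory.hom_ext <;> simp [triple]

/-- a point with first coordinate `1` lies on the face `(1, a, b)`. -/
theorem factor_face₁ {Z : C} (f : Z ⟶ A ⊗ (A ⊗ A)) (h : f ≫ fst A (A ⊗ A) = 1) :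
    f = (f ≫ snd A (A ⊗ A)) ≫ triple A (1 : A ⊗ A ⟶ A) (fst A A) (snd A A) := by
  rw [comp_triple, comp_one, Category.assoc, Category.assoc]
  conv_lhs => rw [eq_triple A f, h]

/-- a point with second coordinate `1` lies on the face `(a, 1, b)`. -/
theorem factor_face₂ {Z : C} (f : Z ⟶ A ⊗ (A ⊗ A)) (h : f ≫ snd A (A ⊗ A) ≫ fst A A = 1) :
    f = lift (f ≫ fst A (A ⊗ A)) (f ≫ snd A (A ⊗ A) ≫ snd A A) ≫
      triple A (fst A A) (1 : A ⊗ A ⟶ A) (snd A A) := by
  rw [comp_triple, comp_one, lift_fst, lift_snd]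
  conv_lhs => rw [eq_triple A f, h]

/-- a point with third coordinate `1` lies on the face `(a, b, 1)`. -/
theorem factor_face₃ {Z : C} (f : Z ⟶ A ⊗ (A ⊗ A)) (h : f ≫ snd A (A ⊗ A) ≫ snd A A = 1) :
    f = lift (f ≫ fst A (A ⊗ A)) (f ≫ snd A (A ⊗ A) ≫ fst A A) ≫
      triple A (fst A A) (snd A A) (1 : A ⊗ A ⟶ A) := by
  rw [comp_triple, comp_one, lift_fst, lift_snd]
  conv_lhs => rw [eq_triple A f, h]

end formal

/-! ### the bridge -/

variable {K : Type u} [Field K] (A : Over (Spec (CommRingCat.of K))) [GrpObj A] [IsCommMonObj A]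

open CubeFormal

/-- a scheme morphism into `(A ⊗ (A ⊗ A)).left`, as a morphism of `K`-schemes. -/
def overHom {Z : Scheme.{u}} (f : Z ⟶ (A ⊗ (A ⊗ A)).left) :
    Over.mk (f ≫ (A ⊗ (A ⊗ A)).hom) ⟶ A ⊗ (A ⊗ A) :=
  Over.homMk f rfl

theorem pull_apply {X Y : Over (Spec (CommRingCat.of K))} (f : X ⟶ Y) (x : PicGroup Y.left) :
    pull (PicOver (Spec (CommRingCat.of K))) f x = PicGroup.map f.left x := rfl

/-- if the class of `L` dies on a face `τ`, then `L` is trivial on everything which factors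
through the face. -/
theorem isTrivial_pullback_of_factor {X : Over (Spec (CommRingCat.of K))}
    (τ : X ⟶ A ⊗ (A ⊗ A)) (L : LB (A ⊗ (A ⊗ A)).left)
    (hτ : pull (PicOver (Spec (CommRingCat.of K))) τ (PicGroup.mk L) = 0)
    {Z : Scheme.{u}} (f : Z ⟶ (A ⊗ (A ⊗ A)).left)
    (g : Over.mk (f ≫ (A ⊗ (A ⊗ A)).hom) ⟶ X) (hg : overHom A f = g ≫ τ) :
    (L.pullback f).IsTrivial := by
  rw [← PicGroup.mk_eq_zero_iff, ← PicGroup.map_mk]
  have h1 : f = g.left ≫ τ.left := congrArg (fun k => k.left) hg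
  rw [h1, PicGroup.map_comp]
  have hτ' : PicGroup.map τ.left (PicGroup.mk L) = 0 := hτ
  rw [hτ', map_zero]

/-- **the bridge**: the geometric theorem of the cube (hypothesis `hcube`, the shape of
`theorem_of_the_cube` for `T := A`, `W := A ⊗ A`, `P := A ⊗ (A ⊗ A)`, `p₁ := snd`, `p₂ := fst`,
`x₀ = y₀ = z₀ = η`) implies the formal cube property of `PicOver (Spec K)`. -/
theorem cubeProperty_of_cube
    (hcube : ∀ L : LB (A ⊗ (A ⊗ A)).left,
      (∀ {Z : Scheme.{u}} (f : Z ⟶ (A ⊗ (A ⊗ A)).left),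
        f ≫ pullback.fst A.hom (A ⊗ A).hom =
          (f ≫ pullback.fst A.hom (A ⊗ A).hom ≫ A.hom) ≫ η[A].left → (L.pullback f).IsTrivial) →
      (∀ {Z : Scheme.{u}} (f : Z ⟶ (A ⊗ (A ⊗ A)).left),
        f ≫ pullback.snd A.hom (A ⊗ A).hom ≫ pullback.snd A.hom A.hom =
          (f ≫ pullback.snd A.hom (A ⊗ A).hom ≫ pullback.fst A.hom A.hom ≫ A.hom) ≫ η[A].left →
          (L.pullback f).IsTrivial) →
      (∀ {Z : Scheme.{u}} (f : Z ⟶ (A ⊗ (A ⊗ A)).left),
        f ≫ pullback.snd A.hom (A ⊗ A).hom ≫ pullback.fst A.hom A.hom =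
          (f ≫ pullback.snd A.hom (A ⊗ A).hom ≫ pullback.snd A.hom A.hom ≫ A.hom) ≫ η[A].left →
          (L.pullback f).IsTrivial) →
      L.IsTrivial) :
    CubeProperty (PicOver (Spec (CommRingCat.of K))) A := by
  intro x h1 h2 h3
  obtain ⟨L, rfl⟩ := PicGroup.mk_surjective (X := (A ⊗ (A ⊗ A)).left) x
  show PicGroup.mk L = 0
  rw [PicGroup.mk_eq_zero_iff]
  refine hcube L ?_ ?_ ?_
  · -- first coordinate constant: the face `(1, a, b)`
    intro Z f hf
    refine isTrivial_pullback_of_factor A _ L h1 f (overHom A f ≫ snd A (A ⊗ A))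
      (factor_face₁ A (overHom A f) ?_)
    exact Over.OverMorphism.ext hf
  · -- third coordinate constant: the face `(a, b, 1)`
    intro Z f hf
    refine isTrivial_pullback_of_factor A _ L h3 f _ (factor_face₃ A (overHom A f) ?_)
    apply Over.OverMorphism.ext
    refine hf.trans ?_
    congr 1
    have := pullback.condition (f := A.hom) (g := (A ⊗ A).hom)
    show _ = f ≫ pullback.fst A.hom (A ⊗ A).hom ≫ A.hom
    rw [this]
    rfl
  · -- second coordinate constant: the face `(a, 1, b)`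
    intro Z f hf
    refine isTrivial_pullback_of_factor A _ L h2 f _ (factor_face₂ A (overHom A f) ?_)
    apply Over.OverMorphism.ext
    refine hf.trans ?_
    congr 1
    have := pullback.condition (f := A.hom) (g := (A ⊗ A).hom)
    have h' := pullback.condition (f := A.hom) (g := A.hom)
    show _ = f ≫ pullback.fst A.hom (A ⊗ A).hom ≫ A.hom
    rw [this]
    show _ = f ≫ pullback.snd A.hom (A ⊗ A).hom ≫ pullback.fst A.hom A.hom ≫ A.hom
    rw [h']

end CubeBridge

end

end Fermat.Agent.AV
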