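/-
PROJECT AV (S26) — helper3 — [AV3 → AV3a] the formal cube property of `PicOver (Spec K)` for an
abelian variety `A`, from helper1's theorem of the cube (`CUBE_helper1_Main`) through
`CubeBridge.cubeProperty_of_cube`.
-/
import Mathlib
import Fermat.Agent.AV.CUBE_helper3_Bridge
import Fermat.Agent.AV.CUBE_helper1_Main

set_option autoImplicit false

open AlgebraicGeometry CategoryTheory Limits Opposite MonoidalCategory CartesianMonoidalCategory
  MonObj

universe u

namespace Fermat.Agent.AV

noncomputable section

open CubeFormal

/-- the cube property of `Pic` for a proper integral commutative group scheme `A` over an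
algebraically closed field with `A × A` integral, given the `H⁰`-presentations on `A × A` and
step 2c. -/
theorem cubeProperty_picOver_of_open2c {K : Type u} [Field K] [IsAlgClosed K]
    (A : Over (Spec (CommRingCat.of K))) [GrpObj A] [IsCommMonObj A]
    [IsProper A.hom] [IsIntegral A.left] [IsIntegral (A ⊗ A).left]
    (hW1 : CP.HasH0Presentations (A ⊗ A).hom) (hW2 : CP.HasH0UnivPresentations (A ⊗ A).hom)
    (h2c : Open2c K (A ⊗ A).hom) :
    CubeProperty (PicOver (Spec (CommRingCat.of K))) A := by
  apply CubeBridge.cubeProperty_of_cube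
  intro L h1 h2 h3
  have : LocallyOfFiniteType A.hom := inferInstance
  have : IsIntegral (pullback A.hom A.hom) := ‹IsIntegral (A ⊗ A).left›
  exact theorem_of_the_cube_of_open2c A.hom A.hom (IsPullback.of_hasPullback A.hom A.hom)
    hW1 hW2 h2c η[A].left (Over.w η[A]) η[A].left (Over.w η[A]) A.hom
    (IsPullback.of_hasPullback A.hom (A ⊗ A).hom).flip η[A].left (Over.w η[A]) L h1 h2 h3

/-- **the cube property of `Pic`** for a proper integral commutative group scheme `A` over an
algebraically closed field with `A × A` integral, given the `H⁰`-presentations on `A × A`. -/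
theorem cubeProperty_picOver {K : Type u} [Field K] [IsAlgClosed K]
    (A : Over (Spec (CommRingCat.of K))) [GrpObj A] [IsCommMonObj A]
    [IsProper A.hom] [IsIntegral A.left] [IsIntegral (A ⊗ A).left]
    (hW1 : CP.HasH0Presentations (A ⊗ A).hom) (hW2 : CP.HasH0UnivPresentations (A ⊗ A).hom) :
    CubeProperty (PicOver (Spec (CommRingCat.of K))) A := by
  apply CubeBridge.cubeProperty_of_cube
  intro L h1 h2 h3
  have : LocallyOfFiniteType A.hom := inferInstance
  have : IsIntegral (pullback A.hom A.hom) := ‹IsIntegral (A ⊗ A).left›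
  exact theorem_of_the_cube A.hom A.hom (IsPullback.of_hasPullback A.hom A.hom)
    hW1 hW2 η[A].left (Over.w η[A]) η[A].left (Over.w η[A]) A.hom
    (IsPullback.of_hasPullback A.hom (A ⊗ A).hom).flip η[A].left (Over.w η[A]) L h1 h2 h3

/-- `[n]^* x = n² • x` for symmetric classes `x ∈ Pic A`, given the cube property. -/
theorem pull_nmul_of_symm {K : Type u} [Field K]
    (A : Over (Spec (CommRingCat.of K))) [GrpObj A] [IsCommMonObj A]
    (hcube : CubeProperty (PicOver (Spec (CommRingCat.of K))) A)
    (x : (PicOver (Spec (CommRingCat.of K))).obj (op A))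
    (hx : pull (PicOver (Spec (CommRingCat.of K))) (nmul A (-1)) x = x) (n : ℕ) :
    pull (PicOver (Spec (CommRingCat.of K))) (nmul A n) x = (n ^ 2 : ℤ) • x :=
  pull_zpow_of_symm (PicOver (Spec (CommRingCat.of K))) (PicOver_unit_eq_zero K) hcube x hx n

end

end Fermat.Agent.AV
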