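/-
Project AV (S26), helper4: AV6 — the unconditional cube property of `Pic` for an abelian variety
(plug of helper8's producer and helper6's PROD-CONN into helper3's `cubeProperty_picOver`).
-/
import Fermat.Agent.AV.AV0_helper4_NormalScheme
import Fermat.Agent.AV.AV1_helper6_ProdConn
import Fermat.Agent.AV.CUBE_helper3_BridgeMain
import Fermat.Agent.AV.CP_helper8_Final
import Fermat.Agent.AV.CHAIN_helper9_Cube

set_option autoImplicit false
set_option linter.style.haveILetI false
universe u

open CategoryTheory CategoryTheory.Limits AlgebraicGeometry
open MonoidalCategory CartesianMonoidalCategory MonObj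

namespace Fermat.Agent.AV

variable {K : Type u} [Field K]

/-- **Theorem of the cube for abelian varieties, `Pic`-form**: the cube property of the Picard
functor for a proper smooth connected commutative group scheme over an algebraically closed
field. -/
theorem cubeProperty_of_abelian [IsAlgClosed K] (G : Over (Spec (CommRingCat.of K)))
    [GrpObj G] [IsCommMonObj G] [IsProper G.hom] [Smooth G.hom] [ConnectedSpace G.left] :
    CubeFormal.CubeProperty (Chain.PK K) G := by
  haveI : IsIntegral G.left := isIntegral_of_smooth_of_connected G.hom
  haveI : IsIntegral (G ⊗ G).left := isIntegral_tensorObj_left G G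
  haveI : Smooth (G ⊗ G).hom := smooth_tensorObj_hom G G
  haveI : IsProper (G ⊗ G).hom := isProper_tensorObj_hom G G
  exact cubeProperty_picOver G (CP.hasH0Presentations_of_isProper_of_smooth (G ⊗ G).hom)
    (CP.hasH0UnivPresentations_of_isProper_of_smooth (G ⊗ G).hom)

end Fermat.Agent.AV
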