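/-
Project AV (S26), helper4: AV6 — the cover input `hcov` (plug of helper6's `coverCore_nMap`,
helper2's `LB.exists_function_of_pullback_pds`, helper9's `Chain.iso_pullback_nMap_of_symm` and
`CoverCore.toCoverDatum`).

The proof is split into three theorems on purpose: a single term makes the KERNEL unify the two
`Algebra K K(G)` structures behind `pdsOf`/`pdsVia` and time out.
-/
import Fermat.Agent.AV.AV1_helper6_Cover
import Fermat.Agent.AV.AV5_helper2_CoverGlue
import Fermat.Agent.AV.CHAIN_helper9_Cube
import Fermat.Agent.AV.LB_helper5_Pow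

set_option autoImplicit false
set_option linter.style.haveILetI false
universe u

open CategoryTheory CategoryTheory.Limits AlgebraicGeometry Order
open MonoidalCategory CartesianMonoidalCategory MonObj

namespace Fermat.Agent.AV

/-- the pull-back of function fields along an endomorphism, on germs at the generic point. -/
theorem functionFieldMap_ggerm {X : Scheme.{u}} [IsIntegral X] (φ : X ⟶ X)
    (hφ : φ (genericPoint X) = genericPoint X) (U : X.Opens) (hη : genericPoint X ∈ U)
    (hη' : genericPoint X ∈ φ ⁻¹ᵁ U) (a : Γ(X, U)) :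
    (functionFieldMap φ hφ).hom (ggerm U hη a) = ggerm (φ ⁻¹ᵁ U) hη' ((φ.app U).hom a) := by
  haveI : Nonempty U := ⟨⟨_, hη⟩⟩
  haveI : Nonempty (φ ⁻¹ᵁ U) := ⟨⟨_, hη'⟩⟩
  exact ConcreteCategory.congr_hom (germToFunctionField_functionFieldMap φ hφ U) a

variable {K : Type u} [Field K] [IsAlgClosed K] (G : Over (Spec (CommRingCat.of K))) [GrpObj G]
  [IsCommMonObj G] [IsProper G.hom] (g : ℕ) [SmoothOfRelativeDimension g G.hom]
  [ConnectedSpace G.left] [IsIntegral G.left] [IsNoetherian G.left]

include g in
/-- the rational function with divisor `[n^j]^* D − (n²)^j D`, `D = div s`, for a symmetric line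
bundle with section on an abelian variety with the cube property. -/
theorem hcov_function (hcube : CubeFormal.CubeProperty (Chain.PK K) G) (n : ℕ)
    (hn : (n : K) ≠ 0) :
    letI : Algebra K G.left.functionField := functionFieldAlgebra G.hom
    ∀ (hDVR : ∀ z : G.left, coheight z = 1 →
        IsDiscreteValuationRing (G.left.presheaf.stalk z))
      (hK : ∀ c : K, c ≠ 0 → ∀ z : G.left, coheight z = 1 →
        Scheme.ord (algebraMap K G.left.functionField c) z = 0)
      (M : LB G.left) (s : M.H0) (hs : s ≠ 0), Chain.LBIsSymm G M → ∀ j : ℕ,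
      ∃ h : G.left.functionField, h ≠ 0 ∧ ∀ q : {z : G.left // coheight z = 1},
      (schemePDS G.left hDVR hK).ord q h =
        ((((coverCore_nMap G g hDVR n hn j).cover.e q : ℤ) *
          M.pdsDiv G.left hDVR hK s hs ((coverCore_nMap G g hDVR n hn j).cover.push q) -
          (((n ^ 2) ^ j : ℕ) : ℤ) * M.pdsDiv G.left hDVR hK s hs q : ℤ) : WithTop ℤ) := by
  letI : Algebra K G.left.functionField := functionFieldAlgebra G.hom
  intro hDVR hK M s hs hsym j
  have hnj : ((n ^ j : ℕ) : K) ≠ 0 := natCast_pow_ne_zero n hn j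
  have hφ := nMap_genericPoint G g (n ^ j) hnj
  have hN : PicGroup.mk (M.pullback (nMap G (n ^ j)).left) = ((n ^ 2) ^ j) • PicGroup.mk M := by
    have h := Chain.iso_pullback_nMap_of_symm G hcube M hsym (n ^ j)
    rw [(PicGroup.mk_eq_mk_iff _ _).mpr h, LB.mk_pow, ← pow_mul, ← pow_mul, mul_comm]
  exact LB.exists_function_of_pullback_pds G.left hDVR hK M s hs
    (nMap G (n ^ j)).left hφ (functionFieldMap (nMap G (n ^ j)).left hφ).hom
    (fun U hη hη' a => functionFieldMap_ggerm (nMap G (n ^ j)).left hφ U hη hη' a)
    ((n ^ 2) ^ j) hN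
    (fun q : {z : G.left // coheight z = 1} => (coverCore_nMap G g hDVR n hn j).cover.push q)
    (fun q : {z : G.left // coheight z = 1} => coverCore_nMap_push G g hDVR n hn j q)
    (fun q : {z : G.left // coheight z = 1} => (coverCore_nMap G g hDVR n hn j).cover.e q)
    (fun (q : {z : G.left // coheight z = 1}) x hx => coverCore_nMap_ord G g hDVR n hn j q x hx)

include g in
/-- the cover datum of `[n^j]` from a function with the right divisor. -/
theorem hcov_coverDatum (n : ℕ) (hn : (n : K) ≠ 0) :
    letI : Algebra K G.left.functionField := functionFieldAlgebra G.hom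
    ∀ (hDVR : ∀ z : G.left, coheight z = 1 →
        IsDiscreteValuationRing (G.left.presheaf.stalk z))
      (D : {z : G.left // coheight z = 1} → ℤ) (j : ℕ) (N : ℕ)
      (h : G.left.functionField) (_ : h ≠ 0) (_ : ∀ q : {z : G.left // coheight z = 1},
      (pdsOf G.hom hDVR).ord q h =
        ((((coverCore_nMap G g hDVR n hn j).cover.e q : ℤ) *
          D ((coverCore_nMap G g hDVR n hn j).cover.push q) -
          (N : ℤ) * D q : ℤ) : WithTop ℤ)),
        Nonempty (CoverDatum.{u, u, u, u, u} (pdsOf G.hom hDVR) D
          ((nMap G n).left.finrank (genericPoint G.left) ^ j) N) := by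
  letI : Algebra K G.left.functionField := functionFieldAlgebra G.hom
  intro hDVR D j N h hh hdiv
  exact ⟨(coverCore_nMap G g hDVR n hn j).toCoverDatum D N h hh
    (fun q : {z : G.left // coheight z = 1} => hdiv q)⟩

include g in
/-- **`hcov`**: the cover data of `[n^j]` on an abelian variety with the cube property, for a
symmetric line bundle with a nonzero section — the input of `card_torsion_eq_of_hcov`. -/
theorem hcov_of_cube (hcube : CubeFormal.CubeProperty (Chain.PK K) G) (n : ℕ)
    (hn : (n : K) ≠ 0) :
    letI : Algebra K G.left.functionField := functionFieldAlgebra G.hom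
    ∀ (hDVR : ∀ z : G.left, coheight z = 1 →
        IsDiscreteValuationRing (G.left.presheaf.stalk z))
      (hK : ∀ c : K, c ≠ 0 → ∀ z : G.left, coheight z = 1 →
        Scheme.ord (algebraMap K G.left.functionField c) z = 0)
      (M : LB G.left) (s : M.H0) (hs : s ≠ 0), Chain.LBIsSymm G M → ∀ j : ℕ,
        Nonempty (CoverDatum.{u, u, u, u, u} (schemePDS G.left hDVR hK)
          (M.pdsDiv G.left hDVR hK s hs)
          ((nMap G n).left.finrank (genericPoint G.left) ^ j) ((n ^ 2) ^ j)) := by
  letI : Algebra K G.left.functionField := functionFieldAlgebra G.hom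
  intro hDVR hK M s hs hsym j
  obtain ⟨h, hh, hdiv⟩ := hcov_function G g hcube n hn hDVR hK M s hs hsym j
  exact hcov_coverDatum G g n hn hDVR (M.pdsDiv G.left hDVR hK s hs) j ((n ^ 2) ^ j) h hh hdiv

end Fermat.Agent.AV
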