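/-
PROJECT AV (S26) — (SYM) (helper7): **the symmetric divisor package.**

Given a line bundle `M` on a scheme `X` with a section `s` whose non-vanishing locus is an open `U`
(in the `basicOpen` shape `X.basicOpen (s.1 i) = M.U i ⊓ U` of helper5's (7d)), and an involution
`ι` of `X`, the section `s ⊗ ι^* s` of `M ⊗ ι^* M` has non-vanishing locus `U ⊓ ι⁻¹ᵁ U`, which is
affine (`X` separated over an affine base, `U` affine) and non-empty (`X` irreducible).

Specialised to a commutative group object `G` of `Over (Spec K)` with `ι = [−1]` (helper9's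
`Chain.negMap`, `Chain.symmetrize`).
-/
import Mathlib
import Fermat.Agent.AV.CHAIN_helper9_Cube

set_option autoImplicit false

open AlgebraicGeometry CategoryTheory Limits Opposite TopologicalSpace
open MonoidalCategory CartesianMonoidalCategory MonObj

universe u

namespace Fermat.Agent.AV

noncomputable section

namespace LB

variable {X : Scheme.{u}}

/-- non-vanishing locus of a tensor product of sections. -/
theorem basicOpen_tensorSection (M N : LB X) (s : M.H0) (t : N.H0) (U V : X.Opens)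
    (hs : ∀ i, X.basicOpen (s.1 i) = M.U i ⊓ U) (ht : ∀ j, X.basicOpen (t.1 j) = N.U j ⊓ V)
    (p : (M.tensor N).ι) :
    X.basicOpen ((M.tensorSection N s t).1 p) = (M.tensor N).U p ⊓ (U ⊓ V) := by
  obtain ⟨i, j⟩ := p
  show X.basicOpen (res (M.U i ⊓ N.U j) inf_le_left (s.1 i) *
    res (M.U i ⊓ N.U j) inf_le_right (t.1 j)) = (M.U i ⊓ N.U j) ⊓ (U ⊓ V)
  rw [X.basicOpen_mul]
  have h1 : X.basicOpen (res (M.U i ⊓ N.U j) inf_le_left (s.1 i)) =
      (M.U i ⊓ N.U j) ⊓ X.basicOpen (s.1 i) :=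
    X.basicOpen_res (s.1 i) (homOfLE (inf_le_left : M.U i ⊓ N.U j ≤ M.U i)).op
  have h2 : X.basicOpen (res (M.U i ⊓ N.U j) inf_le_right (t.1 j)) =
      (M.U i ⊓ N.U j) ⊓ X.basicOpen (t.1 j) :=
    X.basicOpen_res (t.1 j) (homOfLE (inf_le_right : M.U i ⊓ N.U j ≤ N.U j)).op
  rw [h1, h2, hs, ht]
  apply le_antisymm
  · rintro x ⟨⟨hx1, -, hxU⟩, -, -, hxV⟩
    exact ⟨hx1, hxU, hxV⟩
  · rintro x ⟨hx1, hxU, hxV⟩
    exact ⟨⟨hx1, hx1.1, hxU⟩, hx1, hx1.2, hxV⟩

/-- non-vanishing locus of the pull-back of a section. -/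
theorem basicOpen_pullbackSection {Y : Scheme.{u}} (φ : Y ⟶ X) (M : LB X) (s : M.H0)
    (U : X.Opens) (hs : ∀ i, X.basicOpen (s.1 i) = M.U i ⊓ U) (i : (M.pullback φ).ι) :
    Y.basicOpen ((M.pullbackSection φ s).1 i) = (M.pullback φ).U i ⊓ φ ⁻¹ᵁ U := by
  show Y.basicOpen ((φ.app (M.U i)).hom (s.1 i)) = φ ⁻¹ᵁ M.U i ⊓ φ ⁻¹ᵁ U
  rw [← Scheme.preimage_basicOpen, hs]
  rfl

/-- a section whose non-vanishing locus (in the `basicOpen` shape) is non-empty is non-zero. -/
theorem section_ne_zero_of_nonempty_locus (M : LB X) (s : M.H0) (U : X.Opens) [hU : Nonempty U]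
    (hs : ∀ i, X.basicOpen (s.1 i) = M.U i ⊓ U) : s ≠ 0 := by
  obtain ⟨⟨x, hx⟩⟩ := hU
  have hxt : x ∈ (⊤ : X.Opens) := True.intro
  rw [← M.iSup_U] at hxt
  obtain ⟨i, hi⟩ := Opens.mem_iSup.mp hxt
  intro h0
  have h1 : x ∈ X.basicOpen (s.1 i) := by
    rw [hs]
    exact ⟨hi, hx⟩
  rw [h0] at h1
  have h2 : X.basicOpen ((0 : M.H0).1 i) = ⊥ := X.basicOpen_zero _
  rw [h2] at h1
  exact h1

end LB

section Involution

variable {X : Scheme.{u}}

/-- the symmetrised section `s ⊗ iv^* s` of `M ⊗ iv^* M`. -/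
def LB.symmSection (M : LB X) (iv : X ⟶ X) (s : M.H0) : (M.tensor (M.pullback iv)).H0 :=
  M.tensorSection (M.pullback iv) s (M.pullbackSection iv s)

/-- **(ii)** the non-vanishing locus of `s ⊗ iv^* s` is `U ⊓ iv⁻¹ᵁ U`. -/
theorem LB.basicOpen_symmSection (M : LB X) (iv : X ⟶ X) (s : M.H0) (U : X.Opens)
    (hs : ∀ i, X.basicOpen (s.1 i) = M.U i ⊓ U) (p : (M.tensor (M.pullback iv)).ι) :
    X.basicOpen ((M.symmSection iv s).1 p) = (M.tensor (M.pullback iv)).U p ⊓ (U ⊓ iv ⁻¹ᵁ U) :=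
  LB.basicOpen_tensorSection M (M.pullback iv) s (M.pullbackSection iv s) U (iv ⁻¹ᵁ U) hs
    (LB.basicOpen_pullbackSection iv M s U hs) p

/-- **(iii a)** `U ⊓ iv⁻¹ᵁ U` is affine if `X` is separated over an affine base and `iv` is an
isomorphism. -/
theorem isAffineOpen_inf_preimage {B : Scheme.{u}} [IsAffine B] (iX : X ⟶ B) [IsSeparated iX]
    (iv : X ⟶ X) [IsIso iv] (U : X.Opens) (hU : IsAffineOpen U) : IsAffineOpen (U ⊓ iv ⁻¹ᵁ U) :=
  isAffineHom_diagonal_iff.mp (inferInstance : IsAffineHom (pullback.diagonal iX)) ⊤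
    (isAffineOpen_top _) U le_top (iv ⁻¹ᵁ U) le_top hU (hU.preimage_of_isIso iv)

/-- **(iii b)** `U ⊓ iv⁻¹ᵁ U` is non-empty if `X` is irreducible and `iv` is surjective. -/
theorem nonempty_inf_preimage [IrreducibleSpace X] (iv : X ⟶ X) (hiv : Function.Surjective iv.base)
    (U : X.Opens) [hU : Nonempty U] : Nonempty (U ⊓ iv ⁻¹ᵁ U : X.Opens) := by
  obtain ⟨⟨x, hx⟩⟩ := hU
  obtain ⟨y, hy⟩ := hiv x
  have h1 : (U : Set X).Nonempty := ⟨x, hx⟩
  have h2 : ((iv ⁻¹ᵁ U : X.Opens) : Set X).Nonempty := ⟨y, by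
    show iv.base y ∈ U
    rw [hy]
    exact hx⟩
  obtain ⟨z, hz1, hz2⟩ := nonempty_preirreducible_inter U.2 (iv ⁻¹ᵁ U).2 h1 h2
  exact ⟨⟨z, hz1, hz2⟩⟩

theorem isIso_of_involution (iv : X ⟶ X) (hiv : iv ≫ iv = 𝟙 X) : IsIso iv :=
  ⟨iv, hiv, hiv⟩

theorem surjective_of_involution (iv : X ⟶ X) (hiv : iv ≫ iv = 𝟙 X) : Function.Surjective iv.base := by
  intro x
  refine ⟨iv.base x, ?_⟩
  have h := congrArg (fun f : X ⟶ X => f.base x) hiv
  simpa using h

end Involution

/-! ### the group case -/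

section Group

variable {K : Type u} [Field K] (G : Over (Spec (CommRingCat.of K))) [GrpObj G] [IsCommMonObj G]

theorem negMap_left_comp : (Chain.negMap G).left ≫ (Chain.negMap G).left = 𝟙 G.left := by
  have h := congrArg (fun f : G ⟶ G => f.left) (Chain.negMap_comp_negMap G)
  exact h

instance isIso_negMap_left : IsIso (Chain.negMap G).left :=
  isIso_of_involution _ (negMap_left_comp G)

/-- the symmetrised section `s ⊗ [−1]^* s` of helper9's `Chain.symmetrize G M`. -/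
def symmSection (M : LB G.left) (s : M.H0) : (Chain.symmetrize G M).H0 :=
  M.symmSection (Chain.negMap G).left s

/-- the symmetrised open `U ⊓ [−1]⁻¹ U`. -/
def symmOpen (U : G.left.Opens) : G.left.Opens := U ⊓ (Chain.negMap G).left ⁻¹ᵁ U

/-- **(ii)** for `G`: `s ⊗ [−1]^* s` does not vanish exactly on `U ⊓ [−1]⁻¹ U`. -/
theorem basicOpen_symmSection (M : LB G.left) (s : M.H0) (U : G.left.Opens)
    (hs : ∀ i, G.left.basicOpen (s.1 i) = M.U i ⊓ U) (p : (Chain.symmetrize G M).ι) :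
    G.left.basicOpen ((symmSection G M s).1 p) = (Chain.symmetrize G M).U p ⊓ symmOpen G U :=
  LB.basicOpen_symmSection M (Chain.negMap G).left s U hs p

/-- **(iii a)** for `G` separated over `K`. -/
theorem isAffineOpen_symmOpen [IsSeparated G.hom] (U : G.left.Opens) (hU : IsAffineOpen U) :
    IsAffineOpen (symmOpen G U) :=
  isAffineOpen_inf_preimage G.hom (Chain.negMap G).left U hU

/-- **(iii b)** for `G` irreducible. -/
instance nonempty_symmOpen [IrreducibleSpace G.left] (U : G.left.Opens) [Nonempty U] :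
    Nonempty (symmOpen G U) :=
  nonempty_inf_preimage (Chain.negMap G).left
    (surjective_of_involution _ (negMap_left_comp G)) U

/-- the symmetrised section is non-zero. -/
theorem symmSection_ne_zero [IrreducibleSpace G.left] (M : LB G.left) (s : M.H0)
    (U : G.left.Opens) [Nonempty U] (hs : ∀ i, G.left.basicOpen (s.1 i) = M.U i ⊓ U) :
    symmSection G M s ≠ 0 :=
  LB.section_ne_zero_of_nonempty_locus (Chain.symmetrize G M) (symmSection G M s) (symmOpen G U)
    (basicOpen_symmSection G M s U hs)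

/-- the charts of the symmetrisation are affine if those of `M` are (`G` separated). -/
theorem isAffineOpen_symmetrize_U [IsSeparated G.hom] (M : LB G.left)
    (haff : ∀ i, IsAffineOpen (M.U i)) (p : (Chain.symmetrize G M).ι) :
    IsAffineOpen ((Chain.symmetrize G M).U p) :=
  isAffineHom_diagonal_iff.mp (inferInstance : IsAffineHom (pullback.diagonal G.hom)) ⊤
    (isAffineOpen_top _) (M.U p.1) le_top ((Chain.negMap G).left ⁻¹ᵁ M.U p.2) le_top (haff p.1)
    ((haff p.2).preimage_of_isIso (Chain.negMap G).left)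

/-- **(SYM), packaged**: from a (7d) pair `(M, s, U)` on `G` a SYMMETRIC (7d) pair. -/
theorem exists_symmetric_pair [IsSeparated G.hom] [IrreducibleSpace G.left] (M : LB G.left)
    (s : M.H0) (U : G.left.Opens) (hU : IsAffineOpen U) [Nonempty U]
    (hs : ∀ i, G.left.basicOpen (s.1 i) = M.U i ⊓ U) :
    ∃ (M' : LB G.left) (s' : M'.H0) (U' : G.left.Opens), Chain.LBIsSymm G M' ∧ s' ≠ 0 ∧
      IsAffineOpen U' ∧ Nonempty U' ∧ U' ≤ U ∧ ∀ p, G.left.basicOpen (s'.1 p) = M'.U p ⊓ U' :=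
  ⟨Chain.symmetrize G M, symmSection G M s, symmOpen G U, Chain.lbIsSymm_symmetrize G M,
    symmSection_ne_zero G M s U hs, isAffineOpen_symmOpen G U hU, nonempty_symmOpen G U,
    inf_le_left, basicOpen_symmSection G M s U hs⟩

/-- **(SYM), packaged, with affine charts.** -/
theorem exists_symmetric_pair_affine [IsSeparated G.hom] [IrreducibleSpace G.left] (M : LB G.left)
    (s : M.H0) (U : G.left.Opens) (hU : IsAffineOpen U) [Nonempty U]
    (haff : ∀ i, IsAffineOpen (M.U i))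
    (hs : ∀ i, G.left.basicOpen (s.1 i) = M.U i ⊓ U) :
    ∃ (M' : LB G.left) (s' : M'.H0) (U' : G.left.Opens), Chain.LBIsSymm G M' ∧ s' ≠ 0 ∧
      IsAffineOpen U' ∧ Nonempty U' ∧ U' ≤ U ∧ (∀ p, IsAffineOpen (M'.U p)) ∧
      ∀ p, G.left.basicOpen (s'.1 p) = M'.U p ⊓ U' :=
  ⟨Chain.symmetrize G M, symmSection G M s, symmOpen G U, Chain.lbIsSymm_symmetrize G M,
    symmSection_ne_zero G M s U hs, isAffineOpen_symmOpen G U hU, nonempty_symmOpen G U,
    inf_le_left, isAffineOpen_symmetrize_U G M haff, basicOpen_symmSection G M s U hs⟩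

end Group

end

end Fermat.Agent.AV
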