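/-
Project AV (S26), helper4: AV6 — final assembly.
`card_torsion_eq_of_hcov`: for a proper smooth connected commutative group scheme `G` of relative
dimension `g` over an algebraically closed field, `#G[n](K) = n^(2g)`, from ONE remaining input
`hcov` (the cover data of `[n^j]` for a symmetric line bundle with section; supplied by the
theorem of the cube via helper9's chain).  Everything else is discharged here:
helper7 (`stalk_ufm`, `exists_symmetric_pair`), helper5 ((7d)), helper2 (`LB.degree_eq_pow_of_section`),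
helper6 (`card_torsion_eq_finrank`), helper4 (normality, Hartogs, DVR stalks, dimension link).
-/
import Fermat.Agent.AV.AV0_helper4_Dict
import Fermat.Agent.AV.AV0_helper4_Hartogs
import Fermat.Agent.AV.AV0_helper4_Dim
import Fermat.Agent.AV.AV1_helper6_FFVia
import Fermat.Agent.AV.AV4_helper2_Geometric
import Fermat.Agent.AV.AV7_helper7_Main
import Fermat.Agent.AV.CART_helper5_Divisor
import Fermat.Agent.AV.SYM_helper7_Main

set_option autoImplicit false
set_option linter.style.haveILetI false
universe u

open CategoryTheory CategoryTheory.Limits AlgebraicGeometry Order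
open MonoidalCategory CartesianMonoidalCategory MonObj

namespace Fermat.Agent.AV

variable {K : Type u} [Field K]

/-- **AV6.** `#G[n](K) = n^(2g)` from the cover data `hcov` of the maps `[n^j]` with respect to any
symmetric line bundle with a nonzero section. -/
theorem card_torsion_eq_of_hcov [IsAlgClosed K] (G : Over (Spec (CommRingCat.of K)))
    [GrpObj G] [IsCommMonObj G] [IsProper G.hom] [ConnectedSpace G.left] (g : ℕ)
    [SmoothOfRelativeDimension g G.hom] [IsIntegral G.left] [IsNoetherian G.left]
    (n : ℕ) (hn : (n : K) ≠ 0)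
    [Algebra K G.left.functionField]
    (halg : ∀ (_ : Nonempty (⊤ : G.left.Opens)) (c : K), algebraMap K G.left.functionField c =
      G.left.germToFunctionField ⊤ (G.hom.appTop ((Scheme.ΓSpecIso (CommRingCat.of K)).inv c)))
    (hcov : ∀ (hDVR : ∀ z : G.left, coheight z = 1 →
        IsDiscreteValuationRing (G.left.presheaf.stalk z))
      (hK : ∀ c : K, c ≠ 0 → ∀ z : G.left, coheight z = 1 →
        Scheme.ord (algebraMap K G.left.functionField c) z = 0)
      (M : LB G.left) (s : M.H0) (hs : s ≠ 0), Chain.LBIsSymm G M → ∀ j : ℕ,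
        Nonempty (CoverDatum.{u, u, u, u, u} (schemePDS G.left hDVR hK)
          (M.pdsDiv G.left hDVR hK s hs)
          ((nMap G n).left.finrank (genericPoint G.left) ^ j) ((n ^ 2) ^ j))) :
    Nat.card {x : 𝟙_ (Over (Spec (CommRingCat.of K))) ⟶ G // x ^ n = 1} = n ^ (2 * g) := by
  have hsm : Smooth G.hom := SmoothOfRelativeDimension.smooth g G.hom
  have hneT : Nonempty (⊤ : G.left.Opens) := ⟨⟨genericPoint G.left, trivial⟩⟩
  -- DVR stalks, constants, Hartogs
  have hDVR : ∀ z : G.left, coheight z = 1 →
      IsDiscreteValuationRing (G.left.presheaf.stalk z) :=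
    fun z hz => isDiscreteValuationRing_stalk_of_coheight_eq_one G.hom z hz
  have hK : ∀ c : K, c ≠ 0 → ∀ z : G.left, coheight z = 1 →
      Scheme.ord (algebraMap K G.left.functionField c) z = 0 :=
    scheme_ord_algebraMap_eq_zero G.left
      ((G.hom.appTop).hom.comp (Scheme.ΓSpecIso (CommRingCat.of K)).inv.hom)
      (fun c => halg hneT c)
  have hH : ∀ (V : G.left.Opens) [Nonempty V] (f : G.left.functionField),
      (∀ z ∈ V, coheight z = 1 → 0 ≤ Scheme.ord f z) →
      f ∈ Set.range (G.left.germToFunctionField V) :=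
    fun V _ f h => mem_range_germToFunctionField_of_smooth_of_ord_nonneg G.hom V f h
  have halg' : ∀ c : K, algebraMap K G.left.functionField c =
      (functionFieldStrMap G.hom).hom c := fun c => halg hneT c
  -- a (7d) pair and its symmetrisation
  obtain ⟨U₀, hU₀, hxU₀⟩ : ∃ U₀ : G.left.Opens, IsAffineOpen U₀ ∧ genericPoint G.left ∈ U₀ := by
    obtain ⟨_, ⟨W, hW, rfl⟩, hxW, -⟩ := G.left.isBasis_affineOpens.exists_subset_of_mem_open
      (Set.mem_univ (genericPoint G.left)) isOpen_univ
    exact ⟨W, hW, hxW⟩
  have hneU₀ : Nonempty U₀ := ⟨⟨_, hxU₀⟩⟩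
  have hsep : G.left.IsSeparated := ⟨by rw [← terminal.comp_from G.hom]; infer_instance⟩
  have hUFD : ∀ y : G.left, IsClosed ({y} : Set G.left) →
      UniqueFactorizationMonoid (G.left.presheaf.stalk y) := fun y hy => (stalk_ufm G.hom y hy).2
  obtain ⟨M₀, s₀, hs₀⟩ := exists_LB_of_isAffineOpen_of_closedPoints hU₀ hUFD
  obtain ⟨M, s, U, hsym, hs, hU, hneU, -, hsU⟩ := exists_symmetric_pair G M₀ s₀ U₀ hU₀ hs₀
  -- the `K`-algebra `Γ(G, U)` and its Noether normalisation
  have hηU : genericPoint G.left ∈ U :=
    ((genericPoint_spec G.left).mem_open_set_iff U.isOpen).mpr (by simpa using hneU)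
  let ψ : K →+* Γ(Spec (CommRingCat.of K), ⊤) := (Scheme.ΓSpecIso (CommRingCat.of K)).inv.hom
  let φ : K →+* Γ(G.left, U) := (G.hom.appLE ⊤ U le_top).hom.comp ψ
  letI : Algebra K Γ(G.left, U) := φ.toAlgebra
  have hft : φ.FiniteType := by
    have h1 : (G.hom.appLE ⊤ U le_top).hom.FiniteType :=
      HasRingHomProperty.appLE (P := @LocallyOfFiniteType) G.hom inferInstance
        ⟨⊤, isAffineOpen_top _⟩ ⟨U, hU⟩ le_top
    have h2 : ψ.FiniteType := RingHom.FiniteType.of_surjective ψ
      ((Scheme.ΓSpecIso (CommRingCat.of K)).symm.commRingCatIsoToRingEquiv.surjective)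
    exact h1.comp h2
  haveI : Algebra.FiniteType K Γ(G.left, U) := RingHom.finiteType_algebraMap.mp hft
  haveI : IsScalarTower K Γ(G.left, U) G.left.functionField :=
    IsScalarTower.of_algebraMap_eq fun c => by
      rw [halg hneT c]
      show _ = G.left.germToFunctionField U ((G.hom.appLE ⊤ U le_top).hom (ψ c))
      have h1 : (G.hom.appLE ⊤ U le_top).hom (ψ c) =
          G.left.presheaf.map (homOfLE (le_top : U ≤ ⊤)).op
            (G.hom.appTop ((Scheme.ΓSpecIso (CommRingCat.of K)).inv c)) := rfl
      rw [h1]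
      exact (G.left.presheaf.germ_res_apply (homOfLE (le_top : U ≤ ⊤))
        (genericPoint G.left) hηU _).symm
  obtain ⟨g', ν, hν, hνint⟩ := exists_integral_inj_algHom_of_fg K Γ(G.left, U)
  -- the degree formula
  have hn0 : n ≠ 0 := by
    rintro rfl
    exact hn (by simp)
  have hm : 0 < n ^ 2 := by positivity
  have hdeg : (nMap G n).left.finrank (genericPoint G.left) = (n ^ 2) ^ g' :=
    M.degree_eq_pow_of_section G.left hDVR hK hH G.hom halg' s hs U hU hsU ν hν hνint _ (n ^ 2) hm
      (hcov hDVR hK M s hs hsym)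
  -- the dimension link
  haveI := finiteDimensional_nnCoord G.left U ν hU hνint
  have hg : g' = g := eq_of_algebraicIndependent_functionField G.hom halg (nnCoord G.left U ν)
    (algebraicIndependent_nnCoord G.left U ν hν)
  rw [card_torsion_eq_finrank G g n hn (genericPoint G.left), hdeg, hg, ← pow_mul]

end Fermat.Agent.AV
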