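/-
Project AV (S26), helper4: AV6 — the final wrapper.
`abelianVarietyTorsionCount : AbelianVarietyTorsionCount` (Mathlib form of S26: for an abelian
variety `G` of dimension `g` over an algebraically closed field `K` and `n` invertible in `K`,
`#G[n](K) = n^(2g)`), and `s26Statement : S26Statement` (the frozen form).
-/
import Fermat.Agent.AV.AV6_helper4_Main
import Fermat.Agent.AV.AV6_helper4_Cube
import Fermat.Agent.AV.AV6_helper4_Hcov

set_option autoImplicit false
set_option linter.style.haveILetI false
universe u

open CategoryTheory CategoryTheory.Limits AlgebraicGeometry Order
open MonoidalCategory CartesianMonoidalCategory MonObj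

namespace Fermat.Agent.AV

/-- A proper smooth scheme over a field is noetherian. -/
theorem isNoetherian_of_isProper_of_smooth {K : Type u} [Field K] {X : Scheme.{u}}
    (f : X ⟶ Spec (CommRingCat.of K)) [IsProper f] [Smooth f] : IsNoetherian X := by
  haveI : IsLocallyNoetherian X := isLocallyNoetherian_of_smooth f
  haveI : CompactSpace X := by
    have h : QuasiCompact f := inferInstance
    exact (quasiCompact_iff_compactSpace (f := f)).mp h
  exact { }

/-- **S26, Mathlib form**: the number of `n`-torsion points of an abelian variety of dimension
`g` over an algebraically closed field in which `n` is invertible is `n ^ (2 g)`. -/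
theorem abelianVarietyTorsionCount : AbelianVarietyTorsionCount.{u} := by
  intro K _ _ G _ _ _ _ _ g _ n hn
  haveI : IsIntegral G.left := isIntegral_of_smooth_of_connected G.hom
  haveI : IsNoetherian G.left := isNoetherian_of_isProper_of_smooth G.hom
  letI : Algebra K G.left.functionField := functionFieldAlgebra G.hom
  exact card_torsion_eq_of_hcov G g n hn (fun _ _ => rfl)
    (hcov_of_cube G g (cubeProperty_of_abelian G) n hn)

/-- **S26, frozen form.** -/
theorem s26Statement : S26Statement.{u} :=
  s26_of_torsionCount abelianVarietyTorsionCount

end Fermat.Agent.AV
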