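/-
PROJECT AV (S26 long shot) — cohomological primitives, producer side (helper8).

`CP_helper8_Ambient`: the purely algebraic core of the "pole-order resolution" that presents
`H⁰(X × T', L)` as the kernel of an explicit linear map between "constant" modules.

Ambient model.  `A0 = O(U₀ × T')` is the coordinate ring of the dense affine chart
(`U₀ ⊆ ⋂ U_i`), `M0 = Γ(U₀ × T', L)`; the charts `U_i × T'` give subalgebras `A i ⊆ A0` and
submodules `M i ⊆ M0` (sections regular on the chart), so that `H⁰(X × T', L) = ⨅ i, M i`.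
`P i j ⊆ A0` are the sections of `O(m D_i)` on the chart `j` (`D_i ∩ U_i = ∅`, hence `P j j ≤ A j`).
`τ i k ∈ M0^∨` are generators of `L⁻¹` on the chart `i`, extended with bounded poles along `D_i`;
`m i k ∈ M i` is a dual partition of unity.  Then `s ↦ (τ i k s)` identifies `H⁰` with the tuples
`f i k ∈ V i = ⨅ j, P i j` satisfying the linear relations `f i k = ∑ l, τ i k (m j l) * f j l`.
-/
import Mathlib

set_option autoImplicit false
set_option linter.unusedSectionVars false

namespace Fermat.Agent.AV.CP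

open scoped BigOperators

universe u v w

variable {R : Type u} [CommRing R]
variable {A0 : Type v} [CommRing A0] [Algebra R A0]
variable {M0 : Type w} [AddCommGroup M0] [Module R M0] [Module A0 M0] [IsScalarTower R A0 M0]

/-- Chart data in the ambient model, together with generators/partitions of unity. -/
structure AmbientData (R : Type u) [CommRing R] (A0 : Type v) [CommRing A0] [Algebra R A0]
    (M0 : Type w) [AddCommGroup M0] [Module R M0] [Module A0 M0]
    (ι : Type*) (κ : ι → Type*) [∀ i, Fintype (κ i)] where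
  /-- coordinate rings of the charts, inside the coordinate ring of the dense chart -/
  A : ι → Subalgebra R A0
  /-- sections of `L` regular on the chart `i` -/
  M : ι → Submodule R M0
  /-- sections of `O(m D_i)` regular on the chart `j` -/
  P : ι → ι → Submodule R A0
  /-- `M i` is an `A i`-module -/
  smul_mem : ∀ i (a : A0), a ∈ A i → ∀ x ∈ M i, a • x ∈ M i
  /-- partition of unity: elements of `M i` -/
  m : ∀ i, κ i → M0
  /-- generators of the dual on the chart `i` (with poles along `D_i`) -/
  τ : ∀ i, κ i → (M0 →ₗ[A0] A0)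
  m_mem : ∀ i k, m i k ∈ M i
  partition : ∀ i, ∑ k, τ i k (m i k) = 1
  /-- rank one identity -/
  swap : ∀ i k (x y : M0), τ i k x • y = τ i k y • x
  /-- `τ i k` is a global section of `L⁻¹(m D_i)` -/
  τ_mem : ∀ i k j x, x ∈ M j → τ i k x ∈ P i j
  /-- `D_j` does not meet the chart `j` -/
  P_diag : ∀ j a, a ∈ P j j → a ∈ A j

namespace AmbientData

variable {ι : Type*} {κ : ι → Type*} [∀ i, Fintype (κ i)]
variable (D : AmbientData R A0 M0 ι κ)

/-- Global sections of `L`. -/
def H0 : Submodule R M0 := ⨅ j, D.M j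

/-- Global sections of `O(m D_i)`. -/
def V (i : ι) : Submodule R A0 := ⨅ j, D.P i j

/-- The transition coefficients `c i k j l = τ i k (m j l)`. -/
def coeff (i : ι) (k : κ i) (j : ι) (l : κ j) : A0 := D.τ i k (D.m j l)

/-- The "cross-relation" submodule of `∏ V_i`: tuples `f` with `f i k = ∑ l, c i k j l * f j l`. -/
def crossKer : Submodule R (∀ i, κ i → A0) where
  carrier := {f | (∀ i k, f i k ∈ D.V i) ∧
    ∀ i k j, ∑ l, D.coeff i k j l * f j l = f i k}
  add_mem' := by
    rintro f g ⟨hf1, hf2⟩ ⟨hg1, hg2⟩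
    refine ⟨fun i k => (D.V i).add_mem (hf1 i k) (hg1 i k), fun i k j => ?_⟩
    simp only [Pi.add_apply, mul_add, Finset.sum_add_distrib, hf2 i k j, hg2 i k j]
  zero_mem' := by
    refine ⟨fun i k => (D.V i).zero_mem, fun i k j => ?_⟩
    simp
  smul_mem' := by
    rintro c f ⟨hf1, hf2⟩
    refine ⟨fun i k => (D.V i).smul_mem c (hf1 i k), fun i k j => ?_⟩
    simp only [Pi.smul_apply, mul_smul_comm, ← Finset.smul_sum, hf2 i k j]

lemma mem_crossKer {f : ∀ i, κ i → A0} :
    f ∈ D.crossKer ↔ (∀ i k, f i k ∈ D.V i) ∧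
      ∀ i k j, ∑ l, D.coeff i k j l * f j l = f i k := Iff.rfl

/-- The evaluation map `s ↦ (τ_{ik}(s))`. -/
def evalτ : M0 →ₗ[R] (∀ i, κ i → A0) where
  toFun s := fun i k => D.τ i k s
  map_add' s t := by funext i k; simp
  map_smul' c s := by
    funext i k
    simp only [Pi.smul_apply, RingHom.id_apply]
    rw [← algebraMap_smul A0 c s, map_smul, smul_eq_mul, Algebra.smul_def]

@[simp] lemma evalτ_apply (s : M0) (i : ι) (k : κ i) : D.evalτ s i k = D.τ i k s := rfl

lemma eq_sum_of_chart (i : ι) (s : M0) : s = ∑ k, D.τ i k s • D.m i k := by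
  calc s = (1 : A0) • s := (one_smul _ _).symm
    _ = (∑ k, D.τ i k (D.m i k)) • s := by rw [D.partition i]
    _ = ∑ k, D.τ i k (D.m i k) • s := Finset.sum_smul
    _ = ∑ k, D.τ i k s • D.m i k :=
        Finset.sum_congr rfl fun k _ => D.swap i k (D.m i k) s

lemma evalτ_mem_crossKer {s : M0} (hs : s ∈ D.H0) : D.evalτ s ∈ D.crossKer := by
  refine ⟨fun i k => ?_, fun i k j => ?_⟩
  · simp only [V, Submodule.mem_iInf]
    intro j
    exact D.τ_mem i k j s ((Submodule.mem_iInf _).1 hs j)
  · simp only [evalτ_apply, coeff]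
    conv_rhs => rw [D.eq_sum_of_chart j s]
    rw [map_sum]
    refine Finset.sum_congr rfl fun l _ => ?_
    rw [map_smul, smul_eq_mul, mul_comm]

lemma evalτ_injective [Nonempty ι] : Function.Injective D.evalτ := by
  intro s t hst
  obtain ⟨i⟩ := ‹Nonempty ι›
  rw [D.eq_sum_of_chart i s, D.eq_sum_of_chart i t]
  refine Finset.sum_congr rfl fun k _ => ?_
  have := congrFun (congrFun hst i) k
  simp only [evalτ_apply] at this
  rw [this]

/-- The candidate section attached to `f` via the chart `j`. -/
def glue (f : ∀ i, κ i → A0) (j : ι) : M0 := ∑ l, f j l • D.m j l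

lemma τ_glue {f : ∀ i, κ i → A0} (hf : f ∈ D.crossKer) (i : ι) (k : κ i) (j : ι) :
    D.τ i k (D.glue f j) = f i k := by
  unfold glue
  rw [map_sum, ← hf.2 i k j]
  refine Finset.sum_congr rfl fun l _ => ?_
  rw [map_smul, smul_eq_mul, mul_comm, coeff]

lemma glue_mem_chart {f : ∀ i, κ i → A0} (hf : f ∈ D.crossKer) (j : ι) :
    D.glue f j ∈ D.M j := by
  unfold glue
  refine Submodule.sum_mem _ fun l _ => ?_
  refine D.smul_mem j _ (D.P_diag j _ ?_) _ (D.m_mem j l)
  have := hf.1 j l
  simp only [V, Submodule.mem_iInf] at this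
  exact this j

lemma glue_eq_glue [Nonempty ι] {f : ∀ i, κ i → A0} (hf : f ∈ D.crossKer) (j j' : ι) :
    D.glue f j = D.glue f j' := by
  apply D.evalτ_injective
  funext i k
  simp only [evalτ_apply, D.τ_glue hf]

lemma glue_mem_H0 [Nonempty ι] {f : ∀ i, κ i → A0} (hf : f ∈ D.crossKer) (j : ι) :
    D.glue f j ∈ D.H0 := by
  simp only [H0, Submodule.mem_iInf]
  intro j'
  rw [D.glue_eq_glue hf j j']
  exact D.glue_mem_chart hf j'

/-- **Core bijection**: global sections of `L` are the cross-relation tuples of global sections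
of the `O(m D_i)`. -/
noncomputable def h0Equiv [Nonempty ι] : D.H0 ≃ₗ[R] D.crossKer :=
  LinearEquiv.ofBijective
    ((D.evalτ.comp D.H0.subtype).codRestrict D.crossKer
      (fun s => D.evalτ_mem_crossKer s.2))
    ⟨by
      intro s t hst
      apply Subtype.ext
      apply D.evalτ_injective
      have := congrArg Subtype.val hst
      simpa using this,
     by
      intro f
      obtain ⟨j⟩ := ‹Nonempty ι›
      refine ⟨⟨D.glue f.1 j, D.glue_mem_H0 f.2 j⟩, ?_⟩
      apply Subtype.ext
      funext i k
      simp [D.τ_glue f.2]⟩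

lemma h0Equiv_apply [Nonempty ι] (s : D.H0) (i : ι) (k : κ i) :
    ((D.h0Equiv s : D.crossKer) : ∀ i, κ i → A0) i k = D.τ i k s := rfl

end AmbientData

end Fermat.Agent.AV.CP
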