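/-
PROJECT AV (S26 long shot) — cohomological primitives, producer side (helper8).

`CP_helper8_Family`: base change layer of the pole-order resolution.

Static data over the field `K`: the coordinate ring `R0` of the dense chart `U₀ ⊆ X`, the chart
subalgebras `Rsub j ⊆ R0` and the pole subspaces `Q i j ⊆ R0` (functions on `U₀` extending to
sections of `O(m D_i)` over `U_j`).  For a `K`-algebra `B'` the ambient ring is `B' ⊗[K] R0`,
with chart algebras and pole modules obtained by base change.  A `Family` over `B'` is ambient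
data with these charts; its `H⁰` is identified with the kernel of an explicit matrix over `B'`,
which is the image of a matrix over the base ring `B` as soon as the transition coefficients
`τ i k (m j l)` are base-changed from `B ⊗[K] R0`.
-/
import Mathlib
import Fermat.Agent.AV.CP_helper8_Ambient

set_option autoImplicit false
set_option linter.unusedSectionVars false

namespace Fermat.Agent.AV.CP

open TensorProduct
open scoped BigOperators

/-! ### Tensor product lemmas over a field -/

section TensorLemmas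

variable {K : Type*} [Field K] {N N' : Type*} [AddCommGroup N] [Module K N]
  [AddCommGroup N'] [Module K N']
variable {B' : Type*} [CommRing B'] [Algebra K B']

lemma coords_baseChange {Λ : Type*} [DecidableEq Λ] (𝔠 : Module.Basis Λ K B') (f : N →ₗ[K] N')
    (y : B' ⊗[K] N) (lam : Λ) :
    TensorProduct.equivFinsuppOfBasisLeft 𝔠 (f.baseChange B' y) lam =
      f (TensorProduct.equivFinsuppOfBasisLeft 𝔠 y lam) := by
  induction y with
  | zero => simp
  | tmul b n =>
    rw [LinearMap.baseChange_tmul, TensorProduct.equivFinsuppOfBasisLeft_apply_tmul_apply,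
      TensorProduct.equivFinsuppOfBasisLeft_apply_tmul_apply, map_smul]
  | add x y hx hy => simp only [map_add, Finsupp.add_apply, hx, hy]

lemma mem_baseChange_iff_coords {Λ : Type*} [DecidableEq Λ] (𝔠 : Module.Basis Λ K B')
    (Q : Submodule K N) (x : B' ⊗[K] N) :
    x ∈ Q.baseChange B' ↔ ∀ lam, TensorProduct.equivFinsuppOfBasisLeft 𝔠 x lam ∈ Q := by
  constructor
  · rintro ⟨y, rfl⟩ lam
    rw [coords_baseChange]
    exact (TensorProduct.equivFinsuppOfBasisLeft 𝔠 y lam).2
  · intro h
    have hx : x = (TensorProduct.equivFinsuppOfBasisLeft 𝔠).symm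
        (TensorProduct.equivFinsuppOfBasisLeft 𝔠 x) := by simp
    rw [hx, TensorProduct.equivFinsuppOfBasisLeft_symm_apply]
    refine Submodule.sum_mem _ fun lam _ => ?_
    exact Submodule.tmul_mem_baseChange_of_mem _ (h lam)

lemma iInf_baseChange {ι : Type*} (Q : ι → Submodule K N) :
    ⨅ j, (Q j).baseChange B' = (⨅ j, Q j).baseChange B' := by
  classical
  let 𝔠 := Module.Basis.ofVectorSpace K B'
  ext x
  simp only [Submodule.mem_iInf, mem_baseChange_iff_coords 𝔠]
  exact ⟨fun h lam j => h j lam, fun h j lam => h lam j⟩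

end TensorLemmas

section TensorLemmas2

variable {K : Type*} [Field K] {R0 : Type*} [CommRing R0] [Algebra K R0]
variable {B' : Type*} [CommRing B'] [Algebra K B'] {B'' : Type*} [CommRing B''] [Algebra K B'']

/-- `x ↦ ∑ β, x β ⊗ v β`. -/
noncomputable def coordMap (K : Type*) [Field K] {R0 : Type*} [CommRing R0] [Algebra K R0]
    (B' : Type*) [CommRing B'] [Algebra K B'] {ι : Type*} [Fintype ι]
    (v : ι → R0) : (ι → B') →ₗ[B'] B' ⊗[K] R0 :=
  Fintype.linearCombination B' (fun β => (1 : B') ⊗ₜ[K] v β)

lemma coordMap_apply {ι : Type*} [Fintype ι] (v : ι → R0) (x : ι → B') :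
    coordMap K B' v x = ∑ β, x β ⊗ₜ[K] v β := by
  rw [coordMap, Fintype.linearCombination_apply]
  refine Finset.sum_congr rfl fun β _ => ?_
  rw [TensorProduct.smul_tmul', smul_eq_mul, mul_one]

lemma coordMap_injective {ι : Type*} [Fintype ι] {v : ι → R0} (hv : LinearIndependent K v) :
    Function.Injective (coordMap K B' v) := by
  have := Module.Flat.linearIndependent_one_tmul (S := B') hv
  exact linearIndependent_iff_injective_fintypeLinearCombination.1 this

lemma range_coordMap {ι : Type*} [Fintype ι] (v : ι → R0) :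
    LinearMap.range (coordMap K B' v) = (Submodule.span K (Set.range v)).baseChange B' := by
  rw [coordMap, Fintype.range_linearCombination, Submodule.baseChange_span]
  congr 1
  ext x
  simp

/-- Base change of the coefficient ring. -/
noncomputable def baseMap {K : Type*} [Field K] {B' : Type*} [CommRing B'] [Algebra K B']
    {B'' : Type*} [CommRing B''] [Algebra K B''] (R0 : Type*) [CommRing R0] [Algebra K R0]
    (φ : B' →ₐ[K] B'') : B' ⊗[K] R0 →ₐ[K] B'' ⊗[K] R0 :=
  Algebra.TensorProduct.map φ (AlgHom.id K R0)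

@[simp] lemma baseMap_tmul (φ : B' →ₐ[K] B'') (b : B') (r : R0) :
    baseMap R0 φ (b ⊗ₜ r) = φ b ⊗ₜ r := by
  simp [baseMap]

lemma baseMap_coordMap {ι : Type*} [Fintype ι] (φ : B' →ₐ[K] B'') (v : ι → R0) (x : ι → B') :
    baseMap R0 φ (coordMap K B' v x) = coordMap K B'' v (fun β => φ (x β)) := by
  rw [coordMap_apply, coordMap_apply, map_sum]
  simp

lemma baseMap_mem_baseChange (φ : B' →ₐ[K] B'') (Q : Submodule K R0) {a : B' ⊗[K] R0}
    (ha : a ∈ Q.baseChange B') : baseMap R0 φ a ∈ Q.baseChange B'' := by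
  obtain ⟨y, rfl⟩ := ha
  induction y with
  | zero => simp
  | tmul b q =>
    rw [LinearMap.baseChange_tmul, baseMap_tmul]
    exact Submodule.tmul_mem_baseChange_of_mem _ q.2
  | add x y hx hy =>
    rw [map_add, map_add]
    exact Submodule.add_mem _ hx hy

lemma repr_baseMap {Γ : Type*} (r : Module.Basis Γ K R0) (φ : B' →ₐ[K] B'') (a : B' ⊗[K] R0)
    (γ : Γ) :
    (Algebra.TensorProduct.basis B'' r).repr (baseMap R0 φ a) γ =
      φ ((Algebra.TensorProduct.basis B' r).repr a γ) := by
  induction a with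
  | zero => simp
  | tmul b x =>
    rw [baseMap_tmul, Algebra.TensorProduct.basis_repr_tmul, Algebra.TensorProduct.basis_repr_tmul]
    simp only [Finsupp.smul_apply, Finsupp.mapRange_apply, smul_eq_mul, map_mul,
      AlgHom.commutes]
  | add x y hx hy => simp only [map_add, Finsupp.add_apply, hx, hy]

end TensorLemmas2

/-! ### Static pole data and its base change -/

/-- Static pole data on the dense chart. -/
structure PoleAlg (K : Type*) [Field K] (R0 : Type*) [CommRing R0] [Algebra K R0]
    (ι : Type*) where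
  /-- the coordinate rings of the charts -/
  Rsub : ι → Subalgebra K R0
  /-- functions on the dense chart extending to sections of `O(m D_i)` on the chart `j` -/
  Q : ι → ι → Submodule K R0
  Q_mul : ∀ i j (r q : R0), r ∈ Rsub j → q ∈ Q i j → r * q ∈ Q i j
  Q_diag : ∀ j (q : R0), q ∈ Q j j → q ∈ Rsub j

namespace PoleAlg

variable {K : Type*} [Field K] {R0 : Type*} [CommRing R0] [Algebra K R0] {ι : Type*}
variable (S : PoleAlg K R0 ι) (B' : Type*) [CommRing B'] [Algebra K B']

/-- global sections of `O(m D_i)` -/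
def V (i : ι) : Submodule K R0 := ⨅ j, S.Q i j

/-- The coordinate ring of the chart `j` over `B'`. -/
noncomputable def chartAlg (j : ι) : Subalgebra B' (B' ⊗[K] R0) :=
  (Algebra.TensorProduct.map (AlgHom.id B' B') (S.Rsub j).val).range

/-- The pole module over `B'`. -/
noncomputable def poleMod (i j : ι) : Submodule B' (B' ⊗[K] R0) := (S.Q i j).baseChange B'

lemma tmul_mem_chartAlg (j : ι) (b : B') {r : R0} (hr : r ∈ S.Rsub j) :
    b ⊗ₜ[K] r ∈ S.chartAlg B' j :=
  ⟨b ⊗ₜ ⟨r, hr⟩, by simp⟩

lemma mul_mem_poleMod {i j : ι} {a p : B' ⊗[K] R0} (ha : a ∈ S.chartAlg B' j)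
    (hp : p ∈ S.poleMod B' i j) : a * p ∈ S.poleMod B' i j := by
  obtain ⟨y, rfl⟩ := ha
  induction y with
  | zero => simp
  | add x y hx hy =>
    rw [map_add, add_mul]
    exact Submodule.add_mem _ hx hy
  | tmul b r =>
    obtain ⟨z, rfl⟩ := hp
    induction z with
    | zero => simp
    | add x y hx hy =>
      rw [map_add, mul_add]
      exact Submodule.add_mem _ hx hy
    | tmul b' q =>
      show (Algebra.TensorProduct.map (AlgHom.id B' B') (S.Rsub j).val) (b ⊗ₜ[K] r) *
        (LinearMap.baseChange B' (S.Q i j).subtype) (b' ⊗ₜ[K] q) ∈ (S.Q i j).baseChange B'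
      rw [Algebra.TensorProduct.map_tmul, LinearMap.baseChange_tmul,
        Algebra.TensorProduct.tmul_mul_tmul]
      exact Submodule.tmul_mem_baseChange_of_mem (b * b') (S.Q_mul i j _ _ r.2 q.2)

lemma poleMod_diag_le (j : ι) {p : B' ⊗[K] R0} (hp : p ∈ S.poleMod B' j j) :
    p ∈ S.chartAlg B' j := by
  obtain ⟨z, rfl⟩ := hp
  induction z with
  | zero => simp
  | add x y hx hy =>
    rw [map_add]
    exact Subalgebra.add_mem _ hx hy
  | tmul b q =>
    rw [LinearMap.baseChange_tmul]
    exact S.tmul_mem_chartAlg B' j b (S.Q_diag j _ q.2)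

lemma iInf_poleMod (i : ι) : ⨅ j, S.poleMod B' i j = (S.V i).baseChange B' :=
  iInf_baseChange _

end PoleAlg

/-! ### The presentation -/

section Presentation

variable {K : Type*} [Field K] {R0 : Type*} [CommRing R0] [Algebra K R0] {ι : Type*} [Fintype ι]
variable (S : PoleAlg K R0 ι) {κ : ι → Type*} [∀ i, Fintype (κ i)]
variable {n : ι → ℕ} (v : ∀ i, Module.Basis (Fin (n i)) K ↥(S.V i))

/-- column index: a chart, a generator and a basis vector of `V i`. -/
abbrev Col (κ : ι → Type*) (n : ι → ℕ) := Σ i, κ i × Fin (n i)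

/-- relation index. -/
abbrev Rel (κ : ι → Type*) := (Σ i, κ i) × ι

/-- the basis vectors, in `R0` -/
noncomputable def vR (i : ι) (β : Fin (n i)) : R0 := (v i β : R0)

lemma vR_linearIndependent (i : ι) : LinearIndependent K (vR S v i) := by
  have h := (v i).linearIndependent
  have h2 := h.map' (S.V i).subtype (Submodule.ker_subtype _)
  exact h2

lemma span_vR (i : ι) : Submodule.span K (Set.range (vR S v i)) = S.V i := by
  have h := (v i).span_eq
  have h2 := congrArg (Submodule.map (S.V i).subtype) h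
  rw [Submodule.map_span, Submodule.map_subtype_top] at h2
  rw [← h2]
  congr 1
  ext x
  simp [vR]

variable (B' : Type*) [CommRing B'] [Algebra K B']

/-- `x ↦ (∑ β, x (i,k,β) ⊗ v i β)`. -/
noncomputable def tupleMap : (Col κ n → B') →ₗ[B'] (∀ i, κ i → B' ⊗[K] R0) where
  toFun x i k := coordMap K B' (vR S v i) (fun β => x ⟨i, k, β⟩)
  map_add' x y := by
    funext i k
    show coordMap K B' (vR S v i) (fun β => (x + y) (⟨i, k, β⟩ : Col κ n)) =
      coordMap K B' (vR S v i) (fun β => x ⟨i, k, β⟩) +
        coordMap K B' (vR S v i) (fun β => y ⟨i, k, β⟩)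
    rw [← map_add]
    rfl
  map_smul' c x := by
    funext i k
    show coordMap K B' (vR S v i) (fun β => (c • x) (⟨i, k, β⟩ : Col κ n)) =
      c • coordMap K B' (vR S v i) (fun β => x ⟨i, k, β⟩)
    rw [← map_smul]
    rfl

lemma tupleMap_apply (x : Col κ n → B') (i : ι) (k : κ i) :
    tupleMap S v B' x i k = coordMap K B' (vR S v i) (fun β => x ⟨i, k, β⟩) := rfl

lemma tupleMap_injective : Function.Injective (tupleMap (κ := κ) S v B') := by
  intro x y hxy
  funext ⟨i, k, β⟩
  have h := congrFun (congrFun hxy i) k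
  rw [tupleMap_apply, tupleMap_apply] at h
  exact congrFun (coordMap_injective (vR_linearIndependent S v i) h) β

lemma mem_range_tupleMap (f : ∀ i, κ i → B' ⊗[K] R0) :
    f ∈ LinearMap.range (tupleMap S v B') ↔ ∀ i k, f i k ∈ (S.V i).baseChange B' := by
  constructor
  · rintro ⟨x, rfl⟩ i k
    rw [tupleMap_apply, ← span_vR S v i, ← range_coordMap]
    exact ⟨_, rfl⟩
  · intro h
    have h2 : ∀ i k, ∃ y : Fin (n i) → B', coordMap K B' (vR S v i) y = f i k := by
      intro i k
      have := h i k
      rw [← span_vR S v i, ← range_coordMap] at this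
      exact this
    choose y hy using h2
    refine ⟨fun c => y c.1 c.2.1 c.2.2, ?_⟩
    funext i k
    rw [tupleMap_apply]
    exact hy i k

/-- The relations `∑ l, c i k j l * f j l - f i k`. -/
noncomputable def relMap (c' : ∀ i, κ i → ∀ j, κ j → B' ⊗[K] R0) :
    (Col κ n → B') →ₗ[B'] (Rel κ → B' ⊗[K] R0) where
  toFun x ρ := (∑ l, c' ρ.1.1 ρ.1.2 ρ.2 l * tupleMap S v B' x ρ.2 l) -
    tupleMap S v B' x ρ.1.1 ρ.1.2
  map_add' x y := by
    funext ρ
    simp only [map_add, Pi.add_apply, mul_add, Finset.sum_add_distrib]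
    abel
  map_smul' b x := by
    funext ρ
    simp only [map_smul, Pi.smul_apply, RingHom.id_apply, mul_smul_comm, ← Finset.smul_sum,
      smul_sub]

lemma relMap_apply (c' : ∀ i, κ i → ∀ j, κ j → B' ⊗[K] R0) (x : Col κ n → B') (ρ : Rel κ) :
    relMap S v B' c' x ρ = (∑ l, c' ρ.1.1 ρ.1.2 ρ.2 l * tupleMap S v B' x ρ.2 l) -
      tupleMap S v B' x ρ.1.1 ρ.1.2 := rfl

section KerEquiv

variable {S v B'}

/-- The cross-relation submodule in the tensor model, for a coefficient family `c'`. -/
def tensorCrossKer (S : PoleAlg K R0 ι) (B' : Type*) [CommRing B'] [Algebra K B']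
    (c' : ∀ i, κ i → ∀ j, κ j → B' ⊗[K] R0) : Submodule B' (∀ i, κ i → B' ⊗[K] R0) where
  carrier := {f | (∀ i k, f i k ∈ (S.V i).baseChange B') ∧
    ∀ i k j, ∑ l, c' i k j l * f j l = f i k}
  add_mem' := by
    rintro f g ⟨hf1, hf2⟩ ⟨hg1, hg2⟩
    refine ⟨fun i k => Submodule.add_mem _ (hf1 i k) (hg1 i k), fun i k j => ?_⟩
    simp only [Pi.add_apply, mul_add, Finset.sum_add_distrib, hf2 i k j, hg2 i k j]
  zero_mem' := by
    refine ⟨fun i k => Submodule.zero_mem _, fun i k j => ?_⟩
    simp
  smul_mem' := by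
    rintro b f ⟨hf1, hf2⟩
    refine ⟨fun i k => Submodule.smul_mem _ b (hf1 i k), fun i k j => ?_⟩
    simp only [Pi.smul_apply, mul_smul_comm, ← Finset.smul_sum, hf2 i k j]

lemma mem_tensorCrossKer {c' : ∀ i, κ i → ∀ j, κ j → B' ⊗[K] R0}
    {f : ∀ i, κ i → B' ⊗[K] R0} :
    f ∈ tensorCrossKer S B' c' ↔ (∀ i k, f i k ∈ (S.V i).baseChange B') ∧
      ∀ i k j, ∑ l, c' i k j l * f j l = f i k := Iff.rfl

lemma tupleMap_mem_crossKer_iff (c' : ∀ i, κ i → ∀ j, κ j → B' ⊗[K] R0) (x : Col κ n → B') :
    tupleMap S v B' x ∈ tensorCrossKer S B' c' ↔ x ∈ LinearMap.ker (relMap S v B' c') := by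
  rw [mem_tensorCrossKer, LinearMap.mem_ker]
  have hV : ∀ i k, tupleMap S v B' x i k ∈ (S.V i).baseChange B' :=
    (mem_range_tupleMap S v B' _).1 ⟨x, rfl⟩
  constructor
  · rintro ⟨-, h⟩
    funext ρ
    rw [relMap_apply, h ρ.1.1 ρ.1.2 ρ.2, sub_self]
    rfl
  · intro h
    refine ⟨hV, fun i k j => ?_⟩
    have := congrFun h (⟨⟨i, k⟩, j⟩ : Rel κ)
    rw [relMap_apply] at this
    exact sub_eq_zero.1 this

/-- the comparison map `ker relMap → tensorCrossKer` -/
noncomputable def kerToCross (c' : ∀ i, κ i → ∀ j, κ j → B' ⊗[K] R0) :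
    LinearMap.ker (relMap S v B' c') →ₗ[B'] tensorCrossKer S B' c' :=
  ((tupleMap S v B').comp (LinearMap.ker (relMap S v B' c')).subtype).codRestrict
    (tensorCrossKer S B' c') (fun x => (tupleMap_mem_crossKer_iff c' x.1).2 x.2)

lemma kerToCross_bijective (c' : ∀ i, κ i → ∀ j, κ j → B' ⊗[K] R0) :
    Function.Bijective (kerToCross (v := v) c') := by
  constructor
  · intro x y hxy
    apply Subtype.ext
    apply tupleMap_injective S v B'
    exact congrArg Subtype.val hxy
  · intro f
    have hf := f.2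
    obtain ⟨x, hx⟩ := (mem_range_tupleMap S v B' f.1).2 hf.1
    have hxk : x ∈ LinearMap.ker (relMap S v B' c') := by
      rw [← tupleMap_mem_crossKer_iff, hx]
      exact hf
    exact ⟨⟨x, hxk⟩, Subtype.ext hx⟩

/-- **The tensor cross kernel is the kernel of the relation map.** -/
noncomputable def crossEquivKer (c' : ∀ i, κ i → ∀ j, κ j → B' ⊗[K] R0) :
    tensorCrossKer S B' c' ≃ₗ[B'] LinearMap.ker (relMap S v B' c') :=
  (LinearEquiv.ofBijective (kerToCross c') (kerToCross_bijective c')).symm

lemma tupleMap_crossEquivKer (c' : ∀ i, κ i → ∀ j, κ j → B' ⊗[K] R0)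
    (f : tensorCrossKer S B' c') :
    tupleMap S v B' (crossEquivKer (v := v) c' f).1 = f.1 := by
  have h : kerToCross c' (crossEquivKer (v := v) c' f) = f := by
    simp [crossEquivKer]
  exact congrArg Subtype.val h

end KerEquiv

section MatrixForm

variable {S v}
variable (B : Type*) [CommRing B] [Algebra K B]
variable (c : ∀ i, κ i → ∀ j, κ j → B ⊗[K] R0)

open Classical in
/-- the (infinite) matrix of the relation map over the base ring `B`, in the coordinates given by
a `K`-basis of `R0`. -/
noncomputable def Dmat (p : Rel κ × Module.Basis.ofVectorSpaceIndex K R0) (col : Col κ n) : B :=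
  (Algebra.TensorProduct.basis B (Module.Basis.ofVectorSpace K R0)).repr
    (relMap S v B c (Pi.single col 1) p.1) p.2

open Classical in
/-- the finitely many coordinates that occur. -/
noncomputable def suppSet : Finset (Module.Basis.ofVectorSpaceIndex K R0) :=
  Finset.univ.biUnion fun q : Col κ n × Rel κ =>
    ((Algebra.TensorProduct.basis B (Module.Basis.ofVectorSpace K R0)).repr
      (relMap S v B c (Pi.single q.1 1) q.2)).support

lemma Dmat_eq_zero_of_notMem (ρ : Rel κ) (γ : Module.Basis.ofVectorSpaceIndex K R0)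
    (hγ : γ ∉ suppSet (v := v) B c) (col : Col κ n) : Dmat (v := v) B c (ρ, γ) col = 0 := by
  classical
  by_contra h
  apply hγ
  rw [suppSet, Finset.mem_biUnion]
  refine ⟨(col, ρ), Finset.mem_univ _, ?_⟩
  rw [Finsupp.mem_support_iff]
  exact h

variable {B} {B' : Type*} [CommRing B'] [Algebra K B'] (φ : B →ₐ[K] B')

/-- the base-changed coefficients -/
noncomputable def baseCoeff : ∀ i, κ i → ∀ j, κ j → B' ⊗[K] R0 :=
  fun i k j l => baseMap R0 φ (c i k j l)

lemma tupleMap_baseMap (x : Col κ n → B) (i : ι) (k : κ i) :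
    tupleMap S v B' (fun col => φ (x col)) i k = baseMap R0 φ (tupleMap S v B x i k) := by
  rw [tupleMap_apply, tupleMap_apply, baseMap_coordMap]

lemma relMap_baseMap (x : Col κ n → B) (ρ : Rel κ) :
    relMap S v B' (baseCoeff c φ) (fun col => φ (x col)) ρ =
      baseMap R0 φ (relMap S v B c x ρ) := by
  rw [relMap_apply, relMap_apply, map_sub, map_sum]
  simp only [map_mul, tupleMap_baseMap, baseCoeff]

lemma relMap_eq_sum (x' : Col κ n → B') (ρ : Rel κ) :
    relMap S v B' (baseCoeff c φ) x' ρ =
      ∑ col, x' col • baseMap R0 φ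
        (open Classical in relMap S v B c (Pi.single col 1) ρ) := by
  classical
  rw [LinearMap.pi_apply_eq_sum_univ (relMap S v B' (baseCoeff c φ)) x']
  rw [Finset.sum_apply]
  refine Finset.sum_congr rfl fun col _ => ?_
  rw [Pi.smul_apply, ← relMap_baseMap]
  have hfun : (fun j => if col = j then (1 : B') else 0) =
      (fun col_1 => φ ((Pi.single col 1 : Col κ n → B) col_1)) := by
    funext j
    by_cases h : col = j
    · subst h; simp
    · simp [h, Ne.symm h]
  rw [hfun]

lemma repr_relMap (x' : Col κ n → B') (ρ : Rel κ) (γ : Module.Basis.ofVectorSpaceIndex K R0) :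
    (Algebra.TensorProduct.basis B' (Module.Basis.ofVectorSpace K R0)).repr
      (relMap S v B' (baseCoeff c φ) x' ρ) γ =
      ∑ col, φ (Dmat (v := v) B c (ρ, γ) col) * x' col := by
  classical
  rw [relMap_eq_sum, map_sum, Finsupp.finsetSum_apply]
  refine Finset.sum_congr rfl fun col _ => ?_
  rw [map_smul, Finsupp.smul_apply, repr_baseMap, smul_eq_mul, mul_comm]
  rfl

lemma mem_ker_relMap_iff (x' : Col κ n → B') :
    x' ∈ LinearMap.ker (relMap S v B' (baseCoeff c φ)) ↔
      ∀ (ρ : Rel κ) (γ : suppSet (v := v) B c),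
        ∑ col, φ (Dmat (v := v) B c (ρ, γ.1) col) * x' col = 0 := by
  rw [LinearMap.mem_ker]
  constructor
  · intro h ρ γ
    rw [← repr_relMap, h]
    simp
  · intro h
    funext ρ
    apply (Algebra.TensorProduct.basis B' (Module.Basis.ofVectorSpace K R0)).repr.injective
    ext γ
    rw [repr_relMap]
    by_cases hγ : γ ∈ suppSet (v := v) B c
    · rw [h ρ ⟨γ, hγ⟩]
      simp
    · simp [Dmat_eq_zero_of_notMem B c ρ γ hγ]

variable (B)

/-- the presentation matrix, with its natural index types -/
noncomputable def rawMatrix : Matrix (Rel κ × ↥(suppSet (v := v) B c)) (Col κ n) B :=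
  fun p col => Dmat (v := v) B c (p.1, p.2.1) col

variable {B}

lemma mem_ker_relMap_iff_mulVec (x' : Col κ n → B') :
    x' ∈ LinearMap.ker (relMap S v B' (baseCoeff c φ)) ↔
      ((rawMatrix (v := v) B c).map φ).mulVec x' = 0 := by
  rw [mem_ker_relMap_iff]
  constructor
  · intro h
    funext p
    exact h p.1 p.2
  · intro h ρ γ
    exact congrFun h (ρ, γ)

/-- number of columns -/
noncomputable def presN₀ (κ : ι → Type*) [∀ i, Fintype (κ i)] (n : ι → ℕ) : ℕ :=
  Fintype.card (Col κ n)

variable (B)

/-- number of rows -/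
noncomputable def presN₁ : ℕ := Fintype.card (Rel κ × ↥(suppSet (v := v) B c))

/-- numbering of the columns -/
noncomputable def colEquiv (κ : ι → Type*) [∀ i, Fintype (κ i)] (n : ι → ℕ) :
    Col κ n ≃ Fin (presN₀ κ n) := Fintype.equivFin _

/-- numbering of the rows -/
noncomputable def rowEquiv :
    (Rel κ × ↥(suppSet (v := v) B c)) ≃ Fin (presN₁ (v := v) B c) := Fintype.equivFin _

/-- **The presentation matrix** over the base ring `B`. -/
noncomputable def presMatrix : Matrix (Fin (presN₁ (v := v) B c)) (Fin (presN₀ κ n)) B :=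
  fun q a => rawMatrix (v := v) B c ((rowEquiv (v := v) B c).symm q) ((colEquiv κ n).symm a)

variable {B}

lemma presMatrix_mulVec (y : Fin (presN₀ κ n) → B') (q : Fin (presN₁ (v := v) B c)) :
    ((presMatrix (v := v) B c).map φ).mulVec y q =
      ((rawMatrix (v := v) B c).map φ).mulVec
        (fun col => y (colEquiv κ n col)) ((rowEquiv (v := v) B c).symm q) := by
  simp only [Matrix.mulVec, dotProduct, Matrix.map_apply, presMatrix]
  refine (Fintype.sum_equiv (colEquiv κ n) _ _ fun col => ?_).symm
  simp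

lemma presMatrix_mulVec_eq_zero_iff (y : Fin (presN₀ κ n) → B') :
    ((presMatrix (v := v) B c).map φ).mulVec y = 0 ↔
      (fun col => y (colEquiv κ n col)) ∈ LinearMap.ker (relMap S v B' (baseCoeff c φ)) := by
  rw [mem_ker_relMap_iff_mulVec]
  constructor
  · intro h
    funext p
    have := congrFun h (rowEquiv (v := v) B c p)
    rw [presMatrix_mulVec, Equiv.symm_apply_apply] at this
    exact this
  · intro h
    funext q
    rw [presMatrix_mulVec, h]
    rfl

/-- Renumbering of the kernel. -/
noncomputable def kerColEquiv :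
    LinearMap.ker (relMap S v B' (baseCoeff c φ)) ≃ₗ[B']
      LinearMap.ker ((presMatrix (v := v) B c).map φ).mulVecLin where
  toFun x := ⟨fun a => x.1 ((colEquiv κ n).symm a), by
    rw [LinearMap.mem_ker, Matrix.mulVecLin_apply, presMatrix_mulVec_eq_zero_iff]
    simp⟩
  invFun y := ⟨fun col => y.1 (colEquiv κ n col), by
    have := y.2
    rw [LinearMap.mem_ker, Matrix.mulVecLin_apply, presMatrix_mulVec_eq_zero_iff] at this
    exact this⟩
  map_add' x y := rfl
  map_smul' b x := rfl
  left_inv x := by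
    apply Subtype.ext
    funext col
    simp
  right_inv y := by
    apply Subtype.ext
    funext a
    simp

/-- **Presentation of the tensor cross kernel** as the kernel of the base-changed presentation
matrix. -/
noncomputable def crossPresentEquiv :
    tensorCrossKer S B' (baseCoeff c φ) ≃ₗ[B']
      LinearMap.ker ((presMatrix (v := v) B c).map φ).mulVecLin :=
  (crossEquivKer (v := v) (baseCoeff c φ)).trans (kerColEquiv (v := v) c φ)

/-- The defining formula: `f i k = ∑ β, (crossPresentEquiv f)(i,k,β) ⊗ v i β`. -/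
lemma eq_coordMap_crossPresentEquiv (f : tensorCrossKer S B' (baseCoeff c φ)) (i : ι) (k : κ i) :
    f.1 i k = coordMap K B' (vR S v i)
      (fun β => (crossPresentEquiv (v := v) c φ f).1 (colEquiv κ n ⟨i, k, β⟩)) := by
  have h := congrFun (congrFun (tupleMap_crossEquivKer (v := v) (baseCoeff c φ) f) i) k
  rw [← h, tupleMap_apply]
  congr 1
  funext β
  simp [crossPresentEquiv, kerColEquiv]

/-- **Naturality**: if two cross-kernel tuples (over `B'` and `B''`) correspond under the base
change map, so do the kernel vectors. -/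
lemma crossPresentEquiv_natural {B'' : Type*} [CommRing B''] [Algebra K B''] (φ' : B →ₐ[K] B'')
    (χ : B' →ₐ[K] B'') (f : tensorCrossKer S B' (baseCoeff c φ))
    (f' : tensorCrossKer S B'' (baseCoeff c φ'))
    (h : ∀ i k, f'.1 i k = baseMap R0 χ (f.1 i k)) (a : Fin (presN₀ κ n)) :
    (crossPresentEquiv (v := v) c φ' f').1 a = χ ((crossPresentEquiv (v := v) c φ f).1 a) := by
  obtain ⟨⟨i, k, β⟩, rfl⟩ := (colEquiv κ n).surjective a
  have h1 := h i k
  rw [eq_coordMap_crossPresentEquiv (v := v) c φ f i k,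
    eq_coordMap_crossPresentEquiv (v := v) c φ' f' i k, baseMap_coordMap] at h1
  exact congrFun (coordMap_injective (vR_linearIndependent S v i) h1) β

end MatrixForm

end Presentation

end Fermat.Agent.AV.CP
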