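/-
PROJECT AV (S26 long shot) — cohomological primitives, producer side (helper8).

`CP_helper8_Bridge`: abstract ambient data (over `ℤ`, i.e. with no base ring) on a ring `A0'`
identified with `B' ⊗[K] R0` by a ring isomorphism `θ`, whose pole modules and transition
coefficients correspond to the tensor model, has its `H⁰` presented by the base-changed
presentation matrix.
-/
import Mathlib
import Fermat.Agent.AV.CP_helper8_Family

set_option autoImplicit false
set_option linter.unusedSectionVars false

namespace Fermat.Agent.AV.CP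

open TensorProduct
open scoped BigOperators

section AmbientBridge

variable {K : Type*} [Field K] {R0 : Type*} [CommRing R0] [Algebra K R0] {ι : Type*} [Fintype ι]
variable {S : PoleAlg K R0 ι} {κ : ι → Type*} [∀ i, Fintype (κ i)]
variable {n : ι → ℕ} {v : ∀ i, Module.Basis (Fin (n i)) K ↥(S.V i)}
variable {B : Type*} [CommRing B] [Algebra K B] {c : ∀ i, κ i → ∀ j, κ j → B ⊗[K] R0}
variable {B' : Type*} [CommRing B'] [Algebra K B'] {φ : B →ₐ[K] B'}
variable {A0' : Type*} [CommRing A0'] {M0' : Type*} [AddCommGroup M0'] [Module A0' M0']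
variable {θ : B' ⊗[K] R0 ≃+* A0'} {D : AmbientData ℤ A0' M0' ι κ}

/-- Transport of the cross kernel of the ambient data to the tensor model. -/
noncomputable def crossTransport
    (hP : ∀ i j (a : A0'), a ∈ D.P i j ↔ θ.symm a ∈ S.poleMod B' i j)
    (hc : ∀ i k j l, θ.symm (D.coeff i k j l) = baseMap R0 φ (c i k j l)) :
    D.crossKer ≃+ tensorCrossKer S B' (baseCoeff c φ) where
  toFun f := ⟨fun i k => θ.symm (f.1 i k), by
    obtain ⟨hf1, hf2⟩ := f.2
    refine ⟨fun i k => ?_, fun i k j => ?_⟩
    · rw [← S.iInf_poleMod B' i, Submodule.mem_iInf]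
      intro j
      have := hf1 i k
      simp only [AmbientData.V, Submodule.mem_iInf] at this
      exact (hP i j _).1 (this j)
    · have := congrArg θ.symm (hf2 i k j)
      rw [map_sum] at this
      simp only [map_mul, hc] at this
      exact this⟩
  invFun g := ⟨fun i k => θ (g.1 i k), by
    obtain ⟨hg1, hg2⟩ := g.2
    refine ⟨fun i k => ?_, fun i k j => ?_⟩
    · simp only [AmbientData.V, Submodule.mem_iInf]
      intro j
      rw [hP i j, RingEquiv.symm_apply_apply]
      have := hg1 i k
      rw [← S.iInf_poleMod B' i, Submodule.mem_iInf] at this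
      exact this j
    · have := congrArg θ (hg2 i k j)
      rw [map_sum] at this
      simp only [map_mul, baseCoeff, ← hc, RingEquiv.apply_symm_apply] at this
      exact this⟩
  left_inv f := by
    apply Subtype.ext
    funext i k
    simp
  right_inv g := by
    apply Subtype.ext
    funext i k
    simp
  map_add' f g := by
    apply Subtype.ext
    funext i k
    simp

/-- **Presentation of the global sections of abstract ambient data.** -/
noncomputable def ambientPresentEquiv [Nonempty ι]
    (hP : ∀ i j (a : A0'), a ∈ D.P i j ↔ θ.symm a ∈ S.poleMod B' i j)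
    (hc : ∀ i k j l, θ.symm (D.coeff i k j l) = baseMap R0 φ (c i k j l)) :
    D.H0 ≃+ LinearMap.ker ((presMatrix (v := v) B c).map φ).mulVecLin :=
  D.h0Equiv.toAddEquiv.trans
    ((crossTransport hP hc).trans (crossPresentEquiv (v := v) c φ).toAddEquiv)

/-- The defining formula. -/
lemma τ_eq_coordMap_ambientPresentEquiv [Nonempty ι]
    (hP : ∀ i j (a : A0'), a ∈ D.P i j ↔ θ.symm a ∈ S.poleMod B' i j)
    (hc : ∀ i k j l, θ.symm (D.coeff i k j l) = baseMap R0 φ (c i k j l))
    (s : D.H0) (i : ι) (k : κ i) :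
    θ.symm (D.τ i k s) = coordMap K B' (vR S v i)
      (fun β => (ambientPresentEquiv (v := v) hP hc s).1 (colEquiv κ n ⟨i, k, β⟩)) := by
  have := eq_coordMap_crossPresentEquiv (v := v) c φ (crossTransport hP hc (D.h0Equiv s)) i k
  exact this

/-- Uniqueness: the kernel vector is determined by the formula. -/
lemma ambientPresentEquiv_unique [Nonempty ι]
    (hP : ∀ i j (a : A0'), a ∈ D.P i j ↔ θ.symm a ∈ S.poleMod B' i j)
    (hc : ∀ i k j l, θ.symm (D.coeff i k j l) = baseMap R0 φ (c i k j l))
    (s : D.H0) (y : Fin (presN₀ κ n) → B')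
    (hy : ∀ i k, θ.symm (D.τ i k s) = coordMap K B' (vR S v i)
      (fun β => y (colEquiv κ n ⟨i, k, β⟩))) :
    (ambientPresentEquiv (v := v) hP hc s).1 = y := by
  funext a
  obtain ⟨⟨i, k, β⟩, rfl⟩ := (colEquiv κ n).surjective a
  have h1 := hy i k
  rw [τ_eq_coordMap_ambientPresentEquiv (v := v) hP hc s i k] at h1
  exact congrFun (coordMap_injective (vR_linearIndependent S v i) h1) β

/-- Semilinearity over `B'`. -/
lemma ambientPresentEquiv_smul [Nonempty ι]
    (hP : ∀ i j (a : A0'), a ∈ D.P i j ↔ θ.symm a ∈ S.poleMod B' i j)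
    (hc : ∀ i k j l, θ.symm (D.coeff i k j l) = baseMap R0 φ (c i k j l))
    (b : B') (s s' : D.H0) (h : (s' : M0') = θ (b ⊗ₜ 1) • (s : M0')) :
    (ambientPresentEquiv (v := v) hP hc s').1 = b • (ambientPresentEquiv (v := v) hP hc s).1 := by
  apply ambientPresentEquiv_unique
  intro i k
  rw [h, map_smul, smul_eq_mul, map_mul, RingEquiv.symm_apply_apply,
    τ_eq_coordMap_ambientPresentEquiv (v := v) hP hc s i k]
  have h2 : (fun β => (b • (ambientPresentEquiv (v := v) hP hc s).1) (colEquiv κ n ⟨i, k, β⟩)) =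
      b • (fun β => (ambientPresentEquiv (v := v) hP hc s).1 (colEquiv κ n ⟨i, k, β⟩)) := rfl
  rw [h2, map_smul, Algebra.smul_def, Algebra.TensorProduct.algebraMap_apply]
  rfl

/-- **Naturality** with respect to a change of the coefficient ring `B' → B''`. -/
lemma ambientPresentEquiv_natural [Nonempty ι]
    (hP : ∀ i j (a : A0'), a ∈ D.P i j ↔ θ.symm a ∈ S.poleMod B' i j)
    (hc : ∀ i k j l, θ.symm (D.coeff i k j l) = baseMap R0 φ (c i k j l))
    {B'' : Type*} [CommRing B''] [Algebra K B''] {φ' : B →ₐ[K] B''}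
    {A0'' : Type*} [CommRing A0''] {M0'' : Type*} [AddCommGroup M0''] [Module A0'' M0'']
    {θ' : B'' ⊗[K] R0 ≃+* A0''} {D' : AmbientData ℤ A0'' M0'' ι κ}
    (hP' : ∀ i j (a : A0''), a ∈ D'.P i j ↔ θ'.symm a ∈ S.poleMod B'' i j)
    (hc' : ∀ i k j l, θ'.symm (D'.coeff i k j l) = baseMap R0 φ' (c i k j l))
    (χ : B' →ₐ[K] B'') (s : D.H0) (s' : D'.H0)
    (h : ∀ i k, θ'.symm (D'.τ i k s') = baseMap R0 χ (θ.symm (D.τ i k s)))
    (a : Fin (presN₀ κ n)) :
    (ambientPresentEquiv (v := v) hP' hc' s').1 a =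
      χ ((ambientPresentEquiv (v := v) hP hc s).1 a) := by
  have key : (ambientPresentEquiv (v := v) hP' hc' s').1 =
      fun a => χ ((ambientPresentEquiv (v := v) hP hc s).1 a) := by
    apply ambientPresentEquiv_unique
    intro i k
    rw [h i k, τ_eq_coordMap_ambientPresentEquiv (v := v) hP hc s i k, baseMap_coordMap]
  exact congrFun key a

end AmbientBridge

end Fermat.Agent.AV.CP
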