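/-
PROJECT AV (S26 long shot) — cohomological primitives, producer side (helper8).

`CP_helper8_Kunneth`: `K`-algebra structures on sections of `K`-schemes (class `KScheme`) and the
Künneth isomorphism `Γ(T, ⊤) ⊗[K] Γ(X, U) ≃+* Γ(X ×_K T, p₁⁻¹ U)` for affine `T` and affine `U`,
with its naturality.
-/
import Mathlib
import Fermat.Agent.AV.LB_helper5_Core

set_option autoImplicit false

open AlgebraicGeometry CategoryTheory Opposite TopologicalSpace TensorProduct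

universe u

namespace Fermat.Agent.AV.CP

open Fermat.Agent.AV

noncomputable section

/-- A scheme together with a structure morphism to `Spec K`. -/
class KScheme (K : Type u) [Field K] (X : Scheme.{u}) where
  /-- the structure morphism -/
  str : X ⟶ Spec (CommRingCat.of K)

variable {K : Type u} [Field K]

lemma le_preimage_top {X Y : Scheme.{u}} (f : X ⟶ Y) (U : X.Opens) : U ≤ f ⁻¹ᵁ ⊤ :=
  fun _ _ => trivial

/-- the structure map `K → Γ(X, U)` -/
def kToΓ (K : Type u) [Field K] (X : Scheme.{u}) [KScheme K X] (U : X.Opens) : K →+* Γ(X, U) :=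
  ((KScheme.str (K := K) (X := X)).appLE ⊤ U (le_preimage_top _ U)).hom.comp
    (Scheme.ΓSpecIso (CommRingCat.of K)).inv.hom

instance kAlgebraΓ {X : Scheme.{u}} [KScheme K X] (U : X.Opens) : Algebra K Γ(X, U) :=
  (kToΓ K X U).toAlgebra

lemma algebraMap_Γ_eq {X : Scheme.{u}} [KScheme K X] (U : X.Opens) (c : K) :
    algebraMap K Γ(X, U) c = kToΓ K X U c := rfl

lemma res_kToΓ {X : Scheme.{u}} [KScheme K X] {V U : X.Opens} (h : U ≤ V) (c : K) :
    res U h (kToΓ K X V c) = kToΓ K X U c := by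
  simp only [kToΓ, RingHom.comp_apply, res]
  rw [← CommRingCat.comp_apply, Scheme.Hom.appLE_map]

/-- restriction as a `K`-algebra homomorphism -/
def resAlgHom {X : Scheme.{u}} [KScheme K X] {V : X.Opens} (U : X.Opens) (h : U ≤ V) :
    Γ(X, V) →ₐ[K] Γ(X, U) where
  toRingHom := res U h
  commutes' c := res_kToΓ h c

@[simp] lemma resAlgHom_apply {X : Scheme.{u}} [KScheme K X] {V : X.Opens} (U : X.Opens)
    (h : U ≤ V) (a : Γ(X, V)) : resAlgHom (K := K) U h a = res U h a := rfl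

lemma app_kToΓ {X Y : Scheme.{u}} [KScheme K X] [KScheme K Y] (f : Y ⟶ X)
    (hf : f ≫ KScheme.str (K := K) = KScheme.str) (U : X.Opens) (c : K) :
    (f.app U).hom (kToΓ K X U c) = kToΓ K Y (f ⁻¹ᵁ U) c := by
  simp only [kToΓ, RingHom.comp_apply]
  rw [← CommRingCat.comp_apply, Scheme.Hom.app_eq_appLE, Scheme.Hom.appLE_comp_appLE]
  congr 2
  simp only [hf]

/-- pull-back of functions along a `K`-morphism, as a `K`-algebra homomorphism -/
def appAlgHom {X Y : Scheme.{u}} [KScheme K X] [KScheme K Y] (f : Y ⟶ X)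
    (hf : f ≫ KScheme.str (K := K) = KScheme.str) (U : X.Opens) :
    Γ(X, U) →ₐ[K] Γ(Y, f ⁻¹ᵁ U) where
  toRingHom := (f.app U).hom
  commutes' c := app_kToΓ f hf U c

@[simp] lemma appAlgHom_apply {X Y : Scheme.{u}} [KScheme K X] [KScheme K Y] (f : Y ⟶ X)
    (hf : f ≫ KScheme.str (K := K) = KScheme.str) (U : X.Opens) (a : Γ(X, U)) :
    appAlgHom f hf U a = (f.app U).hom a := rfl

/-! ### The Künneth isomorphism -/

section Kunneth

variable {X T Y : Scheme.{u}} [KScheme K X] [KScheme K T] (p₁ : Y ⟶ X) (p₂ : Y ⟶ T)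

/-- `p₂^* : Γ(T, ⊤) → Γ(Y, p₁⁻¹ U)`. -/
def kunβ (U : X.Opens) : Γ(T, ⊤) →+* Γ(Y, p₁ ⁻¹ᵁ U) :=
  (p₂.appLE ⊤ (p₁ ⁻¹ᵁ U) (le_preimage_top _ _)).hom

/-- `p₁^* : Γ(X, U) → Γ(Y, p₁⁻¹ U)`. -/
def kunα (U : X.Opens) : Γ(X, U) →+* Γ(Y, p₁ ⁻¹ᵁ U) := (p₁.app U).hom

variable {p₁ p₂}

theorem kunneth_isPushout [IsAffine T]
    (H : IsPullback p₁ p₂ (KScheme.str (K := K)) (KScheme.str (K := K)))
    {U : X.Opens} (hU : IsAffineOpen U) :
    IsPushout (CommRingCat.ofHom (algebraMap K Γ(T, ⊤)))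
      (CommRingCat.ofHom (algebraMap K Γ(X, U)))
      (CommRingCat.ofHom (kunβ p₁ p₂ U)) (CommRingCat.ofHom (kunα p₁ U)) := by
  have hUY : p₁ ⁻¹ᵁ U = p₁ ⁻¹ᵁ U ⊓ p₂ ⁻¹ᵁ ⊤ := by
    ext x
    simp
  have h1 := isIso_pushoutSection_of_isAffineOpen H (US := ⊤) (UT := ⊤) (UX := U)
    (le_preimage_top _ _) (le_preimage_top _ _) hUY (isAffineOpen_top _) (isAffineOpen_top T) hU
  have h2 := ((isIso_pushoutSection_iff H (le_preimage_top _ _) (le_preimage_top _ _) hUY).1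
    h1).flip
  refine h2.of_iso (Scheme.ΓSpecIso (CommRingCat.of K)) (Iso.refl _) (Iso.refl _) (Iso.refl _)
    ?_ ?_ ?_ ?_
  · ext c
    simp [algebraMap_Γ_eq, kToΓ]
  · ext c
    simp [algebraMap_Γ_eq, kToΓ]
  · ext b
    simp [kunβ]
  · ext r
    simp [kunα, Scheme.Hom.appLE_eq_app]

/-- **Künneth**: `Γ(T, ⊤) ⊗[K] Γ(X, U) ≃+* Γ(X ×_K T, p₁⁻¹ U)` for affine `T`, `U`. -/
def kunneth [IsAffine T]
    (H : IsPullback p₁ p₂ (KScheme.str (K := K)) (KScheme.str (K := K)))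
    {U : X.Opens} (hU : IsAffineOpen U) :
    Γ(T, ⊤) ⊗[K] Γ(X, U) ≃+* Γ(Y, p₁ ⁻¹ᵁ U) :=
  ((CommRingCat.isPushout_tensorProduct K Γ(T, ⊤) Γ(X, U)).isoIsPushout _ _
    (kunneth_isPushout H hU)).commRingCatIsoToRingEquiv

lemma kunneth_tmul_one [IsAffine T]
    (H : IsPullback p₁ p₂ (KScheme.str (K := K)) (KScheme.str (K := K)))
    {U : X.Opens} (hU : IsAffineOpen U) (b : Γ(T, ⊤)) :
    kunneth H hU (b ⊗ₜ 1) = kunβ p₁ p₂ U b := by
  have := (CommRingCat.isPushout_tensorProduct K Γ(T, ⊤) Γ(X, U)).inl_isoIsPushout_hom _ _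
    (kunneth_isPushout H hU)
  exact congrArg (fun f => f.hom b) this

lemma kunneth_one_tmul [IsAffine T]
    (H : IsPullback p₁ p₂ (KScheme.str (K := K)) (KScheme.str (K := K)))
    {U : X.Opens} (hU : IsAffineOpen U) (r : Γ(X, U)) :
    kunneth H hU (1 ⊗ₜ r) = kunα p₁ U r := by
  have := (CommRingCat.isPushout_tensorProduct K Γ(T, ⊤) Γ(X, U)).inr_isoIsPushout_hom _ _
    (kunneth_isPushout H hU)
  exact congrArg (fun f => f.hom r) this

lemma kunneth_tmul [IsAffine T]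
    (H : IsPullback p₁ p₂ (KScheme.str (K := K)) (KScheme.str (K := K)))
    {U : X.Opens} (hU : IsAffineOpen U) (b : Γ(T, ⊤)) (r : Γ(X, U)) :
    kunneth H hU (b ⊗ₜ r) = kunβ p₁ p₂ U b * kunα p₁ U r := by
  have : b ⊗ₜ[K] r = (b ⊗ₜ 1) * (1 ⊗ₜ r) := by
    rw [Algebra.TensorProduct.tmul_mul_tmul, mul_one, one_mul]
  rw [this, map_mul, kunneth_tmul_one, kunneth_one_tmul]

/-- Naturality of Künneth in the open set. -/
lemma res_kunneth [IsAffine T]
    (H : IsPullback p₁ p₂ (KScheme.str (K := K)) (KScheme.str (K := K)))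
    {U U' : X.Opens} (hU : IsAffineOpen U) (hU' : IsAffineOpen U') (h : U' ≤ U)
    (x : Γ(T, ⊤) ⊗[K] Γ(X, U)) :
    res (p₁ ⁻¹ᵁ U') (p₁.preimage_mono h) (kunneth H hU x) =
      kunneth H hU' (Algebra.TensorProduct.map (AlgHom.id K _) (resAlgHom U' h) x) := by
  induction x with
  | zero => simp
  | add x y hx hy => simp only [map_add, hx, hy]
  | tmul b r =>
    rw [Algebra.TensorProduct.map_tmul, kunneth_tmul, kunneth_tmul, map_mul]
    congr 1
    · simp only [kunβ, res]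
      rw [← CommRingCat.comp_apply, Scheme.Hom.appLE_map]
      rfl
    · simp only [kunα, resAlgHom_apply]
      exact (app_res p₁ h r).symm

/-- pull-back of global functions as a `K`-algebra homomorphism -/
def appTopAlgHom {T T' : Scheme.{u}} [KScheme K T] [KScheme K T'] (φ : T' ⟶ T)
    (hφ : φ ≫ KScheme.str (K := K) = KScheme.str) : Γ(T, ⊤) →ₐ[K] Γ(T', ⊤) where
  toRingHom := φ.appTop.hom
  commutes' c := app_kToΓ φ hφ ⊤ c

@[simp] lemma appTopAlgHom_apply {T T' : Scheme.{u}} [KScheme K T] [KScheme K T'] (φ : T' ⟶ T)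
    (hφ : φ ≫ KScheme.str (K := K) = KScheme.str) (b : Γ(T, ⊤)) :
    appTopAlgHom φ hφ b = φ.appTop.hom b := rfl

/-- Naturality of Künneth in the base. -/
lemma app_kunneth [IsAffine T] {T' Y' : Scheme.{u}} [KScheme K T'] [IsAffine T']
    (H : IsPullback p₁ p₂ (KScheme.str (K := K)) (KScheme.str (K := K)))
    (φ : T' ⟶ T) (hφ : φ ≫ KScheme.str (K := K) = KScheme.str) (p₂' : Y' ⟶ T') (ψ : Y' ⟶ Y)
    (H' : IsPullback (ψ ≫ p₁) p₂' (KScheme.str (K := K)) (KScheme.str (K := K)))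
    (hψ : ψ ≫ p₂ = p₂' ≫ φ)
    {U : X.Opens} (hU : IsAffineOpen U) (x : Γ(T, ⊤) ⊗[K] Γ(X, U)) :
    (ψ.app (p₁ ⁻¹ᵁ U)).hom (kunneth H hU x) =
      kunneth H' hU (Algebra.TensorProduct.map (appTopAlgHom φ hφ) (AlgHom.id K _) x) := by
  induction x with
  | zero =>
    rw [map_zero, map_zero, map_zero]
    exact (map_zero (kunneth H' hU)).symm
  | add x y hx hy =>
    rw [map_add, map_add, hx, hy, map_add]
    exact (map_add (kunneth H' hU) _ _).symm
  | tmul b r =>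
    rw [Algebra.TensorProduct.map_tmul, kunneth_tmul, kunneth_tmul, map_mul]
    congr 1
    · simp only [kunβ, appTopAlgHom_apply]
      rw [← CommRingCat.comp_apply, ← CommRingCat.comp_apply, Scheme.Hom.app_eq_appLE,
        Scheme.Hom.appLE_comp_appLE]
      have h3 : φ.appTop = φ.appLE ⊤ ⊤ (le_preimage_top _ _) := by
        rw [Scheme.Hom.appTop, Scheme.Hom.app_eq_appLE]
        rfl
      rw [h3, Scheme.Hom.appLE_comp_appLE]
      congr 2
      simp only [hψ]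
      rfl

end Kunneth

end

end Fermat.Agent.AV.CP
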