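/-
PROJECT AV (S26 long shot) — cohomological primitives, producer side (helper8).

`CP_helper8_PoleSys`: the X-side contract.  A `PoleSystem` on a `K`-scheme `X` is a finite affine
open cover `U i` with a schematically dense affine open `U₀ ≤ U i` and an exhaustive filtration
`Q m i j` of (the image in `Γ(X, U₀)` of) `Γ(X, U i ⊓ U j)` by `Γ(X, U j)`-submodules
("functions with poles of order `≤ m` along `X ∖ U i`, regular on `U j`") whose global parts
`⨅ j, Q m i j` (`= H⁰(X, O(m D_i))`) are finite-dimensional.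
-/
import Mathlib
import Fermat.Agent.AV.CP_helper8_Kunneth
import Fermat.Agent.AV.CP_helper8_Family

set_option autoImplicit false

open AlgebraicGeometry CategoryTheory Opposite TopologicalSpace TensorProduct

universe u

namespace Fermat.Agent.AV.CP

open Fermat.Agent.AV

noncomputable section

/-- The X-side input of the producer of the universal `H⁰`-complex. -/
structure PoleSystem (K : Type u) [Field K] (X : Scheme.{u}) [KScheme K X] where
  /-- the charts -/
  ι : Type u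
  [fintype : Fintype ι]
  [nonempty : Nonempty ι]
  /-- the affine charts -/
  U : ι → X.Opens
  /-- the dense chart -/
  U₀ : X.Opens
  affine : ∀ i, IsAffineOpen (U i)
  affine₀ : IsAffineOpen U₀
  affine₂ : ∀ i j, IsAffineOpen (U i ⊓ U j)
  le : ∀ i, U₀ ≤ U i
  cover : ⨆ i, U i = ⊤
  dense₀ : IsSchemeTheoreticallyDominant U₀.ι
  qc₀ : QuasiCompact U₀.ι
  /-- the pole filtration -/
  Q : ℕ → ι → ι → Submodule K Γ(X, U₀)
  Q_mono : ∀ {m m' : ℕ}, m ≤ m' → ∀ i j, Q m i j ≤ Q m' i j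
  Q_mul : ∀ m i j (r : Γ(X, U j)) (q : Γ(X, U₀)), q ∈ Q m i j → res U₀ (le j) r * q ∈ Q m i j
  Q_diag : ∀ m j (q : Γ(X, U₀)), q ∈ Q m j j → ∃ r : Γ(X, U j), res U₀ (le j) r = q
  Q_exhaust : ∀ i j (a : Γ(X, U i ⊓ U j)), ∃ m, res U₀ (le_inf (le i) (le j)) a ∈ Q m i j
  Q_finite : ∀ m i, Module.Finite K ↥(⨅ j, Q m i j)

attribute [instance] PoleSystem.fintype PoleSystem.nonempty

namespace PoleSystem

variable {K : Type u} [Field K] {X : Scheme.{u}} [KScheme K X] (PS : PoleSystem K X)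

/-- the static pole data of order `m` -/
def poleAlg (m : ℕ) : PoleAlg K Γ(X, PS.U₀) PS.ι where
  Rsub j := (resAlgHom (K := K) PS.U₀ (PS.le j)).range
  Q := PS.Q m
  Q_mul i j r q hr hq := by
    obtain ⟨r', rfl⟩ := hr
    exact PS.Q_mul m i j r' q hq
  Q_diag j q hq := by
    obtain ⟨r, hr⟩ := PS.Q_diag m j q hq
    exact ⟨r, hr⟩

lemma poleAlg_V (m : ℕ) (i : PS.ι) : (PS.poleAlg m).V i = ⨅ j, PS.Q m i j := rfl

instance (m : ℕ) (i : PS.ι) : Module.Finite K ↥((PS.poleAlg m).V i) := PS.Q_finite m i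

/-- the dimension of `H⁰(X, O(m D_i))` -/
def dimV (m : ℕ) (i : PS.ι) : ℕ := Module.finrank K ↥((PS.poleAlg m).V i)

/-- a basis of `H⁰(X, O(m D_i))` -/
def basisV (m : ℕ) (i : PS.ι) : Module.Basis (Fin (PS.dimV m i)) K ↥((PS.poleAlg m).V i) :=
  Module.finBasis K _

lemma poleMod_mono {m m' : ℕ} (h : m ≤ m') (B' : Type*) [CommRing B'] [Algebra K B']
    (i j : PS.ι) : (PS.poleAlg m).poleMod B' i j ≤ (PS.poleAlg m').poleMod B' i j :=
  Submodule.baseChange_mono (A := B') (PS.Q_mono h i j)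

end PoleSystem

end

end Fermat.Agent.AV.CP
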