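/-
PROJECT AV — producer side (helper8).

`CP_helper8_Cartier`: construction of a `PoleSystem` from CARTIER data.  On an integral `K`-scheme
`X`, given a finite affine cover `U i`, a non-empty affine open `U₀ ≤ U i` and for every `i` a line
bundle `M i` with a section `s i` whose non-vanishing locus is `U i`
(`X.basicOpen ((s i).1 c) = (M i).U c ⊓ U i`), put
`Q m i j = {f ∈ Γ(X, U₀) | ∀ chart c of M i, f * s_{i,c}^m extends from (M i).U c ⊓ U₀ to (M i).U c ⊓ U j}`.
All axioms of `PoleSystem` except finiteness are proved here (`CartierData.toPoleSystem`);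
`CartierData.mem_iInf_Q_iff` identifies `⨅ j, Q m i j` with `{f | f * s^m ∈ H⁰(X, (M i)^m)}`.
`exists_cartierData` produces Cartier data on a quasi-compact integral scheme from
"every non-empty affine open is the non-vanishing locus of a section of a line bundle".
-/
import Mathlib
import Fermat.Agent.AV.CP_helper8_PoleSys
import Fermat.Agent.AV.LBS_helper1_SecOn

set_option autoImplicit false
set_option linter.style.haveILetI false

open AlgebraicGeometry CategoryTheory Opposite TopologicalSpace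

universe u

namespace Fermat.Agent.AV.CP

open Fermat.Agent.AV

noncomputable section

variable {X : Scheme.{u}}

/-! ### Integral schemes: density lemmas -/

theorem inf_nonempty_of_isIntegral [IsIntegral X] (U V : X.Opens) [hU : Nonempty U]
    [hV : Nonempty V] : Nonempty (U ⊓ V : X.Opens) := by
  obtain ⟨⟨x, hx⟩⟩ := hU
  obtain ⟨⟨y, hy⟩⟩ := hV
  obtain ⟨z, hz⟩ := nonempty_preirreducible_inter U.isOpen V.isOpen ⟨x, hx⟩ ⟨y, hy⟩
  exact ⟨⟨z, hz⟩⟩

theorem res_injective_of_isIntegral [IsIntegral X] {V U : X.Opens} (h : U ≤ V) [Nonempty U] :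
    Function.Injective (res U h) :=
  map_injective_of_isIntegral X (homOfLE h)

theorem subsingleton_sections_of_not_nonempty {O : X.Opens} (h : ¬ Nonempty O) :
    Subsingleton Γ(X, O) := by
  have hO : O = ⊥ := by
    rw [eq_bot_iff]
    intro x hx
    exact (h ⟨⟨x, hx⟩⟩).elim
  exact CommRingCat.subsingleton_of_isTerminal (X.sheaf.isTerminalOfEqEmpty hO)

/-- on an integral scheme, two sections agree on `O` as soon as they agree on `O ⊓ D` for a
non-empty open `D`. -/
theorem res_eq_res_of_dense [IsIntegral X] {O O₁ O₂ : X.Opens} (D : X.Opens) [Nonempty D]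
    (h₁ : O ≤ O₁) (h₂ : O ≤ O₂) (a₁ : Γ(X, O₁)) (a₂ : Γ(X, O₂))
    (h : res (O ⊓ D) (inf_le_left.trans h₁) a₁ = res (O ⊓ D) (inf_le_left.trans h₂) a₂) :
    res O h₁ a₁ = res O h₂ a₂ := by
  by_cases hO : Nonempty O
  · haveI := hO
    haveI : Nonempty (O ⊓ D : X.Opens) := inf_nonempty_of_isIntegral O D
    apply res_injective_of_isIntegral (inf_le_left : O ⊓ D ≤ O)
    rw [res_res, res_res]
    exact h
  · haveI := subsingleton_sections_of_not_nonempty hO
    exact Subsingleton.elim _ _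

/-- `U.ι` is schematically dominant for a non-empty open of an integral scheme. -/
theorem isSchemeTheoreticallyDominant_ι_of_isIntegral [IsIntegral X] (U : X.Opens)
    [hU : Nonempty U] : IsSchemeTheoreticallyDominant U.ι := by
  have hd : Dense (X := X) (U : Set X) := by
    obtain ⟨⟨x, hx⟩⟩ := hU
    exact U.isOpen.dense ⟨x, hx⟩
  haveI := Opens.isDominant_ι hd
  exact IsSchemeTheoreticallyDominant.of_isDominant U.ι

/-- `U.ι` is quasi-compact for an affine open of a quasi-separated scheme. -/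
theorem quasiCompact_ι_of_isAffineOpen [QuasiSeparatedSpace X] {U : X.Opens}
    (hU : IsAffineOpen U) : QuasiCompact U.ι := by
  haveI : IsAffine U.toScheme := hU
  infer_instance

/-! ### Cartier data -/

/-- Cartier pole data on a `K`-scheme: a finite affine cover `U i`, a non-empty affine open
`U₀ ≤ U i`, and for every `i` a line bundle `M i` with a section `s i` whose non-vanishing locus
is `U i`. -/
structure CartierData (K : Type u) [Field K] (X : Scheme.{u}) [KScheme K X] where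
  /-- the charts -/
  ι : Type u
  [fintype : Fintype ι]
  [nonempty : Nonempty ι]
  /-- the affine charts -/
  U : ι → X.Opens
  /-- the small chart -/
  U₀ : X.Opens
  affine : ∀ i, IsAffineOpen (U i)
  affine₀ : IsAffineOpen U₀
  affine₂ : ∀ i j, IsAffineOpen (U i ⊓ U j)
  le : ∀ i, U₀ ≤ U i
  cover : ⨆ i, U i = ⊤
  nonempty₀ : Nonempty U₀
  /-- the line bundles `O(D_i)` -/
  M : ι → LB X
  finite : ∀ i, Finite (M i).ι
  /-- the canonical sections -/
  s : ∀ i, (M i).H0
  hs : ∀ i c, X.basicOpen ((s i).1 c) = (M i).U c ⊓ U i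
  compact : ∀ i c j, IsCompact (((M i).U c ⊓ U j : X.Opens) : Set X)

attribute [instance] CartierData.fintype CartierData.nonempty CartierData.nonempty₀
  CartierData.finite

namespace CartierData

variable {K : Type u} [Field K] [KScheme K X] (C : CartierData K X)

/-- the chart `c` of `M i` inside `U j` -/
abbrev W (i : C.ι) (c : (C.M i).ι) (j : C.ι) : X.Opens := (C.M i).U c ⊓ C.U j

/-- the chart `c` of `M i` inside `U₀` -/
abbrev W₀ (i : C.ι) (c : (C.M i).ι) : X.Opens := (C.M i).U c ⊓ C.U₀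

lemma W₀_le_W (i : C.ι) (c : (C.M i).ι) (j : C.ι) : C.W₀ i c ≤ C.W i c j :=
  inf_le_inf_left _ (C.le j)

/-- the local equation of `D_i` in the chart `c`, restricted to `U₀` -/
def s₀ (i : C.ι) (c : (C.M i).ι) : Γ(X, C.W₀ i c) := res (C.W₀ i c) inf_le_left ((C.s i).1 c)

/-- the local equation of `D_i` in the chart `c`, restricted to `U j` -/
def sW (i : C.ι) (c : (C.M i).ι) (j : C.ι) : Γ(X, C.W i c j) :=
  res (C.W i c j) inf_le_left ((C.s i).1 c)

lemma res_sW (i : C.ι) (c : (C.M i).ι) (j : C.ι) :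
    res (C.W₀ i c) (C.W₀_le_W i c j) (C.sW i c j) = C.s₀ i c := by
  rw [sW, s₀, res_res]

/-- functions on `U₀` with poles of order `≤ m` along `D_i`, regular on `U j`. -/
def Q (m : ℕ) (i j : C.ι) : Submodule K Γ(X, C.U₀) where
  carrier := {f | ∀ c : (C.M i).ι, ∃ b : Γ(X, C.W i c j),
    res (C.W₀ i c) (C.W₀_le_W i c j) b = res (C.W₀ i c) inf_le_right f * C.s₀ i c ^ m}
  zero_mem' := fun c => ⟨0, by simp⟩
  add_mem' := by
    intro f g hf hg c
    obtain ⟨b, hb⟩ := hf c
    obtain ⟨b', hb'⟩ := hg c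
    exact ⟨b + b', by rw [map_add, map_add, hb, hb', add_mul]⟩
  smul_mem' := by
    intro k f hf c
    obtain ⟨b, hb⟩ := hf c
    refine ⟨kToΓ K X _ k * b, ?_⟩
    rw [map_mul, res_kToΓ, hb, Algebra.smul_def, algebraMap_Γ_eq, map_mul, res_kToΓ, mul_assoc]

lemma mem_Q {m : ℕ} {i j : C.ι} {f : Γ(X, C.U₀)} :
    f ∈ C.Q m i j ↔ ∀ c : (C.M i).ι, ∃ b : Γ(X, C.W i c j),
      res (C.W₀ i c) (C.W₀_le_W i c j) b = res (C.W₀ i c) inf_le_right f * C.s₀ i c ^ m :=
  Iff.rfl

lemma Q_mono {m m' : ℕ} (h : m ≤ m') (i j : C.ι) : C.Q m i j ≤ C.Q m' i j := by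
  intro f hf c
  obtain ⟨b, hb⟩ := hf c
  refine ⟨b * C.sW i c j ^ (m' - m), ?_⟩
  rw [map_mul, map_pow, hb, res_sW, mul_assoc, ← pow_add, Nat.add_sub_cancel' h]

lemma Q_mul (m : ℕ) (i j : C.ι) (r : Γ(X, C.U j)) (q : Γ(X, C.U₀)) (hq : q ∈ C.Q m i j) :
    res C.U₀ (C.le j) r * q ∈ C.Q m i j := by
  intro c
  obtain ⟨b, hb⟩ := hq c
  refine ⟨res (C.W i c j) inf_le_right r * b, ?_⟩
  rw [map_mul, map_mul, hb, res_res, res_res, mul_assoc]

lemma le_iSup_W (i j : C.ι) : C.U j ≤ ⨆ c, C.W i c j := by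
  have h : (⨆ c, (C.M i).U c) ⊓ C.U j = ⨆ c, C.W i c j := iSup_inf_eq _ _
  rw [← h, (C.M i).iSup_U, top_inf_eq]

lemma le_iSup_W₀ (i : C.ι) : C.U₀ ≤ ⨆ c, C.W₀ i c := by
  have h : (⨆ c, (C.M i).U c) ⊓ C.U₀ = ⨆ c, C.W₀ i c := iSup_inf_eq _ _
  rw [← h, (C.M i).iSup_U, top_inf_eq]

lemma isUnit_sW_diag (j : C.ι) (c : (C.M j).ι) : IsUnit (C.sW j c j) := by
  rw [isUnit_iff_le_basicOpen, sW, basicOpen_res', C.hs j c]
  exact le_inf le_rfl le_rfl

lemma isUnit_s₀ (i : C.ι) (c : (C.M i).ι) : IsUnit (C.s₀ i c) := by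
  rw [isUnit_iff_le_basicOpen, s₀, basicOpen_res', C.hs i c]
  exact le_inf le_rfl (inf_le_inf_left _ (C.le i))

lemma Q_diag [IsIntegral X] (m : ℕ) (j : C.ι) (q : Γ(X, C.U₀)) (hq : q ∈ C.Q m j j) :
    ∃ r : Γ(X, C.U j), res C.U₀ (C.le j) r = q := by
  choose b hb using hq
  have hu : ∀ c, IsUnit (C.sW j c j ^ m) := fun c => (C.isUnit_sW_diag j c).pow m
  let rc : ∀ c, Γ(X, C.W j c j) := fun c => b c * ((hu c).unit⁻¹ : (Γ(X, C.W j c j))ˣ)
  have hrc : ∀ c, res (C.W₀ j c) (C.W₀_le_W j c j) (rc c) = res (C.W₀ j c) inf_le_right q := by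
    intro c
    have h1 : rc c * C.sW j c j ^ m = b c := by
      show b c * ((hu c).unit⁻¹ : (Γ(X, C.W j c j))ˣ) * C.sW j c j ^ m = b c
      rw [mul_assoc]
      have : (((hu c).unit⁻¹ : (Γ(X, C.W j c j))ˣ) : Γ(X, C.W j c j)) * C.sW j c j ^ m = 1 := by
        have h := (hu c).unit.inv_mul
        rw [IsUnit.unit_spec] at h
        exact h
      rw [this, mul_one]
    have h2 := congrArg (res (C.W₀ j c) (C.W₀_le_W j c j)) h1
    rw [map_mul, map_pow, res_sW, hb c] at h2
    exact ((C.isUnit_s₀ j c).pow m).mul_left_injective h2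
  have key : ∀ c (O : X.Opens) (h1 : O ≤ C.W j c j) (h0 : O ≤ C.U₀),
      res O h1 (rc c) = res O h0 q := by
    intro c O h1 h0
    have hO : O ≤ C.W₀ j c := le_inf (h1.trans inf_le_left) h0
    have := congrArg (res O hO) (hrc c)
    rw [res_res, res_res] at this
    exact this
  obtain ⟨r, hr, -⟩ := exists_glue (fun c => C.W j c j) (fun c => inf_le_right)
    (C.le_iSup_W j j) rc (by
      intro c c'
      apply res_eq_res_of_dense C.U₀
      rw [key c _ _ inf_le_right, key c' _ _ inf_le_right])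
  refine ⟨r, ?_⟩
  refine eq_of_res_eq (fun c => C.W₀ j c) (fun c => inf_le_right) (C.le_iSup_W₀ j) _ _ ?_
  intro c
  rw [res_res, ← hrc c, ← hr c, res_res]

lemma Q_exhaust [QuasiSeparatedSpace X] (i j : C.ι) (a : Γ(X, C.U i ⊓ C.U j)) :
    ∃ m, res C.U₀ (le_inf (C.le i) (C.le j)) a ∈ C.Q m i j := by
  classical
  haveI : Fintype (C.M i).ι := Fintype.ofFinite _
  have hbo : ∀ c, X.basicOpen (C.sW i c j) = C.W i c j ⊓ ((C.M i).U c ⊓ C.U i) := by
    intro c
    rw [sW, basicOpen_res', C.hs i c]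
  have hle : ∀ c, X.basicOpen (C.sW i c j) ≤ C.U i ⊓ C.U j := by
    intro c
    rw [hbo c]
    exact le_inf (inf_le_right.trans inf_le_right) (inf_le_left.trans inf_le_right)
  have h₀le : ∀ c, C.W₀ i c ≤ X.basicOpen (C.sW i c j) := by
    intro c
    rw [hbo c]
    exact le_inf (C.W₀_le_W i c j) (inf_le_inf_left _ (C.le i))
  have hex : ∀ c, ∃ (n : ℕ) (y : Γ(X, C.W i c j)),
      res (C.W₀ i c) (C.W₀_le_W i c j) y =
        C.s₀ i c ^ n * res (C.W₀ i c) (inf_le_right.trans (le_inf (C.le i) (C.le j))) a := by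
    intro c
    obtain ⟨n, y, hy⟩ := exists_eq_pow_mul_of_isCompact_of_isQuasiSeparated X (C.W i c j)
      (C.compact i c j) (IsQuasiSeparated.of_quasiSeparatedSpace _) (C.sW i c j)
      (res _ (hle c) a)
    refine ⟨n, y, ?_⟩
    have hy' : res (X.basicOpen (C.sW i c j)) (X.basicOpen_le _) y =
        res _ (X.basicOpen_le _) (C.sW i c j) ^ n * res _ (hle c) a := hy
    have := congrArg (res (C.W₀ i c) (h₀le c)) hy'
    rw [map_mul, map_pow, res_res, res_res, res_res, res_sW] at this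
    exact this
  choose n y hy using hex
  refine ⟨Finset.univ.sup n, fun c => ⟨y c * C.sW i c j ^ (Finset.univ.sup n - n c), ?_⟩⟩
  have hn : n c ≤ Finset.univ.sup n := Finset.le_sup (Finset.mem_univ c)
  rw [map_mul, map_pow, res_sW, hy c, res_res]
  rw [mul_comm (C.s₀ i c ^ n c), mul_assoc, ← pow_add, Nat.add_sub_cancel' hn]

/-- a function in all `Q m i j` extends, after multiplication by `s^m`, over every chart of
`M i`: it is `σ / s^m` for a global section `σ` of `(M i)^m`. -/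
lemma exists_chart_extension [IsIntegral X] (m : ℕ) (i : C.ι) (f : Γ(X, C.U₀))
    (hf : f ∈ ⨅ j, C.Q m i j) (c : (C.M i).ι) :
    ∃ σ : Γ(X, (C.M i).U c),
      res (C.W₀ i c) inf_le_left σ = res (C.W₀ i c) inf_le_right f * C.s₀ i c ^ m := by
  have hf' : ∀ j, f ∈ C.Q m i j := fun j => (Submodule.mem_iInf _).1 hf j
  choose b hb using fun j => hf' j c
  have hcover : (C.M i).U c ≤ ⨆ j, C.W i c j := by
    have h : (C.M i).U c ⊓ ⨆ j, C.U j = ⨆ j, C.W i c j := inf_iSup_eq _ _
    rw [← h, C.cover, inf_top_eq]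
  have key : ∀ j (O : X.Opens) (h1 : O ≤ C.W i c j) (h0 : O ≤ C.U₀),
      res O h1 (b j) = res O h0 f * res O (h1.trans inf_le_left) ((C.s i).1 c) ^ m := by
    intro j O h1 h0
    have hO : O ≤ C.W₀ i c := le_inf (h1.trans inf_le_left) h0
    have := congrArg (res O hO) (hb j)
    rw [map_mul, map_pow, s₀, res_res, res_res, res_res] at this
    exact this
  obtain ⟨σ, hσ, -⟩ := exists_glue (fun j => C.W i c j) (fun j => inf_le_left) hcover b (by
    intro j j'
    apply res_eq_res_of_dense C.U₀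
    rw [key j _ _ inf_le_right, key j' _ _ inf_le_right])
  refine ⟨σ, ?_⟩
  obtain ⟨j⟩ := C.nonempty
  rw [← hb j, ← hσ j, res_res]

/-- **The pole system of Cartier data**, given the finite-dimensionality of the spaces
`H⁰(X, O(m D_i)) = ⨅ j, Q m i j`. -/
def toPoleSystem [IsIntegral X] [QuasiSeparatedSpace X]
    (hfin : ∀ m i, Module.Finite K ↥(⨅ j, C.Q m i j)) : PoleSystem K X where
  ι := C.ι
  U := C.U
  U₀ := C.U₀
  affine := C.affine
  affine₀ := C.affine₀
  affine₂ := C.affine₂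
  le := C.le
  cover := C.cover
  dense₀ := isSchemeTheoreticallyDominant_ι_of_isIntegral C.U₀
  qc₀ := quasiCompact_ι_of_isAffineOpen C.affine₀
  Q := C.Q
  Q_mono := fun h i j => C.Q_mono h i j
  Q_mul := C.Q_mul
  Q_diag := C.Q_diag
  Q_exhaust := C.Q_exhaust
  Q_finite := hfin

lemma mem_iInf_Q_iff [IsIntegral X] (m : ℕ) (i : C.ι) (f : Γ(X, C.U₀)) :
    f ∈ ⨅ j, C.Q m i j ↔ ∀ c : (C.M i).ι, ∃ σ : Γ(X, (C.M i).U c),
      res (C.W₀ i c) inf_le_left σ = res (C.W₀ i c) inf_le_right f * C.s₀ i c ^ m := by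
  constructor
  · intro hf c
    exact C.exists_chart_extension m i f hf c
  · intro h
    rw [Submodule.mem_iInf]
    intro j c
    obtain ⟨σ, hσ⟩ := h c
    exact ⟨res (C.W i c j) inf_le_left σ, by rw [res_res]; exact hσ⟩

end CartierData

/-! ### Restriction of a line bundle to a subfamily of charts -/

/-- restriction of a cocycle line bundle to a covering subfamily of its charts. -/
def restrictCharts (M : LB X) {κ : Type u} (e : κ → M.ι) (h : ⨆ k, M.U (e k) = ⊤) : LB X where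
  ι := κ
  U := fun k => M.U (e k)
  iSup_U := h
  g := fun k l => M.g (e k) (e l)
  g_self := fun k => M.g_self (e k)
  cocycle := fun k l n => M.cocycle (e k) (e l) (e n)

/-- restriction of a section to a covering subfamily of charts. -/
def restrictChartsSection (M : LB X) {κ : Type u} (e : κ → M.ι) (h : ⨆ k, M.U (e k) = ⊤)
    (s : M.H0) : (restrictCharts M e h).H0 :=
  ⟨fun k => s.1 (e k), fun k l => s.2 (e k) (e l)⟩

theorem exists_finset_charts [CompactSpace X] (M : LB X) :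
    ∃ t : Finset M.ι, ⨆ k : t, M.U k.1 = ⊤ := by
  classical
  obtain ⟨t, ht⟩ := isCompact_univ.elim_finite_subcover (fun i => (M.U i : Set X))
    (fun i => (M.U i).isOpen) (by
      intro x _
      have hx : x ∈ (⨆ i, M.U i : X.Opens) := by rw [M.iSup_U]; exact Opens.mem_top x
      obtain ⟨i, hi⟩ := Opens.mem_iSup.1 hx
      exact Set.mem_iUnion.2 ⟨i, hi⟩)
  refine ⟨t, ?_⟩
  rw [eq_top_iff]
  intro x _
  obtain ⟨i, hi⟩ := Set.mem_iUnion.1 (ht (Set.mem_univ x))
  obtain ⟨hit, hx⟩ := Set.mem_iUnion.1 hi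
  exact Opens.mem_iSup.2 ⟨⟨i, hit⟩, hx⟩

/-- a pair `(M, s)` can be replaced by one with finitely many charts. -/
theorem exists_finite_cartier [CompactSpace X] {U : X.Opens}
    (h : ∃ (M : LB X) (s : M.H0), ∀ c, X.basicOpen (s.1 c) = M.U c ⊓ U) :
    ∃ (M : LB X) (_ : Finite M.ι) (s : M.H0), ∀ c, X.basicOpen (s.1 c) = M.U c ⊓ U := by
  obtain ⟨M, s, hs⟩ := h
  obtain ⟨t, ht⟩ := exists_finset_charts M
  exact ⟨restrictCharts M (fun k : t => k.1) ht, Finite.of_fintype t,
    restrictChartsSection M _ ht s, fun c => hs c.1⟩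

/-! ### Existence of Cartier data -/

variable {K : Type u} [Field K] [KScheme K X]

theorem exists_cartierData [IsIntegral X] [CompactSpace X]
    (haff₂ : ∀ U V : X.Opens, IsAffineOpen U → IsAffineOpen V → IsAffineOpen (U ⊓ V))
    (hcompact : ∀ W : X.Opens, IsCompact (W : Set X))
    (hcart : ∀ U : X.Opens, IsAffineOpen U → Nonempty U →
      ∃ (M : LB X) (s : M.H0), ∀ c, X.basicOpen (s.1 c) = M.U c ⊓ U) :
    Nonempty (CartierData K X) := by
  classical
  -- a finite cover by non-empty affine opens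
  have hex : ∀ x : X, ∃ U : X.Opens, IsAffineOpen U ∧ x ∈ U := by
    intro x
    obtain ⟨U, hU, hxU, -⟩ := (Opens.isBasis_iff_nbhd.1 X.isBasis_affineOpens)
      (Opens.mem_top x)
    exact ⟨U, hU, hxU⟩
  choose V hV hxV using hex
  obtain ⟨t, ht⟩ := isCompact_univ.elim_finite_subcover (fun x => (V x : Set X))
    (fun x => (V x).isOpen) (fun x _ => Set.mem_iUnion.2 ⟨x, hxV x⟩)
  -- the generic point lies in all of them
  have hη : ∀ x, genericPoint X ∈ V x := fun x =>
    ((genericPoint_spec X).mem_open_set_iff (V x).isOpen).2 ⟨x, trivial, hxV x⟩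
  have hopen : IsOpen (⋂ x ∈ t, (V x : Set X)) :=
    isOpen_biInter_finset (fun x _ => (V x).isOpen)
  have hηS : genericPoint X ∈ (⟨⋂ x ∈ t, (V x : Set X), hopen⟩ : X.Opens) := by
    show genericPoint X ∈ ⋂ x ∈ t, (V x : Set X)
    exact Set.mem_iInter₂.2 fun x _ => hη x
  obtain ⟨U₀, hU₀, hηU₀, hU₀le⟩ := (Opens.isBasis_iff_nbhd.1 X.isBasis_affineOpens) hηS
  have hne : t.Nonempty := by
    obtain ⟨i, hi⟩ := Set.mem_iUnion.1 (ht (Set.mem_univ (genericPoint X)))
    obtain ⟨hit, -⟩ := Set.mem_iUnion.1 hi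
    exact ⟨i, hit⟩
  have hdata : ∀ x : t, ∃ (M : LB X) (_ : Finite M.ι) (s : M.H0),
      ∀ c, X.basicOpen (s.1 c) = M.U c ⊓ V x.1 := fun x =>
    exists_finite_cartier (hcart (V x.1) (hV x.1) ⟨⟨x.1, hxV x.1⟩⟩)
  choose M hMfin s hs using hdata
  exact ⟨{
    ι := t
    nonempty := ⟨⟨hne.choose, hne.choose_spec⟩⟩
    U := fun x => V x.1
    U₀ := U₀
    affine := fun x => hV x.1
    affine₀ := hU₀
    affine₂ := fun x y => haff₂ _ _ (hV x.1) (hV y.1)
    le := fun x => by
      intro y hy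
      have := hU₀le hy
      exact Set.mem_iInter₂.1 this x.1 x.2
    cover := by
      rw [eq_top_iff]
      intro y _
      obtain ⟨i, hi⟩ := Set.mem_iUnion.1 (ht (Set.mem_univ y))
      obtain ⟨hit, hy⟩ := Set.mem_iUnion.1 hi
      exact Opens.mem_iSup.2 ⟨⟨i, hit⟩, hy⟩
    nonempty₀ := ⟨⟨genericPoint X, hηU₀⟩⟩
    M := M
    finite := hMfin
    s := s
    hs := hs
    compact := fun _ _ _ => hcompact _ }⟩

/-- **Pole systems from Cartier divisors**: on an integral, quasi-compact, quasi-separated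
`K`-scheme in which intersections of affine opens are affine, all opens are quasi-compact and
the complement of every non-empty affine open is the zero locus of a section of a line bundle,
there is a pole system as soon as the spaces `H⁰(X, O(m D))` are finite-dimensional. -/
theorem nonempty_poleSystem_of_cartier [IsIntegral X] [CompactSpace X] [QuasiSeparatedSpace X]
    (haff₂ : ∀ U V : X.Opens, IsAffineOpen U → IsAffineOpen V → IsAffineOpen (U ⊓ V))
    (hcompact : ∀ W : X.Opens, IsCompact (W : Set X))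
    (hcart : ∀ U : X.Opens, IsAffineOpen U → Nonempty U →
      ∃ (M : LB X) (s : M.H0), ∀ c, X.basicOpen (s.1 c) = M.U c ⊓ U)
    (hfin : ∀ (C : CartierData K X) (m : ℕ) (i : C.ι), Module.Finite K ↥(⨅ j, C.Q m i j)) :
    Nonempty (PoleSystem K X) := by
  obtain ⟨C⟩ := exists_cartierData (K := K) haff₂ hcompact hcart
  exact ⟨C.toPoleSystem (hfin C)⟩

end
end Fermat.Agent.AV.CP
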