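/-
PROJECT AV — producer side (helper8).

`CP_helper8_CartierFin`: the finiteness axiom of the pole system of Cartier data
(`CP_helper8_Cartier`) from the finite-dimensionality of helper5's spaces
`LB.ratioSubmodule m s = {σ / s^m | σ ∈ H⁰(X, M^m)} ⊆ K(X)`: the germ map embeds `⨅ j, Q m i j`
into `ratioSubmodule m (s i)` (`CartierData.germ_mem_ratioSubmodule`, `CartierData.finite_iInf_Q`).
End product: `nonempty_poleSystem_of_ratio_finite`.
-/
import Mathlib
import Fermat.Agent.AV.CP_helper8_Cartier
import Fermat.Agent.AV.LB_helper5_Pow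

set_option autoImplicit false
set_option linter.style.haveILetI false

open AlgebraicGeometry CategoryTheory Opposite TopologicalSpace

universe u

namespace Fermat.Agent.AV.CP

open Fermat.Agent.AV

noncomputable section

variable {K : Type u} [Field K] {X : Scheme.{u}} [KScheme K X] [IsIntegral X]

/-- the germ at the generic point of the constant `c`. -/
theorem germ_kToΓ (U : X.Opens) [Nonempty U] (c : K) :
    (X.germToFunctionField U).hom (kToΓ K X U c) =
      (functionFieldStrMap (KScheme.str (K := K) (X := X))).hom c := by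
  haveI : Nonempty (⊤ : X.Opens) := ⟨⟨genericPoint X, trivial⟩⟩
  have h1 : kToΓ K X U c = res U le_top (kToΓ K X ⊤ c) := (res_kToΓ le_top c).symm
  rw [h1, germToFunctionField_hom_res]
  simp only [kToΓ, functionFieldStrMap, RingHom.comp_apply, CommRingCat.hom_comp,
    Scheme.germToFunctionField]
  congr 1
  simp only [Scheme.Hom.appLE, CommRingCat.hom_comp, RingHom.comp_apply]
  exact res_self _

section

variable [Algebra K X.functionField]
  (halg : ∀ c : K, algebraMap K X.functionField c =
    (functionFieldStrMap (KScheme.str (K := K) (X := X))).hom c)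

/-- the germ map `Γ(X, U) → K(X)` as a `K`-linear map. -/
def germLin (U : X.Opens) [Nonempty U] : Γ(X, U) →ₗ[K] X.functionField where
  toFun := (X.germToFunctionField U).hom
  map_add' := map_add _
  map_smul' := fun c f => by
    rw [Algebra.smul_def, map_mul, algebraMap_Γ_eq, germ_kToΓ, ← halg, RingHom.id_apply,
      Algebra.smul_def]

theorem germLin_apply (U : X.Opens) [Nonempty U] (f : Γ(X, U)) :
    germLin halg U f = (X.germToFunctionField U).hom f := rfl

theorem germLin_injective (U : X.Opens) [Nonempty U] : Function.Injective (germLin halg U) :=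
  X.germToFunctionField_injective U

namespace CartierData

variable (C : CartierData K X)

omit [IsIntegral X] [Algebra K X.functionField] in
theorem s_ne_zero (i : C.ι) : C.s i ≠ 0 := by
  intro h0
  -- a chart meeting `U i`
  obtain ⟨⟨x, hx⟩⟩ := C.nonempty₀
  have hxi : x ∈ C.U i := C.le i hx
  have hxM : x ∈ (⨆ c, (C.M i).U c : X.Opens) := by rw [(C.M i).iSup_U]; exact Opens.mem_top x
  obtain ⟨c, hc⟩ := Opens.mem_iSup.1 hxM
  have h1 : x ∈ X.basicOpen ((C.s i).1 c) := by rw [C.hs i c]; exact ⟨hc, hxi⟩
  rw [h0] at h1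
  have h2 : ((0 : (C.M i).H0).1 c) = 0 := rfl
  rw [h2, Scheme.basicOpen_zero] at h1
  exact h1

/-- `⨅ j, Q m i j` maps into `{σ / s^m}` under the germ map. -/
theorem germ_mem_ratioSubmodule (m : ℕ) (i : C.ι) (f : Γ(X, C.U₀)) (hf : f ∈ ⨅ j, C.Q m i j) :
    germLin halg C.U₀ f ∈ (C.M i).ratioSubmodule KScheme.str halg m (C.s i) := by
  rw [LB.mem_ratioSubmodule]
  have h := ((C.M i).mem_range_ratio_iff m (C.s i) (C.s_ne_zero i)
    ((X.germToFunctionField C.U₀).hom f)).2 ?_
  · exact h
  · intro c hc
    haveI := hc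
    obtain ⟨σ, hσ⟩ := (C.mem_iInf_Q_iff m i f).1 hf c
    refine ⟨σ, ?_⟩
    haveI : Nonempty (C.W₀ i c : X.Opens) := inf_nonempty_of_isIntegral _ _
    have h3 := congrArg (X.germToFunctionField (C.W₀ i c)).hom hσ
    rw [map_mul, map_pow, CartierData.s₀, germToFunctionField_hom_res,
      germToFunctionField_hom_res, germToFunctionField_hom_res] at h3
    rw [LB.germOf_eq, LB.germOf_eq]
    exact h3.symm

/-- finite-dimensionality of `⨅ j, Q m i j` from that of `{σ / s^m}`. -/
theorem finite_iInf_Q (m : ℕ) (i : C.ι)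
    (hfin : FiniteDimensional K ((C.M i).ratioSubmodule KScheme.str halg m (C.s i))) :
    Module.Finite K ↥(⨅ j, C.Q m i j) := by
  let ψ : ↥(⨅ j, C.Q m i j) →ₗ[K] ↥((C.M i).ratioSubmodule KScheme.str halg m (C.s i)) :=
    LinearMap.codRestrict _ ((germLin halg C.U₀).comp (Submodule.subtype _))
      (fun f => C.germ_mem_ratioSubmodule halg m i f.1 f.2)
  have hψ : Function.Injective ψ := by
    intro f g hfg
    apply Subtype.ext
    apply germLin_injective halg C.U₀
    exact congrArg Subtype.val hfg
  exact Module.Finite.of_injective ψ hψ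

end CartierData

/-- **Pole systems from Cartier divisors, finiteness in function-field form.** -/
theorem nonempty_poleSystem_of_ratio_finite [CompactSpace X] [QuasiSeparatedSpace X]
    (haff₂ : ∀ U V : X.Opens, IsAffineOpen U → IsAffineOpen V → IsAffineOpen (U ⊓ V))
    (hcompact : ∀ W : X.Opens, IsCompact (W : Set X))
    (hcart : ∀ U : X.Opens, IsAffineOpen U → Nonempty U →
      ∃ (M : LB X) (s : M.H0), ∀ c, X.basicOpen (s.1 c) = M.U c ⊓ U)
    (hfin : ∀ (M : LB X) (s : M.H0) (U : X.Opens), IsAffineOpen U → Nonempty U →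
      (∀ c, X.basicOpen (s.1 c) = M.U c ⊓ U) → ∀ m : ℕ,
        FiniteDimensional K (M.ratioSubmodule KScheme.str halg m s)) :
    Nonempty (PoleSystem K X) :=
  nonempty_poleSystem_of_cartier haff₂ hcompact hcart fun C m i =>
    C.finite_iInf_Q halg m i
      (hfin (C.M i) (C.s i) (C.U i) (C.affine i)
        (by obtain ⟨⟨x, hx⟩⟩ := C.nonempty₀; exact ⟨⟨x, C.le i hx⟩⟩) (C.hs i) m)

end

end
end Fermat.Agent.AV.CP
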