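/-
PROJECT AV (S26 long shot) — cohomological primitives, producer side (helper8).

`CP_helper8_Dense`: schematic density of `q⁻¹ U₀` in `Y` for a flat morphism `q : Y ⟶ X` and a
schematically dense quasi-compact open `U₀ ⊆ X`: restriction of functions from any open `O ⊆ Y`
to `O ⊓ q⁻¹ U₀` is injective; consequences for sections of line bundles.
-/
import Mathlib
import Fermat.Agent.AV.CP_helper8_SecMod

set_option autoImplicit false

open AlgebraicGeometry CategoryTheory Opposite TopologicalSpace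

universe u

namespace Fermat.Agent.AV.CP

open Fermat.Agent.AV Fermat.Agent.AV.LB

noncomputable section

/-- Restriction of functions to the preimage of a schematically dense open is injective. -/
theorem res_injective_of_dense {X Y : Scheme.{u}} (q : Y ⟶ X) [Flat q] (U₀ : X.Opens)
    [IsSchemeTheoreticallyDominant U₀.ι] [QuasiCompact U₀.ι] (O : Y.Opens) :
    Function.Injective (res (O ⊓ q ⁻¹ᵁ U₀) inf_le_left : Γ(Y, O) → Γ(Y, O ⊓ q ⁻¹ᵁ U₀)) := by
  have hpb := isPullback_morphismRestrict q U₀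
  have hdom : IsSchemeTheoreticallyDominant (q ⁻¹ᵁ U₀).ι :=
    IsSchemeTheoreticallyDominant.of_isPullback hpb
  have hqc : QuasiCompact (q ⁻¹ᵁ U₀).ι :=
    MorphismProperty.of_isPullback (P := @QuasiCompact) hpb inferInstance
  have hinj := (q ⁻¹ᵁ U₀).ι.app_injective O
  have hle : (q ⁻¹ᵁ U₀).ι ''ᵁ (q ⁻¹ᵁ U₀).ι ⁻¹ᵁ O ≤ O ⊓ q ⁻¹ᵁ U₀ := by
    rintro x ⟨y, hy, rfl⟩
    exact ⟨hy, y.2⟩
  intro a b hab
  apply hinj
  rw [Scheme.Opens.ι_app]
  have h1 : ∀ c : Γ(Y, O), (Y.presheaf.map (homOfLE (x := (q ⁻¹ᵁ U₀).ι ''ᵁ (q ⁻¹ᵁ U₀).ι ⁻¹ᵁ O)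
      (Set.image_preimage_subset _ _)).op).hom c =
      res _ hle (res (O ⊓ q ⁻¹ᵁ U₀) inf_le_left c) := by
    intro c
    rw [res_res]
  exact (h1 a).trans ((congrArg _ hab).trans (h1 b).symm)

/-- A section of a line bundle vanishing on the preimage of a schematically dense open
vanishes. -/
theorem restrict_injective_of_dense {X Y : Scheme.{u}} (q : Y ⟶ X) [Flat q] (U₀ : X.Opens)
    [IsSchemeTheoreticallyDominant U₀.ι] [QuasiCompact U₀.ι] (M : LB Y) {W W₀ : Y.Opens}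
    (h : W₀ ≤ W) (hW₀ : W₀ = W ⊓ q ⁻¹ᵁ U₀) :
    Function.Injective (fun σ : M.SecOn W => σ.restrict h) := by
  subst hW₀
  intro σ τ hστ
  ext i
  have h1 := congrArg (fun ρ : M.SecOn (W ⊓ q ⁻¹ᵁ U₀) => ρ.s i) hστ
  simp only [SecOn.restrict_s] at h1
  apply res_injective_of_dense q U₀ (M.U i ⊓ W)
  have h2 : M.U i ⊓ W ⊓ q ⁻¹ᵁ U₀ ≤ M.U i ⊓ (W ⊓ q ⁻¹ᵁ U₀) := by
    rw [inf_assoc]
  have h3 := congrArg (res (M.U i ⊓ W ⊓ q ⁻¹ᵁ U₀) h2) h1
  rw [res_res, res_res] at h3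
  exact h3

end

end Fermat.Agent.AV.CP
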