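/-
PROJECT AV (S26 long shot) — cohomological primitives, producer side (helper8).

`CP_helper8_SecPull`: pull-back of sections of the inverse bundle, compatibility of the pairing
with pull-back, comparison `H0 ≃ SecOn ⊤`.
-/
import Mathlib
import Fermat.Agent.AV.CP_helper8_SecMod

set_option autoImplicit false

open AlgebraicGeometry CategoryTheory Opposite TopologicalSpace

universe u

namespace Fermat.Agent.AV.CP

open Fermat.Agent.AV Fermat.Agent.AV.LB

noncomputable section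

variable {X Y : Scheme.{u}} {M : LB X}

lemma invS_compat' {W : X.Opens} (t : M.inv.SecOn W) (i j : M.ι) (O : X.Opens) (hi : O ≤ M.U i)
    (hj : O ≤ M.U j) (hW : O ≤ W) :
    res O (le_inf hi hW) (invS t i) =
      res O (le_inf hj hi) (M.g j i) * res O (le_inf hj hW) (invS t j) := by
  have h : res O (le_inf hi hW) (invS t i) =
      res O (le_inf hi hj) (M.inv.g i j) * res O (le_inf hj hW) (invS t j) :=
    t.compat' i j O hi hj hW
  have h4 : res O (le_inf hi hj) (M.inv.g i j) = res O (le_inf hj hi) (M.g j i) := by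
    show res O _ (res (M.U i ⊓ M.U j) _ (M.g j i)) = _
    rw [res_res]
  rw [h4] at h
  exact h

/-- pull-back of a section of the inverse bundle, as a section of the inverse of the pull-back. -/
def pullbackInv (φ : Y ⟶ X) {W : X.Opens} (t : M.inv.SecOn W) :
    (M.pullback φ).inv.SecOn (φ ⁻¹ᵁ W) where
  s := fun (i : M.ι) => appInf φ (M.U i) W (invS t i)
  compat := fun (i j : M.ι) => by
    have h := congrArg (φ.app (M.U i ⊓ M.U j ⊓ W)).hom
      (invS_compat' t i j (M.U i ⊓ M.U j ⊓ W) (inf_le_left.trans inf_le_left)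
        (inf_le_left.trans inf_le_right) inf_le_right)
    rw [map_mul, app_res, app_res, app_res] at h
    refine h.trans ?_
    congr 1
    exact (res_res _ _ _).symm

lemma invS_pullbackInv (φ : Y ⟶ X) {W : X.Opens} (t : M.inv.SecOn W) (i : M.ι) :
    invS (pullbackInv φ t) i = appInf φ (M.U i) W (invS t i) := rfl

/-- The pairing commutes with pull-back. -/
lemma pair_pullback (φ : Y ⟶ X) {W : X.Opens} (t : M.inv.SecOn W) (s : M.SecOn W) :
    pair (pullbackInv φ t) (s.pullback φ) = (φ.app W).hom (pair t s) :=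
  pair_eq_of _ _ _ fun (i : M.ι) => by
    show res (φ ⁻¹ᵁ M.U i ⊓ φ ⁻¹ᵁ W) inf_le_right ((φ.app W).hom (pair t s)) =
      appInf φ (M.U i) W (invS t i) * appInf φ (M.U i) W (s.s i)
    rw [← map_mul, ← res_pair, appInf_res_right]

lemma pullbackInv_restrict (φ : Y ⟶ X) {W W' : X.Opens} (h : W' ≤ W) (t : M.inv.SecOn W) :
    pullbackInv φ (t.restrict h) = (pullbackInv φ t).restrict (φ.preimage_mono h) := by
  refine SecOn.ext fun (i : M.ι) => ?_
  show appInf φ (M.U i) W' (res (M.U i ⊓ W') (inf_le_inf_left _ h) (invS t i)) =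
    res (φ ⁻¹ᵁ M.U i ⊓ φ ⁻¹ᵁ W') (inf_le_inf_left _ (φ.preimage_mono h))
      (appInf φ (M.U i) W (invS t i))
  exact appInf_res φ _ _ _

/-- pull-back of sections as an additive map -/
def pullbackHom (φ : Y ⟶ X) (W : X.Opens) : M.SecOn W →+ (M.pullback φ).SecOn (φ ⁻¹ᵁ W) where
  toFun σ := σ.pullback φ
  map_zero' := by
    refine SecOn.ext fun (i : M.ι) => ?_
    show appInf φ (M.U i) W 0 = 0
    exact map_zero _
  map_add' σ τ := by
    refine SecOn.ext fun (i : M.ι) => ?_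
    show appInf φ (M.U i) W (σ.s i + τ.s i) = appInf φ (M.U i) W (σ.s i) + appInf φ (M.U i) W (τ.s i)
    exact map_add _ _ _

@[simp] lemma pullbackHom_apply (φ : Y ⟶ X) (W : X.Opens) (σ : M.SecOn W) :
    pullbackHom φ W σ = σ.pullback φ := rfl

/-! ### Global sections as sections over `⊤` -/

lemma toH0_ofH0 (s : M.H0) : SecOn.toH0 (SecOn.ofH0 s) = s := by
  apply Subtype.ext
  funext i
  show res (M.U i) _ (res (M.U i ⊓ ⊤) _ (s.1 i)) = s.1 i
  rw [res_res, res_self]

lemma ofH0_toH0 (σ : M.SecOn ⊤) : SecOn.ofH0 (SecOn.toH0 σ) = σ := by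
  ext i
  show res (M.U i ⊓ ⊤) _ (res (M.U i) _ (σ.s i)) = σ.s i
  rw [res_res, res_self]

/-- `H0 ≃+ SecOn ⊤`. -/
def h0EquivTop (M : LB X) : M.H0 ≃+ M.SecOn ⊤ where
  toFun := SecOn.ofH0
  invFun := SecOn.toH0
  left_inv := toH0_ofH0
  right_inv := ofH0_toH0
  map_add' s t := by
    ext i
    show res (M.U i ⊓ ⊤) _ (s.1 i + t.1 i) = res _ _ (s.1 i) + res _ _ (t.1 i)
    exact map_add _ _ _

lemma h0EquivTop_apply (s : M.H0) : h0EquivTop M s = SecOn.ofH0 s := rfl

lemma ofH0_smul (c : Γ(X, ⊤)) (s : M.H0) : SecOn.ofH0 (c • s) = c • SecOn.ofH0 s := by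
  ext i
  show res (M.U i ⊓ ⊤) _ (res (M.U i) le_top c * s.1 i) =
    res (M.U i ⊓ ⊤) inf_le_right c * res (M.U i ⊓ ⊤) _ (s.1 i)
  rw [map_mul, res_res]

lemma ofH0_pullbackSection (φ : Y ⟶ X) (s : M.H0) :
    SecOn.ofH0 (M.pullbackSection φ s) = (SecOn.ofH0 s).pullback φ := by
  refine SecOn.ext fun (i : M.ι) => ?_
  show res (φ ⁻¹ᵁ M.U i ⊓ ⊤) _ ((φ.app (M.U i)).hom (s.1 i)) =
    appInf φ (M.U i) ⊤ (res (M.U i ⊓ ⊤) _ (s.1 i))
  exact (appInf_res_left φ (M.U i) ⊤ (s.1 i)).symm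

end

end Fermat.Agent.AV.CP
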