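/-
PROJECT AV (S26 long shot) — cohomological primitives, producer side (helper8).

`CP_helper8_FamData`: a line bundle on `Y = X ×_K T` (`T` affine) together with partitions of unity
on the affine charts `p₁⁻¹ U_i` gives ambient data on the dense chart `p₁⁻¹ U₀`.
-/
import Mathlib
import Fermat.Agent.AV.CP_helper8_PoleSys
import Fermat.Agent.AV.CP_helper8_Bridge
import Fermat.Agent.AV.CP_helper8_Dense
import Fermat.Agent.AV.CP_helper8_SecPull

set_option autoImplicit false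

open AlgebraicGeometry CategoryTheory Opposite TopologicalSpace TensorProduct

universe u

namespace Fermat.Agent.AV.CP

open Fermat.Agent.AV Fermat.Agent.AV.LB

noncomputable section

/-- A line bundle on a product `X ×_K T` with chosen partitions of unity on the charts. -/
structure FamData {K : Type u} [Field K] {X : Scheme.{u}} [KScheme K X] (PS : PoleSystem K X) where
  /-- the (affine) base -/
  T : Scheme.{u}
  /-- the product -/
  Y : Scheme.{u}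
  [kT : KScheme K T]
  [affT : IsAffine T]
  /-- first projection -/
  p₁ : Y ⟶ X
  /-- second projection -/
  p₂ : Y ⟶ T
  H : IsPullback p₁ p₂ (KScheme.str (K := K)) (KScheme.str (K := K))
  /-- the line bundle -/
  L : LB Y
  /-- number of generators on each chart -/
  nn : PS.ι → ℕ
  /-- partition of unity: sections -/
  mm : ∀ i, Fin (nn i) → L.SecOn (p₁ ⁻¹ᵁ PS.U i)
  /-- partition of unity: dual sections -/
  tt : ∀ i, Fin (nn i) → L.inv.SecOn (p₁ ⁻¹ᵁ PS.U i)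
  part : ∀ i, ∑ k, pair (tt i k) (mm i k) = 1

attribute [instance] FamData.kT FamData.affT

namespace FamData

variable {K : Type u} [Field K] {X : Scheme.{u}} [KScheme K X] {PS : PoleSystem K X}
variable (F : FamData PS)

/-- the dense chart of the product -/
abbrev W₀ : F.Y.Opens := F.p₁ ⁻¹ᵁ PS.U₀

lemma W₀_le (i : PS.ι) : F.W₀ ≤ F.p₁ ⁻¹ᵁ PS.U i := F.p₁.preimage_mono (PS.le i)

/-- Künneth on the dense chart -/
def θ : Γ(F.T, ⊤) ⊗[K] Γ(X, PS.U₀) ≃+* Γ(F.Y, F.W₀) := kunneth F.H PS.affine₀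

/-- the partition sections on the dense chart -/
def m₀ (i : PS.ι) (k : Fin (F.nn i)) : F.L.SecOn F.W₀ := (F.mm i k).restrict (F.W₀_le i)

/-- the dual sections on the dense chart -/
def t₀ (i : PS.ι) (k : Fin (F.nn i)) : F.L.inv.SecOn F.W₀ := (F.tt i k).restrict (F.W₀_le i)

/-- the transition coefficients, as functions on the dense chart -/
def coeffΓ (i : PS.ι) (k : Fin (F.nn i)) (j : PS.ι) (l : Fin (F.nn j)) : Γ(F.Y, F.W₀) :=
  pair (F.t₀ i k) (F.m₀ j l)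

/-- the transition coefficients, in the tensor model -/
def cT (i : PS.ι) (k : Fin (F.nn i)) (j : PS.ι) (l : Fin (F.nn j)) :
    Γ(F.T, ⊤) ⊗[K] Γ(X, PS.U₀) :=
  F.θ.symm (F.coeffΓ i k j l)

lemma partition₀ (i : PS.ι) : ∑ k, pair (F.t₀ i k) (F.m₀ i k) = 1 := by
  have h := congrArg (res F.W₀ (F.W₀_le i)) (F.part i)
  rw [map_sum, map_one] at h
  rw [← h]
  refine Finset.sum_congr rfl fun k _ => ?_
  exact pair_restrict (F.W₀_le i) (F.tt i k) (F.mm i k)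

/-- every section on a chart is a combination of the partition sections -/
lemma eq_sum_chart (j : PS.ι) (x : F.L.SecOn (F.p₁ ⁻¹ᵁ PS.U j)) :
    x = ∑ l, pair (F.tt j l) x • F.mm j l := by
  calc x = (1 : Γ(F.Y, F.p₁ ⁻¹ᵁ PS.U j)) • x := (one_smul _ _).symm
    _ = (∑ l, pair (F.tt j l) (F.mm j l)) • x := by rw [F.part j]
    _ = ∑ l, pair (F.tt j l) (F.mm j l) • x := Finset.sum_smul
    _ = ∑ l, pair (F.tt j l) x • F.mm j l :=
        Finset.sum_congr rfl fun l _ => pair_swap (F.tt j l) (F.mm j l) x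

/-! ### Chart algebras -/

lemma map_id_res_mem_chartAlg (m : ℕ) (j : PS.ι) (y : Γ(F.T, ⊤) ⊗[K] Γ(X, PS.U j)) :
    Algebra.TensorProduct.map (AlgHom.id K Γ(F.T, ⊤)) (resAlgHom (K := K) PS.U₀ (PS.le j)) y ∈
      (PS.poleAlg m).chartAlg Γ(F.T, ⊤) j := by
  induction y with
  | zero => simp
  | add x y hx hy =>
    rw [map_add]
    exact Subalgebra.add_mem _ hx hy
  | tmul b r =>
    rw [Algebra.TensorProduct.map_tmul]
    exact (PS.poleAlg m).tmul_mem_chartAlg Γ(F.T, ⊤) j b ⟨r, rfl⟩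

lemma θ_symm_res_mem_chartAlg (m : ℕ) (j : PS.ι) (a : Γ(F.Y, F.p₁ ⁻¹ᵁ PS.U j)) :
    F.θ.symm (res F.W₀ (F.W₀_le j) a) ∈ (PS.poleAlg m).chartAlg Γ(F.T, ⊤) j := by
  obtain ⟨y, rfl⟩ := (kunneth F.H (PS.affine j)).surjective a
  have h := res_kunneth F.H (PS.affine j) PS.affine₀ (PS.le j) y
  have h2 : res F.W₀ (F.W₀_le j) (kunneth F.H (PS.affine j) y) =
      F.θ (Algebra.TensorProduct.map (AlgHom.id K Γ(F.T, ⊤))
        (resAlgHom (K := K) PS.U₀ (PS.le j)) y) := h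
  rw [h2, RingEquiv.symm_apply_apply]
  exact F.map_id_res_mem_chartAlg m j y

lemma exists_res_eq_θ_of_mem_chartAlg (m : ℕ) (j : PS.ι) (z : Γ(F.T, ⊤) ⊗[K] Γ(X, PS.U₀))
    (hz : z ∈ (PS.poleAlg m).chartAlg Γ(F.T, ⊤) j) :
    ∃ a : Γ(F.Y, F.p₁ ⁻¹ᵁ PS.U j), res F.W₀ (F.W₀_le j) a = F.θ z := by
  obtain ⟨y, rfl⟩ := hz
  induction y with
  | zero => exact ⟨0, by simp⟩
  | add x y hx hy =>
    obtain ⟨a, ha⟩ := hx
    obtain ⟨b, hb⟩ := hy
    refine ⟨a + b, ?_⟩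
    rw [map_add, ha, hb, map_add, map_add]
  | tmul b r =>
    obtain ⟨r', hr'⟩ := r.2
    refine ⟨kunneth F.H (PS.affine j) (b ⊗ₜ r'), ?_⟩
    have h := res_kunneth F.H (PS.affine j) PS.affine₀ (PS.le j) (b ⊗ₜ[K] r')
    rw [Algebra.TensorProduct.map_tmul] at h
    refine h.trans ?_
    show F.θ _ = F.θ _
    congr 1
    have hr'' : resAlgHom (K := K) PS.U₀ (PS.le j) r' = (r : Γ(X, PS.U₀)) := hr'
    show (AlgHom.id K _ b) ⊗ₜ[K] (resAlgHom (K := K) PS.U₀ (PS.le j) r') =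
      Algebra.TensorProduct.map (AlgHom.id Γ(F.T, ⊤) Γ(F.T, ⊤)) ((PS.poleAlg m).Rsub j).val
        (b ⊗ₜ[K] r)
    rw [hr'', Algebra.TensorProduct.map_tmul]
    rfl

/-! ### The ambient data -/

/-- the coefficients have poles of order at most `m` -/
def PoleBound (m : ℕ) : Prop :=
  ∀ i k j l, F.cT i k j l ∈ (PS.poleAlg m).poleMod Γ(F.T, ⊤) i j

/-- the pole module inside `Γ(Y, W₀)` -/
def PΓ (m : ℕ) (i j : PS.ι) : Submodule ℤ Γ(F.Y, F.W₀) :=
  AddSubgroup.toIntSubmodule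
    (((PS.poleAlg m).poleMod Γ(F.T, ⊤) i j).toAddSubgroup.comap
      (F.θ.symm : Γ(F.Y, F.W₀) →+* _).toAddMonoidHom)

lemma mem_PΓ (m : ℕ) (i j : PS.ι) (a : Γ(F.Y, F.W₀)) :
    a ∈ F.PΓ m i j ↔ F.θ.symm a ∈ (PS.poleAlg m).poleMod Γ(F.T, ⊤) i j := Iff.rfl

/-- the chart algebra inside `Γ(Y, W₀)` -/
def AΓ (j : PS.ι) : Subalgebra ℤ Γ(F.Y, F.W₀) :=
  subalgebraOfSubring (res F.W₀ (F.W₀_le j)).range

lemma mem_AΓ (j : PS.ι) (a : Γ(F.Y, F.W₀)) :
    a ∈ F.AΓ j ↔ ∃ a' : Γ(F.Y, F.p₁ ⁻¹ᵁ PS.U j), res F.W₀ (F.W₀_le j) a' = a := Iff.rfl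

/-- sections on the dense chart extending to the chart `j` -/
def MΓ (j : PS.ι) : Submodule ℤ (F.L.SecOn F.W₀) :=
  AddSubgroup.toIntSubmodule (restrictHom (M := F.L) (F.W₀_le j)).range

lemma mem_MΓ (j : PS.ι) (x : F.L.SecOn F.W₀) :
    x ∈ F.MΓ j ↔ ∃ x' : F.L.SecOn (F.p₁ ⁻¹ᵁ PS.U j), x'.restrict (F.W₀_le j) = x := Iff.rfl

lemma pair_t₀_mem (m : ℕ) (hm : F.PoleBound m) (i : PS.ι) (k : Fin (F.nn i)) (j : PS.ι)
    (x : F.L.SecOn F.W₀) (hx : x ∈ F.MΓ j) : pair (F.t₀ i k) x ∈ F.PΓ m i j := by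
  obtain ⟨x', rfl⟩ := hx
  rw [mem_PΓ, restrictHom_apply]
  have h1 : x'.restrict (F.W₀_le j) =
      ∑ l, res F.W₀ (F.W₀_le j) (pair (F.tt j l) x') • F.m₀ j l := by
    conv_lhs => rw [F.eq_sum_chart j x']
    rw [← restrictHom_apply, map_sum]
    refine Finset.sum_congr rfl fun l _ => ?_
    rw [restrictHom_apply, restrict_smul']
    rfl
  rw [h1]
  have h2 : pair (F.t₀ i k) (∑ l, res F.W₀ (F.W₀_le j) (pair (F.tt j l) x') • F.m₀ j l) =
      ∑ l, res F.W₀ (F.W₀_le j) (pair (F.tt j l) x') * F.coeffΓ i k j l := by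
    rw [← pairL_apply, map_sum]
    refine Finset.sum_congr rfl fun l _ => ?_
    rw [map_smul, smul_eq_mul, pairL_apply]
    rfl
  rw [h2, map_sum]
  refine Submodule.sum_mem _ fun l _ => ?_
  rw [map_mul]
  exact (PS.poleAlg m).mul_mem_poleMod Γ(F.T, ⊤) (F.θ_symm_res_mem_chartAlg m j _) (hm i k j l)

/-- **The ambient data of a family.** -/
def ambient (m : ℕ) (hm : F.PoleBound m) :
    AmbientData ℤ Γ(F.Y, F.W₀) (F.L.SecOn F.W₀) PS.ι (fun i => Fin (F.nn i)) where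
  A := F.AΓ
  M := F.MΓ
  P := F.PΓ m
  smul_mem j a ha x hx := by
    obtain ⟨a', rfl⟩ := ha
    obtain ⟨x', rfl⟩ := hx
    exact ⟨a' • x', restrict_smul' (F.W₀_le j) a' x'⟩
  m := F.m₀
  τ i k := pairL (F.t₀ i k)
  m_mem i k := ⟨F.mm i k, rfl⟩
  partition := F.partition₀
  swap i k x y := pair_swap (F.t₀ i k) x y
  τ_mem i k j x hx := F.pair_t₀_mem m hm i k j x hx
  P_diag j a ha := by
    rw [mem_PΓ] at ha
    have h1 := (PS.poleAlg m).poleMod_diag_le Γ(F.T, ⊤) j ha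
    obtain ⟨a', ha'⟩ := F.exists_res_eq_θ_of_mem_chartAlg m j _ h1
    rw [RingEquiv.apply_symm_apply] at ha'
    exact ⟨a', ha'⟩

lemma ambient_coeff (m : ℕ) (hm : F.PoleBound m) (i : PS.ι) (k : Fin (F.nn i)) (j : PS.ι)
    (l : Fin (F.nn j)) : (F.ambient m hm).coeff i k j l = F.coeffΓ i k j l := rfl

lemma ambient_τ (m : ℕ) (hm : F.PoleBound m) (i : PS.ι) (k : Fin (F.nn i))
    (x : F.L.SecOn F.W₀) : (F.ambient m hm).τ i k x = pair (F.t₀ i k) x := rfl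

/-! ### Global sections -/

instance flat_p₁ : Flat F.p₁ :=
  MorphismProperty.of_isPullback (P := @Flat) F.H.flip inferInstance

lemma W₀_eq_top_inf : F.W₀ = ⊤ ⊓ F.p₁ ⁻¹ᵁ PS.U₀ := (top_inf_eq _).symm

lemma W₀_eq_inf (W : F.Y.Opens) (h : F.W₀ ≤ W) : F.W₀ = W ⊓ F.p₁ ⁻¹ᵁ PS.U₀ :=
  (inf_eq_right.2 h).symm

lemma restrict_W₀_injective {W : F.Y.Opens} (h : F.W₀ ≤ W) :
    Function.Injective (fun σ : F.L.SecOn W => σ.restrict h) := by
  have := PS.dense₀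
  have := PS.qc₀
  exact restrict_injective_of_dense F.p₁ PS.U₀ F.L h (F.W₀_eq_inf W h)

lemma iSup_preimage_U : ⨆ j, F.p₁ ⁻¹ᵁ PS.U j = ⊤ := by
  have h := congrArg (fun W => F.p₁ ⁻¹ᵁ W) PS.cover
  simp only [Opens.map_iSup] at h
  exact h

/-- restriction of a global section to the dense chart lies in the ambient `H⁰` -/
lemma restrict_mem_H0 (m : ℕ) (hm : F.PoleBound m) (σ : F.L.SecOn ⊤) :
    σ.restrict le_top ∈ (F.ambient m hm).H0 := by
  simp only [AmbientData.H0, Submodule.mem_iInf]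
  intro j
  refine ⟨σ.restrict le_top, ?_⟩
  exact SecOn.restrict_restrict le_top (F.W₀_le j) σ

/-- the comparison map `H⁰(Y, L) → ambient H⁰` -/
def h0ToAmbient (m : ℕ) (hm : F.PoleBound m) : F.L.H0 →+ (F.ambient m hm).H0 where
  toFun s := ⟨(SecOn.ofH0 s).restrict le_top, F.restrict_mem_H0 m hm _⟩
  map_zero' := by
    apply Subtype.ext
    show restrictHom le_top (h0EquivTop F.L 0) = 0
    rw [map_zero, map_zero]
  map_add' s t := by
    apply Subtype.ext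
    show restrictHom le_top (h0EquivTop F.L (s + t)) =
      restrictHom le_top (h0EquivTop F.L s) + restrictHom le_top (h0EquivTop F.L t)
    rw [map_add, map_add]

lemma h0ToAmbient_coe (m : ℕ) (hm : F.PoleBound m) (s : F.L.H0) :
    ((F.h0ToAmbient m hm s : (F.ambient m hm).H0) : F.L.SecOn F.W₀) =
      (SecOn.ofH0 s).restrict le_top := rfl

lemma h0ToAmbient_bijective (m : ℕ) (hm : F.PoleBound m) :
    Function.Bijective (F.h0ToAmbient m hm) := by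
  constructor
  · intro s t hst
    have h1 := congrArg Subtype.val hst
    rw [h0ToAmbient_coe, h0ToAmbient_coe] at h1
    have h2 := F.restrict_W₀_injective (W := ⊤) le_top h1
    exact (h0EquivTop F.L).injective h2
  · intro x
    have hx := x.2
    simp only [AmbientData.H0, Submodule.mem_iInf] at hx
    have hx' : ∀ j, ∃ x' : F.L.SecOn (F.p₁ ⁻¹ᵁ PS.U j), x'.restrict (F.W₀_le j) = x.1 := hx
    choose xj hxj using hx'
    obtain ⟨τ, hτ⟩ := SecOn.exists_glue (W := ⊤) (fun j => F.p₁ ⁻¹ᵁ PS.U j) (fun _ => le_top)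
      (by rw [F.iSup_preimage_U]) xj (by
        intro a b
        apply F.restrict_W₀_injective (W := F.p₁ ⁻¹ᵁ PS.U a ⊓ F.p₁ ⁻¹ᵁ PS.U b)
          (le_inf (F.W₀_le a) (F.W₀_le b))
        show ((xj a).restrict _).restrict _ = ((xj b).restrict _).restrict _
        rw [SecOn.restrict_restrict, SecOn.restrict_restrict, hxj a, hxj b])
    refine ⟨SecOn.toH0 τ, ?_⟩
    apply Subtype.ext
    rw [h0ToAmbient_coe, ofH0_toH0]
    obtain ⟨j⟩ := (inferInstance : Nonempty PS.ι)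
    rw [← hxj j, ← hτ j, SecOn.restrict_restrict]

/-- **Global sections of `L` are the ambient `H⁰`.** -/
def h0Iso (m : ℕ) (hm : F.PoleBound m) : F.L.H0 ≃+ (F.ambient m hm).H0 :=
  AddEquiv.ofBijective (F.h0ToAmbient m hm) (F.h0ToAmbient_bijective m hm)

lemma h0Iso_coe (m : ℕ) (hm : F.PoleBound m) (s : F.L.H0) :
    ((F.h0Iso m hm s : (F.ambient m hm).H0) : F.L.SecOn F.W₀) =
      (SecOn.ofH0 s).restrict le_top := rfl

/-! ### Existence of a pole bound -/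

lemma exists_mem_poleMod (i j : PS.ι) (y : Γ(F.T, ⊤) ⊗[K] Γ(X, PS.U i ⊓ PS.U j)) :
    ∃ m, Algebra.TensorProduct.map (AlgHom.id K Γ(F.T, ⊤))
      (resAlgHom (K := K) PS.U₀ (le_inf (PS.le i) (PS.le j))) y ∈
        (PS.poleAlg m).poleMod Γ(F.T, ⊤) i j := by
  induction y with
  | zero => exact ⟨0, by simp⟩
  | tmul b a =>
    obtain ⟨m, hm⟩ := PS.Q_exhaust i j a
    refine ⟨m, ?_⟩
    rw [Algebra.TensorProduct.map_tmul]
    exact Submodule.tmul_mem_baseChange_of_mem _ hm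
  | add x y hx hy =>
    obtain ⟨m₁, h₁⟩ := hx
    obtain ⟨m₂, h₂⟩ := hy
    refine ⟨max m₁ m₂, ?_⟩
    rw [map_add]
    exact Submodule.add_mem _ (PS.poleMod_mono (le_max_left _ _) _ i j h₁)
      (PS.poleMod_mono (le_max_right _ _) _ i j h₂)

lemma W₀_le₂ (i j : PS.ι) : F.W₀ ≤ F.p₁ ⁻¹ᵁ (PS.U i ⊓ PS.U j) :=
  F.p₁.preimage_mono (le_inf (PS.le i) (PS.le j))

lemma coeffΓ_eq_res (i : PS.ι) (k : Fin (F.nn i)) (j : PS.ι) (l : Fin (F.nn j)) :
    F.coeffΓ i k j l = res F.W₀ (F.W₀_le₂ i j)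
      (pair ((F.tt i k).restrict (F.p₁.preimage_mono (inf_le_left : PS.U i ⊓ PS.U j ≤ PS.U i)))
        ((F.mm j l).restrict (F.p₁.preimage_mono (inf_le_right : PS.U i ⊓ PS.U j ≤ PS.U j)))) := by
  rw [← pair_restrict (F.W₀_le₂ i j), SecOn.restrict_restrict, SecOn.restrict_restrict]
  rfl

lemma exists_cT_mem_poleMod (i : PS.ι) (k : Fin (F.nn i)) (j : PS.ι) (l : Fin (F.nn j)) :
    ∃ m, F.cT i k j l ∈ (PS.poleAlg m).poleMod Γ(F.T, ⊤) i j := by
  obtain ⟨y, hy⟩ := (kunneth F.H (PS.affine₂ i j)).surjective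
    (pair ((F.tt i k).restrict (F.p₁.preimage_mono (inf_le_left : PS.U i ⊓ PS.U j ≤ PS.U i)))
      ((F.mm j l).restrict (F.p₁.preimage_mono (inf_le_right : PS.U i ⊓ PS.U j ≤ PS.U j))))
  obtain ⟨m, hm⟩ := F.exists_mem_poleMod i j y
  refine ⟨m, ?_⟩
  have h := res_kunneth F.H (PS.affine₂ i j) PS.affine₀ (le_inf (PS.le i) (PS.le j)) y
  rw [hy] at h
  have h2 : F.cT i k j l = Algebra.TensorProduct.map (AlgHom.id K Γ(F.T, ⊤))
      (resAlgHom (K := K) PS.U₀ (le_inf (PS.le i) (PS.le j))) y := by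
    rw [cT, F.coeffΓ_eq_res, RingEquiv.symm_apply_eq]
    exact h
  rw [h2]
  exact hm

theorem exists_poleBound : ∃ m, F.PoleBound m := by
  classical
  choose mf hmf using F.exists_cT_mem_poleMod
  refine ⟨Finset.univ.sup (fun p : (Σ i, Fin (F.nn i)) × (Σ j, Fin (F.nn j)) =>
    mf p.1.1 p.1.2 p.2.1 p.2.2), fun i k j l => ?_⟩
  have hle : mf i k j l ≤ Finset.univ.sup
      (fun p : (Σ i, Fin (F.nn i)) × (Σ j, Fin (F.nn j)) => mf p.1.1 p.1.2 p.2.1 p.2.2) :=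
    Finset.le_sup (f := fun p : (Σ i, Fin (F.nn i)) × (Σ j, Fin (F.nn j)) =>
      mf p.1.1 p.1.2 p.2.1 p.2.2) (Finset.mem_univ (⟨⟨i, k⟩, ⟨j, l⟩⟩))
  exact PS.poleMod_mono hle _ i j (hmf i k j l)

end FamData

end

end Fermat.Agent.AV.CP
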