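/-
PROJECT AV (S26 long shot) — cohomological primitives, producer side (helper8).

`CP_helper8_Pull`: base change of a `FamData` along `T' ⟶ T`, and the behaviour of the transition
coefficients.
-/
import Mathlib
import Fermat.Agent.AV.CP_helper8_FamData

set_option autoImplicit false

open AlgebraicGeometry CategoryTheory Opposite TopologicalSpace TensorProduct

universe u

namespace Fermat.Agent.AV.CP

open Fermat.Agent.AV Fermat.Agent.AV.LB

noncomputable section

variable {K : Type u} [Field K] {X : Scheme.{u}} [KScheme K X] {PS : PoleSystem K X}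

/-- A base change `T' ⟶ T` of the base of a family, with the induced product. -/
structure TestData (F : FamData PS) where
  /-- the new (affine) base -/
  T' : Scheme.{u}
  /-- the new product -/
  Y' : Scheme.{u}
  [kT' : KScheme K T']
  [affT' : IsAffine T']
  /-- the base change morphism -/
  φ : T' ⟶ F.T
  hφ : φ ≫ KScheme.str (K := K) = KScheme.str
  /-- second projection -/
  p₂' : Y' ⟶ T'
  /-- the induced morphism of products -/
  ψ : Y' ⟶ F.Y
  H' : IsPullback (ψ ≫ F.p₁) p₂' (KScheme.str (K := K)) (KScheme.str (K := K))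
  hψ : ψ ≫ F.p₂ = p₂' ≫ φ

attribute [instance] TestData.kT' TestData.affT'

namespace FamData

variable (F : FamData PS) (E : TestData F)

/-- Base change of a family. -/
@[reducible] def pull : FamData PS where
  T := E.T'
  Y := E.Y'
  p₁ := E.ψ ≫ F.p₁
  p₂ := E.p₂'
  H := E.H'
  L := F.L.pullback E.ψ
  nn := F.nn
  mm i k := (F.mm i k).pullback E.ψ
  tt i k := pullbackInv E.ψ (F.tt i k)
  part i := by
    have h := congrArg (E.ψ.app (F.p₁ ⁻¹ᵁ PS.U i)).hom (F.part i)
    rw [map_sum, map_one] at h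
    exact (Finset.sum_congr rfl fun k _ => pair_pullback E.ψ (F.tt i k) (F.mm i k)).trans h

lemma pull_W₀ : (F.pull E).W₀ = E.ψ ⁻¹ᵁ F.W₀ := rfl

lemma pull_m₀ (i : PS.ι) (k : Fin (F.nn i)) :
    (F.pull E).m₀ i k = (F.m₀ i k).pullback E.ψ :=
  (SecOn.pullback_restrict E.ψ (F.W₀_le i) (F.mm i k)).symm

lemma pull_t₀ (i : PS.ι) (k : Fin (F.nn i)) :
    (F.pull E).t₀ i k = pullbackInv E.ψ (F.t₀ i k) :=
  (pullbackInv_restrict E.ψ (F.W₀_le i) (F.tt i k)).symm

lemma pull_coeffΓ (i : PS.ι) (k : Fin (F.nn i)) (j : PS.ι) (l : Fin (F.nn j)) :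
    (F.pull E).coeffΓ i k j l = (E.ψ.app F.W₀).hom (F.coeffΓ i k j l) := by
  show pair ((F.pull E).t₀ i k) ((F.pull E).m₀ j l) = _
  rw [pull_t₀, pull_m₀]
  exact pair_pullback E.ψ (F.t₀ i k) (F.m₀ j l)

/-- the pull-back of functions on the base, as a `K`-algebra homomorphism -/
def φAlg : Γ(F.T, ⊤) →ₐ[K] Γ(E.T', ⊤) := appTopAlgHom E.φ E.hφ

lemma app_θ (x : Γ(F.T, ⊤) ⊗[K] Γ(X, PS.U₀)) :
    (E.ψ.app F.W₀).hom (F.θ x) = (F.pull E).θ (baseMap Γ(X, PS.U₀) (F.φAlg E) x) :=
  app_kunneth F.H E.φ E.hφ E.p₂' E.ψ E.H' E.hψ PS.affine₀ x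

lemma pull_cT (i : PS.ι) (k : Fin (F.nn i)) (j : PS.ι) (l : Fin (F.nn j)) :
    (F.pull E).cT i k j l = baseMap Γ(X, PS.U₀) (F.φAlg E) (F.cT i k j l) := by
  have h1 : (F.pull E).coeffΓ i k j l = (E.ψ.app F.W₀).hom (F.coeffΓ i k j l) :=
    F.pull_coeffΓ E i k j l
  have h2 := F.app_θ E (F.cT i k j l)
  have h3 : F.θ (F.cT i k j l) = F.coeffΓ i k j l := RingEquiv.apply_symm_apply _ _
  rw [h3] at h2
  exact (RingEquiv.symm_apply_eq _).2 (h1.trans h2)

lemma pull_poleBound {m : ℕ} (hm : F.PoleBound m) : (F.pull E).PoleBound m := by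
  intro i k j l
  have h := F.pull_cT E i k j l
  rw [h]
  exact baseMap_mem_baseChange _ _ (hm i k j l)

end FamData

end

end Fermat.Agent.AV.CP
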