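/-
PROJECT AV (S26 long shot) — cohomological primitives, producer side (helper8).

`CP_helper8_Present`: the universal presentation of `H⁰` of a family with partitions of unity, and
the final statement `HasH0UnivPresentations` from a pole system (given the partition-of-unity
lemma (QC) on affine opens).
-/
import Mathlib
import Fermat.Agent.AV.CP_helper8_Pull
import Fermat.Agent.AV.CP_helper8_Iface

set_option autoImplicit false

open AlgebraicGeometry CategoryTheory Opposite TopologicalSpace TensorProduct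

universe u

namespace Fermat.Agent.AV.CP

open Fermat.Agent.AV Fermat.Agent.AV.LB

noncomputable section

variable {K : Type u} [Field K] {X : Scheme.{u}} [KScheme K X] {PS : PoleSystem K X}

namespace FamData

variable (F : FamData PS) (m : ℕ)

/-- number of columns of the presentation matrix -/
def N₀ : ℕ := presN₀ (fun i => Fin (F.nn i)) (PS.dimV m)

/-- number of rows of the presentation matrix -/
def N₁ : ℕ := presN₁ (v := PS.basisV m) Γ(F.T, ⊤) F.cT

/-- the presentation matrix of the family -/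
def dMat : Matrix (Fin (F.N₁ m)) (Fin (F.N₀ m)) Γ(F.T, ⊤) :=
  presMatrix (v := PS.basisV m) Γ(F.T, ⊤) F.cT

lemma θ_tmul_one (b : Γ(F.T, ⊤)) :
    F.θ (b ⊗ₜ 1) = res F.W₀ le_top (F.p₂.appTop.hom b) := by
  have h := kunneth_tmul_one F.H PS.affine₀ b
  refine h.trans ?_
  simp only [kunβ, Scheme.Hom.appLE, res]
  rfl

lemma h0Iso_smul_coe (hm : F.PoleBound m) (c : Γ(F.Y, ⊤)) (s : F.L.H0) :
    ((F.h0Iso m hm (c • s) : (F.ambient m hm).H0) : F.L.SecOn F.W₀) =
      res F.W₀ le_top c • ((F.h0Iso m hm s : (F.ambient m hm).H0) : F.L.SecOn F.W₀) := by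
  rw [h0Iso_coe, h0Iso_coe, ofH0_smul]
  exact restrict_smul' le_top _ _

variable {m} (hm : F.PoleBound m) (E : TestData F)

lemma pull_hc (i : PS.ι) (k : Fin (F.nn i)) (j : PS.ι) (l : Fin (F.nn j)) :
    (F.pull E).θ.symm (((F.pull E).ambient m (F.pull_poleBound E hm)).coeff i k j l) =
      baseMap Γ(X, PS.U₀) (F.φAlg E) (F.cT i k j l) :=
  F.pull_cT E i k j l

/-- **The presentation of the sections of the base-changed family.** -/
def presE : (F.L.pullback E.ψ).H0 ≃+
    LinearMap.ker ((F.dMat m).map (F.φAlg E)).mulVecLin :=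
  ((F.pull E).h0Iso m (F.pull_poleBound E hm)).trans
    (ambientPresentEquiv (κ := fun i => Fin (F.nn i)) (v := PS.basisV m) (c := F.cT)
      (φ := F.φAlg E) (θ := (F.pull E).θ) (D := (F.pull E).ambient m (F.pull_poleBound E hm))
      (fun _ _ _ => Iff.rfl) (F.pull_hc hm E))

/-- the restriction of a global section of the base-changed bundle to the dense chart -/
def secW₀ (s : (F.L.pullback E.ψ).H0) : (F.L.pullback E.ψ).SecOn (F.pull E).W₀ :=
  (SecOn.ofH0 s).restrict le_top

lemma presE_formula (s : (F.L.pullback E.ψ).H0) (i : PS.ι) (k : Fin (F.nn i)) :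
    (F.pull E).θ.symm (pair ((F.pull E).t₀ i k) (F.secW₀ E s)) =
      coordMap K Γ(E.T', ⊤) (vR (PS.poleAlg m) (PS.basisV m) i)
        (fun β => (F.presE hm E s).1 (colEquiv (fun i => Fin (F.nn i)) (PS.dimV m) ⟨i, k, β⟩)) :=
  τ_eq_coordMap_ambientPresentEquiv (κ := fun i => Fin (F.nn i)) (v := PS.basisV m) (c := F.cT)
    (φ := F.φAlg E) (θ := (F.pull E).θ) (D := (F.pull E).ambient m (F.pull_poleBound E hm))
    (fun _ _ _ => Iff.rfl) (F.pull_hc hm E) ((F.pull E).h0Iso m (F.pull_poleBound E hm) s) i k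

lemma presE_unique (s : (F.L.pullback E.ψ).H0) (y : Fin (F.N₀ m) → Γ(E.T', ⊤))
    (hy : ∀ (i : PS.ι) (k : Fin (F.nn i)),
      (F.pull E).θ.symm (pair ((F.pull E).t₀ i k) (F.secW₀ E s)) =
        coordMap K Γ(E.T', ⊤) (vR (PS.poleAlg m) (PS.basisV m) i)
          (fun β => y (colEquiv (fun i => Fin (F.nn i)) (PS.dimV m) ⟨i, k, β⟩))) :
    (F.presE hm E s).1 = y :=
  ambientPresentEquiv_unique (κ := fun i => Fin (F.nn i)) (v := PS.basisV m) (c := F.cT)
    (φ := F.φAlg E) (θ := (F.pull E).θ) (D := (F.pull E).ambient m (F.pull_poleBound E hm))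
    (fun _ _ _ => Iff.rfl) (F.pull_hc hm E) ((F.pull E).h0Iso m (F.pull_poleBound E hm) s) y hy

/-- Semilinearity of the presentation. -/
lemma presE_smul (b : Γ(E.T', ⊤)) (s : (F.L.pullback E.ψ).H0) :
    (F.presE hm E (E.p₂'.appTop.hom b • s)).1 = b • (F.presE hm E s).1 := by
  refine ambientPresentEquiv_smul (κ := fun i => Fin (F.nn i)) (v := PS.basisV m) (c := F.cT)
    (φ := F.φAlg E) (θ := (F.pull E).θ) (D := (F.pull E).ambient m (F.pull_poleBound E hm))
    (fun _ _ _ => Iff.rfl) (F.pull_hc hm E) b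
    ((F.pull E).h0Iso m (F.pull_poleBound E hm) s)
    ((F.pull E).h0Iso m (F.pull_poleBound E hm) (E.p₂'.appTop.hom b • s)) ?_
  have h1 := (F.pull E).h0Iso_smul_coe m (F.pull_poleBound E hm) (E.p₂'.appTop.hom b) s
  have h2 := (F.pull E).θ_tmul_one b
  exact h1.trans (congrArg (fun a => a • (((F.pull E).h0Iso m (F.pull_poleBound E hm) s :
    ((F.pull E).ambient m (F.pull_poleBound E hm)).H0) : (F.pull E).L.SecOn (F.pull E).W₀)) h2.symm)

/-! ### Compatibility with a further base change -/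

/-- the restriction to the dense chart commutes with pull-back of global sections -/
lemma secW₀_pullbackSection (s : F.L.H0) :
    ((SecOn.ofH0 (F.L.pullbackSection E.ψ s) : (F.pull E).L.SecOn ⊤).restrict le_top :
      (F.pull E).L.SecOn (F.pull E).W₀) =
    ((SecOn.ofH0 s).restrict (le_top : F.W₀ ≤ ⊤)).pullback E.ψ := by
  rw [SecOn.pullback_restrict]
  have h := ofH0_pullbackSection E.ψ s
  exact congrArg (fun σ : (F.pull E).L.SecOn ⊤ => σ.restrict (le_top : (F.pull E).W₀ ≤ ⊤)) h

lemma pair_pull (i : PS.ι) (k : Fin (F.nn i)) (x : F.L.SecOn F.W₀) :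
    pair ((F.pull E).t₀ i k) (x.pullback E.ψ : (F.pull E).L.SecOn (F.pull E).W₀) =
      (E.ψ.app F.W₀).hom (pair (F.t₀ i k) x) := by
  have h := F.pull_t₀ E i k
  rw [h]
  exact pair_pullback E.ψ (F.t₀ i k) x

lemma θ_symm_app (a : Γ(F.Y, F.W₀)) :
    (F.pull E).θ.symm ((E.ψ.app F.W₀).hom a) =
      baseMap Γ(X, PS.U₀) (F.φAlg E) (F.θ.symm a) := by
  have h := F.app_θ E (F.θ.symm a)
  rw [RingEquiv.apply_symm_apply] at h
  exact (RingEquiv.symm_apply_eq _).2 h

end FamData

/-- composition of base changes -/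
def TestData.comp {F : FamData PS} (E : TestData F) (E' : TestData (F.pull E)) : TestData F where
  T' := E'.T'
  Y' := E'.Y'
  kT' := E'.kT'
  affT' := E'.affT'
  φ := E'.φ ≫ E.φ
  hφ := by rw [Category.assoc, E.hφ]; exact E'.hφ
  p₂' := E'.p₂'
  ψ := E'.ψ ≫ E.ψ
  H' := E'.H'
  hψ := by
    rw [Category.assoc, E.hψ, ← Category.assoc]
    have := E'.hψ
    rw [show E'.ψ ≫ E.p₂' = E'.p₂' ≫ E'.φ from this, Category.assoc]

namespace FamData

variable (F : FamData PS) {m : ℕ} (hm : F.PoleBound m) (E : TestData F)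

/-- **Compatibility of the presentation with a further base change.** -/
lemma presE_comp (E' : TestData (F.pull E)) (s : (F.L.pullback E.ψ).H0) (a : Fin (F.N₀ m)) :
    (F.presE hm (E.comp E') ((F.L.pullback E.ψ).pullbackSection E'.ψ s)).1 a =
      E'.φ.appTop.hom ((F.presE hm E s).1 a) := by
  have key : (F.presE hm (E.comp E') ((F.L.pullback E.ψ).pullbackSection E'.ψ s)).1 =
      fun a => E'.φ.appTop.hom ((F.presE hm E s).1 a) := by
    apply presE_unique
    intro i k
    have h1 := (F.pull E).secW₀_pullbackSection E' s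
    have h2 := (F.pull E).pair_pull E' i k ((SecOn.ofH0 s).restrict (le_top : (F.pull E).W₀ ≤ ⊤))
    have h3 := (F.pull E).θ_symm_app E'
      (pair ((F.pull E).t₀ i k) ((SecOn.ofH0 s).restrict (le_top : (F.pull E).W₀ ≤ ⊤)))
    have h4 := F.presE_formula hm E s i k
    rw [secW₀] at h4
    rw [h4, baseMap_coordMap] at h3
    rw [← h2, ← h1] at h3
    exact h3
  exact congrFun key a

/-! ### The universal presentation -/

/-- test data from a cartesian square over the family -/
def mkTest {T' Y' : Scheme.{u}} (φ : T' ⟶ F.T) (p₂' : Y' ⟶ T') (ψ : Y' ⟶ F.Y)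
    (hT' : IsAffine T') (H' : IsPullback ψ p₂' F.p₂ φ) : TestData F where
  T' := T'
  Y' := Y'
  kT' := ⟨φ ≫ KScheme.str⟩
  affT' := hT'
  φ := φ
  hφ := rfl
  p₂' := p₂'
  ψ := ψ
  H' := H'.paste_horiz F.H
  hψ := H'.w

/-- **The universal presentation of `p₂_* L`** for a family with partitions of unity. -/
def toUnivPresentation : H0UnivPresentation F.p₂ F.L where
  n₀ := F.N₀ m
  n₁ := F.N₁ m
  d := F.dMat m
  e φ p₂' ψ hT' H' := F.presE hm (F.mkTest φ p₂' ψ hT' H')
  e_smul φ p₂' ψ hT' H' b s := F.presE_smul hm (F.mkTest φ p₂' ψ hT' H') b s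
  e_comp φ p₂' ψ hT' H' φ' p₂'' χ hT'' H'' s a :=
    F.presE_comp hm (F.mkTest φ p₂' ψ hT' H')
      ((F.pull (F.mkTest φ p₂' ψ hT' H')).mkTest φ' p₂'' χ hT'' H'') s a

end FamData

/-- **Main theorem of the producer side**: a pole system on `X` (+ the partition-of-unity lemma on
affine opens) gives universal `H⁰`-presentations for all line bundles on all products `X ×_K T`,
`T` affine. -/
theorem hasH0UnivPresentations_of_poleSystem (PS : PoleSystem K X)
    (hQC : ∀ {Y : Scheme.{u}} (L : LB Y) {W : Y.Opens}, IsAffineOpen W →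
      ∃ (n : ℕ) (m : Fin n → L.SecOn W) (t : Fin n → L.inv.SecOn W), ∑ k, pair (t k) (m k) = 1) :
    HasH0UnivPresentations (KScheme.str (K := K) (X := X)) := by
  intro T Y iT p₁ p₂ H hT L
  letI : KScheme K T := ⟨iT⟩
  have hp₁ : IsAffineHom p₁ :=
    MorphismProperty.of_isPullback (P := @IsAffineHom) H.flip inferInstance
  have haff : ∀ i, IsAffineOpen (p₁ ⁻¹ᵁ PS.U i) := fun i => (PS.affine i).preimage p₁
  choose nn mm tt part using fun i => hQC L (haff i)
  let F : FamData PS :=
    { T := T, Y := Y, p₁ := p₁, p₂ := p₂, H := H, L := L, nn := nn, mm := mm, tt := tt,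
      part := part }
  obtain ⟨m, hm⟩ := F.exists_poleBound
  exact ⟨F.toUnivPresentation hm⟩

end

end Fermat.Agent.AV.CP
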