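/-
PROJECT AV (S26) — helper3 — [AV3b] **abstract degree-one Künneth injectivity** (pure linear algebra).

Model: for `T ∈ {X, Y}` a "Čech side" consists of `K`-modules `P` (`= ∏ Γ(U_i)`), `Q`
(`= ∏ Γ(U_i ∩ U_i')`), the two restrictions `r₁ r₂ : P → Q`, the diagonal `Δ : Q → P`, the unit
`u ∈ P` and an evaluation `ev : P → K` at a rational point, such that `ker (r₁ - r₂) = K u`
(i.e. `H⁰ = K`).  A 1-cochain of the product cover is an element `c ∈ Q_X ⊗ Q_Y`; the two cocycle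
identities used are `C1`, `C2` below.  If the restrictions of `c` to the two axes are coboundaries
then `c` is a coboundary: `c = (r₁ ⊗ r₁ - r₂ ⊗ r₂) e`.
-/
import Mathlib

set_option autoImplicit false

open TensorProduct

namespace Fermat.Agent.AV.CubeKunneth

variable {K : Type*} [Field K]

/-- one side of the abstract Čech data. -/
structure Side (K : Type*) [Field K] (P Q : Type*) [AddCommGroup P] [Module K P]
    [AddCommGroup Q] [Module K Q] where
  r₁ : P →ₗ[K] Q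
  r₂ : P →ₗ[K] Q
  Δ : Q →ₗ[K] P
  Δ_r₁ : Δ ∘ₗ r₁ = LinearMap.id
  Δ_r₂ : Δ ∘ₗ r₂ = LinearMap.id
  r₁_Δ_r₂ : r₁ ∘ₗ Δ ∘ₗ r₂ = r₁
  r₂_Δ_r₁ : r₂ ∘ₗ Δ ∘ₗ r₁ = r₂
  u : P
  r_u : r₁ u = r₂ u
  exact : ∀ s : P, r₁ s = r₂ s → ∃ κ : K, s = κ • u
  ev : P →ₗ[K] K
  ev_u : ev u = 1

namespace Side

variable {P Q : Type*} [AddCommGroup P] [Module K P] [AddCommGroup Q] [Module K Q]
  (S : Side K P Q)

/-- the Čech differential. -/
def δ : P →ₗ[K] Q := S.r₁ - S.r₂

/-- the inclusion of the constants. -/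
def ι : K →ₗ[K] P := LinearMap.toSpanSingleton K P S.u

@[simp] theorem ι_apply (κ : K) : S.ι κ = κ • S.u := rfl

theorem exact_ι_δ : Function.Exact S.ι S.δ := by
  intro s
  constructor
  · intro hs
    have : S.r₁ s = S.r₂ s := by
      have : S.r₁ s - S.r₂ s = 0 := hs
      exact sub_eq_zero.mp this
    obtain ⟨κ, rfl⟩ := S.exact s this
    exact ⟨κ, rfl⟩
  · rintro ⟨κ, rfl⟩
    show S.r₁ (κ • S.u) - S.r₂ (κ • S.u) = 0
    rw [map_smul, map_smul, S.r_u, sub_self]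

theorem ev_comp_ι : S.ev ∘ₗ S.ι = LinearMap.id := by
  ext
  simp [S.ev_u]

theorem r₁_Δ_r₁ : S.r₁ ∘ₗ S.Δ ∘ₗ S.r₁ = S.r₁ := by
  rw [S.Δ_r₁, LinearMap.comp_id]

theorem r₂_Δ_r₂ : S.r₂ ∘ₗ S.Δ ∘ₗ S.r₂ = S.r₂ := by
  rw [S.Δ_r₂, LinearMap.comp_id]

end Side

section helpers

variable {M₁ M₂ N₁ N₂ : Type*} [AddCommGroup M₁] [Module K M₁] [AddCommGroup M₂] [Module K M₂]
  [AddCommGroup N₁] [Module K N₁] [AddCommGroup N₂] [Module K N₂]

theorem tmap_sub_left (f₁ f₂ : M₁ →ₗ[K] M₂) (g : N₁ →ₗ[K] N₂) :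
    TensorProduct.map (f₁ - f₂) g = TensorProduct.map f₁ g - TensorProduct.map f₂ g := by
  ext x y
  simp [TensorProduct.sub_tmul]

theorem tmap_sub_right (f : M₁ →ₗ[K] M₂) (g₁ g₂ : N₁ →ₗ[K] N₂) :
    TensorProduct.map f (g₁ - g₂) = TensorProduct.map f g₁ - TensorProduct.map f g₂ := by
  ext x y
  simp [TensorProduct.tmul_sub]

theorem tmap_tmap {M₃ N₃ : Type*} [AddCommGroup M₃] [Module K M₃] [AddCommGroup N₃] [Module K N₃]
    (f : M₂ →ₗ[K] M₃) (F : M₁ →ₗ[K] M₂) (g : N₂ →ₗ[K] N₃) (G : N₁ →ₗ[K] N₂) (z : M₁ ⊗[K] N₁) :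
    TensorProduct.map f g (TensorProduct.map F G z) = TensorProduct.map (f ∘ₗ F) (g ∘ₗ G) z := by
  rw [← LinearMap.comp_apply, ← TensorProduct.map_comp]

theorem lTensor_sum' {ι : Type*} (s : Finset ι) (M : Type*) [AddCommGroup M] [Module K M]
    (f : ι → (N₁ →ₗ[K] N₂)) :
    (∑ i ∈ s, f i).lTensor M = ∑ i ∈ s, (f i).lTensor M := by
  exact map_sum (LinearMap.lTensorHom (R := K) M (N := N₁) (P := N₂)) f s

theorem rTensor_sum' {ι : Type*} (s : Finset ι) (M : Type*) [AddCommGroup M] [Module K M]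
    (f : ι → (N₁ →ₗ[K] N₂)) :
    (∑ i ∈ s, f i).rTensor M = ∑ i ∈ s, (f i).rTensor M := by
  exact map_sum (LinearMap.rTensorHom (R := K) M (N := N₁) (P := N₂)) f s

end helpers

variable {PX QX PY QY : Type*} [AddCommGroup PX] [Module K PX] [AddCommGroup QX] [Module K QX]
  [AddCommGroup PY] [Module K PY] [AddCommGroup QY] [Module K QY]

/-- the Čech differential of the product cover, in degree zero. -/
def δW (SX : Side K PX QX) (SY : Side K PY QY) : PX ⊗[K] PY →ₗ[K] QX ⊗[K] QY :=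
  TensorProduct.map SX.r₁ SY.r₁ - TensorProduct.map SX.r₂ SY.r₂

/-- first cocycle identity (`(i,j),(i,j'),(i',j')`). -/
def C1 (SX : Side K PX QX) (SY : Side K PY QY) (c : QX ⊗[K] QY) : Prop :=
  TensorProduct.map (SX.r₁ ∘ₗ SX.Δ) LinearMap.id c +
    TensorProduct.map LinearMap.id (SY.r₂ ∘ₗ SY.Δ) c = c

/-- second cocycle identity (`(i,j),(i',j),(i',j')`). -/
def C2 (SX : Side K PX QX) (SY : Side K PY QY) (c : QX ⊗[K] QY) : Prop :=
  TensorProduct.map LinearMap.id (SY.r₁ ∘ₗ SY.Δ) c +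
    TensorProduct.map (SX.r₂ ∘ₗ SX.Δ) LinearMap.id c = c

theorem C1_δW (SX : Side K PX QX) (SY : Side K PY QY) (e : PX ⊗[K] PY) :
    C1 SX SY (δW SX SY e) := by
  unfold C1 δW
  simp only [LinearMap.sub_apply, map_sub, ← LinearMap.comp_apply, ← TensorProduct.map_comp,
    LinearMap.comp_assoc, LinearMap.id_comp, SX.r₁_Δ_r₁, SX.r₁_Δ_r₂, SY.r₂_Δ_r₁, SY.r₂_Δ_r₂]
  abel

theorem C2_δW (SX : Side K PX QX) (SY : Side K PY QY) (e : PX ⊗[K] PY) :
    C2 SX SY (δW SX SY e) := by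
  unfold C2 δW
  simp only [LinearMap.sub_apply, map_sub, ← LinearMap.comp_apply, ← TensorProduct.map_comp,
    LinearMap.comp_assoc, LinearMap.id_comp, SY.r₁_Δ_r₁, SY.r₁_Δ_r₂, SX.r₂_Δ_r₁, SX.r₂_Δ_r₂]
  abel

/-- **abstract Künneth injectivity in degree one.** -/
theorem kunneth_global (SX : Side K PX QX) (SY : Side K PY QY) (c : QX ⊗[K] QY)
    (h1 : C1 SX SY c) (h2 : C2 SX SY c)
    (hY : ∃ β : PY, TensorProduct.map (SX.ev ∘ₗ SX.Δ) LinearMap.id c = 1 ⊗ₜ[K] SY.δ β)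
    (hX : ∃ ψ : PX, TensorProduct.map LinearMap.id (SY.ev ∘ₗ SY.Δ) c = SX.δ ψ ⊗ₜ[K] 1) :
    ∃ e : PX ⊗[K] PY, c = δW SX SY e := by
  classical
  obtain ⟨β, hβ⟩ := hY
  obtain ⟨ψ, hψ⟩ := hX
  -- the quotient `H' = C¹(Y)/B¹(Y)`
  let pr : QY →ₗ[K] QY ⧸ LinearMap.range SY.δ := Submodule.mkQ _
  have hprδ : pr ∘ₗ SY.δ = 0 := by
    ext x
    simp only [pr, LinearMap.comp_apply, Submodule.mkQ_apply, LinearMap.zero_apply,
      Submodule.Quotient.mk_eq_zero]
    exact ⟨x, rfl⟩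
  have hex_pr : Function.Exact SY.δ pr := by
    intro y
    simp only [pr, Submodule.mkQ_apply, Submodule.Quotient.mk_eq_zero]
    exact Iff.rfl
  have hpr_surj : Function.Surjective pr := Submodule.mkQ_surjective _
  -- step (ii): the key identity
  have hii : TensorProduct.map (SX.δ ∘ₗ SX.Δ) LinearMap.id c =
      TensorProduct.map LinearMap.id (SY.δ ∘ₗ SY.Δ) c := by
    have e1 : TensorProduct.map (SX.δ ∘ₗ SX.Δ) LinearMap.id c =
        TensorProduct.map (SX.r₁ ∘ₗ SX.Δ) LinearMap.id c -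
          TensorProduct.map (SX.r₂ ∘ₗ SX.Δ) LinearMap.id c := by
      rw [Side.δ, LinearMap.sub_comp, tmap_sub_left, LinearMap.sub_apply]
    have e2 : TensorProduct.map LinearMap.id (SY.δ ∘ₗ SY.Δ) c =
        TensorProduct.map LinearMap.id (SY.r₁ ∘ₗ SY.Δ) c -
          TensorProduct.map LinearMap.id (SY.r₂ ∘ₗ SY.Δ) c := by
      rw [Side.δ, LinearMap.sub_comp, tmap_sub_right, LinearMap.sub_apply]
    rw [e1, e2, sub_eq_sub_iff_add_eq_add]
    have h1' := h1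
    have h2' := h2
    unfold C1 at h1'
    unfold C2 at h2'
    rw [h1', add_comm (TensorProduct.map LinearMap.id (SY.r₁ ∘ₗ SY.Δ) c), ← add_comm (TensorProduct.map LinearMap.id (SY.r₁ ∘ₗ SY.Δ) c), h2']
  -- the class `η`
  set η : PX ⊗[K] (QY ⧸ LinearMap.range SY.δ) := TensorProduct.map SX.Δ pr c with hη
  have hη0 : (SX.δ.rTensor _) η = 0 := by
    rw [hη, LinearMap.rTensor, ← LinearMap.comp_apply, ← TensorProduct.map_comp,
      LinearMap.id_comp]
    have : TensorProduct.map (SX.δ ∘ₗ SX.Δ) pr c =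
        (TensorProduct.map LinearMap.id pr) (TensorProduct.map (SX.δ ∘ₗ SX.Δ) LinearMap.id c) := by
      rw [← LinearMap.comp_apply, ← TensorProduct.map_comp, LinearMap.id_comp, LinearMap.comp_id]
    rw [this, hii, ← LinearMap.comp_apply, ← TensorProduct.map_comp, LinearMap.id_comp,
      ← LinearMap.comp_assoc, hprδ, LinearMap.zero_comp, TensorProduct.map_zero_right,
      LinearMap.zero_apply]
  -- exactness with coefficients
  have hexη := Module.Flat.rTensor_exact (QY ⧸ LinearMap.range SY.δ) SX.exact_ι_δ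
  obtain ⟨ζ, hζ⟩ := (hexη η).mp hη0
  -- step (iv): evaluate at `x₀`
  have hζ0 : ζ = 0 := by
    have e1 : (SX.ev.rTensor _) η = ζ := by
      rw [← hζ, ← LinearMap.comp_apply, ← LinearMap.rTensor_comp, SX.ev_comp_ι,
        LinearMap.rTensor_id, LinearMap.id_apply]
    rw [← e1, hη, LinearMap.rTensor, ← LinearMap.comp_apply, ← TensorProduct.map_comp,
      LinearMap.id_comp]
    have : TensorProduct.map (SX.ev ∘ₗ SX.Δ) pr c =
        (TensorProduct.map LinearMap.id pr) (TensorProduct.map (SX.ev ∘ₗ SX.Δ) LinearMap.id c) := by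
      rw [← LinearMap.comp_apply, ← TensorProduct.map_comp, LinearMap.id_comp, LinearMap.comp_id]
    rw [this, hβ, TensorProduct.map_tmul]
    have : pr (SY.δ β) = 0 := by
      have := congrArg (fun f => f β) hprδ
      simpa using this
    rw [this, TensorProduct.tmul_zero]
  have hη00 : η = 0 := by rw [← hζ, hζ0, map_zero]
  -- step (v): `Δ_X c` is a coboundary in the `Y`-direction
  have hexY := lTensor_exact PX hex_pr hpr_surj
  have hΔc : (pr.lTensor PX) (TensorProduct.map SX.Δ LinearMap.id c) = 0 := by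
    rw [LinearMap.lTensor, ← LinearMap.comp_apply, ← TensorProduct.map_comp, LinearMap.id_comp,
      LinearMap.comp_id]
    exact hη00
  obtain ⟨e, he⟩ := (hexY _).mp hΔc
  -- `Δ_X (δ_W e) = δ_Y e`
  have hΔδW : TensorProduct.map SX.Δ LinearMap.id (δW SX SY e) = (SY.δ.lTensor PX) e := by
    unfold δW
    rw [LinearMap.sub_apply, map_sub, ← LinearMap.comp_apply, ← LinearMap.comp_apply,
      ← TensorProduct.map_comp, ← TensorProduct.map_comp, SX.Δ_r₁, SX.Δ_r₂, LinearMap.id_comp,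
      LinearMap.id_comp, LinearMap.lTensor, Side.δ, tmap_sub_right, LinearMap.sub_apply]
  -- the corrected cochain
  set c' := c - δW SX SY e with hc'
  have hc'1 : C1 SX SY c' := by
    have h := C1_δW SX SY e
    unfold C1 at h h1 ⊢
    rw [hc', map_sub, map_sub, ← add_sub_add_comm, h1, h]
  have hc'2 : C2 SX SY c' := by
    have h := C2_δW SX SY e
    unfold C2 at h h2 ⊢
    rw [hc', map_sub, map_sub, ← add_sub_add_comm, h2, h]
  have hΔc' : TensorProduct.map SX.Δ LinearMap.id c' = 0 := by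
    rw [hc', map_sub, hΔδW, he, sub_self]
  have hr₁Δc' : TensorProduct.map (SX.r₁ ∘ₗ SX.Δ) LinearMap.id c' = 0 := by
    have : TensorProduct.map (SX.r₁ ∘ₗ SX.Δ) LinearMap.id c' =
        TensorProduct.map SX.r₁ LinearMap.id (TensorProduct.map SX.Δ LinearMap.id c') := by
      rw [← LinearMap.comp_apply, ← TensorProduct.map_comp, LinearMap.id_comp]
    rw [this, hΔc', map_zero]
  have hr₂Δc' : TensorProduct.map (SX.r₂ ∘ₗ SX.Δ) LinearMap.id c' = 0 := by
    have : TensorProduct.map (SX.r₂ ∘ₗ SX.Δ) LinearMap.id c' =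
        TensorProduct.map SX.r₂ LinearMap.id (TensorProduct.map SX.Δ LinearMap.id c') := by
      rw [← LinearMap.comp_apply, ← TensorProduct.map_comp, LinearMap.id_comp]
    rw [this, hΔc', map_zero]
  -- step (vi)
  have hc'r₂ : TensorProduct.map LinearMap.id (SY.r₂ ∘ₗ SY.Δ) c' = c' := by
    have h := hc'1
    unfold C1 at h
    rwa [hr₁Δc', zero_add] at h
  have hc'r₁ : TensorProduct.map LinearMap.id (SY.r₁ ∘ₗ SY.Δ) c' = c' := by
    have h := hc'2
    unfold C2 at h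
    rwa [hr₂Δc', add_zero] at h
  set f : QX ⊗[K] PY := TensorProduct.map LinearMap.id SY.Δ c' with hf
  have hfr₁ : (SY.r₁.lTensor QX) f = c' := by
    rw [hf, LinearMap.lTensor, ← LinearMap.comp_apply, ← TensorProduct.map_comp,
      LinearMap.id_comp]
    exact hc'r₁
  have hfr₂ : (SY.r₂.lTensor QX) f = c' := by
    rw [hf, LinearMap.lTensor, ← LinearMap.comp_apply, ← TensorProduct.map_comp,
      LinearMap.id_comp]
    exact hc'r₂
  have hfδ : (SY.δ.lTensor QX) f = 0 := by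
    rw [Side.δ, LinearMap.lTensor_sub, LinearMap.sub_apply, hfr₁, hfr₂, sub_self]
  have hexf := Module.Flat.lTensor_exact QX SY.exact_ι_δ
  obtain ⟨φ', hφ'⟩ := (hexf f).mp hfδ
  -- `φ' = φ ⊗ 1`
  obtain ⟨φ, rfl⟩ : ∃ φ : QX, φ' = φ ⊗ₜ[K] (1 : K) :=
    ⟨TensorProduct.rid K QX φ', by
      rw [← TensorProduct.rid_symm_apply, LinearEquiv.symm_apply_apply]⟩
  have hfφ : f = φ ⊗ₜ[K] SY.u := by
    rw [← hφ', LinearMap.lTensor_tmul, Side.ι_apply, one_smul]
  have hc'φ : c' = φ ⊗ₜ[K] SY.r₁ SY.u := by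
    rw [← hfr₁, hfφ, LinearMap.lTensor_tmul]
  -- step (vii): restrict to the `X`-axis
  have hφ : ∃ ψ' : PX, φ = SX.δ ψ' := by
    refine ⟨ψ - TensorProduct.rid K PX ((SY.ev.lTensor PX) e), ?_⟩
    have hA : TensorProduct.map LinearMap.id (SY.ev ∘ₗ SY.Δ) c' = φ ⊗ₜ[K] (1 : K) := by
      rw [hc'φ, TensorProduct.map_tmul, LinearMap.id_apply, LinearMap.comp_apply,
        ← LinearMap.comp_apply (f := SY.Δ), SY.Δ_r₁, LinearMap.id_apply, SY.ev_u]
    have hB : TensorProduct.map LinearMap.id (SY.ev ∘ₗ SY.Δ) (δW SX SY e) =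
        (SX.δ.rTensor K) ((SY.ev.lTensor PX) e) := by
      unfold δW
      rw [LinearMap.sub_apply, map_sub, ← LinearMap.comp_apply, ← LinearMap.comp_apply,
        ← TensorProduct.map_comp, ← TensorProduct.map_comp, LinearMap.id_comp,
        LinearMap.id_comp, LinearMap.comp_assoc, LinearMap.comp_assoc, SY.Δ_r₁, SY.Δ_r₂,
        LinearMap.comp_id, LinearMap.rTensor, LinearMap.lTensor, ← LinearMap.comp_apply,
        ← TensorProduct.map_comp, LinearMap.id_comp, LinearMap.comp_id, Side.δ, tmap_sub_left,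
        LinearMap.sub_apply]
    have hC : φ ⊗ₜ[K] (1 : K) = SX.δ ψ ⊗ₜ[K] 1 - (SX.δ.rTensor K) ((SY.ev.lTensor PX) e) := by
      rw [← hA, hc', map_sub, hψ, hB]
    have hD := congrArg (TensorProduct.rid K QX) hC
    rw [TensorProduct.rid_tmul, one_smul, map_sub, TensorProduct.rid_tmul, one_smul] at hD
    rw [hD, map_sub]
    congr 1
    -- naturality of `rid`
    generalize (SY.ev.lTensor PX) e = z
    induction z using TensorProduct.induction_on with
    | zero => simp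
    | tmul x y => simp
    | add x y hx hy => simp only [map_add, hx, hy]
  obtain ⟨ψ', rfl⟩ := hφ
  refine ⟨e + ψ' ⊗ₜ[K] SY.u, ?_⟩
  have hfinal : δW SX SY (ψ' ⊗ₜ[K] SY.u) = SX.δ ψ' ⊗ₜ[K] SY.r₁ SY.u := by
    unfold δW
    rw [LinearMap.sub_apply, TensorProduct.map_tmul, TensorProduct.map_tmul, ← SY.r_u,
      ← TensorProduct.sub_tmul]
    rfl
  rw [map_add, hfinal, ← hc'φ, hc']
  abel

/-! ### componentwise form -/

section pi

variable {ι : Type*} [Fintype ι] [DecidableEq ι] {N : ι → Type*} [∀ i, AddCommGroup (N i)]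
  [∀ i, Module K (N i)] {M : Type*} [AddCommGroup M] [Module K M]

theorem sum_single_comp_proj :
    ∑ i, (LinearMap.single K N i) ∘ₗ (LinearMap.proj i) = LinearMap.id := by
  ext x j
  simp [Finset.sum_apply]

/-- joint injectivity of the projections, with coefficients on the left. -/
theorem eq_zero_of_lTensor_proj (z : M ⊗[K] (∀ i, N i))
    (h : ∀ i, ((LinearMap.proj i : (∀ i, N i) →ₗ[K] N i).lTensor M) z = 0) : z = 0 := by
  have : z = (LinearMap.lTensor M (LinearMap.id : (∀ i, N i) →ₗ[K] _)) z := by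
    rw [LinearMap.lTensor_id, LinearMap.id_apply]
  rw [this, ← sum_single_comp_proj, lTensor_sum', LinearMap.sum_apply]
  refine Finset.sum_eq_zero fun i _ => ?_
  rw [LinearMap.lTensor_comp, LinearMap.comp_apply, h i, map_zero]

/-- joint injectivity of the projections, with coefficients on the right. -/
theorem eq_zero_of_rTensor_proj (z : (∀ i, N i) ⊗[K] M)
    (h : ∀ i, ((LinearMap.proj i : (∀ i, N i) →ₗ[K] N i).rTensor M) z = 0) : z = 0 := by
  have : z = (LinearMap.rTensor M (LinearMap.id : (∀ i, N i) →ₗ[K] _)) z := by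
    rw [LinearMap.rTensor_id, LinearMap.id_apply]
  rw [this, ← sum_single_comp_proj, rTensor_sum', LinearMap.sum_apply]
  refine Finset.sum_eq_zero fun i _ => ?_
  rw [LinearMap.rTensor_comp, LinearMap.comp_apply, h i, map_zero]

variable {ι' : Type*} [Fintype ι'] [DecidableEq ι'] {N' : ι' → Type*} [∀ i, AddCommGroup (N' i)]
  [∀ i, Module K (N' i)]

theorem eq_zero_of_map_proj (z : (∀ i, N i) ⊗[K] (∀ j, N' j))
    (h : ∀ i j, TensorProduct.map (LinearMap.proj i : (∀ i, N i) →ₗ[K] N i)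
      (LinearMap.proj j : (∀ j, N' j) →ₗ[K] N' j) z = 0) : z = 0 := by
  refine eq_zero_of_rTensor_proj z fun i => ?_
  refine eq_zero_of_lTensor_proj _ fun j => ?_
  rw [LinearMap.lTensor, LinearMap.rTensor, ← LinearMap.comp_apply, ← TensorProduct.map_comp,
    LinearMap.id_comp, LinearMap.comp_id]
  exact h i j

theorem eq_of_map_proj (z z' : (∀ i, N i) ⊗[K] (∀ j, N' j))
    (h : ∀ i j, TensorProduct.map (LinearMap.proj i : (∀ i, N i) →ₗ[K] N i)
        (LinearMap.proj j : (∀ j, N' j) →ₗ[K] N' j) z =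
      TensorProduct.map (LinearMap.proj i : (∀ i, N i) →ₗ[K] N i)
        (LinearMap.proj j : (∀ j, N' j) →ₗ[K] N' j) z') : z = z' := by
  rw [← sub_eq_zero]
  refine eq_zero_of_map_proj _ fun i j => ?_
  rw [map_sub, h i j, sub_self]

/-- assemble a family of tensors into a tensor of the products. -/
def glob (c : ∀ i j, N i ⊗[K] N' j) : (∀ i, N i) ⊗[K] (∀ j, N' j) :=
  ∑ i, ∑ j, TensorProduct.map (LinearMap.single K N i) (LinearMap.single K N' j) (c i j)

theorem map_proj_glob (c : ∀ i j, N i ⊗[K] N' j) (i : ι) (j : ι') :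
    TensorProduct.map (LinearMap.proj i : (∀ i, N i) →ₗ[K] N i)
      (LinearMap.proj j : (∀ j, N' j) →ₗ[K] N' j) (glob c) = c i j := by
  unfold glob
  simp only [map_sum, ← LinearMap.comp_apply, ← TensorProduct.map_comp]
  rw [Finset.sum_eq_single i, Finset.sum_eq_single j]
  · rw [LinearMap.proj_comp_single_same, LinearMap.proj_comp_single_same, TensorProduct.map_id,
      LinearMap.id_apply]
  · intro j' _ hj'
    rw [LinearMap.proj_comp_single_ne _ _ _ _ hj'.symm, TensorProduct.map_zero_right,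
      LinearMap.zero_apply]
  · intro h; exact absurd (Finset.mem_univ _) h
  · intro i' _ hi'
    refine Finset.sum_eq_zero fun j' _ => ?_
    rw [LinearMap.proj_comp_single_ne _ _ _ _ hi'.symm, TensorProduct.map_zero_left,
      LinearMap.zero_apply]
  · intro h; exact absurd (Finset.mem_univ _) h

end pi

section family

/-- componentwise data of one side: `A i = Γ(U_i)`, `A₂ i i' = Γ(U_i ∩ U_i')`. -/
structure FamSide (K : Type*) [Field K] (I : Type*) (A : I → Type*) (A₂ : I → I → Type*)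
    [∀ i, AddCommGroup (A i)] [∀ i, Module K (A i)]
    [∀ i i', AddCommGroup (A₂ i i')] [∀ i i', Module K (A₂ i i')] where
  rl : ∀ i i', A i →ₗ[K] A₂ i i'
  rr : ∀ i i', A i' →ₗ[K] A₂ i i'
  dg : ∀ i, A₂ i i →ₗ[K] A i
  dg_rl : ∀ i x, dg i (rl i i x) = x
  dg_rr : ∀ i x, dg i (rr i i x) = x
  u : ∀ i, A i
  u_compat : ∀ i i', rl i i' (u i) = rr i i' (u i')
  exact : ∀ s : ∀ i, A i, (∀ i i', rl i i' (s i) = rr i i' (s i')) → ∃ κ : K, ∀ i, s i = κ • u i
  i₀ : I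
  ev : A i₀ →ₗ[K] K
  ev_u : ev (u i₀) = 1

variable {I : Type*} [Fintype I] [DecidableEq I] {A : I → Type*} {A₂ : I → I → Type*}
  [∀ i, AddCommGroup (A i)] [∀ i, Module K (A i)]
  [∀ i i', AddCommGroup (A₂ i i')] [∀ i i', Module K (A₂ i i')]

/-- the global side attached to componentwise data. -/
def FamSide.toSide (F : FamSide K I A A₂) :
    Side K (∀ i, A i) (∀ p : I × I, A₂ p.1 p.2) where
  r₁ := LinearMap.pi fun p => F.rl p.1 p.2 ∘ₗ LinearMap.proj p.1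
  r₂ := LinearMap.pi fun p => F.rr p.1 p.2 ∘ₗ LinearMap.proj p.2
  Δ := LinearMap.pi fun i => F.dg i ∘ₗ (LinearMap.proj (i, i) : (∀ p : I × I, A₂ p.1 p.2) →ₗ[K] _)
  Δ_r₁ := by
    ext s i
    simp [F.dg_rl]
  Δ_r₂ := by
    ext s i
    simp [F.dg_rr]
  r₁_Δ_r₂ := by
    ext s p
    simp [F.dg_rr]
  r₂_Δ_r₁ := by
    ext s p
    simp [F.dg_rl]
  u := F.u
  r_u := by
    ext p
    simp [F.u_compat]
  exact := by
    intro s hs
    obtain ⟨κ, hκ⟩ := F.exact s (fun i i' => by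
      have := congrFun hs (i, i')
      simpa using this)
    exact ⟨κ, funext hκ⟩
  ev := F.ev ∘ₗ LinearMap.proj F.i₀
  ev_u := by simp [F.ev_u]

variable {J : Type*} [Fintype J] [DecidableEq J] {B : J → Type*} {B₂ : J → J → Type*}
  [∀ j, AddCommGroup (B j)] [∀ j, Module K (B j)]
  [∀ j j', AddCommGroup (B₂ j j')] [∀ j j', Module K (B₂ j j')]

/-- **abstract Künneth injectivity in degree one, componentwise form.** -/
theorem kunneth_family (FX : FamSide K I A A₂) (FY : FamSide K J B B₂)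
    (c : ∀ i i' j j', A₂ i i' ⊗[K] B₂ j j')
    (h1 : ∀ i i' j j', TensorProduct.map (FX.rl i i' ∘ₗ FX.dg i) LinearMap.id (c i i j j') +
      TensorProduct.map LinearMap.id (FY.rr j j' ∘ₗ FY.dg j') (c i i' j' j') = c i i' j j')
    (h2 : ∀ i i' j j', TensorProduct.map LinearMap.id (FY.rl j j' ∘ₗ FY.dg j) (c i i' j j) +
      TensorProduct.map (FX.rr i i' ∘ₗ FX.dg i') LinearMap.id (c i' i' j j') = c i i' j j')
    (hY : ∃ β : ∀ j, B j, ∀ j j',
      TensorProduct.map (FX.ev ∘ₗ FX.dg FX.i₀) LinearMap.id (c FX.i₀ FX.i₀ j j') =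
        1 ⊗ₜ[K] (FY.rl j j' (β j) - FY.rr j j' (β j')))
    (hX : ∃ ψ : ∀ i, A i, ∀ i i',
      TensorProduct.map LinearMap.id (FY.ev ∘ₗ FY.dg FY.i₀) (c i i' FY.i₀ FY.i₀) =
        (FX.rl i i' (ψ i) - FX.rr i i' (ψ i')) ⊗ₜ[K] 1) :
    ∃ e : ∀ i j, A i ⊗[K] B j, ∀ i i' j j',
      c i i' j j' = TensorProduct.map (FX.rl i i') (FY.rl j j') (e i j) -
        TensorProduct.map (FX.rr i i') (FY.rr j j') (e i' j') := by
  classical
  have hproj : ∀ (p : I × I) (q : J × J),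
      TensorProduct.map (LinearMap.proj p : (∀ p : I × I, A₂ p.1 p.2) →ₗ[K] _)
        (LinearMap.proj q : (∀ q : J × J, B₂ q.1 q.2) →ₗ[K] _)
        (glob (K := K) (fun (p : I × I) (q : J × J) => c p.1 p.2 q.1 q.2)) =
          c p.1 p.2 q.1 q.2 :=
    fun p q => map_proj_glob (K := K) (N := fun p : I × I => A₂ p.1 p.2)
      (N' := fun q : J × J => B₂ q.1 q.2) (fun p q => c p.1 p.2 q.1 q.2) p q
  generalize glob (K := K) (fun (p : I × I) (q : J × J) => c p.1 p.2 q.1 q.2) = cg at hproj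
  -- notation for the projections
  let pX : ∀ p : I × I, (∀ p : I × I, A₂ p.1 p.2) →ₗ[K] A₂ p.1 p.2 :=
    fun p => LinearMap.proj (R := K) (φ := fun p : I × I => A₂ p.1 p.2) p
  let pY : ∀ q : J × J, (∀ q : J × J, B₂ q.1 q.2) →ₗ[K] B₂ q.1 q.2 :=
    fun q => LinearMap.proj (R := K) (φ := fun q : J × J => B₂ q.1 q.2) q
  have hproj' : ∀ p q, TensorProduct.map (pX p) (pY q) cg = c p.1 p.2 q.1 q.2 := hproj
  -- identities of linear maps
  have eX1 : ∀ p : I × I, pX p ∘ₗ FX.toSide.r₁ ∘ₗ FX.toSide.Δ =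
      (FX.rl p.1 p.2 ∘ₗ FX.dg p.1) ∘ₗ pX (p.1, p.1) := by
    intro p; ext s; simp [pX, FamSide.toSide]
  have eX2 : ∀ p : I × I, pX p ∘ₗ FX.toSide.r₂ ∘ₗ FX.toSide.Δ =
      (FX.rr p.1 p.2 ∘ₗ FX.dg p.2) ∘ₗ pX (p.2, p.2) := by
    intro p; ext s; simp [pX, FamSide.toSide]
  have eY1 : ∀ q : J × J, pY q ∘ₗ FY.toSide.r₁ ∘ₗ FY.toSide.Δ =
      (FY.rl q.1 q.2 ∘ₗ FY.dg q.1) ∘ₗ pY (q.1, q.1) := by
    intro q; ext s; simp [pY, FamSide.toSide]
  have eY2 : ∀ q : J × J, pY q ∘ₗ FY.toSide.r₂ ∘ₗ FY.toSide.Δ =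
      (FY.rr q.1 q.2 ∘ₗ FY.dg q.2) ∘ₗ pY (q.2, q.2) := by
    intro q; ext s; simp [pY, FamSide.toSide]
  have hC1 : C1 FX.toSide FY.toSide cg := by
    unfold C1
    refine eq_of_map_proj (K := K) (N := fun p : I × I => A₂ p.1 p.2)
      (N' := fun q : J × J => B₂ q.1 q.2) _ _ fun p q => ?_
    show TensorProduct.map (pX p) (pY q) _ = TensorProduct.map (pX p) (pY q) cg
    rw [map_add, tmap_tmap, tmap_tmap, LinearMap.comp_id, LinearMap.comp_id, eX1, eY2, hproj']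
    have e1 : TensorProduct.map ((FX.rl p.1 p.2 ∘ₗ FX.dg p.1) ∘ₗ pX (p.1, p.1)) (pY q) cg =
        TensorProduct.map (FX.rl p.1 p.2 ∘ₗ FX.dg p.1) LinearMap.id
          (TensorProduct.map (pX (p.1, p.1)) (pY q) cg) := by
      rw [tmap_tmap, LinearMap.id_comp]
    have e2 : TensorProduct.map (pX p) ((FY.rr q.1 q.2 ∘ₗ FY.dg q.2) ∘ₗ pY (q.2, q.2)) cg =
        TensorProduct.map LinearMap.id (FY.rr q.1 q.2 ∘ₗ FY.dg q.2)
          (TensorProduct.map (pX p) (pY (q.2, q.2)) cg) := by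
      rw [tmap_tmap, LinearMap.id_comp]
    rw [e1, e2, hproj', hproj']
    exact h1 p.1 p.2 q.1 q.2
  have hC2 : C2 FX.toSide FY.toSide cg := by
    unfold C2
    refine eq_of_map_proj (K := K) (N := fun p : I × I => A₂ p.1 p.2)
      (N' := fun q : J × J => B₂ q.1 q.2) _ _ fun p q => ?_
    show TensorProduct.map (pX p) (pY q) _ = TensorProduct.map (pX p) (pY q) cg
    rw [map_add, tmap_tmap, tmap_tmap, LinearMap.comp_id, LinearMap.comp_id, eX2, eY1, hproj']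
    have e1 : TensorProduct.map (pX p) ((FY.rl q.1 q.2 ∘ₗ FY.dg q.1) ∘ₗ pY (q.1, q.1)) cg =
        TensorProduct.map LinearMap.id (FY.rl q.1 q.2 ∘ₗ FY.dg q.1)
          (TensorProduct.map (pX p) (pY (q.1, q.1)) cg) := by
      rw [tmap_tmap, LinearMap.id_comp]
    have e2 : TensorProduct.map ((FX.rr p.1 p.2 ∘ₗ FX.dg p.2) ∘ₗ pX (p.2, p.2)) (pY q) cg =
        TensorProduct.map (FX.rr p.1 p.2 ∘ₗ FX.dg p.2) LinearMap.id
          (TensorProduct.map (pX (p.2, p.2)) (pY q) cg) := by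
      rw [tmap_tmap, LinearMap.id_comp]
    rw [e1, e2, hproj', hproj']
    exact h2 p.1 p.2 q.1 q.2
  have eXev : FX.toSide.ev ∘ₗ FX.toSide.Δ = (FX.ev ∘ₗ FX.dg FX.i₀) ∘ₗ pX (FX.i₀, FX.i₀) := by
    ext s; simp [pX, FamSide.toSide]
  have eYev : FY.toSide.ev ∘ₗ FY.toSide.Δ = (FY.ev ∘ₗ FY.dg FY.i₀) ∘ₗ pY (FY.i₀, FY.i₀) := by
    ext s; simp [pY, FamSide.toSide]
  have eXδ : ∀ (p : I × I) (ψ : ∀ i, A i),
      pX p (FX.toSide.δ ψ) = FX.rl p.1 p.2 (ψ p.1) - FX.rr p.1 p.2 (ψ p.2) := by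
    intro p ψ; simp [pX, FamSide.toSide, Side.δ]
  have eYδ : ∀ (q : J × J) (β : ∀ j, B j),
      pY q (FY.toSide.δ β) = FY.rl q.1 q.2 (β q.1) - FY.rr q.1 q.2 (β q.2) := by
    intro q β; simp [pY, FamSide.toSide, Side.δ]
  have hYg : ∃ β : ∀ j, B j, TensorProduct.map (FX.toSide.ev ∘ₗ FX.toSide.Δ) LinearMap.id cg =
      1 ⊗ₜ[K] FY.toSide.δ β := by
    obtain ⟨β, hβ⟩ := hY
    refine ⟨β, ?_⟩
    rw [← sub_eq_zero]
    refine eq_zero_of_lTensor_proj (K := K) (N := fun q : J × J => B₂ q.1 q.2) _ fun q => ?_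
    show (LinearMap.lTensor K (pY q)) _ = 0
    rw [map_sub, LinearMap.lTensor_tmul, eYδ, ← hβ q.1 q.2, LinearMap.lTensor, tmap_tmap,
      LinearMap.id_comp, LinearMap.comp_id, eXev, ← hproj' (FX.i₀, FX.i₀) q, tmap_tmap,
      LinearMap.id_comp, sub_self]
  have hXg : ∃ ψ : ∀ i, A i, TensorProduct.map LinearMap.id (FY.toSide.ev ∘ₗ FY.toSide.Δ) cg =
      FX.toSide.δ ψ ⊗ₜ[K] 1 := by
    obtain ⟨ψ, hψ⟩ := hX
    refine ⟨ψ, ?_⟩
    rw [← sub_eq_zero]
    refine eq_zero_of_rTensor_proj (K := K) (N := fun p : I × I => A₂ p.1 p.2) _ fun p => ?_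
    show (LinearMap.rTensor K (pX p)) _ = 0
    rw [map_sub, LinearMap.rTensor_tmul, eXδ, ← hψ p.1 p.2, LinearMap.rTensor, tmap_tmap,
      LinearMap.id_comp, LinearMap.comp_id, eYev, ← hproj' p (FY.i₀, FY.i₀), tmap_tmap,
      LinearMap.id_comp, sub_self]
  obtain ⟨e, he⟩ := kunneth_global FX.toSide FY.toSide cg hC1 hC2 hYg hXg
  refine ⟨fun i j => TensorProduct.map (LinearMap.proj (R := K) (φ := A) i)
    (LinearMap.proj (R := K) (φ := B) j) e, fun i i' j j' => ?_⟩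
  have hr1X : ∀ p : I × I, pX p ∘ₗ FX.toSide.r₁ = FX.rl p.1 p.2 ∘ₗ LinearMap.proj p.1 := by
    intro p; ext s; simp [pX, FamSide.toSide]
  have hr2X : ∀ p : I × I, pX p ∘ₗ FX.toSide.r₂ = FX.rr p.1 p.2 ∘ₗ LinearMap.proj p.2 := by
    intro p; ext s; simp [pX, FamSide.toSide]
  have hr1Y : ∀ q : J × J, pY q ∘ₗ FY.toSide.r₁ = FY.rl q.1 q.2 ∘ₗ LinearMap.proj q.1 := by
    intro q; ext s; simp [pY, FamSide.toSide]
  have hr2Y : ∀ q : J × J, pY q ∘ₗ FY.toSide.r₂ = FY.rr q.1 q.2 ∘ₗ LinearMap.proj q.2 := by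
    intro q; ext s; simp [pY, FamSide.toSide]
  have := hproj' (i, i') (j, j')
  rw [he] at this
  rw [← this]
  unfold δW
  rw [LinearMap.sub_apply, map_sub, tmap_tmap, tmap_tmap, hr1X, hr2X, hr1Y, hr2Y, tmap_tmap,
    tmap_tmap]

end family

end Fermat.Agent.AV.CubeKunneth
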