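/-
PROJECT AV (S26) — lead — small bricks for the concrete thickening step:
* (L1) `exists_unit_lift_of_nil`: lifting global units through a nil-thickening of the base
  (shape of the `hliftX`/`hliftY` hypotheses of helper1's `isTrivial_of_thickExact`);
* (L2) `surjective_base_of_nil_kernel`, `surjective_section_of_isPullback`: a `K`-point of an
  affine scheme whose comorphism has nil kernel is surjective, and so is the induced section of
  `W ×_K S ⟶ W`.
-/
import Mathlib

set_option autoImplicit false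

open AlgebraicGeometry CategoryTheory Limits Opposite TopologicalSpace

universe u

namespace Fermat.Agent.AV

namespace ThkLift

/-- a surjective ring hom with nil kernel reflects units. -/
theorem isUnit_of_map_of_nil_kernel {R R₁ : Type*} [CommRing R] [CommRing R₁] (π : R →+* R₁)
    (hsurj : Function.Surjective π) (hnil : ∀ r : R, π r = 0 → IsNilpotent r) (r : R)
    (hr : IsUnit (π r)) : IsUnit r := by
  obtain ⟨v, hv⟩ := hr
  obtain ⟨w, hw⟩ := hsurj (↑v⁻¹ : R₁)
  have h0 : π (r * w - 1) = 0 := by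
    rw [map_sub, map_mul, map_one, hw, ← hv, Units.mul_inv, sub_self]
  have hn : IsNilpotent (r * w - 1) := hnil _ h0
  have hu : IsUnit (r * w) := by
    have := hn.isUnit_add_one
    rwa [sub_add_cancel] at this
  exact isUnit_of_mul_isUnit_left hu

/-- **(L1)** lifting of global units through a nil-thickening of the base: `XR ⟶ S`,
`XR₁ ⟶ S₁` with `Γ(XR₁) = Γ(S₁)`, and `S₁ ⟶ S` a nil-thickening. -/
theorem exists_unit_lift_of_nil {XR XR₁ S S₁ : Scheme.{u}} (π : S₁ ⟶ S) (qS : XR ⟶ S)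
    (qS₁ : XR₁ ⟶ S₁) (jX : XR₁ ⟶ XR) (hj2 : jX ≫ qS = qS₁ ≫ π)
    (hΓ₁ : Function.Bijective qS₁.appTop.hom)
    (hsurj : Function.Surjective π.appTop.hom)
    (hnil : ∀ r : Γ(S, ⊤), π.appTop.hom r = 0 → IsNilpotent r) :
    ∀ ub : Γ(XR₁, ⊤), IsUnit ub → ∃ r : Γ(XR, ⊤), IsUnit r ∧ jX.appTop.hom r = ub := by
  intro ub hub
  -- `ub` comes from a unit `v` of `Γ(S₁)`
  let E : Γ(S₁, ⊤) ≃+* Γ(XR₁, ⊤) := RingEquiv.ofBijective qS₁.appTop.hom hΓ₁
  have hv : IsUnit (E.symm ub) := hub.map E.symm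
  have hEv : qS₁.appTop.hom (E.symm ub) = ub := E.apply_symm_apply ub
  obtain ⟨r₀, hr₀⟩ := hsurj (E.symm ub)
  have hr₀u : IsUnit r₀ :=
    isUnit_of_map_of_nil_kernel π.appTop.hom hsurj hnil r₀ (by rw [hr₀]; exact hv)
  refine ⟨qS.appTop.hom r₀, hr₀u.map _, ?_⟩
  have h := congrArg (fun φ => φ.appTop.hom r₀) hj2
  simp only [Scheme.Hom.comp_appTop, CommRingCat.hom_comp, RingHom.comp_apply] at h
  rw [h, hr₀, hEv]

/-- a ring hom to a field, surjective with nil kernel, induces a surjection on prime spectra. -/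
theorem comap_surjective_of_nil_kernel {R R₁ : Type*} [CommRing R] [CommRing R₁] (φ : R →+* R₁)
    (hsurj : Function.Surjective φ) (hnil : ∀ r : R, φ r = 0 → IsNilpotent r) :
    Function.Surjective (PrimeSpectrum.comap φ) := by
  rw [← Set.range_eq_univ, _root_.range_comap_of_surjective _ φ hsurj,
    PrimeSpectrum.zeroLocus_eq_univ_iff]
  intro r hr
  exact mem_nilradical.mpr (hnil r hr)

/-- **(L2a)** a morphism from an affine scheme to an affine scheme whose comorphism on global
sections is surjective with nil kernel is surjective on points. -/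
theorem surjective_base_of_nil_kernel {P S : Scheme.{u}} [IsAffine P] [IsAffine S] (σ : P ⟶ S)
    (hsurj : Function.Surjective σ.appTop.hom)
    (hnil : ∀ r : Γ(S, ⊤), σ.appTop.hom r = 0 → IsNilpotent r) :
    Function.Surjective σ.base := by
  have hnat : σ ≫ S.toSpecΓ = P.toSpecΓ ≫ Spec.map σ.appTop := Scheme.toSpecΓ_naturality σ
  have h1 : Function.Surjective (Spec.map σ.appTop).base :=
    comap_surjective_of_nil_kernel σ.appTop.hom hsurj hnil
  have h2 : Function.Surjective (P.toSpecΓ ≫ Spec.map σ.appTop).base := by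
    rw [Scheme.Hom.comp_base]
    exact h1.comp (ConcreteCategory.bijective_of_isIso P.toSpecΓ.base).2
  rw [← hnat, Scheme.Hom.comp_base] at h2
  intro y
  obtain ⟨x, hx⟩ := h2 (S.toSpecΓ.base y)
  refine ⟨x, ?_⟩
  exact (ConcreteCategory.bijective_of_isIso S.toSpecΓ.base).1 hx

/-- **(L2b)** the section `s : W ⟶ WR = W ×_K S` induced by a `K`-point `σ` of `S` is a base
change of `σ`; in particular it is surjective as soon as `σ` is. -/
theorem isPullback_section {B W WR S : Scheme.{u}} (iW : W ⟶ B) (iS : S ⟶ B)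
    {qW : WR ⟶ W} {qS : WR ⟶ S} (HR : IsPullback qW qS iW iS) (σ : B ⟶ S) (hσ : σ ≫ iS = 𝟙 B)
    (s : W ⟶ WR) (hs1 : s ≫ qW = 𝟙 W) (hs2 : s ≫ qS = iW ≫ σ) : IsPullback s iW qS σ := by
  have hright : IsPullback qS qW iS iW := HR.flip
  -- the outer rectangle is `(iW, 𝟙; 𝟙, iW)`-like
  have houter : IsPullback (s ≫ qW) iW iW (σ ≫ iS) := by
    rw [hs1, hσ]
    exact IsPullback.of_horiz_isIso ⟨by simp⟩
  -- `of_right` : outer and right pullbacks ⇒ left pullback
  have := IsPullback.of_right (h₁₁ := s) (h₁₂ := qW) (v₁₁ := iW) (v₁₂ := qS) (v₁₃ := iW)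
    (h₂₁ := σ) (h₂₂ := iS) houter hs2 HR.flip.flip
  exact this.flip.flip

theorem surjective_section_of_isPullback {B W WR S : Scheme.{u}} (iW : W ⟶ B) (iS : S ⟶ B)
    {qW : WR ⟶ W} {qS : WR ⟶ S} (HR : IsPullback qW qS iW iS) (σ : B ⟶ S) (hσ : σ ≫ iS = 𝟙 B)
    (s : W ⟶ WR) (hs1 : s ≫ qW = 𝟙 W) (hs2 : s ≫ qS = iW ≫ σ)
    (hσsurj : Function.Surjective σ.base) : Function.Surjective s.base := by
  have hP := isPullback_section iW iS HR σ hσ s hs1 hs2
  have : Surjective σ := ⟨hσsurj⟩
  have : Surjective s := MorphismProperty.of_isPullback hP.flip inferInstance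
  exact this.surj

end ThkLift

end Fermat.Agent.AV
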